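/-
S55 (fifth wave), GLOBAL side, package [HERB] part 1 (helper26).

Elementary Herbrand quotient calculus for an additive commutative group `A` with two
endomorphisms `f g` such that `f ∘ g = 0 = g ∘ f`:
  `herb_idx f g = [ker f : im g]`  (a natural number, `0` if the index is infinite).
The Herbrand quotient is `herb_idx f g / herb_idx g f`.

Main results (all identities hold in `ℕ`, with the convention `0` = infinite):
* `herb_idx_mul` : multiplicativity for a stable subgroup `B ≤ A` and the quotient `A ⧸ B`;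
* `herb_idx_finite` : a finite group has Herbrand quotient `1`;
* `herb_idx_ne_zero_*` : finiteness propagation (two out of three).
Mathlib only.
-/
import Mathlib

set_option autoImplicit false

namespace Fermat.Agent.S55

open AddSubgroup

variable {A : Type*} [AddCommGroup A]

/-- `[ker f : im g]` as a natural number (`0` if infinite). -/
noncomputable def herb_idx (f g : A →+ A) : ℕ := g.range.relIndex f.ker

theorem herb_range_le_ker (f g : A →+ A) (hfg : ∀ a, f (g a) = 0) : g.range ≤ f.ker := by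
  rintro _ ⟨a, rfl⟩
  exact (AddMonoidHom.mem_ker).2 (hfg a)

/-! ### Three lattice identities -/

theorem herb_alpha (Z I B : AddSubgroup A) (h : I ≤ Z) :
    I.relIndex (Z ⊓ B ⊔ I) = (I ⊓ B).relIndex (Z ⊓ B) := by
  rw [AddSubgroup.relIndex_sup_right, ← AddSubgroup.inf_relIndex_right]
  congr 1
  rw [← inf_assoc, inf_eq_left.2 h]

theorem herb_beta (Z I B : AddSubgroup A) (h : I ≤ Z) :
    (I ⊔ B).relIndex (Z ⊔ B) = (Z ⊓ B ⊔ I).relIndex Z := by
  have h1 : Z ⊔ B = (I ⊔ B) ⊔ Z := by
    rw [sup_comm (I ⊔ B) Z, ← sup_assoc, sup_eq_left.2 h]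
  rw [h1, AddSubgroup.relIndex_sup_left, ← AddSubgroup.inf_relIndex_right]
  congr 1
  -- modular law
  rw [sup_comm (Z ⊓ B) I, inf_comm Z B]
  exact (sup_inf_assoc_of_le B h)

theorem herb_gamma (f : A →+ A) (B : AddSubgroup A) :
    (B ⊔ f.ker).relIndex (B.comap f) = (B.map f).relIndex (B ⊓ f.range) := by
  have := AddSubgroup.relIndex_comap (B.map f) f (B.comap f)
  rw [AddSubgroup.comap_map_eq, AddSubgroup.map_comap_eq] at this
  rw [this, inf_comm]


/-! ### Sub-object and quotient-object indices inside the ambient group -/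

section exact

variable {A' A'' : Type*} [AddCommGroup A'] [AddCommGroup A'']

/-- index of a sub-object computed in the ambient group -/
theorem herb_idx_sub (i : A' →+ A) (hi : Function.Injective i)
    (f' g' : A' →+ A') (f g : A →+ A)
    (hfi : ∀ a, i (f' a) = f (i a)) (hgi : ∀ a, i (g' a) = g (i a)) :
    herb_idx f' g' = (i.range.map g).relIndex (f.ker ⊓ i.range) := by
  unfold herb_idx
  rw [← AddSubgroup.relIndex_map_map_of_injective g'.range f'.ker hi]
  congr 1
  · ext x
    constructor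
    · rintro ⟨_, ⟨a, rfl⟩, rfl⟩
      exact ⟨i a, ⟨a, rfl⟩, (hgi a).symm⟩
    · rintro ⟨_, ⟨a, rfl⟩, rfl⟩
      exact ⟨g' a, ⟨a, rfl⟩, hgi a⟩
  · ext x
    constructor
    · rintro ⟨a, ha, rfl⟩
      refine ⟨?_, ⟨a, rfl⟩⟩
      have ha' : f' a = 0 := ha
      show f (i a) = 0
      rw [← hfi, ha', map_zero]
    · rintro ⟨hx, ⟨a, rfl⟩⟩
      refine ⟨a, ?_, rfl⟩
      have hx' : f (i a) = 0 := hx
      show f' a = 0
      apply hi
      rw [hfi, hx', map_zero]

/-- index of a quotient object computed in the ambient group -/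
theorem herb_idx_quot (π : A →+ A'') (hπ : Function.Surjective π)
    (f g : A →+ A) (f'' g'' : A'' →+ A'')
    (hfπ : ∀ a, π (f a) = f'' (π a)) (hgπ : ∀ a, π (g a) = g'' (π a)) :
    herb_idx f'' g'' = (g.range ⊔ π.ker).relIndex (π.ker.comap f) := by
  unfold herb_idx
  have h1 : (π.ker.comap f).map π = f''.ker := by
    ext x
    constructor
    · rintro ⟨a, ha, rfl⟩
      have ha' : π (f a) = 0 := ha
      show f'' (π a) = 0
      rw [← hfπ, ha']
    · intro hx
      obtain ⟨a, rfl⟩ := hπ x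
      refine ⟨a, ?_, rfl⟩
      have hx' : f'' (π a) = 0 := hx
      show π (f a) = 0
      rw [hfπ, hx']
  have h2 : g''.range.comap π = g.range ⊔ π.ker := by
    ext a
    constructor
    · rintro ⟨y, hy⟩
      obtain ⟨b, rfl⟩ := hπ y
      have : a - g b ∈ π.ker := by
        show π (a - g b) = 0
        rw [map_sub, hgπ, hy, sub_self]
      have h3 : a = g b + (a - g b) := by abel
      rw [h3]
      exact AddSubgroup.add_mem_sup ⟨b, rfl⟩ this
    · intro ha
      rw [AddSubgroup.mem_sup] at ha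
      obtain ⟨y, ⟨b, rfl⟩, z, hz, rfl⟩ := ha
      have hz' : π z = 0 := hz
      refine ⟨π b, ?_⟩
      show g'' (π b) = π (g b + z)
      rw [map_add, hz', add_zero, hgπ]
  rw [← h1, ← AddSubgroup.relIndex_comap, h2]

variable (i : A' →+ A) (π : A →+ A'') (hi : Function.Injective i)
  (hπ : Function.Surjective π) (hex : π.ker = i.range)
  (f' g' : A' →+ A') (f g : A →+ A) (f'' g'' : A'' →+ A'')
  (hfi : ∀ a, i (f' a) = f (i a)) (hgi : ∀ a, i (g' a) = g (i a))
  (hfπ : ∀ a, π (f a) = f'' (π a)) (hgπ : ∀ a, π (g a) = g'' (π a))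
  (hfg : ∀ a, f (g a) = 0) (hgf : ∀ a, g (f a) = 0)

include hi hfi hgi hfg in
/-- `[ker f' : im g'] = γ_g * α_f` -/
theorem herb_idx_sub_factor :
    herb_idx f' g' = (i.range.map g).relIndex (i.range ⊓ g.range) *
      (g.range ⊓ i.range).relIndex (f.ker ⊓ i.range) := by
  rw [herb_idx_sub i hi f' g' f g hfi hgi, inf_comm i.range g.range]
  refine (AddSubgroup.relIndex_mul_relIndex _ _ _ ?_ ?_).symm
  · rintro _ ⟨_, ⟨a, rfl⟩, rfl⟩
    exact ⟨⟨i a, rfl⟩, ⟨g' a, hgi a⟩⟩
  · exact inf_le_inf_right _ (herb_range_le_ker f g hfg)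

include hfg in
/-- `[ker f : im g] = α_f * β_f` -/
theorem herb_idx_mid_factor (B : AddSubgroup A) :
    herb_idx f g = (g.range ⊓ B).relIndex (f.ker ⊓ B) * (f.ker ⊓ B ⊔ g.range).relIndex f.ker := by
  have h := herb_range_le_ker f g hfg
  rw [← herb_alpha f.ker g.range B h]
  refine (AddSubgroup.relIndex_mul_relIndex _ _ _ le_sup_right ?_).symm
  exact sup_le inf_le_left h

include hπ hex hfi hfπ hgπ hfg in
/-- `[ker f'' : im g''] = β_f * γ_f` -/
theorem herb_idx_quot_factor :
    herb_idx f'' g'' = (f.ker ⊓ i.range ⊔ g.range).relIndex f.ker *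
      (i.range.map f).relIndex (i.range ⊓ f.range) := by
  have h := herb_range_le_ker f g hfg
  rw [herb_idx_quot π hπ f g f'' g'' hfπ hgπ, hex, ← herb_beta f.ker g.range i.range h,
    ← herb_gamma f i.range, sup_comm i.range f.ker]
  refine (AddSubgroup.relIndex_mul_relIndex _ _ _ (sup_le_sup_right h _) ?_).symm
  refine sup_le ?_ ?_
  · intro z hz
    have hz' : f z = 0 := hz
    show f z ∈ i.range
    rw [hz']
    exact zero_mem _
  · rintro _ ⟨a, rfl⟩
    exact ⟨f' a, hfi a⟩

include hi hπ hex hfi hgi hfπ hgπ hfg hgf in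
/-- **Multiplicativity of the Herbrand quotient** (identity in `ℕ`, `0` = infinite index):
for an exact sequence `0 → A' → A → A'' → 0` compatible with `(f, g)`. -/
theorem herb_idx_mul :
    herb_idx f g * (herb_idx g' f' * herb_idx g'' f'') =
      herb_idx g f * (herb_idx f' g' * herb_idx f'' g'') := by
  rw [herb_idx_mid_factor f g hfg i.range, herb_idx_mid_factor g f hgf i.range,
    herb_idx_sub_factor i hi f' g' f g hfi hgi hfg,
    herb_idx_sub_factor i hi g' f' g f hgi hfi hgf,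
    herb_idx_quot_factor i π hπ hex f' f g f'' g'' hfi hfπ hgπ hfg,
    herb_idx_quot_factor i π hπ hex g' g f g'' f'' hgi hgπ hfπ hgf]
  ring

/-- finiteness of both indices -/
def herb_Fin {X : Type*} [AddCommGroup X] (f g : X →+ X) : Prop :=
  herb_idx f g ≠ 0 ∧ herb_idx g f ≠ 0

include hi hπ hex hfi hgi hfπ hgπ hfg hgf in
theorem herb_fin_quot (h' : herb_Fin f' g') (h : herb_Fin f g) : herb_Fin f'' g'' := by
  obtain ⟨h1, h2⟩ := h'
  obtain ⟨h3, h4⟩ := h
  rw [herb_idx_sub_factor i hi f' g' f g hfi hgi hfg] at h1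
  rw [herb_idx_sub_factor i hi g' f' g f hgi hfi hgf] at h2
  rw [herb_idx_mid_factor f g hfg i.range] at h3
  rw [herb_idx_mid_factor g f hgf i.range] at h4
  constructor
  · rw [herb_idx_quot_factor i π hπ hex f' f g f'' g'' hfi hfπ hgπ hfg]
    exact Nat.mul_ne_zero (Nat.ne_zero_of_mul_ne_zero_right h3) (Nat.ne_zero_of_mul_ne_zero_left h2)
  · rw [herb_idx_quot_factor i π hπ hex g' g f g'' f'' hgi hgπ hfπ hgf]
    exact Nat.mul_ne_zero (Nat.ne_zero_of_mul_ne_zero_right h4) (Nat.ne_zero_of_mul_ne_zero_left h1)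

include hi hπ hex hfi hgi hfπ hgπ hfg hgf in
theorem herb_fin_mid (h' : herb_Fin f' g') (h'' : herb_Fin f'' g'') : herb_Fin f g := by
  obtain ⟨h1, h2⟩ := h'
  obtain ⟨h3, h4⟩ := h''
  rw [herb_idx_sub_factor i hi f' g' f g hfi hgi hfg] at h1
  rw [herb_idx_sub_factor i hi g' f' g f hgi hfi hgf] at h2
  rw [herb_idx_quot_factor i π hπ hex f' f g f'' g'' hfi hfπ hgπ hfg] at h3
  rw [herb_idx_quot_factor i π hπ hex g' g f g'' f'' hgi hgπ hfπ hgf] at h4
  constructor
  · rw [herb_idx_mid_factor f g hfg i.range]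
    exact Nat.mul_ne_zero (Nat.ne_zero_of_mul_ne_zero_right h1) (Nat.ne_zero_of_mul_ne_zero_left h3)
  · rw [herb_idx_mid_factor g f hgf i.range]
    exact Nat.mul_ne_zero (Nat.ne_zero_of_mul_ne_zero_right h2) (Nat.ne_zero_of_mul_ne_zero_left h4)

include hi hπ hex hfi hgi hfπ hgπ hfg hgf in
theorem herb_fin_sub (h : herb_Fin f g) (h'' : herb_Fin f'' g'') : herb_Fin f' g' := by
  obtain ⟨h1, h2⟩ := h
  obtain ⟨h3, h4⟩ := h''
  rw [herb_idx_mid_factor f g hfg i.range] at h1
  rw [herb_idx_mid_factor g f hgf i.range] at h2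
  rw [herb_idx_quot_factor i π hπ hex f' f g f'' g'' hfi hfπ hgπ hfg] at h3
  rw [herb_idx_quot_factor i π hπ hex g' g f g'' f'' hgi hgπ hfπ hgf] at h4
  constructor
  · rw [herb_idx_sub_factor i hi f' g' f g hfi hgi hfg]
    exact Nat.mul_ne_zero (Nat.ne_zero_of_mul_ne_zero_right h4) (Nat.ne_zero_of_mul_ne_zero_left h1)
  · rw [herb_idx_sub_factor i hi g' f' g f hgi hfi hgf]
    exact Nat.mul_ne_zero (Nat.ne_zero_of_mul_ne_zero_right h3) (Nat.ne_zero_of_mul_ne_zero_left h2)

end exact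

end Fermat.Agent.S55
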