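/-
S55 (fifth wave), GLOBAL side, package [HERB] part 2 (helper26).

Basic values of the elementary Herbrand indices `herb_idx f g = [ker f : im g]`:
finite groups, invariance under isomorphism, finite-index subgroups, binary products,
the trivial module `ℤ`, and the rational Herbrand quotient `herb_q`.
Mathlib only.
-/
import Fermat.Agent.S55.Global.HerbIndex

set_option autoImplicit false

namespace Fermat.Agent.S55

open AddSubgroup

variable {A : Type*} [AddCommGroup A]

/-- A finite group has Herbrand quotient `1`. -/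
theorem herb_idx_finite [Finite A] (f g : A →+ A) (hfg : ∀ a, f (g a) = 0)
    (hgf : ∀ a, g (f a) = 0) : herb_idx f g = herb_idx g f := by
  have key : ∀ (f g : A →+ A), (∀ a, f (g a) = 0) →
      Nat.card g.range * herb_idx f g * Nat.card f.range = Nat.card A := by
    intro f g hfg
    have h1 : Nat.card g.range * herb_idx f g = Nat.card f.ker := by
      have := AddSubgroup.relIndex_mul_relIndex (⊥ : AddSubgroup A) g.range f.ker bot_le
        (herb_range_le_ker f g hfg)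
      rwa [AddSubgroup.relIndex_bot_left, AddSubgroup.relIndex_bot_left] at this
    rw [h1, ← AddSubgroup.card_mul_index f.ker, AddSubgroup.index_ker]
  have h1 := key f g hfg
  have h2 := key g f hgf
  have hf : 0 < Nat.card f.range := Nat.card_pos
  have hg : 0 < Nat.card g.range := Nat.card_pos
  have h3 : Nat.card g.range * herb_idx f g * Nat.card f.range =
      Nat.card g.range * herb_idx g f * Nat.card f.range := by
    rw [h1, ← h2]; ring
  exact Nat.eq_of_mul_eq_mul_left hg (Nat.eq_of_mul_eq_mul_right hf h3)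

theorem herb_idx_ne_zero_of_finite [Finite A] (f g : A →+ A) : herb_idx f g ≠ 0 := by
  unfold herb_idx AddSubgroup.relIndex
  exact AddSubgroup.index_ne_zero_of_finite

theorem herb_fin_of_finite [Finite A] (f g : A →+ A) : herb_Fin f g :=
  ⟨herb_idx_ne_zero_of_finite f g, herb_idx_ne_zero_of_finite g f⟩

/-- Invariance under an isomorphism commuting with `f`. -/
theorem herb_idx_congr {A' : Type*} [AddCommGroup A'] (e : A' ≃+ A)
    (f' g' : A' →+ A') (f g : A →+ A)
    (hf : ∀ a, e (f' a) = f (e a)) (hg : ∀ a, e (g' a) = g (e a)) :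
    herb_idx f' g' = herb_idx f g := by
  rw [herb_idx_sub e.toAddMonoidHom e.injective f' g' f g hf hg]
  have h1 : (e.toAddMonoidHom).range = ⊤ := AddMonoidHom.range_eq_top.2 e.surjective
  rw [h1, inf_top_eq]
  unfold herb_idx
  congr 1
  ext x
  simp [AddMonoidHom.mem_range]

theorem herb_fin_congr {A' : Type*} [AddCommGroup A'] (e : A' ≃+ A)
    (f' g' : A' →+ A') (f g : A →+ A)
    (hf : ∀ a, e (f' a) = f (e a)) (hg : ∀ a, e (g' a) = g (e a)) :
    herb_Fin f' g' ↔ herb_Fin f g := by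
  unfold herb_Fin
  rw [herb_idx_congr e f' g' f g hf hg, herb_idx_congr e g' f' g f hg hf]

/-- The rational Herbrand quotient. -/
noncomputable def herb_q {X : Type*} [AddCommGroup X] (f g : X →+ X) : ℚ :=
  (herb_idx f g : ℚ) / (herb_idx g f : ℚ)

theorem herb_q_finite [Finite A] (f g : A →+ A) (hfg : ∀ a, f (g a) = 0)
    (hgf : ∀ a, g (f a) = 0) : herb_q f g = 1 := by
  unfold herb_q
  rw [herb_idx_finite f g hfg hgf]
  exact div_self (Nat.cast_ne_zero.2 (herb_idx_ne_zero_of_finite g f))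

theorem herb_q_ne_zero {X : Type*} [AddCommGroup X] (f g : X →+ X) (h : herb_Fin f g) :
    herb_q f g ≠ 0 :=
  div_ne_zero (Nat.cast_ne_zero.2 h.1) (Nat.cast_ne_zero.2 h.2)

theorem herb_q_congr {A' : Type*} [AddCommGroup A'] (e : A' ≃+ A)
    (f' g' : A' →+ A') (f g : A →+ A)
    (hf : ∀ a, e (f' a) = f (e a)) (hg : ∀ a, e (g' a) = g (e a)) :
    herb_q f' g' = herb_q f g := by
  unfold herb_q
  rw [herb_idx_congr e f' g' f g hf hg, herb_idx_congr e g' f' g f hg hf]

section exact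

variable {A' A'' : Type*} [AddCommGroup A'] [AddCommGroup A'']
variable (i : A' →+ A) (π : A →+ A'') (hi : Function.Injective i)
  (hπ : Function.Surjective π) (hex : π.ker = i.range)
  (f' g' : A' →+ A') (f g : A →+ A) (f'' g'' : A'' →+ A'')
  (hfi : ∀ a, i (f' a) = f (i a)) (hgi : ∀ a, i (g' a) = g (i a))
  (hfπ : ∀ a, π (f a) = f'' (π a)) (hgπ : ∀ a, π (g a) = g'' (π a))
  (hfg : ∀ a, f (g a) = 0) (hgf : ∀ a, g (f a) = 0)

include hi hπ hex hfi hgi hfπ hgπ hfg hgf in
/-- Multiplicativity of the rational Herbrand quotient. -/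
theorem herb_q_mul (h' : herb_Fin f' g') (h'' : herb_Fin f'' g'') :
    herb_q f g = herb_q f' g' * herb_q f'' g'' := by
  have h := herb_fin_mid i π hi hπ hex f' g' f g f'' g'' hfi hgi hfπ hgπ hfg hgf h' h''
  have key := herb_idx_mul i π hi hπ hex f' g' f g f'' g'' hfi hgi hfπ hgπ hfg hgf
  have keyQ : (herb_idx f g : ℚ) * ((herb_idx g' f' : ℚ) * (herb_idx g'' f'' : ℚ)) =
      (herb_idx g f : ℚ) * ((herb_idx f' g' : ℚ) * (herb_idx f'' g'' : ℚ)) := by
    exact_mod_cast key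
  unfold herb_q
  have e1 : (herb_idx g f : ℚ) ≠ 0 := Nat.cast_ne_zero.2 h.2
  have e2 : (herb_idx g' f' : ℚ) ≠ 0 := Nat.cast_ne_zero.2 h'.2
  have e3 : (herb_idx g'' f'' : ℚ) ≠ 0 := Nat.cast_ne_zero.2 h''.2
  field_simp
  linarith [keyQ]

include hi hπ hex hfi hgi hfπ hgπ hfg hgf in
/-- A stable subgroup with finite quotient has the same Herbrand quotient. -/
theorem herb_q_of_finite_quot [Finite A''] (h' : herb_Fin f' g') :
    herb_q f g = herb_q f' g' := by
  have hfg'' : ∀ a, f'' (g'' a) = 0 := by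
    intro a
    obtain ⟨b, rfl⟩ := hπ a
    rw [← hgπ, ← hfπ, hfg, map_zero]
  have hgf'' : ∀ a, g'' (f'' a) = 0 := by
    intro a
    obtain ⟨b, rfl⟩ := hπ a
    rw [← hfπ, ← hgπ, hgf, map_zero]
  rw [herb_q_mul i π hi hπ hex f' g' f g f'' g'' hfi hgi hfπ hgπ hfg hgf h'
    (herb_fin_of_finite f'' g''), herb_q_finite f'' g'' hfg'' hgf'', mul_one]

include hi hπ hex hfi hgi hfπ hgπ hfg hgf in
/-- A finite stable subgroup does not change the Herbrand quotient. -/
theorem herb_q_of_finite_sub [Finite A'] (h'' : herb_Fin f'' g'') :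
    herb_q f g = herb_q f'' g'' := by
  have hfg' : ∀ a, f' (g' a) = 0 := by
    intro a
    apply hi
    rw [hfi, hgi, hfg, map_zero]
  have hgf' : ∀ a, g' (f' a) = 0 := by
    intro a
    apply hi
    rw [hgi, hfi, hgf, map_zero]
  rw [herb_q_mul i π hi hπ hex f' g' f g f'' g'' hfi hgi hfπ hgπ hfg hgf
    (herb_fin_of_finite f' g') h'', herb_q_finite f' g' hfg' hgf', one_mul]

end exact

/-! ### Binary products -/

section prod

variable {X Y : Type*} [AddCommGroup X] [AddCommGroup Y]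

theorem herb_fin_prod (fX gX : X →+ X) (fY gY : Y →+ Y)
    (hX : ∀ a, fX (gX a) = 0) (hX' : ∀ a, gX (fX a) = 0)
    (hY : ∀ a, fY (gY a) = 0) (hY' : ∀ a, gY (fY a) = 0)
    (h1 : herb_Fin fX gX) (h2 : herb_Fin fY gY) :
    herb_Fin (fX.prodMap fY) (gX.prodMap gY) := by
  refine herb_fin_mid (AddMonoidHom.inl X Y) (AddMonoidHom.snd X Y) ?_ ?_ ?_
    fX gX (fX.prodMap fY) (gX.prodMap gY) fY gY ?_ ?_ ?_ ?_ ?_ ?_ h1 h2
  · intro a b h; simpa using h
  · intro b; exact ⟨(0, b), rfl⟩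
  · ext ⟨a, b⟩
    simp only [AddMonoidHom.mem_ker, AddMonoidHom.coe_snd, AddMonoidHom.mem_range,
      AddMonoidHom.inl_apply, Prod.mk.injEq]
    constructor
    · intro h; exact ⟨a, rfl, h.symm⟩
    · rintro ⟨_, _, h⟩; exact h.symm
  · intro a; simp
  · intro a; simp
  · rintro ⟨a, b⟩; simp
  · rintro ⟨a, b⟩; simp
  · rintro ⟨a, b⟩; simp [hX, hY]
  · rintro ⟨a, b⟩; simp [hX', hY']

theorem herb_q_prod (fX gX : X →+ X) (fY gY : Y →+ Y)
    (hX : ∀ a, fX (gX a) = 0) (hX' : ∀ a, gX (fX a) = 0)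
    (hY : ∀ a, fY (gY a) = 0) (hY' : ∀ a, gY (fY a) = 0)
    (h1 : herb_Fin fX gX) (h2 : herb_Fin fY gY) :
    herb_q (fX.prodMap fY) (gX.prodMap gY) = herb_q fX gX * herb_q fY gY := by
  refine herb_q_mul (AddMonoidHom.inl X Y) (AddMonoidHom.snd X Y) ?_ ?_ ?_
    fX gX (fX.prodMap fY) (gX.prodMap gY) fY gY ?_ ?_ ?_ ?_ ?_ ?_ h1 h2
  · intro a b h; simpa using h
  · intro b; exact ⟨(0, b), rfl⟩
  · ext ⟨a, b⟩
    simp only [AddMonoidHom.mem_ker, AddMonoidHom.coe_snd, AddMonoidHom.mem_range,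
      AddMonoidHom.inl_apply, Prod.mk.injEq]
    constructor
    · intro h; exact ⟨a, rfl, h.symm⟩
    · rintro ⟨_, _, h⟩; exact h.symm
  · intro a; simp
  · intro a; simp
  · rintro ⟨a, b⟩; simp
  · rintro ⟨a, b⟩; simp
  · rintro ⟨a, b⟩; simp [hX, hY]
  · rintro ⟨a, b⟩; simp [hX', hY']

end prod

/-! ### The trivial module `ℤ`: `f = 0`, `g = n` -/

theorem herb_idx_int_zero_mul (n : ℕ) :
    herb_idx (0 : ℤ →+ ℤ) (AddMonoidHom.mulLeft (n : ℤ)) = n := by
  unfold herb_idx
  have h1 : (0 : ℤ →+ ℤ).ker = ⊤ := by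
    ext x; simp
  have h2 : (AddMonoidHom.mulLeft (n : ℤ)).range = AddSubgroup.zmultiples (n : ℤ) := by
    ext x
    simp only [AddMonoidHom.mem_range, AddMonoidHom.coe_mulLeft, AddSubgroup.mem_zmultiples_iff,
      smul_eq_mul]
    constructor
    · rintro ⟨y, rfl⟩; exact ⟨y, mul_comm _ _⟩
    · rintro ⟨y, rfl⟩; exact ⟨y, mul_comm _ _⟩
  rw [h1, h2, AddSubgroup.relIndex_top_right, Int.index_zmultiples, Int.natAbs_natCast]

theorem herb_idx_int_mul_zero (n : ℕ) (hn : n ≠ 0) :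
    herb_idx (AddMonoidHom.mulLeft (n : ℤ)) (0 : ℤ →+ ℤ) = 1 := by
  unfold herb_idx
  rw [AddSubgroup.relIndex_eq_one]
  intro x hx
  have hx' : (n : ℤ) * x = 0 := hx
  have : x = 0 := by
    rcases mul_eq_zero.1 hx' with h | h
    · exact absurd (by exact_mod_cast h) hn
    · exact h
  rw [this]
  exact zero_mem _

theorem herb_q_int (n : ℕ) (hn : n ≠ 0) :
    herb_q (0 : ℤ →+ ℤ) (AddMonoidHom.mulLeft (n : ℤ)) = n := by
  unfold herb_q
  rw [herb_idx_int_zero_mul, herb_idx_int_mul_zero n hn]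
  simp

end Fermat.Agent.S55
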