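/-
S55 (fifth wave), GLOBAL side, package [HERB] part 3 (helper26): the cyclic-group wrapper.

For a group element `g` acting on an additive commutative group `A` (`DistribMulAction G A`):
  `herb_del g = g - 1`,   `herb_nrm g n = 1 + g + ... + g^(n-1)`.
If `g ^ n = 1` then `herb_del g ∘ herb_nrm g n = 0 = herb_nrm g n ∘ herb_del g`, so that
`herb_idx (herb_del g) (herb_nrm g n) = [A^g : N A]` (`= #Ĥ⁰`) and
`herb_idx (herb_nrm g n) (herb_del g) = [ker N : (g - 1) A]` (`= #H¹ = #Ĥ⁻¹`)
are the two orders in the Herbrand quotient of the cyclic group generated by `g`.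
Mathlib only.
-/
import Fermat.Agent.S55.Global.HerbBasic

set_option autoImplicit false

namespace Fermat.Agent.S55

variable {G : Type*} [Monoid G] {A : Type*} [AddCommGroup A] [DistribMulAction G A]

/-- `a ↦ g • a - a`. -/
def herb_del (g : G) : A →+ A := DistribSMul.toAddMonoidHom A g - AddMonoidHom.id A

/-- `a ↦ ∑_{k < n} g ^ k • a`. -/
def herb_nrm (g : G) (n : ℕ) : A →+ A :=
  ∑ k ∈ Finset.range n, DistribSMul.toAddMonoidHom A (g ^ k)

@[simp] theorem herb_del_apply (g : G) (a : A) : herb_del g a = g • a - a := rfl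

@[simp] theorem herb_nrm_apply (g : G) (n : ℕ) (a : A) :
    herb_nrm g n a = ∑ k ∈ Finset.range n, g ^ k • a := by
  simp [herb_nrm]

theorem herb_smul_nrm (g : G) (n : ℕ) (a : A) :
    g • herb_nrm g n a = herb_nrm g n (g • a) := by
  simp only [herb_nrm_apply, Finset.smul_sum]
  refine Finset.sum_congr rfl fun k _ => ?_
  rw [← mul_smul, ← mul_smul, ← pow_succ', pow_succ]

theorem herb_del_nrm_eq (g : G) (n : ℕ) (a : A) :
    herb_del g (herb_nrm g n a) = g ^ n • a - a := by
  induction n with
  | zero => simp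
  | succ n ih =>
    have h1 : herb_nrm g (n + 1) a = herb_nrm g n a + g ^ n • a := by
      simp only [herb_nrm_apply, Finset.sum_range_succ]
    rw [h1, map_add, ih, herb_del_apply, ← mul_smul, ← pow_succ']
    abel

theorem herb_nrm_del_eq (g : G) (n : ℕ) (a : A) :
    herb_nrm g n (herb_del g a) = g ^ n • a - a := by
  rw [herb_del_apply, map_sub, ← herb_smul_nrm]
  exact herb_del_nrm_eq g n a

theorem herb_del_nrm (g : G) (n : ℕ) (hg : g ^ n = 1) (a : A) :
    herb_del g (herb_nrm g n a) = 0 := by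
  rw [herb_del_nrm_eq, hg, one_smul, sub_self]

theorem herb_nrm_del (g : G) (n : ℕ) (hg : g ^ n = 1) (a : A) :
    herb_nrm g n (herb_del g a) = 0 := by
  rw [herb_nrm_del_eq, hg, one_smul, sub_self]

theorem herb_mem_ker_del_iff (g : G) (a : A) : a ∈ (herb_del g : A →+ A).ker ↔ g • a = a := by
  rw [AddMonoidHom.mem_ker, herb_del_apply, sub_eq_zero]

/-- Trivial action: `herb_del = 0`. -/
theorem herb_del_eq_zero_of_trivial (g : G) (h : ∀ a : A, g • a = a) :
    (herb_del g : A →+ A) = 0 := by
  ext a; simp [h a]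

/-- Trivial action: `herb_nrm g n = n`. -/
theorem herb_nrm_of_trivial (g : G) (n : ℕ) (h : ∀ a : A, g • a = a) (a : A) :
    herb_nrm g n a = n • a := by
  have hk : ∀ k : ℕ, g ^ k • a = a := by
    intro k
    induction k with
    | zero => simp
    | succ k ih => rw [pow_succ, mul_smul, h, ih]
  simp [herb_nrm_apply, hk]

end Fermat.Agent.S55
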