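/-
S55 (fifth wave), GLOBAL side, package [IDL] part 1 (helper26): the idele MODEL.

For a field `F` of characteristic `0` (in practice a number field, Galois over `ℚ`) and a
prime `q`, the semi-local component of the ideles at `q` is modelled as the group of
`Gal(Ω_q/ℚ_q)`-equivariant functions
    `f : (F →ₐ[ℚ] Ω_q) → Ω_qˣ`,   `f (τ ∘ ι) = τ (f ι)`,      `Ω_q = PadicAlgCl q`
(canonically `(F ⊗ ℚ_q)ˣ = ∏_{w ∣ q} F_wˣ`; automatically `f ι ∈ ℚ_q · ι(F)`).
`F ≃ₐ[ℚ] F` acts by `(σ • f) ι = f (ι ∘ σ)`; `Fˣ` embeds by `x ↦ (ι ↦ ι x)`.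
The (finite) ideles `gl_J F` are the families `(f_q)_q` with `‖f_q ι‖ = 1` for almost all `q`.
Because `p` is odd and only `p`-groups act, the archimedean components are cohomologically
trivial and are left out of the model (they enter only through the unit theorem).

No tensor products, no completions; compatible with the concrete local model
`IntermediateField ℚ_[q] (PadicAlgCl q)` of `S55/Local`.
-/
import Mathlib

set_option autoImplicit false

namespace Fermat.Agent.S55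

noncomputable section

/-- The local absolute Galois group at `q`. -/
abbrev gl_GQq (q : ℕ) [Fact q.Prime] : Type := PadicAlgCl q ≃ₐ[ℚ_[q]] PadicAlgCl q

section local_component

variable (q : ℕ) [Fact q.Prime] (F : Type*) [Field F] [Algebra ℚ F]

/-- `τ ∈ Gal(Ω_q/ℚ_q)` as a `ℚ`-algebra endomorphism of `Ω_q`. -/
def gl_tauQ (τ : gl_GQq q) : PadicAlgCl q →ₐ[ℚ] PadicAlgCl q :=
  { (τ : PadicAlgCl q →+* PadicAlgCl q) with
    commutes' := fun r => by
      show τ (algebraMap ℚ (PadicAlgCl q) r) = algebraMap ℚ (PadicAlgCl q) r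
      simp }

@[simp] theorem gl_tauQ_apply (τ : gl_GQq q) (x : PadicAlgCl q) : gl_tauQ q τ x = τ x := rfl

/-- The action of the local Galois group on the embeddings of `F`. -/
def gl_twist (τ : gl_GQq q) (ι : F →ₐ[ℚ] PadicAlgCl q) : F →ₐ[ℚ] PadicAlgCl q :=
  (gl_tauQ q τ).comp ι

@[simp] theorem gl_twist_apply (τ : gl_GQq q) (ι : F →ₐ[ℚ] PadicAlgCl q) (x : F) :
    gl_twist q F τ ι x = τ (ι x) := rfl

theorem gl_twist_one (ι : F →ₐ[ℚ] PadicAlgCl q) : gl_twist q F 1 ι = ι := by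
  ext x; rfl

theorem gl_twist_mul (τ τ' : gl_GQq q) (ι : F →ₐ[ℚ] PadicAlgCl q) :
    gl_twist q F (τ * τ') ι = gl_twist q F τ (gl_twist q F τ' ι) := by
  ext x; rfl

/-- The semi-local ideles of `F` at `q`: equivariant unit-valued functions on the embeddings. -/
def gl_Jq : Subgroup ((F →ₐ[ℚ] PadicAlgCl q) → (PadicAlgCl q)ˣ) where
  carrier := {f | ∀ (τ : gl_GQq q) (ι : F →ₐ[ℚ] PadicAlgCl q),
    f (gl_twist q F τ ι) = Units.map (τ : PadicAlgCl q →* PadicAlgCl q) (f ι)}
  one_mem' := fun τ ι => by simp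
  mul_mem' := fun {f g} hf hg τ ι => by
    simp only [Pi.mul_apply, map_mul]
    rw [hf τ ι, hg τ ι]
  inv_mem' := fun {f} hf τ ι => by
    simp only [Pi.inv_apply, map_inv]
    rw [hf τ ι]

theorem gl_mem_Jq_iff (f : (F →ₐ[ℚ] PadicAlgCl q) → (PadicAlgCl q)ˣ) :
    f ∈ gl_Jq q F ↔ ∀ (τ : gl_GQq q) (ι : F →ₐ[ℚ] PadicAlgCl q),
      ((f (gl_twist q F τ ι) : (PadicAlgCl q)ˣ) : PadicAlgCl q) = τ (f ι : PadicAlgCl q) := by
  constructor
  · intro h τ ι
    rw [h τ ι]; rfl
  · intro h τ ι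
    apply Units.ext
    rw [h τ ι]; rfl

/-- The semi-local units at `q`. -/
def gl_Uq : Subgroup (gl_Jq q F) where
  carrier := {f | ∀ ι : F →ₐ[ℚ] PadicAlgCl q, ‖((f.1 ι : (PadicAlgCl q)ˣ) : PadicAlgCl q)‖ = 1}
  one_mem' := fun ι => by simp
  mul_mem' := fun {f g} hf hg ι => by
    have h1 := hf ι
    have h2 := hg ι
    simp only [Subgroup.coe_mul, Pi.mul_apply, Units.val_mul, norm_mul]
    rw [h1, h2, mul_one]
  inv_mem' := fun {f} hf ι => by
    have h1 := hf ι
    simp only [Subgroup.coe_inv, Pi.inv_apply, Units.val_inv_eq_inv_val, norm_inv]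
    rw [h1, inv_one]

theorem gl_mem_Uq_iff (f : gl_Jq q F) :
    f ∈ gl_Uq q F ↔ ∀ ι : F →ₐ[ℚ] PadicAlgCl q,
      ‖((f.1 ι : (PadicAlgCl q)ˣ) : PadicAlgCl q)‖ = 1 := Iff.rfl

/-- The diagonal embedding `Fˣ → J_q`. -/
def gl_diagq : Fˣ →* gl_Jq q F where
  toFun x := ⟨fun ι => Units.map (ι : F →* PadicAlgCl q) x, fun τ ι => by
    apply Units.ext; rfl⟩
  map_one' := by
    apply Subtype.ext; funext ι; simp
  map_mul' x y := by
    apply Subtype.ext; funext ι; simp

@[simp] theorem gl_diagq_apply (x : Fˣ) (ι : F →ₐ[ℚ] PadicAlgCl q) :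
    (((gl_diagq q F x).1 ι : (PadicAlgCl q)ˣ) : PadicAlgCl q) = ι (x : F) := rfl

/-- Galois action on the semi-local ideles: `(σ • f) ι = f (ι ∘ σ)`. -/
instance gl_actJq : MulDistribMulAction (F ≃ₐ[ℚ] F) (gl_Jq q F) where
  smul σ f := ⟨fun ι => f.1 (ι.comp (σ : F →ₐ[ℚ] F)), fun τ ι => by
    have := f.2 τ (ι.comp (σ : F →ₐ[ℚ] F))
    exact this⟩
  one_smul f := by
    apply Subtype.ext; funext ι; rfl
  mul_smul σ ρ f := by
    apply Subtype.ext; funext ι; rfl
  smul_mul σ f g := by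
    apply Subtype.ext; funext ι; rfl
  smul_one σ := by
    apply Subtype.ext; funext ι; rfl

@[simp] theorem gl_smul_Jq_apply (σ : F ≃ₐ[ℚ] F) (f : gl_Jq q F) (ι : F →ₐ[ℚ] PadicAlgCl q) :
    (σ • f).1 ι = f.1 (ι.comp (σ : F →ₐ[ℚ] F)) := rfl

theorem gl_smul_diagq (σ : F ≃ₐ[ℚ] F) (x : Fˣ) :
    σ • gl_diagq q F x = gl_diagq q F (Units.map (σ : F →* F) x) := by
  apply Subtype.ext; funext ι; apply Units.ext; rfl

theorem gl_smul_mem_Uq (σ : F ≃ₐ[ℚ] F) (f : gl_Jq q F) (hf : f ∈ gl_Uq q F) :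
    σ • f ∈ gl_Uq q F := fun ι => hf _

end local_component

section global

variable (F : Type*) [Field F] [Algebra ℚ F]

/-- The semi-local component at `q : Nat.Primes`. -/
abbrev gl_JP (q : Nat.Primes) : Type _ :=
  letI : Fact (q : ℕ).Prime := ⟨q.2⟩
  gl_Jq (q : ℕ) F

/-- The semi-local units at `q : Nat.Primes`. -/
def gl_UP (q : Nat.Primes) : Subgroup (gl_JP F q) :=
  letI : Fact (q : ℕ).Prime := ⟨q.2⟩
  gl_Uq (q : ℕ) F

/-- The (finite) ideles of `F`. -/
def gl_J : Subgroup ((q : Nat.Primes) → gl_JP F q) where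
  carrier := {x | {q : Nat.Primes | x q ∉ gl_UP F q}.Finite}
  one_mem' := by
    have : {q : Nat.Primes | (1 : (q : Nat.Primes) → gl_JP F q) q ∉ gl_UP F q} = ∅ := by
      ext q
      simp only [Set.mem_ofPred_eq, Set.mem_empty_iff_false, iff_false, not_not]
      exact (gl_UP F q).one_mem
    show Set.Finite _
    rw [this]
    exact Set.finite_empty
  mul_mem' := fun {x y} hx hy => by
    refine (hx.union hy).subset ?_
    intro q hq
    by_contra h
    simp only [Set.mem_union, Set.mem_ofPred_eq, not_or, not_not] at h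
    exact hq ((gl_UP F q).mul_mem h.1 h.2)
  inv_mem' := fun {x} hx => by
    refine hx.subset ?_
    intro q hq h
    exact hq ((gl_UP F q).inv_mem h)

/-- The `T`-ideles: units outside the finite set `T`. -/
def gl_JT (T : Set Nat.Primes) : Subgroup (gl_J F) where
  carrier := {x | ∀ q, q ∉ T → x.1 q ∈ gl_UP F q}
  one_mem' := fun q _ => (gl_UP F q).one_mem
  mul_mem' := fun {x y} hx hy q hq => (gl_UP F q).mul_mem (hx q hq) (hy q hq)
  inv_mem' := fun {x} hx q hq => (gl_UP F q).inv_mem (hx q hq)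

/-- Galois action on the product of all semi-local components. -/
instance gl_actJP (q : Nat.Primes) : MulDistribMulAction (F ≃ₐ[ℚ] F) (gl_JP F q) :=
  letI : Fact (q : ℕ).Prime := ⟨q.2⟩
  gl_actJq (q : ℕ) F

theorem gl_smul_mem_UP (σ : F ≃ₐ[ℚ] F) (q : Nat.Primes) (f : gl_JP F q)
    (hf : f ∈ gl_UP F q) : σ • f ∈ gl_UP F q :=
  letI : Fact (q : ℕ).Prime := ⟨q.2⟩
  gl_smul_mem_Uq (q : ℕ) F σ f hf

theorem gl_smul_mem_UP_iff (σ : F ≃ₐ[ℚ] F) (q : Nat.Primes) (f : gl_JP F q) :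
    σ • f ∈ gl_UP F q ↔ f ∈ gl_UP F q := by
  constructor
  · intro h
    have := gl_smul_mem_UP F σ⁻¹ q _ h
    rwa [inv_smul_smul] at this
  · exact gl_smul_mem_UP F σ q f

/-- Galois action on the ideles. -/
instance gl_actJ : MulDistribMulAction (F ≃ₐ[ℚ] F) (gl_J F) where
  smul σ x := ⟨fun q => σ • x.1 q, by
    refine x.2.subset ?_
    intro q hq h
    exact hq ((gl_smul_mem_UP_iff F σ q _).2 h)⟩
  one_smul x := by
    apply Subtype.ext; funext q; exact one_smul _ _
  mul_smul σ ρ x := by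
    apply Subtype.ext; funext q; exact mul_smul _ _ _
  smul_mul σ x y := by
    apply Subtype.ext; funext q; exact smul_mul' _ _ _
  smul_one σ := by
    apply Subtype.ext; funext q; exact smul_one _

@[simp] theorem gl_smul_J_apply (σ : F ≃ₐ[ℚ] F) (x : gl_J F) (q : Nat.Primes) :
    (σ • x).1 q = σ • x.1 q := rfl

/-- The ideles as a `ℤ`-linear representation of `Gal(F/ℚ)`. -/
def gl_JRep : Rep ℤ (F ≃ₐ[ℚ] F) := Rep.ofMulDistribMulAction (F ≃ₐ[ℚ] F) (gl_J F)


/-- The diagonal embedding at `q : Nat.Primes`. -/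
def gl_diagP (q : Nat.Primes) : Fˣ →* gl_JP F q :=
  letI : Fact (q : ℕ).Prime := ⟨q.2⟩
  gl_diagq (q : ℕ) F

theorem gl_smul_diagP (σ : F ≃ₐ[ℚ] F) (q : Nat.Primes) (x : Fˣ) :
    σ • gl_diagP F q x = gl_diagP F q (Units.map (σ : F →* F) x) :=
  letI : Fact (q : ℕ).Prime := ⟨q.2⟩
  gl_smul_diagq (q : ℕ) F σ x

/-- The principal ideles: the ideles which are the diagonal image of an element of `Fˣ`.
(For a number field every element of `Fˣ` gives an idele: package [IDL-DIAG].) -/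
def gl_P : Subgroup (gl_J F) where
  carrier := {x | ∃ a : Fˣ, ∀ q, x.1 q = gl_diagP F q a}
  one_mem' := ⟨1, fun q => by simp⟩
  mul_mem' := by
    rintro x y ⟨a, ha⟩ ⟨b, hb⟩
    refine ⟨a * b, fun q => ?_⟩
    show x.1 q * y.1 q = _
    rw [ha q, hb q, map_mul]
  inv_mem' := by
    rintro x ⟨a, ha⟩
    refine ⟨a⁻¹, fun q => ?_⟩
    show (x.1 q)⁻¹ = _
    rw [ha q, map_inv]

theorem gl_mem_P_iff (x : gl_J F) : x ∈ gl_P F ↔ ∃ a : Fˣ, ∀ q, x.1 q = gl_diagP F q a :=
  Iff.rfl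

theorem gl_smul_mem_P (σ : F ≃ₐ[ℚ] F) (x : gl_J F) (hx : x ∈ gl_P F) : σ • x ∈ gl_P F := by
  obtain ⟨a, ha⟩ := hx
  refine ⟨Units.map (σ : F →* F) a, fun q => ?_⟩
  rw [gl_smul_J_apply, ha q, gl_smul_diagP]

/-- The idele class group. -/
abbrev gl_C : Type _ := gl_J F ⧸ gl_P F

/-- The automorphism of the idele class group induced by `σ`. -/
def gl_actCHom (σ : F ≃ₐ[ℚ] F) : gl_C F →* gl_C F :=
  QuotientGroup.map (gl_P F) (gl_P F) (MulDistribMulAction.toMonoidHom (gl_J F) σ)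
    (fun x hx => gl_smul_mem_P F σ x hx)

@[simp] theorem gl_actCHom_mk (σ : F ≃ₐ[ℚ] F) (x : gl_J F) :
    gl_actCHom F σ (QuotientGroup.mk x) = QuotientGroup.mk (σ • x) := rfl

/-- Galois action on the idele class group. -/
instance gl_actC : MulDistribMulAction (F ≃ₐ[ℚ] F) (gl_C F) where
  smul σ c := gl_actCHom F σ c
  one_smul c := by
    induction c using QuotientGroup.induction_on with
    | H x => show gl_actCHom F 1 (QuotientGroup.mk x) = _; rw [gl_actCHom_mk, one_smul]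
  mul_smul σ ρ c := by
    induction c using QuotientGroup.induction_on with
    | H x =>
      show gl_actCHom F (σ * ρ) (QuotientGroup.mk x) =
        gl_actCHom F σ (gl_actCHom F ρ (QuotientGroup.mk x))
      rw [gl_actCHom_mk, gl_actCHom_mk, gl_actCHom_mk, mul_smul]
  smul_mul σ c d := map_mul (gl_actCHom F σ) c d
  smul_one σ := map_one (gl_actCHom F σ)

@[simp] theorem gl_smul_mk (σ : F ≃ₐ[ℚ] F) (x : gl_J F) :
    σ • (QuotientGroup.mk x : gl_C F) = QuotientGroup.mk (σ • x) := rfl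

end global

/-! ### Additive versions (for the elementwise finite-group toolkit `S55/FG`) -/

section additive

/-- A multiplicative distributive action gives a distributive action on `Additive`. -/
def gl_addAct (M A : Type*) [Monoid M] [CommGroup A] [MulDistribMulAction M A] :
    DistribMulAction M (Additive A) where
  smul m a := Additive.ofMul (m • a.toMul)
  one_smul a := by
    show Additive.ofMul ((1 : M) • a.toMul) = a
    rw [one_smul]; rfl
  mul_smul m n a := by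
    show Additive.ofMul ((m * n) • a.toMul) = Additive.ofMul (m • (n • a.toMul))
    rw [mul_smul]
  smul_zero m := by
    show Additive.ofMul (m • (1 : A)) = 0
    rw [smul_one]; rfl
  smul_add m a b := by
    show Additive.ofMul (m • (a.toMul * b.toMul)) = _
    rw [smul_mul']; rfl

end additive

end

end Fermat.Agent.S55
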