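/-
S55 (fifth wave), GLOBAL side (helper26): INTERFACE FILE, part 1 (layers G1-G5).

Everything here is a DEFINITION or a `Prop`-valued STATEMENT (no proofs of arithmetic); the
packages prove the statements, the files `Global/*Of.lean` prove the implications between them.
All statements are ELEMENTWISE: a number field is a type `F` with `[Field F] [NumberField F]`
(NOT necessarily Galois over `ℚ`), the group is any subgroup `H` of `F ≃ₐ[ℚ] F`
(so `F / F^H` is an arbitrary finite Galois extension of number fields), the module is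
`Additive (gl_C F)` (idele classes of the model `Global/IdeleDefs.lean`), cocycles are Mathlib's
`groupCohomology.IsCocycle₁/₂`, vanishing is helper19's `fg_H1Zero`, ..., indices are
`herb_idx f g = [ker f : im g]` with `herb_del σ = σ - 1`, `herb_nrm σ n = 1 + σ + ... + σ^(n-1)`.

Textbook references: CF = Cassels-Froehlich, Algebraic Number Theory, Ch. VII (Tate);
N = Neukirch, Algebraic Number Theory, Ch. VI;  L = Lang, Algebraic Number Theory, Ch. IX.

Only `p`-primary statements for an ODD prime `p` are needed, and Herbrand quotients only for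
cyclic groups of PRIME order `p`; therefore the archimedean components are absent from the model
(an automorphism of odd order acts freely on the archimedean places).
-/
import Mathlib
import Fermat.Agent.S55.Global.IdeleDefs
import Fermat.Agent.S55.Global.HerbCyc
import Fermat.Agent.S55.FG.Defs

set_option autoImplicit false

namespace Fermat.Agent.S55

open groupCohomology

noncomputable section

/-! ### Modules -/

section modules

variable (F : Type) [Field F] [Algebra ℚ F]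

/-- The `T`-ideles are stable under the Galois action. -/
theorem gl_smul_mem_JT (T : Set Nat.Primes) (σ : F ≃ₐ[ℚ] F) (x : gl_J F)
    (hx : x ∈ gl_JT F T) : σ • x ∈ gl_JT F T :=
  fun q hq => gl_smul_mem_UP F σ q _ (hx q hq)

/-- Galois action on the `T`-ideles. -/
instance gl_actJT (T : Set Nat.Primes) : MulDistribMulAction (F ≃ₐ[ℚ] F) ↥(gl_JT F T) where
  smul σ x := ⟨σ • x.1, gl_smul_mem_JT F T σ x.1 x.2⟩
  one_smul _ := Subtype.ext (one_smul _ _)
  mul_smul _ _ _ := Subtype.ext (mul_smul _ _ _)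
  smul_mul _ _ _ := Subtype.ext (smul_mul' _ _ _)
  smul_one _ := Subtype.ext (smul_one _)

@[simp] theorem gl_smul_JT_coe (T : Set Nat.Primes) (σ : F ≃ₐ[ℚ] F) (x : ↥(gl_JT F T)) :
    ((σ • x : ↥(gl_JT F T)) : gl_J F) = σ • (x : gl_J F) := rfl

/-- The `T`-units of `F`: the elements of `Fˣ` which are units at every prime outside `T`. -/
def gl_ET (T : Set Nat.Primes) : Subgroup Fˣ where
  carrier := {a | ∀ q, q ∉ T → gl_diagP F q a ∈ gl_UP F q}
  one_mem' := fun q _ => by rw [map_one]; exact (gl_UP F q).one_mem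
  mul_mem' := fun {a b} ha hb q hq => by
    rw [map_mul]; exact (gl_UP F q).mul_mem (ha q hq) (hb q hq)
  inv_mem' := fun {a} ha q hq => by
    rw [map_inv]; exact (gl_UP F q).inv_mem (ha q hq)

theorem gl_mem_ET_iff (T : Set Nat.Primes) (a : Fˣ) :
    a ∈ gl_ET F T ↔ ∀ q, q ∉ T → gl_diagP F q a ∈ gl_UP F q := Iff.rfl

theorem gl_smul_mem_ET (T : Set Nat.Primes) (σ : F ≃ₐ[ℚ] F) (a : Fˣ) (ha : a ∈ gl_ET F T) :
    σ • a ∈ gl_ET F T := by
  intro q hq
  have h := gl_smul_mem_UP F σ q _ (ha q hq)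
  rw [gl_smul_diagP] at h
  exact h

/-- Galois action on the `T`-units. -/
instance gl_actET (T : Set Nat.Primes) : MulDistribMulAction (F ≃ₐ[ℚ] F) ↥(gl_ET F T) where
  smul σ x := ⟨σ • x.1, gl_smul_mem_ET F T σ x.1 x.2⟩
  one_smul _ := Subtype.ext (one_smul _ _)
  mul_smul _ _ _ := Subtype.ext (mul_smul _ _ _)
  smul_mul _ _ _ := Subtype.ext (smul_mul' _ _ _)
  smul_one _ := Subtype.ext (smul_one _)

@[simp] theorem gl_smul_ET_coe (T : Set Nat.Primes) (σ : F ≃ₐ[ℚ] F) (x : ↥(gl_ET F T)) :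
    ((σ • x : ↥(gl_ET F T)) : Fˣ) = σ • (x : Fˣ) := rfl

/-- Additive form of the Galois module `Fˣ`. -/
instance gl_actFA : DistribMulAction (F ≃ₐ[ℚ] F) (Additive Fˣ) := gl_addAct (F ≃ₐ[ℚ] F) Fˣ

/-- Additive form of the Galois module of ideles. -/
instance gl_actJA : DistribMulAction (F ≃ₐ[ℚ] F) (Additive (gl_J F)) :=
  gl_addAct (F ≃ₐ[ℚ] F) (gl_J F)

/-- Additive form of the Galois module of idele classes. -/
instance gl_actCA : DistribMulAction (F ≃ₐ[ℚ] F) (Additive (gl_C F)) :=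
  gl_addAct (F ≃ₐ[ℚ] F) (gl_C F)

/-- Additive form of the Galois module of `T`-ideles. -/
instance gl_actJTA (T : Set Nat.Primes) :
    DistribMulAction (F ≃ₐ[ℚ] F) (Additive ↥(gl_JT F T)) :=
  gl_addAct (F ≃ₐ[ℚ] F) ↥(gl_JT F T)

/-- Additive form of the Galois module of `T`-units. -/
instance gl_actETA (T : Set Nat.Primes) :
    DistribMulAction (F ≃ₐ[ℚ] F) (Additive ↥(gl_ET F T)) :=
  gl_addAct (F ≃ₐ[ℚ] F) ↥(gl_ET F T)

@[simp] theorem gl_smul_ofMul {A : Type*} [CommGroup A] [MulDistribMulAction (F ≃ₐ[ℚ] F) A]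
    (σ : F ≃ₐ[ℚ] F) (a : A) :
    letI := gl_addAct (F ≃ₐ[ℚ] F) A
    σ • Additive.ofMul a = Additive.ofMul (σ • a) := rfl

end modules

/-! ### Places above a rational prime -/

section places

variable (q : ℕ) [Fact q.Prime] (F : Type) [Field F] [Algebra ℚ F]

/-- Two embeddings `F → Ω_q` define the same place iff they are conjugate under
`Gal(Ω_q/ℚ_q)`. -/
def gl_placeSetoid : Setoid (F →ₐ[ℚ] PadicAlgCl q) where
  r ι ι' := ∃ τ : gl_GQq q, ι' = gl_twist q F τ ι
  iseqv :=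
    { refl := fun ι => ⟨1, (gl_twist_one q F ι).symm⟩
      symm := by
        rintro ι ι' ⟨τ, rfl⟩
        refine ⟨τ⁻¹, ?_⟩
        rw [← gl_twist_mul, inv_mul_cancel, gl_twist_one]
      trans := by
        rintro ι ι' ι'' ⟨τ, rfl⟩ ⟨τ', rfl⟩
        exact ⟨τ' * τ, by rw [gl_twist_mul]⟩ }

/-- The places of `F` above `q`. -/
def gl_Place : Type := Quotient (gl_placeSetoid q F)

/-- The place of an embedding. -/
def gl_placeOf (ι : F →ₐ[ℚ] PadicAlgCl q) : gl_Place q F := Quotient.mk (gl_placeSetoid q F) ι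

/-- The (right) action of an automorphism of `F` on the places above `q`:
`[ι] ↦ [ι ∘ σ]`. -/
def gl_placeMap (σ : F ≃ₐ[ℚ] F) : gl_Place q F → gl_Place q F :=
  Quotient.map' (s₁ := gl_placeSetoid q F) (s₂ := gl_placeSetoid q F)
    (fun ι => ι.comp (σ : F →ₐ[ℚ] F)) (by
      rintro ι ι' ⟨τ, rfl⟩
      exact ⟨τ, rfl⟩)

@[simp] theorem gl_placeMap_placeOf (σ : F ≃ₐ[ℚ] F) (ι : F →ₐ[ℚ] PadicAlgCl q) :
    gl_placeMap q F σ (gl_placeOf q F ι) = gl_placeOf q F (ι.comp (σ : F →ₐ[ℚ] F)) := rfl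

/-- The decomposition group of the embedding `ι` (= of its place): the `σ` with
`ι ∘ σ = τ ∘ ι` for some `τ ∈ Gal(Ω_q/ℚ_q)`. -/
def gl_decomp (ι : F →ₐ[ℚ] PadicAlgCl q) : Subgroup (F ≃ₐ[ℚ] F) where
  carrier := {σ | ∃ τ : gl_GQq q, ι.comp (σ : F →ₐ[ℚ] F) = gl_twist q F τ ι}
  one_mem' := ⟨1, by rw [gl_twist_one]; rfl⟩
  mul_mem' := by
    rintro σ ρ ⟨τ, hτ⟩ ⟨τ', hτ'⟩
    refine ⟨τ * τ', ?_⟩
    have h1 : ι.comp ((σ * ρ : F ≃ₐ[ℚ] F) : F →ₐ[ℚ] F) =
        (ι.comp (σ : F →ₐ[ℚ] F)).comp (ρ : F →ₐ[ℚ] F) := rfl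
    rw [h1, hτ, gl_twist_mul, ← hτ']
    rfl
  inv_mem' := by
    rintro σ ⟨τ, hτ⟩
    refine ⟨τ⁻¹, ?_⟩
    have h1 : gl_twist q F τ⁻¹ (ι.comp (σ : F →ₐ[ℚ] F)) = ι := by
      rw [hτ, ← gl_twist_mul, inv_mul_cancel, gl_twist_one]
    have h2 : ι.comp ((σ⁻¹ : F ≃ₐ[ℚ] F) : F →ₐ[ℚ] F) =
        (gl_twist q F τ⁻¹ (ι.comp (σ : F →ₐ[ℚ] F))).comp ((σ⁻¹ : F ≃ₐ[ℚ] F) : F →ₐ[ℚ] F) := by
      rw [h1]
    rw [h2]
    ext x
    show τ⁻¹ (ι (σ (σ⁻¹ x))) = τ⁻¹ (ι x)
    rw [show σ (σ⁻¹ x) = x from σ.apply_symm_apply x]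

theorem gl_mem_decomp_iff (ι : F →ₐ[ℚ] PadicAlgCl q) (σ : F ≃ₐ[ℚ] F) :
    σ ∈ gl_decomp q F ι ↔ ∃ τ : gl_GQq q, ι.comp (σ : F →ₐ[ℚ] F) = gl_twist q F τ ι := Iff.rfl

/-- `F` is unramified at `q` (over `ℚ`): the value group of every embedding is `q^ℤ`. -/
def gl_UnramAt : Prop :=
  ∀ (ι : F →ₐ[ℚ] PadicAlgCl q) (x : F), x ≠ 0 → ∃ n : ℤ, ‖ι x‖ = (q : ℝ) ^ n

end places

section placesP

variable (F : Type) [Field F] [Algebra ℚ F]

/-- The number of places of `F` above `q` which are fixed by `σ`. -/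
def gl_fixCount (σ : F ≃ₐ[ℚ] F) (q : Nat.Primes) : ℕ :=
  letI : Fact (q : ℕ).Prime := ⟨q.2⟩
  Nat.card {w : gl_Place (q : ℕ) F // gl_placeMap (q : ℕ) F σ w = w}

/-- The number of places of `F` above the primes in `T` which are fixed by `σ`. -/
def gl_fixTotal (σ : F ≃ₐ[ℚ] F) (T : Finset Nat.Primes) : ℕ := ∑ q ∈ T, gl_fixCount F σ q

/-- The set of primes which ramify in `F`. -/
def gl_ram : Set Nat.Primes :=
  {q | ¬ (letI : Fact (q : ℕ).Prime := ⟨q.2⟩; gl_UnramAt (q : ℕ) F)}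

end placesP

/-! ### Layer G1: ideles of a number field -/

/-- **[IDL-DIAG]** every `a ∈ Fˣ` is a unit at almost all primes, i.e. defines an idele.
(Integrality of `a` and `a⁻¹` over `ℤ[1/N]`, and `‖ι a‖ ≤ 1` for `a` integral over `ℤ_q`.) -/
def gl_DiagStatement : Prop :=
  ∀ (F : Type) [Field F] [NumberField F] (a : Fˣ),
    (fun q => gl_diagP F q a) ∈ gl_J F

/-- **[RAM-FIN]** only finitely many primes ramify in a number field. -/
def gl_RamFiniteStatement : Prop :=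
  ∀ (F : Type) [Field F] [NumberField F], (gl_ram F).Finite

/-- **[IDL-CLASS]** finiteness of the class group, idelic form: `J = Fˣ · J_T` for every
sufficiently large finite `T`  (CF II.17, N VI.1.4). -/
def gl_ClassStatement : Prop :=
  ∀ (F : Type) [Field F] [NumberField F], ∃ T₀ : Finset Nat.Primes,
    ∀ T : Finset Nat.Primes, T₀ ⊆ T → gl_P F ⊔ gl_JT F (T : Set Nat.Primes) = ⊤

/-! ### Layer G2: Herbrand quotients of `T`-ideles and `T`-units (cyclic of prime order) -/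

/-- **[J-COH]** for `σ` of odd prime order `p` and `T` finite containing the ramified primes:
`Ĥ⁰(⟨σ⟩, J_T)` has order `p ^ #{places above T fixed by σ}` and `H¹(⟨σ⟩, J_T) = 0`.
(Semi-local Shapiro + local norm index `[K_v^× : N L_w^×] = p` + Hilbert 90 + unramified units;
CF VII.3 Prop. 7.3 + Cor., N VI.3.) -/
def gl_JTHerbStatement : Prop :=
  ∀ (F : Type) [Field F] [NumberField F] (p : ℕ), p.Prime → p ≠ 2 →
    ∀ σ : F ≃ₐ[ℚ] F, orderOf σ = p → ∀ T : Finset Nat.Primes, gl_ram F ⊆ (T : Set Nat.Primes) →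
      herb_idx (A := Additive ↥(gl_JT F (T : Set Nat.Primes))) (herb_del σ) (herb_nrm σ p) =
          p ^ gl_fixTotal F σ T ∧
        herb_idx (A := Additive ↥(gl_JT F (T : Set Nat.Primes))) (herb_nrm σ p) (herb_del σ) = 1

/-- **[T-UNIT]** Herbrand quotient of the `T`-units for `σ` of odd prime order `p`:
`q(E_T) = p ^ #{places above T fixed by σ} / p`  (Dirichlet's unit theorem for `T`-units,
`E_T ⊗ ℝ ≅` hyperplane of the permutation module on the places, + lattice lemma;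
CF VII.8 Prop. 8.3 / IV.8, N VI.3.5 / VI.1.1, L IX §4). -/
def gl_UnitHerbStatement : Prop :=
  ∀ (F : Type) [Field F] [NumberField F] (p : ℕ), p.Prime → p ≠ 2 →
    ∀ σ : F ≃ₐ[ℚ] F, orderOf σ = p → ∀ T : Finset Nat.Primes,
      herb_Fin (X := Additive ↥(gl_ET F (T : Set Nat.Primes))) (herb_del σ) (herb_nrm σ p) ∧
        p * herb_idx (A := Additive ↥(gl_ET F (T : Set Nat.Primes))) (herb_del σ) (herb_nrm σ p) =
          p ^ gl_fixTotal F σ T *
            herb_idx (A := Additive ↥(gl_ET F (T : Set Nat.Primes))) (herb_nrm σ p) (herb_del σ)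

/-! ### Layer G3: the two inequalities -/

/-- **[FIRST]** the first inequality (Herbrand quotient of the idele class group), for `σ` of
odd prime order `p`:  `#Ĥ⁰(⟨σ⟩, C_F) = p · #H¹(⟨σ⟩, C_F)`, both finite  (CF VII.8 Thm. 8.1). -/
def gl_FirstStatement : Prop :=
  ∀ (F : Type) [Field F] [NumberField F] (p : ℕ), p.Prime → p ≠ 2 →
    ∀ σ : F ≃ₐ[ℚ] F, orderOf σ = p →
      herb_Fin (X := Additive (gl_C F)) (herb_del σ) (herb_nrm σ p) ∧
        herb_idx (A := Additive (gl_C F)) (herb_del σ) (herb_nrm σ p) =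
          p * herb_idx (A := Additive (gl_C F)) (herb_nrm σ p) (herb_del σ)

/-- **[SECOND]** the second inequality in the Kummer case: if `F` contains a primitive `p`-th
root of unity and `σ` has order `p`, then `[C_F^σ : N C_F]` divides `p`
(CF VII.9 Thm. 9.1, N VI.4.4, L IX §5). -/
def gl_SecondStatement : Prop :=
  ∀ (F : Type) [Field F] [NumberField F] (p : ℕ), p.Prime → p ≠ 2 →
    (∃ ζ : F, IsPrimitiveRoot ζ p) →
    ∀ σ : F ≃ₐ[ℚ] F, orderOf σ = p →
      herb_idx (A := Additive (gl_C F)) (herb_del σ) (herb_nrm σ p) ∣ p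

/-- **[CYC-P]** cyclic layers of degree `p`: `#Ĥ⁰ = p` and `#Ĥ⁻¹ = 1`. -/
def gl_CycPStatement : Prop :=
  ∀ (F : Type) [Field F] [NumberField F] (p : ℕ), p.Prime → p ≠ 2 →
    (∃ ζ : F, IsPrimitiveRoot ζ p) →
    ∀ σ : F ≃ₐ[ℚ] F, orderOf σ = p →
      herb_idx (A := Additive (gl_C F)) (herb_del σ) (herb_nrm σ p) = p ∧
        herb_idx (A := Additive (gl_C F)) (herb_nrm σ p) (herb_del σ) = 1

/-! ### Layer G4: Galois descent (subfields) -/

section descent

variable (L : Type) [Field L] [CharZero L] (M : IntermediateField ℚ L)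

/-- Semi-local ideles of a subfield `M ⊆ L` as semi-local ideles of `L`:
`f ↦ (ι ↦ f (ι|_M))`. -/
def gl_resq (q : ℕ) [Fact q.Prime] : gl_Jq q ↥M →* gl_Jq q L where
  toFun f := ⟨fun ι => f.1 (ι.comp M.val), fun τ ι => f.2 τ (ι.comp M.val)⟩
  map_one' := rfl
  map_mul' _ _ := rfl

@[simp] theorem gl_resq_apply (q : ℕ) [Fact q.Prime] (f : gl_Jq q ↥M)
    (ι : L →ₐ[ℚ] PadicAlgCl q) : (gl_resq L M q f).1 ι = f.1 (ι.comp M.val) := rfl

theorem gl_resq_mem_Uq (q : ℕ) [Fact q.Prime] (f : gl_Jq q ↥M) (hf : f ∈ gl_Uq q ↥M) :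
    gl_resq L M q f ∈ gl_Uq q L := fun ι => hf (ι.comp M.val)

theorem gl_resq_diagq (q : ℕ) [Fact q.Prime] (a : (↥M)ˣ) :
    gl_resq L M q (gl_diagq q ↥M a) = gl_diagq q L (Units.map (M.val : ↥M →* L) a) := by
  apply Subtype.ext; funext ι; apply Units.ext; rfl

/-- The component at `q : Nat.Primes` of the inclusion of ideles. -/
def gl_resP (q : Nat.Primes) : gl_JP ↥M q →* gl_JP L q :=
  letI : Fact (q : ℕ).Prime := ⟨q.2⟩
  gl_resq L M (q : ℕ)

theorem gl_resP_mem_UP (q : Nat.Primes) (f : gl_JP ↥M q) (hf : f ∈ gl_UP ↥M q) :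
    gl_resP L M q f ∈ gl_UP L q :=
  letI : Fact (q : ℕ).Prime := ⟨q.2⟩
  gl_resq_mem_Uq L M (q : ℕ) f hf

theorem gl_resP_diagP (q : Nat.Primes) (a : (↥M)ˣ) :
    gl_resP L M q (gl_diagP ↥M q a) = gl_diagP L q (Units.map (M.val : ↥M →* L) a) :=
  letI : Fact (q : ℕ).Prime := ⟨q.2⟩
  gl_resq_diagq L M (q : ℕ) a

/-- The inclusion `J_M → J_L` of the ideles of a subfield. -/
def gl_resJ : gl_J ↥M →* gl_J L where
  toFun x := ⟨fun q => gl_resP L M q (x.1 q), by
    refine x.2.subset ?_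
    intro q hq h
    exact hq (gl_resP_mem_UP L M q _ h)⟩
  map_one' := by
    apply Subtype.ext; funext q; exact map_one _
  map_mul' x y := by
    apply Subtype.ext; funext q; exact map_mul _ _ _

@[simp] theorem gl_resJ_apply (x : gl_J ↥M) (q : Nat.Primes) :
    (gl_resJ L M x).1 q = gl_resP L M q (x.1 q) := rfl

theorem gl_resJ_mem_P (x : gl_J ↥M) (hx : x ∈ gl_P ↥M) : gl_resJ L M x ∈ gl_P L := by
  obtain ⟨a, ha⟩ := hx
  refine ⟨Units.map (M.val : ↥M →* L) a, fun q => ?_⟩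
  rw [gl_resJ_apply, ha q, gl_resP_diagP]

/-- The map `C_M → C_L` of idele class groups induced by the inclusion of a subfield. -/
def gl_resC : gl_C ↥M →* gl_C L :=
  QuotientGroup.map (gl_P ↥M) (gl_P L) (gl_resJ L M) (fun x hx => gl_resJ_mem_P L M x hx)

@[simp] theorem gl_resC_mk (x : gl_J ↥M) :
    gl_resC L M (QuotientGroup.mk x) = QuotientGroup.mk (gl_resJ L M x) := rfl

end descent

/-- **[DESCENT]** Galois descent for idele classes: for a subgroup `H` of `Aut(L/ℚ)` with fixed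
field `M`, the map `C_M → C_L` is injective with image the `H`-invariants
(`J_M = J_L^H`, and `H¹(H, Lˣ) = 0`;  CF VII.2 Prop. 2.4 + VII.8 / N VI.2.5). -/
def gl_DescentStatement : Prop :=
  ∀ (L : Type) [Field L] [NumberField L] (H : Subgroup (L ≃ₐ[ℚ] L)),
    Function.Injective (gl_resC L (IntermediateField.fixedField H)) ∧
      ∀ c : gl_C L, (∀ τ ∈ H, τ • c = c) ↔
        c ∈ (gl_resC L (IntermediateField.fixedField H)).range

/-! ### Layer G5: `H¹ = 0` and `#H² ≤ #H` for `p`-groups -/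

/-- **[H1]** `H¹(H, C_F) = 0` for every `p`-subgroup `H` of `Aut(F/ℚ)` (`p` odd, `μ_p ⊆ F`).
(Devissage over a normal subgroup of index `p`: [CYC-P] + [DESCENT] + inflation-restriction.) -/
def gl_H1Statement : Prop :=
  ∀ (F : Type) [Field F] [NumberField F] (p : ℕ), p.Prime → p ≠ 2 →
    (∃ ζ : F, IsPrimitiveRoot ζ p) →
    ∀ H : Subgroup (F ≃ₐ[ℚ] F), IsPGroup p H → fg_H1Zero H (Additive (gl_C F))

/-- **[H2-LE]** `#H²(H, C_F) ≤ #H` for every `p`-subgroup `H` of `Aut(F/ℚ)` (`p` odd,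
`μ_p ⊆ F`): there is a set of at most `#H` 2-cocycles representing all classes. -/
def gl_H2LeStatement : Prop :=
  ∀ (F : Type) [Field F] [NumberField F] (p : ℕ), p.Prime → p ≠ 2 →
    (∃ ζ : F, IsPrimitiveRoot ζ p) →
    ∀ H : Subgroup (F ≃ₐ[ℚ] F), IsPGroup p H →
      ∃ Z : Finset (↥H × ↥H → Additive (gl_C F)), Z.card ≤ Nat.card H ∧
        ∀ f : ↥H × ↥H → Additive (gl_C F), IsCocycle₂ f →
          ∃ z ∈ Z, IsCoboundary₂ (fun x => f x - z x)

end

end Fermat.Agent.S55
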