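/-
S55 (fifth wave), GLOBAL side (helper26): INTERFACE FILE, part 2 (layers G6-G7):
localisation of finite-level global cocycles, sums of local invariants, and the statements
[R-AUX], [R-CYC], [HASSE], [RECIP], [J-SUPP], [FUND] of the reciprocity layer.

Everything is stated against an ARBITRARY local invariant system `inv` in the sense of
`Local/LCFDefs.lean` (helper3): `inv q U f ∈ ℚ/ℤ` for `U ≤ Gal(Ω_q/ℚ_q)` open and `f` a smooth
2-cocycle of `U` with values in `Ω_qˣ`, with the axioms (I1)-(I6) of `lcf_IsInvSystem`.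

LOCALISATION.  `F` a number field, `H ≤ Aut(F/ℚ)`, `K = F^H`, `ι : F → Ω_q` an embedding.
`gl_locU q F H ι = {g ∈ Gal(Ω_q/ℚ_q) | g ∘ ι = ι ∘ σ for some σ ∈ H} = Gal(Ω_q / ℚ_q·ι(K))`,
`g ↦ σ_g = gl_locSigma` is a homomorphism onto the decomposition group of `ι` in `H`, and the
localisation of a 2-cochain `c` of `H` is `(g, g') ↦ ι (c (σ_g, σ_g'))` (for idele-valued `c`:
the value at `ι` of the `q`-component).  Inflation to a larger field does not change the
localisation (this is why the absolute formulation of the local theory is convenient).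
The places of `K` above `q` are the classes of embeddings `ι` modulo `H` and `Gal(Ω_q/ℚ_q)`.

Route of the proof of [RECIP]: TAME (board #663, reviewed by lead #668), CF VII.10-11 with the
cyclotomic `ℤ_p`-tower replaced by the subfields of `ℚ(ζ_q)`, `q ≡ 1 mod p^j`.
-/
import Mathlib
import Fermat.Agent.S55.Global.Defs
import Fermat.Agent.S55.Local.LCFDefs

set_option autoImplicit false

namespace Fermat.Agent.S55

open groupCohomology

noncomputable section

/-! ### Localisation -/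

section localisation

variable (q : ℕ) [Fact q.Prime] (F : Type) [Field F] [Algebra ℚ F]
  (H : Subgroup (F ≃ₐ[ℚ] F)) (ι : F →ₐ[ℚ] PadicAlgCl q)

theorem gl_twist_comp (g : gl_GQq q) (ι : F →ₐ[ℚ] PadicAlgCl q) (σ : F ≃ₐ[ℚ] F) :
    gl_twist q F g (ι.comp (σ : F →ₐ[ℚ] F)) = (gl_twist q F g ι).comp (σ : F →ₐ[ℚ] F) := rfl

/-- The open subgroup `Gal(Ω_q / ℚ_q · ι(F^H))` of the local Galois group, described through
`H`: the `g` with `g ∘ ι = ι ∘ σ` for some `σ ∈ H`. -/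
def gl_locU : Subgroup (lcf_Gal q) where
  carrier := {g | ∃ σ ∈ H, gl_twist q F g ι = ι.comp (σ : F →ₐ[ℚ] F)}
  one_mem' := ⟨1, H.one_mem, by rw [gl_twist_one]; rfl⟩
  mul_mem' := by
    rintro g g' ⟨σ, hσ, h⟩ ⟨σ', hσ', h'⟩
    refine ⟨σ * σ', H.mul_mem hσ hσ', ?_⟩
    rw [gl_twist_mul, h', gl_twist_comp, h]
    rfl
  inv_mem' := by
    rintro g ⟨σ, hσ, h⟩
    refine ⟨σ⁻¹, H.inv_mem hσ, ?_⟩
    have h1 : ι = gl_twist q F g⁻¹ (ι.comp (σ : F →ₐ[ℚ] F)) := by
      rw [← h, ← gl_twist_mul, inv_mul_cancel, gl_twist_one]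
    have h2 : ι.comp ((σ⁻¹ : F ≃ₐ[ℚ] F) : F →ₐ[ℚ] F) =
        (gl_twist q F g⁻¹ (ι.comp (σ : F →ₐ[ℚ] F))).comp ((σ⁻¹ : F ≃ₐ[ℚ] F) : F →ₐ[ℚ] F) := by
      rw [← h1]
    rw [h2]
    ext x
    show g⁻¹ (ι x) = g⁻¹ (ι (σ (σ⁻¹ x)))
    rw [show σ (σ⁻¹ x) = x from σ.apply_symm_apply x]

theorem gl_mem_locU_iff (g : lcf_Gal q) :
    g ∈ gl_locU q F H ι ↔ ∃ σ ∈ H, gl_twist q F g ι = ι.comp (σ : F →ₐ[ℚ] F) := Iff.rfl

/-- The element `σ_g ∈ H` with `g ∘ ι = ι ∘ σ_g`. -/
def gl_locSigma (g : ↥(gl_locU q F H ι)) : ↥H :=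
  ⟨Classical.choose g.2, (Classical.choose_spec g.2).1⟩

theorem gl_locSigma_spec (g : ↥(gl_locU q F H ι)) :
    gl_twist q F (g : lcf_Gal q) ι =
      ι.comp (((gl_locSigma q F H ι g : ↥H) : F ≃ₐ[ℚ] F) : F →ₐ[ℚ] F) :=
  (Classical.choose_spec g.2).2

theorem gl_locSigma_apply (g : ↥(gl_locU q F H ι)) (x : F) :
    (g : lcf_Gal q) (ι x) = ι (((gl_locSigma q F H ι g : ↥H) : F ≃ₐ[ℚ] F) x) :=
  congrArg (fun f : F →ₐ[ℚ] PadicAlgCl q => f x) (gl_locSigma_spec q F H ι g)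

/-- Localisation at `ι` of a 2-cochain of `H` with values in `Fˣ`. -/
def gl_locF (c : ↥H × ↥H → Additive Fˣ) :
    ↥(gl_locU q F H ι) × ↥(gl_locU q F H ι) → (PadicAlgCl q)ˣ :=
  fun x => Units.map (ι : F →* PadicAlgCl q)
    (c (gl_locSigma q F H ι x.1, gl_locSigma q F H ι x.2)).toMul

/-- Localisation at `ι` of a 2-cochain of `H` with values in the ideles. -/
def gl_locJ (c : ↥H × ↥H → Additive (gl_J F)) :
    ↥(gl_locU q F H ι) × ↥(gl_locU q F H ι) → (PadicAlgCl q)ˣ :=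
  fun x => (((c (gl_locSigma q F H ι x.1, gl_locSigma q F H ι x.2)).toMul.1
    (⟨q, Fact.out⟩ : Nat.Primes) : gl_Jq q F)).1 ι

/-- Localisation at `ι` of a 1-cochain of `H` with values in the ideles. -/
def gl_locJ₁ (b : ↥H → Additive (gl_J F)) : ↥(gl_locU q F H ι) → (PadicAlgCl q)ˣ :=
  fun x => (((b (gl_locSigma q F H ι x)).toMul.1 (⟨q, Fact.out⟩ : Nat.Primes) : gl_Jq q F)).1 ι

/-- Two embeddings define the same place of `K = F^H` iff they differ by an element of `H`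
and an element of `Gal(Ω_q/ℚ_q)`. -/
def gl_placeKSetoid : Setoid (F →ₐ[ℚ] PadicAlgCl q) where
  r ι ι' := ∃ σ ∈ H, ∃ τ : gl_GQq q, ι' = gl_twist q F τ (ι.comp (σ : F →ₐ[ℚ] F))
  iseqv :=
    { refl := fun ι => ⟨1, H.one_mem, 1, by rw [gl_twist_one]; rfl⟩
      symm := by
        rintro ι ι' ⟨σ, hσ, τ, rfl⟩
        refine ⟨σ⁻¹, H.inv_mem hσ, τ⁻¹, ?_⟩
        rw [gl_twist_comp, ← gl_twist_mul, inv_mul_cancel, gl_twist_one]
        ext x
        show ι x = ι (σ (σ⁻¹ x))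
        rw [show σ (σ⁻¹ x) = x from σ.apply_symm_apply x]
      trans := by
        rintro ι ι' ι'' ⟨σ, hσ, τ, rfl⟩ ⟨σ', hσ', τ', rfl⟩
        refine ⟨σ * σ', H.mul_mem hσ hσ', τ' * τ, ?_⟩
        rw [gl_twist_mul]
        rfl }

/-- The places of `K = F^H` above `q`. -/
def gl_PlaceK : Type := Quotient (gl_placeKSetoid q F H)

/-- The local invariant at `ι` of a 2-cochain of `H` with values in `Fˣ`. -/
def gl_invAtF (inv : lcf_InvType) (c : ↥H × ↥H → Additive Fˣ) : lcf_QZ :=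
  inv q (gl_locU q F H ι) (gl_locF q F H ι c)

/-- The local invariant at `ι` of a 2-cochain of `H` with values in the ideles. -/
def gl_invAtJ (inv : lcf_InvType) (c : ↥H × ↥H → Additive (gl_J F)) : lcf_QZ :=
  inv q (gl_locU q F H ι) (gl_locJ q F H ι c)

end localisation

section sums

variable (inv : lcf_InvType) (F : Type) [Field F] [Algebra ℚ F] (H : Subgroup (F ≃ₐ[ℚ] F))

/-- The sum of the local invariants at the places of `K = F^H` above `q`
(one embedding for each place). -/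
def gl_sumPF (c : ↥H × ↥H → Additive Fˣ) (q : Nat.Primes) : lcf_QZ :=
  letI : Fact (q : ℕ).Prime := ⟨q.2⟩
  ∑ᶠ v : gl_PlaceK (q : ℕ) F H, gl_invAtF (q : ℕ) F H (Quotient.out v) inv c

/-- The sum of the local invariants at the places of `K = F^H` above `q`, idele-valued
cochains. -/
def gl_sumPJ (c : ↥H × ↥H → Additive (gl_J F)) (q : Nat.Primes) : lcf_QZ :=
  letI : Fact (q : ℕ).Prime := ⟨q.2⟩
  ∑ᶠ v : gl_PlaceK (q : ℕ) F H, gl_invAtJ (q : ℕ) F H (Quotient.out v) inv c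

/-- The sum of all local invariants of a 2-cochain with values in `Fˣ`. -/
def gl_sumF (c : ↥H × ↥H → Additive Fˣ) : lcf_QZ := ∑ᶠ q : Nat.Primes, gl_sumPF inv F H c q

/-- The sum of all local invariants of a 2-cochain with values in the ideles. -/
def gl_sumJ (c : ↥H × ↥H → Additive (gl_J F)) : lcf_QZ := ∑ᶠ q : Nat.Primes, gl_sumPJ inv F H c q

/-- The projection of the ideles onto the idele classes, additively. -/
def gl_mkA : Additive (gl_J F) →+ Additive (gl_C F) :=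
  MonoidHom.toAdditive (QuotientGroup.mk' (gl_P F))

end sums

/-! ### Layer G6: reciprocity -/

/-- **[R-AUX]** auxiliary primes (elementary statement): for an odd prime `p`, `j ≥ 1` and
finite sets `B` (of primes) and `X` there is a prime `q ∉ X`, `q ≡ 1 mod p^j`, such that no
`l ∈ B` is a `p`-th power modulo `q`.  (Then the subfield `Q'` of degree `p^j` of `ℚ(ζ_q)` is
cyclic, totally and tamely ramified at `q`, unramified elsewhere, and every `l ∈ B` is INERT
in `Q'`.)  PROOF: `anF_exists_prime_norm` (Global/KummerPrimeFree.lean) over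
`ℚ(ζ_{p^j}, (l_i/l_1)^{1/p})` + Kummer independence of distinct primes. -/
def gl_RAuxStatement : Prop :=
  ∀ (p : ℕ), p.Prime → p ≠ 2 → ∀ (j : ℕ), 1 ≤ j → ∀ (B X : Finset ℕ), (∀ l ∈ B, l.Prime) →
    ∃ q : ℕ, q.Prime ∧ q ∉ X ∧ p ^ j ∣ q - 1 ∧
      ∀ l ∈ B, ¬ ∃ x : ZMod q, x ^ p = (l : ZMod q)

/-- **[R-CYC]** reciprocity for the `p`-part of a cyclotomic layer: `F = K(ζ_q)` with
`G' = Gal(F/K)` (so `G' ↪ (ℤ/q)ˣ` is cyclic), `q` UNRAMIFIED IN `K`, and `H ≤ G'` a `p`-group: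
the local invariants of every 2-cocycle of `H` with values in `Fˣ` sum to zero.
(NOTE: `q` is ramified in `K₁ = F^H`, with `K₁,v = K_v(π₁)`, `π₁ ^ m = -q`, `m = (q-1)/#H`,
`K_v/ℚ_q` unramified.  Every class is `x ∪ δχ`, `x ∈ K₁ˣ` [helper6's `fgD_cohomologous`]; at
`v ∤ q` the extension is unramified and `inv_v = ord_v(x) χ(Frob_v)`, `Frob_v ζ = ζ ^ Nv`, by
(I1),(I2),(I4) + [SYM]; at `v ∣ q` the TAME symbol: bilinear, `(a, -a) = 0`, skew-symmetric,
so for `x = π₁^a u`: `(x, π₁)_v = (u, π₁)_v = -(π₁, u)_v = -χ_u(Frob_v)`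
`= -χ ((N_(k_v/F_q) ū) ^ m)` with `H = μ_n(F_q)` via `σ ζ = ζ ^ a`; then the two
expressions `± q^A ∏_(v ∤ q) Nv^(ord_v x) = N_(K₁/ℚ) x = ∏_(v ∣ q) N_(K₁,v/ℚ_q) x` give
`∏_(v ∤ q) Nv^(ord_v x) ≡ ± ∏_(v ∣ q) (N ū_v)^m mod q`, and the sign dies because `#H` is odd.
CF VII.10 / lead's #668 (3).) -/
def gl_RecipCycStatement : Prop :=
  ∀ inv : lcf_InvType, lcf_IsInvSystem inv →
    ∀ (F : Type) [Field F] [NumberField F] (p : ℕ), p.Prime → p ≠ 2 →
      ∀ (q : ℕ) [Fact q.Prime] (ζ : F), IsPrimitiveRoot ζ q →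
        ∀ G' : Subgroup (F ≃ₐ[ℚ] F), (∀ σ ∈ G', σ ζ = ζ → σ = 1) →
          gl_UnramAt q ↥(IntermediateField.fixedField G') →
          ∀ H : Subgroup (F ≃ₐ[ℚ] F), H ≤ G' → IsPGroup p H →
            ∀ c : ↥H × ↥H → Additive Fˣ, IsCocycle₂ c →
              (Function.support (gl_sumPF inv F H c)).Finite ∧ gl_sumF inv F H c = 0

/-- **[HASSE]** the Hasse principle for `p`-groups (`μ_p ⊆ F`): a 2-cocycle of `H` with values
in `Fˣ` all of whose localisations have invariant zero is a coboundary.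
(Locally trivial ⇒ coboundary of an idele-valued cochain [(I2), unit-valued at the unramified
places: helper29]; then `H¹(H, C_F) = 0`.  CF VII.11.2 (bis), N VI.5.? ) -/
def gl_HasseStatement : Prop :=
  ∀ inv : lcf_InvType, lcf_IsInvSystem inv →
    ∀ (F : Type) [Field F] [NumberField F] (p : ℕ), p.Prime → p ≠ 2 →
      (∃ ζ : F, IsPrimitiveRoot ζ p) →
      ∀ H : Subgroup (F ≃ₐ[ℚ] F), IsPGroup p H →
        ∀ c : ↥H × ↥H → Additive Fˣ, IsCocycle₂ c →
          (∀ (q : ℕ) [Fact q.Prime] (ι : F →ₐ[ℚ] PadicAlgCl q), gl_invAtF q F H ι inv c = 0) →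
          IsCoboundary₂ c

/-- **[RECIP]** the sum formula (global reciprocity) for `p`-groups, `p` odd: the local
invariants of a 2-cocycle of `H` with values in `Fˣ` are almost all zero and sum to zero.
(CF VII.11.2 (bis), NSW 8.1.17.) -/
def gl_RecipStatement : Prop :=
  ∀ inv : lcf_InvType, lcf_IsInvSystem inv →
    ∀ (F : Type) [Field F] [NumberField F] (p : ℕ), p.Prime → p ≠ 2 →
      ∀ H : Subgroup (F ≃ₐ[ℚ] F), IsPGroup p H →
        ∀ c : ↥H × ↥H → Additive Fˣ, IsCocycle₂ c →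
          (Function.support (gl_sumPF inv F H c)).Finite ∧ gl_sumF inv F H c = 0

/-- **[J-SUPP]** an idele-valued 2-cocycle has only finitely many nonzero local invariants
(unit values and `F` unramified at almost all `q`; `H²(unramified, units) = 0`, (I2)). -/
def gl_SuppStatement : Prop :=
  ∀ inv : lcf_InvType, lcf_IsInvSystem inv →
    ∀ (F : Type) [Field F] [NumberField F] (H : Subgroup (F ≃ₐ[ℚ] F))
      (c : ↥H × ↥H → Additive (gl_J F)), IsCocycle₂ c →
      (Function.support (gl_sumPJ inv F H c)).Finite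

/-! ### Layer G7: the fundamental class -/

/-- **[FUND]** (= [GT-CF]) the idele class group of `F` is a class formation for every
`p`-subgroup `H` of `Aut(F/ℚ)` (`p` odd, `μ_p ⊆ F`), compatibly with the local invariants:
there is a 2-cocycle `a` of `H` with values in `C_F` satisfying the hypotheses of Tate's theorem
(helper19's `fg_TateHyp`), such that for every subgroup `H' ≤ H` the class of an idele-valued
2-cocycle `c` of `H'` with `∑_v inv_v (c) = m / #H'` is `m` times the class of `a|_{H'}`.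
(CF VII.11.2; with helper19's `fgG_recip` this is Artin reciprocity
`Gal(F/K)^ab ≅ C_K / N C_F`.) -/
def gl_FundStatement : Prop :=
  ∀ inv : lcf_InvType, lcf_IsInvSystem inv →
    ∀ (F : Type) [Field F] [NumberField F] (p : ℕ), p.Prime → p ≠ 2 →
      (∃ ζ : F, IsPrimitiveRoot ζ p) →
      ∀ H : Subgroup (F ≃ₐ[ℚ] F), IsPGroup p H →
        ∃ a : ↥H × ↥H → Additive (gl_C F), fg_TateHyp a ∧
          ∀ (H' : Subgroup (F ≃ₐ[ℚ] F)) (h : H' ≤ H) (c : ↥H' × ↥H' → Additive (gl_J F)),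
            IsCocycle₂ c → ∀ m : ℤ,
              gl_sumJ inv F H' c = lcf_qz ((m : ℚ) / (Nat.card H' : ℚ)) →
              IsCoboundary₂ (fun x : ↥H' × ↥H' =>
                gl_mkA F (c x) - m • a (Subgroup.inclusion h x.1, Subgroup.inclusion h x.2))

end

end Fermat.Agent.S55
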