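/-
S55 (fifth wave), GLOBAL side (helper26): INTERFACE FILE, part 3: plumbing for the assemblies
[RECIP-OF] and [FUND-OF]:

* functoriality of ideles and idele classes along an embedding `j : F →ₐ[ℚ] F'`;
* TOWERS `(F, H) ← (F', H')` (`F ⊆ F'`, `F'/F^H` Galois with group `H'`, restriction
  `π : H' ↠ H`), inflation and restriction of 2-cochains;
* [LOC-BASIC], [INFL-SUM], [RES-SUM]: behaviour of the local invariants of `RecDefs.lean` under
  coboundaries, sums, inflation and restriction;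
* [CYC-EXT]: the cyclotomic extension `F(ζ_q)` of a number field unramified at `q`;
* [LOC-FUND]: local fundamental classes at finite level;
* [SUPP-ONE]: idele-valued cocycles supported at one place with full decomposition group.

Definitions and `Prop`s only.
-/
import Mathlib
import Fermat.Agent.S55.Global.RecDefs

set_option autoImplicit false

namespace Fermat.Agent.S55

open groupCohomology

noncomputable section

/-! ### Functoriality of the ideles along an embedding -/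

section functoriality

variable {F F' : Type} [Field F] [Field F'] [Algebra ℚ F] [Algebra ℚ F'] (j : F →ₐ[ℚ] F')

/-- Semi-local ideles along an embedding `j : F → F'`: `f ↦ (ι' ↦ f (ι' ∘ j))`. -/
def gl_mapJq (q : ℕ) [Fact q.Prime] : gl_Jq q F →* gl_Jq q F' where
  toFun f := ⟨fun ι => f.1 (ι.comp j), fun τ ι => f.2 τ (ι.comp j)⟩
  map_one' := rfl
  map_mul' _ _ := rfl

@[simp] theorem gl_mapJq_apply (q : ℕ) [Fact q.Prime] (f : gl_Jq q F)
    (ι : F' →ₐ[ℚ] PadicAlgCl q) : (gl_mapJq j q f).1 ι = f.1 (ι.comp j) := rfl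

theorem gl_mapJq_mem_Uq (q : ℕ) [Fact q.Prime] (f : gl_Jq q F) (hf : f ∈ gl_Uq q F) :
    gl_mapJq j q f ∈ gl_Uq q F' := fun ι => hf (ι.comp j)

theorem gl_mapJq_diagq (q : ℕ) [Fact q.Prime] (a : Fˣ) :
    gl_mapJq j q (gl_diagq q F a) = gl_diagq q F' (Units.map (j : F →* F') a) := by
  apply Subtype.ext; funext ι; apply Units.ext; rfl

/-- The component at `q : Nat.Primes`. -/
def gl_mapJP (q : Nat.Primes) : gl_JP F q →* gl_JP F' q :=
  letI : Fact (q : ℕ).Prime := ⟨q.2⟩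
  gl_mapJq j (q : ℕ)

theorem gl_mapJP_mem_UP (q : Nat.Primes) (f : gl_JP F q) (hf : f ∈ gl_UP F q) :
    gl_mapJP j q f ∈ gl_UP F' q :=
  letI : Fact (q : ℕ).Prime := ⟨q.2⟩
  gl_mapJq_mem_Uq j (q : ℕ) f hf

theorem gl_mapJP_diagP (q : Nat.Primes) (a : Fˣ) :
    gl_mapJP j q (gl_diagP F q a) = gl_diagP F' q (Units.map (j : F →* F') a) :=
  letI : Fact (q : ℕ).Prime := ⟨q.2⟩
  gl_mapJq_diagq j (q : ℕ) a

/-- The map `J_F → J_F'` induced by an embedding. -/
def gl_mapJ : gl_J F →* gl_J F' where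
  toFun x := ⟨fun q => gl_mapJP j q (x.1 q), by
    refine x.2.subset ?_
    intro q hq h
    exact hq (gl_mapJP_mem_UP j q _ h)⟩
  map_one' := by
    apply Subtype.ext; funext q; exact map_one _
  map_mul' x y := by
    apply Subtype.ext; funext q; exact map_mul _ _ _

@[simp] theorem gl_mapJ_apply (x : gl_J F) (q : Nat.Primes) :
    (gl_mapJ j x).1 q = gl_mapJP j q (x.1 q) := rfl

theorem gl_mapJ_mem_P (x : gl_J F) (hx : x ∈ gl_P F) : gl_mapJ j x ∈ gl_P F' := by
  obtain ⟨a, ha⟩ := hx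
  refine ⟨Units.map (j : F →* F') a, fun q => ?_⟩
  rw [gl_mapJ_apply, ha q, gl_mapJP_diagP]

/-- The map `C_F → C_F'` induced by an embedding. -/
def gl_mapC : gl_C F →* gl_C F' :=
  QuotientGroup.map (gl_P F) (gl_P F') (gl_mapJ j) (fun x hx => gl_mapJ_mem_P j x hx)

@[simp] theorem gl_mapC_mk (x : gl_J F) :
    gl_mapC j (QuotientGroup.mk x) = QuotientGroup.mk (gl_mapJ j x) := rfl

end functoriality

/-! ### Towers -/

/-- A TOWER `(F, H) ← (F', H')`: an embedding `j : F → F'` and a surjection `π : H' → H`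
compatible with the actions, such that `j F` is the fixed field of `ker π`.
(Then `F'^{H'} = j (F^H)`, `F'/j F` is Galois with group `ker π`, and `H = H'/ker π`.) -/
structure gl_Tower (F F' : Type) [Field F] [Field F'] [NumberField F] [NumberField F']
    (H : Subgroup (F ≃ₐ[ℚ] F)) (H' : Subgroup (F' ≃ₐ[ℚ] F')) where
  /-- the embedding -/
  j : F →ₐ[ℚ] F'
  /-- restriction of automorphisms -/
  π : ↥H' →* ↥H
  surj : Function.Surjective π
  compat : ∀ (σ' : ↥H') (x : F),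
    j (((π σ' : ↥H) : F ≃ₐ[ℚ] F) x) = ((σ' : ↥H') : F' ≃ₐ[ℚ] F') (j x)
  fixed : ∀ y : F', (∀ σ' : ↥H', π σ' = 1 → ((σ' : ↥H') : F' ≃ₐ[ℚ] F') y = y) → y ∈ j.range

section tower

variable {F F' : Type} [Field F] [Field F'] [NumberField F] [NumberField F']
  {H : Subgroup (F ≃ₐ[ℚ] F)} {H' : Subgroup (F' ≃ₐ[ℚ] F')}

/-- Inflation of a 2-cochain with values in `Fˣ`. -/
def gl_inflF (t : gl_Tower F F' H H') (c : ↥H × ↥H → Additive Fˣ) :
    ↥H' × ↥H' → Additive F'ˣ :=
  fun x => Additive.ofMul (Units.map (t.j : F →* F') (c (t.π x.1, t.π x.2)).toMul)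

/-- Inflation of a 2-cochain with values in the ideles. -/
def gl_inflJ (t : gl_Tower F F' H H') (c : ↥H × ↥H → Additive (gl_J F)) :
    ↥H' × ↥H' → Additive (gl_J F') :=
  fun x => Additive.ofMul (gl_mapJ t.j (c (t.π x.1, t.π x.2)).toMul)

/-- Inflation of a 2-cochain with values in the idele classes. -/
def gl_inflC (t : gl_Tower F F' H H') (c : ↥H × ↥H → Additive (gl_C F)) :
    ↥H' × ↥H' → Additive (gl_C F') :=
  fun x => Additive.ofMul (gl_mapC t.j (c (t.π x.1, t.π x.2)).toMul)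

end tower

/-- Restriction of a 2-cochain to a subgroup. -/
def gl_res₂ {G : Type*} [Group G] {X : Type*} {H₁ H : Subgroup G} (h : H₁ ≤ H)
    (c : ↥H × ↥H → X) : ↥H₁ × ↥H₁ → X :=
  fun x => c (Subgroup.inclusion h x.1, Subgroup.inclusion h x.2)

/-! ### Basic properties of the local invariants of global cochains -/

/-- **[LOC-BASIC]** localisation is compatible with the cocycle/coboundary conditions:
the localisation at `ι` of a 2-cocycle (coboundary) of `H` with values in `Fˣ` or in the ideles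
is a smooth 2-cocycle (smooth coboundary) of `gl_locU q F H ι`, localisation is additive, and
the localisation of a principal cochain is the localisation of its diagonal image. -/
def gl_LocBasicStatement : Prop :=
  ∀ (F : Type) [Field F] [NumberField F] (H : Subgroup (F ≃ₐ[ℚ] F)) (q : ℕ) [Fact q.Prime]
    (ι : F →ₐ[ℚ] PadicAlgCl q),
    lcf_IsOpen (gl_locU q F H ι) ∧
    (∀ c : ↥H × ↥H → Additive Fˣ, IsCocycle₂ c →
      lcf_IsCoc (gl_locU q F H ι) (gl_locF q F H ι c)) ∧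
    (∀ c : ↥H × ↥H → Additive Fˣ, IsCoboundary₂ c →
      lcf_IsCob (gl_locU q F H ι) (gl_locF q F H ι c)) ∧
    (∀ c : ↥H × ↥H → Additive (gl_J F), IsCocycle₂ c →
      lcf_IsCoc (gl_locU q F H ι) (gl_locJ q F H ι c)) ∧
    (∀ c : ↥H × ↥H → Additive (gl_J F), IsCoboundary₂ c →
      lcf_IsCob (gl_locU q F H ι) (gl_locJ q F H ι c)) ∧
    (∀ c c' : ↥H × ↥H → Additive Fˣ,
      gl_locF q F H ι (c + c') = gl_locF q F H ι c * gl_locF q F H ι c') ∧
    (∀ c c' : ↥H × ↥H → Additive (gl_J F),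
      gl_locJ q F H ι (c + c') = gl_locJ q F H ι c * gl_locJ q F H ι c') ∧
    (∀ (c : ↥H × ↥H → Additive Fˣ) (c' : ↥H × ↥H → Additive (gl_J F)),
      (∀ x (r : Nat.Primes), (c' x).toMul.1 r = gl_diagP F r (c x).toMul) →
      gl_locJ q F H ι c' = gl_locF q F H ι c)

/-- **[INV-CONJ]** the local invariant at `ι` depends only on the place of `K = F^H` defined
by `ι` (from (I6)). -/
def gl_InvConjStatement : Prop :=
  ∀ inv : lcf_InvType, lcf_IsInvSystem inv →
    ∀ (F : Type) [Field F] [NumberField F] (H : Subgroup (F ≃ₐ[ℚ] F)) (q : ℕ) [Fact q.Prime]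
      (ι ι' : F →ₐ[ℚ] PadicAlgCl q), (gl_placeKSetoid q F H).r ι ι' →
      (∀ c : ↥H × ↥H → Additive Fˣ, IsCocycle₂ c →
        gl_invAtF q F H ι' inv c = gl_invAtF q F H ι inv c) ∧
      (∀ c : ↥H × ↥H → Additive (gl_J F), IsCocycle₂ c →
        gl_invAtJ q F H ι' inv c = gl_invAtJ q F H ι inv c)

/-- **[INFL-SUM]** inflation does not change the local invariants: for a tower
`(F, H) ← (F', H')` and an embedding `ι'` of `F'`, the invariant at `ι'` of the inflation of `c`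
is the invariant of `c` at `ι' ∘ j`; hence the sums over the places above each `q` agree. -/
def gl_InflSumStatement : Prop :=
  ∀ inv : lcf_InvType, lcf_IsInvSystem inv →
    ∀ (F F' : Type) [Field F] [Field F'] [NumberField F] [NumberField F']
      (H : Subgroup (F ≃ₐ[ℚ] F)) (H' : Subgroup (F' ≃ₐ[ℚ] F')) (t : gl_Tower F F' H H'),
      (∀ c : ↥H × ↥H → Additive Fˣ, IsCocycle₂ c →
        (∀ (q : ℕ) [Fact q.Prime] (ι' : F' →ₐ[ℚ] PadicAlgCl q),
          gl_invAtF q F' H' ι' inv (gl_inflF t c) = gl_invAtF q F H (ι'.comp t.j) inv c) ∧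
        ∀ q : Nat.Primes, gl_sumPF inv F' H' (gl_inflF t c) q = gl_sumPF inv F H c q) ∧
      (∀ c : ↥H × ↥H → Additive (gl_J F), IsCocycle₂ c →
        (∀ (q : ℕ) [Fact q.Prime] (ι' : F' →ₐ[ℚ] PadicAlgCl q),
          gl_invAtJ q F' H' ι' inv (gl_inflJ t c) = gl_invAtJ q F H (ι'.comp t.j) inv c) ∧
        ∀ q : Nat.Primes, gl_sumPJ inv F' H' (gl_inflJ t c) q = gl_sumPJ inv F H c q)

/-- **[RES-SUM]** restriction to a subgroup `H₁ ≤ H` multiplies the local invariant at `ι` by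
the local degree `[gl_locU H ι : gl_locU H₁ ι]` ((I3)), and the sum over the places above `q`
by the global degree `[H : H₁]` (`∑_{w ∣ v} [K₁,w : K_v] = [K₁ : K]`, (I6)). -/
def gl_ResSumStatement : Prop :=
  ∀ inv : lcf_InvType, lcf_IsInvSystem inv →
    ∀ (F : Type) [Field F] [NumberField F] (H H₁ : Subgroup (F ≃ₐ[ℚ] F)) (h : H₁ ≤ H),
      (∀ c : ↥H × ↥H → Additive Fˣ, IsCocycle₂ c →
        (∀ (q : ℕ) [Fact q.Prime] (ι : F →ₐ[ℚ] PadicAlgCl q),
          gl_invAtF q F H₁ ι inv (gl_res₂ h c) =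
            ((gl_locU q F H₁ ι).relIndex (gl_locU q F H ι)) • gl_invAtF q F H ι inv c) ∧
        ∀ q : Nat.Primes,
          gl_sumPF inv F H₁ (gl_res₂ h c) q = (H₁.relIndex H) • gl_sumPF inv F H c q) ∧
      (∀ c : ↥H × ↥H → Additive (gl_J F), IsCocycle₂ c →
        (∀ (q : ℕ) [Fact q.Prime] (ι : F →ₐ[ℚ] PadicAlgCl q),
          gl_invAtJ q F H₁ ι inv (gl_res₂ h c) =
            ((gl_locU q F H₁ ι).relIndex (gl_locU q F H ι)) • gl_invAtJ q F H ι inv c) ∧
        ∀ q : Nat.Primes,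
          gl_sumPJ inv F H₁ (gl_res₂ h c) q = (H₁.relIndex H) • gl_sumPJ inv F H c q)

/-! ### The cyclotomic extension `F(ζ_q)` -/

/-- **[CYC-EXT]** for a number field `F`, a subgroup `H ≤ Aut(F/ℚ)` and a prime `q` unramified
in `F` there is a number field `E = F(ζ_q)` with a tower `(F, H) ← (E, G)`, `G = Gal(E/F^H)`,
such that:  `C := ker π = Gal(E/F)` acts faithfully on `ζ` and has `q - 1` elements
(`Φ_q` stays irreducible over `F`: it is Eisenstein at `q` over the unramified `F_ι`);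
`G` is the internal direct product of `C` and `Hζ := {σ ∈ G | σ ζ = ζ} = Gal(E/F^H(ζ))`
(so `π : Hζ ≅ H`); and `E/F` is totally ramified above `q`: every `σ ∈ C` lies in the
decomposition group of every embedding `E → Ω_q`. -/
def gl_CycExtStatement : Prop :=
  ∀ (F : Type) [Field F] [NumberField F] (H : Subgroup (F ≃ₐ[ℚ] F)) (q : ℕ) [Fact q.Prime],
    gl_UnramAt q F →
    ∃ (E : Type) (_ : Field E) (_ : NumberField E) (G : Subgroup (E ≃ₐ[ℚ] E))
      (t : gl_Tower F E H G) (ζ : E), IsPrimitiveRoot ζ q ∧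
      (∀ σ : ↥G, t.π σ = 1 → ((σ : ↥G) : E ≃ₐ[ℚ] E) ζ = ζ → σ = 1) ∧
      Nat.card ↥(t.π.ker) = q - 1 ∧
      (∀ σ : ↥G, ∃ σ₁ σ₂ : ↥G, t.π σ₁ = 1 ∧ ((σ₂ : ↥G) : E ≃ₐ[ℚ] E) ζ = ζ ∧ σ = σ₁ * σ₂) ∧
      (∀ σ₁ σ₂ : ↥G, t.π σ₁ = 1 → ((σ₂ : ↥G) : E ≃ₐ[ℚ] E) ζ = ζ → σ₁ * σ₂ = σ₂ * σ₁) ∧
      (∀ (ι : E →ₐ[ℚ] PadicAlgCl q) (σ : ↥G), t.π σ = 1 →
        ((σ : ↥G) : E ≃ₐ[ℚ] E) ∈ gl_decomp q E ι)

/-! ### Local fundamental classes and cocycles supported at one place -/

/-- **[LOC-FUND]** (local, absolute language) for an open subgroup `U` and an open normal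
subgroup `U' ≤ U` of index `n` there is a smooth 2-cocycle of `U`, inflated from `U/U'` with
values fixed by `U'`, of invariant `1/n`.  (From (I5), (I3), (I2), Hilbert 90 and
inflation-restriction: `H²(U/U', (Ωˣ)^{U'}) = ker (res : Br(K_U) → Br(K_U'))`.) -/
def gl_LocFundStatement : Prop :=
  ∀ inv : lcf_InvType, lcf_IsInvSystem inv →
    ∀ (q : ℕ) [Fact q.Prime] (U U' : Subgroup (lcf_Gal q)), lcf_IsOpen U → lcf_IsOpen U' →
      U' ≤ U → (∀ g ∈ U, ∀ u ∈ U', g * u * g⁻¹ ∈ U') →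
      ∃ f : ↥U × ↥U → (PadicAlgCl q)ˣ, lcf_IsCoc U f ∧
        (∀ g g' u u' : ↥U, (u : lcf_Gal q) ∈ U' → (u' : lcf_Gal q) ∈ U' →
          f (g * u, g' * u') = f (g, g')) ∧
        (∀ (g g' : ↥U) (u : lcf_Gal q), u ∈ U' → u • f (g, g') = f (g, g')) ∧
        inv q U f = lcf_qz (1 / (U'.relIndex U : ℚ))

/-- **[SUPP-ONE]** (semi-local) if the decomposition group of `ι` in `H` is all of `H`
(`gl_locSigma` is surjective), every smooth 2-cocycle `f` of `gl_locU q F H ι` which is inflated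
from `H` with values in `ℚ_q · ι(F)` is the localisation at `ι` of an idele-valued 2-cocycle `c`
of `H` whose components at all other primes are trivial. -/
def gl_SuppOneStatement : Prop :=
  ∀ (F : Type) [Field F] [NumberField F] (H : Subgroup (F ≃ₐ[ℚ] F)) (q : ℕ) [Fact q.Prime]
    (ι : F →ₐ[ℚ] PadicAlgCl q), Function.Surjective (gl_locSigma q F H ι) →
    ∀ f : ↥(gl_locU q F H ι) × ↥(gl_locU q F H ι) → (PadicAlgCl q)ˣ,
      lcf_IsCoc (gl_locU q F H ι) f →
      (∀ g g' u u' : ↥(gl_locU q F H ι), gl_locSigma q F H ι u = 1 →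
        gl_locSigma q F H ι u' = 1 → f (g * u, g' * u') = f (g, g')) →
      (∀ (g g' u : ↥(gl_locU q F H ι)), gl_locSigma q F H ι u = 1 →
        (u : lcf_Gal q) • f (g, g') = f (g, g')) →
      ∃ c : ↥H × ↥H → Additive (gl_J F), IsCocycle₂ c ∧ gl_locJ q F H ι c = f ∧
        ∀ (x : ↥H × ↥H) (r : Nat.Primes), (r : ℕ) ≠ q → (c x).toMul.1 r = 1

end

end Fermat.Agent.S55
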