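/-
S55 (Poitou-Tate), GLOBAL side, package [INV-CONJ] part 1 (helper16): the dictionary of the
localisation `gl_locU / gl_locSigma / gl_locF / gl_locJ` of `Global/RecDefs.lean`, in a form
which treats `Fˣ`-valued and idele-valued cochains at the same time (an EVALUATION SYSTEM
`gic_Ev`).  Prefix `gic_`.
-/
import Mathlib
import Fermat.Agent.S55.Global.TowerDefs

set_option autoImplicit false

namespace Fermat.Agent.S55

open groupCohomology

noncomputable section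

/-! ### The homomorphism `gl_locSigma` -/

section sigma

variable (q : ℕ) [Fact q.Prime] (F : Type) [Field F] [NumberField F]
  (H : Subgroup (F ≃ₐ[ℚ] F)) (ι : F →ₐ[ℚ] PadicAlgCl q)

theorem gic_comp_injective (σ σ' : F ≃ₐ[ℚ] F)
    (h : ι.comp (σ : F →ₐ[ℚ] F) = ι.comp (σ' : F →ₐ[ℚ] F)) : σ = σ' := by
  ext x
  have h1 := congrArg (fun f : F →ₐ[ℚ] PadicAlgCl q => f x) h
  exact (ι : F →+* PadicAlgCl q).injective h1

theorem gic_locSigma_eq (g : ↥(gl_locU q F H ι)) (σ : F ≃ₐ[ℚ] F)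
    (h : gl_twist q F (g : lcf_Gal q) ι = ι.comp (σ : F →ₐ[ℚ] F)) :
    ((gl_locSigma q F H ι g : ↥H) : F ≃ₐ[ℚ] F) = σ :=
  gic_comp_injective q F ι _ _ ((gl_locSigma_spec q F H ι g).symm.trans h)

theorem gic_locSigma_mul (g h : ↥(gl_locU q F H ι)) :
    gl_locSigma q F H ι (g * h) = gl_locSigma q F H ι g * gl_locSigma q F H ι h := by
  apply Subtype.ext
  apply gic_locSigma_eq
  show gl_twist q F ((g : lcf_Gal q) * (h : lcf_Gal q)) ι = _
  rw [gl_twist_mul, gl_locSigma_spec q F H ι h, gl_twist_comp, gl_locSigma_spec q F H ι g]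
  rfl

theorem gic_locSigma_one : gl_locSigma q F H ι 1 = 1 := by
  apply Subtype.ext
  apply gic_locSigma_eq
  show gl_twist q F (1 : lcf_Gal q) ι = _
  rw [gl_twist_one]
  rfl

/-- A finite extension of `ℚ_q` containing `ι F`. -/
theorem gic_exists_level :
    ∃ E : IntermediateField ℚ_[q] (PadicAlgCl q), FiniteDimensional ℚ_[q] E ∧
      ∀ s : lcf_Gal q, s ∈ E.fixingSubgroup → gl_twist q F s ι = ι := by
  obtain ⟨θ, hθ⟩ := Field.exists_primitive_element ℚ F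
  have hint : IsIntegral ℚ_[q] (ι θ) := Algebra.IsIntegral.isIntegral _
  refine ⟨IntermediateField.adjoin ℚ_[q] {ι θ},
    IntermediateField.adjoin.finiteDimensional hint, ?_⟩
  intro s hs
  have h1 : s (ι θ) = ι θ :=
    (IntermediateField.mem_fixingSubgroup_iff _ _).1 hs (ι θ)
      (IntermediateField.mem_adjoin_simple_self ℚ_[q] (ι θ))
  have hadj : Algebra.adjoin ℚ ({θ} : Set F) = ⊤ := by
    have h2 := IntermediateField.adjoin_toSubalgebra (F := ℚ) (E := F) ({θ} : Set F)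
    rw [← h2, hθ]
    rfl
  refine AlgHom.ext_of_adjoin_eq_top hadj ?_
  intro x hx
  rw [Set.mem_singleton_iff] at hx
  subst hx
  exact h1

theorem gic_mem_locU_of_fix (s : lcf_Gal q) (hs : gl_twist q F s ι = ι) :
    s ∈ gl_locU q F H ι :=
  ⟨1, H.one_mem, by rw [hs]; rfl⟩

theorem gic_locU_isOpen : lcf_IsOpen (gl_locU q F H ι) := by
  obtain ⟨E, hE, hfix⟩ := gic_exists_level q F ι
  exact ⟨E, hE, fun s hs => gic_mem_locU_of_fix q F H ι s (hfix s hs)⟩

theorem gic_locSigma_of_fix (s : ↥(gl_locU q F H ι))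
    (hs : gl_twist q F (s : lcf_Gal q) ι = ι) : gl_locSigma q F H ι s = 1 := by
  apply Subtype.ext
  apply gic_locSigma_eq
  rw [hs]
  rfl

theorem gic_locSigma_mul_fix (g s : ↥(gl_locU q F H ι))
    (hs : gl_twist q F (s : lcf_Gal q) ι = ι) :
    gl_locSigma q F H ι (g * s) = gl_locSigma q F H ι g := by
  rw [gic_locSigma_mul, gic_locSigma_of_fix q F H ι s hs, mul_one]

end sigma

/-! ### Evaluation systems -/

/-- An EVALUATION SYSTEM on a Galois module `A` of `Aut(F/ℚ)`: homomorphisms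
`ev ι : A → Ω_qˣ` for the embeddings `ι` of `F`, with `ev (τ ∘ ι) = τ ∘ ev ι` and
`ev (ι ∘ σ) a = ev ι (σ a)`.  (`A = Fˣ`: `ev ι = ι`; `A` = ideles: the value at `ι` of the
`q`-component.) -/
structure gic_Ev (q : ℕ) [Fact q.Prime] (F : Type) [Field F] [NumberField F] (A : Type)
    [CommGroup A] [MulDistribMulAction (F ≃ₐ[ℚ] F) A] where
  /-- evaluation at an embedding -/
  ev : (F →ₐ[ℚ] PadicAlgCl q) → A →* (PadicAlgCl q)ˣ
  /-- compatibility with the local Galois group -/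
  twist : ∀ (τ : gl_GQq q) (ι : F →ₐ[ℚ] PadicAlgCl q) (a : A),
    ev (gl_twist q F τ ι) a = τ • ev ι a
  /-- compatibility with the global Galois group -/
  comp : ∀ (σ : F ≃ₐ[ℚ] F) (ι : F →ₐ[ℚ] PadicAlgCl q) (a : A),
    ev (ι.comp (σ : F →ₐ[ℚ] F)) a = ev ι (σ • a)

/-- The evaluation system of `Fˣ`. -/
def gic_evF (q : ℕ) [Fact q.Prime] (F : Type) [Field F] [NumberField F] : gic_Ev q F Fˣ where
  ev ι := Units.map (ι : F →* PadicAlgCl q)
  twist τ ι a := by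
    apply Units.ext
    rfl
  comp σ ι a := by
    apply Units.ext
    rfl

/-- The evaluation system of the ideles. -/
def gic_evJ (q : ℕ) [Fact q.Prime] (F : Type) [Field F] [NumberField F] :
    gic_Ev q F (gl_J F) where
  ev ι :=
    { toFun := fun x => ((x.1 (⟨q, Fact.out⟩ : Nat.Primes) : gl_Jq q F)).1 ι
      map_one' := rfl
      map_mul' := fun _ _ => rfl }
  twist τ ι a := by
    show ((a.1 (⟨q, Fact.out⟩ : Nat.Primes) : gl_Jq q F)).1 (gl_twist q F τ ι) = _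
    rw [((a.1 (⟨q, Fact.out⟩ : Nat.Primes) : gl_Jq q F)).2 τ ι]
    rfl
  comp σ ι a := rfl

section loc

variable {q : ℕ} [Fact q.Prime] {F : Type} [Field F] [NumberField F] {A : Type}
  [CommGroup A] [MulDistribMulAction (F ≃ₐ[ℚ] F) A] (E : gic_Ev q F A)
  (H : Subgroup (F ≃ₐ[ℚ] F)) (ι : F →ₐ[ℚ] PadicAlgCl q)

/-- Multiplicative 2-cocycles of `H` with values in `A`. -/
def gic_IsCoc (c : ↥H × ↥H → A) : Prop :=
  ∀ g h j : ↥H, c (g * h, j) * c (g, h) = (g : F ≃ₐ[ℚ] F) • c (h, j) * c (g, h * j)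

/-- Multiplicative 2-coboundaries of `H` with values in `A`. -/
def gic_IsCob (c : ↥H × ↥H → A) : Prop :=
  ∃ b : ↥H → A, ∀ g h : ↥H, (g : F ≃ₐ[ℚ] F) • b h / b (g * h) * b g = c (g, h)

/-- The localisation at `ι` of a 2-cochain of `H` with values in `A`. -/
def gic_loc (c : ↥H × ↥H → A) :
    ↥(gl_locU q F H ι) × ↥(gl_locU q F H ι) → (PadicAlgCl q)ˣ :=
  fun x => E.ev ι (c (gl_locSigma q F H ι x.1, gl_locSigma q F H ι x.2))

theorem gic_loc_apply (c : ↥H × ↥H → A) (g h : ↥(gl_locU q F H ι)) :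
    gic_loc E H ι c (g, h) = E.ev ι (c (gl_locSigma q F H ι g, gl_locSigma q F H ι h)) := rfl

theorem gic_smul_ev (g : ↥(gl_locU q F H ι)) (a : A) :
    (g : lcf_Gal q) • E.ev ι a = E.ev ι (((gl_locSigma q F H ι g : ↥H) : F ≃ₐ[ℚ] F) • a) := by
  rw [← E.twist, gl_locSigma_spec q F H ι g, E.comp]

theorem gic_loc_smooth (c : ↥H × ↥H → A) :
    lcf_Smooth₂ (gl_locU q F H ι) (gic_loc E H ι c) := by
  obtain ⟨L, hL, hfix⟩ := gic_exists_level q F ι
  refine ⟨L, hL, fun g g' s s' hs hs' => ?_⟩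
  rw [gic_loc_apply, gic_loc_apply, gic_locSigma_mul_fix q F H ι g s (hfix _ hs),
    gic_locSigma_mul_fix q F H ι g' s' (hfix _ hs')]

theorem gic_loc_smooth₁ (b : ↥H → A) :
    lcf_Smooth₁ (gl_locU q F H ι) (fun g => E.ev ι (b (gl_locSigma q F H ι g))) := by
  obtain ⟨L, hL, hfix⟩ := gic_exists_level q F ι
  refine ⟨L, hL, fun g s hs => ?_⟩
  show E.ev ι (b (gl_locSigma q F H ι (g * s))) = E.ev ι (b (gl_locSigma q F H ι g))
  rw [gic_locSigma_mul_fix q F H ι g s (hfix _ hs)]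

theorem gic_loc_isCoc (c : ↥H × ↥H → A) (hc : gic_IsCoc H c) :
    lcf_IsCoc (gl_locU q F H ι) (gic_loc E H ι c) := by
  refine ⟨fun g h j => ?_, gic_loc_smooth E H ι c⟩
  show gic_loc E H ι c (g * h, j) * gic_loc E H ι c (g, h) =
    (g : lcf_Gal q) • gic_loc E H ι c (h, j) * gic_loc E H ι c (g, h * j)
  rw [gic_loc_apply, gic_loc_apply, gic_loc_apply, gic_loc_apply, gic_smul_ev,
    gic_locSigma_mul, gic_locSigma_mul, ← map_mul, ← map_mul, hc]

theorem gic_loc_isCob (c : ↥H × ↥H → A) (hc : gic_IsCob H c) :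
    lcf_IsCob (gl_locU q F H ι) (gic_loc E H ι c) := by
  obtain ⟨b, hb⟩ := hc
  refine ⟨fun g => E.ev ι (b (gl_locSigma q F H ι g)), gic_loc_smooth₁ E H ι b, fun g h => ?_⟩
  show (g : lcf_Gal q) • E.ev ι (b (gl_locSigma q F H ι h)) /
      E.ev ι (b (gl_locSigma q F H ι (g * h))) * E.ev ι (b (gl_locSigma q F H ι g)) =
    gic_loc E H ι c (g, h)
  rw [gic_loc_apply, gic_smul_ev, gic_locSigma_mul, ← map_div, ← map_mul, hb]

theorem gic_loc_mul (c c' : ↥H × ↥H → A) :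
    gic_loc E H ι (c * c') = gic_loc E H ι c * gic_loc E H ι c' := by
  funext x
  show E.ev ι (c _ * c' _) = E.ev ι (c _) * E.ev ι (c' _)
  rw [map_mul]

theorem gic_comm_aux {B : Type*} [CommGroup B] (x1 x2 x3 x4 x5 x6 : B) :
    (x1 / x4 * x5) * (x3 / x5 * x6) = (x1 / x2 * x3) * (x2 / x4 * x6) := by
  have h : ∀ (y1 y2 y3 y4 y5 y6 : Additive B),
      (y1 - y4 + y5) + (y3 - y5 + y6) = (y1 - y2 + y3) + (y2 - y4 + y6) := by
    intros; abel
  exact h x1 x2 x3 x4 x5 x6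

/-- A coboundary is a cocycle. -/
theorem gic_isCoc_of_isCob (c : ↥H × ↥H → A) (hc : gic_IsCob H c) : gic_IsCoc H c := by
  obtain ⟨b, hb⟩ := hc
  intro g h j
  rw [← hb, ← hb, ← hb, ← hb]
  simp only [smul_mul', smul_div', ← mul_smul]
  have e1 : ((g * h : ↥H) : F ≃ₐ[ℚ] F) = (g : F ≃ₐ[ℚ] F) * (h : F ≃ₐ[ℚ] F) := rfl
  rw [e1, mul_assoc g h j]
  generalize ((g : F ≃ₐ[ℚ] F) * (h : F ≃ₐ[ℚ] F)) • b j = x1
  generalize (g : F ≃ₐ[ℚ] F) • b (h * j) = x2
  generalize (g : F ≃ₐ[ℚ] F) • b h = x3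
  generalize b (g * (h * j)) = x4
  generalize b (g * h) = x5
  generalize b g = x6
  exact gic_comm_aux x1 x2 x3 x4 x5 x6

theorem gic_locF_eq (c : ↥H × ↥H → Additive Fˣ) :
    gl_locF q F H ι c = gic_loc (gic_evF q F) H ι (fun x => (c x).toMul) := rfl

theorem gic_locJ_eq (c : ↥H × ↥H → Additive (gl_J F)) :
    gl_locJ q F H ι c = gic_loc (gic_evJ q F) H ι (fun x => (c x).toMul) := rfl

theorem gic_isCoc_of_F (c : ↥H × ↥H → Additive Fˣ) (hc : IsCocycle₂ c) :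
    gic_IsCoc H (fun x => (c x).toMul) := fun g h j => hc g h j

theorem gic_isCoc_of_J (c : ↥H × ↥H → Additive (gl_J F)) (hc : IsCocycle₂ c) :
    gic_IsCoc H (fun x => (c x).toMul) := fun g h j => hc g h j

end loc

end

end Fermat.Agent.S55
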