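/-
S55 (Poitou-Tate), GLOBAL side, package [INFL-SUM] part 1 (helper16): Galois theory of a tower
`(F, H) ← (F', H')` (`Global/TowerDefs.lean`):
* two embeddings of `F'` into `Ω_q` which agree on `j F` differ by an element of `ker π`;
* every embedding of `F` extends to `F'`;
* the places of `K' = F'^{H'}` and of `K = F^H` above `q` correspond bijectively.
Prefix `gis_`.
-/
import Mathlib
import Fermat.Agent.S55.Global.InvConjLoc

set_option autoImplicit false

namespace Fermat.Agent.S55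

open groupCohomology Polynomial

noncomputable section

section galois

variable {F F' : Type} [Field F] [Field F'] [NumberField F] [NumberField F']
  {H : Subgroup (F ≃ₐ[ℚ] F)} {H' : Subgroup (F' ≃ₐ[ℚ] F')} (t : gl_Tower F F' H H')

/-- Two embeddings of `F'` into a field which agree on `j F` differ by an element of
`ker π = Gal(F'/j F)`. -/
theorem gis_exists_ker {Ω : Type} [Field Ω] [Algebra ℚ Ω] (φ₁ φ₂ : F' →ₐ[ℚ] Ω)
    (h : φ₁.comp t.j = φ₂.comp t.j) :
    ∃ ρ : ↥H', t.π ρ = 1 ∧ φ₁ = φ₂.comp (((ρ : ↥H') : F' ≃ₐ[ℚ] F') : F' →ₐ[ℚ] F') := by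
  classical
  obtain ⟨θ, hθ⟩ := Field.exists_primitive_element ℚ F'
  have hadj : Algebra.adjoin ℚ ({θ} : Set F') = ⊤ := by
    have h2 := IntermediateField.adjoin_toSubalgebra (F := ℚ) (E := F') ({θ} : Set F')
    rw [← h2, hθ]
    rfl
  let _ : Fintype ↥(t.π.ker) := Fintype.ofFinite _
  set P : F'[X] := ∏ ρ : ↥(t.π.ker), (X - C (((ρ : ↥H') : F' ≃ₐ[ℚ] F') θ)) with hP
  -- the coefficients of `P` lie in `j F`
  have hcoef : ∀ n : ℕ, P.coeff n ∈ t.j.range := by
    intro n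
    apply t.fixed
    intro σ' hσ'
    have hmap : P.map (((σ' : ↥H') : F' ≃ₐ[ℚ] F') : F' →+* F') = P := by
      rw [hP, Polynomial.map_prod]
      have hσ'ker : σ' ∈ t.π.ker := hσ'
      refine Fintype.prod_equiv (Equiv.mulLeft (⟨σ', hσ'ker⟩ : ↥(t.π.ker))) _ _ ?_
      intro ρ
      rw [Polynomial.map_sub, Polynomial.map_X, Polynomial.map_C]
      rfl
    have h1 := congrArg (fun p : F'[X] => p.coeff n) hmap
    simp only [Polynomial.coeff_map] at h1
    exact h1
  have hφ : P.map (φ₁ : F' →+* Ω) = P.map (φ₂ : F' →+* Ω) := by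
    ext n
    rw [Polynomial.coeff_map, Polynomial.coeff_map]
    obtain ⟨b, hb⟩ := hcoef n
    rw [← hb]
    exact congrArg (fun f : F →ₐ[ℚ] Ω => f b) h
  have h0 : Polynomial.eval (φ₁ θ) (P.map (φ₁ : F' →+* Ω)) = 0 := by
    have h1 : Polynomial.eval θ P = 0 := by
      rw [hP, Polynomial.eval_prod]
      refine Finset.prod_eq_zero (Finset.mem_univ (1 : ↥(t.π.ker))) ?_
      simp
    have h2 := Polynomial.eval_map_apply (p := P) (φ₁ : F' →+* Ω) θ
    rw [h1, map_zero] at h2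
    exact h2
  rw [hφ, hP, Polynomial.map_prod, Polynomial.eval_prod] at h0
  obtain ⟨ρ, -, hρ⟩ := Finset.prod_eq_zero_iff.1 h0
  rw [Polynomial.map_sub, Polynomial.map_X, Polynomial.map_C, Polynomial.eval_sub,
    Polynomial.eval_X, Polynomial.eval_C, sub_eq_zero] at hρ
  refine ⟨(ρ : ↥H'), ρ.2, ?_⟩
  refine AlgHom.ext_of_adjoin_eq_top hadj ?_
  intro x hx
  rw [Set.mem_singleton_iff] at hx
  subst hx
  exact hρ

/-- Every embedding of `F` extends to `F'`. -/
theorem gis_exists_extension {Ω : Type} [Field Ω] [Algebra ℚ Ω] [IsAlgClosed Ω]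
    (ι : F →ₐ[ℚ] Ω) : ∃ ι' : F' →ₐ[ℚ] Ω, ι'.comp t.j = ι := by
  let _ : Algebra F F' := (t.j : F →+* F').toAlgebra
  let _ : Algebra F Ω := (ι : F →+* Ω).toAlgebra
  have : IsScalarTower ℚ F F' := IsScalarTower.of_algebraMap_eq (fun r => (t.j.commutes r).symm)
  have : Algebra.IsAlgebraic F F' := Algebra.IsAlgebraic.tower_top (K := ℚ) F
  let φ : F' →ₐ[F] Ω := IsAlgClosed.lift
  refine ⟨(φ : F' →+* Ω).toRatAlgHom, ?_⟩
  ext x
  exact φ.commutes x

end galois

end

end Fermat.Agent.S55
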