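/-
S55 (Poitou-Tate), GLOBAL side, package [INV-CONJ] (helper16): the local invariant at an
embedding `ι` of a global 2-cocycle depends only on the place of `K = F^H` defined by `ι`.
Prefix `gic_`.  Export: `gic_main : gl_InvConjStatement`.

Two steps: `ι' = τ ∘ ι` ((I6) for `τ`), and `ι' = ι ∘ s`, `s ∈ H` ((I6) for `τ = 1` to
transport along the equality of the subgroups, then "conjugation by `s` acts trivially on
`H²`": `s c(s⁻¹ x s, s⁻¹ y s) = c(x, y) · (dκ)(x, y)`, `κ(x) = c(s, s⁻¹ x s) / c(x, s)`,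
and (I1), (I2)).
-/
import Mathlib
import Fermat.Agent.S55.Global.InvConjLoc

set_option autoImplicit false

namespace Fermat.Agent.S55

open groupCohomology

noncomputable section

/-! ### Conjugation acts trivially on `H²` -/

theorem gic_conj_aux {B : Type*} [CommGroup B] (a P Q R S T V W Y Z : B)
    (h1 : P * Q = a * R) (h2 : P * S = T * V) (h3 : W * Y = Z * V) :
    a = Y * (T / Z / (R / W) * (Q / S)) := by
  have h : ∀ (a P Q R S T V W Y Z : Additive B), P + Q = a + R → P + S = T + V →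
      W + Y = Z + V → a = Y + (T - Z - (R - W) + (Q - S)) := by
    intro a P Q R S T V W Y Z h1 h2 h3
    have e1 : a = P + Q - R := eq_sub_of_add_eq h1.symm
    have e2 : P = T + V - S := eq_sub_of_add_eq h2
    have e3 : V = W + Y - Z := by rw [h3]; abel
    rw [e1, e2, e3]; abel
  exact h a P Q R S T V W Y Z h1 h2 h3

theorem gic_mul_aux {B : Type*} [CommGroup B] (a b c d a' b' c' d' : B)
    (h : a * b = c * d) (h' : a' * b' = c' * d') :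
    a * a' * (b * b') = c * c' * (d * d') := by
  rw [mul_mul_mul_comm, h, h', mul_mul_mul_comm]

section conj

variable {F : Type} [Field F] [NumberField F] {A : Type}
  [CommGroup A] [MulDistribMulAction (F ≃ₐ[ℚ] F) A] (H : Subgroup (F ≃ₐ[ℚ] F))

/-- The conjugate of a 2-cochain by `s ∈ H`. -/
def gic_conj (s : ↥H) (c : ↥H × ↥H → A) : ↥H × ↥H → A :=
  fun x => (s : F ≃ₐ[ℚ] F) • c (s⁻¹ * x.1 * s, s⁻¹ * x.2 * s)

/-- The 1-cochain whose coboundary is `conj c / c`. -/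
def gic_kappa (s : ↥H) (c : ↥H × ↥H → A) : ↥H → A :=
  fun x => c (s, s⁻¹ * x * s) / c (x, s)

/-- The coboundary of a 1-cochain. -/
def gic_d₁ (b : ↥H → A) : ↥H × ↥H → A :=
  fun x => (x.1 : F ≃ₐ[ℚ] F) • b x.2 / b (x.1 * x.2) * b x.1

theorem gic_d₁_isCob (b : ↥H → A) : gic_IsCob H (gic_d₁ H b) := ⟨b, fun _ _ => rfl⟩

theorem gic_conj_eq (s : ↥H) (c : ↥H × ↥H → A) (hc : gic_IsCoc H c) :
    gic_conj H s c = c * gic_d₁ H (gic_kappa H s c) := by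
  funext ⟨x, y⟩
  show (s : F ≃ₐ[ℚ] F) • c (s⁻¹ * x * s, s⁻¹ * y * s) =
    c (x, y) * ((x : F ≃ₐ[ℚ] F) • (c (s, s⁻¹ * y * s) / c (y, s)) /
      (c (s, s⁻¹ * (x * y) * s) / c (x * y, s)) * (c (s, s⁻¹ * x * s) / c (x, s)))
  have h1 := hc s (s⁻¹ * x * s) (s⁻¹ * y * s)
  have h2 := hc x s (s⁻¹ * y * s)
  have h3 := hc x y s
  have e1 : s * (s⁻¹ * x * s) = x * s := by group
  have e2 : s * (s⁻¹ * y * s) = y * s := by group
  have e3 : s⁻¹ * x * s * (s⁻¹ * y * s) = s⁻¹ * (x * y) * s := by group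
  rw [e1, e3] at h1
  rw [e2] at h2
  rw [smul_div']
  exact gic_conj_aux _ _ _ _ _ _ _ _ _ _ h1 h2 h3

theorem gic_isCoc_mul (c c' : ↥H × ↥H → A) (hc : gic_IsCoc H c) (hc' : gic_IsCoc H c') :
    gic_IsCoc H (c * c') := by
  intro g h j
  show c (g * h, j) * c' (g * h, j) * (c (g, h) * c' (g, h)) =
    (g : F ≃ₐ[ℚ] F) • (c (h, j) * c' (h, j)) * (c (g, h * j) * c' (g, h * j))
  rw [smul_mul']
  exact gic_mul_aux _ _ _ _ _ _ _ _ (hc g h j) (hc' g h j)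

theorem gic_conj_isCoc (s : ↥H) (c : ↥H × ↥H → A) (hc : gic_IsCoc H c) :
    gic_IsCoc H (gic_conj H s c) := by
  rw [gic_conj_eq H s c hc]
  exact gic_isCoc_mul H _ _ hc (gic_isCoc_of_isCob H _ (gic_d₁_isCob H _))

end conj

/-! ### The two steps -/

section steps

variable {q : ℕ} [Fact q.Prime] {F : Type} [Field F] [NumberField F] {A : Type}
  [CommGroup A] [MulDistribMulAction (F ≃ₐ[ℚ] F) A] (E : gic_Ev q F A)
  (H : Subgroup (F ≃ₐ[ℚ] F)) (ι : F →ₐ[ℚ] PadicAlgCl q)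

theorem gic_mem_twist_iff (τ : gl_GQq q) (g : lcf_Gal q) :
    g ∈ gl_locU q F H (gl_twist q F τ ι) ↔ τ⁻¹ * g * τ ∈ gl_locU q F H ι := by
  constructor
  · rintro ⟨σ, hσ, h⟩
    refine ⟨σ, hσ, ?_⟩
    rw [gl_twist_mul, gl_twist_mul, h, gl_twist_comp, ← gl_twist_mul, inv_mul_cancel,
      gl_twist_one]
  · rintro ⟨σ, hσ, h⟩
    refine ⟨σ, hσ, ?_⟩
    have h1 : gl_twist q F g (gl_twist q F τ ι) =
        gl_twist q F τ (gl_twist q F (τ⁻¹ * g * τ) ι) := by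
      rw [← gl_twist_mul, ← gl_twist_mul]
      congr 1
      group
    rw [h1, h, gl_twist_comp]

theorem gic_locSigma_twist (τ : gl_GQq q) (g : ↥(gl_locU q F H ι))
    (g' : ↥(gl_locU q F H (gl_twist q F τ ι)))
    (hg : (g' : lcf_Gal q) = τ * (g : lcf_Gal q) * τ⁻¹) :
    gl_locSigma q F H (gl_twist q F τ ι) g' = gl_locSigma q F H ι g := by
  apply Subtype.ext
  apply gic_locSigma_eq
  rw [hg]
  have h1 : gl_twist q F (τ * (g : lcf_Gal q) * τ⁻¹) (gl_twist q F τ ι) =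
      gl_twist q F τ (gl_twist q F (g : lcf_Gal q) ι) := by
    rw [← gl_twist_mul, ← gl_twist_mul]
    congr 1
    group
  rw [h1, gl_locSigma_spec q F H ι g, gl_twist_comp]

/-- Step A: `ι' = τ ∘ ι`. -/
theorem gic_inv_twist (inv : lcf_InvType) (hinv : lcf_IsInvSystem inv) (τ : gl_GQq q)
    (c : ↥H × ↥H → A) (hc : gic_IsCoc H c) :
    inv q (gl_locU q F H (gl_twist q F τ ι)) (gic_loc E H (gl_twist q F τ ι) c) =
      inv q (gl_locU q F H ι) (gic_loc E H ι c) := by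
  refine hinv.conj q (gl_locU q F H ι) (gl_locU q F H (gl_twist q F τ ι)) τ
    (gic_locU_isOpen q F H ι) (gic_mem_twist_iff H ι τ) _ _ (gic_loc_isCoc E H ι c hc) ?_
  intro g h g' h' hg hh
  rw [gic_loc_apply, gic_loc_apply, gic_locSigma_twist H ι τ g g' hg,
    gic_locSigma_twist H ι τ h h' hh, E.twist]

theorem gic_mem_comp_iff (s : ↥H) (g : lcf_Gal q) :
    g ∈ gl_locU q F H (ι.comp ((s : F ≃ₐ[ℚ] F) : F →ₐ[ℚ] F)) ↔
      (1 : lcf_Gal q)⁻¹ * g * 1 ∈ gl_locU q F H ι := by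
  rw [inv_one, one_mul, mul_one]
  constructor
  · rintro ⟨σ, hσ, h⟩
    refine ⟨(s : F ≃ₐ[ℚ] F) * σ * (s : F ≃ₐ[ℚ] F)⁻¹,
      H.mul_mem (H.mul_mem s.2 hσ) (H.inv_mem s.2), ?_⟩
    ext x
    have h1 := congrArg (fun f : F →ₐ[ℚ] PadicAlgCl q => f ((s : F ≃ₐ[ℚ] F)⁻¹ x)) h
    simp only [gl_twist_apply, AlgHom.comp_apply, AlgEquiv.coe_toAlgHom] at h1
    rw [show (s : F ≃ₐ[ℚ] F) ((s : F ≃ₐ[ℚ] F)⁻¹ x) = x from
      (s : F ≃ₐ[ℚ] F).apply_symm_apply x] at h1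
    simpa using h1
  · rintro ⟨σ, hσ, h⟩
    refine ⟨(s : F ≃ₐ[ℚ] F)⁻¹ * σ * (s : F ≃ₐ[ℚ] F),
      H.mul_mem (H.mul_mem (H.inv_mem s.2) hσ) s.2, ?_⟩
    ext x
    have h1 := congrArg (fun f : F →ₐ[ℚ] PadicAlgCl q => f ((s : F ≃ₐ[ℚ] F) x)) h
    simp only [gl_twist_apply, AlgHom.comp_apply, AlgEquiv.coe_toAlgHom] at h1
    simp only [gl_twist_apply, AlgHom.comp_apply, AlgEquiv.coe_toAlgHom, AlgEquiv.mul_apply]
    rw [h1]
    congr 1
    exact ((s : F ≃ₐ[ℚ] F).apply_symm_apply _).symm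

theorem gic_locSigma_comp (s : ↥H) (g : ↥(gl_locU q F H ι))
    (g' : ↥(gl_locU q F H (ι.comp ((s : F ≃ₐ[ℚ] F) : F →ₐ[ℚ] F))))
    (hg : (g' : lcf_Gal q) = 1 * (g : lcf_Gal q) * 1⁻¹) :
    gl_locSigma q F H (ι.comp ((s : F ≃ₐ[ℚ] F) : F →ₐ[ℚ] F)) g' =
      s⁻¹ * gl_locSigma q F H ι g * s := by
  apply Subtype.ext
  apply gic_locSigma_eq
  rw [hg, one_mul, inv_one, mul_one]
  ext x
  have h1 := gl_locSigma_apply q F H ι g ((s : F ≃ₐ[ℚ] F) x)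
  show (g : lcf_Gal q) (ι ((s : F ≃ₐ[ℚ] F) x)) =
    ι ((s : F ≃ₐ[ℚ] F) ((s : F ≃ₐ[ℚ] F)⁻¹
      (((gl_locSigma q F H ι g : ↥H) : F ≃ₐ[ℚ] F) ((s : F ≃ₐ[ℚ] F) x))))
  rw [h1]
  congr 1
  exact ((s : F ≃ₐ[ℚ] F).apply_symm_apply _).symm

/-- Step B: `ι' = ι ∘ s`, `s ∈ H`. -/
theorem gic_inv_comp (inv : lcf_InvType) (hinv : lcf_IsInvSystem inv) (s : ↥H)
    (c : ↥H × ↥H → A) (hc : gic_IsCoc H c) :
    inv q (gl_locU q F H (ι.comp ((s : F ≃ₐ[ℚ] F) : F →ₐ[ℚ] F)))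
        (gic_loc E H (ι.comp ((s : F ≃ₐ[ℚ] F) : F →ₐ[ℚ] F)) c) =
      inv q (gl_locU q F H ι) (gic_loc E H ι c) := by
  have hopen := gic_locU_isOpen q F H ι
  have hA : inv q (gl_locU q F H (ι.comp ((s : F ≃ₐ[ℚ] F) : F →ₐ[ℚ] F)))
        (gic_loc E H (ι.comp ((s : F ≃ₐ[ℚ] F) : F →ₐ[ℚ] F)) c) =
      inv q (gl_locU q F H ι) (gic_loc E H ι (gic_conj H s c)) := by
    refine hinv.conj q (gl_locU q F H ι) _ 1 hopen (gic_mem_comp_iff H ι s) _ _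
      (gic_loc_isCoc E H ι _ (gic_conj_isCoc H s c hc)) ?_
    intro g h g' h' hg hh
    rw [one_smul, gic_loc_apply, gic_loc_apply, gic_locSigma_comp H ι s g g' hg,
      gic_locSigma_comp H ι s h h' hh, E.comp]
    rfl
  rw [hA, gic_conj_eq H s c hc, gic_loc_mul,
    hinv.add q _ hopen _ _ (gic_loc_isCoc E H ι c hc)
      (gic_loc_isCoc E H ι _ (gic_isCoc_of_isCob H _ (gic_d₁_isCob H _))),
    (hinv.eq_zero_iff q _ hopen _
      (gic_loc_isCoc E H ι _ (gic_isCoc_of_isCob H _ (gic_d₁_isCob H _)))).2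
      (gic_loc_isCob E H ι _ (gic_d₁_isCob H _)), add_zero]

/-- **[INV-CONJ]**, general form. -/
theorem gic_inv_conj (inv : lcf_InvType) (hinv : lcf_IsInvSystem inv)
    (ι' : F →ₐ[ℚ] PadicAlgCl q) (h : (gl_placeKSetoid q F H).r ι ι')
    (c : ↥H × ↥H → A) (hc : gic_IsCoc H c) :
    inv q (gl_locU q F H ι') (gic_loc E H ι' c) = inv q (gl_locU q F H ι) (gic_loc E H ι c) := by
  obtain ⟨σ, hσ, τ, rfl⟩ := h
  rw [gic_inv_twist E H _ inv hinv τ c hc]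
  exact gic_inv_comp E H ι inv hinv ⟨σ, hσ⟩ c hc

end steps

/-- **[INV-CONJ]** -/
theorem gic_main : gl_InvConjStatement := by
  intro inv hinv F _ _ H q _ ι ι' h
  refine ⟨fun c hc => ?_, fun c hc => ?_⟩
  · show inv q _ (gl_locF q F H ι' c) = inv q _ (gl_locF q F H ι c)
    rw [gic_locF_eq, gic_locF_eq]
    exact gic_inv_conj (gic_evF q F) H ι inv hinv ι' h _ (gic_isCoc_of_F H c hc)
  · show inv q _ (gl_locJ q F H ι' c) = inv q _ (gl_locJ q F H ι c)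
    rw [gic_locJ_eq, gic_locJ_eq]
    exact gic_inv_conj (gic_evJ q F) H ι inv hinv ι' h _ (gic_isCoc_of_J H c hc)

end

end Fermat.Agent.S55
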