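/-
S55 (Poitou-Tate), GLOBAL side, package [INFL-SUM] (helper16): inflation along a tower
`(F, H) ← (F', H')` does not change the local invariants, nor their sums over the places
above `q`.  Prefix `gis_`.  Export: `gis_main : gl_InflSumStatement`.

`gl_locU q F' H' ι' = gl_locU q F H (ι' ∘ j)` as subgroups of `Gal(Ω_q/ℚ_q)`, the localisations
agree pointwise, and (I6) for `τ = 1` transports the invariant along this (propositional)
equality; the places of `K' = F'^{H'}` and `K = F^H` correspond bijectively by `[ι'] ↦ [ι' ∘ j]`,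
and [INV-CONJ] takes care of the change of representatives.
-/
import Mathlib
import Fermat.Agent.S55.Global.InvConj
import Fermat.Agent.S55.Global.InflSumGal

set_option autoImplicit false

namespace Fermat.Agent.S55

open groupCohomology

noncomputable section

section local_part

variable {q : ℕ} [Fact q.Prime]
  {F F' : Type} [Field F] [Field F'] [NumberField F] [NumberField F']
  {H : Subgroup (F ≃ₐ[ℚ] F)} {H' : Subgroup (F' ≃ₐ[ℚ] F')} (t : gl_Tower F F' H H')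
  (ι' : F' →ₐ[ℚ] PadicAlgCl q)

theorem gis_comp_pi (σ' : ↥H') :
    (ι'.comp (((σ' : ↥H') : F' ≃ₐ[ℚ] F') : F' →ₐ[ℚ] F')).comp t.j =
      (ι'.comp t.j).comp (((t.π σ' : ↥H) : F ≃ₐ[ℚ] F) : F →ₐ[ℚ] F) := by
  ext x
  show ι' (((σ' : ↥H') : F' ≃ₐ[ℚ] F') (t.j x)) = ι' (t.j (((t.π σ' : ↥H) : F ≃ₐ[ℚ] F) x))
  rw [t.compat]

theorem gis_twist_comp_j (g : lcf_Gal q) :
    (gl_twist q F' g ι').comp t.j = gl_twist q F g (ι'.comp t.j) := rfl

theorem gis_mem_iff (g : lcf_Gal q) :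
    g ∈ gl_locU q F' H' ι' ↔ (1 : lcf_Gal q)⁻¹ * g * 1 ∈ gl_locU q F H (ι'.comp t.j) := by
  rw [inv_one, one_mul, mul_one]
  constructor
  · rintro ⟨σ', hσ', h⟩
    refine ⟨((t.π ⟨σ', hσ'⟩ : ↥H) : F ≃ₐ[ℚ] F), (t.π ⟨σ', hσ'⟩).2, ?_⟩
    rw [← gis_twist_comp_j, h]
    exact gis_comp_pi t ι' ⟨σ', hσ'⟩
  · rintro ⟨σ, hσ, h⟩
    obtain ⟨σ₀, hσ₀⟩ := t.surj ⟨σ, hσ⟩
    have h1 : (gl_twist q F' g ι').comp t.j =
        (ι'.comp (((σ₀ : ↥H') : F' ≃ₐ[ℚ] F') : F' →ₐ[ℚ] F')).comp t.j := by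
      rw [gis_twist_comp_j, h, gis_comp_pi, hσ₀]
    obtain ⟨ρ, -, hρ⟩ := gis_exists_ker t _ _ h1
    exact ⟨((σ₀ * ρ : ↥H') : F' ≃ₐ[ℚ] F'), (σ₀ * ρ).2, hρ⟩

theorem gis_pi_locSigma (g : ↥(gl_locU q F H (ι'.comp t.j))) (g' : ↥(gl_locU q F' H' ι'))
    (hg : (g' : lcf_Gal q) = 1 * (g : lcf_Gal q) * 1⁻¹) :
    t.π (gl_locSigma q F' H' ι' g') = gl_locSigma q F H (ι'.comp t.j) g := by
  rw [one_mul, inv_one, mul_one] at hg
  symm
  apply Subtype.ext
  apply gic_locSigma_eq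
  rw [← hg, ← gis_twist_comp_j, gl_locSigma_spec q F' H' ι' g']
  exact gis_comp_pi t ι' _

variable {A A' : Type} [CommGroup A] [MulDistribMulAction (F ≃ₐ[ℚ] F) A]
  [CommGroup A'] [MulDistribMulAction (F' ≃ₐ[ℚ] F') A']
  (E : gic_Ev q F A) (E' : gic_Ev q F' A') (m : A → A')

/-- Inflation of a 2-cochain, general form. -/
def gis_infl (c : ↥H × ↥H → A) : ↥H' × ↥H' → A' :=
  fun x => m (c (t.π x.1, t.π x.2))

/-- Inflation does not change the local invariant. -/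
theorem gis_inv_infl (hm : ∀ (ι' : F' →ₐ[ℚ] PadicAlgCl q) (a : A),
      E'.ev ι' (m a) = E.ev (ι'.comp t.j) a)
    (inv : lcf_InvType) (hinv : lcf_IsInvSystem inv)
    (c : ↥H × ↥H → A) (hc : gic_IsCoc H c) :
    inv q (gl_locU q F' H' ι') (gic_loc E' H' ι' (gis_infl t m c)) =
      inv q (gl_locU q F H (ι'.comp t.j)) (gic_loc E H (ι'.comp t.j) c) := by
  refine hinv.conj q (gl_locU q F H (ι'.comp t.j)) (gl_locU q F' H' ι') 1
    (gic_locU_isOpen q F H _) (gis_mem_iff t ι') _ _ (gic_loc_isCoc E H _ c hc) ?_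
  intro g h g' h' hg hh
  rw [one_smul, gic_loc_apply, gic_loc_apply]
  show E'.ev ι' (m (c (t.π (gl_locSigma q F' H' ι' g'), t.π (gl_locSigma q F' H' ι' h')))) = _
  rw [hm, gis_pi_locSigma t ι' g g' hg, gis_pi_locSigma t ι' h h' hh]

end local_part

/-! ### The places -/

section places

variable (q : ℕ) [Fact q.Prime]
  {F F' : Type} [Field F] [Field F'] [NumberField F] [NumberField F']
  {H : Subgroup (F ≃ₐ[ℚ] F)} {H' : Subgroup (F' ≃ₐ[ℚ] F')} (t : gl_Tower F F' H H')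

/-- The map `[ι'] ↦ [ι' ∘ j]` from the places of `K' = F'^{H'}` to the places of `K = F^H`. -/
def gis_placeMap : gl_PlaceK q F' H' → gl_PlaceK q F H :=
  Quotient.map' (s₁ := gl_placeKSetoid q F' H') (s₂ := gl_placeKSetoid q F H)
    (fun ι' => ι'.comp t.j) (by
      rintro ι₁ ι₂ ⟨σ', hσ', τ, rfl⟩
      refine ⟨((t.π ⟨σ', hσ'⟩ : ↥H) : F ≃ₐ[ℚ] F), (t.π ⟨σ', hσ'⟩).2, τ, ?_⟩
      show gl_twist q F τ ((ι₁.comp (σ' : F' →ₐ[ℚ] F')).comp t.j) = _
      rw [gis_comp_pi t ι₁ ⟨σ', hσ'⟩])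

theorem gis_placeMap_mk (ι' : F' →ₐ[ℚ] PadicAlgCl q) :
    gis_placeMap q t (Quotient.mk (gl_placeKSetoid q F' H') ι') =
      Quotient.mk (gl_placeKSetoid q F H) (ι'.comp t.j) := rfl

theorem gis_placeMap_injective : Function.Injective (gis_placeMap q t) := by
  intro v₁ v₂
  induction v₁ using Quotient.inductionOn with
  | _ ι₁ =>
    induction v₂ using Quotient.inductionOn with
    | _ ι₂ =>
      intro h
      rw [gis_placeMap_mk, gis_placeMap_mk] at h
      obtain ⟨σ, hσ, τ, hτ⟩ := Quotient.exact h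
      obtain ⟨σ₀, hσ₀⟩ := t.surj ⟨σ, hσ⟩
      have h1 : ι₂.comp t.j =
          (gl_twist q F' τ (ι₁.comp (((σ₀ : ↥H') : F' ≃ₐ[ℚ] F') : F' →ₐ[ℚ] F'))).comp t.j := by
        rw [hτ, gis_twist_comp_j, gis_comp_pi, hσ₀]
      obtain ⟨ρ, -, hρ⟩ := gis_exists_ker t _ _ h1
      apply Quotient.sound
      exact ⟨((σ₀ * ρ : ↥H') : F' ≃ₐ[ℚ] F'), (σ₀ * ρ).2, τ, hρ⟩

theorem gis_placeMap_surjective : Function.Surjective (gis_placeMap q t) := by
  intro v
  induction v using Quotient.inductionOn with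
  | _ ι =>
    obtain ⟨ι', hι'⟩ := gis_exists_extension t ι
    refine ⟨Quotient.mk (gl_placeKSetoid q F' H') ι', ?_⟩
    rw [gis_placeMap_mk, hι']

theorem gis_placeMap_bijective : Function.Bijective (gis_placeMap q t) :=
  ⟨gis_placeMap_injective q t, gis_placeMap_surjective q t⟩

theorem gis_out_rel (v' : gl_PlaceK q F' H') :
    (gl_placeKSetoid q F H).r ((Quotient.out v').comp t.j)
      (Quotient.out (gis_placeMap q t v')) := by
  apply Quotient.exact (s := gl_placeKSetoid q F H)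
  have h1 : Quotient.mk (gl_placeKSetoid q F H) (Quotient.out (gis_placeMap q t v')) =
      gis_placeMap q t v' := Quotient.out_eq _
  have h2 : Quotient.mk (gl_placeKSetoid q F' H') (Quotient.out v') = v' := Quotient.out_eq _
  exact (gis_placeMap_mk q t (Quotient.out v')).symm.trans
    ((congrArg (gis_placeMap q t) h2).trans h1.symm)

variable {A A' : Type} [CommGroup A] [MulDistribMulAction (F ≃ₐ[ℚ] F) A]
  [CommGroup A'] [MulDistribMulAction (F' ≃ₐ[ℚ] F') A']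
  (E : gic_Ev q F A) (E' : gic_Ev q F' A') (m : A → A')

/-- Inflation does not change the sum of the local invariants over the places above `q`. -/
theorem gis_sum_infl (hm : ∀ (ι' : F' →ₐ[ℚ] PadicAlgCl q) (a : A),
      E'.ev ι' (m a) = E.ev (ι'.comp t.j) a)
    (inv : lcf_InvType) (hinv : lcf_IsInvSystem inv)
    (c : ↥H × ↥H → A) (hc : gic_IsCoc H c) :
    (∑ᶠ v' : gl_PlaceK q F' H', inv q (gl_locU q F' H' (Quotient.out v'))
        (gic_loc E' H' (Quotient.out v') (gis_infl t m c))) =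
      ∑ᶠ v : gl_PlaceK q F H, inv q (gl_locU q F H (Quotient.out v))
        (gic_loc E H (Quotient.out v) c) := by
  refine finsum_eq_of_bijective (gis_placeMap q t) (gis_placeMap_bijective q t) ?_
  intro v'
  rw [gis_inv_infl t (Quotient.out v') E E' m hm inv hinv c hc]
  exact (gic_inv_conj E H _ inv hinv _ (gis_out_rel q t v') c hc).symm

end places

/-- **[INFL-SUM]** -/
theorem gis_main : gl_InflSumStatement := by
  intro inv hinv F F' _ _ _ _ H H' t
  refine ⟨fun c hc => ⟨?_, ?_⟩, fun c hc => ⟨?_, ?_⟩⟩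
  · intro q _ ι'
    exact gis_inv_infl t ι' (gic_evF q F) (gic_evF q F') (Units.map (t.j : F →* F'))
      (fun _ _ => rfl) inv hinv _ (gic_isCoc_of_F H c hc)
  · intro q
    have : Fact (q : ℕ).Prime := ⟨q.2⟩
    exact gis_sum_infl (q : ℕ) t (gic_evF (q : ℕ) F) (gic_evF (q : ℕ) F')
      (Units.map (t.j : F →* F')) (fun _ _ => rfl) inv hinv _ (gic_isCoc_of_F H c hc)
  · intro q _ ι'
    exact gis_inv_infl t ι' (gic_evJ q F) (gic_evJ q F') (gl_mapJ t.j)
      (fun _ _ => rfl) inv hinv _ (gic_isCoc_of_J H c hc)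
  · intro q
    have : Fact (q : ℕ).Prime := ⟨q.2⟩
    exact gis_sum_infl (q : ℕ) t (gic_evJ (q : ℕ) F) (gic_evJ (q : ℕ) F')
      (gl_mapJ t.j) (fun _ _ => rfl) inv hinv _ (gic_isCoc_of_J H c hc)

end

end Fermat.Agent.S55
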