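/-
# S55 / GLOBAL : [LOC-BASIC]

`glb_main : gl_LocBasicStatement` (the Prop of `Global/TowerDefs.lean`, verbatim): the
localisation at an embedding `ι : F → Ω_q` of a finite-level 2-cocycle (coboundary) of
`H ≤ Aut(F/ℚ)` with values in `Fˣ` or in the ideles is a smooth 2-cocycle (smooth coboundary) of
`gl_locU q F H ι`; localisation is additive; the localisation of a principal cochain is the
localisation of its diagonal image.

Assembly on the evaluation-system toolkit `gic_*` of `Global/InvConjLoc.lean`.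
-/
import Mathlib
import Fermat.Agent.S55.Global.InvConjLoc

set_option autoImplicit false

namespace Fermat.Agent.S55

open groupCohomology

noncomputable section

section

variable {q : ℕ} [Fact q.Prime] {F : Type} [Field F] [NumberField F]
  (H : Subgroup (F ≃ₐ[ℚ] F)) (ι : F →ₐ[ℚ] PadicAlgCl q)

/-- An additive coboundary with values in `Additive Fˣ` is a multiplicative coboundary. -/
theorem glb_isCob_of_F (c : ↥H × ↥H → Additive Fˣ) (hc : IsCoboundary₂ c) :
    gic_IsCob H (fun x => (c x).toMul) := by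
  obtain ⟨b, hb⟩ := hc
  exact ⟨fun g => (b g).toMul, fun g h => hb g h⟩

/-- An additive coboundary with values in the ideles is a multiplicative coboundary. -/
theorem glb_isCob_of_J (c : ↥H × ↥H → Additive (gl_J F)) (hc : IsCoboundary₂ c) :
    gic_IsCob H (fun x => (c x).toMul) := by
  obtain ⟨b, hb⟩ := hc
  exact ⟨fun g => (b g).toMul, fun g h => hb g h⟩

/-- Localisation of `Fˣ`-valued cocycles. -/
theorem glb_locF_isCoc (c : ↥H × ↥H → Additive Fˣ) (hc : IsCocycle₂ c) :
    lcf_IsCoc (gl_locU q F H ι) (gl_locF q F H ι c) := by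
  rw [gic_locF_eq]
  exact gic_loc_isCoc (gic_evF q F) H ι _ (gic_isCoc_of_F H c hc)

/-- Localisation of `Fˣ`-valued coboundaries. -/
theorem glb_locF_isCob (c : ↥H × ↥H → Additive Fˣ) (hc : IsCoboundary₂ c) :
    lcf_IsCob (gl_locU q F H ι) (gl_locF q F H ι c) := by
  rw [gic_locF_eq]
  exact gic_loc_isCob (gic_evF q F) H ι _ (glb_isCob_of_F H c hc)

/-- Localisation of idele-valued cocycles. -/
theorem glb_locJ_isCoc (c : ↥H × ↥H → Additive (gl_J F)) (hc : IsCocycle₂ c) :
    lcf_IsCoc (gl_locU q F H ι) (gl_locJ q F H ι c) := by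
  rw [gic_locJ_eq]
  exact gic_loc_isCoc (gic_evJ q F) H ι _ (gic_isCoc_of_J H c hc)

/-- Localisation of idele-valued coboundaries. -/
theorem glb_locJ_isCob (c : ↥H × ↥H → Additive (gl_J F)) (hc : IsCoboundary₂ c) :
    lcf_IsCob (gl_locU q F H ι) (gl_locJ q F H ι c) := by
  rw [gic_locJ_eq]
  exact gic_loc_isCob (gic_evJ q F) H ι _ (glb_isCob_of_J H c hc)

/-- Localisation is additive (`Fˣ`-valued cochains). -/
theorem glb_locF_add (c c' : ↥H × ↥H → Additive Fˣ) :
    gl_locF q F H ι (c + c') = gl_locF q F H ι c * gl_locF q F H ι c' := by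
  funext x
  show Units.map (ι : F →* PadicAlgCl q) ((c _).toMul * (c' _).toMul) =
    Units.map (ι : F →* PadicAlgCl q) (c _).toMul * Units.map (ι : F →* PadicAlgCl q) (c' _).toMul
  rw [map_mul]

/-- Localisation is additive (idele-valued cochains). -/
theorem glb_locJ_add (c c' : ↥H × ↥H → Additive (gl_J F)) :
    gl_locJ q F H ι (c + c') = gl_locJ q F H ι c * gl_locJ q F H ι c' := by
  funext x
  rfl

/-- The localisation of a principal idele-valued cochain is the localisation of the
`Fˣ`-valued cochain. -/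
theorem glb_locJ_diag (c : ↥H × ↥H → Additive Fˣ) (c' : ↥H × ↥H → Additive (gl_J F))
    (h : ∀ x (r : Nat.Primes), (c' x).toMul.1 r = gl_diagP F r (c x).toMul) :
    gl_locJ q F H ι c' = gl_locF q F H ι c := by
  funext x
  have h1 := h (gl_locSigma q F H ι x.1, gl_locSigma q F H ι x.2) (⟨q, Fact.out⟩ : Nat.Primes)
  have h2 := congrArg (fun f : gl_Jq q F => f.1 ι) h1
  exact h2

end

/-- **[LOC-BASIC]** -/
theorem glb_main : gl_LocBasicStatement := by
  intro F _ _ H q _ ι
  exact ⟨gic_locU_isOpen q F H ι, glb_locF_isCoc H ι, glb_locF_isCob H ι, glb_locJ_isCoc H ι,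
    glb_locJ_isCob H ι, glb_locF_add H ι, glb_locJ_add H ι, glb_locJ_diag H ι⟩

end

end Fermat.Agent.S55
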