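/-
S55 (fifth wave), GLOBAL side, package [RES-SUM] (helper18): restriction of finite-level global
2-cochains to a subgroup `H₁ ≤ H` multiplies the local invariant at `ι` by the local degree and
the sum over the places above `q` by the global degree.

EXPORT: `grs_main_of : gl_LocBasicStatement → gl_InvConjStatement → gl_ResSumStatement`
(the hypothesis-free `grs_main : gl_ResSumStatement` is in `Global/ResSumMain.lean`).

* the element `σ_g` is unique (`grs_locSigma_eq_of`), `g ↦ σ_g` is a homomorphism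
  (`grs_sigmaHom`), the localisation of a restricted cochain is the restriction of the
  localisation (`grs_locF_res`, `grs_locJ_res`); (I3) gives the local formula;
* the local degree `[gl_locU H ι : gl_locU H₁ ι]` is the relative index of `H₁` in the
  decomposition group `D_ι = range σ` (`grs_relIndex_eq`);
* `grs_fib ι : H / H₁ → {places of F^{H₁}}`, `σ H₁ ↦ [ι ∘ σ]`; its image is the set of places
  above `[ι]`, the fibre over `[ι']` has `[gl_locU H ι' : gl_locU H₁ ι']` elements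
  (orbit-stabiliser, `grs_card_fib`); hence `∑_{w ∣ v} [K₁,w : K_v] = [H : H₁]`
  (`grs_sum_relIndex`);
* `grs_sum_generic`: the summation lemma; [INV-CONJ] is used only for `H`.
-/
import Mathlib
import Fermat.Agent.S55.Global.TowerDefs

set_option autoImplicit false

namespace Fermat.Agent.S55

open groupCohomology

noncomputable section

section loc

variable (q : ℕ) [Fact q.Prime] (F : Type) [Field F] [Algebra ℚ F]

/-- An embedding is a monomorphism: `ι ∘ σ = ι ∘ σ'` forces `σ = σ'`. -/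
theorem grs_comp_inj (ι : F →ₐ[ℚ] PadicAlgCl q) (σ σ' : F ≃ₐ[ℚ] F)
    (h : ι.comp (σ : F →ₐ[ℚ] F) = ι.comp (σ' : F →ₐ[ℚ] F)) : σ = σ' := by
  ext x
  have h1 := congrArg (fun f : F →ₐ[ℚ] PadicAlgCl q => f x) h
  exact (ι : F →+* PadicAlgCl q).injective h1

variable (H : Subgroup (F ≃ₐ[ℚ] F)) (ι : F →ₐ[ℚ] PadicAlgCl q)

/-- Uniqueness of `σ_g`. -/
theorem grs_locSigma_eq_of (g : ↥(gl_locU q F H ι)) (σ : F ≃ₐ[ℚ] F)
    (h : gl_twist q F (g : lcf_Gal q) ι = ι.comp (σ : F →ₐ[ℚ] F)) :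
    ((gl_locSigma q F H ι g : ↥H) : F ≃ₐ[ℚ] F) = σ :=
  grs_comp_inj q F ι _ _ ((gl_locSigma_spec q F H ι g).symm.trans h)

theorem grs_locSigma_one : gl_locSigma q F H ι 1 = 1 := by
  apply Subtype.ext
  apply grs_locSigma_eq_of
  rw [Subgroup.coe_one, gl_twist_one]
  rfl

theorem grs_locSigma_mul (g g' : ↥(gl_locU q F H ι)) :
    gl_locSigma q F H ι (g * g') = gl_locSigma q F H ι g * gl_locSigma q F H ι g' := by
  apply Subtype.ext
  apply grs_locSigma_eq_of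
  rw [Subgroup.coe_mul, gl_twist_mul, gl_locSigma_spec q F H ι g', gl_twist_comp,
    gl_locSigma_spec q F H ι g]
  rfl

/-- `g ↦ σ_g` as a homomorphism `gl_locU q F H ι →* H`. -/
def grs_sigmaHom : ↥(gl_locU q F H ι) →* ↥H where
  toFun := gl_locSigma q F H ι
  map_one' := grs_locSigma_one q F H ι
  map_mul' := grs_locSigma_mul q F H ι

@[simp] theorem grs_sigmaHom_apply (g : ↥(gl_locU q F H ι)) :
    grs_sigmaHom q F H ι g = gl_locSigma q F H ι g := rfl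

variable {H}

theorem grs_locU_mono {H₁ : Subgroup (F ≃ₐ[ℚ] F)} (h : H₁ ≤ H) :
    gl_locU q F H₁ ι ≤ gl_locU q F H ι := by
  rintro g ⟨σ, hσ, hg⟩
  exact ⟨σ, h hσ, hg⟩

theorem grs_locSigma_incl {H₁ : Subgroup (F ≃ₐ[ℚ] F)} (h : H₁ ≤ H)
    (g : ↥(gl_locU q F H₁ ι)) :
    gl_locSigma q F H ι (Subgroup.inclusion (grs_locU_mono q F ι h) g) =
      Subgroup.inclusion h (gl_locSigma q F H₁ ι g) := by
  apply Subtype.ext
  apply grs_locSigma_eq_of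
  exact gl_locSigma_spec q F H₁ ι g

theorem grs_locF_res {H₁ : Subgroup (F ≃ₐ[ℚ] F)} (h : H₁ ≤ H) (c : ↥H × ↥H → Additive Fˣ) :
    gl_locF q F H₁ ι (gl_res₂ h c) = lcf_res (grs_locU_mono q F ι h) (gl_locF q F H ι c) := by
  funext x
  show Units.map (ι : F →* PadicAlgCl q)
      (c (Subgroup.inclusion h (gl_locSigma q F H₁ ι x.1),
        Subgroup.inclusion h (gl_locSigma q F H₁ ι x.2))).toMul =
    Units.map (ι : F →* PadicAlgCl q)
      (c (gl_locSigma q F H ι (Subgroup.inclusion (grs_locU_mono q F ι h) x.1),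
        gl_locSigma q F H ι (Subgroup.inclusion (grs_locU_mono q F ι h) x.2))).toMul
  rw [grs_locSigma_incl, grs_locSigma_incl]

theorem grs_locJ_res {H₁ : Subgroup (F ≃ₐ[ℚ] F)} (h : H₁ ≤ H)
    (c : ↥H × ↥H → Additive (gl_J F)) :
    gl_locJ q F H₁ ι (gl_res₂ h c) = lcf_res (grs_locU_mono q F ι h) (gl_locJ q F H ι c) := by
  funext x
  show (((c (Subgroup.inclusion h (gl_locSigma q F H₁ ι x.1),
        Subgroup.inclusion h (gl_locSigma q F H₁ ι x.2))).toMul.1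
      (⟨q, Fact.out⟩ : Nat.Primes) : gl_Jq q F)).1 ι =
    (((c (gl_locSigma q F H ι (Subgroup.inclusion (grs_locU_mono q F ι h) x.1),
        gl_locSigma q F H ι (Subgroup.inclusion (grs_locU_mono q F ι h) x.2))).toMul.1
      (⟨q, Fact.out⟩ : Nat.Primes) : gl_Jq q F)).1 ι
  rw [grs_locSigma_incl, grs_locSigma_incl]

/-- Membership in the smaller local group, through `σ_g`. -/
theorem grs_mem_locU_iff {H₁ : Subgroup (F ≃ₐ[ℚ] F)} (g : ↥(gl_locU q F H ι)) :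
    (g : lcf_Gal q) ∈ gl_locU q F H₁ ι ↔
      ((gl_locSigma q F H ι g : ↥H) : F ≃ₐ[ℚ] F) ∈ H₁ := by
  constructor
  · rintro ⟨σ, hσ, hg⟩
    rw [grs_locSigma_eq_of q F H ι g σ hg]
    exact hσ
  · intro hg
    exact ⟨_, hg, gl_locSigma_spec q F H ι g⟩

/-- The smaller local group is the preimage of `H₁` under `g ↦ σ_g`. -/
theorem grs_subgroupOf_eq_comap (H₁ : Subgroup (F ≃ₐ[ℚ] F)) :
    (gl_locU q F H₁ ι).subgroupOf (gl_locU q F H ι) =
      (H₁.subgroupOf H).comap (grs_sigmaHom q F H ι) := by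
  ext g
  rw [Subgroup.mem_subgroupOf, Subgroup.mem_comap, Subgroup.mem_subgroupOf]
  exact grs_mem_locU_iff q F ι g

/-- The local degree is the relative index of `H₁` in the decomposition group. -/
theorem grs_relIndex_eq (H₁ : Subgroup (F ≃ₐ[ℚ] F)) :
    (gl_locU q F H₁ ι).relIndex (gl_locU q F H ι) =
      (H₁.subgroupOf H).relIndex (grs_sigmaHom q F H ι).range := by
  rw [Subgroup.relIndex, grs_subgroupOf_eq_comap q F ι H₁, Subgroup.index_comap]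

end loc

/-! ### Places of `F^{H₁}` above a place of `F^H` -/

section count

variable (q : ℕ) [Fact q.Prime] (F : Type) [Field F] [Algebra ℚ F]
  (H H₁ : Subgroup (F ≃ₐ[ℚ] F))

/-- The place of `F^{H₁}` above `q` defined by an embedding. -/
def grs_mk (ι : F →ₐ[ℚ] PadicAlgCl q) : gl_PlaceK q F H₁ :=
  Quotient.mk (gl_placeKSetoid q F H₁) ι

theorem grs_mk_eq_iff (ι ι' : F →ₐ[ℚ] PadicAlgCl q) :
    grs_mk q F H₁ ι = grs_mk q F H₁ ι' ↔ (gl_placeKSetoid q F H₁).r ι ι' :=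
  Quotient.eq (r := gl_placeKSetoid q F H₁)

theorem grs_mk_out (w : gl_PlaceK q F H₁) : grs_mk q F H₁ (Quotient.out w) = w :=
  Quotient.out_eq w

theorem grs_mk_surjective : Function.Surjective (grs_mk q F H₁) :=
  Quotient.mk_surjective

theorem grs_mk_twist_comp (ι : F →ₐ[ℚ] PadicAlgCl q) (τ : gl_GQq q) (σ : F ≃ₐ[ℚ] F)
    (hσ : σ ∈ H₁) :
    grs_mk q F H₁ (gl_twist q F τ (ι.comp (σ : F →ₐ[ℚ] F))) = grs_mk q F H₁ ι :=
  ((grs_mk_eq_iff q F H₁ _ _).2 ⟨σ, hσ, τ, rfl⟩).symm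

theorem grs_mk_twist (ι : F →ₐ[ℚ] PadicAlgCl q) (τ : gl_GQq q) :
    grs_mk q F H₁ (gl_twist q F τ ι) = grs_mk q F H₁ ι :=
  ((grs_mk_eq_iff q F H₁ _ _).2 ⟨1, H₁.one_mem, τ, rfl⟩).symm

theorem grs_mk_comp (ι : F →ₐ[ℚ] PadicAlgCl q) (σ : F ≃ₐ[ℚ] F) (hσ : σ ∈ H₁) :
    grs_mk q F H₁ (ι.comp (σ : F →ₐ[ℚ] F)) = grs_mk q F H₁ ι :=
  ((grs_mk_eq_iff q F H₁ _ _).2 ⟨σ, hσ, 1, (gl_twist_one q F _).symm⟩).symm

theorem grs_finite_placeK [NumberField F] : Finite (gl_PlaceK q F H₁) :=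
  Finite.of_surjective (grs_mk q F H₁) (grs_mk_surjective q F H₁)

variable {H H₁}

/-- The projection from the places of `F^{H₁}` to the places of `F^H`. -/
def grs_proj (h : H₁ ≤ H) : gl_PlaceK q F H₁ → gl_PlaceK q F H :=
  Quotient.lift (s := gl_placeKSetoid q F H₁) (fun ι => grs_mk q F H ι) (by
    rintro ι ι' ⟨σ, hσ, τ, hτ⟩
    exact (grs_mk_eq_iff q F H ι ι').2 ⟨σ, h hσ, τ, hτ⟩)

@[simp] theorem grs_proj_mk (h : H₁ ≤ H) (ι : F →ₐ[ℚ] PadicAlgCl q) :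
    grs_proj q F h (grs_mk q F H₁ ι) = grs_mk q F H ι := rfl

variable (H H₁)

/-- The map `σ H₁ ↦ [ι ∘ σ]` from `H / H₁` to the places of `F^{H₁}`. -/
def grs_fib (ι : F →ₐ[ℚ] PadicAlgCl q) :
    ↥H ⧸ (H₁.subgroupOf H) → gl_PlaceK q F H₁ :=
  Quotient.lift (s := QuotientGroup.leftRel (H₁.subgroupOf H))
    (fun σ : ↥H => grs_mk q F H₁ (ι.comp (((σ : ↥H) : F ≃ₐ[ℚ] F) : F →ₐ[ℚ] F))) (by
      intro σ σ' hσ
      have h1 : σ⁻¹ * σ' ∈ H₁.subgroupOf H := QuotientGroup.leftRel_apply.1 hσ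
      rw [Subgroup.mem_subgroupOf] at h1
      refine (grs_mk_eq_iff q F H₁ _ _).2 ⟨_, h1, 1, ?_⟩
      rw [gl_twist_one]
      ext x
      show ι ((σ' : F ≃ₐ[ℚ] F) x) = ι ((σ : F ≃ₐ[ℚ] F) (((σ⁻¹ * σ' : ↥H) : F ≃ₐ[ℚ] F) x))
      rw [Subgroup.coe_mul, Subgroup.coe_inv, AlgEquiv.mul_apply]
      exact congrArg ι ((AlgEquiv.apply_symm_apply (σ : F ≃ₐ[ℚ] F) _).symm))

@[simp] theorem grs_fib_mk (ι : F →ₐ[ℚ] PadicAlgCl q) (σ : ↥H) :
    grs_fib q F H H₁ ι (QuotientGroup.mk σ) =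
      grs_mk q F H₁ (ι.comp (((σ : ↥H) : F ≃ₐ[ℚ] F) : F →ₐ[ℚ] F)) := rfl

/-- All places in the image of `grs_fib ι` lie above the place of `ι`. -/
theorem grs_proj_fib (h : H₁ ≤ H) (ι : F →ₐ[ℚ] PadicAlgCl q) (x : ↥H ⧸ (H₁.subgroupOf H)) :
    grs_proj q F h (grs_fib q F H H₁ ι x) = grs_mk q F H ι := by
  induction x using QuotientGroup.induction_on with
  | H σ =>
    rw [grs_fib_mk, grs_proj_mk]
    exact grs_mk_comp q F H ι _ σ.2

/-- Change of the base point. -/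
theorem grs_fib_twist_comp (ι : F →ₐ[ℚ] PadicAlgCl q) (τ : gl_GQq q) (σ₀ : ↥H)
    (x : ↥H ⧸ (H₁.subgroupOf H)) :
    grs_fib q F H H₁ (gl_twist q F τ (ι.comp (((σ₀ : ↥H) : F ≃ₐ[ℚ] F) : F →ₐ[ℚ] F))) x =
      grs_fib q F H H₁ ι (σ₀ • x) := by
  induction x using QuotientGroup.induction_on with
  | H σ =>
    show grs_mk q F H₁ ((gl_twist q F τ (ι.comp (((σ₀ : ↥H) : F ≃ₐ[ℚ] F) : F →ₐ[ℚ] F))).comp
        (((σ : ↥H) : F ≃ₐ[ℚ] F) : F →ₐ[ℚ] F)) =
      grs_mk q F H₁ (ι.comp ((((σ₀ * σ : ↥H) : ↥H) : F ≃ₐ[ℚ] F) : F →ₐ[ℚ] F))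
    have h1 : (gl_twist q F τ (ι.comp (((σ₀ : ↥H) : F ≃ₐ[ℚ] F) : F →ₐ[ℚ] F))).comp
        (((σ : ↥H) : F ≃ₐ[ℚ] F) : F →ₐ[ℚ] F) =
        gl_twist q F τ (ι.comp ((((σ₀ * σ : ↥H) : ↥H) : F ≃ₐ[ℚ] F) : F →ₐ[ℚ] F)) := by
      ext x
      rfl
    rw [h1]
    exact grs_mk_twist q F H₁ _ τ

/-- The fibre of `grs_fib ι` over the place of `ι` is the orbit of the base point under the
decomposition group. -/
theorem grs_fib_eq_iff (h : H₁ ≤ H) (ι : F →ₐ[ℚ] PadicAlgCl q)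
    (x : ↥H ⧸ (H₁.subgroupOf H)) :
    grs_fib q F H H₁ ι x = grs_mk q F H₁ ι ↔
      x ∈ MulAction.orbit ↥(grs_sigmaHom q F H ι).range
        ((QuotientGroup.mk (1 : ↥H) : ↥H ⧸ (H₁.subgroupOf H))) := by
  induction x using QuotientGroup.induction_on with
  | H σ =>
    rw [grs_fib_mk, grs_mk_eq_iff]
    constructor
    · rintro ⟨ρ, hρ, τ, hτ⟩
      -- `ι = τ ∘ ι ∘ σ ∘ ρ`
      have h1 : gl_twist q F τ⁻¹ ι =
          ι.comp (((σ : F ≃ₐ[ℚ] F) * ρ : F ≃ₐ[ℚ] F) : F →ₐ[ℚ] F) := by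
        conv_lhs => rw [hτ]
        rw [← gl_twist_mul, inv_mul_cancel, gl_twist_one]
        rfl
      have h2 : τ⁻¹ ∈ gl_locU q F H ι := ⟨(σ : F ≃ₐ[ℚ] F) * ρ, H.mul_mem σ.2 (h hρ), h1⟩
      have h3 : ((gl_locSigma q F H ι ⟨τ⁻¹, h2⟩ : ↥H) : F ≃ₐ[ℚ] F) = (σ : F ≃ₐ[ℚ] F) * ρ :=
        grs_locSigma_eq_of q F H ι ⟨τ⁻¹, h2⟩ _ h1
      refine MulAction.mem_orbit_iff.2 ⟨⟨grs_sigmaHom q F H ι ⟨τ⁻¹, h2⟩, ⟨_, rfl⟩⟩, ?_⟩
      show (QuotientGroup.mk (gl_locSigma q F H ι ⟨τ⁻¹, h2⟩ * 1) : ↥H ⧸ (H₁.subgroupOf H)) =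
        QuotientGroup.mk σ
      rw [mul_one, QuotientGroup.eq, Subgroup.mem_subgroupOf, Subgroup.coe_mul,
        Subgroup.coe_inv, h3]
      have h4 : ((σ : F ≃ₐ[ℚ] F) * ρ)⁻¹ * (σ : F ≃ₐ[ℚ] F) = ρ⁻¹ := by group
      rw [h4]
      exact H₁.inv_mem hρ
    · intro hx
      obtain ⟨⟨d, g, rfl⟩, hd⟩ := MulAction.mem_orbit_iff.1 hx
      have h1 : (QuotientGroup.mk (gl_locSigma q F H ι g * 1) : ↥H ⧸ (H₁.subgroupOf H)) =
          QuotientGroup.mk σ := hd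
      rw [mul_one, QuotientGroup.eq, Subgroup.mem_subgroupOf, Subgroup.coe_mul,
        Subgroup.coe_inv] at h1
      refine ⟨_, H₁.inv_mem h1, (g : lcf_Gal q)⁻¹, ?_⟩
      have h2 : (ι.comp (((σ : ↥H) : F ≃ₐ[ℚ] F) : F →ₐ[ℚ] F)).comp
          (((((gl_locSigma q F H ι g : ↥H) : F ≃ₐ[ℚ] F)⁻¹ * (σ : F ≃ₐ[ℚ] F))⁻¹ : F ≃ₐ[ℚ] F) :
            F →ₐ[ℚ] F) = gl_twist q F (g : lcf_Gal q) ι := by
        rw [gl_locSigma_spec q F H ι g]
        have h3 : (((gl_locSigma q F H ι g : ↥H) : F ≃ₐ[ℚ] F)⁻¹ * (σ : F ≃ₐ[ℚ] F))⁻¹ =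
            (σ : F ≃ₐ[ℚ] F)⁻¹ * ((gl_locSigma q F H ι g : ↥H) : F ≃ₐ[ℚ] F) := by group
        rw [h3]
        ext x
        show ι ((σ : F ≃ₐ[ℚ] F) (((σ : F ≃ₐ[ℚ] F)⁻¹ *
          ((gl_locSigma q F H ι g : ↥H) : F ≃ₐ[ℚ] F)) x)) =
          ι (((gl_locSigma q F H ι g : ↥H) : F ≃ₐ[ℚ] F) x)
        rw [AlgEquiv.mul_apply]
        exact congrArg ι (AlgEquiv.apply_symm_apply (σ : F ≃ₐ[ℚ] F) _)
      rw [h2, ← gl_twist_mul, inv_mul_cancel, gl_twist_one]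

/-- The stabiliser of the base point in the decomposition group. -/
theorem grs_stabilizer (D : Subgroup ↥H) :
    MulAction.stabilizer ↥D ((QuotientGroup.mk (1 : ↥H) : ↥H ⧸ (H₁.subgroupOf H))) =
      (H₁.subgroupOf H).subgroupOf D := by
  ext d
  rw [MulAction.mem_stabilizer_iff, Subgroup.mem_subgroupOf]
  show (QuotientGroup.mk ((d : ↥H) * 1) : ↥H ⧸ (H₁.subgroupOf H)) = QuotientGroup.mk 1 ↔ _
  rw [mul_one, QuotientGroup.eq, mul_one, inv_mem_iff]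

/-- The number of cosets `σ H₁` with `[ι ∘ σ] = [ι]` is the local degree at `ι`. -/
theorem grs_card_fib_self (h : H₁ ≤ H) (ι : F →ₐ[ℚ] PadicAlgCl q) :
    Nat.card {x : ↥H ⧸ (H₁.subgroupOf H) // grs_fib q F H H₁ ι x = grs_mk q F H₁ ι} =
      (gl_locU q F H₁ ι).relIndex (gl_locU q F H ι) := by
  rw [grs_relIndex_eq q F ι H₁, Subgroup.relIndex, ← grs_stabilizer F H H₁,
    MulAction.index_stabilizer, ← Nat.card_coe_set_eq]
  refine Nat.card_congr (Equiv.subtypeEquivRight fun x => ?_)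
  exact grs_fib_eq_iff q F H H₁ h ι x

/-- The number of cosets `σ H₁` with `[ι ∘ σ] = w`, for `w` above the place of `ι`, is the local
degree at (any representative of) `w`. -/
theorem grs_card_fib (h : H₁ ≤ H) (ι ι' : F →ₐ[ℚ] PadicAlgCl q)
    (hι : (gl_placeKSetoid q F H).r ι ι') :
    Nat.card {x : ↥H ⧸ (H₁.subgroupOf H) // grs_fib q F H H₁ ι x = grs_mk q F H₁ ι'} =
      (gl_locU q F H₁ ι').relIndex (gl_locU q F H ι') := by
  obtain ⟨σ₀, hσ₀, τ, rfl⟩ := hι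
  rw [← grs_card_fib_self q F H H₁ h]
  symm
  refine Nat.card_congr ((MulAction.toPerm (⟨σ₀, hσ₀⟩ : ↥H)).subtypeEquiv fun x => ?_)
  rw [grs_fib_twist_comp q F H H₁ ι τ ⟨σ₀, hσ₀⟩ x]
  rfl

/-- The fibre of `grs_fib ι` over a place not above the place of `ι` is empty. -/
theorem grs_card_fib_zero (h : H₁ ≤ H) (ι : F →ₐ[ℚ] PadicAlgCl q) (w : gl_PlaceK q F H₁)
    (hw : grs_proj q F h w ≠ grs_mk q F H ι) :
    Nat.card {x : ↥H ⧸ (H₁.subgroupOf H) // grs_fib q F H H₁ ι x = w} = 0 := by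
  have : IsEmpty {x : ↥H ⧸ (H₁.subgroupOf H) // grs_fib q F H H₁ ι x = w} :=
    ⟨fun x => hw (by rw [← x.2]; exact grs_proj_fib q F H H₁ h ι x.1)⟩
  exact Nat.card_of_isEmpty

/-- `∑_{w ∣ v} [K₁,w : K_v] = [K₁ : K]`: the local degrees at the places of `F^{H₁}` above a
place `v` of `F^H` add up to `[H : H₁]`. -/
theorem grs_sum_relIndex [NumberField F] [Fintype (gl_PlaceK q F H₁)] [DecidableEq (gl_PlaceK q F H)]
    (h : H₁ ≤ H) (v : gl_PlaceK q F H) :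
    ∑ w : gl_PlaceK q F H₁, (if grs_proj q F h w = v then
        (gl_locU q F H₁ (Quotient.out w)).relIndex (gl_locU q F H (Quotient.out w)) else 0) =
      H₁.relIndex H := by
  obtain ⟨ι, rfl⟩ := grs_mk_surjective q F H v
  have h1 : ∀ w : gl_PlaceK q F H₁, (if grs_proj q F h w = grs_mk q F H ι then
        (gl_locU q F H₁ (Quotient.out w)).relIndex (gl_locU q F H (Quotient.out w)) else 0) =
      Nat.card {x : ↥H ⧸ (H₁.subgroupOf H) // grs_fib q F H H₁ ι x = w} := by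
    intro w
    split_ifs with hw
    · have h2 : (gl_placeKSetoid q F H).r ι (Quotient.out w) := by
        rw [← grs_mk_eq_iff, ← hw, ← grs_proj_mk q F h (Quotient.out w), grs_mk_out]
      have h3 := grs_card_fib q F H H₁ h ι (Quotient.out w) h2
      rw [grs_mk_out] at h3
      exact h3.symm
    · exact (grs_card_fib_zero q F H H₁ h ι w hw).symm
  rw [Finset.sum_congr rfl (fun w _ => h1 w), ← Nat.card_sigma,
    Nat.card_congr (Equiv.sigmaFiberEquiv (grs_fib q F H H₁ ι)), Subgroup.relIndex,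
    Subgroup.index_eq_card]

/-- The generic summation lemma: if `I₁ ι = [K₁,ι : K_ι] • I ι` and `I` depends only on the
place of `F^H`, then `∑_w I₁ = [H : H₁] • ∑_v I`. -/
theorem grs_sum_generic [NumberField F] (h : H₁ ≤ H)
    (I₁ I : (F →ₐ[ℚ] PadicAlgCl q) → lcf_QZ)
    (h1 : ∀ ι, I₁ ι = ((gl_locU q F H₁ ι).relIndex (gl_locU q F H ι)) • I ι)
    (h2 : ∀ ι ι', (gl_placeKSetoid q F H).r ι ι' → I ι' = I ι) :
    ∑ᶠ w : gl_PlaceK q F H₁, I₁ (Quotient.out w) =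
      (H₁.relIndex H) • ∑ᶠ v : gl_PlaceK q F H, I (Quotient.out v) := by
  classical
  have hfin := grs_finite_placeK q F H
  have hfin₁ := grs_finite_placeK q F H₁
  let _i := Fintype.ofFinite (gl_PlaceK q F H)
  let _i₁ := Fintype.ofFinite (gl_PlaceK q F H₁)
  rw [finsum_eq_sum_of_fintype, finsum_eq_sum_of_fintype, Finset.smul_sum]
  have key : ∀ w : gl_PlaceK q F H₁, I₁ (Quotient.out w) =
      ∑ v : gl_PlaceK q F H, (if grs_proj q F h w = v then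
        ((gl_locU q F H₁ (Quotient.out w)).relIndex (gl_locU q F H (Quotient.out w))) •
          I (Quotient.out v) else 0) := by
    intro w
    rw [Finset.sum_ite_eq, if_pos (Finset.mem_univ _), h1]
    congr 1
    apply h2
    rw [← grs_mk_eq_iff, grs_mk_out, ← grs_proj_mk q F h (Quotient.out w), grs_mk_out]
  rw [Finset.sum_congr rfl (fun w _ => key w), Finset.sum_comm]
  refine Finset.sum_congr rfl fun v _ => ?_
  rw [← grs_sum_relIndex q F H H₁ h v, Finset.sum_smul]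
  refine Finset.sum_congr rfl fun w _ => ?_
  split_ifs
  · rfl
  · rw [zero_smul]

end count

/-! ### The statement [RES-SUM] -/

/-- **[RES-SUM]** from: openness of the local groups, the cocycle property of localisations,
and [INV-CONJ]. -/
theorem grs_of
    (hop : ∀ (F : Type) [Field F] [NumberField F] (H : Subgroup (F ≃ₐ[ℚ] F)) (q : ℕ)
      [Fact q.Prime] (ι : F →ₐ[ℚ] PadicAlgCl q), lcf_IsOpen (gl_locU q F H ι))
    (hF : ∀ (F : Type) [Field F] [NumberField F] (H : Subgroup (F ≃ₐ[ℚ] F)) (q : ℕ)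
      [Fact q.Prime] (ι : F →ₐ[ℚ] PadicAlgCl q) (c : ↥H × ↥H → Additive Fˣ), IsCocycle₂ c →
      lcf_IsCoc (gl_locU q F H ι) (gl_locF q F H ι c))
    (hJ : ∀ (F : Type) [Field F] [NumberField F] (H : Subgroup (F ≃ₐ[ℚ] F)) (q : ℕ)
      [Fact q.Prime] (ι : F →ₐ[ℚ] PadicAlgCl q) (c : ↥H × ↥H → Additive (gl_J F)),
      IsCocycle₂ c → lcf_IsCoc (gl_locU q F H ι) (gl_locJ q F H ι c))
    (hIC : gl_InvConjStatement) :
    gl_ResSumStatement := by
  intro inv hinv F _ _ H H₁ h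
  refine ⟨fun c hc => ?_, fun c hc => ?_⟩
  · have hloc : ∀ (q : ℕ) [Fact q.Prime] (ι : F →ₐ[ℚ] PadicAlgCl q),
        gl_invAtF q F H₁ ι inv (gl_res₂ h c) =
          ((gl_locU q F H₁ ι).relIndex (gl_locU q F H ι)) • gl_invAtF q F H ι inv c := by
      intro q _ ι
      show inv q (gl_locU q F H₁ ι) (gl_locF q F H₁ ι (gl_res₂ h c)) = _
      rw [grs_locF_res]
      exact hinv.res q _ _ (grs_locU_mono q F ι h) (hop F H₁ q ι) _ (hF F H q ι c hc)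
    refine ⟨hloc, fun q => ?_⟩
    have : Fact (q : ℕ).Prime := ⟨q.2⟩
    exact grs_sum_generic (q : ℕ) F H H₁ h _ _ (fun ι => hloc (q : ℕ) ι)
      (fun ι ι' hr => (hIC inv hinv F H (q : ℕ) ι ι' hr).1 c hc)
  · have hloc : ∀ (q : ℕ) [Fact q.Prime] (ι : F →ₐ[ℚ] PadicAlgCl q),
        gl_invAtJ q F H₁ ι inv (gl_res₂ h c) =
          ((gl_locU q F H₁ ι).relIndex (gl_locU q F H ι)) • gl_invAtJ q F H ι inv c := by
      intro q _ ι
      show inv q (gl_locU q F H₁ ι) (gl_locJ q F H₁ ι (gl_res₂ h c)) = _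
      rw [grs_locJ_res]
      exact hinv.res q _ _ (grs_locU_mono q F ι h) (hop F H₁ q ι) _ (hJ F H q ι c hc)
    refine ⟨hloc, fun q => ?_⟩
    have : Fact (q : ℕ).Prime := ⟨q.2⟩
    exact grs_sum_generic (q : ℕ) F H H₁ h _ _ (fun ι => hloc (q : ℕ) ι)
      (fun ι ι' hr => (hIC inv hinv F H (q : ℕ) ι ι' hr).2 c hc)

/-- **[RES-SUM]** from [LOC-BASIC] and [INV-CONJ]. -/
theorem grs_main_of (hLB : gl_LocBasicStatement) (hIC : gl_InvConjStatement) :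
    gl_ResSumStatement :=
  grs_of (fun F _ _ H q _ ι => (hLB F H q ι).1)
    (fun F _ _ H q _ ι c hc => (hLB F H q ι).2.1 c hc)
    (fun F _ _ H q _ ι c hc => (hLB F H q ι).2.2.2.1 c hc) hIC

end

end Fermat.Agent.S55
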