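/-
S55 (fifth wave), GLOBAL side, package [RES-SUM] (helper18): the hypothesis-free statement.

`grs_main : gl_ResSumStatement`, from `Global/ResSum.lean` (the counting) and helper16's
`Global/InvConj{Loc,}.lean` (openness of the local groups, localisations of cocycles are smooth
cocycles, [INV-CONJ]).
-/
import Mathlib
import Fermat.Agent.S55.Global.ResSum
import Fermat.Agent.S55.Global.InvConj

set_option autoImplicit false

namespace Fermat.Agent.S55

open groupCohomology

/-- **[RES-SUM]**, hypothesis-free. -/
theorem grs_main : gl_ResSumStatement :=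
  grs_of (fun F _ _ H q _ ι => gic_locU_isOpen q F H ι)
    (fun F _ _ H q _ ι c hc => by
      rw [gic_locF_eq]
      exact gic_loc_isCoc (gic_evF q F) H ι _ (gic_isCoc_of_F H c hc))
    (fun F _ _ H q _ ι c hc => by
      rw [gic_locJ_eq]
      exact gic_loc_isCoc (gic_evJ q F) H ι _ (gic_isCoc_of_J H c hc))
    gic_main

end Fermat.Agent.S55
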