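/-
S55 (fifth wave), GLOBAL side, package [RAM-FIN] (helper10), part 1: the LOCAL criterion.

`Ω = PadicAlgCl q`.  If `α ∈ Ω` is integral (`‖α‖ ≤ 1`) and all its conjugates over `ℚ_q` are
pairwise at distance `1` ("`α` generates an unramified extension"), then every nonzero element
of `ℚ_q[α]` has norm in `q ^ ℤ`.

Proof: reduce a polynomial `r` modulo the minimal polynomial of `α`; by Lagrange interpolation
over the conjugates of `α` every coefficient of the remainder is bounded by `‖r(α)‖`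
(the norm of `Ω` is invariant under `Gal(Ω/ℚ_q)`), and `‖r(α)‖` is bounded by the largest
coefficient.  No Hensel, no residue fields.
-/
import Mathlib

set_option autoImplicit false

namespace Fermat.Agent.S55

noncomputable section

open Polynomial

section ramf_local

variable (q : ℕ) [Fact q.Prime]

/-- The norm of `Ω = PadicAlgCl q` is invariant under `Gal(Ω/ℚ_q)`. -/
theorem ramf_norm_aut (τ : PadicAlgCl q ≃ₐ[ℚ_[q]] PadicAlgCl q) (x : PadicAlgCl q) :
    ‖τ x‖ = ‖x‖ := by
  rw [← PadicAlgCl.spectralNorm_eq, ← PadicAlgCl.spectralNorm_eq]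
  exact (spectralNorm_eq_of_equiv τ x).symm

/-- The closed unit ball of `Ω`, as a subring. -/
def ramf_O : Subring (PadicAlgCl q) :=
  (Valued.v : Valuation (PadicAlgCl q) NNReal).integer

theorem ramf_mem_O_iff (x : PadicAlgCl q) : x ∈ ramf_O q ↔ ‖x‖ ≤ 1 := by
  rw [ramf_O, Valuation.mem_integer_iff, PadicAlgCl.valuation_def, ← NNReal.coe_le_coe]
  simp

/-- Polynomials with coefficients in the closed unit ball. -/
theorem ramf_mem_lifts_iff (P : (PadicAlgCl q)[X]) :
    P ∈ Polynomial.lifts (ramf_O q).subtype ↔ ∀ n, ‖P.coeff n‖ ≤ 1 := by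
  rw [Polynomial.lifts_iff_coeff_lifts]
  constructor
  · intro h n
    obtain ⟨y, hy⟩ := h n
    rw [← hy]
    exact (ramf_mem_O_iff q _).mp y.2
  · intro h n
    exact ⟨⟨P.coeff n, (ramf_mem_O_iff q _).mpr (h n)⟩, rfl⟩

theorem ramf_C_mem_lifts {c : PadicAlgCl q} (hc : ‖c‖ ≤ 1) :
    (C c : (PadicAlgCl q)[X]) ∈ Polynomial.lifts (ramf_O q).subtype := by
  rw [ramf_mem_lifts_iff]
  intro n
  rw [coeff_C]
  split_ifs
  · exact hc
  · simp

theorem ramf_X_mem_lifts : (X : (PadicAlgCl q)[X]) ∈ Polynomial.lifts (ramf_O q).subtype := by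
  rw [ramf_mem_lifts_iff]
  intro n
  rw [coeff_X]
  split_ifs <;> simp

/-- The value of a polynomial with coefficients bounded by `M` at a point of the closed unit
ball is bounded by `M`. -/
theorem ramf_norm_eval_le (P : (PadicAlgCl q)[X]) {M : ℝ} (hM : 0 ≤ M)
    (hP : ∀ n, ‖P.coeff n‖ ≤ M) {x : PadicAlgCl q} (hx : ‖x‖ ≤ 1) : ‖P.eval x‖ ≤ M := by
  rw [eval_eq_sum_range]
  refine IsUltrametricDist.norm_sum_le_of_forall_le_of_nonneg hM (fun i _ => ?_)
  rw [norm_mul, norm_pow]
  calc ‖P.coeff i‖ * ‖x‖ ^ i ≤ M * 1 :=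
        mul_le_mul (hP i) (pow_le_one₀ (norm_nonneg _) hx) (pow_nonneg (norm_nonneg _) _) hM
    _ = M := mul_one M

/-- A root of a monic polynomial with coefficients in the closed unit ball lies in the closed
unit ball. -/
theorem ramf_norm_le_one_of_monic (P : (PadicAlgCl q)[X]) (hm : P.Monic)
    (hP : ∀ n, ‖P.coeff n‖ ≤ 1) {x : PadicAlgCl q} (hx : P.eval x = 0) : ‖x‖ ≤ 1 := by
  obtain ⟨Q, hQ, -, hQm⟩ :=
    Polynomial.lifts_and_degree_eq_and_monic ((ramf_mem_lifts_iff q P).mpr hP) hm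
  have hint : IsIntegral (↥(Valued.v : Valuation (PadicAlgCl q) NNReal).integer) x := by
    refine ⟨Q, hQm, ?_⟩
    rw [← hx, ← hQ, eval_map]
    rfl
  have := Valuation.Integers.mem_of_integral
    (Valuation.integer.integers (Valued.v : Valuation (PadicAlgCl q) NNReal)) hint
  exact (ramf_mem_O_iff q x).mp this

/-- **Lagrange bound.**  If the points of `s` lie in the closed unit ball and are pairwise at
distance `1`, then the coefficients of a polynomial of degree `< #s` are bounded by the maximum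
of its values on `s`. -/
theorem ramf_lagrange (s : Finset (PadicAlgCl q)) (hs1 : ∀ β ∈ s, ‖β‖ ≤ 1)
    (hs2 : ∀ β ∈ s, ∀ β' ∈ s, β ≠ β' → ‖β - β'‖ = 1) (R : (PadicAlgCl q)[X])
    (hdeg : R.degree < s.card) {M : ℝ} (hM : 0 ≤ M) (hR : ∀ β ∈ s, ‖R.eval β‖ ≤ M) (k : ℕ) :
    ‖R.coeff k‖ ≤ M := by
  classical
  have hbasis : ∀ i ∈ s, Lagrange.basis s id i ∈ Polynomial.lifts (ramf_O q).subtype := by
    intro i hi
    rw [Lagrange.basis]
    refine Subsemiring.prod_mem _ (fun j hj => ?_)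
    have hj' := Finset.mem_erase.mp hj
    rw [Lagrange.basisDivisor]
    refine Subsemiring.mul_mem _ (ramf_C_mem_lifts q ?_) ?_
    · have h1 : ‖i - j‖ = 1 := hs2 i hi j hj'.2 (fun h => hj'.1 h.symm)
      show ‖(i - j)⁻¹‖ ≤ 1
      rw [norm_inv, h1, inv_one]
    · have : (X - C (id j) : (PadicAlgCl q)[X]) = X + C (-j) := by
        rw [map_neg, sub_eq_add_neg]; rfl
      rw [this]
      refine Subsemiring.add_mem _ (ramf_X_mem_lifts q) (ramf_C_mem_lifts q ?_)
      rw [norm_neg]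
      exact hs1 j hj'.2
  have hR' : R = ∑ i ∈ s, C (R.eval i) * Lagrange.basis s id i := by
    have h := Lagrange.eq_interpolate (s := s) (v := id) (f := R)
      (fun a _ b _ h => h) hdeg
    rw [Lagrange.interpolate_apply] at h
    exact h
  rw [hR', finsetSum_coeff]
  refine IsUltrametricDist.norm_sum_le_of_forall_le_of_nonneg hM (fun i hi => ?_)
  rw [coeff_C_mul, norm_mul]
  calc ‖R.eval i‖ * ‖(Lagrange.basis s id i).coeff k‖ ≤ M * 1 :=
        mul_le_mul (hR i hi) ((ramf_mem_lifts_iff q _).mp (hbasis i hi) k) (norm_nonneg _) hM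
    _ = M := mul_one M

/-- **The local criterion.**  If `‖α‖ ≤ 1` and every conjugate `τ α ≠ α` is at distance `1`
from `α`, then every nonzero value `r(α)`, `r ∈ ℚ_q[X]`, has norm in `q ^ ℤ`. -/
theorem ramf_local_main (α : PadicAlgCl q) (hα : ‖α‖ ≤ 1)
    (hsep : ∀ τ : PadicAlgCl q ≃ₐ[ℚ_[q]] PadicAlgCl q, τ α ≠ α → ‖τ α - α‖ = 1)
    (r : ℚ_[q][X]) (hr : aeval α r ≠ 0) : ∃ n : ℤ, ‖aeval α r‖ = (q : ℝ) ^ n := by
  classical
  have hint : IsIntegral ℚ_[q] α := Algebra.IsIntegral.isIntegral α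
  have halg : IsAlgebraic ℚ_[q] α := hint.isAlgebraic
  set h := minpoly ℚ_[q] α with hh
  have hmon : h.Monic := minpoly.monic hint
  set r' := r %ₘ h with hr'
  have e1 : aeval α r' = aeval α r := aeval_modByMonic_eq_self_of_root (minpoly.aeval _ _)
  set R := r'.map (algebraMap ℚ_[q] (PadicAlgCl q)) with hRdef
  have hReval : ∀ x : PadicAlgCl q, R.eval x = aeval x r' := fun x => by
    rw [hRdef, eval_map_algebraMap]
  set H := h.map (algebraMap ℚ_[q] (PadicAlgCl q)) with hHdef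
  have hHsep : H.Separable := ((minpoly.irreducible hint).separable).map
  have hH0 : H ≠ 0 := (hmon.map _).ne_zero
  set s := H.roots.toFinset with hs
  have hcard : s.card = h.natDegree := by
    rw [hs, Multiset.toFinset_card_of_nodup (nodup_roots hHsep),
      splits_iff_card_roots.mp (IsAlgClosed.splits H), hHdef, natDegree_map]
  have hdeg : R.degree < s.card := by
    rw [hcard]
    calc R.degree ≤ r'.degree := degree_map_le
      _ < h.degree := degree_modByMonic_lt r hmon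
      _ = h.natDegree := degree_eq_natDegree hmon.ne_zero
  -- the points of `s` are the conjugates of `α`
  have hconj : ∀ β ∈ s, ∃ τ : PadicAlgCl q ≃ₐ[ℚ_[q]] PadicAlgCl q, τ α = β := by
    intro β hβ
    have hβ' : β ∈ H.roots := Multiset.mem_toFinset.mp hβ
    have h0 : aeval β h = 0 := by
      have := (mem_roots hH0).mp hβ'
      rw [IsRoot.def, hHdef, eval_map_algebraMap] at this
      exact this
    exact minpoly.exists_algEquiv_of_root' halg h0
  have hs1 : ∀ β ∈ s, ‖β‖ ≤ 1 := by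
    intro β hβ
    obtain ⟨τ, rfl⟩ := hconj β hβ
    rw [ramf_norm_aut]
    exact hα
  have hs2 : ∀ β ∈ s, ∀ β' ∈ s, β ≠ β' → ‖β - β'‖ = 1 := by
    intro β hβ β' hβ' hne
    obtain ⟨τ, rfl⟩ := hconj β hβ
    obtain ⟨τ', rfl⟩ := hconj β' hβ'
    have e : τ α - τ' α = τ (α - (τ⁻¹ * τ') α) := by
      rw [map_sub]
      congr 1
      show τ' α = τ (τ⁻¹ (τ' α))
      exact (τ.apply_symm_apply (τ' α)).symm
    rw [e, ramf_norm_aut, norm_sub_rev]
    apply hsep
    intro h1
    apply hne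
    have h2 : τ ((τ⁻¹ * τ') α) = τ α := by rw [h1]
    exact h2.symm.trans (τ.apply_symm_apply (τ' α))
  set M := ‖aeval α r'‖ with hMdef
  have hRM : ∀ β ∈ s, ‖R.eval β‖ ≤ M := by
    intro β hβ
    obtain ⟨τ, rfl⟩ := hconj β hβ
    rw [hReval, aeval_algHom_apply, ramf_norm_aut]
  have hcoef := ramf_lagrange q s hs1 hs2 R hdeg (norm_nonneg _) hRM
  have hex : ∃ i, M ≤ ‖R.coeff i‖ := by
    have hsum : aeval α r' = ∑ i ∈ Finset.range (R.natDegree + 1), R.coeff i * α ^ i := by
      rw [← hReval, eval_eq_sum_range]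
    obtain ⟨i, -, hi⟩ := IsUltrametricDist.exists_norm_finsetSum_le
      (Finset.range (R.natDegree + 1)) (fun i => R.coeff i * α ^ i)
    refine ⟨i, ?_⟩
    rw [hMdef, hsum]
    refine hi.trans ?_
    rw [norm_mul, norm_pow]
    exact mul_le_of_le_one_right (norm_nonneg _) (pow_le_one₀ (norm_nonneg _) hα)
  obtain ⟨i, hi⟩ := hex
  have hMi : M = ‖r'.coeff i‖ := by
    have := le_antisymm hi (hcoef i)
    rw [this, hRdef, coeff_map, PadicAlgCl.norm_extends]
  have hne : r'.coeff i ≠ 0 := by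
    intro h0
    rw [h0, norm_zero] at hMi
    apply hr
    rw [← e1]
    exact norm_eq_zero.mp hMi
  refine ⟨-(r'.coeff i).valuation, ?_⟩
  rw [← e1, ← hMdef, hMi, Padic.norm_eq_zpow_neg_valuation hne]

end ramf_local

end

end Fermat.Agent.S55
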