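/-
S55 (fifth wave), GLOBAL side, package [RAM-FIN] (helper10), part 2:
only finitely many primes ramify in a number field (`gl_RamFiniteStatement`).

`θ` a primitive element of `F`, `f` its minimal polynomial over `ℚ`, `a f + b f' = 1` in `ℚ[X]`.
A prime `q` is GOOD if it divides no denominator of a coefficient of `f` or of `b`.  For a good
`q` and an embedding `ι : F → Ω_q`, `α = ι θ` is integral, `‖f'(α)‖ = 1`, and by the Taylor
expansion of `f` at `α` every other root of `f` is at distance `1` from `α`; the local criterion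
`ramf_local_main` then shows that the value group of `ι` is `q ^ ℤ`.
-/
import Fermat.Agent.S55.Global.Defs
import Fermat.Agent.S55.Global.RamFinLocal

set_option autoImplicit false

namespace Fermat.Agent.S55

noncomputable section

open Polynomial IntermediateField

/-- The primes dividing a denominator of a coefficient of `g`. -/
def ramf_bad (g : ℚ[X]) : Finset ℕ := g.support.biUnion fun k => (g.coeff k).den.primeFactors

theorem ramf_not_dvd_den (g : ℚ[X]) {q : ℕ} (hq : q.Prime) (h : q ∉ ramf_bad g) (k : ℕ) :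
    ¬ q ∣ (g.coeff k).den := by
  intro hd
  by_cases hk : k ∈ g.support
  · apply h
    rw [ramf_bad, Finset.mem_biUnion]
    exact ⟨k, hk, Nat.mem_primeFactors.mpr ⟨hq, hd, (g.coeff k).den_ne_zero⟩⟩
  · rw [notMem_support_iff.mp hk, Rat.den_zero] at hd
    exact hq.one_lt.ne' (Nat.dvd_one.mp hd)

section good

variable (q : ℕ) [Fact q.Prime]

theorem ramf_algebraMap_rat (c : ℚ) :
    algebraMap ℚ (PadicAlgCl q) c = algebraMap ℚ_[q] (PadicAlgCl q) (c : ℚ_[q]) := by
  rw [eq_ratCast, map_ratCast]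

theorem ramf_coeff_norm_le (g : ℚ[X]) (h : q ∉ ramf_bad g) (k : ℕ) :
    ‖(g.map (algebraMap ℚ (PadicAlgCl q))).coeff k‖ ≤ 1 := by
  rw [coeff_map, ramf_algebraMap_rat, PadicAlgCl.norm_extends]
  exact Padic.norm_rat_le_one (ramf_not_dvd_den g (Fact.out : q.Prime) h k)

theorem ramf_map_rat (g : ℚ[X]) :
    g.map (algebraMap ℚ (PadicAlgCl q)) =
      (g.map (algebraMap ℚ ℚ_[q])).map (algebraMap ℚ_[q] (PadicAlgCl q)) := by
  rw [Polynomial.map_map]
  congr 1

/-- Evaluation of a rational polynomial at the image of a point under an embedding. -/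
theorem ramf_eval_emb {F : Type} [Field F] [Algebra ℚ F] (ι : F →ₐ[ℚ] PadicAlgCl q)
    (g : ℚ[X]) (x : F) : (g.map (algebraMap ℚ (PadicAlgCl q))).eval (ι x) = ι (aeval x g) := by
  rw [eval_map_algebraMap, aeval_algHom_apply]

/-- Evaluation of a rational polynomial commutes with `Gal(Ω/ℚ_q)`. -/
theorem ramf_eval_aut (τ : PadicAlgCl q ≃ₐ[ℚ_[q]] PadicAlgCl q) (g : ℚ[X]) (x : PadicAlgCl q) :
    (g.map (algebraMap ℚ (PadicAlgCl q))).eval (τ x) =
      τ ((g.map (algebraMap ℚ (PadicAlgCl q))).eval x) := by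
  rw [ramf_map_rat, eval_map_algebraMap, eval_map_algebraMap, aeval_algHom_apply]

/-- **Taylor bound**: for a polynomial `P` with coefficients in the closed unit ball and two
distinct roots `α`, `β` in the closed unit ball, `‖P'(α)‖ ≤ ‖β - α‖`. -/
theorem ramf_taylor (P : (PadicAlgCl q)[X]) (hP : ∀ n, ‖P.coeff n‖ ≤ 1)
    {α β : PadicAlgCl q} (hα : ‖α‖ ≤ 1) (hβ : ‖β‖ ≤ 1) (h0α : P.eval α = 0)
    (h0β : P.eval β = 0) (hne : β ≠ α) : ‖(derivative P).eval α‖ ≤ ‖β - α‖ := by
  obtain ⟨Q, hQ⟩ := (Polynomial.mem_lifts _).mp ((ramf_mem_lifts_iff q P).mpr hP)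
  have hαO : α ∈ ramf_O q := (ramf_mem_O_iff q α).mpr hα
  have hβO : β ∈ ramf_O q := (ramf_mem_O_iff q β).mpr hβ
  have hδO : β - α ∈ ramf_O q := (ramf_O q).sub_mem hβO hαO
  obtain ⟨k, hk⟩ := Polynomial.binomExpansion Q (⟨α, hαO⟩ : ramf_O q) (⟨β - α, hδO⟩ : ramf_O q)
  have e : ∀ (T : (↥(ramf_O q))[X]) (y : ↥(ramf_O q)),
      ((T.eval y : ↥(ramf_O q)) : PadicAlgCl q) = (T.map (ramf_O q).subtype).eval (y : PadicAlgCl q) :=
    fun T y => (eval_map_apply (ramf_O q).subtype y).symm
  have hk' := congrArg (fun y : ↥(ramf_O q) => (y : PadicAlgCl q)) hk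
  simp only [Subring.coe_add, Subring.coe_mul, Subring.coe_pow] at hk'
  rw [e, e, e, ← derivative_map, hQ] at hk'
  have hk'' : P.eval (α + (β - α)) = P.eval α + (derivative P).eval α * (β - α) +
      (k : PadicAlgCl q) * (β - α) ^ 2 := hk'
  have e1 : α + (β - α) = β := by ring
  rw [e1, h0α, h0β, zero_add] at hk''
  have hδ : β - α ≠ 0 := sub_ne_zero.mpr hne
  have e4 : (derivative P).eval α = -((k : PadicAlgCl q) * (β - α)) := by
    have : ((derivative P).eval α + (k : PadicAlgCl q) * (β - α)) * (β - α) = 0 := by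
      have := hk''.symm
      linear_combination this
    rcases mul_eq_zero.mp this with h | h
    · exact eq_neg_of_add_eq_zero_left h
    · exact absurd h hδ
  rw [e4, norm_neg, norm_mul]
  exact mul_le_of_le_one_left (norm_nonneg _) ((ramf_mem_O_iff q _).mp k.2)

end good

/-- **Good primes are unramified.** -/
theorem ramf_unram_of_good (F : Type) [Field F] [NumberField F] (θ : F) (hθ : ℚ⟮θ⟯ = ⊤)
    (a b : ℚ[X]) (hab : a * minpoly ℚ θ + b * derivative (minpoly ℚ θ) = 1)
    (q : ℕ) [Fact q.Prime] (h1 : q ∉ ramf_bad (minpoly ℚ θ)) (h2 : q ∉ ramf_bad b) :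
    gl_UnramAt q F := by
  intro ι x hx
  have hint : IsIntegral ℚ θ := Algebra.IsIntegral.isIntegral θ
  set f := minpoly ℚ θ with hf
  set P := f.map (algebraMap ℚ (PadicAlgCl q)) with hPdef
  have hPm : P.Monic := (minpoly.monic hint).map _
  have hPc : ∀ n, ‖P.coeff n‖ ≤ 1 := ramf_coeff_norm_le q f h1
  set α := ι θ with hαdef
  have h0α : P.eval α = 0 := by
    rw [hPdef, ramf_eval_emb, hf, minpoly.aeval, map_zero]
  have hα : ‖α‖ ≤ 1 := ramf_norm_le_one_of_monic q P hPm hPc h0α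
  -- `‖f'(α)‖ = 1`
  have hbez : (b.map (algebraMap ℚ (PadicAlgCl q))).eval α * (derivative P).eval α = 1 := by
    have h := congrArg (fun g : ℚ[X] => (g.map (algebraMap ℚ (PadicAlgCl q))).eval α) hab
    simp only [Polynomial.map_add, Polynomial.map_mul, Polynomial.map_one, eval_add, eval_mul,
      eval_one] at h
    rw [← hPdef, h0α, mul_zero, zero_add] at h
    rw [hPdef, derivative_map]
    exact h
  have hbn : ‖(b.map (algebraMap ℚ (PadicAlgCl q))).eval α‖ ≤ 1 :=
    ramf_norm_eval_le q _ zero_le_one (ramf_coeff_norm_le q b h2) hα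
  have hder : 1 ≤ ‖(derivative P).eval α‖ := by
    have h := congrArg norm hbez
    rw [norm_mul, norm_one] at h
    by_contra hlt
    rw [not_le] at hlt
    have : ‖(b.map (algebraMap ℚ (PadicAlgCl q))).eval α‖ * ‖(derivative P).eval α‖ < 1 := by
      calc ‖(b.map (algebraMap ℚ (PadicAlgCl q))).eval α‖ * ‖(derivative P).eval α‖
          ≤ 1 * ‖(derivative P).eval α‖ := mul_le_mul_of_nonneg_right hbn (norm_nonneg _)
        _ = ‖(derivative P).eval α‖ := one_mul _
        _ < 1 := hlt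
    rw [h] at this
    exact lt_irrefl _ this
  -- the conjugates of `α` are at distance `1`
  have hsep : ∀ τ : PadicAlgCl q ≃ₐ[ℚ_[q]] PadicAlgCl q, τ α ≠ α → ‖τ α - α‖ = 1 := by
    intro τ hτ
    have hβ : ‖τ α‖ ≤ 1 := by rw [ramf_norm_aut]; exact hα
    have h0β : P.eval (τ α) = 0 := by
      rw [hPdef, ramf_eval_aut, ← hPdef, h0α, map_zero]
    have ht := ramf_taylor q P hPc hα hβ h0α h0β hτ
    refine le_antisymm ?_ (hder.trans ht)
    exact (ramf_mem_O_iff q _).mp ((ramf_O q).sub_mem ((ramf_mem_O_iff q _).mpr hβ)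
      ((ramf_mem_O_iff q _).mpr hα))
  -- every element of `F` is a polynomial in `θ`
  have hxmem : x ∈ (ℚ⟮θ⟯).toSubalgebra := by
    rw [hθ]; exact Algebra.mem_top
  rw [IntermediateField.adjoin_simple_toSubalgebra_of_isAlgebraic hint.isAlgebraic,
    Algebra.adjoin_singleton_eq_range_aeval] at hxmem
  obtain ⟨g, hg⟩ := hxmem
  have hιx : ι x = aeval α (g.map (algebraMap ℚ ℚ_[q])) := by
    have h := ramf_eval_emb q ι g θ
    rw [ramf_map_rat, eval_map_algebraMap] at h
    rw [h]
    congr 1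
    exact hg.symm
  have hne : aeval α (g.map (algebraMap ℚ ℚ_[q])) ≠ 0 := by
    rw [← hιx]
    exact fun h => hx ((map_eq_zero ι).mp h)
  obtain ⟨n, hn⟩ := ramf_local_main q α hα hsep _ hne
  exact ⟨n, by rw [hιx, hn]⟩

/-- **[RAM-FIN]** only finitely many primes ramify in a number field. -/
theorem ramf_main : gl_RamFiniteStatement := by
  intro F _ _
  obtain ⟨θ, hθ⟩ := Field.exists_primitive_element ℚ F
  have hint : IsIntegral ℚ θ := Algebra.IsIntegral.isIntegral θ
  have hsep : (minpoly ℚ θ).Separable := (minpoly.irreducible hint).separable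
  obtain ⟨a, b, hab⟩ := hsep
  have hfin : {q : Nat.Primes | (q : ℕ) ∈ ramf_bad (minpoly ℚ θ) ∪ ramf_bad b}.Finite := by
    refine Set.Finite.preimage (f := fun q : Nat.Primes => (q : ℕ))
      (s := (↑(ramf_bad (minpoly ℚ θ) ∪ ramf_bad b) : Set ℕ)) ?_ (Finset.finite_toSet _)
    exact fun x _ y _ h => Nat.Primes.coe_nat_injective h
  refine hfin.subset ?_
  intro q hq
  by_contra hgood
  apply hq
  have hfact : Fact (q : ℕ).Prime := ⟨q.2⟩
  have hg : (q : ℕ) ∉ ramf_bad (minpoly ℚ θ) ∪ ramf_bad b := hgood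
  rw [Finset.mem_union, not_or] at hg
  exact ramf_unram_of_good F θ hθ a b hab (q : ℕ) hg.1 hg.2

end

end Fermat.Agent.S55
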