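/-
S55 (fifth wave), GLOBAL side, package [J-SUPP] part 1 (helper1): `H²(unramified, units) = 0`
in the ABSOLUTE setting of `Local/LCFDefs.lean`.

* `gsup_abs_cob` (abstract): a finite group `G` acting faithfully and isometrically on a complete
  ultrametric field `L` with a `G`-fixed uniformizer and finite residue field (helper29's
  unramified package): every 2-cocycle of `G` with values in the units of `L` is a coboundary.
  Proof: `G` is cyclic (`unr_isCyclic`), a 2-cocycle is cohomologous to the carry cochain of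
  its trace (helper6's `fgD_cohomologous`), the trace is an invariant unit, hence a norm
  (`unr_normed_norm_surj`), hence its carry cochain is a coboundary.
* `gsup_unr_cob` (absolute): `U' ≤ U` open subgroups of `Gal(Ω_q/ℚ_q)`, `U'` normal in `U`, the
  value group of `Ω^{U'}` equal to `q^ℤ`: every unit-valued 2-cocycle of `U` inflated from
  `U/U'` is a smooth coboundary (`lcf_IsCob`).  The quotient `U/U'` acts on the field `Ω^{U'}`
  (`gsup_actG`), faithfully because `U'` is closed.
-/
import Mathlib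
import Fermat.Agent.S55.Local.LCFDefs
import Fermat.Agent.S55.UnrAbs1
import Fermat.Agent.S55.UnrNormed
import Fermat.Agent.S55.UnrFrob
import Fermat.Agent.S55.FG.Cyc2

set_option autoImplicit false
set_option linter.style.haveILetI false
set_option linter.unusedSectionVars false

namespace Fermat.Agent.S55

open groupCohomology

noncomputable section

section Abstract

variable (G L : Type*) [Group G] [Field L] [MulSemiringAction G L]

/-- The `G`-module `Lˣ`, written additively. -/
@[reducible] def gsup_actA : DistribMulAction G (Additive Lˣ) where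
  smul g a := Additive.ofMul (Units.map (MulSemiringAction.toRingHom G L g : L →* L) a.toMul)
  one_smul a := by
    show Additive.ofMul (Units.map _ a.toMul) = a
    have : Units.map (MulSemiringAction.toRingHom G L 1 : L →* L) a.toMul = a.toMul := by
      apply Units.ext
      show (1 : G) • ((a.toMul : Lˣ) : L) = _
      rw [one_smul]
    rw [this]; rfl
  mul_smul g h a := by
    show Additive.ofMul (Units.map _ a.toMul) =
      Additive.ofMul (Units.map _ (Units.map _ a.toMul))
    congr 1
    apply Units.ext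
    show (g * h) • ((a.toMul : Lˣ) : L) = g • (h • ((a.toMul : Lˣ) : L))
    rw [mul_smul]
  smul_zero g := by
    show Additive.ofMul (Units.map _ (1 : Lˣ)) = 0
    rw [map_one]; rfl
  smul_add g a b := by
    show Additive.ofMul (Units.map _ (a.toMul * b.toMul)) = _
    rw [map_mul]; rfl

variable {G L}

theorem gsup_actA_val (g : G) (a : Additive Lˣ) :
    letI := gsup_actA G L
    (((g • a : Additive Lˣ).toMul : Lˣ) : L) = g • ((a.toMul : Lˣ) : L) := rfl

end Abstract

section AbstractNormed

variable {G L : Type*} [Group G] [Finite G] [NormedField L] [IsUltrametricDist L]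
  [MulSemiringAction G L] [FaithfulSMul G L] [CompleteSpace L]

/-- The additive subgroup of units of norm one. -/
def gsup_unitA (L : Type*) [NormedField L] : AddSubgroup (Additive Lˣ) where
  carrier := {a | ‖((a.toMul : Lˣ) : L)‖ = 1}
  zero_mem' := by
    show ‖(((0 : Additive Lˣ).toMul : Lˣ) : L)‖ = 1
    simp
  add_mem' := by
    intro a b ha hb
    show ‖(((a + b).toMul : Lˣ) : L)‖ = 1
    have ha' : ‖((a.toMul : Lˣ) : L)‖ = 1 := ha
    have hb' : ‖((b.toMul : Lˣ) : L)‖ = 1 := hb
    rw [toMul_add, Units.val_mul, norm_mul, ha', hb', mul_one]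
  neg_mem' := by
    intro a ha
    show ‖(((-a).toMul : Lˣ) : L)‖ = 1
    have ha' : ‖((a.toMul : Lˣ) : L)‖ = 1 := ha
    rw [toMul_neg, Units.val_inv_eq_inv_val, norm_inv, ha', inv_one]

/-- **`H²(unramified, units) = 0`, abstract form**: in the unramified situation (a finite group
`G` acting faithfully and isometrically on a complete ultrametric field `L` with a `G`-fixed
uniformizer and finite residue field), every 2-cocycle of `G` with values in the units of `L`
is a coboundary (of a cochain with values in `Lˣ`). -/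
theorem gsup_abs_cob (ϖ : L) (hinv : ∀ (g : G) (x : L), ‖g • x‖ = ‖x‖)
    (hfix : ∀ g : G, g • ϖ = ϖ) (hlt : ‖ϖ‖ < 1) (hne : ϖ ≠ 0)
    (hdisc : ∀ x : L, x ≠ 0 → ∃ k : ℤ, ‖x‖ = ‖ϖ‖ ^ k)
    (S : Finset L) (hS : ∀ x : L, ‖x‖ ≤ 1 → ∃ s ∈ S, ‖x - s‖ < 1)
    (f : G × G → Additive Lˣ)
    (hf : letI := gsup_actA G L; IsCocycle₂ f)
    (hunit : ∀ p, ‖(((f p).toMul : Lˣ) : L)‖ = 1) :
    letI := gsup_actA G L
    IsCoboundary₂ f := by
  classical
  letI := gsup_actA G L
  letI : Fintype G := Fintype.ofFinite G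
  have h := unr_normed_hyp (G := G) ϖ hinv hfix hlt hne hdisc S hS
  haveI := unr_normed_finite_residue S hS
  haveI : IsCyclic G := unr_isCyclic h
  obtain ⟨σ, hσ⟩ := IsCyclic.exists_generator (α := G)
  let L₀ := fgD_Log.ofGen σ hσ
  have ha_inv := fgD_tr_inv L₀ hf
  have ha_unit : fgD_tr L₀ f ∈ gsup_unitA L := by
    refine AddSubgroup.sum_mem _ (fun i _ => ?_)
    exact hunit _
  have hu : ∀ g : G, g • (((fgD_tr L₀ f).toMul : Lˣ) : L) = (((fgD_tr L₀ f).toMul : Lˣ) : L) := by
    intro g
    have := congrArg (fun a : Additive Lˣ => ((a.toMul : Lˣ) : L)) (ha_inv g)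
    exact this
  obtain ⟨x, hx1, hxprod⟩ := unr_normed_norm_surj (G := G) ϖ hinv hfix hlt hne hdisc S hS
    (((fgD_tr L₀ f).toMul : Lˣ) : L) hu ha_unit
  have hx0 : x ≠ 0 := by
    rintro rfl
    simp at hx1
  have hw : ∑ᶠ g : G, g • (Additive.ofMul (Units.mk0 x hx0) : Additive Lˣ) = fgD_tr L₀ f := by
    rw [finsum_eq_sum_of_fintype]
    apply Additive.toMul.injective
    apply Units.ext
    rw [← hxprod]
    rw [toMul_sum, Units.coe_prod]
    rfl
  have hcar := (fgD_carry_isCoboundary_iff' L₀ ha_inv).2 ⟨_, hw⟩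
  have hcoh := fgD_cohomologous L₀ hf
  have h2 := fgD_isCoboundary₂_add hcoh hcar
  have : (fun p => f p - fgD_carry L₀ (fgD_tr L₀ f) p + fgD_carry L₀ (fgD_tr L₀ f) p) = f := by
    funext p
    abel
  rwa [this] at h2

end AbstractNormed

section Quot

variable {q : ℕ} [Fact q.Prime] (U U' : Subgroup (lcf_Gal q))

/-- `U'` is a normal subgroup of `U`. -/
def gsup_IsNormalIn : Prop := U' ≤ U ∧ ∀ g ∈ U, ∀ s ∈ U', g * s * g⁻¹ ∈ U'

variable {U U'}

theorem gsup_conj_mem (h : gsup_IsNormalIn U U') {g : lcf_Gal q} (hg : g ∈ U)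
    {s : lcf_Gal q} (hs : s ∈ U') : g⁻¹ * s * g ∈ U' := by
  have := h.2 g⁻¹ (U.inv_mem hg) s hs
  rwa [inv_inv] at this

theorem gsup_map_mem (h : gsup_IsNormalIn U U') (g : ↥U)
    (x : ↥(IntermediateField.fixedField U')) :
    (g : lcf_Gal q) (x : PadicAlgCl q) ∈ IntermediateField.fixedField U' := by
  rw [IntermediateField.mem_fixedField_iff]
  intro s hs
  have h1 := (IntermediateField.mem_fixedField_iff U' (x : PadicAlgCl q)).1 x.2 _
    (gsup_conj_mem h g.2 hs)
  have h2 : s ((g : lcf_Gal q) (x : PadicAlgCl q)) =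
      (g : lcf_Gal q) (((g : lcf_Gal q)⁻¹ * s * (g : lcf_Gal q)) (x : PadicAlgCl q)) := by
    simp [AlgEquiv.mul_apply]
  rw [h2, h1]

/-- The action of `U` on the fixed field of a normal subgroup `U'`. -/
@[reducible] def gsup_actU (h : gsup_IsNormalIn U U') :
    MulSemiringAction ↥U ↥(IntermediateField.fixedField U') where
  smul g x := ⟨(g : lcf_Gal q) (x : PadicAlgCl q), gsup_map_mem h g x⟩
  one_smul _ := Subtype.ext rfl
  mul_smul _ _ _ := Subtype.ext rfl
  smul_zero _ := Subtype.ext (map_zero _)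
  smul_add _ _ _ := Subtype.ext (map_add _ _ _)
  smul_one _ := Subtype.ext (map_one _)
  smul_mul _ _ _ := Subtype.ext (map_mul _ _ _)

/-- The normal subgroup `U' ∩ U` of `U`. -/
abbrev gsup_N (U U' : Subgroup (lcf_Gal q)) : Subgroup ↥U := U'.subgroupOf U

theorem gsup_N_normal (h : gsup_IsNormalIn U U') : (gsup_N U U').Normal := by
  constructor
  intro n hn g
  rw [Subgroup.mem_subgroupOf] at hn ⊢
  exact h.2 g g.2 n hn

/-- The homomorphism `U → Aut(Ω^{U'})`. -/
def gsup_rho (h : gsup_IsNormalIn U U') : ↥U →* RingAut ↥(IntermediateField.fixedField U') :=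
  letI := gsup_actU h
  MulSemiringAction.toRingAut ↥U ↥(IntermediateField.fixedField U')

theorem gsup_rho_apply (h : gsup_IsNormalIn U U') (g : ↥U)
    (x : ↥(IntermediateField.fixedField U')) :
    ((gsup_rho h g x : ↥(IntermediateField.fixedField U')) : PadicAlgCl q) =
      (g : lcf_Gal q) (x : PadicAlgCl q) := rfl

theorem gsup_rho_eq_one (h : gsup_IsNormalIn U U') (g : ↥U) (hg : g ∈ gsup_N U U') :
    gsup_rho h g = 1 := by
  ext x
  rw [gsup_rho_apply]
  exact (IntermediateField.mem_fixedField_iff U' (x : PadicAlgCl q)).1 x.2 _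
    (Subgroup.mem_subgroupOf.1 hg)

/-- The quotient group `U / U'`. -/
abbrev gsup_G (U U' : Subgroup (lcf_Gal q)) : Type := ↥U ⧸ gsup_N U U'

variable [hN : (gsup_N U U').Normal]

/-- The action of `U / U'` on the fixed field of `U'`. -/
@[reducible] def gsup_actG (h : gsup_IsNormalIn U U') :
    MulSemiringAction (gsup_G U U') ↥(IntermediateField.fixedField U') :=
  MulSemiringAction.compHom ↥(IntermediateField.fixedField U')
    (QuotientGroup.lift (gsup_N U U') (gsup_rho h) (fun g hg => gsup_rho_eq_one h g hg))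

theorem gsup_actG_mk (h : gsup_IsNormalIn U U') (g : ↥U)
    (x : ↥(IntermediateField.fixedField U')) :
    letI := gsup_actG h
    (((QuotientGroup.mk g : gsup_G U U') • x : ↥(IntermediateField.fixedField U')) :
      PadicAlgCl q) = (g : lcf_Gal q) (x : PadicAlgCl q) := rfl

theorem gsup_mk_eq_iff (hU' : lcf_IsOpen U') (g g' : ↥U) :
    (QuotientGroup.mk g : gsup_G U U') = QuotientGroup.mk g' ↔
      ∀ x : ↥(IntermediateField.fixedField U'),
        (g : lcf_Gal q) (x : PadicAlgCl q) = (g' : lcf_Gal q) (x : PadicAlgCl q) := by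
  rw [QuotientGroup.eq, Subgroup.mem_subgroupOf]
  constructor
  · intro hm x
    have h1 := (IntermediateField.mem_fixedField_iff U' (x : PadicAlgCl q)).1 x.2 _ hm
    have h2 : (g : lcf_Gal q) ((((g⁻¹ * g' : ↥U) : ↥U) : lcf_Gal q) (x : PadicAlgCl q)) =
        (g' : lcf_Gal q) (x : PadicAlgCl q) := by
      simp [AlgEquiv.mul_apply]
    rw [← h2, h1]
  · intro hx
    rw [← unr_abs_fixing_fixed U' hU', IntermediateField.mem_fixingSubgroup_iff]
    intro x hxm
    have := hx ⟨x, hxm⟩
    simp only [Subgroup.coe_mul, Subgroup.coe_inv, AlgEquiv.mul_apply]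
    rw [← this]
    simp

theorem gsup_faithful (h : gsup_IsNormalIn U U') (hU' : lcf_IsOpen U') :
    letI := gsup_actG h
    FaithfulSMul (gsup_G U U') ↥(IntermediateField.fixedField U') := by
  letI := gsup_actG h
  constructor
  intro m₁ m₂ hm
  induction m₁ using QuotientGroup.induction_on with
  | H g₁ =>
    induction m₂ using QuotientGroup.induction_on with
    | H g₂ =>
      rw [gsup_mk_eq_iff hU']
      intro x
      have := congrArg (fun y : ↥(IntermediateField.fixedField U') => (y : PadicAlgCl q)) (hm x)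
      exact this

theorem gsup_finite (hU' : lcf_IsOpen U') : Finite (gsup_G U U') := by
  haveI := unr_abs_finite U' hU'
  let ψ : gsup_G U U' → (↥(IntermediateField.fixedField U') →ₐ[ℚ_[q]] PadicAlgCl q) :=
    fun m => ((m.out : ↥U) : lcf_Gal q).toAlgHom.comp (IntermediateField.fixedField U').val
  refine Finite.of_injective ψ ?_
  intro m₁ m₂ hm
  rw [← QuotientGroup.out_eq' m₁, ← QuotientGroup.out_eq' m₂]
  rw [gsup_mk_eq_iff hU']
  intro x
  exact DFunLike.congr_fun hm x

end Quot

section Main

variable {q : ℕ} [Fact q.Prime] {U U' : Subgroup (lcf_Gal q)}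

theorem gsup_norm_q : ‖((q : ℕ) : PadicAlgCl q)‖ = ((q : ℕ) : ℝ)⁻¹ := by
  have h1 : ((q : ℕ) : PadicAlgCl q) = algebraMap ℚ_[q] (PadicAlgCl q) ((q : ℕ) : ℚ_[q]) := by
    rw [map_natCast]
  rw [h1, PadicAlgCl.norm_extends, Padic.norm_p]

/-- An element of `Ωˣ` lying in the fixed field of `U'` as a unit of that field. -/
def gsup_toL (U' : Subgroup (lcf_Gal q)) (y : (PadicAlgCl q)ˣ)
    (hy : (y : PadicAlgCl q) ∈ IntermediateField.fixedField U') :
    (↥(IntermediateField.fixedField U'))ˣ :=
  Units.mk0 ⟨(y : PadicAlgCl q), hy⟩ (fun h0 => y.ne_zero (congrArg Subtype.val h0))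

@[simp] theorem gsup_toL_val (y : (PadicAlgCl q)ˣ)
    (hy : (y : PadicAlgCl q) ∈ IntermediateField.fixedField U') :
    (((gsup_toL U' y hy : (↥(IntermediateField.fixedField U'))ˣ) :
      ↥(IntermediateField.fixedField U')) : PadicAlgCl q) = (y : PadicAlgCl q) := rfl

/-- **`H²(unramified, units) = 0`, absolute form.**  Let `U' ≤ U` be open subgroups of
`Gal(Ω_q/ℚ_q)`, `U'` normal in `U`, such that the value group of the fixed field of `U'` is
`q^ℤ` (so `Ω^{U'}/ℚ_q`, a fortiori `Ω^{U'}/Ω^U`, is unramified).  Then every 2-cocycle of `U`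
which is inflated from `U/U'` (values in `Ω^{U'}`) and takes values of norm `1` is a smooth
coboundary. -/
theorem gsup_unr_cob (hU' : lcf_IsOpen U') (h : gsup_IsNormalIn U U')
    (hunr : ∀ x : PadicAlgCl q, x ∈ IntermediateField.fixedField U' → x ≠ 0 →
      ∃ k : ℤ, ‖x‖ = ((q : ℕ) : ℝ) ^ k)
    (f : ↥U × ↥U → (PadicAlgCl q)ˣ) (hf : IsMulCocycle₂ f)
    (hinfl1 : ∀ g h s s' : ↥U, (s : lcf_Gal q) ∈ U' → (s' : lcf_Gal q) ∈ U' →
      f (g * s, h * s') = f (g, h))
    (hinfl2 : ∀ g h s : ↥U, (s : lcf_Gal q) ∈ U' → s • f (g, h) = f (g, h))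
    (hunit : ∀ g h : ↥U, ‖((f (g, h) : (PadicAlgCl q)ˣ) : PadicAlgCl q)‖ = 1) :
    lcf_IsCob U f := by
  classical
  haveI := gsup_N_normal h
  letI := gsup_actG h
  haveI := gsup_faithful h hU'
  haveI := gsup_finite (U := U) hU'
  haveI := unr_abs_finite U' hU'
  letI := gsup_actA (gsup_G U U') ↥(IntermediateField.fixedField U')
  -- values in the fixed field
  have hmem : ∀ g h : ↥U,
      ((f (g, h) : (PadicAlgCl q)ˣ) : PadicAlgCl q) ∈ IntermediateField.fixedField U' := by
    intro g k
    rw [IntermediateField.mem_fixedField_iff]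
    intro s hs
    have := congrArg (fun y : (PadicAlgCl q)ˣ => (y : PadicAlgCl q))
      (hinfl2 g k ⟨s, h.1 hs⟩ hs)
    exact this
  -- the cocycle of the quotient
  let fb : gsup_G U U' × gsup_G U U' → Additive (↥(IntermediateField.fixedField U'))ˣ :=
    fun p => Additive.ofMul (gsup_toL U' (f (p.1.out, p.2.out)) (hmem _ _))
  have hfb : ∀ g k : ↥U, fb (QuotientGroup.mk g, QuotientGroup.mk k) =
      Additive.ofMul (gsup_toL U' (f (g, k)) (hmem _ _)) := by
    intro g k
    obtain ⟨s, hs⟩ := QuotientGroup.mk_out_eq_mul (gsup_N U U') g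
    obtain ⟨s', hs'⟩ := QuotientGroup.mk_out_eq_mul (gsup_N U U') k
    show Additive.ofMul (gsup_toL U' (f ((QuotientGroup.mk g : gsup_G U U').out,
      (QuotientGroup.mk k : gsup_G U U').out)) (hmem _ _)) = _
    congr 1
    apply Units.ext
    apply Subtype.ext
    show ((f ((QuotientGroup.mk g : gsup_G U U').out,
      (QuotientGroup.mk k : gsup_G U U').out) : (PadicAlgCl q)ˣ) : PadicAlgCl q) = _
    rw [hs, hs', hinfl1 g k s s' (Subgroup.mem_subgroupOf.1 s.2) (Subgroup.mem_subgroupOf.1 s'.2)]
    rfl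
  have hcoc : IsCocycle₂ fb := by
    intro x y z
    induction x using QuotientGroup.induction_on with
    | H g =>
      induction y using QuotientGroup.induction_on with
      | H k =>
        induction z using QuotientGroup.induction_on with
        | H j =>
          have e1 : (QuotientGroup.mk g : gsup_G U U') * QuotientGroup.mk k =
              QuotientGroup.mk (g * k) := rfl
          have e2 : (QuotientGroup.mk k : gsup_G U U') * QuotientGroup.mk j =
              QuotientGroup.mk (k * j) := rfl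
          rw [e1, e2, hfb, hfb, hfb, hfb]
          apply Additive.toMul.injective
          apply Units.ext
          apply Subtype.ext
          have := congrArg (fun y : (PadicAlgCl q)ˣ => (y : PadicAlgCl q)) (hf g k j)
          exact this
  -- apply the abstract theorem
  obtain ⟨S, hS⟩ := lf_IsLocal.finite_residue (K := ↥(IntermediateField.fixedField U'))
  have hq0 : ((q : ℕ) : ↥(IntermediateField.fixedField U')) ≠ 0 := by
    exact_mod_cast (Fact.out : q.Prime).ne_zero
  have hqn : ‖((q : ℕ) : ↥(IntermediateField.fixedField U'))‖ = ((q : ℕ) : ℝ)⁻¹ := by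
    have : ‖((q : ℕ) : ↥(IntermediateField.fixedField U'))‖ = ‖((q : ℕ) : PadicAlgCl q)‖ := rfl
    rw [this, gsup_norm_q]
  have hq1 : (1 : ℝ) < ((q : ℕ) : ℝ) := by exact_mod_cast (Fact.out : q.Prime).one_lt
  obtain ⟨xb, hxb⟩ := gsup_abs_cob (G := gsup_G U U') (L := ↥(IntermediateField.fixedField U'))
    ((q : ℕ) : ↥(IntermediateField.fixedField U'))
    (by
      intro g x
      induction g using QuotientGroup.induction_on with
      | H g => exact unr_abs_norm_map (g : lcf_Gal q) (x : PadicAlgCl q))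
    (by
      intro g
      induction g using QuotientGroup.induction_on with
      | H g =>
        apply Subtype.ext
        show (g : lcf_Gal q) ((q : ℕ) : PadicAlgCl q) = ((q : ℕ) : PadicAlgCl q)
        rw [map_natCast])
    (by rw [hqn]; exact inv_lt_one_of_one_lt₀ hq1)
    hq0
    (by
      intro x hx
      obtain ⟨k, hk⟩ := hunr (x : PadicAlgCl q) x.2 (fun h0 => hx (Subtype.ext h0))
      refine ⟨-k, ?_⟩
      rw [hqn, inv_zpow', neg_neg]
      exact hk)
    S hS fb hcoc
    (by
      rintro ⟨x, y⟩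
      exact hunit _ _)
  -- the cobounding cochain
  refine ⟨fun g => Units.map ((IntermediateField.fixedField U').val :
      ↥(IntermediateField.fixedField U') →* PadicAlgCl q) (xb (QuotientGroup.mk g)).toMul, ?_, ?_⟩
  · obtain ⟨E, hE, hEU⟩ := hU'
    refine ⟨E, hE, fun g s hs => ?_⟩
    have : (QuotientGroup.mk (g * s) : gsup_G U U') = QuotientGroup.mk g := by
      rw [QuotientGroup.eq, Subgroup.mem_subgroupOf]
      have : (((g * s)⁻¹ * g : ↥U) : lcf_Gal q) = (s : lcf_Gal q)⁻¹ := by
        simp
      rw [this]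
      exact U'.inv_mem (hEU hs)
    show Units.map _ (xb (QuotientGroup.mk (g * s))).toMul = Units.map _ (xb _).toMul
    rw [this]
  · intro g k
    have h1 := hxb (QuotientGroup.mk g) (QuotientGroup.mk k)
    rw [hfb] at h1
    have h2 := congrArg (fun a : Additive (↥(IntermediateField.fixedField U'))ˣ =>
      (((a.toMul : (↥(IntermediateField.fixedField U'))ˣ) :
        ↥(IntermediateField.fixedField U')) : PadicAlgCl q)) h1
    apply Units.ext
    simp only [Units.val_mul, Units.val_div_eq_div_val]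
    refine Eq.trans ?_ h2
    simp only [toMul_add, toMul_sub, Units.val_mul, Units.val_div_eq_div_val]
    rfl

end Main

end

end Fermat.Agent.S55
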