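/-
S55 (fifth wave), GLOBAL side, package [J-SUPP] (helper1): an idele-valued 2-cocycle has only
finitely many nonzero local invariants, `gsup_main : gl_SuppStatement`.

DICTIONARY of the localisation (reusable for [HASSE], [RECIP], [R-CYC], [FUND]):
* `gsup_U0 q F ι = Gal(Ω_q / ℚ_q·ι(F))` (`gsup_mem_U0_iff`), open (`gsup_U0_isOpen`), normal in
  `gl_locU q F H ι` (`gsup_isNormalIn`), with fixed field `ℚ_q(ι F)` (`gsup_fixedField_U0`);
  `gl_locU q F H ι` is open (`gsup_locU_isOpen`);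
* `gl_locSigma` is a homomorphism (`gsup_sigma_mul`), trivial on `U₀` (`gsup_sigma_of_mem`),
  determined by `g (ι x) = ι (σ x)` (`gsup_sigma_unique`);
* `gsup_ev q F ι : J_F →* Ω_qˣ` (evaluation at `ι`), equivariant (`gsup_ev_smul`);
* the localisation of an idele-valued 2-cocycle is a smooth 2-cocycle (`gsup_locJ_isCoc`),
  inflated from `gl_locU / U₀` (`gsup_locJ_infl1`, `gsup_locJ_infl2`);
* `ι(F)` is dense in `ℚ_q(ι F)` (`gsup_dense`); if `F` is unramified at `q`, the value group of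
  `ℚ_q(ι F)` is `q^ℤ` (`gsup_unram_adjoin`);
* UNRAMIFIED VANISHING `gsup_locJ_isCob`: `F` unramified at `q`, all values of `c` units at `q`
  ⟹ the localisation is a smooth coboundary (via `gsup_unr_cob` of `SuppLocal.lean`).
-/
import Mathlib
import Fermat.Agent.S55.Global.RecDefs
import Fermat.Agent.S55.Global.SuppLocal
import Fermat.Agent.S55.Global.RamFin

set_option autoImplicit false
set_option linter.style.haveILetI false
set_option linter.unusedSectionVars false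

namespace Fermat.Agent.S55

open groupCohomology

noncomputable section

section Dense

variable {q : ℕ} [Fact q.Prime] {F : Type} [Field F] [Algebra ℚ F]

theorem gsup_norm_eq_of_lt {x y : PadicAlgCl q} (h : ‖x - y‖ < ‖x‖) : ‖y‖ = ‖x‖ := by
  have h1 : ‖y‖ ≤ ‖x‖ := by
    have e : y = x - (x - y) := by ring
    rw [e]
    rw [sub_eq_add_neg]
    refine le_trans (IsUltrametricDist.norm_add_le_max _ _) (max_le le_rfl ?_)
    rw [norm_neg]
    exact h.le
  refine le_antisymm h1 ?_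
  by_contra hlt
  rw [not_le] at hlt
  have h2 : ‖x‖ ≤ max ‖x - y‖ ‖y‖ := by
    have e : x = (x - y) + y := by ring
    conv_lhs => rw [e]
    exact IsUltrametricDist.norm_add_le_max _ _
  rcases le_max_iff.1 h2 with h3 | h3
  · exact absurd h3 (not_le.2 h)
  · exact absurd h3 (not_le.2 hlt)

theorem gsup_algebraMap_rat (r : ℚ) :
    algebraMap ℚ_[q] (PadicAlgCl q) (r : ℚ_[q]) = algebraMap ℚ (PadicAlgCl q) r := by
  have h1 : algebraMap ℚ (PadicAlgCl q) r =
      algebraMap ℚ_[q] (PadicAlgCl q) (algebraMap ℚ ℚ_[q] r) :=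
    IsScalarTower.algebraMap_apply ℚ ℚ_[q] (PadicAlgCl q) r
  rw [h1]
  rfl

/-- `ι(F)` is dense in `ℚ_q(ι F)`. -/
theorem gsup_dense (ι : F →ₐ[ℚ] PadicAlgCl q) (x : PadicAlgCl q)
    (hx : x ∈ IntermediateField.adjoin ℚ_[q] (Set.range ι)) (ε : ℝ) (hε : 0 < ε) :
    ∃ y : F, ‖x - ι y‖ < ε := by
  have h1 : (IntermediateField.adjoin ℚ_[q] (Set.range ι)).toSubalgebra =
      Algebra.adjoin ℚ_[q] (Set.range ι) :=
    IntermediateField.adjoin_toSubalgebra_of_isAlgebraic
      (fun y _ => Algebra.IsAlgebraic.isAlgebraic y)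
  have h2 : x ∈ Algebra.adjoin ℚ_[q] (Set.range ι) := by
    rw [← h1]; exact hx
  have h3 : x ∈ Submodule.span ℚ_[q] (Set.range ι) := by
    have h4 : (Submonoid.closure (Set.range ι) : Set (PadicAlgCl q)) = Set.range ι := by
      have : Set.range ι = ((MonoidHom.mrange (ι : F →* PadicAlgCl q) :
          Submonoid (PadicAlgCl q)) : Set (PadicAlgCl q)) := by
        ext y; simp
      rw [this, Submonoid.closure_eq]
    have h5 := Algebra.adjoin_eq_span ℚ_[q] (Set.range ι)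
    rw [h4] at h5
    rw [← h5]
    exact h2
  clear hx h1 h2
  revert ε
  induction h3 using Submodule.span_induction with
  | mem x hx =>
    intro ε hε
    obtain ⟨y, rfl⟩ := hx
    exact ⟨y, by simpa using hε⟩
  | zero =>
    intro ε hε
    exact ⟨0, by simpa using hε⟩
  | add x₁ x₂ _ _ ih₁ ih₂ =>
    intro ε hε
    obtain ⟨y₁, h₁⟩ := ih₁ ε hε
    obtain ⟨y₂, h₂⟩ := ih₂ ε hε
    refine ⟨y₁ + y₂, ?_⟩
    have e : x₁ + x₂ - ι (y₁ + y₂) = (x₁ - ι y₁) + (x₂ - ι y₂) := by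
      rw [map_add]; ring
    rw [e]
    exact lt_of_le_of_lt (IsUltrametricDist.norm_add_le_max _ _) (max_lt h₁ h₂)
  | smul c x _ ih =>
    intro ε hε
    have hx1 : 0 < ‖x‖ + 1 := by positivity
    obtain ⟨r, hr⟩ := Padic.rat_dense q c (div_pos hε hx1)
    have hr1 : 0 < ‖(r : ℚ_[q])‖ + 1 := by positivity
    obtain ⟨y, hy⟩ := ih (ε / (‖(r : ℚ_[q])‖ + 1)) (div_pos hε hr1)
    refine ⟨r • y, ?_⟩
    have e : c • x - ι (r • y) =
        algebraMap ℚ_[q] (PadicAlgCl q) (c - r) * x +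
          algebraMap ℚ_[q] (PadicAlgCl q) (r : ℚ_[q]) * (x - ι y) := by
      rw [map_smul, Algebra.smul_def, Algebra.smul_def, map_sub, gsup_algebraMap_rat]
      ring
    rw [e]
    refine lt_of_le_of_lt (IsUltrametricDist.norm_add_le_max _ _) (max_lt ?_ ?_)
    · rw [norm_mul, PadicAlgCl.norm_extends]
      calc ‖c - (r : ℚ_[q])‖ * ‖x‖ ≤ ‖c - (r : ℚ_[q])‖ * (‖x‖ + 1) :=
            mul_le_mul_of_nonneg_left (by linarith) (norm_nonneg _)
        _ < ε / (‖x‖ + 1) * (‖x‖ + 1) := mul_lt_mul_of_pos_right hr hx1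
        _ = ε := div_mul_cancel₀ _ hx1.ne'
    · rw [norm_mul, PadicAlgCl.norm_extends]
      calc ‖(r : ℚ_[q])‖ * ‖x - ι y‖ ≤ (‖(r : ℚ_[q])‖ + 1) * ‖x - ι y‖ :=
            mul_le_mul_of_nonneg_right (by linarith) (norm_nonneg _)
        _ < (‖(r : ℚ_[q])‖ + 1) * (ε / (‖(r : ℚ_[q])‖ + 1)) := mul_lt_mul_of_pos_left hy hr1
        _ = ε := mul_div_cancel₀ _ hr1.ne'

/-- If `F` is unramified at `q`, the value group of `ℚ_q(ι F)` is `q^ℤ`. -/
theorem gsup_unram_adjoin (hur : gl_UnramAt q F) (ι : F →ₐ[ℚ] PadicAlgCl q) (x : PadicAlgCl q)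
    (hx : x ∈ IntermediateField.adjoin ℚ_[q] (Set.range ι)) (hx0 : x ≠ 0) :
    ∃ k : ℤ, ‖x‖ = ((q : ℕ) : ℝ) ^ k := by
  obtain ⟨y, hy⟩ := gsup_dense ι x hx ‖x‖ (norm_pos_iff.2 hx0)
  have h1 := gsup_norm_eq_of_lt hy
  have hy0 : y ≠ 0 := by
    rintro rfl
    rw [map_zero, norm_zero] at h1
    exact hx0 (norm_eq_zero.1 h1.symm)
  obtain ⟨n, hn⟩ := hur ι y hy0
  exact ⟨n, by rw [← h1, hn]⟩

end Dense

section Dict

variable (q : ℕ) [Fact q.Prime] (F : Type) [Field F] [Algebra ℚ F]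
  (H : Subgroup (F ≃ₐ[ℚ] F)) (ι : F →ₐ[ℚ] PadicAlgCl q)

/-- `U₀ = Gal(Ω_q / ℚ_q · ι(F))`. -/
def gsup_U0 : Subgroup (lcf_Gal q) :=
  (IntermediateField.adjoin ℚ_[q] (Set.range ι)).fixingSubgroup

theorem gsup_mem_U0_iff (g : lcf_Gal q) : g ∈ gsup_U0 q F ι ↔ ∀ x : F, g (ι x) = ι x := by
  unfold gsup_U0
  rw [IntermediateField.mem_fixingSubgroup_iff]
  constructor
  · intro h x
    exact h _ (IntermediateField.subset_adjoin _ _ ⟨x, rfl⟩)
  · intro h
    have h1 : IntermediateField.adjoin ℚ_[q] (Set.range ι) ≤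
        IntermediateField.fixedField (Subgroup.zpowers g) := by
      rw [IntermediateField.adjoin_le_iff]
      rintro _ ⟨x, rfl⟩
      show ι x ∈ IntermediateField.fixedField (Subgroup.zpowers g)
      rw [IntermediateField.mem_fixedField_iff]
      intro f hf
      obtain ⟨k, rfl⟩ := Subgroup.mem_zpowers_iff.1 hf
      have h2 : ∀ n : ℕ, (g ^ n) (ι x) = ι x := by
        intro n
        induction n with
        | zero => rfl
        | succ n ih => rw [pow_succ, AlgEquiv.mul_apply, h x, ih]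
      have h3 : ∀ n : ℕ, (g⁻¹ ^ n) (ι x) = ι x := by
        intro n
        induction n with
        | zero => rfl
        | succ n ih =>
          rw [pow_succ, AlgEquiv.mul_apply]
          have : g⁻¹ (ι x) = ι x := by
            conv_lhs => rw [← h x]
            exact g.symm_apply_apply _
          rw [this, ih]
      rcases Int.eq_nat_or_neg k with ⟨n, rfl | rfl⟩
      · rw [zpow_natCast]; exact h2 n
      · rw [zpow_neg, zpow_natCast, ← inv_pow]; exact h3 n
    intro y hy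
    exact (IntermediateField.mem_fixedField_iff _ y).1 (h1 hy) g (Subgroup.mem_zpowers g)

theorem gsup_fixedField_U0 :
    IntermediateField.fixedField (gsup_U0 q F ι) =
      IntermediateField.adjoin ℚ_[q] (Set.range ι) :=
  InfiniteGalois.fixedField_fixingSubgroup _

variable [FiniteDimensional ℚ F]

theorem gsup_finite_adjoin :
    FiniteDimensional ℚ_[q] ↥(IntermediateField.adjoin ℚ_[q] (Set.range ι)) := by
  classical
  let b := Module.finBasis ℚ F
  have hfin : (Set.range (fun i => ι (b i))).Finite := Set.finite_range _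
  haveI : FiniteDimensional ℚ_[q]
      ↥(IntermediateField.adjoin ℚ_[q] (Set.range (fun i => ι (b i)))) :=
    IntermediateField.finiteDimensional_adjoin
      (fun x _ => (Algebra.IsAlgebraic.isAlgebraic x).isIntegral)
  have hle : IntermediateField.adjoin ℚ_[q] (Set.range ι) ≤
      IntermediateField.adjoin ℚ_[q] (Set.range (fun i => ι (b i))) := by
    rw [IntermediateField.adjoin_le_iff]
    rintro _ ⟨x, rfl⟩
    have hx : x = ∑ i, b.repr x i • b i := (b.sum_repr x).symm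
    show ι x ∈ IntermediateField.adjoin ℚ_[q] (Set.range (fun i => ι (b i)))
    rw [hx, map_sum]
    refine Subfield.sum_mem _ (fun i _ => ?_)
    rw [map_smul, Algebra.smul_def]
    refine mul_mem ?_ (IntermediateField.subset_adjoin _ _ ⟨i, rfl⟩)
    have : algebraMap ℚ (PadicAlgCl q) (b.repr x i) =
        algebraMap ℚ_[q] (PadicAlgCl q) (algebraMap ℚ ℚ_[q] (b.repr x i)) :=
      IsScalarTower.algebraMap_apply ℚ ℚ_[q] (PadicAlgCl q) _
    rw [this]
    exact (IntermediateField.adjoin ℚ_[q] (Set.range (fun i => ι (b i)))).algebraMap_mem _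
  exact FiniteDimensional.of_injective (IntermediateField.inclusion hle).toLinearMap
    (IntermediateField.inclusion_injective hle)

theorem gsup_U0_isOpen : lcf_IsOpen (gsup_U0 q F ι) :=
  ⟨_, gsup_finite_adjoin q F ι, le_rfl⟩

omit [FiniteDimensional ℚ F] in
theorem gsup_U0_le : gsup_U0 q F ι ≤ gl_locU q F H ι := by
  intro g hg
  refine ⟨1, H.one_mem, ?_⟩
  ext x
  exact (gsup_mem_U0_iff q F ι g).1 hg x

theorem gsup_locU_isOpen : lcf_IsOpen (gl_locU q F H ι) :=
  ⟨_, gsup_finite_adjoin q F ι, gsup_U0_le q F H ι⟩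

end Dict

section Sigma

variable (q : ℕ) [Fact q.Prime] (F : Type) [Field F] [Algebra ℚ F]
  (H : Subgroup (F ≃ₐ[ℚ] F)) (ι : F →ₐ[ℚ] PadicAlgCl q)

/-- `σ_g` is determined by `g`. -/
theorem gsup_sigma_unique (g : ↥(gl_locU q F H ι)) (σ : ↥H)
    (h : ∀ x : F, (g : lcf_Gal q) (ι x) = ι ((σ : F ≃ₐ[ℚ] F) x)) :
    gl_locSigma q F H ι g = σ := by
  apply Subtype.ext
  ext x
  apply ι.injective
  show ι (((gl_locSigma q F H ι g : ↥H) : F ≃ₐ[ℚ] F) x) = ι ((σ : F ≃ₐ[ℚ] F) x)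
  rw [← gl_locSigma_apply, h]

theorem gsup_sigma_mul (g g' : ↥(gl_locU q F H ι)) :
    gl_locSigma q F H ι (g * g') = gl_locSigma q F H ι g * gl_locSigma q F H ι g' := by
  apply gsup_sigma_unique
  intro x
  show (g : lcf_Gal q) ((g' : lcf_Gal q) (ι x)) = _
  rw [gl_locSigma_apply, gl_locSigma_apply]
  rfl

theorem gsup_sigma_of_mem (s : ↥(gl_locU q F H ι)) (hs : (s : lcf_Gal q) ∈ gsup_U0 q F ι) :
    gl_locSigma q F H ι s = 1 := by
  apply gsup_sigma_unique
  intro x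
  exact (gsup_mem_U0_iff q F ι _).1 hs x

theorem gsup_sigma_mul_mem (g s : ↥(gl_locU q F H ι))
    (hs : (s : lcf_Gal q) ∈ gsup_U0 q F ι) :
    gl_locSigma q F H ι (g * s) = gl_locSigma q F H ι g := by
  rw [gsup_sigma_mul, gsup_sigma_of_mem q F H ι s hs, mul_one]

theorem gsup_twist_eq (g : ↥(gl_locU q F H ι)) :
    gl_twist q F (g : lcf_Gal q) ι =
      ι.comp (((gl_locSigma q F H ι g : ↥H) : F ≃ₐ[ℚ] F) : F →ₐ[ℚ] F) :=
  gl_locSigma_spec q F H ι g

/-- `U₀` is normal in `gl_locU`. -/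
theorem gsup_isNormalIn : gsup_IsNormalIn (gl_locU q F H ι) (gsup_U0 q F ι) := by
  refine ⟨gsup_U0_le q F H ι, fun g hg s hs => ?_⟩
  rw [gsup_mem_U0_iff]
  intro x
  have hg' : g⁻¹ ∈ gl_locU q F H ι := (gl_locU q F H ι).inv_mem hg
  have h1 := gl_locSigma_apply q F H ι ⟨g⁻¹, hg'⟩ x
  have h2 : g⁻¹ (ι x) = ι (((gl_locSigma q F H ι ⟨g⁻¹, hg'⟩ : ↥H) : F ≃ₐ[ℚ] F) x) := h1
  show g (s (g⁻¹ (ι x))) = ι x
  rw [h2, (gsup_mem_U0_iff q F ι s).1 hs, ← h2]
  exact g.apply_symm_apply _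

/-- The value of a semi-local idele at a twisted embedding. -/
theorem gsup_Jq_twist (f : gl_Jq q F) (g : lcf_Gal q) :
    f.1 (gl_twist q F g ι) = Units.map (g : PadicAlgCl q →* PadicAlgCl q) (f.1 ι) :=
  f.2 g ι

end Sigma

section Cocycle

variable (q : ℕ) [Fact q.Prime] (F : Type) [Field F] [Algebra ℚ F]
  (H : Subgroup (F ≃ₐ[ℚ] F)) (ι : F →ₐ[ℚ] PadicAlgCl q)

/-- Evaluation of an idele at the embedding `ι` (a homomorphism `J_F → Ω_qˣ`). -/
def gsup_ev : gl_J F →* (PadicAlgCl q)ˣ where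
  toFun x := ((x.1 (⟨q, Fact.out⟩ : Nat.Primes) : gl_Jq q F)).1 ι
  map_one' := rfl
  map_mul' _ _ := rfl

theorem gsup_locJ_apply (c : ↥H × ↥H → Additive (gl_J F))
    (x : ↥(gl_locU q F H ι) × ↥(gl_locU q F H ι)) :
    gl_locJ q F H ι c x =
      gsup_ev q F ι (c (gl_locSigma q F H ι x.1, gl_locSigma q F H ι x.2)).toMul := rfl

/-- Equivariance of the evaluation: `ev (σ_g • x) = g • ev x`. -/
theorem gsup_ev_smul (g : ↥(gl_locU q F H ι)) (a : Additive (gl_J F)) :
    gsup_ev q F ι (gl_locSigma q F H ι g • a).toMul = g • gsup_ev q F ι a.toMul := by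
  show ((a.toMul.1 (⟨q, Fact.out⟩ : Nat.Primes) : gl_Jq q F)).1
      (ι.comp (((gl_locSigma q F H ι g : ↥H) : F ≃ₐ[ℚ] F) : F →ₐ[ℚ] F)) = _
  rw [← gsup_twist_eq, gsup_Jq_twist]
  rfl

/-- The localisation of an idele-valued 2-cocycle is a 2-cocycle. -/
theorem gsup_locJ_isMulCocycle (c : ↥H × ↥H → Additive (gl_J F)) (hc : IsCocycle₂ c) :
    IsMulCocycle₂ (gl_locJ q F H ι c) := by
  intro g h j
  rw [gsup_locJ_apply, gsup_locJ_apply, gsup_locJ_apply, gsup_locJ_apply]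
  simp only [gsup_sigma_mul]
  have h1 := hc (gl_locSigma q F H ι g) (gl_locSigma q F H ι h) (gl_locSigma q F H ι j)
  have h2 := congrArg (fun a : Additive (gl_J F) => gsup_ev q F ι a.toMul) h1
  simp only [toMul_add, map_mul] at h2
  rw [h2]
  congr 1
  exact gsup_ev_smul q F H ι g _

theorem gsup_locJ_infl1 (c : ↥H × ↥H → Additive (gl_J F))
    (g h s s' : ↥(gl_locU q F H ι)) (hs : (s : lcf_Gal q) ∈ gsup_U0 q F ι)
    (hs' : (s' : lcf_Gal q) ∈ gsup_U0 q F ι) :
    gl_locJ q F H ι c (g * s, h * s') = gl_locJ q F H ι c (g, h) := by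
  rw [gsup_locJ_apply, gsup_locJ_apply]
  simp only [gsup_sigma_mul_mem q F H ι _ _ hs, gsup_sigma_mul_mem q F H ι _ _ hs']

theorem gsup_locJ_infl2 (c : ↥H × ↥H → Additive (gl_J F))
    (g h s : ↥(gl_locU q F H ι)) (hs : (s : lcf_Gal q) ∈ gsup_U0 q F ι) :
    s • gl_locJ q F H ι c (g, h) = gl_locJ q F H ι c (g, h) := by
  rw [gsup_locJ_apply, ← gsup_ev_smul, gsup_sigma_of_mem q F H ι s hs, one_smul]

variable [FiniteDimensional ℚ F]

theorem gsup_locJ_smooth (c : ↥H × ↥H → Additive (gl_J F)) :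
    lcf_Smooth₂ (gl_locU q F H ι) (gl_locJ q F H ι c) :=
  ⟨_, gsup_finite_adjoin q F ι, fun g g' s s' hs hs' => gsup_locJ_infl1 q F H ι c g g' s s' hs hs'⟩

/-- The localisation of an idele-valued 2-cocycle is a smooth 2-cocycle. -/
theorem gsup_locJ_isCoc (c : ↥H × ↥H → Additive (gl_J F)) (hc : IsCocycle₂ c) :
    lcf_IsCoc (gl_locU q F H ι) (gl_locJ q F H ι c) :=
  ⟨gsup_locJ_isMulCocycle q F H ι c hc, gsup_locJ_smooth q F H ι c⟩

/-- **Unramified vanishing**: if `F` is unramified at `q` and all values of the cocycle are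
units at `q`, the localisation is a smooth coboundary. -/
theorem gsup_locJ_isCob (hur : gl_UnramAt q F) (c : ↥H × ↥H → Additive (gl_J F))
    (hc : IsCocycle₂ c)
    (hu : ∀ σ τ : ↥H, (c (σ, τ)).toMul.1 (⟨q, Fact.out⟩ : Nat.Primes) ∈
      gl_UP F (⟨q, Fact.out⟩ : Nat.Primes)) :
    lcf_IsCob (gl_locU q F H ι) (gl_locJ q F H ι c) := by
  refine gsup_unr_cob (gsup_U0_isOpen q F ι) (gsup_isNormalIn q F H ι) ?_ _
    (gsup_locJ_isMulCocycle q F H ι c hc) (gsup_locJ_infl1 q F H ι c)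
    (gsup_locJ_infl2 q F H ι c) ?_
  · intro x hx hx0
    rw [gsup_fixedField_U0] at hx
    exact gsup_unram_adjoin hur ι x hx hx0
  · intro g h
    exact hu _ _ ι

end Cocycle

section Main

/-- **[J-SUPP]** an idele-valued 2-cocycle has only finitely many nonzero local invariants. -/
theorem gsup_main_of (hram : gl_RamFiniteStatement) : gl_SuppStatement := by
  intro inv hinv F _ _ H c hc
  classical
  haveI : Finite ↥H := inferInstance
  -- the bad primes
  have hbad : (gl_ram F ∪ ⋃ p : ↥H × ↥H,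
      {Q : Nat.Primes | (c p).toMul.1 Q ∉ gl_UP F Q}).Finite := by
    refine (hram F).union (Set.finite_iUnion fun p => ?_)
    exact (c p).toMul.2
  refine hbad.subset ?_
  intro Q hQ
  by_contra hgood
  simp only [Set.mem_union, Set.mem_iUnion, not_or, not_exists] at hgood
  obtain ⟨hur, hunit⟩ := hgood
  apply hQ
  haveI : Fact (Q : ℕ).Prime := ⟨Q.2⟩
  have hur' : gl_UnramAt (Q : ℕ) F := by
    by_contra h
    exact hur h
  show gl_sumPJ inv F H c Q = 0
  unfold gl_sumPJ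
  apply finsum_eq_zero_of_forall_eq_zero
  intro v
  show inv (Q : ℕ) (gl_locU (Q : ℕ) F H (Quotient.out v))
    (gl_locJ (Q : ℕ) F H (Quotient.out v) c) = 0
  rw [hinv.eq_zero_iff (Q : ℕ) _ (gsup_locU_isOpen (Q : ℕ) F H _) _
    (gsup_locJ_isCoc (Q : ℕ) F H _ c hc)]
  refine gsup_locJ_isCob (Q : ℕ) F H _ hur' c hc (fun σ τ => ?_)
  have := hunit (σ, τ)
  simp only [Set.mem_ofPred_eq, not_not] at this
  exact this

/-- **[J-SUPP]**, hypothesis-free. -/
theorem gsup_main : gl_SuppStatement := gsup_main_of ramf_main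

end Main

end

end Fermat.Agent.S55
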