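import Mathlib
import Fermat.Agent.S55.Global.LocBasic
import Fermat.Agent.S55.Global.InflSum
import Fermat.Agent.S55.Global.ResSumMain
import Fermat.Agent.S55.Global.Supp
import Fermat.Agent.S55.Local.LocFund
import Fermat.Agent.S55.FG.Defs2
import Fermat.Agent.S55.FG.Cyc2

/-!
# S55, global side, assembly [FUND-OF], part 1: calculus of the sums of local invariants

`gl_sumJ inv F H c` (the sum of all local invariants of an idele-valued 2-cocycle `c` of
`H ≤ Aut(F/ℚ)`) is additive in `c`, vanishes on coboundaries, is invariant under inflation along a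
tower and is multiplied by the index under restriction; on principal cocycles it is `gl_sumF`.
Prefix `fof_`.
-/

set_option autoImplicit false
set_option linter.unusedSectionVars false
set_option linter.unusedVariables false
set_option linter.style.longLine false
set_option linter.style.haveILetI false

namespace Fermat.Agent.S55

open groupCohomology

noncomputable section

/-! ### `ℚ/ℤ` -/

section qz

theorem fof_qz_eq_zero_iff (x : ℚ) : lcf_qz x = 0 ↔ ∃ k : ℤ, (k : ℚ) = x := by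
  unfold lcf_qz
  rw [QuotientAddGroup.mk'_apply, QuotientAddGroup.eq_zero_iff, AddSubgroup.mem_zmultiples_iff]
  constructor
  · rintro ⟨k, hk⟩
    refine ⟨k, ?_⟩
    rw [← hk]
    simp
  · rintro ⟨k, hk⟩
    refine ⟨k, ?_⟩
    rw [← hk]
    simp

theorem fof_qz_div_eq_zero_iff (n : ℕ) (hn : 0 < n) (m : ℤ) :
    lcf_qz ((m : ℚ) / (n : ℚ)) = 0 ↔ (n : ℤ) ∣ m := by
  rw [fof_qz_eq_zero_iff]
  have hn' : (n : ℚ) ≠ 0 := by positivity
  constructor
  · rintro ⟨k, hk⟩
    refine ⟨k, ?_⟩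
    have h1 : (m : ℚ) = (n : ℚ) * (k : ℚ) := by
      rw [hk]
      field_simp
    exact_mod_cast h1
  · rintro ⟨k, rfl⟩
    refine ⟨k, ?_⟩
    push_cast
    field_simp

theorem fof_zsmul_qz (k : ℤ) (x : ℚ) : k • lcf_qz x = lcf_qz ((k : ℚ) * x) := by
  rw [← map_zsmul, zsmul_eq_mul]

theorem fof_nsmul_qz (k : ℕ) (x : ℚ) : k • lcf_qz x = lcf_qz ((k : ℚ) * x) := by
  rw [← map_nsmul, nsmul_eq_mul]

end qz

/-! ### Trivial cocycles -/

section one

variable {inv : lcf_InvType} (hinv : lcf_IsInvSystem inv) {q : ℕ} [Fact q.Prime]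

theorem fof_isCoc_one (U : Subgroup (lcf_Gal q)) (hU : lcf_IsOpen U) :
    lcf_IsCoc U (fun _ => (1 : (PadicAlgCl q)ˣ)) := by
  obtain ⟨E, hE, -⟩ := hU
  refine ⟨fun g h j => ?_, ⟨E, hE, fun _ _ _ _ _ _ => rfl⟩⟩
  simp

theorem fof_isCob_one (U : Subgroup (lcf_Gal q)) (hU : lcf_IsOpen U) :
    lcf_IsCob U (fun _ => (1 : (PadicAlgCl q)ˣ)) := by
  obtain ⟨E, hE, -⟩ := hU
  refine ⟨fun _ => 1, ⟨E, hE, fun _ _ _ => rfl⟩, fun g h => ?_⟩
  simp

include hinv in
theorem fof_inv_one (U : Subgroup (lcf_Gal q)) (hU : lcf_IsOpen U) :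
    inv q U (fun _ => (1 : (PadicAlgCl q)ˣ)) = 0 :=
  (hinv.eq_zero_iff q U hU _ (fof_isCoc_one U hU)).2 (fof_isCob_one U hU)

end one

/-! ### Additivity -/

section add

variable {inv : lcf_InvType} (hinv : lcf_IsInvSystem inv)
  {F : Type} [Field F] [NumberField F] (H : Subgroup (F ≃ₐ[ℚ] F))

include hinv in
theorem fof_invAtJ_add (q : ℕ) [Fact q.Prime] (ι : F →ₐ[ℚ] PadicAlgCl q)
    (c c' : ↥H × ↥H → Additive (gl_J F)) (hc : IsCocycle₂ c) (hc' : IsCocycle₂ c') :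
    gl_invAtJ q F H ι inv (c + c') = gl_invAtJ q F H ι inv c + gl_invAtJ q F H ι inv c' := by
  unfold gl_invAtJ
  rw [glb_locJ_add]
  exact hinv.add q _ (gic_locU_isOpen q F H ι) _ _ (glb_locJ_isCoc H ι c hc)
    (glb_locJ_isCoc H ι c' hc')

include hinv in
theorem fof_invAtJ_cob (q : ℕ) [Fact q.Prime] (ι : F →ₐ[ℚ] PadicAlgCl q)
    (c : ↥H × ↥H → Additive (gl_J F)) (hc : IsCoboundary₂ c) :
    gl_invAtJ q F H ι inv c = 0 :=
  (hinv.eq_zero_iff q _ (gic_locU_isOpen q F H ι) _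
    (glb_locJ_isCoc H ι c (fgD_isCocycle₂_of_isCoboundary₂ hc))).2 (glb_locJ_isCob H ι c hc)

include hinv in
theorem fof_sumPJ_add (c c' : ↥H × ↥H → Additive (gl_J F)) (hc : IsCocycle₂ c)
    (hc' : IsCocycle₂ c') (r : Nat.Primes) :
    gl_sumPJ inv F H (c + c') r = gl_sumPJ inv F H c r + gl_sumPJ inv F H c' r := by
  haveI : Fact (r : ℕ).Prime := ⟨r.2⟩
  haveI := grs_finite_placeK (r : ℕ) F H
  unfold gl_sumPJ
  rw [← finsum_add_distrib (Set.toFinite _) (Set.toFinite _)]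
  exact finsum_congr (fun v => fof_invAtJ_add hinv H _ _ c c' hc hc')

include hinv in
theorem fof_sumJ_add (c c' : ↥H × ↥H → Additive (gl_J F)) (hc : IsCocycle₂ c)
    (hc' : IsCocycle₂ c') :
    gl_sumJ inv F H (c + c') = gl_sumJ inv F H c + gl_sumJ inv F H c' := by
  unfold gl_sumJ
  rw [← finsum_add_distrib (gsup_main inv hinv F H c hc) (gsup_main inv hinv F H c' hc')]
  exact finsum_congr (fun r => fof_sumPJ_add hinv H c c' hc hc' r)

/-- The sum of the local invariants as a homomorphism on the group of idele-valued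
2-cocycles. -/
def fof_sumHom : fg_Z2 ↥H (Additive (gl_J F)) →+ lcf_QZ :=
  AddMonoidHom.mk' (fun c => gl_sumJ inv F H (c : ↥H × ↥H → Additive (gl_J F)))
    (fun a b => fof_sumJ_add hinv H a b a.2 b.2)

theorem fof_sumHom_apply (c : fg_Z2 ↥H (Additive (gl_J F))) :
    fof_sumHom hinv H c = gl_sumJ inv F H (c : ↥H × ↥H → Additive (gl_J F)) := rfl

include hinv in
theorem fof_sumJ_zsmul (c : ↥H × ↥H → Additive (gl_J F)) (hc : IsCocycle₂ c) (m : ℤ) :
    gl_sumJ inv F H (m • c) = m • gl_sumJ inv F H c :=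
  map_zsmul (fof_sumHom hinv H) m ⟨c, hc⟩

include hinv in
theorem fof_sumJ_sub (c c' : ↥H × ↥H → Additive (gl_J F)) (hc : IsCocycle₂ c)
    (hc' : IsCocycle₂ c') :
    gl_sumJ inv F H (c - c') = gl_sumJ inv F H c - gl_sumJ inv F H c' :=
  map_sub (fof_sumHom hinv H) ⟨c, hc⟩ ⟨c', hc'⟩

include hinv in
theorem fof_sumJ_cob (c : ↥H × ↥H → Additive (gl_J F)) (hc : IsCoboundary₂ c) :
    gl_sumJ inv F H c = 0 := by
  unfold gl_sumJ
  rw [finsum_eq_zero_of_forall_eq_zero]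
  intro r
  haveI : Fact (r : ℕ).Prime := ⟨r.2⟩
  unfold gl_sumPJ
  rw [finsum_eq_zero_of_forall_eq_zero]
  intro v
  exact fof_invAtJ_cob hinv H _ _ c hc

include hinv in
/-- Cohomologous idele-valued cocycles have the same sum of invariants. -/
theorem fof_sumJ_congr (c c' : ↥H × ↥H → Additive (gl_J F)) (hc : IsCocycle₂ c)
    (hc' : IsCocycle₂ c') (h : IsCoboundary₂ (fun x => c x - c' x)) :
    gl_sumJ inv F H c = gl_sumJ inv F H c' := by
  have h1 := fof_sumJ_cob hinv H _ h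
  have h2 := fof_sumJ_sub hinv H c c' hc hc'
  have e : (fun x => c x - c' x) = c - c' := rfl
  rw [e, h2] at h1
  exact sub_eq_zero.1 h1

theorem fof_sumJ_diag (c₀ : ↥H × ↥H → Additive Fˣ) (c' : ↥H × ↥H → Additive (gl_J F))
    (h : ∀ x (r : Nat.Primes), (c' x).toMul.1 r = gl_diagP F r (c₀ x).toMul) :
    gl_sumJ inv F H c' = gl_sumF inv F H c₀ := by
  unfold gl_sumJ gl_sumF
  refine finsum_congr (fun r => ?_)
  haveI : Fact (r : ℕ).Prime := ⟨r.2⟩
  unfold gl_sumPJ gl_sumPF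
  refine finsum_congr (fun v => ?_)
  unfold gl_invAtJ gl_invAtF
  rw [glb_locJ_diag H _ c₀ c' h]

end add

/-! ### Inflation and restriction -/

section infres

variable {inv : lcf_InvType} (hinv : lcf_IsInvSystem inv)
  {F F' : Type} [Field F] [Field F'] [NumberField F] [NumberField F']
  {H : Subgroup (F ≃ₐ[ℚ] F)} {H' : Subgroup (F' ≃ₐ[ℚ] F')}

include hinv in
theorem fof_sumJ_infl (t : gl_Tower F F' H H') (c : ↥H × ↥H → Additive (gl_J F))
    (hc : IsCocycle₂ c) : gl_sumJ inv F' H' (gl_inflJ t c) = gl_sumJ inv F H c :=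
  finsum_congr (fun r => ((gis_main inv hinv F F' H H' t).2 c hc).2 r)

include hinv in
theorem fof_sumJ_res (H₁ : Subgroup (F ≃ₐ[ℚ] F)) (h : H₁ ≤ H)
    (c : ↥H × ↥H → Additive (gl_J F)) (hc : IsCocycle₂ c) :
    gl_sumJ inv F H₁ (gl_res₂ h c) = (H₁.relIndex H) • gl_sumJ inv F H c := by
  unfold gl_sumJ
  rw [smul_finsum' _ (gsup_main inv hinv F H c hc)]
  exact finsum_congr (fun r => ((grs_main inv hinv F H H₁ h).2 c hc).2 r)

end infres

end

end Fermat.Agent.S55
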