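/-
S55 (fifth wave), GLOBAL side, package [IDL-DIAG] (helper1): every `a ∈ Fˣ` of a number field
is a unit at almost all primes, i.e. the diagonal family `(gl_diagP F q a)_q` is an idele.

Proof: `a` is a root of its minimal polynomial `P` over `ℚ`; for a prime `q` which divides no
denominator of a coefficient of `P`, every `ι a` (`ι : F → Ω_q`) is a root of a monic polynomial
whose coefficients have norm `≤ 1`, hence `‖ι a‖ ≤ 1` by the ultrametric inequality.  The same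
for `a⁻¹`.
-/
import Mathlib
import Fermat.Agent.S55.Global.Defs

set_option autoImplicit false

namespace Fermat.Agent.S55

open Polynomial

/-- A root of a monic polynomial with coefficients of norm `≤ 1` over an ultrametric normed
field has norm `≤ 1`. -/
theorem gdiag_norm_le_one {K : Type*} [NormedField K] [IsUltrametricDist K] (P : K[X])
    (hP : P.Monic) (hc : ∀ i, ‖P.coeff i‖ ≤ 1) (x : K) (hx : P.eval x = 0) : ‖x‖ ≤ 1 := by
  by_contra hlt
  rw [not_le] at hlt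
  have hx0 : 0 < ‖x‖ := lt_trans one_pos hlt
  set n := P.natDegree with hn
  have hn0 : n ≠ 0 := by
    intro h0
    have h1 : P = 1 := by
      have := Polynomial.eq_C_of_natDegree_eq_zero (hn ▸ h0 : P.natDegree = 0)
      rw [this]
      have hlead : P.coeff 0 = 1 := by
        have := hP.coeff_natDegree
        rwa [← hn, h0] at this
      rw [hlead]; simp
    rw [h1] at hx
    simp at hx
  have hsum : P.eval x = x ^ n + ∑ i ∈ Finset.range n, P.coeff i * x ^ i := by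
    rw [Polynomial.eval_eq_sum_range, Finset.sum_range_succ, ← hn, hP.coeff_natDegree, one_mul,
      add_comm]
  have hxn : x ^ n = - ∑ i ∈ Finset.range n, P.coeff i * x ^ i := by
    rw [hsum] at hx
    exact eq_neg_of_add_eq_zero_left hx
  have hbound : ‖∑ i ∈ Finset.range n, P.coeff i * x ^ i‖ ≤ ‖x‖ ^ (n - 1) := by
    apply IsUltrametricDist.norm_sum_le_of_forall_le_of_nonneg (pow_nonneg hx0.le _)
    intro i hi
    rw [Finset.mem_range] at hi
    rw [norm_mul, norm_pow]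
    calc ‖P.coeff i‖ * ‖x‖ ^ i ≤ 1 * ‖x‖ ^ i :=
          mul_le_mul_of_nonneg_right (hc i) (pow_nonneg hx0.le _)
      _ = ‖x‖ ^ i := one_mul _
      _ ≤ ‖x‖ ^ (n - 1) := pow_le_pow_right₀ hlt.le (by omega)
  have h1 : ‖x‖ ^ n ≤ ‖x‖ ^ (n - 1) := by
    rw [← norm_pow, hxn, norm_neg]
    exact hbound
  have h2 : ‖x‖ ^ (n - 1) < ‖x‖ ^ n := pow_lt_pow_right₀ hlt (by omega)
  exact absurd h1 (not_le.mpr h2)

/-- The primes dividing a denominator of a coefficient of the minimal polynomial of `a`. -/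
def gdiag_bad {F : Type*} [Field F] [Algebra ℚ F] (a : F) : Set Nat.Primes :=
  {q | ∃ i, (q : ℕ) ∣ ((minpoly ℚ a).coeff i).den}

theorem gdiag_bad_finite {F : Type*} [Field F] [Algebra ℚ F] (a : F) :
    (gdiag_bad a).Finite := by
  have hfin : (⋃ i ∈ (minpoly ℚ a).support,
      {q : Nat.Primes | (q : ℕ) ∣ ((minpoly ℚ a).coeff i).den}).Finite := by
    refine Set.Finite.biUnion (Finset.finite_toSet _) (fun i _ => ?_)
    have hd : ((minpoly ℚ a).coeff i).den ≠ 0 := Rat.den_nz _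
    have : {q : Nat.Primes | (q : ℕ) ∣ ((minpoly ℚ a).coeff i).den} ⊆
        (fun q : Nat.Primes => (q : ℕ)) ⁻¹'
          (↑(((minpoly ℚ a).coeff i).den.primeFactors) : Set ℕ) := by
      intro q hq
      simp only [Set.mem_preimage, Finset.mem_coe, Nat.mem_primeFactors]
      exact ⟨q.2, hq, hd⟩
    refine Set.Finite.subset ?_ this
    exact Set.Finite.preimage (fun x _ y _ h => Subtype.ext h) (Finset.finite_toSet _)
  refine hfin.subset ?_
  rintro q ⟨i, hi⟩
  simp only [Set.mem_iUnion]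
  refine ⟨i, ?_, hi⟩
  rw [Polynomial.mem_support_iff]
  intro h0
  rw [h0] at hi
  simp only [Rat.den_zero, Nat.dvd_one] at hi
  exact q.2.one_lt.ne' hi

/-- Norm of a rational number in `Ω_q`. -/
theorem gdiag_norm_rat (q : ℕ) [Fact q.Prime] (r : ℚ) (h : ¬ q ∣ r.den) :
    ‖algebraMap ℚ (PadicAlgCl q) r‖ ≤ 1 := by
  have h1 : algebraMap ℚ (PadicAlgCl q) r =
      algebraMap ℚ_[q] (PadicAlgCl q) (algebraMap ℚ ℚ_[q] r) :=
    IsScalarTower.algebraMap_apply ℚ ℚ_[q] (PadicAlgCl q) r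
  rw [h1]
  have h2 : ‖algebraMap ℚ_[q] (PadicAlgCl q) (algebraMap ℚ ℚ_[q] r)‖ = ‖algebraMap ℚ ℚ_[q] r‖ :=
    PadicAlgCl.norm_extends q _
  rw [h2]
  have h3 : algebraMap ℚ ℚ_[q] r = (r : ℚ_[q]) := rfl
  rw [h3]
  exact Padic.norm_rat_le_one h

/-- Outside the bad primes of `a`, every embedding of `a` has norm `≤ 1`. -/
theorem gdiag_norm_emb_le_one {F : Type*} [Field F] [Algebra ℚ F] [Algebra.IsAlgebraic ℚ F]
    (a : F) (q : Nat.Primes) (hq : q ∉ gdiag_bad a)
    (ι : letI : Fact (q : ℕ).Prime := ⟨q.2⟩; F →ₐ[ℚ] PadicAlgCl (q : ℕ)) :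
    letI : Fact (q : ℕ).Prime := ⟨q.2⟩
    ‖ι a‖ ≤ 1 := by
  haveI : Fact (q : ℕ).Prime := ⟨q.2⟩
  have hint : IsIntegral ℚ a := (Algebra.IsAlgebraic.isAlgebraic a).isIntegral
  refine gdiag_norm_le_one ((minpoly ℚ a).map (algebraMap ℚ (PadicAlgCl (q : ℕ))))
    ((minpoly.monic hint).map _) (fun i => ?_) (ι a) ?_
  · rw [Polynomial.coeff_map]
    refine gdiag_norm_rat (q : ℕ) _ (fun h => hq ⟨i, h⟩)
  · rw [Polynomial.eval_map, ← Polynomial.aeval_def, Polynomial.aeval_algHom_apply,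
      minpoly.aeval, map_zero]

/-- Outside the bad primes of `a` and `a⁻¹`, every embedding of `a` has norm `1`. -/
theorem gdiag_norm_emb_eq_one {F : Type*} [Field F] [Algebra ℚ F] [Algebra.IsAlgebraic ℚ F]
    (a : Fˣ) (q : Nat.Primes) (hq : q ∉ gdiag_bad (a : F))
    (hq' : q ∉ gdiag_bad ((a⁻¹ : Fˣ) : F))
    (ι : letI : Fact (q : ℕ).Prime := ⟨q.2⟩; F →ₐ[ℚ] PadicAlgCl (q : ℕ)) :
    letI : Fact (q : ℕ).Prime := ⟨q.2⟩
    ‖ι (a : F)‖ = 1 := by
  haveI : Fact (q : ℕ).Prime := ⟨q.2⟩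
  have h1 := gdiag_norm_emb_le_one (a : F) q hq ι
  have h2 := gdiag_norm_emb_le_one ((a⁻¹ : Fˣ) : F) q hq' ι
  have h3 : ι (a : F) * ι ((a⁻¹ : Fˣ) : F) = 1 := by
    rw [← map_mul, Units.mul_inv, map_one]
  have h4 : ‖ι (a : F)‖ * ‖ι ((a⁻¹ : Fˣ) : F)‖ = 1 := by
    rw [← norm_mul, h3, norm_one]
  refine le_antisymm h1 ?_
  by_contra hlt
  rw [not_le] at hlt
  have h5 : ‖ι (a : F)‖ * ‖ι ((a⁻¹ : Fˣ) : F)‖ < 1 := by
    calc ‖ι (a : F)‖ * ‖ι ((a⁻¹ : Fˣ) : F)‖ ≤ ‖ι (a : F)‖ * 1 :=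
          mul_le_mul_of_nonneg_left h2 (norm_nonneg _)
      _ = ‖ι (a : F)‖ := mul_one _
      _ < 1 := hlt
  exact absurd h4 h5.ne

/-- The diagonal image of `a` is a unit at `q` outside the bad primes. -/
theorem gdiag_mem_UP {F : Type*} [Field F] [Algebra ℚ F] [Algebra.IsAlgebraic ℚ F]
    (a : Fˣ) (q : Nat.Primes) (hq : q ∉ gdiag_bad (a : F))
    (hq' : q ∉ gdiag_bad ((a⁻¹ : Fˣ) : F)) : gl_diagP F q a ∈ gl_UP F q := by
  intro ι
  exact gdiag_norm_emb_eq_one a q hq hq' ι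

/-- The set of primes where `a` is not a unit is finite (`F` algebraic over `ℚ`). -/
theorem gdiag_finite {F : Type*} [Field F] [Algebra ℚ F] [Algebra.IsAlgebraic ℚ F] (a : Fˣ) :
    {q : Nat.Primes | gl_diagP F q a ∉ gl_UP F q}.Finite := by
  refine ((gdiag_bad_finite (a : F)).union (gdiag_bad_finite ((a⁻¹ : Fˣ) : F))).subset ?_
  intro q hq
  by_contra h
  simp only [Set.mem_union, not_or] at h
  exact hq (gdiag_mem_UP a q h.1 h.2)

/-- **[IDL-DIAG]** every `a ∈ Fˣ` defines an idele. -/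
theorem gdiag_main : gl_DiagStatement := by
  intro F _ _ a
  exact gdiag_finite a

/-- The diagonal embedding `Fˣ → J_F` of a number field (or any algebraic extension of `ℚ`). -/
noncomputable def gdiag_hom (F : Type*) [Field F] [Algebra ℚ F] [Algebra.IsAlgebraic ℚ F] :
    Fˣ →* gl_J F where
  toFun a := ⟨fun q => gl_diagP F q a, gdiag_finite a⟩
  map_one' := by
    apply Subtype.ext; funext q; exact map_one _
  map_mul' a b := by
    apply Subtype.ext; funext q; exact map_mul _ _ _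

@[simp] theorem gdiag_hom_apply (F : Type*) [Field F] [Algebra ℚ F] [Algebra.IsAlgebraic ℚ F]
    (a : Fˣ) (q : Nat.Primes) : (gdiag_hom F a).1 q = gl_diagP F q a := rfl

theorem gdiag_hom_mem_P (F : Type*) [Field F] [Algebra ℚ F] [Algebra.IsAlgebraic ℚ F]
    (a : Fˣ) : gdiag_hom F a ∈ gl_P F := ⟨a, fun _ => rfl⟩

theorem gdiag_mem_P_iff (F : Type*) [Field F] [Algebra ℚ F] [Algebra.IsAlgebraic ℚ F]
    (x : gl_J F) : x ∈ gl_P F ↔ ∃ a : Fˣ, x = gdiag_hom F a := by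
  constructor
  · rintro ⟨a, ha⟩
    exact ⟨a, Subtype.ext (funext ha)⟩
  · rintro ⟨a, rfl⟩
    exact gdiag_hom_mem_P F a

end Fermat.Agent.S55
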