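/-
S55 (fifth wave), GLOBAL side, package [DESCENT] (helper1): Galois descent for ideles and idele
classes, `gdsc_main : gl_DescentStatement`.

For a number field `L`, a subgroup `H` of `Aut(L/ℚ)` and `M = L^H` (so `L/M` is Galois with
group `H`, Artin):
* every embedding `M → Ω_q` extends to `L` (`gdsc_exists_extend`), and two embeddings of `L` which
  agree on `M` differ by an element of `H` (`gdsc_ext_conj`);
* hence `J_M → J_L` is injective with image the `H`-invariant ideles
  (`gdsc_resJ_injective`, `gdsc_mem_range_resJ_iff`), units corresponding to units;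
* an idele `x` whose class is `H`-invariant gives the 1-cocycle `τ ↦ τx / x ∈ Lˣ`, which is a
  coboundary by Hilbert 90 (Mathlib), so `x` is an invariant idele times a principal idele
  (`gdsc_exists_invariant`);
* a principal idele of `L` which comes from `J_M` is the diagonal image of an element of `Mˣ`.
-/
import Mathlib
import Fermat.Agent.S55.Global.Defs
import Fermat.Agent.S55.Global.Diag

set_option autoImplicit false
set_option linter.style.haveILetI false

namespace Fermat.Agent.S55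

open IntermediateField

section
variable (L : Type) [Field L] [NumberField L] (H : Subgroup (L ≃ₐ[ℚ] L))

instance gdsc_isGalois : IsGalois ↥(fixedField H) L := IsGalois.of_fixed_field L H

/-- An automorphism of `L` over the fixed field of `H` is (the extension of scalars of) an
element of `H`. -/
theorem gdsc_restrict_mem (σ : L ≃ₐ[↥(fixedField H)] L) :
    (σ.restrictScalars ℚ : L ≃ₐ[ℚ] L) ∈ H := by
  have h1 : (σ.restrictScalars ℚ : L ≃ₐ[ℚ] L) ∈ fixingSubgroup (fixedField H) := by
    rw [IntermediateField.mem_fixingSubgroup_iff]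
    intro x hx
    exact σ.commutes ⟨x, hx⟩
  rwa [IntermediateField.fixingSubgroup_fixedField] at h1

/-- Two field embeddings of `L` (into any field) which agree on the fixed field of `H` differ by
an element of `H`. -/
theorem gdsc_ext_conj {Ω : Type*} [Field Ω] [Algebra ℚ Ω] (ι₁ ι₂ : L →ₐ[ℚ] Ω)
    (h : (ι₁.comp (fixedField H).val : ↥(fixedField H) →ₐ[ℚ] Ω) =
      ι₂.comp (fixedField H).val) :
    ∃ τ ∈ H, ι₂ = ι₁.comp (τ : L →ₐ[ℚ] L) := by
  letI : Algebra L Ω := ι₁.toRingHom.toAlgebra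
  let ι₂' : L →ₐ[↥(fixedField H)] Ω :=
    { ι₂.toRingHom with
      commutes' := fun m => by
        show ι₂ (m : L) = ι₁ (m : L)
        exact (DFunLike.congr_fun h m).symm }
  let σ : L ≃ₐ[↥(fixedField H)] L := Normal.algHomEquivAut ↥(fixedField H) Ω L ι₂'
  refine ⟨σ.restrictScalars ℚ, gdsc_restrict_mem L H σ, ?_⟩
  have h2 : (Normal.algHomEquivAut ↥(fixedField H) Ω L).symm σ = ι₂' :=
    (Normal.algHomEquivAut ↥(fixedField H) Ω L).symm_apply_apply ι₂'
  ext x
  have h3 := DFunLike.congr_fun h2 x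
  show ι₂ x = ι₁ (σ x)
  exact h3.symm

/-- An element of `H` fixes the fixed field: `(ι ∘ τ)|_M = ι|_M`. -/
theorem gdsc_comp_val {Ω : Type*} [Field Ω] [Algebra ℚ Ω] (ι : L →ₐ[ℚ] Ω)
    (τ : L ≃ₐ[ℚ] L) (hτ : τ ∈ H) :
    ((ι.comp (τ : L →ₐ[ℚ] L)).comp (fixedField H).val : ↥(fixedField H) →ₐ[ℚ] Ω) =
      ι.comp (fixedField H).val := by
  ext x
  show ι (τ (x : L)) = ι (x : L)
  rw [(IntermediateField.mem_fixedField_iff H (x : L)).1 x.2 τ hτ]

variable (q : ℕ) [Fact q.Prime]

/-- Every embedding of a subfield into `Ω_q` extends to `L`. -/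
theorem gdsc_exists_extend (M : IntermediateField ℚ L) (ιM : ↥M →ₐ[ℚ] PadicAlgCl q) :
    ∃ ι : L →ₐ[ℚ] PadicAlgCl q, (ι.comp M.val : ↥M →ₐ[ℚ] PadicAlgCl q) = ιM := by
  obtain ⟨φ, hφ⟩ := IntermediateField.exists_algHom_of_splits (F := ℚ) (E := L)
    (K := PadicAlgCl q) (L := M)
    (fun s => ⟨(Algebra.IsAlgebraic.isAlgebraic s).isIntegral, IsAlgClosed.splits _⟩) ιM
  exact ⟨φ, hφ⟩

/-- A chosen extension of an embedding of a subfield. -/
noncomputable def gdsc_ext (M : IntermediateField ℚ L) (ιM : ↥M →ₐ[ℚ] PadicAlgCl q) :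
    L →ₐ[ℚ] PadicAlgCl q := Classical.choose (gdsc_exists_extend L q M ιM)

theorem gdsc_ext_comp (M : IntermediateField ℚ L) (ιM : ↥M →ₐ[ℚ] PadicAlgCl q) :
    ((gdsc_ext L q M ιM).comp M.val : ↥M →ₐ[ℚ] PadicAlgCl q) = ιM :=
  Classical.choose_spec (gdsc_exists_extend L q M ιM)

/-- The semi-local restriction map is injective. -/
theorem gdsc_resq_injective (M : IntermediateField ℚ L) :
    Function.Injective (gl_resq L M q) := by
  intro f g hfg
  apply Subtype.ext
  funext ιM
  have h := congrArg (fun x : gl_Jq q L => x.1 (gdsc_ext L q M ιM)) hfg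
  simp only [gl_resq_apply, gdsc_ext_comp] at h
  exact h

/-- `f` is a unit iff its image in the semi-local ideles of `L` is. -/
theorem gdsc_resq_mem_Uq_iff (M : IntermediateField ℚ L) (f : gl_Jq q ↥M) :
    gl_resq L M q f ∈ gl_Uq q L ↔ f ∈ gl_Uq q ↥M := by
  constructor
  · intro h ιM
    have := h (gdsc_ext L q M ιM)
    rwa [gl_resq_apply, gdsc_ext_comp] at this
  · exact gl_resq_mem_Uq L M q f

/-- The image of the restriction map consists of `H`-invariant elements. -/
theorem gdsc_smul_resq (τ : L ≃ₐ[ℚ] L) (hτ : τ ∈ H) (g : gl_Jq q ↥(fixedField H)) :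
    τ • gl_resq L (fixedField H) q g = gl_resq L (fixedField H) q g := by
  apply Subtype.ext
  funext ι
  exact congrArg g.1 (gdsc_comp_val L H ι τ hτ)

/-- Semi-local Galois descent: an `H`-invariant semi-local idele of `L` comes from the fixed
field of `H`. -/
theorem gdsc_exists_resq (f : gl_Jq q L) (hf : ∀ τ ∈ H, τ • f = f) :
    ∃ g : gl_Jq q ↥(fixedField H), gl_resq L (fixedField H) q g = f := by
  have key : ∀ ι₁ ι₂ : L →ₐ[ℚ] PadicAlgCl q,
      (ι₁.comp (fixedField H).val : ↥(fixedField H) →ₐ[ℚ] PadicAlgCl q) =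
        ι₂.comp (fixedField H).val → f.1 ι₂ = f.1 ι₁ := by
    intro ι₁ ι₂ h
    obtain ⟨τ, hτ, rfl⟩ := gdsc_ext_conj L H ι₁ ι₂ h
    have := congrArg (fun x : gl_Jq q L => x.1 ι₁) (hf τ hτ)
    exact this
  refine ⟨⟨fun ιM => f.1 (gdsc_ext L q (fixedField H) ιM), ?_⟩, ?_⟩
  · intro τ ιM
    show f.1 (gdsc_ext L q (fixedField H) (gl_twist q ↥(fixedField H) τ ιM)) = _
    rw [← f.2 τ (gdsc_ext L q (fixedField H) ιM)]
    apply key
    refine Eq.trans ?_ (gdsc_ext_comp L q (fixedField H) _).symm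
    ext x
    show τ ((gdsc_ext L q (fixedField H) ιM) (x : L)) = τ (ιM x)
    have := DFunLike.congr_fun (gdsc_ext_comp L q (fixedField H) ιM) x
    rw [← this]
    rfl
  · apply Subtype.ext
    funext ι
    show f.1 (gdsc_ext L q (fixedField H) (ι.comp (fixedField H).val)) = f.1 ι
    symm
    apply key
    exact gdsc_ext_comp L q (fixedField H) _

end

/-! ### Ideles -/

section ideles

variable (L : Type) [Field L] [NumberField L] (H : Subgroup (L ≃ₐ[ℚ] L))

/-- The component at `q : Nat.Primes` of the inclusion of ideles is injective. -/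
theorem gdsc_resP_injective (M : IntermediateField ℚ L) (q : Nat.Primes) :
    Function.Injective (gl_resP L M q) :=
  @gdsc_resq_injective L _ _ (q : ℕ) ⟨q.2⟩ M

theorem gdsc_resP_mem_UP_iff (M : IntermediateField ℚ L) (q : Nat.Primes) (f : gl_JP ↥M q) :
    gl_resP L M q f ∈ gl_UP L q ↔ f ∈ gl_UP ↥M q :=
  @gdsc_resq_mem_Uq_iff L _ _ (q : ℕ) ⟨q.2⟩ M f

/-- The inclusion of ideles is injective. -/
theorem gdsc_resJ_injective (M : IntermediateField ℚ L) : Function.Injective (gl_resJ L M) := by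
  intro x y hxy
  apply Subtype.ext
  funext q
  apply gdsc_resP_injective L M q
  have := congrArg (fun z : gl_J L => z.1 q) hxy
  exact this

/-- The image of the inclusion of ideles consists of `H`-invariant ideles. -/
theorem gdsc_smul_resJ (τ : L ≃ₐ[ℚ] L) (hτ : τ ∈ H) (y : gl_J ↥(fixedField H)) :
    τ • gl_resJ L (fixedField H) y = gl_resJ L (fixedField H) y := by
  apply Subtype.ext
  funext q
  exact @gdsc_smul_resq L _ _ H (q : ℕ) ⟨q.2⟩ τ hτ (y.1 q)

/-- Galois descent for ideles: an `H`-invariant idele of `L` comes from the fixed field. -/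
theorem gdsc_exists_resJ (x : gl_J L) (hx : ∀ τ ∈ H, τ • x = x) :
    ∃ y : gl_J ↥(fixedField H), gl_resJ L (fixedField H) y = x := by
  have h1 : ∀ q : Nat.Primes, ∃ g : gl_JP ↥(fixedField H) q,
      gl_resP L (fixedField H) q g = x.1 q := by
    intro q
    refine @gdsc_exists_resq L _ _ H (q : ℕ) ⟨q.2⟩ (x.1 q) (fun τ hτ => ?_)
    have := congrArg (fun z : gl_J L => z.1 q) (hx τ hτ)
    exact this
  choose g hg using h1
  refine ⟨⟨g, ?_⟩, ?_⟩
  · refine x.2.subset ?_
    intro q hq h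
    apply hq
    rw [← gdsc_resP_mem_UP_iff L (fixedField H) q (g q), hg q]
    exact h
  · apply Subtype.ext
    funext q
    exact hg q

/-- `x` is in the image of the ideles of the fixed field iff it is `H`-invariant. -/
theorem gdsc_mem_range_resJ_iff (x : gl_J L) :
    x ∈ (gl_resJ L (fixedField H)).range ↔ ∀ τ ∈ H, τ • x = x := by
  constructor
  · rintro ⟨y, rfl⟩ τ hτ
    exact gdsc_smul_resJ L H τ hτ y
  · intro hx
    obtain ⟨y, hy⟩ := gdsc_exists_resJ L H x hx
    exact ⟨y, hy⟩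

/-- The diagonal embedding at a single prime is injective. -/
theorem gdsc_diagP_injective (q : Nat.Primes) : Function.Injective (gl_diagP L q) := by
  intro a b hab
  haveI : Fact (q : ℕ).Prime := ⟨q.2⟩
  obtain ⟨ι, -⟩ := gdsc_exists_extend L (q : ℕ) ⊥ (Algebra.ofId ℚ (PadicAlgCl (q : ℕ)) |>.comp
    (IntermediateField.botEquiv ℚ L).toAlgHom)
  have h1 := congrArg (fun z : gl_JP L q => ((z.1 ι : (PadicAlgCl (q : ℕ))ˣ) : PadicAlgCl (q : ℕ)))
    hab
  have h2 : ι (a : L) = ι (b : L) := h1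
  exact Units.ext (ι.injective h2)

end ideles

/-! ### Idele classes -/

section classes

variable (L : Type) [Field L] [NumberField L] (H : Subgroup (L ≃ₐ[ℚ] L))

/-- An element of `H` as an automorphism of `L` over the fixed field of `H`. -/
noncomputable def gdsc_lift (τ : L ≃ₐ[ℚ] L) (hτ : τ ∈ H) : L ≃ₐ[↥(fixedField H)] L :=
  IntermediateField.fixingSubgroupEquiv (fixedField H)
    ⟨τ, (IntermediateField.le_iff_le H (fixedField H)).1 le_rfl hτ⟩

@[simp] theorem gdsc_lift_apply (τ : L ≃ₐ[ℚ] L) (hτ : τ ∈ H) (x : L) :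
    gdsc_lift L H τ hτ x = τ x := rfl

/-- The Galois action on a principal idele. -/
theorem gdsc_smul_diag (τ : L ≃ₐ[ℚ] L) (a : Lˣ) :
    τ • gdiag_hom L a = gdiag_hom L (Units.map (τ : L →* L) a) := by
  apply Subtype.ext
  funext q
  exact gl_smul_diagP L τ q a

/-- The diagonal embedding into the ideles is injective. -/
theorem gdsc_diag_injective : Function.Injective (gdiag_hom L) := by
  intro a b hab
  have h2 : (2 : ℕ).Prime := Nat.prime_two
  apply gdsc_diagP_injective L ⟨2, h2⟩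
  exact congrArg (fun z : gl_J L => z.1 ⟨2, h2⟩) hab

theorem gdsc_comm1 {G : Type*} [CommGroup G] (a b c : G) :
    a⁻¹ * c = b⁻¹ * c * (a⁻¹ * b) := by
  rw [mul_comm a⁻¹ b, ← mul_assoc, mul_assoc b⁻¹ c b, mul_comm c b, ← mul_assoc, inv_mul_cancel,
    one_mul, mul_comm]

theorem gdsc_comm2 {G : Type*} [CommGroup G] (x u v : G) : x * (u / v) * u⁻¹ = x * v⁻¹ := by
  rw [div_eq_mul_inv, mul_assoc, mul_comm u v⁻¹, mul_assoc, mul_inv_cancel, mul_one]

/-- Hilbert 90 for idele classes, first step: an idele whose class is `H`-invariant is an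
`H`-invariant idele times a principal idele. -/
theorem gdsc_exists_invariant (x : gl_J L)
    (hx : ∀ τ ∈ H, (QuotientGroup.mk (τ • x) : gl_C L) = QuotientGroup.mk x) :
    ∃ β : Lˣ, ∀ τ ∈ H, τ • (x * (gdiag_hom L β)⁻¹) = x * (gdiag_hom L β)⁻¹ := by
  -- the cocycle
  have h1 : ∀ τ : L ≃ₐ[ℚ] L, ∃ a : Lˣ, τ ∈ H → x⁻¹ * τ • x = gdiag_hom L a := by
    intro τ
    by_cases hτ : τ ∈ H
    · have h := (QuotientGroup.eq (s := gl_P L)).1 (hx τ hτ).symm
      obtain ⟨a, ha⟩ := (gdiag_mem_P_iff L _).1 h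
      exact ⟨a, fun _ => ha⟩
    · exact ⟨1, fun h => absurd h hτ⟩
  choose a ha using h1
  let f : (L ≃ₐ[↥(fixedField H)] L) → Lˣ := fun σ => a (σ.restrictScalars ℚ)
  have hf : groupCohomology.IsMulCocycle₁ f := by
    intro σ ρ
    apply gdsc_diag_injective L
    have hσ := ha _ (gdsc_restrict_mem L H σ)
    have hρ := ha _ (gdsc_restrict_mem L H ρ)
    have hσρ := ha _ (gdsc_restrict_mem L H (σ * ρ))
    show gdiag_hom L (a ((σ * ρ).restrictScalars ℚ)) =
      gdiag_hom L (σ • a (ρ.restrictScalars ℚ) * a (σ.restrictScalars ℚ))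
    rw [← hσρ, map_mul, ← hσ]
    have h3 : gdiag_hom L (σ • a (ρ.restrictScalars ℚ)) =
        (σ.restrictScalars ℚ : L ≃ₐ[ℚ] L) • gdiag_hom L (a (ρ.restrictScalars ℚ)) := by
      rw [gdsc_smul_diag]
      rfl
    rw [h3, ← hρ]
    have h4 : ((σ * ρ).restrictScalars ℚ : L ≃ₐ[ℚ] L) =
        (σ.restrictScalars ℚ : L ≃ₐ[ℚ] L) * (ρ.restrictScalars ℚ : L ≃ₐ[ℚ] L) := rfl
    rw [h4, mul_smul, smul_mul', smul_inv']
    exact gdsc_comm1 _ _ _
  obtain ⟨β, hβ⟩ := groupCohomology.isMulCoboundary₁_of_isMulCocycle₁_of_aut_to_units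
    (K := ↥(fixedField H)) (L := L) f hf
  refine ⟨β, fun τ hτ => ?_⟩
  have h5 := hβ (gdsc_lift L H τ hτ)
  have h6 : (gdsc_lift L H τ hτ).restrictScalars ℚ = τ := by
    ext y; rfl
  have h7 : f (gdsc_lift L H τ hτ) = a τ := by
    show a ((gdsc_lift L H τ hτ).restrictScalars ℚ) = a τ
    rw [h6]
  rw [h7] at h5
  have h8 : (gdsc_lift L H τ hτ) • β = Units.map (τ : L →* L) β := by
    apply Units.ext; rfl
  rw [h8] at h5
  have h9 := ha τ hτ
  rw [← h5, map_div] at h9
  rw [smul_mul', smul_inv', gdsc_smul_diag]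
  have h10 : τ • x = x * (gdiag_hom L (Units.map (τ : L →* L) β) / gdiag_hom L β) := by
    rw [← h9, mul_inv_cancel_left]
  rw [h10]
  exact gdsc_comm2 _ _ _

/-- **[DESCENT]** Galois descent for idele classes. -/
theorem gdsc_main : gl_DescentStatement := by
  intro L _ _ H
  refine ⟨?_, fun c => ⟨?_, ?_⟩⟩
  · -- injectivity
    rw [injective_iff_map_eq_one]
    intro c hc
    induction c using QuotientGroup.induction_on with
    | H z =>
      rw [gl_resC_mk] at hc
      have h1 : gl_resJ L (fixedField H) z ∈ gl_P L := (QuotientGroup.eq_one_iff _).1 hc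
      obtain ⟨b, hb⟩ := (gdiag_mem_P_iff L _).1 h1
      -- `b` is fixed by `H`
      have h2 : ∀ τ ∈ H, τ (b : L) = (b : L) := by
        intro τ hτ
        have h3 := gdsc_smul_resJ L H τ hτ z
        rw [hb, gdsc_smul_diag] at h3
        have h4 := gdsc_diag_injective L h3
        exact congrArg (fun u : Lˣ => (u : L)) h4
      have h5 : (b : L) ∈ fixedField H := (IntermediateField.mem_fixedField_iff H _).2 h2
      have h5' : ((b⁻¹ : Lˣ) : L) ∈ fixedField H := by
        rw [Units.val_inv_eq_inv_val]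
        exact (fixedField H).inv_mem h5
      let b' : (↥(fixedField H))ˣ :=
        ⟨⟨(b : L), h5⟩, ⟨((b⁻¹ : Lˣ) : L), h5'⟩, Subtype.ext (by simp), Subtype.ext (by simp)⟩
      have h6 : Units.map ((fixedField H).val : ↥(fixedField H) →* L) b' = b := by
        apply Units.ext; rfl
      rw [QuotientGroup.eq_one_iff]
      refine ⟨b', fun q => ?_⟩
      apply gdsc_resP_injective L (fixedField H) q
      rw [gl_resP_diagP, h6]
      have := congrArg (fun u : gl_J L => u.1 q) hb
      exact this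
  · -- invariant classes come from the fixed field
    intro hc
    induction c using QuotientGroup.induction_on with
    | H x =>
      obtain ⟨β, hβ⟩ := gdsc_exists_invariant L H x (fun τ hτ => hc τ hτ)
      obtain ⟨y, hy⟩ := gdsc_exists_resJ L H _ hβ
      refine ⟨QuotientGroup.mk y, ?_⟩
      rw [gl_resC_mk, hy]
      rw [QuotientGroup.eq]
      have : (x * (gdiag_hom L β)⁻¹)⁻¹ * x = gdiag_hom L β := by
        rw [mul_inv_rev, inv_inv, mul_assoc, inv_mul_cancel, mul_one]
      rw [this]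
      exact gdiag_hom_mem_P L β
  · -- classes from the fixed field are invariant
    rintro ⟨d, rfl⟩ τ hτ
    induction d using QuotientGroup.induction_on with
    | H y =>
      rw [gl_resC_mk, gl_smul_mk, gdsc_smul_resJ L H τ hτ y]

end classes

end Fermat.Agent.S55
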