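import Mathlib
import Fermat.Agent.S55.Global.FundOfSum
import Fermat.Agent.S55.Global.GalDescent

/-!
# S55, global side, assembly [FUND-OF], part 2: exactness at the ideles

If the class in `H²(H, C_F)` of an idele-valued 2-cocycle `x` of the `p`-group `H` is trivial,
then `x` is the sum of a principal cocycle and a coboundary, hence (by [RECIP]) the sum of its
local invariants vanishes.  Prefix `fof_`.
-/

set_option autoImplicit false
set_option linter.unusedSectionVars false
set_option linter.unusedVariables false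
set_option linter.style.longLine false
set_option linter.style.haveILetI false

namespace Fermat.Agent.S55

open groupCohomology

noncomputable section

section exact

variable {F : Type} [Field F] [NumberField F] (H : Subgroup (F ≃ₐ[ℚ] F))

/-- The diagonal embedding, additively. -/
def fof_diagA (F : Type) [Field F] [NumberField F] : Additive Fˣ →+ Additive (gl_J F) :=
  MonoidHom.toAdditive (gdiag_hom F)

theorem fof_diagA_apply (a : Additive Fˣ) :
    fof_diagA F a = Additive.ofMul (gdiag_hom F a.toMul) := rfl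

theorem fof_diagA_injective : Function.Injective (fof_diagA F) := by
  intro a b hab
  have := gdsc_diag_injective F (congrArg Additive.toMul hab)
  exact congrArg Additive.ofMul this

theorem fof_diagA_smul (g : ↥H) (a : Additive Fˣ) :
    fof_diagA F (g • a) = g • fof_diagA F a := by
  have h := gdsc_smul_diag F ((g : ↥H) : F ≃ₐ[ℚ] F) a.toMul
  exact (congrArg Additive.ofMul h).symm

theorem fof_mkA_surjective : Function.Surjective (gl_mkA F) := by
  intro c
  obtain ⟨x, hx⟩ := QuotientGroup.mk'_surjective (gl_P F) c.toMul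
  exact ⟨Additive.ofMul x, congrArg Additive.ofMul hx⟩

theorem fof_mkA_smul (g : ↥H) (a : Additive (gl_J F)) :
    gl_mkA F (g • a) = g • gl_mkA F a := rfl

theorem fof_mkA_eq_zero_iff (a : Additive (gl_J F)) :
    gl_mkA F a = 0 ↔ ∃ b : Additive Fˣ, fof_diagA F b = a := by
  constructor
  · intro h
    have h1 : (QuotientGroup.mk a.toMul : gl_C F) = 1 := congrArg Additive.toMul h
    rw [QuotientGroup.eq_one_iff, gdiag_mem_P_iff] at h1
    obtain ⟨b, hb⟩ := h1
    exact ⟨Additive.ofMul b, (congrArg Additive.ofMul hb).symm⟩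
  · rintro ⟨b, rfl⟩
    have h1 : (QuotientGroup.mk (gdiag_hom F b.toMul) : gl_C F) = 1 := by
      rw [QuotientGroup.eq_one_iff]
      exact gdiag_hom_mem_P F _
    exact congrArg Additive.ofMul h1

/-- An idele-valued 2-cocycle whose class in `C_F` is trivial is the sum of a principal cocycle
and a coboundary. -/
theorem fof_exact_aux (x : ↥H × ↥H → Additive (gl_J F)) (hx : IsCocycle₂ x)
    (hcob : IsCoboundary₂ (fun y => gl_mkA F (x y))) :
    ∃ (c₀ : ↥H × ↥H → Additive Fˣ) (d : ↥H × ↥H → Additive (gl_J F)), IsCocycle₂ c₀ ∧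
      IsCoboundary₂ d ∧ x = (fun y => fof_diagA F (c₀ y)) + d := by
  obtain ⟨β, hβ⟩ := hcob
  set β' : ↥H → Additive (gl_J F) := fun g => Function.surjInv fof_mkA_surjective (β g) with hβ'
  have hβ'β : ∀ g, gl_mkA F (β' g) = β g := fun g => Function.surjInv_eq fof_mkA_surjective _
  set d : ↥H × ↥H → Additive (gl_J F) := fun y => y.1 • β' y.2 - β' (y.1 * y.2) + β' y.1 with hd
  have hdcob : IsCoboundary₂ d := ⟨β', fun g h => rfl⟩
  have hdcoc : IsCocycle₂ d := fgD_isCocycle₂_of_isCoboundary₂ hdcob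
  have hy : ∀ y : ↥H × ↥H, gl_mkA F (x y - d y) = 0 := by
    intro y
    rw [map_sub, hd]
    show gl_mkA F (x y) - gl_mkA F (y.1 • β' y.2 - β' (y.1 * y.2) + β' y.1) = 0
    rw [map_add, map_sub, fof_mkA_smul, hβ'β, hβ'β, hβ'β]
    have h1 : y.1 • β y.2 - β (y.1 * y.2) + β y.1 = gl_mkA F (x y) := hβ y.1 y.2
    rw [h1]
    exact sub_self (gl_mkA F (x y))
  have hex : ∀ y : ↥H × ↥H, ∃ b : Additive Fˣ, fof_diagA F b = x y - d y :=
    fun y => (fof_mkA_eq_zero_iff _).1 (hy y)
  choose c₀ hc₀ using hex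
  have hxd : IsCocycle₂ (fun y => x y - d y) := by
    have := (fg_Z2 ↥H (Additive (gl_J F))).sub_mem (fg_mem_Z2.2 hx) (fg_mem_Z2.2 hdcoc)
    exact this
  refine ⟨c₀, d, ?_, hdcob, ?_⟩
  · intro g h j
    apply fof_diagA_injective
    rw [map_add, map_add, fof_diagA_smul H, hc₀, hc₀, hc₀, hc₀]
    exact hxd g h j
  · funext y
    show x y = fof_diagA F (c₀ y) + d y
    rw [hc₀]
    abel

variable {inv : lcf_InvType} (hinv : lcf_IsInvSystem inv)

include hinv in
/-- **Exactness at the ideles + reciprocity**: an idele-valued 2-cocycle of a `p`-group whose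
class in `H²(H, C_F)` is trivial has sum of invariants zero. -/
theorem fof_exact (hrecip : gl_RecipStatement) (p : ℕ) (hp : p.Prime) (hp2 : p ≠ 2)
    (hH : IsPGroup p ↥H) (x : ↥H × ↥H → Additive (gl_J F)) (hx : IsCocycle₂ x)
    (hcob : IsCoboundary₂ (fun y => gl_mkA F (x y))) : gl_sumJ inv F H x = 0 := by
  obtain ⟨c₀, d, hc₀, hd, hxe⟩ := fof_exact_aux H x hx hcob
  have hdiag : IsCocycle₂ (fun y => fof_diagA F (c₀ y)) := by
    intro g h j
    show fof_diagA F (c₀ (g * h, j)) + fof_diagA F (c₀ (g, h)) =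
      g • fof_diagA F (c₀ (h, j)) + fof_diagA F (c₀ (g, h * j))
    rw [← fof_diagA_smul H, ← map_add, ← map_add, hc₀ g h j]
  rw [hxe, fof_sumJ_add hinv H _ _ hdiag (fgD_isCocycle₂_of_isCoboundary₂ hd),
    fof_sumJ_cob hinv H d hd, add_zero,
    fof_sumJ_diag H c₀ (fun y => fof_diagA F (c₀ y)) (fun y r => rfl)]
  exact (hrecip inv hinv F p hp hp2 H hH c₀ hc₀).2

end exact

end

end Fermat.Agent.S55
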