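import Mathlib
import Fermat.Agent.S55.Global.FundOfExact
import Fermat.Agent.S55.FG.ClassForm

/-!
# S55, global side, assembly [FUND-OF], part 5: classes of idele-valued cocycles

For a `p`-group `P ≤ Aut(F/ℚ)` (`μ_p ⊆ F`) which admits an idele-valued 2-cocycle `c₂` with sum of
invariants `1 / #P`, the group `H²(P, C_F)` is generated by the class of `c₂`, and the class of
an idele-valued cocycle is determined by its sum of invariants.  Prefix `fof_`.
-/

set_option autoImplicit false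
set_option linter.unusedSectionVars false
set_option linter.unusedVariables false
set_option linter.style.longLine false
set_option linter.style.haveILetI false

namespace Fermat.Agent.S55

open groupCohomology

noncomputable section

section basic

variable {F : Type} [Field F] [NumberField F] (P : Subgroup (F ≃ₐ[ℚ] F))

theorem fof_isCocycle₂_mk (c : ↥P × ↥P → Additive (gl_J F)) (hc : IsCocycle₂ c) :
    IsCocycle₂ (fun y => gl_mkA F (c y)) := by
  intro g h j
  show gl_mkA F (c (g * h, j)) + gl_mkA F (c (g, h)) =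
    g • gl_mkA F (c (h, j)) + gl_mkA F (c (g, h * j))
  rw [← fof_mkA_smul, ← map_add, ← map_add, hc g h j]

theorem fof_mk_zsmul (c : ↥P × ↥P → Additive (gl_J F)) (k : ℤ) :
    (fun y => gl_mkA F ((k • c) y)) = fun y => k • gl_mkA F (c y) := by
  funext y
  show gl_mkA F (k • c y) = k • gl_mkA F (c y)
  rw [map_zsmul]

theorem fof_mk_sub (c c' : ↥P × ↥P → Additive (gl_J F)) :
    (fun y => gl_mkA F ((c - c') y)) = fun y => gl_mkA F (c y) - gl_mkA F (c' y) := by
  funext y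
  show gl_mkA F (c y - c' y) = gl_mkA F (c y) - gl_mkA F (c' y)
  rw [map_sub]

/-- Multiples of coboundaries. -/
theorem fof_isCoboundary₂_zsmul {G A : Type*} [Group G] [AddCommGroup A] [DistribMulAction G A]
    {f : G × G → A} (hf : IsCoboundary₂ f) (k : ℤ) : IsCoboundary₂ (fun y => k • f y) :=
  (fg_B2 G A).zsmul_mem (fg_mem_B2.2 hf) k

theorem fof_isCoboundary₂_sub {G A : Type*} [Group G] [AddCommGroup A] [DistribMulAction G A]
    {f f' : G × G → A} (hf : IsCoboundary₂ f) (hf' : IsCoboundary₂ f') :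
    IsCoboundary₂ (fun y => f y - f' y) :=
  (fg_B2 G A).sub_mem (fg_mem_B2.2 hf) (fg_mem_B2.2 hf')

theorem fof_isCoboundary₂_add {G A : Type*} [Group G] [AddCommGroup A] [DistribMulAction G A]
    {f f' : G × G → A} (hf : IsCoboundary₂ f) (hf' : IsCoboundary₂ f') :
    IsCoboundary₂ (fun y => f y + f' y) :=
  (fg_B2 G A).add_mem (fg_mem_B2.2 hf) (fg_mem_B2.2 hf')

theorem fof_isCocycle₂_zsmul {G A : Type*} [Group G] [AddCommGroup A] [DistribMulAction G A]
    {f : G × G → A} (hf : IsCocycle₂ f) (k : ℤ) : IsCocycle₂ (fun y => k • f y) :=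
  (fg_Z2 G A).zsmul_mem (fg_mem_Z2.2 hf) k

theorem fof_isCocycle₂_sub {G A : Type*} [Group G] [AddCommGroup A] [DistribMulAction G A]
    {f f' : G × G → A} (hf : IsCocycle₂ f) (hf' : IsCocycle₂ f') :
    IsCocycle₂ (fun y => f y - f' y) :=
  (fg_Z2 G A).sub_mem (fg_mem_Z2.2 hf) (fg_mem_Z2.2 hf')

/-- Multiples of a cocycle by multiples of the group order are coboundaries. -/
theorem fof_isCoboundary₂_of_dvd {G A : Type*} [Group G] [Finite G] [AddCommGroup A]
    [DistribMulAction G A] {f : G × G → A} (hf : IsCocycle₂ f) (k : ℤ)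
    (hk : (Nat.card G : ℤ) ∣ k) : IsCoboundary₂ (fun y => k • f y) := by
  obtain ⟨l, rfl⟩ := hk
  have h1 := fgS_card_smul_H2 hf
  have h2 := fof_isCoboundary₂_zsmul h1 l
  have e : (fun y => ((Nat.card G : ℤ) * l) • f y) = fun y => l • (Nat.card G • f y) := by
    funext y
    rw [mul_comm, mul_smul, natCast_zsmul]
  rw [e]
  exact h2

/-- Abstract generation: second inequality and a class of order divisible by `N` generate. -/
theorem fof_gen_abs {G A : Type*} [Group G] [AddCommGroup A] [DistribMulAction G A] {N : ℕ}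
    (h2 : fgT_H2Le G A N) (a : G × G → A) (ha : IsCocycle₂ a)
    (hord : ∀ k : ℤ, IsCoboundary₂ (fun y => k • a y) → (N : ℤ) ∣ k)
    (f : G × G → A) (hf : IsCocycle₂ f) :
    ∃ k : ℤ, IsCoboundary₂ (fun y => f y - k • a y) := by
  obtain ⟨hfin, hcard⟩ := fgT_card_le_of_H2Le h2
  haveI := hfin
  obtain ⟨k, hk⟩ := fgT_gen_of_order (fg_H2mk G A ⟨a, ha⟩) N hcard
    (fun m hm => by
      rw [← map_zsmul, fg_H2mk_eq_zero_iff] at hm
      exact hord m hm)
    (fg_H2mk G A ⟨f, hf⟩)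
  refine ⟨k, ?_⟩
  rw [← map_zsmul, ← sub_eq_zero, ← map_sub, fg_H2mk_eq_zero_iff] at hk
  exact hk

end basic

section inj

variable {inv : lcf_InvType} (hinv : lcf_IsInvSystem inv)
  {F : Type} [Field F] [NumberField F] (P : Subgroup (F ≃ₐ[ℚ] F))

include hinv in
/-- If the class in `C_F` of `k • c₂` is trivial and `c₂` has sum of invariants `1/N`, then
`N ∣ k`. -/
theorem fof_ord (hrecip : gl_RecipStatement) (p : ℕ) (hp : p.Prime) (hp2 : p ≠ 2)
    (hP : IsPGroup p ↥P) (N : ℕ) (hN : 0 < N) (c₂ : ↥P × ↥P → Additive (gl_J F))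
    (hc₂ : IsCocycle₂ c₂) (hsum : gl_sumJ inv F P c₂ = lcf_qz (1 / (N : ℚ))) (k : ℤ)
    (hk : IsCoboundary₂ (fun y => k • gl_mkA F (c₂ y))) : (N : ℤ) ∣ k := by
  have h1 : IsCoboundary₂ (fun y => gl_mkA F ((k • c₂) y)) := by
    rw [fof_mk_zsmul]
    exact hk
  have h2 := fof_exact P hinv hrecip p hp hp2 hP (k • c₂) (fof_isCocycle₂_zsmul hc₂ k) h1
  rw [fof_sumJ_zsmul hinv P c₂ hc₂, hsum, fof_zsmul_qz] at h2
  have e : (k : ℚ) * (1 / (N : ℚ)) = (k : ℚ) / (N : ℚ) := by ring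
  rw [e] at h2
  exact (fof_qz_div_eq_zero_iff N hN k).1 h2

include hinv in
/-- Comparison of classes through the sums of invariants. -/
theorem fof_cmp (hrecip : gl_RecipStatement) (p : ℕ) (hp : p.Prime) (hp2 : p ≠ 2)
    (hP : IsPGroup p ↥P) (N : ℕ) (hN : 0 < N) (c₂ : ↥P × ↥P → Additive (gl_J F))
    (hc₂ : IsCocycle₂ c₂) (hsum : gl_sumJ inv F P c₂ = lcf_qz (1 / (N : ℚ)))
    (x : ↥P × ↥P → Additive (gl_J F)) (hx : IsCocycle₂ x) (m k : ℤ)
    (hxs : gl_sumJ inv F P x = lcf_qz ((m : ℚ) / (N : ℚ)))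
    (hk : IsCoboundary₂ (fun y => gl_mkA F (x y) - k • gl_mkA F (c₂ y))) :
    (N : ℤ) ∣ m - k := by
  have h1 : IsCoboundary₂ (fun y => gl_mkA F ((x - k • c₂) y)) := by
    rw [fof_mk_sub]
    have e : (fun y => gl_mkA F (x y) - gl_mkA F ((k • c₂) y)) =
        fun y => gl_mkA F (x y) - k • gl_mkA F (c₂ y) := by
      funext y
      show gl_mkA F (x y) - gl_mkA F (k • c₂ y) = _
      rw [map_zsmul]
    rw [e]
    exact hk
  have h2 := fof_exact P hinv hrecip p hp hp2 hP (x - k • c₂)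
    (fof_isCocycle₂_sub hx (fof_isCocycle₂_zsmul hc₂ k)) h1
  rw [fof_sumJ_sub hinv P x (k • c₂) hx (fof_isCocycle₂_zsmul hc₂ k),
    fof_sumJ_zsmul hinv P c₂ hc₂, hsum, hxs, fof_zsmul_qz, ← map_sub] at h2
  have e : (m : ℚ) / (N : ℚ) - (k : ℚ) * (1 / (N : ℚ)) = ((m - k : ℤ) : ℚ) / (N : ℚ) := by
    push_cast
    ring
  rw [e] at h2
  exact (fof_qz_div_eq_zero_iff N hN (m - k)).1 h2

include hinv in
/-- **Generation**: if `c₂` has sum of invariants `1 / #P`, every class in `H²(P, C_F)` is a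
multiple of the class of `c₂`. -/
theorem fof_gen (hrecip : gl_RecipStatement) (hH2 : gl_H2LeStatement) (p : ℕ) (hp : p.Prime)
    (hp2 : p ≠ 2) (hζ : ∃ ζ : F, IsPrimitiveRoot ζ p) (hP : IsPGroup p ↥P)
    (c₂ : ↥P × ↥P → Additive (gl_J F)) (hc₂ : IsCocycle₂ c₂)
    (hsum : gl_sumJ inv F P c₂ = lcf_qz (1 / (Nat.card ↥P : ℚ)))
    (f : ↥P × ↥P → Additive (gl_C F)) (hf : IsCocycle₂ f) :
    ∃ k : ℤ, IsCoboundary₂ (fun y => f y - k • gl_mkA F (c₂ y)) := by
  have ha₂ : IsCocycle₂ (fun y => gl_mkA F (c₂ y)) := fof_isCocycle₂_mk P c₂ hc₂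
  exact fof_gen_abs (hH2 F p hp hp2 hζ P hP) (fun y => gl_mkA F (c₂ y)) ha₂
    (fun m hm => fof_ord hinv P hrecip p hp hp2 hP (Nat.card ↥P) Nat.card_pos c₂ hc₂ hsum m hm)
    f hf

include hinv in
/-- **Injectivity of the sum of invariants**: the class of an idele-valued cocycle with sum of
invariants `m / #P` is `m` times the class of `c₂`. -/
theorem fof_inj (hrecip : gl_RecipStatement) (hH2 : gl_H2LeStatement) (p : ℕ) (hp : p.Prime)
    (hp2 : p ≠ 2) (hζ : ∃ ζ : F, IsPrimitiveRoot ζ p) (hP : IsPGroup p ↥P)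
    (c₂ : ↥P × ↥P → Additive (gl_J F)) (hc₂ : IsCocycle₂ c₂)
    (hsum : gl_sumJ inv F P c₂ = lcf_qz (1 / (Nat.card ↥P : ℚ)))
    (x : ↥P × ↥P → Additive (gl_J F)) (hx : IsCocycle₂ x) (m : ℤ)
    (hxs : gl_sumJ inv F P x = lcf_qz ((m : ℚ) / (Nat.card ↥P : ℚ))) :
    IsCoboundary₂ (fun y => gl_mkA F (x y) - m • gl_mkA F (c₂ y)) := by
  have ha₂ : IsCocycle₂ (fun y => gl_mkA F (c₂ y)) := fof_isCocycle₂_mk P c₂ hc₂
  obtain ⟨k, hk⟩ := fof_gen hinv P hrecip hH2 p hp hp2 hζ hP c₂ hc₂ hsum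
    (fun y => gl_mkA F (x y)) (fof_isCocycle₂_mk P x hx)
  have hdvd := fof_cmp hinv P hrecip p hp hp2 hP (Nat.card ↥P) Nat.card_pos c₂ hc₂ hsum x hx m k
    hxs hk
  have h3 := fof_isCoboundary₂_of_dvd ha₂ (m - k) hdvd
  have h4 := fof_isCoboundary₂_sub hk h3
  have e : (fun y => gl_mkA F (x y) - k • gl_mkA F (c₂ y) - (m - k) • gl_mkA F (c₂ y)) =
      fun y => gl_mkA F (x y) - m • gl_mkA F (c₂ y) := by
    funext y
    have hs : (m - k) • gl_mkA F (c₂ y) = m • gl_mkA F (c₂ y) - k • gl_mkA F (c₂ y) :=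
      sub_zsmul (gl_mkA F (c₂ y)) m k
    rw [hs]
    abel
  rw [e] at h4
  exact h4

end inj

end

end Fermat.Agent.S55
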