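/-
S55 (Poitou-Tate), GLOBAL side, package [SUPP-ONE] (helper16): if the decomposition group of
`ι` in `H` is all of `H`, every smooth 2-cocycle of `gl_locU q F H ι` which is inflated from `H`
is the localisation at `ι` of an idele-valued 2-cocycle of `H` supported at `q`.
Prefix `gso_`.  Export: `gso_main : gl_SuppOneStatement`.

Construction: `x (σ, σ') := f (g, g')` for lifts `g, g'` of `σ, σ'`; the semi-local idele
`y (σ, σ')` is `ι' ↦ τ • x (σ, σ')` for `ι' = τ ∘ ι` and `1` outside the orbit of `ι`; the orbit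
is `H`-stable because `ι ∘ σ = g ∘ ι`.
-/
import Mathlib
import Fermat.Agent.S55.Global.InvConjLoc

set_option autoImplicit false

namespace Fermat.Agent.S55

open groupCohomology

noncomputable section

/-! ### Ideles supported at one prime -/

section single

variable (F : Type) [Field F] [NumberField F]

/-- The inclusion of the semi-local component at `r` into the ideles. -/
def gso_single (r : Nat.Primes) : gl_JP F r →* gl_J F := by
  classical
  exact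
  { toFun := fun y => ⟨Pi.mulSingle r y, by
      refine (Set.finite_singleton r).subset ?_
      intro r' hr'
      by_contra hne
      apply hr'
      have hne' : r' ≠ r := hne
      rw [Pi.mulSingle_eq_of_ne hne']
      exact (gl_UP F r').one_mem⟩
    map_one' := by
      apply Subtype.ext
      exact Pi.mulSingle_one r
    map_mul' := fun y y' => by
      apply Subtype.ext
      exact Pi.mulSingle_mul r y y' }

theorem gso_single_same (r : Nat.Primes) (y : gl_JP F r) : (gso_single F r y).1 r = y := by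
  classical
  exact Pi.mulSingle_eq_same r y

theorem gso_single_ne (r r' : Nat.Primes) (h : r' ≠ r) (y : gl_JP F r) :
    (gso_single F r y).1 r' = 1 := by
  classical
  exact Pi.mulSingle_eq_of_ne h y

theorem gso_single_smul (r : Nat.Primes) (σ : F ≃ₐ[ℚ] F) (y : gl_JP F r) :
    σ • gso_single F r y = gso_single F r (σ • y) := by
  apply Subtype.ext
  funext r'
  rw [gl_smul_J_apply]
  by_cases h : r' = r
  · subst h
    rw [gso_single_same, gso_single_same]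
  · rw [gso_single_ne F r r' h, gso_single_ne F r r' h, smul_one]

end single

/-! ### The semi-local cocycle -/

section semilocal

variable {q : ℕ} [Fact q.Prime] {F : Type} [Field F] [NumberField F]
  (H : Subgroup (F ≃ₐ[ℚ] F)) (ι : F →ₐ[ℚ] PadicAlgCl q)

/-- The function `ι' ↦ τ • x` (`ι' = τ ∘ ι`), `1` outside the orbit of `ι`. -/
def gso_fun (x : (PadicAlgCl q)ˣ) : (F →ₐ[ℚ] PadicAlgCl q) → (PadicAlgCl q)ˣ := by
  classical
  exact fun ι' => if h : ∃ τ : gl_GQq q, ι' = gl_twist q F τ ι then Classical.choose h • x else 1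

theorem gso_fun_not (x : (PadicAlgCl q)ˣ) (ι' : F →ₐ[ℚ] PadicAlgCl q)
    (h : ¬ ∃ τ : gl_GQq q, ι' = gl_twist q F τ ι) : gso_fun ι x ι' = 1 := by
  classical
  unfold gso_fun
  rw [dif_neg h]

theorem gso_fun_twist (x : (PadicAlgCl q)ˣ)
    (hx : ∀ τ : gl_GQq q, gl_twist q F τ ι = ι → τ • x = x) (τ : gl_GQq q) :
    gso_fun ι x (gl_twist q F τ ι) = τ • x := by
  classical
  have h : ∃ τ' : gl_GQq q, gl_twist q F τ ι = gl_twist q F τ' ι := ⟨τ, rfl⟩
  have key : ∀ τ₀ : gl_GQq q, gl_twist q F τ ι = gl_twist q F τ₀ ι → τ₀ • x = τ • x := by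
    intro τ₀ h1
    have h2 : gl_twist q F (τ₀⁻¹ * τ) ι = ι := by
      rw [gl_twist_mul, h1, ← gl_twist_mul, inv_mul_cancel, gl_twist_one]
    have h3 := hx _ h2
    rw [mul_smul] at h3
    exact (inv_smul_eq_iff.1 h3).symm
  unfold gso_fun
  rw [dif_pos h]
  exact key _ (Classical.choose_spec h)

theorem gso_fun_mem (x : (PadicAlgCl q)ˣ)
    (hx : ∀ τ : gl_GQq q, gl_twist q F τ ι = ι → τ • x = x) : gso_fun ι x ∈ gl_Jq q F := by
  intro τ ι'
  by_cases h : ∃ τ' : gl_GQq q, ι' = gl_twist q F τ' ι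
  · obtain ⟨τ', rfl⟩ := h
    rw [← gl_twist_mul, gso_fun_twist ι x hx, gso_fun_twist ι x hx, mul_smul]
    rfl
  · have h' : ¬ ∃ τ' : gl_GQq q, gl_twist q F τ ι' = gl_twist q F τ' ι := by
      rintro ⟨τ', hτ'⟩
      apply h
      refine ⟨τ⁻¹ * τ', ?_⟩
      rw [gl_twist_mul, ← hτ', ← gl_twist_mul, inv_mul_cancel, gl_twist_one]
    rw [gso_fun_not ι x _ h, gso_fun_not ι x _ h', map_one]

end semilocal

/-! ### The construction -/

section main

variable {q : ℕ} [Fact q.Prime] {F : Type} [Field F] [NumberField F]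
  (H : Subgroup (F ≃ₐ[ℚ] F)) (ι : F →ₐ[ℚ] PadicAlgCl q)
  (hsurj : Function.Surjective (gl_locSigma q F H ι))
  (f : ↥(gl_locU q F H ι) × ↥(gl_locU q F H ι) → (PadicAlgCl q)ˣ)

/-- A lift of `σ ∈ H` to the local Galois group. -/
def gso_lift (σ : ↥H) : ↥(gl_locU q F H ι) := Function.surjInv hsurj σ

theorem gso_sigma_lift (σ : ↥H) : gl_locSigma q F H ι (gso_lift H ι hsurj σ) = σ :=
  Function.surjInv_eq hsurj σ

/-- The value `f (g, g')` for lifts `g, g'` of `σ, σ'`. -/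
def gso_x (σ σ' : ↥H) : (PadicAlgCl q)ˣ := f (gso_lift H ι hsurj σ, gso_lift H ι hsurj σ')

theorem gso_locSigma_inv_mul (g g' : ↥(gl_locU q F H ι))
    (h : gl_locSigma q F H ι g = gl_locSigma q F H ι g') :
    gl_locSigma q F H ι (g⁻¹ * g') = 1 := by
  have h1 : gl_locSigma q F H ι g * gl_locSigma q F H ι (g⁻¹ * g') =
      gl_locSigma q F H ι g := by
    rw [← gic_locSigma_mul, mul_inv_cancel_left, h]
  exact mul_eq_left.1 h1

variable (hinf : ∀ g g' u u' : ↥(gl_locU q F H ι), gl_locSigma q F H ι u = 1 →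
    gl_locSigma q F H ι u' = 1 → f (g * u, g' * u') = f (g, g'))
  (hfix : ∀ (g g' u : ↥(gl_locU q F H ι)), gl_locSigma q F H ι u = 1 →
    (u : lcf_Gal q) • f (g, g') = f (g, g'))

include hinf in
theorem gso_x_sigma (g g' : ↥(gl_locU q F H ι)) :
    gso_x H ι hsurj f (gl_locSigma q F H ι g) (gl_locSigma q F H ι g') = f (g, g') := by
  have h1 := hinf (gso_lift H ι hsurj (gl_locSigma q F H ι g))
    (gso_lift H ι hsurj (gl_locSigma q F H ι g'))
    ((gso_lift H ι hsurj (gl_locSigma q F H ι g))⁻¹ * g)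
    ((gso_lift H ι hsurj (gl_locSigma q F H ι g'))⁻¹ * g')
    (gso_locSigma_inv_mul H ι _ _ (gso_sigma_lift H ι hsurj _))
    (gso_locSigma_inv_mul H ι _ _ (gso_sigma_lift H ι hsurj _))
  rw [mul_inv_cancel_left, mul_inv_cancel_left] at h1
  exact h1.symm

include hfix in
theorem gso_x_fix (σ σ' : ↥H) (τ : gl_GQq q) (hτ : gl_twist q F τ ι = ι) :
    τ • gso_x H ι hsurj f σ σ' = gso_x H ι hsurj f σ σ' :=
  hfix _ _ ⟨τ, gic_mem_locU_of_fix q F H ι τ hτ⟩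
    (gic_locSigma_of_fix q F H ι ⟨τ, gic_mem_locU_of_fix q F H ι τ hτ⟩ hτ)

/-- The semi-local idele `y (σ, σ')`. -/
def gso_Y (σ σ' : ↥H) : gl_JP F (⟨q, Fact.out⟩ : Nat.Primes) :=
  ⟨gso_fun ι (gso_x H ι hsurj f σ σ'),
    gso_fun_mem ι _ (gso_x_fix H ι hsurj f hfix σ σ')⟩

theorem gso_Y_twist (σ σ' : ↥H) (τ : gl_GQq q) :
    (gso_Y H ι hsurj f hfix σ σ').1 (gl_twist q F τ ι) = τ • gso_x H ι hsurj f σ σ' :=
  gso_fun_twist ι _ (gso_x_fix H ι hsurj f hfix σ σ') τ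

theorem gso_Y_not (σ σ' : ↥H) (ι' : F →ₐ[ℚ] PadicAlgCl q)
    (h : ¬ ∃ τ : gl_GQq q, ι' = gl_twist q F τ ι) :
    (gso_Y H ι hsurj f hfix σ σ').1 ι' = 1 :=
  gso_fun_not ι _ ι' h

theorem gso_comp_eq (σ : ↥H) (τ : gl_GQq q) :
    (gl_twist q F τ ι).comp (((σ : ↥H) : F ≃ₐ[ℚ] F) : F →ₐ[ℚ] F) =
      gl_twist q F (τ * (gso_lift H ι hsurj σ : lcf_Gal q)) ι := by
  rw [gl_twist_mul, gl_locSigma_spec q F H ι (gso_lift H ι hsurj σ),
    gso_sigma_lift H ι hsurj σ]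
  rfl

include hsurj in
theorem gso_comp_not (σ : ↥H) (ι' : F →ₐ[ℚ] PadicAlgCl q)
    (h : ¬ ∃ τ : gl_GQq q, ι' = gl_twist q F τ ι) :
    ¬ ∃ τ : gl_GQq q, ι'.comp (((σ : ↥H) : F ≃ₐ[ℚ] F) : F →ₐ[ℚ] F) = gl_twist q F τ ι := by
  rintro ⟨τ, hτ⟩
  apply h
  refine ⟨τ * (gso_lift H ι hsurj σ⁻¹ : lcf_Gal q), ?_⟩
  rw [← gso_comp_eq H ι hsurj σ⁻¹ τ, ← hτ]
  ext x
  show ι' x = ι' (((σ : ↥H) : F ≃ₐ[ℚ] F) ((((σ⁻¹ : ↥H) : ↥H) : F ≃ₐ[ℚ] F) x))
  congr 1
  exact ((((σ : ↥H) : F ≃ₐ[ℚ] F)).apply_symm_apply x).symm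

include hinf in
theorem gso_Y_cocycle (hf : IsMulCocycle₂ f) (σ₁ σ₂ σ₃ : ↥H) :
    gso_Y H ι hsurj f hfix (σ₁ * σ₂) σ₃ * gso_Y H ι hsurj f hfix σ₁ σ₂ =
      ((σ₁ : ↥H) : F ≃ₐ[ℚ] F) • gso_Y H ι hsurj f hfix σ₂ σ₃ *
        gso_Y H ι hsurj f hfix σ₁ (σ₂ * σ₃) := by
  apply Subtype.ext
  funext ι'
  show (gso_Y H ι hsurj f hfix (σ₁ * σ₂) σ₃).1 ι' * (gso_Y H ι hsurj f hfix σ₁ σ₂).1 ι' =
    (gso_Y H ι hsurj f hfix σ₂ σ₃).1 (ι'.comp (((σ₁ : ↥H) : F ≃ₐ[ℚ] F) : F →ₐ[ℚ] F)) *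
      (gso_Y H ι hsurj f hfix σ₁ (σ₂ * σ₃)).1 ι'
  by_cases h : ∃ τ : gl_GQq q, ι' = gl_twist q F τ ι
  · obtain ⟨τ, rfl⟩ := h
    rw [gso_comp_eq H ι hsurj σ₁ τ, gso_Y_twist, gso_Y_twist, gso_Y_twist, gso_Y_twist]
    have e1 : gso_x H ι hsurj f (σ₁ * σ₂) σ₃ =
        f (gso_lift H ι hsurj σ₁ * gso_lift H ι hsurj σ₂, gso_lift H ι hsurj σ₃) := by
      have h1 := gso_x_sigma H ι hsurj f hinf
        (gso_lift H ι hsurj σ₁ * gso_lift H ι hsurj σ₂) (gso_lift H ι hsurj σ₃)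
      rwa [gic_locSigma_mul, gso_sigma_lift, gso_sigma_lift, gso_sigma_lift] at h1
    have e2 : gso_x H ι hsurj f σ₁ (σ₂ * σ₃) =
        f (gso_lift H ι hsurj σ₁, gso_lift H ι hsurj σ₂ * gso_lift H ι hsurj σ₃) := by
      have h1 := gso_x_sigma H ι hsurj f hinf
        (gso_lift H ι hsurj σ₁) (gso_lift H ι hsurj σ₂ * gso_lift H ι hsurj σ₃)
      rwa [gic_locSigma_mul, gso_sigma_lift, gso_sigma_lift, gso_sigma_lift] at h1
    have h2 := hf (gso_lift H ι hsurj σ₁) (gso_lift H ι hsurj σ₂) (gso_lift H ι hsurj σ₃)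
    rw [e1, e2, mul_smul, ← smul_mul', ← smul_mul']
    congr 1
  · rw [gso_Y_not H ι hsurj f hfix _ _ ι' h, gso_Y_not H ι hsurj f hfix _ _ ι' h,
      gso_Y_not H ι hsurj f hfix _ _ ι' h,
      gso_Y_not H ι hsurj f hfix _ _ _ (gso_comp_not H ι hsurj σ₁ ι' h)]

end main

/-- **[SUPP-ONE]** -/
theorem gso_main : gl_SuppOneStatement := by
  intro F _ _ H q _ ι hsurj f hf hinf hfix
  refine ⟨fun x => Additive.ofMul
    (gso_single F (⟨q, Fact.out⟩ : Nat.Primes) (gso_Y H ι hsurj f hfix x.1 x.2)), ?_, ?_, ?_⟩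
  · intro g h j
    have e := gso_Y_cocycle H ι hsurj f hinf hfix hf.1 g h j
    have e1 := gso_single_smul F (⟨q, Fact.out⟩ : Nat.Primes) ((g : ↥H) : F ≃ₐ[ℚ] F)
      (gso_Y H ι hsurj f hfix h j)
    have e2 : gso_single F (⟨q, Fact.out⟩ : Nat.Primes) (gso_Y H ι hsurj f hfix (g * h) j) *
        gso_single F (⟨q, Fact.out⟩ : Nat.Primes) (gso_Y H ι hsurj f hfix g h) =
      ((g : ↥H) : F ≃ₐ[ℚ] F) • gso_single F (⟨q, Fact.out⟩ : Nat.Primes)
          (gso_Y H ι hsurj f hfix h j) *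
        gso_single F (⟨q, Fact.out⟩ : Nat.Primes) (gso_Y H ι hsurj f hfix g (h * j)) := by
      refine (map_mul (gso_single F (⟨q, Fact.out⟩ : Nat.Primes)) _ _).symm.trans ?_
      refine (congrArg (gso_single F (⟨q, Fact.out⟩ : Nat.Primes)) e).trans ?_
      refine (map_mul (gso_single F (⟨q, Fact.out⟩ : Nat.Primes)) _ _).trans ?_
      exact congrArg (fun z => z * gso_single F (⟨q, Fact.out⟩ : Nat.Primes)
        (gso_Y H ι hsurj f hfix g (h * j))) e1.symm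
    exact congrArg Additive.ofMul e2
  · funext ⟨g, g'⟩
    have h0 := gso_single_same F (⟨q, Fact.out⟩ : Nat.Primes)
      (gso_Y H ι hsurj f hfix (gl_locSigma q F H ι g) (gl_locSigma q F H ι g'))
    have h1 := gso_Y_twist H ι hsurj f hfix (gl_locSigma q F H ι g) (gl_locSigma q F H ι g') 1
    rw [gl_twist_one, one_smul, gso_x_sigma H ι hsurj f hinf] at h1
    have h2 := congrArg (fun y : gl_JP F (⟨q, Fact.out⟩ : Nat.Primes) => y.1 ι) h0
    exact h2.trans h1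
  · intro x r hr
    apply gso_single_ne
    intro h
    apply hr
    rw [h]

end

end Fermat.Agent.S55
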