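import Mathlib
import Fermat.Agent.S55.Global.FundOfSum
import Fermat.Agent.S55.Global.SuppOne
import Fermat.Agent.S55.Local.LocFundFin

/-!
# S55, global side, assembly [FUND-OF], part 3: idele cocycles with sum of invariants `1/n`

If the decomposition group of the embedding `ι : L → Ω_q` in `G ≤ Aut(L/ℚ)` is all of `G`,
there is an idele-valued 2-cocycle of `G`, supported at the place of `ι`, whose sum of local
invariants is `1 / #G` (local fundamental class [LOC-FUND] + [SUPP-ONE]).  Prefix `fof_`.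
-/

set_option autoImplicit false
set_option linter.unusedSectionVars false
set_option linter.unusedVariables false
set_option linter.style.longLine false
set_option linter.style.haveILetI false

namespace Fermat.Agent.S55

open groupCohomology

noncomputable section

section suppOne

variable {q : ℕ} [Fact q.Prime] {F : Type} [Field F] [NumberField F]
  (H : Subgroup (F ≃ₐ[ℚ] F)) (ι : F →ₐ[ℚ] PadicAlgCl q)

/-- **[SUPP-ONE]**, strong form: the idele-valued cocycle is trivial at all embeddings outside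
the orbit of `ι`. -/
theorem fof_suppOne (hsurj : Function.Surjective (gl_locSigma q F H ι))
    (f : ↥(gl_locU q F H ι) × ↥(gl_locU q F H ι) → (PadicAlgCl q)ˣ)
    (hf : lcf_IsCoc (gl_locU q F H ι) f)
    (hinf : ∀ g g' u u' : ↥(gl_locU q F H ι), gl_locSigma q F H ι u = 1 →
      gl_locSigma q F H ι u' = 1 → f (g * u, g' * u') = f (g, g'))
    (hfix : ∀ (g g' u : ↥(gl_locU q F H ι)), gl_locSigma q F H ι u = 1 →
      (u : lcf_Gal q) • f (g, g') = f (g, g')) :
    ∃ c : ↥H × ↥H → Additive (gl_J F), IsCocycle₂ c ∧ gl_locJ q F H ι c = f ∧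
      (∀ (x : ↥H × ↥H) (r : Nat.Primes), (r : ℕ) ≠ q → (c x).toMul.1 r = 1) ∧
      ∀ (x : ↥H × ↥H) (ι' : F →ₐ[ℚ] PadicAlgCl q),
        (¬ ∃ τ : gl_GQq q, ι' = gl_twist q F τ ι) →
        (((c x).toMul.1 (⟨q, Fact.out⟩ : Nat.Primes) : gl_Jq q F)).1 ι' = 1 := by
  refine ⟨fun x => Additive.ofMul
    (gso_single F (⟨q, Fact.out⟩ : Nat.Primes) (gso_Y H ι hsurj f hfix x.1 x.2)), ?_, ?_, ?_, ?_⟩
  · intro g h j
    have e := gso_Y_cocycle H ι hsurj f hinf hfix hf.1 g h j
    have e1 := gso_single_smul F (⟨q, Fact.out⟩ : Nat.Primes) ((g : ↥H) : F ≃ₐ[ℚ] F)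
      (gso_Y H ι hsurj f hfix h j)
    have e2 : gso_single F (⟨q, Fact.out⟩ : Nat.Primes) (gso_Y H ι hsurj f hfix (g * h) j) *
        gso_single F (⟨q, Fact.out⟩ : Nat.Primes) (gso_Y H ι hsurj f hfix g h) =
      ((g : ↥H) : F ≃ₐ[ℚ] F) • gso_single F (⟨q, Fact.out⟩ : Nat.Primes)
          (gso_Y H ι hsurj f hfix h j) *
        gso_single F (⟨q, Fact.out⟩ : Nat.Primes) (gso_Y H ι hsurj f hfix g (h * j)) := by
      refine (map_mul (gso_single F (⟨q, Fact.out⟩ : Nat.Primes)) _ _).symm.trans ?_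
      refine (congrArg (gso_single F (⟨q, Fact.out⟩ : Nat.Primes)) e).trans ?_
      refine (map_mul (gso_single F (⟨q, Fact.out⟩ : Nat.Primes)) _ _).trans ?_
      exact congrArg (fun z => z * gso_single F (⟨q, Fact.out⟩ : Nat.Primes)
        (gso_Y H ι hsurj f hfix g (h * j))) e1.symm
    exact congrArg Additive.ofMul e2
  · funext ⟨g, g'⟩
    have h0 := gso_single_same F (⟨q, Fact.out⟩ : Nat.Primes)
      (gso_Y H ι hsurj f hfix (gl_locSigma q F H ι g) (gl_locSigma q F H ι g'))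
    have h1 := gso_Y_twist H ι hsurj f hfix (gl_locSigma q F H ι g) (gl_locSigma q F H ι g') 1
    rw [gl_twist_one, one_smul, gso_x_sigma H ι hsurj f hinf] at h1
    have h2 := congrArg (fun y : gl_JP F (⟨q, Fact.out⟩ : Nat.Primes) => y.1 ι) h0
    exact h2.trans h1
  · intro x r hr
    apply gso_single_ne
    intro h
    apply hr
    rw [h]
  · intro x ι' hι'
    have h0 := gso_single_same F (⟨q, Fact.out⟩ : Nat.Primes) (gso_Y H ι hsurj f hfix x.1 x.2)
    have h2 := congrArg (fun y : gl_JP F (⟨q, Fact.out⟩ : Nat.Primes) => y.1 ι') h0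
    exact h2.trans (gso_Y_not H ι hsurj f hfix x.1 x.2 ι' hι')

end suppOne

section sumOne

variable {inv : lcf_InvType} (hinv : lcf_IsInvSystem inv)
  {q : ℕ} [Fact q.Prime] {F : Type} [Field F] [NumberField F]
  (H : Subgroup (F ≃ₐ[ℚ] F)) (ι : F →ₐ[ℚ] PadicAlgCl q)

theorem fof_mem_locU_bot_iff (g : ↥(gl_locU q F H ι)) :
    (g : lcf_Gal q) ∈ gl_locU q F ⊥ ι ↔ gl_locSigma q F H ι g = 1 := by
  rw [grs_mem_locU_iff q F ι (H₁ := ⊥) g, Subgroup.mem_bot]
  constructor
  · intro h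
    exact Subtype.ext h
  · intro h
    rw [h]
    rfl

theorem fof_relIndex_bot (hsurj : Function.Surjective (gl_locSigma q F H ι)) :
    (gl_locU q F ⊥ ι).relIndex (gl_locU q F H ι) = Nat.card ↥H := by
  rw [grs_relIndex_eq q F ι (H := H) ⊥]
  have h1 : (grs_sigmaHom q F H ι).range = ⊤ := by
    rw [MonoidHom.range_eq_top]
    exact hsurj
  rw [h1, Subgroup.relIndex_top_right, Subgroup.bot_subgroupOf, Subgroup.index_bot]

include hinv in
/-- The sum of the invariants of an idele-valued cocycle supported on the orbit of `ι`, when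
the decomposition group of `ι` is everything. -/
theorem fof_sum_of_supp (c : ↥H × ↥H → Additive (gl_J F)) (hc : IsCocycle₂ c)
    (h1 : ∀ (x : ↥H × ↥H) (r : Nat.Primes), (r : ℕ) ≠ q → (c x).toMul.1 r = 1)
    (h2 : ∀ (x : ↥H × ↥H) (ι' : F →ₐ[ℚ] PadicAlgCl q),
        (¬ ∃ τ : gl_GQq q, ι' = gl_twist q F τ ι) →
        (((c x).toMul.1 (⟨q, Fact.out⟩ : Nat.Primes) : gl_Jq q F)).1 ι' = 1) :
    gl_sumJ inv F H c = gl_invAtJ q F H ι inv c := by
  unfold gl_sumJ
  have hq : q.Prime := Fact.out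
  rw [finsum_eq_single (fun r : Nat.Primes => gl_sumPJ inv F H c r) (⟨q, hq⟩ : Nat.Primes)]
  · -- the prime `q`
    show (∑ᶠ v : gl_PlaceK q F H, gl_invAtJ q F H (Quotient.out v) inv c) = _
    rw [finsum_eq_single (fun v : gl_PlaceK q F H => gl_invAtJ q F H (Quotient.out v) inv c)
      (Quotient.mk (gl_placeKSetoid q F H) ι)]
    · exact ((gic_main inv hinv F H q ι _
        (Quotient.exact (s := gl_placeKSetoid q F H) (Quotient.out_eq _).symm)).2 c hc)
    · intro v hv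
      have hno : ¬ ∃ τ : gl_GQq q, Quotient.out v = gl_twist q F τ ι := by
        rintro ⟨τ, hτ⟩
        apply hv
        rw [← Quotient.out_eq v]
        apply Quotient.sound
        refine (gl_placeKSetoid q F H).symm ?_
        exact ⟨1, H.one_mem, τ, hτ⟩
      have e : gl_locJ q F H (Quotient.out v) c = fun _ => 1 := by
        funext x
        exact h2 _ _ hno
      unfold gl_invAtJ
      rw [e]
      exact fof_inv_one hinv _ (gic_locU_isOpen q F H _)
  · intro r hr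
    haveI : Fact (r : ℕ).Prime := ⟨r.2⟩
    have hrq : (r : ℕ) ≠ q := by
      intro h
      apply hr
      exact Subtype.ext h
    show (∑ᶠ v : gl_PlaceK (r : ℕ) F H, gl_invAtJ (r : ℕ) F H (Quotient.out v) inv c) = 0
    rw [finsum_eq_zero_of_forall_eq_zero]
    intro v
    have e : gl_locJ (r : ℕ) F H (Quotient.out v) c = fun _ => 1 := by
      funext x
      show (((c _).toMul.1 (⟨(r : ℕ), Fact.out⟩ : Nat.Primes) : gl_Jq (r : ℕ) F)).1 _ = 1
      have := h1 (gl_locSigma (r : ℕ) F H (Quotient.out v) x.1,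
        gl_locSigma (r : ℕ) F H (Quotient.out v) x.2) r hrq
      exact congrArg (fun y : gl_JP F r => y.1 (Quotient.out v)) this
    unfold gl_invAtJ
    rw [e]
    exact fof_inv_one hinv _ (gic_locU_isOpen (r : ℕ) F H _)

include hinv in
/-- **[SUM-ONE]** if the decomposition group of `ι` in `H` is all of `H`, there is an
idele-valued 2-cocycle of `H` with sum of invariants `1 / #H`. -/
theorem fof_sumOne (hsurj : Function.Surjective (gl_locSigma q F H ι)) :
    ∃ c : ↥H × ↥H → Additive (gl_J F), IsCocycle₂ c ∧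
      gl_sumJ inv F H c = lcf_qz (1 / (Nat.card ↥H : ℚ)) := by
  have hU : lcf_IsOpen (gl_locU q F H ι) := gic_locU_isOpen q F H ι
  have hU' : lcf_IsOpen (gl_locU q F ⊥ ι) := gic_locU_isOpen q F ⊥ ι
  have hle : gl_locU q F ⊥ ι ≤ gl_locU q F H ι := grs_locU_mono q F ι bot_le
  have hnorm : ∀ g ∈ gl_locU q F H ι, ∀ u ∈ gl_locU q F ⊥ ι, g * u * g⁻¹ ∈ gl_locU q F ⊥ ι := by
    intro g hg u hu
    have h1 := (fof_mem_locU_bot_iff H ι ⟨u, hle hu⟩).1 hu
    have h2 : gl_locSigma q F H ι (⟨g, hg⟩ * ⟨u, hle hu⟩ * ⟨g, hg⟩⁻¹) = 1 := by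
      have h3 := map_mul (grs_sigmaHom q F H ι) (⟨g, hg⟩ * ⟨u, hle hu⟩) (⟨g, hg⟩⁻¹)
      have h4 := map_mul (grs_sigmaHom q F H ι) ⟨g, hg⟩ ⟨u, hle hu⟩
      have h5 := map_inv (grs_sigmaHom q F H ι) ⟨g, hg⟩
      have h6 : grs_sigmaHom q F H ι ⟨u, hle hu⟩ = 1 := h1
      rw [h4, h5, h6, mul_one, mul_inv_cancel] at h3
      exact h3
    exact (fof_mem_locU_bot_iff H ι _).2 h2
  obtain ⟨f, hf, hinf, hfix, hinvf⟩ :=
    lfund_fin inv hinv q (gl_locU q F H ι) (gl_locU q F ⊥ ι) hU hU' hle hnorm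
  obtain ⟨c, hc, hloc, hc1, hc2⟩ := fof_suppOne H ι hsurj f hf
    (fun g g' u u' hu hu' => hinf g g' u u' ((fof_mem_locU_bot_iff H ι u).2 hu)
      ((fof_mem_locU_bot_iff H ι u').2 hu'))
    (fun g g' u hu => hfix g g' (u : lcf_Gal q) ((fof_mem_locU_bot_iff H ι u).2 hu))
  refine ⟨c, hc, ?_⟩
  rw [fof_sum_of_supp hinv H ι c hc hc1 hc2]
  unfold gl_invAtJ
  rw [hloc, hinvf, fof_relIndex_bot H ι hsurj]

end sumOne

end

end Fermat.Agent.S55
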