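import Mathlib
import Fermat.Agent.S55.Global.Defs

/-!
# S55, global side, package [H1]/[H2-LE], part 2: restriction to the fixed field of a normal
subgroup

For a subgroup `H` of `Aut(F/ℚ)` and a normal subgroup `N` of `H`, every `σ ∈ H` stabilises the
fixed field `M` of `N`; we construct the restriction homomorphism `h12_res : H →* Aut(M/ℚ)`,
determine its kernel, and prove the compatibility of `gl_resC` with the Galois actions.
-/

set_option autoImplicit false

namespace Fermat.Agent.S55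

noncomputable section

section restr

variable {F : Type} [Field F] [CharZero F]

/-- Restriction of an automorphism to a stable intermediate field. -/
def h12_restr (M : IntermediateField ℚ F) (σ : F ≃ₐ[ℚ] F) (h : ∀ x, x ∈ M → σ x ∈ M)
    (h' : ∀ x, x ∈ M → σ.symm x ∈ M) : ↥M ≃ₐ[ℚ] ↥M where
  toFun x := ⟨σ x, h x x.2⟩
  invFun x := ⟨σ.symm x, h' x x.2⟩
  left_inv x := Subtype.ext (σ.symm_apply_apply x)
  right_inv x := Subtype.ext (σ.apply_symm_apply x)
  map_mul' x y := Subtype.ext (map_mul σ _ _)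
  map_add' x y := Subtype.ext (map_add σ _ _)
  commutes' r := Subtype.ext (σ.commutes r)

@[simp] theorem h12_restr_apply (M : IntermediateField ℚ F) (σ : F ≃ₐ[ℚ] F)
    (h : ∀ x, x ∈ M → σ x ∈ M) (h' : ∀ x, x ∈ M → σ.symm x ∈ M) (x : ↥M) :
    ((h12_restr M σ h h' x : ↥M) : F) = σ x := rfl

variable (H : Subgroup (F ≃ₐ[ℚ] F)) (N : Subgroup ↥H)

/-- The fixed field of a subgroup of `H`. -/
def h12_M : IntermediateField ℚ F := IntermediateField.fixedField (N.map H.subtype)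

theorem h12_mem_M_iff (x : F) : x ∈ h12_M H N ↔ ∀ n ∈ N, ((n : ↥H) : F ≃ₐ[ℚ] F) x = x := by
  unfold h12_M
  rw [IntermediateField.mem_fixedField_iff]
  constructor
  · intro h n hn
    exact h _ ⟨n, hn, rfl⟩
  · rintro h _ ⟨n, hn, rfl⟩
    exact h n hn

theorem h12_stable [N.Normal] (g : ↥H) (x : F) (hx : x ∈ h12_M H N) :
    ((g : ↥H) : F ≃ₐ[ℚ] F) x ∈ h12_M H N := by
  rw [h12_mem_M_iff] at hx ⊢
  intro n hn
  have h1 : g⁻¹ * n * g ∈ N := by
    have := ‹N.Normal›.conj_mem n hn g⁻¹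
    simpa using this
  have h2 := hx _ h1
  have h3 : ((g⁻¹ * n * g : ↥H) : F ≃ₐ[ℚ] F) x
      = ((g : ↥H) : F ≃ₐ[ℚ] F).symm (((n : ↥H) : F ≃ₐ[ℚ] F) (((g : ↥H) : F ≃ₐ[ℚ] F) x)) := rfl
  rw [h3] at h2
  have h4 := congrArg ((g : ↥H) : F ≃ₐ[ℚ] F) h2
  rwa [AlgEquiv.apply_symm_apply] at h4

theorem h12_stable' [N.Normal] (g : ↥H) (x : F) (hx : x ∈ h12_M H N) :
    ((g : ↥H) : F ≃ₐ[ℚ] F).symm x ∈ h12_M H N :=
  h12_stable H N g⁻¹ x hx

/-- The restriction homomorphism `H → Aut(M/ℚ)`, `M` the fixed field of `N ⊲ H`. -/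
def h12_res [N.Normal] : ↥H →* (↥(h12_M H N) ≃ₐ[ℚ] ↥(h12_M H N)) where
  toFun g := h12_restr (h12_M H N) ((g : ↥H) : F ≃ₐ[ℚ] F) (h12_stable H N g) (h12_stable' H N g)
  map_one' := by
    ext x
    rfl
  map_mul' g g' := by
    ext x
    rfl

@[simp] theorem h12_res_apply [N.Normal] (g : ↥H) (x : ↥(h12_M H N)) :
    ((h12_res H N g x : ↥(h12_M H N)) : F) = ((g : ↥H) : F ≃ₐ[ℚ] F) x := rfl

theorem h12_res_eq_one_of_mem [N.Normal] (g : ↥H) (hg : g ∈ N) : h12_res H N g = 1 := by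
  ext x
  rw [h12_res_apply]
  exact (h12_mem_M_iff H N x).1 x.2 g hg

theorem h12_res_ker [N.Normal] [FiniteDimensional ℚ F] : (h12_res H N).ker = N := by
  ext g
  rw [MonoidHom.mem_ker]
  constructor
  · intro h
    have h1 : ((g : ↥H) : F ≃ₐ[ℚ] F) ∈
        IntermediateField.fixingSubgroup (IntermediateField.fixedField (N.map H.subtype)) := by
      rw [IntermediateField.mem_fixingSubgroup_iff]
      intro x hx
      have h2 := congrArg (fun τ : ↥(h12_M H N) ≃ₐ[ℚ] ↥(h12_M H N) =>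
        ((τ ⟨x, hx⟩ : ↥(h12_M H N)) : F)) h
      exact h2
    rw [IntermediateField.fixingSubgroup_fixedField] at h1
    obtain ⟨n, hn, hng⟩ := h1
    have : n = g := Subtype.ext hng
    rwa [← this]
  · exact h12_res_eq_one_of_mem H N g

end restr

end

end Fermat.Agent.S55
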