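import Mathlib
import Fermat.Agent.S55.Global.TowerDefs
import Fermat.Agent.S55.Global.H1H2Res
import Fermat.Agent.S55.Global.InflSum
import Fermat.Agent.S55.Global.GalDescent
import Fermat.Agent.S55.FG.Defs2

/-!
# S55, global side, assembly [FUND-OF], part 4: plumbing for towers

* `fof_qtower G N`     : the quotient tower `(E^N, G/N) ← (E, G)` for `N ⊲ G ≤ Aut(E/ℚ)`
* `fof_factor t₁ s h`  : a tower `(F₁, H₁) ← (E, G)` factors through a tower `(M, G_M) ← (E, G)`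
                          with smaller kernel: `(F₁, H₁) ← (M, G_M)`
* `fof_subTower t H₁`  : restriction of a tower `(F, H) ← (F', H')` to a subgroup `H₁ ≤ H`
* `fof_infData t`      : the inflation datum `C_F = C_{F'}^{ker π}` of a tower (Galois descent)

Prefix `fof_`.
-/

set_option autoImplicit false
set_option linter.unusedSectionVars false
set_option linter.unusedVariables false
set_option linter.style.longLine false
set_option linter.style.haveILetI false

namespace Fermat.Agent.S55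

open groupCohomology

noncomputable section

/-! ### The quotient tower -/

section qtower

variable {E : Type} [Field E] [NumberField E] (G : Subgroup (E ≃ₐ[ℚ] E)) (N : Subgroup ↥G)
  [N.Normal]

/-- The quotient tower `(E^N, G/N) ← (E, G)`. -/
def fof_qtower : gl_Tower ↥(h12_M G N) E (h12_res G N).range G where
  j := (h12_M G N).val
  π := (h12_res G N).rangeRestrict
  surj := (h12_res G N).rangeRestrict_surjective
  compat := fun σ' x => rfl
  fixed := fun y hy => by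
    have hyM : y ∈ h12_M G N := by
      rw [h12_mem_M_iff]
      intro n hn
      apply hy n
      apply Subtype.ext
      exact h12_res_eq_one_of_mem G N n hn
    exact ⟨⟨y, hyM⟩, rfl⟩

theorem fof_qtower_j (x : ↥(h12_M G N)) : (fof_qtower G N).j x = (x : E) := rfl

theorem fof_qtower_pi_eq_one_iff (g : ↥G) : (fof_qtower G N).π g = 1 ↔ g ∈ N := by
  have h := h12_res_ker G N
  constructor
  · intro hg
    rw [← h, MonoidHom.mem_ker]
    exact congrArg Subtype.val hg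
  · intro hg
    apply Subtype.ext
    exact h12_res_eq_one_of_mem G N g hg

theorem fof_qtower_ker : (fof_qtower G N).π.ker = N := by
  ext g
  rw [MonoidHom.mem_ker]
  exact fof_qtower_pi_eq_one_iff G N g

end qtower

/-! ### Factoring a tower -/

section factor

variable {F₁ M E : Type} [Field F₁] [Field M] [Field E] [NumberField F₁] [NumberField M]
  [NumberField E] {H₁ : Subgroup (F₁ ≃ₐ[ℚ] F₁)} {GM : Subgroup (M ≃ₐ[ℚ] M)}
  {G : Subgroup (E ≃ₐ[ℚ] E)} (t₁ : gl_Tower F₁ E H₁ G) (s : gl_Tower M E GM G)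
  (hker : s.π.ker ≤ t₁.π.ker)

include hker in
theorem fof_factor_mem (x : F₁) : t₁.j x ∈ s.j.range := by
  apply s.fixed
  intro σ' hσ'
  have h1 : t₁.π σ' = 1 := hker hσ'
  have h2 := t₁.compat σ' x
  rw [h1] at h2
  exact h2.symm

/-- The embedding of the factored tower. -/
def fof_factorJ : F₁ →ₐ[ℚ] M :=
  ((AlgEquiv.ofInjectiveField s.j).symm : s.j.range →ₐ[ℚ] M).comp
    (t₁.j.codRestrict s.j.range (fof_factor_mem t₁ s hker))

theorem fof_factorJ_spec (x : F₁) : s.j (fof_factorJ t₁ s hker x) = t₁.j x := by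
  have h := (AlgEquiv.ofInjectiveField s.j).apply_symm_apply
    (t₁.j.codRestrict s.j.range (fof_factor_mem t₁ s hker) x)
  exact congrArg Subtype.val h

/-- The projection of the factored tower. -/
def fof_factorPi : ↥GM →* ↥H₁ :=
  s.π.liftOfRightInverse (Function.surjInv s.surj) (Function.rightInverse_surjInv s.surj)
    ⟨t₁.π, hker⟩

theorem fof_factorPi_spec (g : ↥G) : fof_factorPi t₁ s hker (s.π g) = t₁.π g :=
  s.π.liftOfRightInverse_comp_apply _ _ ⟨t₁.π, hker⟩ g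

/-- A tower `(F₁, H₁) ← (E, G)` factors through a tower `(M, G_M) ← (E, G)` with smaller
kernel. -/
def fof_factor : gl_Tower F₁ M H₁ GM where
  j := fof_factorJ t₁ s hker
  π := fof_factorPi t₁ s hker
  surj := fun σ => by
    obtain ⟨g, hg⟩ := t₁.surj σ
    exact ⟨s.π g, by rw [fof_factorPi_spec, hg]⟩
  compat := fun σ' x => by
    obtain ⟨g, rfl⟩ := s.surj σ'
    apply s.j.toRingHom.injective
    show s.j (fof_factorJ t₁ s hker (((fof_factorPi t₁ s hker (s.π g) : ↥H₁) : F₁ ≃ₐ[ℚ] F₁) x)) =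
      s.j (((s.π g : ↥GM) : M ≃ₐ[ℚ] M) (fof_factorJ t₁ s hker x))
    rw [fof_factorJ_spec, fof_factorPi_spec, t₁.compat, s.compat, fof_factorJ_spec]
  fixed := fun y hy => by
    have h1 : s.j y ∈ t₁.j.range := by
      apply t₁.fixed
      intro g hg
      have h2 : fof_factorPi t₁ s hker (s.π g) = 1 := by rw [fof_factorPi_spec, hg]
      have h3 := hy (s.π g) h2
      rw [← s.compat, h3]
    obtain ⟨x, hx⟩ := h1
    refine ⟨x, ?_⟩
    apply s.j.toRingHom.injective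
    show s.j (fof_factorJ t₁ s hker x) = s.j y
    rw [fof_factorJ_spec]
    exact hx

theorem fof_factor_j (x : F₁) : s.j ((fof_factor t₁ s hker).j x) = t₁.j x :=
  fof_factorJ_spec t₁ s hker x

theorem fof_factor_pi (g : ↥G) : (fof_factor t₁ s hker).π (s.π g) = t₁.π g :=
  fof_factorPi_spec t₁ s hker g

end factor

/-! ### Restriction of a tower to a subgroup -/

section subTower

variable {F F' : Type} [Field F] [Field F'] [NumberField F] [NumberField F']
  {H : Subgroup (F ≃ₐ[ℚ] F)} {H' : Subgroup (F' ≃ₐ[ℚ] F')} (t : gl_Tower F F' H H')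
  (H₁ : Subgroup (F ≃ₐ[ℚ] F))

/-- The preimage in `H'` of a subgroup `H₁ ≤ H`, as a subgroup of `Aut(F'/ℚ)`. -/
def fof_pre : Subgroup (F' ≃ₐ[ℚ] F') := ((H₁.subgroupOf H).comap t.π).map H'.subtype

theorem fof_pre_le : fof_pre t H₁ ≤ H' := Subgroup.map_subtype_le _

theorem fof_mem_pre_iff (g : ↥H') :
    (g : F' ≃ₐ[ℚ] F') ∈ fof_pre t H₁ ↔ ((t.π g : ↥H) : F ≃ₐ[ℚ] F) ∈ H₁ := by
  unfold fof_pre
  constructor
  · rintro ⟨x, hx, hxg⟩
    have : x = g := Subtype.ext hxg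
    rw [← this]
    exact hx
  · intro h
    exact ⟨g, h, rfl⟩

theorem fof_pre_pi_mem (g : ↥(fof_pre t H₁)) :
    ((t.π (Subgroup.inclusion (fof_pre_le t H₁) g) : ↥H) : F ≃ₐ[ℚ] F) ∈ H₁ :=
  (fof_mem_pre_iff t H₁ (Subgroup.inclusion (fof_pre_le t H₁) g)).1 g.2

/-- The projection of the restricted tower. -/
def fof_subPi : ↥(fof_pre t H₁) →* ↥H₁ where
  toFun g := ⟨((t.π (Subgroup.inclusion (fof_pre_le t H₁) g) : ↥H) : F ≃ₐ[ℚ] F),
    fof_pre_pi_mem t H₁ g⟩
  map_one' := by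
    apply Subtype.ext
    show ((t.π (Subgroup.inclusion (fof_pre_le t H₁) 1) : ↥H) : F ≃ₐ[ℚ] F) = 1
    rw [map_one, map_one]
    rfl
  map_mul' g g' := by
    apply Subtype.ext
    show ((t.π (Subgroup.inclusion (fof_pre_le t H₁) (g * g')) : ↥H) : F ≃ₐ[ℚ] F) =
      ((t.π (Subgroup.inclusion (fof_pre_le t H₁) g) : ↥H) : F ≃ₐ[ℚ] F) *
        ((t.π (Subgroup.inclusion (fof_pre_le t H₁) g') : ↥H) : F ≃ₐ[ℚ] F)
    rw [map_mul, map_mul]
    rfl

theorem fof_subPi_coe (g : ↥(fof_pre t H₁)) :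
    ((fof_subPi t H₁ g : ↥H₁) : F ≃ₐ[ℚ] F) =
      ((t.π (Subgroup.inclusion (fof_pre_le t H₁) g) : ↥H) : F ≃ₐ[ℚ] F) := rfl

theorem fof_subPi_incl (h : H₁ ≤ H) (g : ↥(fof_pre t H₁)) :
    Subgroup.inclusion h (fof_subPi t H₁ g) = t.π (Subgroup.inclusion (fof_pre_le t H₁) g) :=
  Subtype.ext rfl

/-- Restriction of a tower `(F, H) ← (F', H')` to a subgroup `H₁ ≤ H`. -/
def fof_subTower (h : H₁ ≤ H) : gl_Tower F F' H₁ (fof_pre t H₁) where
  j := t.j
  π := fof_subPi t H₁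
  surj := fun σ => by
    obtain ⟨g, hg⟩ := t.surj ⟨(σ : F ≃ₐ[ℚ] F), h σ.2⟩
    have hmem : (g : F' ≃ₐ[ℚ] F') ∈ fof_pre t H₁ := by
      rw [fof_mem_pre_iff, hg]
      exact σ.2
    refine ⟨⟨(g : F' ≃ₐ[ℚ] F'), hmem⟩, ?_⟩
    apply Subtype.ext
    rw [fof_subPi_coe]
    have e : Subgroup.inclusion (fof_pre_le t H₁) ⟨(g : F' ≃ₐ[ℚ] F'), hmem⟩ = g :=
      Subtype.ext rfl
    rw [e, hg]
  compat := fun σ' x => t.compat (Subgroup.inclusion (fof_pre_le t H₁) σ') x
  fixed := fun y hy => by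
    apply t.fixed
    intro g hg
    have hmem : (g : F' ≃ₐ[ℚ] F') ∈ fof_pre t H₁ := by
      rw [fof_mem_pre_iff, hg]
      exact H₁.one_mem
    have e : Subgroup.inclusion (fof_pre_le t H₁) ⟨(g : F' ≃ₐ[ℚ] F'), hmem⟩ = g :=
      Subtype.ext rfl
    refine hy ⟨(g : F' ≃ₐ[ℚ] F'), hmem⟩ ?_
    apply Subtype.ext
    rw [fof_subPi_coe, e, hg]
    rfl

theorem fof_subTower_j (h : H₁ ≤ H) : (fof_subTower t H₁ h).j = t.j := rfl

theorem fof_subTower_pi (h : H₁ ≤ H) (g : ↥(fof_pre t H₁)) :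
    Subgroup.inclusion h ((fof_subTower t H₁ h).π g) =
      t.π (Subgroup.inclusion (fof_pre_le t H₁) g) :=
  fof_subPi_incl t H₁ h g

/-- Inflation along the restricted tower is the restriction of the inflation. -/
theorem fof_subTower_inflC (h : H₁ ≤ H) (a : ↥H × ↥H → Additive (gl_C F)) :
    gl_inflC (fof_subTower t H₁ h) (gl_res₂ h a) = gl_res₂ (fof_pre_le t H₁) (gl_inflC t a) := by
  funext x
  show Additive.ofMul (gl_mapC t.j (a (Subgroup.inclusion h ((fof_subTower t H₁ h).π x.1),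
    Subgroup.inclusion h ((fof_subTower t H₁ h).π x.2))).toMul) = _
  rw [fof_subTower_pi, fof_subTower_pi]
  rfl

theorem fof_subTower_inflJ (h : H₁ ≤ H) (a : ↥H × ↥H → Additive (gl_J F)) :
    gl_inflJ (fof_subTower t H₁ h) (gl_res₂ h a) = gl_res₂ (fof_pre_le t H₁) (gl_inflJ t a) := by
  funext x
  show Additive.ofMul (gl_mapJ t.j (a (Subgroup.inclusion h ((fof_subTower t H₁ h).π x.1),
    Subgroup.inclusion h ((fof_subTower t H₁ h).π x.2))).toMul) = _
  rw [fof_subTower_pi, fof_subTower_pi]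
  rfl

/-- The index of the preimage. -/
theorem fof_pre_relIndex (h : H₁ ≤ H) : (fof_pre t H₁).relIndex H' = H₁.relIndex H := by
  unfold fof_pre Subgroup.relIndex
  have e : (Subgroup.map H'.subtype (Subgroup.comap t.π (H₁.subgroupOf H))).subgroupOf H' =
      Subgroup.comap t.π (H₁.subgroupOf H) :=
    Subgroup.comap_map_eq_self_of_injective H'.subtype_injective _
  rw [e]
  exact Subgroup.index_comap_of_surjective _ t.surj

end subTower

/-! ### Functoriality of ideles and idele classes -/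

section functor

variable {F F' F'' : Type} [Field F] [Field F'] [Field F''] [Algebra ℚ F] [Algebra ℚ F']
  [Algebra ℚ F'']

theorem fof_mapJ_comp (j₁ : F →ₐ[ℚ] F') (j₂ : F' →ₐ[ℚ] F'') (x : gl_J F) :
    gl_mapJ (j₂.comp j₁) x = gl_mapJ j₂ (gl_mapJ j₁ x) := rfl

theorem fof_mapJ_id (x : gl_J F) : gl_mapJ (AlgHom.id ℚ F) x = x := rfl

theorem fof_mapC_comp (j₁ : F →ₐ[ℚ] F') (j₂ : F' →ₐ[ℚ] F'') (c : gl_C F) :
    gl_mapC (j₂.comp j₁) c = gl_mapC j₂ (gl_mapC j₁ c) := by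
  induction c using QuotientGroup.induction_on with
  | H x => rfl

theorem fof_mapC_id (c : gl_C F) : gl_mapC (AlgHom.id ℚ F) c = c := by
  induction c using QuotientGroup.induction_on with
  | H x => rfl

end functor

/-! ### The inflation datum of a tower -/

section infData

variable {F F' : Type} [Field F] [Field F'] [NumberField F] [NumberField F']
  {H : Subgroup (F ≃ₐ[ℚ] F)} {H' : Subgroup (F' ≃ₐ[ℚ] F')} (t : gl_Tower F F' H H')

/-- Equivariance of `J_F → J_F'`. -/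
theorem fof_mapJ_smul (σ' : ↥H') (x : gl_J F) :
    gl_mapJ t.j (((t.π σ' : ↥H) : F ≃ₐ[ℚ] F) • x) =
      ((σ' : ↥H') : F' ≃ₐ[ℚ] F') • gl_mapJ t.j x := by
  apply Subtype.ext
  funext q
  apply Subtype.ext
  funext ι
  haveI : Fact (q : ℕ).Prime := ⟨q.2⟩
  show (x.1 q).1 ((ι.comp t.j).comp (((t.π σ' : ↥H) : F ≃ₐ[ℚ] F) : F →ₐ[ℚ] F)) =
    (x.1 q).1 ((ι.comp (((σ' : ↥H') : F' ≃ₐ[ℚ] F') : F' →ₐ[ℚ] F')).comp t.j)
  rw [gis_comp_pi t ι σ']

/-- Equivariance of `C_F → C_F'`. -/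
theorem fof_mapC_smul (σ' : ↥H') (c : gl_C F) :
    gl_mapC t.j (((t.π σ' : ↥H) : F ≃ₐ[ℚ] F) • c) =
      ((σ' : ↥H') : F' ≃ₐ[ℚ] F') • gl_mapC t.j c := by
  induction c using QuotientGroup.induction_on with
  | H x =>
    rw [gl_smul_mk, gl_mapC_mk, gl_mapC_mk, gl_smul_mk, fof_mapJ_smul]

/-- The kernel of `π` as a subgroup of `Aut(F'/ℚ)`. -/
def fof_kerE : Subgroup (F' ≃ₐ[ℚ] F') := (t.π.ker).map H'.subtype

theorem fof_mem_kerE_iff (τ : F' ≃ₐ[ℚ] F') :
    τ ∈ fof_kerE t ↔ ∃ h : τ ∈ H', t.π ⟨τ, h⟩ = 1 := by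
  unfold fof_kerE
  constructor
  · rintro ⟨g, hg, rfl⟩
    exact ⟨g.2, hg⟩
  · rintro ⟨h, hτ⟩
    exact ⟨⟨τ, h⟩, hτ, rfl⟩

theorem fof_j_mem (x : F) : t.j x ∈ IntermediateField.fixedField (fof_kerE t) := by
  rw [IntermediateField.mem_fixedField_iff]
  intro τ hτ
  obtain ⟨h, hτ1⟩ := (fof_mem_kerE_iff t τ).1 hτ
  have h2 := t.compat ⟨τ, h⟩ x
  rw [hτ1] at h2
  exact h2.symm

/-- `F → F'^{ker π}`. -/
def fof_e₀ : F →ₐ[ℚ] ↥(IntermediateField.fixedField (fof_kerE t)) :=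
  t.j.codRestrict (IntermediateField.fixedField (fof_kerE t)).toSubalgebra (fof_j_mem t)

theorem fof_e₀_coe (x : F) : ((fof_e₀ t x : ↥(IntermediateField.fixedField (fof_kerE t))) : F') =
    t.j x := rfl

theorem fof_e₀_surjective : Function.Surjective (fof_e₀ t) := by
  intro y
  have h1 : (y : F') ∈ t.j.range := by
    apply t.fixed
    intro σ' hσ'
    have h2 := (IntermediateField.mem_fixedField_iff _ _).1 y.2
    exact h2 _ ((fof_mem_kerE_iff t _).2 ⟨σ'.2, hσ'⟩)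
  obtain ⟨x, hx⟩ := h1
  exact ⟨x, Subtype.ext hx⟩

/-- The inverse of `fof_e₀`. -/
def fof_e₁ : ↥(IntermediateField.fixedField (fof_kerE t)) →ₐ[ℚ] F :=
  ((AlgEquiv.ofBijective (fof_e₀ t)
    ⟨(fof_e₀ t).toRingHom.injective, fof_e₀_surjective t⟩).symm :
      ↥(IntermediateField.fixedField (fof_kerE t)) →ₐ[ℚ] F)

theorem fof_e₁_e₀ : (fof_e₁ t).comp (fof_e₀ t) = AlgHom.id ℚ F := by
  ext x
  exact (AlgEquiv.ofBijective (fof_e₀ t)
    ⟨(fof_e₀ t).toRingHom.injective, fof_e₀_surjective t⟩).symm_apply_apply x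

theorem fof_e₀_e₁ : (fof_e₀ t).comp (fof_e₁ t) =
    AlgHom.id ℚ ↥(IntermediateField.fixedField (fof_kerE t)) := by
  ext x
  exact congrArg Subtype.val ((AlgEquiv.ofBijective (fof_e₀ t)
    ⟨(fof_e₀ t).toRingHom.injective, fof_e₀_surjective t⟩).apply_symm_apply x)

theorem fof_mapC_fac (c : gl_C F) :
    gl_mapC t.j c =
      gl_resC F' (IntermediateField.fixedField (fof_kerE t)) (gl_mapC (fof_e₀ t) c) := by
  induction c using QuotientGroup.induction_on with
  | H x => rfl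

theorem fof_mapC_injective : Function.Injective (gl_mapC t.j) := by
  intro c c' h
  rw [fof_mapC_fac, fof_mapC_fac] at h
  have h1 := (gdsc_main F' (fof_kerE t)).1 h
  have h2 := congrArg (gl_mapC (fof_e₁ t)) h1
  rw [← fof_mapC_comp, ← fof_mapC_comp, fof_e₁_e₀, fof_mapC_id, fof_mapC_id] at h2
  exact h2

theorem fof_mapC_range (a : gl_C F')
    (ha : ∀ σ' : ↥H', t.π σ' = 1 → ((σ' : ↥H') : F' ≃ₐ[ℚ] F') • a = a) :
    ∃ b : gl_C F, gl_mapC t.j b = a := by
  have h1 : ∀ τ ∈ fof_kerE t, τ • a = a := by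
    intro τ hτ
    obtain ⟨h, hτ1⟩ := (fof_mem_kerE_iff t τ).1 hτ
    exact ha ⟨τ, h⟩ hτ1
  obtain ⟨b₀, hb₀⟩ := ((gdsc_main F' (fof_kerE t)).2 a).1 h1
  refine ⟨gl_mapC (fof_e₁ t) b₀, ?_⟩
  rw [fof_mapC_fac, ← fof_mapC_comp, fof_e₀_e₁, fof_mapC_id]
  exact hb₀

/-- The inflation datum of a tower: `C_F = C_{F'}^{ker π}` (Galois descent). -/
def fof_infData :
    fgI_InfData ↥H' ↥H (Additive (gl_C F')) (Additive (gl_C F)) where
  π := t.π
  ι := MonoidHom.toAdditive (gl_mapC t.j)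
  π_surj := t.surj
  ι_inj := fun a b h => congrArg Additive.ofMul
    (fof_mapC_injective t (congrArg Additive.toMul h))
  ι_smul := fun g b => congrArg Additive.ofMul (fof_mapC_smul t g b.toMul)
  ι_range := fun a ha => by
    obtain ⟨b, hb⟩ := fof_mapC_range t a.toMul (fun σ' hσ' => congrArg Additive.toMul (ha σ' hσ'))
    exact ⟨Additive.ofMul b, congrArg Additive.ofMul hb⟩

theorem fof_infData_π : (fof_infData t).π = t.π := rfl

theorem fof_inf₂_eq (a : ↥H × ↥H → Additive (gl_C F)) :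
    fgI_inf₂ (fof_infData t) a = gl_inflC t a := rfl

theorem fof_mk_inflJ (c : ↥H × ↥H → Additive (gl_J F)) (x : ↥H' × ↥H') :
    gl_mkA F' (gl_inflJ t c x) = gl_inflC t (fun y => gl_mkA F (c y)) x := rfl

/-- Inflation of idele-valued cocycles. -/
theorem fof_isCocycle₂_inflJ (c : ↥H × ↥H → Additive (gl_J F)) (hc : IsCocycle₂ c) :
    IsCocycle₂ (gl_inflJ t c) := by
  intro g h j
  have e := hc (t.π g) (t.π h) (t.π j)
  have e1 : Additive.ofMul (gl_mapJ t.j (c (t.π g * t.π h, t.π j) + c (t.π g, t.π h)).toMul) =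
      Additive.ofMul (gl_mapJ t.j (t.π g • c (t.π h, t.π j) + c (t.π g, t.π h * t.π j)).toMul) :=
    congrArg (fun z => Additive.ofMul (gl_mapJ t.j z.toMul)) e
  show Additive.ofMul (gl_mapJ t.j (c (t.π (g * h), t.π j)).toMul) +
      Additive.ofMul (gl_mapJ t.j (c (t.π g, t.π h)).toMul) =
    g • Additive.ofMul (gl_mapJ t.j (c (t.π h, t.π j)).toMul) +
      Additive.ofMul (gl_mapJ t.j (c (t.π g, t.π (h * j))).toMul)
  rw [map_mul, map_mul]
  have e2 : g • Additive.ofMul (gl_mapJ t.j (c (t.π h, t.π j)).toMul) =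
      Additive.ofMul (gl_mapJ t.j (t.π g • c (t.π h, t.π j)).toMul) :=
    (congrArg Additive.ofMul (fof_mapJ_smul t g (c (t.π h, t.π j)).toMul)).symm
  rw [e2]
  have e3 : ∀ a b : Additive (gl_J F), Additive.ofMul (gl_mapJ t.j (a + b).toMul) =
      Additive.ofMul (gl_mapJ t.j a.toMul) + Additive.ofMul (gl_mapJ t.j b.toMul) :=
    fun a b => congrArg Additive.ofMul (map_mul (gl_mapJ t.j) a.toMul b.toMul)
  rw [← e3, ← e3]
  exact e1

end infData

end

end Fermat.Agent.S55
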