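import Mathlib
import Fermat.Agent.S55.FG.Defs2
import Fermat.Agent.S55.FG.InfRes2
import Fermat.Agent.S55.FG.InfRes2Mid
import Fermat.Agent.S55.FG.H2Card
import Fermat.Agent.S55.FG.Cyc2
import Fermat.Agent.S55.FG.Syl
import Fermat.Agent.S55.Global.HerbCyc

/-!
# S55, global side, package [H1]/[H2-LE], part 1: the group-cohomological tools

* `h12_infres1` : inflation-restriction in degree 1 for an inflation datum `fgI_InfData`;
* `h12_pull…` : pull-back of cocycles along a group homomorphism compatible with the actions,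
  `h12_H1Zero_of_equiv`, `h12_card_H2_dvd_of_equiv`;
* `h12_triv_H1`, `h12_triv_H2` : the trivial group;
* `h12_cyc_H1`, `h12_cyc_H2_dvd` : cyclic groups, in terms of the Herbrand indices.
-/

set_option autoImplicit false

namespace Fermat.Agent.S55

open groupCohomology

noncomputable section

/-! ### Inflation-restriction in degree 1 -/

section infres

variable {G Q A B : Type*} [Group G] [Group Q] [AddCommGroup A] [AddCommGroup B]
  [DistribMulAction G A] [DistribMulAction Q B]

/-- **Inflation-restriction in degree 1**: if `H¹(H, A) = 0` and `H¹(Q, A^H) = 0` then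
`H¹(G, A) = 0`. -/
theorem h12_infres1 (D : fgI_InfData G Q A B) (h1 : fg_H1Zero D.π.ker A)
    (hQ : ∀ f : Q → B, IsCocycle₁ f → IsCoboundary₁ f) (f : G → A) (hf : IsCocycle₁ f) :
    IsCoboundary₁ f := by
  have hres : IsCocycle₁ (fun k : D.π.ker => f (k : G)) := fun k k' => hf k k'
  obtain ⟨m, hm⟩ := h1 _ hres
  set f' : G → A := fun g => f g - (g • m - m) with hf'
  have hf'c : IsCocycle₁ f' := by
    intro g h
    simp only [hf', hf g h, mul_smul, smul_sub]
    abel
  have hker : ∀ k : G, D.π k = 1 → f' k = 0 := by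
    intro k hk
    have h0 : k • m - m = f k := hm ⟨k, MonoidHom.mem_ker.2 hk⟩
    simp only [hf']
    rw [h0]
    exact sub_self _
  have hright : ∀ g k, D.π k = 1 → f' (g * k) = f' g := by
    intro g k hk
    rw [hf'c g k, hker k hk, smul_zero, zero_add]
  have hleft : ∀ g k, D.π k = 1 → f' (k * g) = k • f' g := by
    intro g k hk
    rw [hf'c k g, hker k hk, add_zero]
  have hinv : ∀ g k, D.π k = 1 → k • f' g = f' g := by
    intro g k hk
    rw [← hleft g k hk]
    have : k * g = g * (g⁻¹ * k * g) := by group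
    rw [this, hright g _ (fgI_π_conj' D hk g)]
  have hdep : ∀ g g', D.π g = D.π g' → f' g = f' g' := by
    intro g g' h
    have : g' = g * (g⁻¹ * g') := by group
    rw [this, hright]
    rw [map_mul, map_inv, h, inv_mul_cancel]
  choose b hb using fun g => D.ι_range (f' g) (fun k hk => hinv g k hk)
  set fbar : Q → B := fun q => b (Function.surjInv D.π_surj q) with hfbar_def
  have hfbar : ∀ g, D.ι (fbar (D.π g)) = f' g := by
    intro g
    simp only [hfbar_def]
    rw [hb]
    apply hdep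
    exact Function.surjInv_eq D.π_surj _
  have hfbarc : IsCocycle₁ fbar := by
    intro q q'
    obtain ⟨g, rfl⟩ := D.π_surj q
    obtain ⟨g', rfl⟩ := D.π_surj q'
    apply D.ι_inj
    rw [← map_mul, hfbar, map_add, D.ι_smul, hfbar, hfbar, hf'c]
  obtain ⟨bb, hbb⟩ := hQ fbar hfbarc
  refine ⟨m + D.ι bb, fun g => ?_⟩
  have h2 := hfbar g
  rw [← hbb, map_sub, D.ι_smul] at h2
  simp only [hf'] at h2
  rw [smul_add]
  have h3 : f g = g • D.ι bb - D.ι bb + (g • m - m) := by
    rw [h2]; abel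
  rw [h3]
  abel

end infres

/-! ### Pull-back along a homomorphism -/

section pull

variable {G₁ G₂ A : Type*} [Group G₁] [Group G₂] [AddCommGroup A]
  [DistribMulAction G₁ A] [DistribMulAction G₂ A]

theorem h12_pull_isCocycle₁ (e : G₁ →* G₂) (he : ∀ (g : G₁) (a : A), e g • a = g • a)
    {f : G₂ → A} (hf : IsCocycle₁ f) : IsCocycle₁ (fun g => f (e g)) := by
  intro g h
  simp only [map_mul]
  rw [hf, he]

theorem h12_pull_isCoboundary₁ (e : G₁ →* G₂) (he : ∀ (g : G₁) (a : A), e g • a = g • a)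
    {f : G₂ → A} (hf : IsCoboundary₁ f) : IsCoboundary₁ (fun g => f (e g)) := by
  obtain ⟨x, hx⟩ := hf
  exact ⟨x, fun g => by
    show g • x - x = f (e g)
    rw [← hx, he]⟩

theorem h12_pull_isCocycle₂ (e : G₁ →* G₂) (he : ∀ (g : G₁) (a : A), e g • a = g • a)
    {f : G₂ × G₂ → A} (hf : IsCocycle₂ f) : IsCocycle₂ (fun p : G₁ × G₁ => f (e p.1, e p.2)) := by
  intro g h j
  simp only [map_mul]
  rw [hf, he]

theorem h12_pull_isCoboundary₂ (e : G₁ →* G₂) (he : ∀ (g : G₁) (a : A), e g • a = g • a)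
    {f : G₂ × G₂ → A} (hf : IsCoboundary₂ f) :
    IsCoboundary₂ (fun p : G₁ × G₁ => f (e p.1, e p.2)) := by
  obtain ⟨x, hx⟩ := hf
  exact ⟨fun g => x (e g), fun g h => by
    show g • x (e h) - x (e (g * h)) + x (e g) = f (e g, e h)
    rw [← hx, he, map_mul]⟩

/-- `H¹ = 0` is invariant under isomorphisms compatible with the actions. -/
theorem h12_H1Zero_of_equiv (e : G₁ ≃* G₂) (he : ∀ (g : G₁) (a : A), e g • a = g • a)
    (h : ∀ f : G₂ → A, IsCocycle₁ f → IsCoboundary₁ f) (f : G₁ → A) (hf : IsCocycle₁ f) :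
    IsCoboundary₁ f := by
  have he' : ∀ (g : G₂) (a : A), e.symm g • a = g • a := by
    intro g a
    rw [← he, e.apply_symm_apply]
  have h1 := h _ (h12_pull_isCocycle₁ e.symm.toMonoidHom he' hf)
  have h2 := h12_pull_isCoboundary₁ e.toMonoidHom he h1
  simpa using h2

/-- Pull-back of 2-cocycles. -/
def h12_pullZ (e : G₁ →* G₂) (he : ∀ (g : G₁) (a : A), e g • a = g • a) :
    fg_Z2 G₂ A →+ fg_Z2 G₁ A where
  toFun f := ⟨fun p => (f : G₂ × G₂ → A) (e p.1, e p.2), h12_pull_isCocycle₂ e he f.2⟩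
  map_zero' := rfl
  map_add' _ _ := rfl

/-- Pull-back on `H²`. -/
def h12_pullH (e : G₁ →* G₂) (he : ∀ (g : G₁) (a : A), e g • a = g • a) :
    fg_H2 G₂ A →+ fg_H2 G₁ A :=
  QuotientAddGroup.map _ _ (h12_pullZ e he) (by
    intro f hf
    rw [AddSubgroup.mem_comap, AddSubgroup.mem_addSubgroupOf]
    rw [AddSubgroup.mem_addSubgroupOf] at hf
    exact h12_pull_isCoboundary₂ e he hf)

theorem h12_pullH_mk (e : G₁ →* G₂) (he : ∀ (g : G₁) (a : A), e g • a = g • a)
    (f : fg_Z2 G₂ A) : h12_pullH e he (fg_H2mk G₂ A f) = fg_H2mk G₁ A (h12_pullZ e he f) := rfl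

theorem h12_pullH_injective (e : G₁ ≃* G₂) (he : ∀ (g : G₁) (a : A), e g • a = g • a) :
    Function.Injective (h12_pullH e.toMonoidHom he) := by
  have he' : ∀ (g : G₂) (a : A), e.symm g • a = g • a := by
    intro g a
    rw [← he, e.apply_symm_apply]
  rw [injective_iff_map_eq_zero]
  intro x hx
  obtain ⟨f, rfl⟩ := fg_H2mk_surjective x
  rw [h12_pullH_mk, fg_H2mk_eq_zero_iff] at hx
  rw [fg_H2mk_eq_zero_iff]
  have h2 := h12_pull_isCoboundary₂ e.symm.toMonoidHom he' hx
  have h3 : (fun p : G₂ × G₂ => ((h12_pullZ e.toMonoidHom he f : fg_Z2 G₁ A) : G₁ × G₁ → A)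
      (e.symm.toMonoidHom p.1, e.symm.toMonoidHom p.2)) = (f : G₂ × G₂ → A) := by
    funext p
    show (f : G₂ × G₂ → A) (e (e.symm p.1), e (e.symm p.2)) = _
    rw [e.apply_symm_apply, e.apply_symm_apply]
  rw [h3] at h2
  exact h2

/-- The order of `H²` is invariant under isomorphisms compatible with the actions
(divisibility form). -/
theorem h12_card_H2_dvd_of_equiv (e : G₁ ≃* G₂) (he : ∀ (g : G₁) (a : A), e g • a = g • a) :
    Nat.card (fg_H2 G₂ A) ∣ Nat.card (fg_H2 G₁ A) :=
  AddSubgroup.card_dvd_of_injective _ (h12_pullH_injective e he)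

end pull

/-! ### The trivial group -/

section trivial

variable {G A : Type*} [Group G] [AddCommGroup A] [DistribMulAction G A]

theorem h12_triv_H1 [Subsingleton G] (f : G → A) (hf : IsCocycle₁ f) : IsCoboundary₁ f := by
  refine ⟨0, fun g => ?_⟩
  have hg : g = 1 := Subsingleton.elim _ _
  rw [hg, fgS_cocycle₁_one hf, smul_zero, sub_zero]

theorem h12_triv_H2 [Subsingleton G] (f : G × G → A) (_hf : IsCocycle₂ f) : IsCoboundary₂ f := by
  refine ⟨fun _ => f (1, 1), fun g h => ?_⟩
  have hg : g = 1 := Subsingleton.elim _ _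
  have hh : h = 1 := Subsingleton.elim _ _
  rw [hg, hh, one_smul]
  abel

theorem h12_triv_card_H2 [Subsingleton G] : Nat.card (fg_H2 G A) = 1 := by
  haveI : Subsingleton (fg_H2 G A) := (fg_H2Zero_top_iff (G := G) (A := A)).1 h12_triv_H2
  exact Nat.card_unique

end trivial

/-! ### Cyclic groups -/

section cyclic

variable {Q B : Type*} [Group Q] [AddCommGroup B] [DistribMulAction Q B] (L : fgD_Log Q)

/-- The value of a 1-cocycle at a power of the generator. -/
theorem h12_cocycle₁_pow {f : Q → B} (hf : IsCocycle₁ f) (s : Q) (i : ℕ) :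
    f (s ^ i) = ∑ k ∈ Finset.range i, s ^ k • f s := by
  induction i with
  | zero => simp [fgS_cocycle₁_one hf]
  | succ i ih =>
    rw [pow_succ, hf, ih, Finset.sum_range_succ]
    abel

/-- `H¹` of a cyclic group vanishes if `ker N = im (s - 1)`. -/
theorem h12_cyc_H1 (h : herb_idx (A := B) (herb_nrm L.s L.n) (herb_del L.s) = 1)
    (f : Q → B) (hf : IsCocycle₁ f) : IsCoboundary₁ f := by
  have hle : (herb_nrm L.s L.n : B →+ B).ker ≤ (herb_del L.s : B →+ B).range :=
    AddSubgroup.relIndex_eq_one.mp h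
  have hN : f L.s ∈ (herb_nrm L.s L.n : B →+ B).ker := by
    rw [AddMonoidHom.mem_ker, herb_nrm_apply, ← h12_cocycle₁_pow hf, L.pow_n,
      fgS_cocycle₁_one hf]
  obtain ⟨c, hc⟩ := hle hN
  rw [herb_del_apply] at hc
  refine ⟨c, fun g => ?_⟩
  rw [← L.pow_ι g]
  generalize L.ι g = i
  rw [h12_cocycle₁_pow hf, ← hc]
  induction i with
  | zero => simp
  | succ i ih =>
    rw [Finset.sum_range_succ, ← ih, pow_succ, mul_smul, smul_sub]
    abel

/-- The trace map from 2-cocycles to invariants. -/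
def h12_trZ : fg_Z2 Q B →+ (herb_del L.s : B →+ B).ker where
  toFun f := ⟨fgD_tr L (f : Q × Q → B), by
    rw [herb_mem_ker_del_iff]
    exact fgD_s_smul_tr L f.2⟩
  map_zero' := by
    apply Subtype.ext
    show fgD_tr L (fun _ => (0 : B)) = 0
    simp [fgD_tr]
  map_add' f g := by
    apply Subtype.ext
    exact fgD_tr_add L _ _

/-- The trace map `H²(Q, B) → B^Q / N B`. -/
def h12_trH : fg_H2 Q B →+
    (herb_del L.s : B →+ B).ker ⧸
      ((herb_nrm L.s L.n : B →+ B).range.addSubgroupOf (herb_del L.s : B →+ B).ker) :=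
  QuotientAddGroup.lift _ ((QuotientAddGroup.mk' _).comp (h12_trZ L)) (by
    intro f hf
    rw [AddSubgroup.mem_addSubgroupOf] at hf
    rw [AddMonoidHom.mem_ker, AddMonoidHom.comp_apply, QuotientAddGroup.mk'_apply,
      QuotientAddGroup.eq_zero_iff, AddSubgroup.mem_addSubgroupOf]
    obtain ⟨w, hw⟩ := fgD_tr_of_isCoboundary L hf
    refine ⟨w, ?_⟩
    rw [herb_nrm_apply]
    exact hw.symm)

theorem h12_trH_injective : Function.Injective (h12_trH (B := B) L) := by
  rw [injective_iff_map_eq_zero]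
  intro x hx
  obtain ⟨f, rfl⟩ := fg_H2mk_surjective x
  rw [fg_H2mk_eq_zero_iff]
  have h1 : h12_trH (B := B) L (fg_H2mk Q B f) = QuotientAddGroup.mk (h12_trZ L f) := rfl
  rw [h1, QuotientAddGroup.eq_zero_iff, AddSubgroup.mem_addSubgroupOf] at hx
  obtain ⟨w, hw⟩ := hx
  rw [fgD_isCoboundary_iff L f.2]
  refine ⟨w, ?_⟩
  rw [herb_nrm_apply] at hw
  exact hw.symm

/-- The order of `H²` of a cyclic group divides `[B^Q : N B]`. -/
theorem h12_cyc_H2_dvd :
    Nat.card (fg_H2 Q B) ∣ herb_idx (A := B) (herb_del L.s) (herb_nrm L.s L.n) :=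
  AddSubgroup.card_dvd_of_injective _ (h12_trH_injective L)

end cyclic

/-! ### Representatives -/

section reps

variable {G A : Type*} [Group G] [AddCommGroup A] [DistribMulAction G A]

/-- If `#H²(G, A)` divides `n > 0`, there is a set of at most `n` cocycles representing all
classes. -/
theorem h12_exists_reps (n : ℕ) (hn : 0 < n) (h : Nat.card (fg_H2 G A) ∣ n) :
    ∃ Z : Finset (G × G → A), Z.card ≤ n ∧
      ∀ f : G × G → A, IsCocycle₂ f → ∃ z ∈ Z, IsCoboundary₂ (fun x => f x - z x) := by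
  classical
  have hne : Nat.card (fg_H2 G A) ≠ 0 := by
    intro h0
    rw [h0, zero_dvd_iff] at h
    exact hn.ne' h
  haveI : Finite (fg_H2 G A) := Nat.finite_of_card_ne_zero hne
  letI : Fintype (fg_H2 G A) := Fintype.ofFinite _
  set rep : fg_H2 G A → fg_Z2 G A := Function.surjInv (fg_H2mk_surjective (G := G) (A := A))
    with hrep
  have hrep_spec : ∀ c, fg_H2mk G A (rep c) = c :=
    Function.surjInv_eq (fg_H2mk_surjective (G := G) (A := A))
  refine ⟨Finset.univ.image (fun c => ((rep c : fg_Z2 G A) : G × G → A)), ?_, ?_⟩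
  · refine (Finset.card_image_le).trans ?_
    rw [Finset.card_univ, ← Nat.card_eq_fintype_card]
    exact Nat.le_of_dvd hn h
  · intro f hf
    refine ⟨_, Finset.mem_image_of_mem _ (Finset.mem_univ (fg_H2mk G A ⟨f, hf⟩)), ?_⟩
    have h1 : fg_H2mk G A (⟨f, hf⟩ - rep (fg_H2mk G A ⟨f, hf⟩)) = 0 := by
      rw [map_sub, hrep_spec, sub_self]
    rw [fg_H2mk_eq_zero_iff] at h1
    exact h1

end reps

end

end Fermat.Agent.S55
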