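import Mathlib
import Fermat.Agent.S55.Global.FundOfInj
import Fermat.Agent.S55.Global.FundOfOne
import Fermat.Agent.S55.Global.FundOfTower
import Fermat.Agent.S55.FG.InfRes2Mid
import Fermat.Agent.S55.Global.H1H2Alg

/-!
# S55, global side, assembly [FUND-OF], part 7: the core of the assembly

Given towers `(F, H) ← (M, G_M) → (L, Ḡ)` with `G_M` a `p`-group, `#Ḡ = #H` and a prime `q` with an
embedding of `M` whose decomposition group is all of `Ḡ` resp. of `Gal(M/F)`, the idele class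
group of `F` has a fundamental class for `H`, compatible with the sums of local invariants.
Prefix `fof_`.
-/

set_option autoImplicit false
set_option linter.unusedSectionVars false
set_option linter.unusedVariables false
set_option linter.style.longLine false
set_option linter.style.haveILetI false

namespace Fermat.Agent.S55

open groupCohomology

noncomputable section

/-! ### Generalities -/

section algebra

variable {A : Type*} [AddCommGroup A]

theorem fof_alg₁ (k : ℤ) (x y : A) : k • (x - y) + k • y = k • x := by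
  rw [smul_sub, sub_add_cancel]

theorem fof_alg₂ (k : ℤ) (x a u : A) : x - k • a - k • (u - a) = x - k • u := by
  rw [smul_sub]
  abel

theorem fof_alg₃ (x y : A) : x - (0 : ℤ) • y = x := by
  rw [zero_smul, sub_zero]

theorem fof_alg₄ (m k : ℤ) (x y : A) : x - k • y - (m - k) • y = x - m • y := by
  rw [sub_smul]
  abel

end algebra

section general

variable {G₀ A : Type*} [Group G₀] [AddCommGroup A] [DistribMulAction G₀ A]

theorem fof_res₂_isCocycle {H₁ H : Subgroup G₀} (h : H₁ ≤ H) {c : ↥H × ↥H → A}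
    (hc : IsCocycle₂ c) : IsCocycle₂ (gl_res₂ h c) :=
  h12_pull_isCocycle₂ (Subgroup.inclusion h) (fun _ _ => rfl) hc

theorem fof_res₂_isCoboundary {H₁ H : Subgroup G₀} (h : H₁ ≤ H) {c : ↥H × ↥H → A}
    (hc : IsCoboundary₂ c) : IsCoboundary₂ (gl_res₂ h c) :=
  h12_pull_isCoboundary₂ (Subgroup.inclusion h) (fun _ _ => rfl) hc

end general

section equiv

variable {G₁ G₂ A : Type*} [Group G₁] [Group G₂] [AddCommGroup A]
  [DistribMulAction G₁ A] [DistribMulAction G₂ A]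

/-- The elementwise second inequality is invariant under isomorphisms compatible with the
actions. -/
theorem fof_H2Le_of_equiv (e : G₁ ≃* G₂) (he : ∀ (g : G₁) (a : A), e g • a = g • a) {n : ℕ}
    (h : fgT_H2Le G₂ A n) : fgT_H2Le G₁ A n := by
  classical
  obtain ⟨Z, hZ, hrep⟩ := h
  have he' : ∀ (g : G₂) (a : A), e.symm g • a = g • a := by
    intro g a
    rw [← he, e.apply_symm_apply]
  refine ⟨Z.image (fun z => fun p : G₁ × G₁ => z (e p.1, e p.2)),
    le_trans Finset.card_image_le hZ, fun f hf => ?_⟩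
  obtain ⟨z, hz, hcob⟩ := hrep (fun p : G₂ × G₂ => f (e.symm p.1, e.symm p.2))
    (h12_pull_isCocycle₂ e.symm.toMonoidHom he' hf)
  refine ⟨fun p : G₁ × G₁ => z (e p.1, e p.2), Finset.mem_image_of_mem _ hz, ?_⟩
  have h1 := h12_pull_isCoboundary₂ e.toMonoidHom he hcob
  have e1 : (fun p : G₁ × G₁ => (fun x : G₂ × G₂ => f (e.symm x.1, e.symm x.2) - z x)
      (e.toMonoidHom p.1, e.toMonoidHom p.2)) = fun x => f x - z (e x.1, e x.2) := by
    funext p
    show f (e.symm (e p.1), e.symm (e p.2)) - z (e p.1, e p.2) = _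
    rw [e.symm_apply_apply, e.symm_apply_apply]
  rw [e1] at h1
  exact h1

end equiv

section tower

variable {F F' : Type} [Field F] [Field F'] [NumberField F] [NumberField F']
  {H : Subgroup (F ≃ₐ[ℚ] F)} {H' : Subgroup (F' ≃ₐ[ℚ] F')} (t : gl_Tower F F' H H')

theorem fof_kerE_le : fof_kerE t ≤ H' := Subgroup.map_subtype_le _

theorem fof_kerE_relIndex : (fof_kerE t).relIndex H' = Nat.card ↥H := by
  unfold fof_kerE Subgroup.relIndex
  have e : (Subgroup.map H'.subtype t.π.ker).subgroupOf H' = t.π.ker :=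
    Subgroup.comap_map_eq_self_of_injective H'.subtype_injective _
  rw [e, Subgroup.index_ker, MonoidHom.range_eq_top.2 t.surj, Subgroup.card_top]

include t in
theorem fof_zeta_tower {p : ℕ} (hζ : ∃ ζ : F, IsPrimitiveRoot ζ p) :
    ∃ ζ : F', IsPrimitiveRoot ζ p := by
  obtain ⟨ζ, hζ⟩ := hζ
  exact ⟨t.j ζ, hζ.map_of_injective (t.j : F →+* F').injective⟩

/-- The isomorphism `ker π ≅ Gal(F'/F) ≤ Aut(F'/ℚ)`. -/
def fof_kerEquiv : ↥(t.π.ker) ≃* ↥(fof_kerE t) :=
  Subgroup.equivMapOfInjective t.π.ker H'.subtype H'.subtype_injective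

theorem fof_kerEquiv_coe (g : ↥(t.π.ker)) :
    ((fof_kerEquiv t g : ↥(fof_kerE t)) : F' ≃ₐ[ℚ] F') = ((g : ↥H') : F' ≃ₐ[ℚ] F') := rfl

theorem fof_inf₂_sub_zsmul (f a : ↥H × ↥H → Additive (gl_C F)) (k : ℤ) :
    fgI_inf₂ (fof_infData t) (fun x => f x - k • a x) =
      fun x => gl_inflC t f x - k • gl_inflC t a x := by
  funext x
  have h1 := map_sub (fof_infData t).ι (f (t.π x.1, t.π x.2)) (k • a (t.π x.1, t.π x.2))
  have h2 := map_zsmul (fof_infData t).ι k (a (t.π x.1, t.π x.2))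
  rw [h2] at h1
  exact h1

theorem fof_inf₂_zsmul (a : ↥H × ↥H → Additive (gl_C F)) (k : ℤ) :
    fgI_inf₂ (fof_infData t) (fun x => k • a x) = fun x => k • gl_inflC t a x := by
  funext x
  exact map_zsmul (fof_infData t).ι k (a (t.π x.1, t.π x.2))

end tower

/-! ### Order and comparison through a tower -/

section ordcmp

variable {inv : lcf_InvType} (hinv : lcf_IsInvSystem inv)
  {F M : Type} [Field F] [Field M] [NumberField F] [NumberField M]
  {H : Subgroup (F ≃ₐ[ℚ] F)} {GM : Subgroup (M ≃ₐ[ℚ] M)} (t : gl_Tower F M H GM)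

include hinv in
/-- If the inflation of `a` to `M` is the class of an idele-valued cocycle `u` with sum of
invariants `1/N`, the order of the class of `a` is divisible by `N`. -/
theorem fof_ordT (hrecip : gl_RecipStatement) (p : ℕ) (hp : p.Prime) (hp2 : p ≠ 2)
    (hGM : IsPGroup p ↥GM) (N : ℕ) (hN : 0 < N)
    (u : ↥GM × ↥GM → Additive (gl_J M)) (hu : IsCocycle₂ u)
    (hus : gl_sumJ inv M GM u = lcf_qz (1 / (N : ℚ)))
    (a : ↥H × ↥H → Additive (gl_C F))
    (hmid : IsCoboundary₂ (fun x => gl_mkA M (u x) - gl_inflC t a x))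
    (k : ℤ) (hk : IsCoboundary₂ (fun x => k • a x)) : (N : ℤ) ∣ k := by
  have h1 : IsCoboundary₂ (fun x => k • gl_inflC t a x) := by
    have := fgC_isCoboundary₂_inf (fof_infData t) hk
    rw [fof_inf₂_zsmul] at this
    exact this
  have h2 := fof_isCoboundary₂_zsmul hmid k
  have h3 := fof_isCoboundary₂_add h2 h1
  have e : (fun y => k • (gl_mkA M (u y) - gl_inflC t a y) + k • gl_inflC t a y) =
      fun y => k • gl_mkA M (u y) := by
    funext y
    exact fof_alg₁ k (gl_mkA M (u y)) (gl_inflC t a y)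
  rw [e] at h3
  exact fof_ord hinv GM hrecip p hp hp2 hGM N hN u hu hus k h3

include hinv in
/-- Comparison of the class of an idele-valued cocycle of `H` with a multiple of `a`. -/
theorem fof_cmpT (hrecip : gl_RecipStatement) (p : ℕ) (hp : p.Prime) (hp2 : p ≠ 2)
    (hGM : IsPGroup p ↥GM) (N : ℕ) (hN : 0 < N)
    (u : ↥GM × ↥GM → Additive (gl_J M)) (hu : IsCocycle₂ u)
    (hus : gl_sumJ inv M GM u = lcf_qz (1 / (N : ℚ)))
    (a : ↥H × ↥H → Additive (gl_C F))
    (hmid : IsCoboundary₂ (fun x => gl_mkA M (u x) - gl_inflC t a x))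
    (c : ↥H × ↥H → Additive (gl_J F)) (hc : IsCocycle₂ c) (m k : ℤ)
    (hcs : gl_sumJ inv F H c = lcf_qz ((m : ℚ) / (N : ℚ)))
    (hk : IsCoboundary₂ (fun x => gl_mkA F (c x) - k • a x)) : (N : ℤ) ∣ m - k := by
  have h1 : IsCoboundary₂ (fun x => gl_mkA M (gl_inflJ t c x) - k • gl_inflC t a x) := by
    have := fgC_isCoboundary₂_inf (fof_infData t) hk
    rw [fof_inf₂_sub_zsmul] at this
    exact this
  have h2 := fof_isCoboundary₂_zsmul hmid k
  have h3 := fof_isCoboundary₂_sub h1 h2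
  have e : (fun y => gl_mkA M (gl_inflJ t c y) - k • gl_inflC t a y -
      k • (gl_mkA M (u y) - gl_inflC t a y)) =
      fun y => gl_mkA M (gl_inflJ t c y) - k • gl_mkA M (u y) := by
    funext y
    exact fof_alg₂ k (gl_mkA M (gl_inflJ t c y)) (gl_inflC t a y) (gl_mkA M (u y))
  rw [e] at h3
  refine fof_cmp hinv GM hrecip p hp hp2 hGM N hN u hu hus (gl_inflJ t c)
    (fof_isCocycle₂_inflJ t c hc) m k ?_ h3
  rw [fof_sumJ_infl hinv t c hc]
  exact hcs

include hinv in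
/-- **Exactness in the middle**: an idele-valued cocycle `u` of `G_M` whose sum of invariants is
`1 / #H` is, modulo principal ideles and coboundaries, inflated from a `C_F`-valued cocycle of
`H`. -/
theorem fof_mid (hrecip : gl_RecipStatement) (hH1 : gl_H1Statement) (hH2 : gl_H2LeStatement)
    (p : ℕ) (hp : p.Prime) (hp2 : p ≠ 2) (hζ : ∃ ζ : M, IsPrimitiveRoot ζ p)
    (hGM : IsPGroup p ↥GM) {q : ℕ} [Fact q.Prime] (ι : M →ₐ[ℚ] PadicAlgCl q)
    (hsM : Function.Surjective (gl_locSigma q M (fof_kerE t) ι))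
    (u : ↥GM × ↥GM → Additive (gl_J M)) (hu : IsCocycle₂ u)
    (hus : gl_sumJ inv M GM u = lcf_qz (1 / (Nat.card ↥H : ℚ))) :
    ∃ a : ↥H × ↥H → Additive (gl_C F), IsCocycle₂ a ∧
      IsCoboundary₂ (fun x => gl_mkA M (u x) - gl_inflC t a x) := by
  have hZ : fof_kerE t ≤ GM := fof_kerE_le t
  have hZp : IsPGroup p ↥(fof_kerE t) := hGM.to_le hZ
  obtain ⟨c₂, hc₂, hs₂⟩ := fof_sumOne hinv (fof_kerE t) ι hsM
  have huZ : IsCocycle₂ (gl_res₂ hZ u) := fof_res₂_isCocycle hZ hu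
  have hsZ : gl_sumJ inv M (fof_kerE t) (gl_res₂ hZ u) =
      lcf_qz (((0 : ℤ) : ℚ) / (Nat.card ↥(fof_kerE t) : ℚ)) := by
    rw [fof_sumJ_res hinv (fof_kerE t) hZ u hu, fof_kerE_relIndex, hus, lfund_nsmul_qz,
      Int.cast_zero, zero_div, map_zero]
  have hcobZ := fof_inj hinv (fof_kerE t) hrecip hH2 p hp hp2 hζ hZp c₂ hc₂ hs₂
    (gl_res₂ hZ u) huZ 0 hsZ
  have hcobZ' : IsCoboundary₂ (fun y : ↥(fof_kerE t) × ↥(fof_kerE t) =>
      gl_mkA M (gl_res₂ hZ u y)) := by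
    have e : (fun y => gl_mkA M (gl_res₂ hZ u y) - (0 : ℤ) • gl_mkA M (c₂ y)) =
        fun y => gl_mkA M (gl_res₂ hZ u y) := by
      funext y
      exact fof_alg₃ (gl_mkA M (gl_res₂ hZ u y)) (gl_mkA M (c₂ y))
    rw [e] at hcobZ
    exact hcobZ
  have h1 : fg_H1Zero (fof_infData t).π.ker (Additive (gl_C M)) := fun f hf =>
    h12_H1Zero_of_equiv (fof_kerEquiv t) (fun _ _ => rfl) (hH1 M p hp hp2 hζ (fof_kerE t) hZp)
      f hf
  have hres : IsCoboundary₂ (fg_res₂ (fof_infData t).π.ker (fun x => gl_mkA M (u x))) :=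
    h12_pull_isCoboundary₂ (fof_kerEquiv t).toMonoidHom (fun _ _ => rfl) hcobZ'
  obtain ⟨a, ha, hmid⟩ := fgI_mid _ _ _ _ (fof_infData t) h1 (fun x => gl_mkA M (u x))
    (fof_isCocycle₂_mk GM u hu) hres
  exact ⟨a, ha, hmid⟩

end ordcmp

/-! ### The core -/

section core

variable {inv : lcf_InvType} (hinv : lcf_IsInvSystem inv)
  {F M L : Type} [Field F] [Field M] [Field L] [NumberField F] [NumberField M] [NumberField L]
  {H : Subgroup (F ≃ₐ[ℚ] F)} {GM : Subgroup (M ≃ₐ[ℚ] M)} {G₁ : Subgroup (L ≃ₐ[ℚ] L)}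
  (tF : gl_Tower F M H GM) (tL : gl_Tower L M G₁ GM)

theorem fof_card_mul_relIndex {H' : Subgroup (F ≃ₐ[ℚ] F)} (h : H' ≤ H) :
    ((H'.relIndex H : ℕ) : ℚ) * (1 / (Nat.card ↥H : ℚ)) = 1 / (Nat.card ↥H' : ℚ) := by
  have h1 := Subgroup.relIndex_mul_relIndex ⊥ H' H (bot_le : (⊥ : Subgroup (F ≃ₐ[ℚ] F)) ≤ H') h
  rw [Subgroup.relIndex_bot_left, Subgroup.relIndex_bot_left] at h1
  have h2 : (Nat.card ↥H : ℚ) = (Nat.card ↥H' : ℚ) * (H'.relIndex H : ℚ) := by
    rw [← h1]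
    push_cast
    ring
  have h3 : (Nat.card ↥H' : ℚ) ≠ 0 := by
    exact_mod_cast (Nat.card_pos (α := ↥H')).ne'
  have h4 : (Nat.card ↥H : ℚ) ≠ 0 := by
    exact_mod_cast (Nat.card_pos (α := ↥H)).ne'
  have h5 : ((H'.relIndex H : ℕ) : ℚ) ≠ 0 := by
    intro h0
    rw [h0, mul_zero] at h2
    exact h4 h2
  rw [h2]
  field_simp

include hinv in
/-- **The core of [FUND-OF]**. -/
theorem fof_core (hrecip : gl_RecipStatement) (hH1 : gl_H1Statement) (hH2 : gl_H2LeStatement)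
    (p : ℕ) (hp : p.Prime) (hp2 : p ≠ 2) (hζ : ∃ ζ : F, IsPrimitiveRoot ζ p)
    (hH : IsPGroup p ↥H) (hGM : IsPGroup p ↥GM) (hcard : Nat.card ↥G₁ = Nat.card ↥H)
    {q : ℕ} [Fact q.Prime] (ι : M →ₐ[ℚ] PadicAlgCl q)
    (hsL : Function.Surjective (gl_locSigma q L G₁ (ι.comp tL.j)))
    (hsM : Function.Surjective (gl_locSigma q M (fof_kerE tF) ι)) :
    ∃ a : ↥H × ↥H → Additive (gl_C F), fg_TateHyp a ∧
      ∀ (H' : Subgroup (F ≃ₐ[ℚ] F)) (h : H' ≤ H) (c : ↥H' × ↥H' → Additive (gl_J F)),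
        IsCocycle₂ c → ∀ m : ℤ,
          gl_sumJ inv F H' c = lcf_qz ((m : ℚ) / (Nat.card H' : ℚ)) →
          IsCoboundary₂ (fun x : ↥H' × ↥H' =>
            gl_mkA F (c x) - m • a (Subgroup.inclusion h x.1, Subgroup.inclusion h x.2)) := by
  have hn : 0 < Nat.card ↥H := Nat.card_pos
  have hζM := fof_zeta_tower tF hζ
  obtain ⟨c₁, hc₁, hs₁⟩ := fof_sumOne hinv G₁ (ι.comp tL.j) hsL
  rw [hcard] at hs₁
  have hu : IsCocycle₂ (gl_inflJ tL c₁) := fof_isCocycle₂_inflJ tL c₁ hc₁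
  have hus : gl_sumJ inv M GM (gl_inflJ tL c₁) = lcf_qz (1 / (Nat.card ↥H : ℚ)) := by
    rw [fof_sumJ_infl hinv tL c₁ hc₁, hs₁]
  obtain ⟨a, ha, hmid⟩ := fof_mid hinv tF hrecip hH1 hH2 p hp hp2 hζM hGM ι hsM
    (gl_inflJ tL c₁) hu hus
  have hord := fof_ordT hinv tF hrecip p hp hp2 hGM (Nat.card ↥H) hn (gl_inflJ tL c₁) hu hus
    a hmid
  have h1' : ∀ K : Subgroup ↥H, fg_H1Zero K (Additive (gl_C F)) := fun K f hf =>
    h12_H1Zero_of_equiv (Subgroup.equivMapOfInjective K H.subtype H.subtype_injective)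
      (fun _ _ => rfl)
      (hH1 F p hp hp2 hζ (K.map H.subtype) (hH.to_le (Subgroup.map_subtype_le K))) f hf
  have h2' : ∀ K : Subgroup ↥H, fgT_H2Le K (Additive (gl_C F)) (Nat.card K) := fun K => by
    have h := fof_H2Le_of_equiv
      (Subgroup.equivMapOfInjective K H.subtype H.subtype_injective) (fun _ _ => rfl)
      (hH2 F p hp hp2 hζ (K.map H.subtype) (hH.to_le (Subgroup.map_subtype_le K)))
    rw [← Nat.card_congr
      (Subgroup.equivMapOfInjective K H.subtype H.subtype_injective).toEquiv] at h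
    exact h
  refine ⟨a, fgT_tateHyp_of_H2Le a h1' h2' ha hord, ?_⟩
  intro H' h c hc m hsum
  have hG'le : fof_pre tF H' ≤ GM := fof_pre_le tF H'
  have hG'p : IsPGroup p ↥(fof_pre tF H') := hGM.to_le hG'le
  have hH'p : IsPGroup p ↥H' := hH.to_le h
  have hn' : 0 < Nat.card ↥H' := Nat.card_pos
  have hu' : IsCocycle₂ (gl_res₂ hG'le (gl_inflJ tL c₁)) := fof_res₂_isCocycle hG'le hu
  have hus' : gl_sumJ inv M (fof_pre tF H') (gl_res₂ hG'le (gl_inflJ tL c₁)) =
      lcf_qz (1 / (Nat.card ↥H' : ℚ)) := by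
    rw [fof_sumJ_res hinv (fof_pre tF H') hG'le (gl_inflJ tL c₁) hu, fof_pre_relIndex tF H' h,
      hus, fof_nsmul_qz, fof_card_mul_relIndex h]
  have ha' : IsCocycle₂ (gl_res₂ h a) := fof_res₂_isCocycle h ha
  have hmid' : IsCoboundary₂ (fun x => gl_mkA M (gl_res₂ hG'le (gl_inflJ tL c₁) x) -
      gl_inflC (fof_subTower tF H' h) (gl_res₂ h a) x) := by
    have h1 := fof_res₂_isCoboundary hG'le hmid
    rw [fof_subTower_inflC tF H' h a]
    exact h1
  have hord' := fof_ordT hinv (fof_subTower tF H' h) hrecip p hp hp2 hG'p (Nat.card ↥H') hn'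
    (gl_res₂ hG'le (gl_inflJ tL c₁)) hu' hus' (gl_res₂ h a) hmid'
  obtain ⟨k, hk⟩ := fof_gen_abs (hH2 F p hp hp2 hζ H' hH'p) (gl_res₂ h a) ha' hord'
    (fun y => gl_mkA F (c y)) (fof_isCocycle₂_mk H' c hc)
  have hdvd := fof_cmpT hinv (fof_subTower tF H' h) hrecip p hp hp2 hG'p (Nat.card ↥H') hn'
    (gl_res₂ hG'le (gl_inflJ tL c₁)) hu' hus' (gl_res₂ h a) hmid' c hc m k hsum hk
  have h3 := fof_isCoboundary₂_of_dvd ha' (m - k) hdvd
  have h4 := fof_isCoboundary₂_sub hk h3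
  have e : (fun y => gl_mkA F (c y) - k • gl_res₂ h a y - (m - k) • gl_res₂ h a y) =
      fun x : ↥H' × ↥H' =>
        gl_mkA F (c x) - m • a (Subgroup.inclusion h x.1, Subgroup.inclusion h x.2) := by
    funext y
    exact fof_alg₄ m k (gl_mkA F (c y)) (gl_res₂ h a y)
  rw [e] at h4
  exact h4

end core

end

end Fermat.Agent.S55
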