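/-
S55 (wave 5), GLOBAL side, package [PLACES] (helper23): the DICTIONARY between the embeddings
`ι : F →ₐ[ℚ] Ω_q` (`Ω_q = PadicAlgCl q`) of a number field and the primes of `𝓞 F` above `q`.
Prefix `plc_`.

* (P0) `plc_norm_le_one`  : `‖ι a‖ ≤ 1` for `a ∈ 𝓞 F`;
* (P1) `plc_prime q ι`    : the prime `{a ∈ 𝓞 F | ‖ι a‖ < 1}` of `𝓞 F` (it contains `q`);
* (P2) `plc_norm_eq`      : `‖ι x‖ = c ^ ord_P x`, `P = plc_prime q ι`, `c = plc_c q ι ∈ (0,1)` the
                            norm of a uniformizer, `ord_P x = - log (valuation of x)`;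
* (P3) `plc_conj`         : embeddings with the same prime are conjugate under `Gal(Ω_q/ℚ_q)`;
* (P4) `plc_value`        : the norm of every component of a semi-local idele is the norm of an
                            element of `Fˣ`;
* `plc_approx`            : rational approximation of polynomials over `ℚ_q`;
* `plc_algHom_ext`        : embeddings of `F = ℚ(θ)` are determined by the image of `θ`.
-/
import Mathlib
import Fermat.Agent.S55.Global.Defs
import Fermat.Agent.S55.Local.Krasner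

set_option autoImplicit false

namespace Fermat.Agent.S55

open Polynomial IsDedekindDomain NumberField IntermediateField

noncomputable section

section basic

variable (q : ℕ) [Fact q.Prime]

theorem plc_norm_intCast_le_one (m : ℤ) : ‖(m : PadicAlgCl q)‖ ≤ 1 := by
  have h : (m : PadicAlgCl q) = algebraMap ℚ_[q] (PadicAlgCl q) (m : ℚ_[q]) := by
    simp
  rw [h, PadicAlgCl.norm_extends]
  exact Padic.norm_int_le_one m

theorem plc_norm_q : ‖(q : PadicAlgCl q)‖ = (q : ℝ)⁻¹ := by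
  have h : (q : PadicAlgCl q) = algebraMap ℚ_[q] (PadicAlgCl q) (q : ℚ_[q]) := by
    simp
  rw [h, PadicAlgCl.norm_extends]
  exact Padic.norm_p

/-- Elements of `PadicAlgCl q` which are integral over `ℤ` have norm `≤ 1`. -/
theorem plc_norm_le_one_of_isIntegral {x : PadicAlgCl q} (hx : IsIntegral ℤ x) : ‖x‖ ≤ 1 := by
  by_contra hlt
  rw [not_le] at hlt
  obtain ⟨p, hmonic, hp⟩ := hx
  have hn : p.natDegree ≠ 0 := by
    intro h0
    have h1 : p = 1 := (hmonic.natDegree_eq_zero).mp h0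
    rw [h1] at hp
    simp at hp
  have hsum := hmonic.as_sum
  have heval : x ^ p.natDegree =
      - ∑ i ∈ Finset.range p.natDegree, ((p.coeff i : ℤ) : PadicAlgCl q) * x ^ i := by
    have h2 : eval₂ (algebraMap ℤ (PadicAlgCl q)) x p = 0 := hp
    rw [hsum] at h2
    simp only [eval₂_add, eval₂_pow, eval₂_X, eval₂_finsetSum, eval₂_mul, eval₂_C] at h2
    rw [eq_neg_iff_add_eq_zero]
    simpa using h2
  have hx0 : (0 : ℝ) ≤ ‖x‖ := norm_nonneg x
  have hbound : ‖∑ i ∈ Finset.range p.natDegree, ((p.coeff i : ℤ) : PadicAlgCl q) * x ^ i‖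
      ≤ ‖x‖ ^ (p.natDegree - 1) := by
    apply IsUltrametricDist.norm_sum_le_of_forall_le_of_nonneg (by positivity)
    intro i hi
    rw [Finset.mem_range] at hi
    rw [norm_mul, norm_pow]
    calc ‖((p.coeff i : ℤ) : PadicAlgCl q)‖ * ‖x‖ ^ i ≤ 1 * ‖x‖ ^ i := by
          apply mul_le_mul_of_nonneg_right (plc_norm_intCast_le_one q _) (by positivity)
      _ = ‖x‖ ^ i := one_mul _
      _ ≤ ‖x‖ ^ (p.natDegree - 1) := pow_le_pow_right₀ hlt.le (by omega)
  have h3 : ‖x‖ ^ p.natDegree ≤ ‖x‖ ^ (p.natDegree - 1) := by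
    rw [← norm_pow, heval, norm_neg]
    exact hbound
  have h4 : ‖x‖ ^ (p.natDegree - 1) < ‖x‖ ^ p.natDegree :=
    pow_lt_pow_right₀ hlt (by omega)
  exact absurd h3 (not_le.mpr h4)

/-- Rational approximation of a polynomial over `ℚ_q`, uniformly on bounded sets. -/
theorem plc_approx (P : ℚ_[q][X]) (B : ℝ) (hB : 1 ≤ B) (ε : ℝ) (hε : 0 < ε) :
    ∃ Q : ℚ[X], ∀ x : PadicAlgCl q, ‖x‖ ≤ B → ‖aeval x Q - aeval x P‖ < ε := by
  have hB0 : 0 < B := lt_of_lt_of_le one_pos hB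
  set d := P.natDegree with hd
  have hε' : 0 < ε / (2 * B ^ d) := by positivity
  choose r hr using fun i : ℕ =>
    Metric.denseRange_iff.mp (kras_denseRange q) (P.coeff i) (ε / (2 * B ^ d)) hε'
  refine ⟨∑ i ∈ Finset.range (d + 1), C (r i) * X ^ i, ?_⟩
  intro x hx
  have h1 : aeval x P =
      ∑ i ∈ Finset.range (d + 1), algebraMap ℚ_[q] (PadicAlgCl q) (P.coeff i) * x ^ i := by
    rw [aeval_eq_sum_range]
    apply Finset.sum_congr rfl
    intro i _
    rw [Algebra.smul_def]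
  have h2 : aeval x (∑ i ∈ Finset.range (d + 1), C (r i) * X ^ i : ℚ[X]) =
      ∑ i ∈ Finset.range (d + 1),
        algebraMap ℚ_[q] (PadicAlgCl q) (algebraMap ℚ ℚ_[q] (r i)) * x ^ i := by
    rw [map_sum]
    apply Finset.sum_congr rfl
    intro i _
    rw [map_mul, aeval_C, map_pow, aeval_X]
    congr 1
  rw [h1, h2, ← Finset.sum_sub_distrib]
  have h3 : ‖∑ i ∈ Finset.range (d + 1),
      (algebraMap ℚ_[q] (PadicAlgCl q) (algebraMap ℚ ℚ_[q] (r i)) * x ^ i -
        algebraMap ℚ_[q] (PadicAlgCl q) (P.coeff i) * x ^ i)‖ ≤ ε / 2 := by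
    apply IsUltrametricDist.norm_sum_le_of_forall_le_of_nonneg (by positivity)
    intro i hi
    rw [Finset.mem_range] at hi
    rw [← sub_mul, ← map_sub, norm_mul, PadicAlgCl.norm_extends, norm_pow]
    have h4 : ‖algebraMap ℚ ℚ_[q] (r i) - P.coeff i‖ ≤ ε / (2 * B ^ d) := by
      have := hr i
      rw [dist_comm, dist_eq_norm] at this
      exact this.le
    have h5 : ‖x‖ ^ i ≤ B ^ d := by
      calc ‖x‖ ^ i ≤ B ^ i := pow_le_pow_left₀ (norm_nonneg x) hx i
        _ ≤ B ^ d := pow_le_pow_right₀ hB (by omega)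
    calc ‖algebraMap ℚ ℚ_[q] (r i) - P.coeff i‖ * ‖x‖ ^ i
        ≤ (ε / (2 * B ^ d)) * B ^ d :=
          mul_le_mul h4 h5 (by positivity) (by positivity)
      _ = ε / 2 := by field_simp
  linarith

/-- Ultrametric: a small perturbation does not change the norm. -/
theorem plc_norm_eq_of_sub_lt {x y : PadicAlgCl q} (h : ‖y - x‖ < ‖x‖) : ‖y‖ = ‖x‖ := by
  apply le_antisymm
  · have h1 : y = (y - x) + x := by ring
    rw [h1]
    exact (IsUltrametricDist.norm_add_le_max _ _).trans (max_le h.le le_rfl)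
  · by_contra hlt
    rw [not_le] at hlt
    have h1 : x = y + (x - y) := by ring
    have h2 : ‖x‖ ≤ max ‖y‖ ‖y - x‖ := by
      conv_lhs => rw [h1]
      rw [norm_sub_rev y x]
      exact IsUltrametricDist.norm_add_le_max _ _
    have h3 : max ‖y‖ ‖y - x‖ < ‖x‖ := max_lt hlt h
    exact absurd h2 (not_le.mpr h3)

/-- The norm of `PadicAlgCl q` is invariant under `Gal(Ω_q/ℚ_q)`. -/
theorem plc_norm_aut (τ : gl_GQq q) (x : PadicAlgCl q) : ‖τ x‖ = ‖x‖ := by
  have h := nnnorm_padicAlgCl_algEquiv q τ x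
  exact congrArg NNReal.toReal h

end basic

section ext

variable {F : Type} [Field F] [NumberField F] {K : Type*} [Field K] [Algebra ℚ K]

/-- Two embeddings of `F = ℚ(θ)` which agree on `θ` are equal. -/
theorem plc_algHom_ext (θ : F) (hθ : ℚ⟮θ⟯ = ⊤) (φ ψ : F →ₐ[ℚ] K) (h : φ θ = ψ θ) : φ = ψ := by
  have hint : IsAlgebraic ℚ θ := Algebra.IsAlgebraic.isAlgebraic θ
  have h1 : Algebra.adjoin ℚ {θ} = ⊤ := by
    rw [← IntermediateField.adjoin_simple_toSubalgebra_of_isAlgebraic hint, hθ]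
    rfl
  apply AlgHom.ext_of_adjoin_eq_top h1
  intro x hx
  rw [Set.mem_singleton_iff] at hx
  rw [hx, h]

end ext

section prime

variable (q : ℕ) [Fact q.Prime] {F : Type} [Field F] [NumberField F]
  (ι : F →ₐ[ℚ] PadicAlgCl q)

/-- (P0) integers have norm `≤ 1` under every embedding. -/
theorem plc_norm_le_one (a : 𝓞 F) : ‖ι (a : F)‖ ≤ 1 := by
  apply plc_norm_le_one_of_isIntegral
  have h : IsIntegral ℤ (a : F) := a.2
  exact h.map (ι.restrictScalars ℤ)

theorem plc_norm_ne_zero (x : F) (hx : x ≠ 0) : ‖ι x‖ ≠ 0 := by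
  rw [norm_ne_zero_iff]
  intro h
  exact hx (ι.toRingHom.injective (by simpa using h))

theorem plc_norm_pos (x : F) (hx : x ≠ 0) : 0 < ‖ι x‖ :=
  lt_of_le_of_ne (norm_nonneg _) (plc_norm_ne_zero q ι x hx).symm

/-- The ideal of the integers of norm `< 1`. -/
def plc_ideal : Ideal (𝓞 F) where
  carrier := {a | ‖ι (a : F)‖ < 1}
  add_mem' := by
    intro a b ha hb
    show ‖ι ((a + b : 𝓞 F) : F)‖ < 1
    have h : ι ((a + b : 𝓞 F) : F) = ι (a : F) + ι (b : F) := by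
      rw [← map_add]; rfl
    rw [h]
    exact lt_of_le_of_lt (IsUltrametricDist.norm_add_le_max _ _) (max_lt ha hb)
  zero_mem' := by
    show ‖ι ((0 : 𝓞 F) : F)‖ < 1
    simp
  smul_mem' := by
    intro c a ha
    show ‖ι ((c * a : 𝓞 F) : F)‖ < 1
    have h : ι ((c * a : 𝓞 F) : F) = ι (c : F) * ι (a : F) := by
      rw [← map_mul]; rfl
    rw [h, norm_mul]
    calc ‖ι (c : F)‖ * ‖ι (a : F)‖ ≤ 1 * ‖ι (a : F)‖ :=
          mul_le_mul_of_nonneg_right (plc_norm_le_one q ι c) (norm_nonneg _)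
      _ = ‖ι (a : F)‖ := one_mul _
      _ < 1 := ha

theorem plc_mem_ideal (a : 𝓞 F) : a ∈ plc_ideal q ι ↔ ‖ι (a : F)‖ < 1 := Iff.rfl

theorem plc_natCast_mem_iff (m : ℕ) :
    ((m : ℕ) : 𝓞 F) ∈ plc_ideal q ι ↔ ‖(m : PadicAlgCl q)‖ < 1 := by
  rw [plc_mem_ideal]
  have h : ι (((m : ℕ) : 𝓞 F) : F) = (m : PadicAlgCl q) := by
    simp
  rw [h]

theorem plc_q_mem : ((q : ℕ) : 𝓞 F) ∈ plc_ideal q ι := by
  rw [plc_natCast_mem_iff, plc_norm_q]
  have hq : (1 : ℝ) < q := by exact_mod_cast (Fact.out : q.Prime).one_lt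
  exact inv_lt_one_of_one_lt₀ hq

theorem plc_ideal_isPrime : (plc_ideal q ι).IsPrime := by
  refine ⟨?_, ?_⟩
  · intro h
    have h1 : (1 : 𝓞 F) ∈ plc_ideal q ι := by rw [h]; trivial
    rw [plc_mem_ideal] at h1
    simp at h1
  · intro a b hab
    rw [plc_mem_ideal] at hab
    have h : ι ((a * b : 𝓞 F) : F) = ι (a : F) * ι (b : F) := by
      rw [← map_mul]; rfl
    rw [h, norm_mul] at hab
    by_contra hcon
    rw [not_or] at hcon
    obtain ⟨ha, hb⟩ := hcon
    rw [plc_mem_ideal, not_lt] at ha hb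
    have ha1 : ‖ι (a : F)‖ = 1 := le_antisymm (plc_norm_le_one q ι a) ha
    have hb1 : ‖ι (b : F)‖ = 1 := le_antisymm (plc_norm_le_one q ι b) hb
    rw [ha1, hb1] at hab
    norm_num at hab

theorem plc_ideal_ne_bot : plc_ideal q ι ≠ ⊥ := by
  intro h
  have h1 := plc_q_mem q ι
  rw [h, Ideal.mem_bot] at h1
  have hq0 : (q : ℕ) ≠ 0 := (Fact.out : q.Prime).ne_zero
  have h2 : (((q : ℕ) : 𝓞 F) : F) = 0 := by rw [h1]; rfl
  simp at h2
  exact hq0 h2

/-- (P1) the prime of `𝓞 F` defined by an embedding `F → Ω_q`. -/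
def plc_prime : HeightOneSpectrum (𝓞 F) :=
  ⟨plc_ideal q ι, plc_ideal_isPrime q ι, plc_ideal_ne_bot q ι⟩

theorem plc_mem_prime (a : 𝓞 F) : a ∈ (plc_prime q ι).asIdeal ↔ ‖ι (a : F)‖ < 1 := Iff.rfl

theorem plc_q_mem_prime : ((q : ℕ) : 𝓞 F) ∈ (plc_prime q ι).asIdeal := plc_q_mem q ι

theorem plc_norm_eq_one_of_notMem (a : 𝓞 F) (ha : a ∉ (plc_prime q ι).asIdeal) :
    ‖ι (a : F)‖ = 1 := by
  rw [plc_mem_prime, not_lt] at ha
  exact le_antisymm (plc_norm_le_one q ι a) ha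

/-- The prime of an embedding only depends on its place. -/
theorem plc_prime_twist (τ : gl_GQq q) : plc_prime q (gl_twist q F τ ι) = plc_prime q ι := by
  apply HeightOneSpectrum.ext
  apply Ideal.ext
  intro a
  rw [plc_mem_prime, plc_mem_prime, gl_twist_apply, plc_norm_aut]

/-- valuation `≤ 1` implies norm `≤ 1`. -/
theorem plc_norm_le_one_of_valuation (x : F) (hx : (plc_prime q ι).valuation F x ≤ 1) :
    ‖ι x‖ ≤ 1 := by
  obtain ⟨n, d, hnd⟩ := (plc_prime q ι).exists_primeCompl_mul_eq_of_integer x hx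
  have h1 : ‖ι (algebraMap (𝓞 F) F d)‖ = 1 := plc_norm_eq_one_of_notMem q ι d d.2
  have h2 : ‖ι (algebraMap (𝓞 F) F n)‖ ≤ 1 := plc_norm_le_one q ι n
  have h3 : ‖ι x‖ * ‖ι (algebraMap (𝓞 F) F d)‖ = ‖ι (algebraMap (𝓞 F) F n)‖ := by
    rw [← norm_mul, ← map_mul, hnd]
  rw [h1, mul_one] at h3
  rw [h3]
  exact h2

/-- valuation `< 1` implies norm `< 1`. -/
theorem plc_norm_lt_one_of_valuation (x : F) (hx : (plc_prime q ι).valuation F x < 1) :
    ‖ι x‖ < 1 := by
  obtain ⟨n, d, hnd⟩ := (plc_prime q ι).exists_primeCompl_mul_eq_of_integer x hx.le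
  have h1 : ‖ι (algebraMap (𝓞 F) F d)‖ = 1 := plc_norm_eq_one_of_notMem q ι d d.2
  have hd1 : (plc_prime q ι).valuation F (algebraMap (𝓞 F) F d) = 1 := by
    rw [HeightOneSpectrum.valuation_eq_one_iff_notMem]
    exact d.2
  have hn : (plc_prime q ι).valuation F (algebraMap (𝓞 F) F n) < 1 := by
    rw [← hnd, map_mul, hd1, mul_one]
    exact hx
  rw [HeightOneSpectrum.valuation_lt_one_iff_mem] at hn
  have h2 : ‖ι (algebraMap (𝓞 F) F n)‖ < 1 := (plc_mem_prime q ι n).mp hn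
  have h3 : ‖ι x‖ * ‖ι (algebraMap (𝓞 F) F d)‖ = ‖ι (algebraMap (𝓞 F) F n)‖ := by
    rw [← norm_mul, ← map_mul, hnd]
  rw [h1, mul_one] at h3
  rw [h3]
  exact h2

/-- valuation `= 1` implies norm `= 1`. -/
theorem plc_norm_eq_one_of_valuation (x : F) (hx : (plc_prime q ι).valuation F x = 1) :
    ‖ι x‖ = 1 := by
  have hx0 : x ≠ 0 := by
    intro h
    rw [h, map_zero] at hx
    exact zero_ne_one hx
  have h1 := plc_norm_le_one_of_valuation q ι x hx.le
  have h2 : ‖ι x⁻¹‖ ≤ 1 := by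
    apply plc_norm_le_one_of_valuation
    rw [map_inv₀, hx, inv_one]
  rw [map_inv₀, norm_inv] at h2
  have h3 : 0 < ‖ι x‖ := plc_norm_pos q ι x hx0
  have h4 : 1 ≤ ‖ι x‖ := by
    rwa [inv_le_one₀ h3] at h2
  exact le_antisymm h1 h4

/-- A fixed uniformizer of the prime of `ι`. -/
def plc_unif : F := Classical.choose ((plc_prime q ι).valuation_exists_uniformizer F)

theorem plc_unif_spec : (plc_prime q ι).valuation F (plc_unif q ι) = WithZero.exp (-1 : ℤ) :=
  Classical.choose_spec ((plc_prime q ι).valuation_exists_uniformizer F)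

/-- The norm of a uniformizer: the generator `< 1` of the value group of `ι`. -/
def plc_c : ℝ := ‖ι (plc_unif q ι)‖

theorem plc_unif_ne_zero : plc_unif q ι ≠ 0 := by
  intro h
  have := plc_unif_spec q ι
  rw [h, map_zero] at this
  exact WithZero.exp_ne_zero.symm this

theorem plc_c_pos : 0 < plc_c q ι := plc_norm_pos q ι _ (plc_unif_ne_zero q ι)

theorem plc_c_lt_one : plc_c q ι < 1 := by
  apply plc_norm_lt_one_of_valuation
  rw [plc_unif_spec]
  rw [← WithZero.exp_zero, WithZero.exp_lt_exp]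
  norm_num

/-- (P2) the dictionary: `‖ι x‖ = c ^ ord_P x`. -/
theorem plc_norm_eq (x : F) (hx : x ≠ 0) :
    ‖ι x‖ = plc_c q ι ^ (-(WithZero.log ((plc_prime q ι).valuation F x))) := by
  set v := (plc_prime q ι).valuation F with hv
  set m := WithZero.log (v x) with hm
  have hvx : v x ≠ 0 := (Valuation.ne_zero_iff _).mpr hx
  have h1 : v (x * plc_unif q ι ^ m) = 1 := by
    rw [map_mul, map_zpow₀, plc_unif_spec]
    rw [← WithZero.exp_zsmul, ← WithZero.exp_log hvx, ← WithZero.exp_add]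
    simp [hm]
  have h2 := plc_norm_eq_one_of_valuation q ι _ h1
  rw [map_mul, map_zpow₀, norm_mul, norm_zpow] at h2
  have hc := plc_c_pos q ι
  have hc' : ‖ι (plc_unif q ι)‖ ^ m ≠ 0 := zpow_ne_zero _ hc.ne'
  rw [zpow_neg]
  field_simp
  exact h2

/-- The constant `c` only depends on the place. -/
theorem plc_c_twist (τ : gl_GQq q) : plc_c q (gl_twist q F τ ι) = plc_c q ι := by
  have h := plc_prime_twist q ι τ
  have hu : plc_unif q ι ≠ 0 := plc_unif_ne_zero q ι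
  have e1 := plc_norm_eq q (gl_twist q F τ ι) (plc_unif q ι) hu
  rw [h, plc_unif_spec] at e1
  rw [gl_twist_apply, plc_norm_aut] at e1
  have e2 : -(WithZero.log (WithZero.exp (-1 : ℤ))) = (1 : ℤ) := by
    rw [WithZero.log_exp]; norm_num
  rw [e2, zpow_one] at e1
  exact e1.symm

end prime

section conj

variable (q : ℕ) [Fact q.Prime] {F : Type} [Field F] [NumberField F]

/-- Simultaneous approximation: if `ι' θ` is not a root of the minimal polynomial of `ι θ`, there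
are elements of `F` which are arbitrarily small at `ι` and of fixed norm at `ι'`. -/
theorem plc_sep_aux (ι ι' : F →ₐ[ℚ] PadicAlgCl q) (θ : F)
    (hg : aeval (ι' θ) (minpoly ℚ_[q] (ι θ)) ≠ 0) (ε : ℝ) (hε : 0 < ε)
    (hεδ : ε ≤ ‖aeval (ι' θ) (minpoly ℚ_[q] (ι θ))‖) :
    ∃ a : F, a ≠ 0 ∧ ‖ι a‖ < ε ∧ ‖ι' a‖ = ‖aeval (ι' θ) (minpoly ℚ_[q] (ι θ))‖ := by
  set g := minpoly ℚ_[q] (ι θ) with hgdef
  obtain ⟨Q, hQ⟩ := plc_approx q g (max 1 (max ‖ι θ‖ ‖ι' θ‖)) (le_max_left _ _) ε hε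
  have h1 := hQ (ι θ) ((le_max_left _ _).trans (le_max_right _ _))
  have h2 := hQ (ι' θ) ((le_max_right _ _).trans (le_max_right _ _))
  have hg0 : aeval (ι θ) g = 0 := minpoly.aeval _ _
  rw [hg0, sub_zero] at h1
  have h3 : ‖aeval (ι' θ) Q‖ = ‖aeval (ι' θ) g‖ :=
    plc_norm_eq_of_sub_lt q (lt_of_lt_of_le h2 hεδ)
  have h4 : ι (aeval θ Q) = aeval (ι θ) Q := by
    rw [Polynomial.aeval_algHom_apply]
  have h5 : ι' (aeval θ Q) = aeval (ι' θ) Q := by
    rw [Polynomial.aeval_algHom_apply]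
  refine ⟨aeval θ Q, ?_, ?_, ?_⟩
  · intro h0
    rw [h0, map_zero] at h5
    rw [← h5, norm_zero] at h3
    exact hg (norm_eq_zero.mp h3.symm)
  · rw [h4]; exact h1
  · rw [h5]; exact h3

/-- (P3) embeddings with the same prime are conjugate under `Gal(Ω_q/ℚ_q)`. -/
theorem plc_conj (ι ι' : F →ₐ[ℚ] PadicAlgCl q) (h : plc_prime q ι = plc_prime q ι') :
    ∃ τ : gl_GQq q, ι' = gl_twist q F τ ι := by
  obtain ⟨θ, hθ⟩ := Field.exists_primitive_element ℚ F
  have hβint : IsIntegral ℚ_[q] (ι θ) := Algebra.IsIntegral.isIntegral _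
  by_cases hg : aeval (ι' θ) (minpoly ℚ_[q] (ι θ)) = 0
  · have hconj : IsConjRoot ℚ_[q] (ι' θ) (ι θ) := by
      show minpoly ℚ_[q] (ι' θ) = minpoly ℚ_[q] (ι θ)
      exact (minpoly.eq_of_irreducible_of_monic (minpoly.irreducible hβint) hg
        (minpoly.monic hβint)).symm
    obtain ⟨τ, hτ⟩ := isConjRoot_iff_exists_algEquiv.mp hconj
    refine ⟨τ, ?_⟩
    apply plc_algHom_ext θ hθ
    rw [gl_twist_apply, hτ]
  · exfalso
    set δ := ‖aeval (ι' θ) (minpoly ℚ_[q] (ι θ))‖ with hδ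
    have hδ0 : 0 < δ := norm_pos_iff.mpr hg
    obtain ⟨a₁, ha₁0, -, ha₁'⟩ := plc_sep_aux q ι ι' θ hg δ hδ0 le_rfl
    set m₁ := -(WithZero.log ((plc_prime q ι).valuation F a₁)) with hm₁
    have hc := plc_c_pos q ι
    have hε₂ : 0 < min δ (plc_c q ι ^ m₁) := lt_min hδ0 (zpow_pos hc _)
    obtain ⟨a₂, ha₂0, ha₂, ha₂'⟩ := plc_sep_aux q ι ι' θ hg _ hε₂ (min_le_left _ _)
    have e1 := plc_norm_eq q ι' a₁ ha₁0
    have e2 := plc_norm_eq q ι' a₂ ha₂0
    rw [ha₁'] at e1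
    rw [ha₂'] at e2
    have hc' := plc_c_pos q ι'
    have hc'1 := plc_c_lt_one q ι'
    have e3 : -(WithZero.log ((plc_prime q ι').valuation F a₂)) =
        -(WithZero.log ((plc_prime q ι').valuation F a₁)) := by
      apply zpow_right_injective₀ hc' hc'1.ne
      show plc_c q ι' ^ _ = plc_c q ι' ^ _
      rw [← e1, ← e2]
    rw [← h] at e3
    have e4 := plc_norm_eq q ι a₂ ha₂0
    rw [e3] at e4
    have e5 : ‖ι a₂‖ < plc_c q ι ^ m₁ := lt_of_lt_of_le ha₂ (min_le_right _ _)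
    rw [e4] at e5
    exact lt_irrefl _ e5

/-- (P4) the norm of every component of a semi-local idele is the norm of an element of `F`. -/
theorem plc_value (f : gl_Jq q F) (ι : F →ₐ[ℚ] PadicAlgCl q) :
    ∃ a : F, a ≠ 0 ∧ ‖((f.1 ι : (PadicAlgCl q)ˣ) : PadicAlgCl q)‖ = ‖ι a‖ := by
  obtain ⟨θ, hθ⟩ := Field.exists_primitive_element ℚ F
  set y : PadicAlgCl q := ((f.1 ι : (PadicAlgCl q)ˣ) : PadicAlgCl q) with hy
  have hy0 : y ≠ 0 := Units.ne_zero _
  set β := ι θ with hβ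
  have hfix : ∀ τ : gl_GQq q, τ β = β → τ y = y := by
    intro τ hτ
    have h1 : gl_twist q F τ ι = ι := by
      apply plc_algHom_ext θ hθ
      exact hτ
    have h2 := (gl_mem_Jq_iff q F f.1).mp f.2 τ ι
    rw [h1] at h2
    exact h2.symm
  have hyE : y ∈ ℚ_[q]⟮β⟯ := by
    rw [← InfiniteGalois.fixedField_fixingSubgroup (ℚ_[q]⟮β⟯)]
    rw [IntermediateField.mem_fixedField_iff]
    intro τ hτ
    apply hfix
    rw [IntermediateField.mem_fixingSubgroup_iff] at hτ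
    exact hτ β (IntermediateField.mem_adjoin_simple_self _ _)
  have hβint : IsAlgebraic ℚ_[q] β := Algebra.IsAlgebraic.isAlgebraic β
  have hyA : y ∈ Algebra.adjoin ℚ_[q] {β} := by
    rw [← IntermediateField.adjoin_simple_toSubalgebra_of_isAlgebraic hβint]
    exact hyE
  rw [Algebra.adjoin_singleton_eq_range_aeval] at hyA
  obtain ⟨P, hP⟩ := hyA
  have hP' : aeval β P = y := hP
  obtain ⟨Q, hQ⟩ := plc_approx q P (max 1 ‖β‖) (le_max_left _ _) ‖y‖ (norm_pos_iff.mpr hy0)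
  have h3 := hQ β (le_max_right _ _)
  rw [hP'] at h3
  have h4 : ‖aeval β Q‖ = ‖y‖ := plc_norm_eq_of_sub_lt q h3
  have h5 : ι (aeval θ Q) = aeval β Q := by
    rw [hβ, Polynomial.aeval_algHom_apply]
  refine ⟨aeval θ Q, ?_, ?_⟩
  · intro h0
    rw [h0, map_zero] at h5
    rw [← h5, norm_zero] at h4
    exact hy0 (norm_eq_zero.mp h4.symm)
  · rw [h5, h4]

/-- (P4'), in terms of the dictionary: the norm of a component of a semi-local idele is an
integral power of `plc_c`. -/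
theorem plc_value_zpow (f : gl_Jq q F) (ι : F →ₐ[ℚ] PadicAlgCl q) :
    ∃ n : ℤ, ‖((f.1 ι : (PadicAlgCl q)ˣ) : PadicAlgCl q)‖ = plc_c q ι ^ n := by
  obtain ⟨a, ha, h⟩ := plc_value q f ι
  exact ⟨_, h.trans (plc_norm_eq q ι a ha)⟩

end conj

end

end Fermat.Agent.S55
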