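/-
S55 (fifth wave), GLOBAL side, package [CYC-EXT] (helper23), LOCAL part.

For a primitive `q`-th root of unity `ζ ∈ Ω_q`: `‖1 - ζ‖ ^ (q - 1) = ‖q‖ = 1/q`
(`cyx_norm_pi`).  Consequently `1, π, ..., π^(q-2)` (`π = 1 - ζ`) are linearly independent over
every subfield with value group `q^ℤ` (`cyx_indep`), the cyclotomic polynomial `Φ_q` is
irreducible over every such field (`cyx_irreducible`), and for a number field `F` unramified at
`q` the group `Gal(Ω_q / ℚ_q · ι F)` acts transitively on the primitive `q`-th roots of unity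
(`cyx_exists_tau`).
-/
import Mathlib
import Fermat.Agent.S55.Global.Places

set_option autoImplicit false

namespace Fermat.Agent.S55

open Polynomial IntermediateField

noncomputable section

section loc

variable (q : ℕ) [Fact q.Prime]

/-- Roots of unity have norm one. -/
theorem cyx_norm_root {ζ : PadicAlgCl q} {n : ℕ} (hn : n ≠ 0) (h : ζ ^ n = 1) : ‖ζ‖ = 1 := by
  have h1 : ‖ζ‖ ^ n = 1 := by rw [← norm_pow, h, norm_one]
  exact (pow_eq_one_iff_of_nonneg (norm_nonneg _) hn).mp h1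

/-- `‖1 - x ^ k‖ ≤ ‖1 - x‖` in the unit ball. -/
theorem cyx_norm_one_sub_pow_le (x : PadicAlgCl q) (hx : ‖x‖ ≤ 1) (k : ℕ) :
    ‖1 - x ^ k‖ ≤ ‖1 - x‖ := by
  have h1 : 1 - x ^ k = (1 - x) * ∑ i ∈ Finset.range k, x ^ i := by
    have := mul_geom_sum x k
    linear_combination this
  rw [h1, norm_mul]
  have h2 : ‖∑ i ∈ Finset.range k, x ^ i‖ ≤ 1 := by
    apply IsUltrametricDist.norm_sum_le_of_forall_le_of_nonneg zero_le_one
    intro i _
    rw [norm_pow]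
    exact pow_le_one₀ (norm_nonneg _) hx
  calc ‖1 - x‖ * ‖∑ i ∈ Finset.range k, x ^ i‖ ≤ ‖1 - x‖ * 1 :=
        mul_le_mul_of_nonneg_left h2 (norm_nonneg _)
    _ = ‖1 - x‖ := mul_one _

/-- All `1 - ζ ^ k`, `q ∤ k`, have the same norm. -/
theorem cyx_norm_one_sub_pow {ζ : PadicAlgCl q} (hζ : IsPrimitiveRoot ζ q) (k : ℕ)
    (hk : ¬ q ∣ k) : ‖1 - ζ ^ k‖ = ‖1 - ζ‖ := by
  have hq : q.Prime := Fact.out
  have hq0 : q ≠ 0 := hq.ne_zero
  have : NeZero q := ⟨hq0⟩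
  have hζ1 : ‖ζ‖ = 1 := cyx_norm_root q hq0 hζ.pow_eq_one
  apply le_antisymm (cyx_norm_one_sub_pow_le q ζ hζ1.le k)
  have hcop : Nat.Coprime k q := ((Nat.Prime.coprime_iff_not_dvd hq).mpr hk).symm
  have hζk : IsPrimitiveRoot (ζ ^ k) q := hζ.pow_of_coprime k hcop
  obtain ⟨i, -, hi⟩ := hζk.eq_pow_of_pow_eq_one hζ.pow_eq_one
  have hζk1 : ‖ζ ^ k‖ = 1 := by rw [norm_pow, hζ1, one_pow]
  have := cyx_norm_one_sub_pow_le q (ζ ^ k) hζk1.le i
  rwa [hi] at this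

/-- `‖1 - ζ‖ ^ (q - 1) = ‖q‖ = 1 / q` for a primitive `q`-th root of unity in `Ω_q`. -/
theorem cyx_norm_pi {ζ : PadicAlgCl q} (hζ : IsPrimitiveRoot ζ q) :
    ‖1 - ζ‖ ^ (q - 1) = (q : ℝ)⁻¹ := by
  have hq : q.Prime := Fact.out
  have hq1 : q - 1 + 1 = q := Nat.succ_pred_eq_of_pos hq.pos
  have hζ' : IsPrimitiveRoot ζ (q - 1 + 1) := by rwa [hq1]
  have h := IsPrimitiveRoot.prod_one_sub_pow_eq_order hζ'
  have h2 : ‖∏ k ∈ Finset.range (q - 1), (1 - ζ ^ (k + 1))‖ = ‖1 - ζ‖ ^ (q - 1) := by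
    rw [norm_prod, Finset.prod_eq_pow_card (b := ‖1 - ζ‖), Finset.card_range]
    intro k hk
    rw [Finset.mem_range] at hk
    apply cyx_norm_one_sub_pow q hζ
    intro hdvd
    have := Nat.le_of_dvd (Nat.succ_pos k) hdvd
    omega
  rw [← h2, h]
  have h3 : (((q - 1 : ℕ) : PadicAlgCl q) + 1) = ((q : ℕ) : PadicAlgCl q) := by
    rw [← Nat.cast_one (R := PadicAlgCl q), ← Nat.cast_add, hq1]
  rw [h3, plc_norm_q]

theorem cyx_norm_pi_pos {ζ : PadicAlgCl q} (hζ : IsPrimitiveRoot ζ q) : 0 < ‖1 - ζ‖ := by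
  have hq : q.Prime := Fact.out
  have h := cyx_norm_pi q hζ
  by_contra hneg
  have h0 : ‖1 - ζ‖ = 0 := le_antisymm (not_lt.mp hneg) (norm_nonneg _)
  rw [h0, zero_pow (by have := hq.two_le; omega)] at h
  have : (0 : ℝ) < (q : ℝ)⁻¹ := by
    have : (0 : ℝ) < q := by exact_mod_cast hq.pos
    positivity
  rw [← h] at this
  exact lt_irrefl _ this

/-- Linear independence of `1, π, ..., π^(q-2)`, `π = 1 - ζ`, over a field with value group
`q^ℤ`. -/
theorem cyx_indep {M : Type*} [Field M] (ε : M →+* PadicAlgCl q)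
    (hval : ∀ x : M, x ≠ 0 → ∃ n : ℤ, ‖ε x‖ = (q : ℝ) ^ n)
    {ζ : PadicAlgCl q} (hζ : IsPrimitiveRoot ζ q) (P : M[X]) (hP : P ≠ 0)
    (hdeg : P.natDegree < q - 1) : eval₂ ε (1 - ζ) P ≠ 0 := by
  have hq : q.Prime := Fact.out
  have hq0 : (0 : ℝ) < q := by exact_mod_cast hq.pos
  have hq1 : (1 : ℝ) < q := by exact_mod_cast hq.one_lt
  set c := ‖1 - ζ‖ with hc
  have hc0 : 0 < c := cyx_norm_pi_pos q hζ
  have hcq : c ^ (q - 1) = (q : ℝ)⁻¹ := cyx_norm_pi q hζ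
  rw [eval₂_eq_sum, Polynomial.sum_def]
  have hne : P.support.Nonempty := by
    rw [Finset.nonempty_iff_ne_empty, ne_eq, Polynomial.support_eq_empty]
    exact hP
  have hterm : ∀ i ∈ P.support, ε (P.coeff i) * (1 - ζ) ^ i ≠ 0 := by
    intro i hi
    rw [Polynomial.mem_support_iff] at hi
    apply mul_ne_zero
    · exact (map_ne_zero ε).mpr hi
    · apply pow_ne_zero
      exact norm_pos_iff.mp hc0
  have hpair : Set.Pairwise (P.support : Set ℕ)
      (fun i j => ‖ε (P.coeff i) * (1 - ζ) ^ i‖ ≠ ‖ε (P.coeff j) * (1 - ζ) ^ j‖) := by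
    intro i hi j hj hij heq
    apply hij
    have hi' := Polynomial.mem_support_iff.mp hi
    have hj' := Polynomial.mem_support_iff.mp hj
    obtain ⟨n, hn⟩ := hval _ hi'
    obtain ⟨m, hm⟩ := hval _ hj'
    rw [norm_mul, norm_mul, norm_pow, norm_pow, hn, hm] at heq
    have hi1 : i < q - 1 := lt_of_le_of_lt (Polynomial.le_natDegree_of_mem_supp i hi) hdeg
    have hj1 : j < q - 1 := lt_of_le_of_lt (Polynomial.le_natDegree_of_mem_supp j hj) hdeg
    -- raise to the power q - 1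
    have h1 : ((q : ℝ) ^ n * c ^ i) ^ (q - 1) = ((q : ℝ) ^ m * c ^ j) ^ (q - 1) := by rw [heq]
    rw [mul_pow, mul_pow, ← pow_mul, ← pow_mul, mul_comm i, mul_comm j, pow_mul, pow_mul, hcq,
      ← zpow_natCast ((q : ℝ) ^ n), ← zpow_natCast ((q : ℝ) ^ m), ← zpow_mul, ← zpow_mul,
      inv_pow, inv_pow, ← zpow_natCast (q : ℝ) i, ← zpow_natCast (q : ℝ) j, ← zpow_neg,
      ← zpow_neg, ← zpow_add₀ hq0.ne', ← zpow_add₀ hq0.ne'] at h1
    have h2 : n * ((q - 1 : ℕ) : ℤ) + -(i : ℤ) = m * ((q - 1 : ℕ) : ℤ) + -(j : ℤ) :=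
      zpow_right_injective₀ hq0 hq1.ne' h1
    have h3 : (((q - 1 : ℕ) : ℤ)) ∣ ((i : ℤ) - (j : ℤ)) := ⟨n - m, by linarith⟩
    have h4 : |(i : ℤ) - (j : ℤ)| < ((q - 1 : ℕ) : ℤ) := by
      rw [abs_lt]
      constructor <;> omega
    have h5 := Int.eq_zero_of_abs_lt_dvd h3 h4
    omega
  have hsum := IsUltrametricDist.norm_sum_eq_sup'_of_pairwise_ne hne hpair
  intro h0
  rw [h0, norm_zero] at hsum
  obtain ⟨i, hi⟩ := hne
  have h1 : ‖ε (P.coeff i) * (1 - ζ) ^ i‖ ≤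
      P.support.sup' ⟨i, hi⟩ (fun i => ‖ε (P.coeff i) * (1 - ζ) ^ i‖) :=
    Finset.le_sup' (fun i => ‖ε (P.coeff i) * (1 - ζ) ^ i‖) hi
  rw [← hsum] at h1
  exact hterm i hi (norm_le_zero_iff.mp h1)

/-- The cyclotomic polynomial `Φ_q` is irreducible over every field which embeds into `Ω_q`
with value group `q^ℤ`. -/
theorem cyx_irreducible {M : Type*} [Field M] (ε : M →+* PadicAlgCl q)
    (hval : ∀ x : M, x ≠ 0 → ∃ n : ℤ, ‖ε x‖ = (q : ℝ) ^ n)
    {ζ : PadicAlgCl q} (hζ : IsPrimitiveRoot ζ q) : Irreducible (cyclotomic q M) := by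
  have hq : q.Prime := Fact.out
  rw [Polynomial.Monic.irreducible_iff_natDegree (cyclotomic.monic q M)]
  refine ⟨?_, ?_⟩
  · intro h1
    have := natDegree_cyclotomic q M
    rw [h1, natDegree_one, Nat.totient_prime hq] at this
    have := hq.two_le
    omega
  · intro f g hf hg hfg
    have hdeg : f.natDegree + g.natDegree = q - 1 := by
      rw [← Polynomial.natDegree_mul hf.ne_zero hg.ne_zero, hfg, natDegree_cyclotomic,
        Nat.totient_prime hq]
    have hroot : eval₂ ε ζ (cyclotomic q M) = 0 := by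
      rw [← Polynomial.eval_map, map_cyclotomic]
      exact IsPrimitiveRoot.isRoot_cyclotomic hq.pos hζ
    rw [← hfg, eval₂_mul, mul_eq_zero] at hroot
    have key : ∀ h : M[X], h.Monic → eval₂ ε ζ h = 0 → q - 1 ≤ h.natDegree := by
      intro h hh hh0
      by_contra hlt
      rw [not_le] at hlt
      set P := h.comp (C 1 - X) with hPdef
      have hX : (C (1 : M) - X).natDegree = 1 := by
        rw [← Polynomial.natDegree_neg, neg_sub]
        exact Polynomial.natDegree_X_sub_C 1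
      have hPdeg : P.natDegree = h.natDegree := by
        rw [hPdef, natDegree_comp, hX, mul_one]
      have hP0 : P ≠ 0 := by
        intro hP
        have h1 : P.eval 0 = 0 := by rw [hP, eval_zero]
        have h2 : (P.comp (C 1 - X)) = h := by
          rw [hPdef, Polynomial.comp_assoc]
          simp
        rw [hP, zero_comp] at h2
        exact hh.ne_zero h2.symm
      have hev : eval₂ ε (1 - ζ) P = 0 := by
        rw [hPdef, eval₂_comp, eval₂_sub, eval₂_C, eval₂_X, map_one, sub_sub_cancel]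
        exact hh0
      exact cyx_indep q ε hval hζ P hP0 (hPdeg ▸ hlt) hev
    rcases hroot with h1 | h1
    · right
      have := key f hf h1
      omega
    · left
      have := key g hg h1
      omega

end loc

section locfield

variable (q : ℕ) [Fact q.Prime] {F : Type} [Field F] [NumberField F]

/-- The image of `F = ℚ(θ)` lies in `ℚ_q(ι θ)`. -/
theorem cyx_mem_L (ι : F →ₐ[ℚ] PadicAlgCl q) (θ : F) (hθ : ℚ⟮θ⟯ = ⊤) (x : F) :
    ι x ∈ ℚ_[q]⟮ι θ⟯ := by
  have hint : IsAlgebraic ℚ θ := Algebra.IsAlgebraic.isAlgebraic θ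
  have h1 : Algebra.adjoin ℚ {θ} = ⊤ := by
    rw [← IntermediateField.adjoin_simple_toSubalgebra_of_isAlgebraic hint, hθ]
    rfl
  have hx : x ∈ Algebra.adjoin ℚ {θ} := by rw [h1]; exact Algebra.mem_top
  rw [Algebra.adjoin_singleton_eq_range_aeval] at hx
  obtain ⟨P, hP⟩ := hx
  have hP' : aeval θ P = x := hP
  rw [← hP', ← Polynomial.aeval_algHom_apply]
  have h2 : aeval (ι θ) P = aeval (ι θ) (P.map (algebraMap ℚ ℚ_[q])) := by
    rw [Polynomial.aeval_map_algebraMap]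
  rw [h2]
  have h3 : aeval (ι θ) (P.map (algebraMap ℚ ℚ_[q])) ∈ Algebra.adjoin ℚ_[q] {ι θ} := by
    rw [Algebra.adjoin_singleton_eq_range_aeval]
    exact ⟨_, rfl⟩
  exact IntermediateField.algebra_adjoin_le_adjoin _ _ h3

/-- The value group of `ℚ_q(ι θ)` is the value group of `ι F`. -/
theorem cyx_local_value (ι : F →ₐ[ℚ] PadicAlgCl q) (θ : F) (y : PadicAlgCl q)
    (hy : y ∈ ℚ_[q]⟮ι θ⟯) (hy0 : y ≠ 0) : ∃ a : F, a ≠ 0 ∧ ‖y‖ = ‖ι a‖ := by
  set β := ι θ with hβ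
  have hβint : IsAlgebraic ℚ_[q] β := Algebra.IsAlgebraic.isAlgebraic β
  have hyA : y ∈ Algebra.adjoin ℚ_[q] {β} := by
    rw [← IntermediateField.adjoin_simple_toSubalgebra_of_isAlgebraic hβint]
    exact hy
  rw [Algebra.adjoin_singleton_eq_range_aeval] at hyA
  obtain ⟨P, hP⟩ := hyA
  have hP' : aeval β P = y := hP
  obtain ⟨Q, hQ⟩ := plc_approx q P (max 1 ‖β‖) (le_max_left _ _) ‖y‖ (norm_pos_iff.mpr hy0)
  have h3 := hQ β (le_max_right _ _)
  rw [hP'] at h3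
  have h4 : ‖aeval β Q‖ = ‖y‖ := plc_norm_eq_of_sub_lt q h3
  have h5 : ι (aeval θ Q) = aeval β Q := by
    rw [hβ, Polynomial.aeval_algHom_apply]
  refine ⟨aeval θ Q, ?_, ?_⟩
  · intro h0
    rw [h0, map_zero] at h5
    rw [← h5, norm_zero] at h4
    exact hy0 (norm_eq_zero.mp h4.symm)
  · rw [h5, h4]

/-- If `F` is unramified at `q`, the local Galois group over `ℚ_q · ι F` acts transitively on
the primitive `q`-th roots of unity. -/
theorem cyx_exists_tau (hur : gl_UnramAt q F) (ι : F →ₐ[ℚ] PadicAlgCl q)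
    {ζ y : PadicAlgCl q} (hζ : IsPrimitiveRoot ζ q) (hy : IsPrimitiveRoot y q) :
    ∃ τ : gl_GQq q, (∀ x : F, τ (ι x) = ι x) ∧ τ ζ = y := by
  have hq : q.Prime := Fact.out
  have : NeZero q := ⟨hq.ne_zero⟩
  obtain ⟨θ, hθ⟩ := Field.exists_primitive_element ℚ F
  set L : IntermediateField ℚ_[q] (PadicAlgCl q) := ℚ_[q]⟮ι θ⟯ with hL
  have hval : ∀ x : ↥L, x ≠ 0 → ∃ n : ℤ, ‖algebraMap ↥L (PadicAlgCl q) x‖ = (q : ℝ) ^ n := by
    intro x hx
    have hx' : (x : PadicAlgCl q) ≠ 0 := fun h => hx (Subtype.ext h)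
    obtain ⟨a, ha, hxa⟩ := cyx_local_value q ι θ (x : PadicAlgCl q) x.2 hx'
    obtain ⟨n, hn⟩ := hur ι a ha
    exact ⟨n, hxa.trans hn⟩
  have hirr : Irreducible (cyclotomic q ↥L) :=
    cyx_irreducible q (algebraMap ↥L (PadicAlgCl q)) hval hζ
  have : NeZero ((q : ℕ) : ↥L) := ⟨by
    have : ((q : ℕ) : ↥L) ≠ 0 := by exact_mod_cast hq.ne_zero
    exact this⟩
  have h1 : cyclotomic q ↥L = minpoly ↥L ζ := hζ.minpoly_eq_cyclotomic_of_irreducible hirr
  have h2 : cyclotomic q ↥L = minpoly ↥L y := hy.minpoly_eq_cyclotomic_of_irreducible hirr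
  have hconj : IsConjRoot ↥L y ζ := by
    show minpoly ↥L y = minpoly ↥L ζ
    rw [← h1, ← h2]
  have : Normal ↥L (PadicAlgCl q) := Normal.tower_top_of_normal ℚ_[q] ↥L (PadicAlgCl q)
  obtain ⟨σ, hσ⟩ := isConjRoot_iff_exists_algEquiv.mp hconj
  refine ⟨σ.restrictScalars ℚ_[q], ?_, hσ⟩
  intro x
  have hx : ι x ∈ L := cyx_mem_L q ι θ hθ x
  exact σ.commutes ⟨ι x, hx⟩

end locfield

end

end Fermat.Agent.S55
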