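/-
S55 (fifth wave), GLOBAL side, package [CYC-EXT] (helper23): the cyclotomic extension
`E = F(ζ_q)` of a number field `F` unramified at `q`.

`E := CyclotomicField q F`; `cyx_G F E H` is the group of the automorphisms of `E` which preserve
`F` and act on it through `H` (`= Gal(E / F^H)`), `cyx_pi` the restriction to `F`.
`Φ_q` is irreducible over `F` (`cyx_irreducible_of_unram`, from the value group), hence every
automorphism of `F` extends to `E` with an arbitrary primitive root as image of `ζ` (`cyx_lift`);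
this gives the tower, `# ker π = q - 1`, and the direct product decomposition.  Total
ramification above `q` (`cyx_decomp`) is `cyx_exists_tau` of `CycExtLocal.lean`.
-/
import Mathlib
import Fermat.Agent.S55.Global.TowerDefs
import Fermat.Agent.S55.Global.CycExtLocal

set_option autoImplicit false

namespace Fermat.Agent.S55

open Polynomial IntermediateField

noncomputable section

/-- Lifting along a power basis with respect to a second ring homomorphism `F → E`. -/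
theorem cyx_lift_aux {F E : Type} [Field F] [Field E] [A₁ : Algebra F E] (i₂ : F →+* E)
    (pb : PowerBasis F E) (y : E) (hy : eval₂ i₂ y (minpoly F pb.gen) = 0) :
    ∃ φ : E →+* E, (∀ x, φ (algebraMap F E x) = i₂ x) ∧ φ pb.gen = y := by
  let φ := @PowerBasis.lift E _ F _ A₁ E _ i₂.toAlgebra pb y hy
  exact ⟨@AlgHom.toRingHom F E E _ _ _ A₁ i₂.toAlgebra φ,
    fun x => @AlgHom.commutes' F E E _ _ _ A₁ i₂.toAlgebra φ x,
    @PowerBasis.lift_gen E _ F _ A₁ E _ i₂.toAlgebra pb y hy⟩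

/-- Irreducibility of `Φ_q` over a number field unramified at `q`. -/
theorem cyx_irreducible_of_unram (q : ℕ) [Fact q.Prime] (F : Type) [Field F] [NumberField F]
    (hur : gl_UnramAt q F) : Irreducible (cyclotomic q F) := by
  have hq : q.Prime := Fact.out
  have : NeZero q := ⟨hq.ne_zero⟩
  let ιE : CyclotomicField q F →ₐ[ℚ] PadicAlgCl q := IsAlgClosed.lift
  let ιF : F →ₐ[ℚ] PadicAlgCl q := ιE.comp (IsScalarTower.toAlgHom ℚ F (CyclotomicField q F))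
  have hζ := IsCyclotomicExtension.zeta_spec q F (CyclotomicField q F)
  have hζ' : IsPrimitiveRoot (ιE (IsCyclotomicExtension.zeta q F (CyclotomicField q F))) q :=
    hζ.map_of_injective ιE.injective
  exact cyx_irreducible q (ιF : F →+* PadicAlgCl q) (fun x hx => hur ιF x hx) hζ'

section generic

variable (q : ℕ) [Fact q.Prime] (F E : Type) [Field F] [NumberField F] [Field E]
  [NumberField E] [Algebra F E] [IsCyclotomicExtension {q} F E]

omit [NumberField F] [NumberField E] in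
/-- Ring homomorphisms on `E = F(ζ)` are determined by their values on `F` and on `ζ`. -/
theorem cyx_ext {R : Type*} [Semiring R] {ζ : E} (hζ : IsPrimitiveRoot ζ q) (φ ψ : E →+* R)
    (h1 : ∀ x : F, φ (algebraMap F E x) = ψ (algebraMap F E x)) (h2 : φ ζ = ψ ζ) (x : E) :
    φ x = ψ x := by
  have hq : q.Prime := Fact.out
  have : NeZero q := ⟨hq.ne_zero⟩
  have htop := IsCyclotomicExtension.adjoin_primitive_root_eq_top (A := F) (B := E) hζ
  have hx : x ∈ Algebra.adjoin F {ζ} := by rw [htop]; exact Algebra.mem_top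
  induction hx using Algebra.adjoin_induction with
  | mem x hx =>
    rw [Set.mem_singleton_iff] at hx
    rw [hx]
    exact h2
  | algebraMap r => exact h1 r
  | add x y _ _ hx hy => rw [map_add, map_add, hx, hy]
  | mul x y _ _ hx hy => rw [map_mul, map_mul, hx, hy]

variable {q F E}

/-- Every automorphism of `F` extends to `E`, with a prescribed value on `ζ`. -/
theorem cyx_lift (hirr : Irreducible (cyclotomic q F)) (σ : F ≃ₐ[ℚ] F) {ζ y : E}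
    (hζ : IsPrimitiveRoot ζ q) (hy : IsPrimitiveRoot y q) :
    ∃ s : E ≃ₐ[ℚ] E, (∀ x : F, s (algebraMap F E x) = algebraMap F E (σ x)) ∧ s ζ = y := by
  have hq : q.Prime := Fact.out
  have : NeZero q := ⟨hq.ne_zero⟩
  have : NeZero ((q : ℕ) : F) := ⟨by exact_mod_cast hq.ne_zero⟩
  let pb : PowerBasis F E := IsPrimitiveRoot.powerBasis F hζ
  have hgen : pb.gen = ζ := IsPrimitiveRoot.powerBasis_gen F hζ
  have hmin : minpoly F pb.gen = cyclotomic q F := by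
    rw [hgen]
    exact (hζ.minpoly_eq_cyclotomic_of_irreducible hirr).symm
  let i₂ : F →+* E := (algebraMap F E).comp ((σ : F ≃ₐ[ℚ] F) : F →+* F)
  have hy0 : eval₂ i₂ y (minpoly F pb.gen) = 0 := by
    rw [hmin, eval₂_eq_eval_map, map_cyclotomic]
    exact hy.isRoot_cyclotomic hq.pos
  obtain ⟨φ, hφ1, hφ2⟩ := cyx_lift_aux i₂ pb y hy0
  rw [hgen] at hφ2
  let φ' : E →ₐ[ℚ] E := φ.toRatAlgHom
  have hbij : Function.Bijective φ' := Algebra.IsAlgebraic.algHom_bijective φ'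
  refine ⟨AlgEquiv.ofBijective φ' hbij, ?_, ?_⟩
  · intro x
    exact hφ1 x
  · exact hφ2


variable (q F E)

/-- The automorphisms of `E` which preserve `F` and act on it through `H`: this is
`Gal(E / F^H)`. -/
def cyx_G (H : Subgroup (F ≃ₐ[ℚ] F)) : Subgroup (E ≃ₐ[ℚ] E) where
  carrier := {s | ∃ σ ∈ H, ∀ x : F, s (algebraMap F E x) = algebraMap F E (σ x)}
  one_mem' := ⟨1, H.one_mem, fun _ => rfl⟩
  mul_mem' := by
    rintro s s' ⟨σ, hσ, h⟩ ⟨σ', hσ', h'⟩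
    refine ⟨σ * σ', H.mul_mem hσ hσ', fun x => ?_⟩
    show s (s' (algebraMap F E x)) = algebraMap F E (σ (σ' x))
    rw [h', h]
  inv_mem' := by
    rintro s ⟨σ, hσ, h⟩
    refine ⟨σ⁻¹, H.inv_mem hσ, fun x => ?_⟩
    have h1 := h (σ⁻¹ x)
    have h2 : σ (σ⁻¹ x) = x := σ.apply_symm_apply x
    rw [h2] at h1
    rw [← h1]
    exact s.symm_apply_apply _

variable {q F E}

theorem cyx_mem_G (H : Subgroup (F ≃ₐ[ℚ] F)) (s : E ≃ₐ[ℚ] E) :
    s ∈ cyx_G F E H ↔ ∃ σ ∈ H, ∀ x : F, s (algebraMap F E x) = algebraMap F E (σ x) := Iff.rfl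

variable (q F E)

/-- Restriction to `F`. -/
def cyx_piFun (H : Subgroup (F ≃ₐ[ℚ] F)) (s : ↥(cyx_G F E H)) : ↥H :=
  ⟨Classical.choose s.2, (Classical.choose_spec s.2).1⟩

variable {q F E}

theorem cyx_piFun_spec (H : Subgroup (F ≃ₐ[ℚ] F)) (s : ↥(cyx_G F E H)) (x : F) :
    (s : E ≃ₐ[ℚ] E) (algebraMap F E x) =
      algebraMap F E (((cyx_piFun F E H s : ↥H) : F ≃ₐ[ℚ] F) x) :=
  (Classical.choose_spec s.2).2 x

theorem cyx_piFun_unique (H : Subgroup (F ≃ₐ[ℚ] F)) (s : ↥(cyx_G F E H)) (σ : F ≃ₐ[ℚ] F)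
    (h : ∀ x : F, (s : E ≃ₐ[ℚ] E) (algebraMap F E x) = algebraMap F E (σ x)) :
    ((cyx_piFun F E H s : ↥H) : F ≃ₐ[ℚ] F) = σ := by
  apply AlgEquiv.ext
  intro x
  apply (algebraMap F E).injective
  rw [← cyx_piFun_spec, h]

variable (q F E)

/-- Restriction to `F` as a homomorphism `Gal(E/F^H) → H`. -/
def cyx_pi (H : Subgroup (F ≃ₐ[ℚ] F)) : ↥(cyx_G F E H) →* ↥H where
  toFun := cyx_piFun F E H
  map_one' := by
    apply Subtype.ext
    exact cyx_piFun_unique H 1 1 (fun _ => rfl)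
  map_mul' s s' := by
    apply Subtype.ext
    apply cyx_piFun_unique H (s * s')
    intro x
    show (s : E ≃ₐ[ℚ] E) ((s' : E ≃ₐ[ℚ] E) (algebraMap F E x)) = algebraMap F E
      (((cyx_piFun F E H s : ↥H) : F ≃ₐ[ℚ] F) (((cyx_piFun F E H s' : ↥H) : F ≃ₐ[ℚ] F) x))
    rw [cyx_piFun_spec, cyx_piFun_spec]

variable {q F E}

theorem cyx_pi_spec (H : Subgroup (F ≃ₐ[ℚ] F)) (s : ↥(cyx_G F E H)) (x : F) :
    (s : E ≃ₐ[ℚ] E) (algebraMap F E x) =
      algebraMap F E (((cyx_pi F E H s : ↥H) : F ≃ₐ[ℚ] F) x) :=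
  cyx_piFun_spec H s x

theorem cyx_pi_unique (H : Subgroup (F ≃ₐ[ℚ] F)) (s : ↥(cyx_G F E H)) (σ : F ≃ₐ[ℚ] F)
    (h : ∀ x : F, (s : E ≃ₐ[ℚ] E) (algebraMap F E x) = algebraMap F E (σ x)) :
    ((cyx_pi F E H s : ↥H) : F ≃ₐ[ℚ] F) = σ :=
  cyx_piFun_unique H s σ h

theorem cyx_pi_eq_one_iff (H : Subgroup (F ≃ₐ[ℚ] F)) (s : ↥(cyx_G F E H)) :
    cyx_pi F E H s = 1 ↔ ∀ x : F, (s : E ≃ₐ[ℚ] E) (algebraMap F E x) = algebraMap F E x := by
  constructor
  · intro h x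
    rw [cyx_pi_spec, h]
    rfl
  · intro h
    apply Subtype.ext
    exact cyx_pi_unique H s 1 h

/-- `Gal(E/F)` inside `cyx_G`. -/
def cyx_ofGal (H : Subgroup (F ≃ₐ[ℚ] F)) (f : E ≃ₐ[F] E) : ↥(cyx_G F E H) :=
  ⟨f.restrictScalars ℚ, 1, H.one_mem, fun x => f.commutes x⟩

theorem cyx_pi_ofGal (H : Subgroup (F ≃ₐ[ℚ] F)) (f : E ≃ₐ[F] E) :
    cyx_pi F E H (cyx_ofGal H f) = 1 :=
  (cyx_pi_eq_one_iff H _).mpr (fun x => f.commutes x)

/-- The kernel of the restriction is `Gal(E/F)`. -/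
def cyx_kerEquiv (H : Subgroup (F ≃ₐ[ℚ] F)) : ↥((cyx_pi F E H).ker) ≃ (E ≃ₐ[F] E) where
  toFun s :=
    { ((s : ↥(cyx_G F E H)) : E ≃ₐ[ℚ] E).toRingEquiv with
      commutes' := fun x => (cyx_pi_eq_one_iff H s.1).mp s.2 x }
  invFun f := ⟨cyx_ofGal H f, cyx_pi_ofGal H f⟩
  left_inv s := by
    apply Subtype.ext
    apply Subtype.ext
    apply AlgEquiv.ext
    intro x
    rfl
  right_inv f := by
    apply AlgEquiv.ext
    intro x
    rfl

theorem cyx_card_ker (hirr : Irreducible (cyclotomic q F)) (H : Subgroup (F ≃ₐ[ℚ] F)) :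
    Nat.card ↥((cyx_pi F E H).ker) = q - 1 := by
  have hq : q.Prime := Fact.out
  have : NeZero q := ⟨hq.ne_zero⟩
  have : IsGalois F E := IsCyclotomicExtension.isGalois {q} F E
  rw [Nat.card_congr (cyx_kerEquiv H), IsGalois.card_aut_eq_finrank,
    IsCyclotomicExtension.finrank E hirr, Nat.totient_prime hq]

/-- The tower `(F, H) ← (E, Gal(E/F^H))`. -/
def cyx_tower (hirr : Irreducible (cyclotomic q F)) (H : Subgroup (F ≃ₐ[ℚ] F)) :
    gl_Tower F E H (cyx_G F E H) where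
  j := IsScalarTower.toAlgHom ℚ F E
  π := cyx_pi F E H
  surj := by
    rintro ⟨σ, hσ⟩
    have hq : q.Prime := Fact.out
    have : NeZero q := ⟨hq.ne_zero⟩
    have hζ := IsCyclotomicExtension.zeta_spec q F E
    obtain ⟨s, hs, -⟩ := cyx_lift hirr σ hζ hζ
    refine ⟨⟨s, σ, hσ, hs⟩, ?_⟩
    apply Subtype.ext
    exact cyx_pi_unique H _ σ hs
  compat := fun s x => (cyx_pi_spec H s x).symm
  fixed := by
    intro y hy
    have : IsGalois F E := IsCyclotomicExtension.isGalois {q} F E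
    have h1 : y ∈ (⊥ : IntermediateField F E) := by
      rw [IsGalois.mem_bot_iff_fixed]
      intro f
      exact hy (cyx_ofGal H f) (cyx_pi_ofGal H f)
    obtain ⟨x, hx⟩ := IntermediateField.mem_bot.mp h1
    exact ⟨x, hx⟩

theorem cyx_tower_j (hirr : Irreducible (cyclotomic q F)) (H : Subgroup (F ≃ₐ[ℚ] F)) (x : F) :
    (cyx_tower (E := E) hirr H).j x = algebraMap F E x := rfl

theorem cyx_tower_pi (hirr : Irreducible (cyclotomic q F)) (H : Subgroup (F ≃ₐ[ℚ] F)) :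
    (cyx_tower (E := E) hirr H).π = cyx_pi F E H := rfl


theorem cyx_faithful (H : Subgroup (F ≃ₐ[ℚ] F)) {ζ : E} (hζ : IsPrimitiveRoot ζ q)
    (s : ↥(cyx_G F E H)) (h1 : cyx_pi F E H s = 1) (h2 : (s : E ≃ₐ[ℚ] E) ζ = ζ) : s = 1 := by
  apply Subtype.ext
  apply AlgEquiv.ext
  intro x
  exact cyx_ext q F E hζ (((s : E ≃ₐ[ℚ] E) : E ≃+* E) : E →+* E) (RingHom.id E)
    (fun x => (cyx_pi_eq_one_iff H s).mp h1 x) h2 x

theorem cyx_decompose (hirr : Irreducible (cyclotomic q F)) (H : Subgroup (F ≃ₐ[ℚ] F)) {ζ : E}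
    (hζ : IsPrimitiveRoot ζ q) (s : ↥(cyx_G F E H)) :
    ∃ s₁ s₂ : ↥(cyx_G F E H), cyx_pi F E H s₁ = 1 ∧ (s₂ : E ≃ₐ[ℚ] E) ζ = ζ ∧ s = s₁ * s₂ := by
  have hy : IsPrimitiveRoot ((s : E ≃ₐ[ℚ] E) ζ) q :=
    hζ.map_of_injective (s : E ≃ₐ[ℚ] E).injective
  obtain ⟨t, ht, htζ⟩ := cyx_lift hirr (1 : F ≃ₐ[ℚ] F) hζ hy
  let s₁ : ↥(cyx_G F E H) := ⟨t, 1, H.one_mem, ht⟩
  refine ⟨s₁, s₁⁻¹ * s, ?_, ?_, ?_⟩
  · exact (cyx_pi_eq_one_iff H s₁).mpr ht
  · show t⁻¹ ((s : E ≃ₐ[ℚ] E) ζ) = ζ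
    rw [← htζ]
    exact t.symm_apply_apply ζ
  · rw [mul_inv_cancel_left]

theorem cyx_commute (H : Subgroup (F ≃ₐ[ℚ] F)) {ζ : E} (hζ : IsPrimitiveRoot ζ q)
    (s₁ s₂ : ↥(cyx_G F E H)) (h1 : cyx_pi F E H s₁ = 1) (h2 : (s₂ : E ≃ₐ[ℚ] E) ζ = ζ) :
    s₁ * s₂ = s₂ * s₁ := by
  have hq : q.Prime := Fact.out
  have : NeZero q := ⟨hq.ne_zero⟩
  apply Subtype.ext
  apply AlgEquiv.ext
  intro x
  have h1' := (cyx_pi_eq_one_iff H s₁).mp h1
  have hy : ((s₁ : E ≃ₐ[ℚ] E) ζ) ^ q = 1 := by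
    rw [← map_pow, hζ.pow_eq_one, map_one]
  obtain ⟨b, -, hb⟩ := hζ.eq_pow_of_pow_eq_one hy
  refine cyx_ext q F E hζ
    (((((s₁ * s₂ : ↥(cyx_G F E H)) : E ≃ₐ[ℚ] E)) : E ≃+* E) : E →+* E)
    (((((s₂ * s₁ : ↥(cyx_G F E H)) : E ≃ₐ[ℚ] E)) : E ≃+* E) : E →+* E) ?_ ?_ x
  · intro x
    show (s₁ : E ≃ₐ[ℚ] E) ((s₂ : E ≃ₐ[ℚ] E) (algebraMap F E x)) =
      (s₂ : E ≃ₐ[ℚ] E) ((s₁ : E ≃ₐ[ℚ] E) (algebraMap F E x))
    rw [h1' x, cyx_pi_spec H s₂ x, h1']
  · show (s₁ : E ≃ₐ[ℚ] E) ((s₂ : E ≃ₐ[ℚ] E) ζ) = (s₂ : E ≃ₐ[ℚ] E) ((s₁ : E ≃ₐ[ℚ] E) ζ)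
    rw [h2, ← hb, map_pow, h2]

theorem cyx_decomp (hur : gl_UnramAt q F) (H : Subgroup (F ≃ₐ[ℚ] F)) {ζ : E}
    (hζ : IsPrimitiveRoot ζ q) (ι : E →ₐ[ℚ] PadicAlgCl q) (s : ↥(cyx_G F E H))
    (h1 : cyx_pi F E H s = 1) : (s : E ≃ₐ[ℚ] E) ∈ gl_decomp q E ι := by
  have h1' := (cyx_pi_eq_one_iff H s).mp h1
  let ιF : F →ₐ[ℚ] PadicAlgCl q := ι.comp (IsScalarTower.toAlgHom ℚ F E)
  have hζ' : IsPrimitiveRoot (ι ζ) q := hζ.map_of_injective ι.injective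
  have hy : IsPrimitiveRoot (ι ((s : E ≃ₐ[ℚ] E) ζ)) q :=
    (hζ.map_of_injective (s : E ≃ₐ[ℚ] E).injective).map_of_injective ι.injective
  obtain ⟨τ, hτ1, hτ2⟩ := cyx_exists_tau q hur ιF hζ' hy
  refine ⟨τ, ?_⟩
  apply AlgHom.ext
  intro x
  refine cyx_ext q F E hζ
    ((ι.comp ((s : E ≃ₐ[ℚ] E) : E →ₐ[ℚ] E) : E →ₐ[ℚ] PadicAlgCl q) : E →+* PadicAlgCl q)
    ((gl_twist q E τ ι : E →ₐ[ℚ] PadicAlgCl q) : E →+* PadicAlgCl q) ?_ ?_ x
  · intro x
    show ι ((s : E ≃ₐ[ℚ] E) (algebraMap F E x)) = τ (ι (algebraMap F E x))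
    rw [h1' x]
    exact (hτ1 x).symm
  · show ι ((s : E ≃ₐ[ℚ] E) ζ) = τ (ι ζ)
    exact hτ2.symm

end generic

/-- **[CYC-EXT]** the cyclotomic extension `F(ζ_q)` of a number field unramified at `q`. -/
theorem cyx_main : gl_CycExtStatement := by
  intro F _ _ H q _ hur
  have hq : q.Prime := Fact.out
  have : NeZero q := ⟨hq.ne_zero⟩
  have hirr := cyx_irreducible_of_unram q F hur
  have hζ := IsCyclotomicExtension.zeta_spec q F (CyclotomicField q F)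
  refine ⟨CyclotomicField q F, inferInstance, inferInstance, cyx_G F (CyclotomicField q F) H,
    cyx_tower hirr H, IsCyclotomicExtension.zeta q F (CyclotomicField q F), hζ, ?_, ?_, ?_, ?_, ?_⟩
  · intro s h1 h2
    exact cyx_faithful H hζ s h1 h2
  · exact cyx_card_ker hirr H
  · intro s
    exact cyx_decompose hirr H hζ s
  · intro s₁ s₂ h1 h2
    exact cyx_commute H hζ s₁ s₂ h1 h2
  · intro ι s h1
    exact cyx_decomp hur H hζ ι s h1

end

end Fermat.Agent.S55
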