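import Mathlib
import Fermat.Agent.S14.DensityGlue
import Fermat.Agent.S14.EulerLogFinal

/-!
# S55, global side, [R-AUX] input: the `ψ`-free analytic statement

For a number field `K` containing the `p`-th roots of unity (`p ≥ 3`) and `E ∈ 𝓞 K` which is not
a `p`-th power in `K`, there are infinitely many primes `λ` of degree one, prime to `p E`, modulo
which `E` is not a `p`-th power: outside any finite set of primes there is one.

This is the density pigeonhole of S14 (`anD_pigeonhole`) with (H1), (H2), (H4) only; no class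
group character and no `L`-function is involved.
-/

set_option autoImplicit false

open scoped NumberField nonZeroDivisors
open IsDedekindDomain

namespace Fermat.Agent.S55

open Fermat.Agent.S14

/-- `D(s) = log (1 / (s - 1)) ≥ 0` on `(1, 2]`. -/
theorem anF_D_nonneg {s : ℝ} (hs : 1 < s) (hs2 : s ≤ 2) : 0 ≤ anD_D s := by
  unfold anD_D
  apply Real.log_nonneg
  rw [le_div_iff₀ (by linarith)]
  linarith

/-- **The `ψ`-free analytic statement**: outside any finite set `F` of primes there is a prime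
`P` of degree one, with `N(P) ≠ p`, `E ∉ P`, modulo which `E` is not a `p`-th power. -/
theorem anF_exists_prime (p : ℕ) (hp : p.Prime) (hp3 : 3 ≤ p) (K : Type) [Field K]
    [NumberField K] (ζ : K) (hζ : IsPrimitiveRoot ζ p) (E : 𝓞 K)
    (hE : ¬ ∃ x : K, x ^ p = (E : K)) (F : Set (HeightOneSpectrum (𝓞 K))) (hF : F.Finite) :
    ∃ P : HeightOneSpectrum (𝓞 K), (Ideal.absNorm P.asIdeal).Prime ∧
      Ideal.absNorm P.asIdeal ≠ p ∧ E ∉ P.asIdeal ∧ P ∉ F ∧
      ∀ x : 𝓞 K, x ^ p - E ∉ P.asIdeal := by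
  have hE0 : E ≠ 0 := by
    intro h
    exact hE ⟨0, by rw [h, zero_pow hp.ne_zero]; simp⟩
  obtain ⟨c0, hc0⟩ := anLog_primeSumStatement K
  have hp0 : (0 : ℝ) < p := by exact_mod_cast hp.pos
  obtain ⟨P, hPG, -, hPB, hPF⟩ := anD_pigeonhole
    (fun (P : HeightOneSpectrum (𝓞 K)) s => anD_nrm P ^ (-s))
    (fun P s => anD_w_nonneg P s) (fun P s hs => anD_w_le_one P s hs)
    (fun s hs hs2 => (hc0 s hs hs2).1)
    {P | (Ideal.absNorm P.asIdeal).Prime} (∅ : Set (HeightOneSpectrum (𝓞 K))) (anD_B p E)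
    (F ∪ {P | Ideal.absNorm P.asIdeal = p ∨ E ∈ P.asIdeal})
    (hF.union (anD_finite_F hp E hE0)) (p : ℝ)
    (by exact_mod_cast (show 2 < p by omega))
    (anD_bound_G anLog_primeSumStatement anLog_higherDegreeStatement)
    ⟨0, fun s hs hs2 => by
      have h0 : ∑' i : (∅ : Set (HeightOneSpectrum (𝓞 K))), anD_nrm i.1 ^ (-s) = 0 := by
        simp
      rw [h0, add_zero]
      exact div_nonneg (anF_D_nonneg hs hs2) hp0.le⟩
    (anD_bound_B anLog_primeSumStatement anD_kummerSplitStatement hp ζ hζ E hE)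
  have hPF' : P ∉ F ∧ ¬ (Ideal.absNorm P.asIdeal = p ∨ E ∈ P.asIdeal) := by
    constructor
    · exact fun h => hPF (Or.inl h)
    · exact fun h => hPF (Or.inr h)
  obtain ⟨hPF1, hPF2⟩ := hPF'
  rw [not_or] at hPF2
  refine ⟨P, hPG, hPF2.1, hPF2.2, hPF1, ?_⟩
  intro x hx
  exact hPB ⟨hPG, hPF2.1, hPF2.2, x, hx⟩

/-- The same, excluding a finite set of rational primes as norms. -/
theorem anF_exists_prime_norm (p : ℕ) (hp : p.Prime) (hp3 : 3 ≤ p) (K : Type) [Field K]
    [NumberField K] (ζ : K) (hζ : IsPrimitiveRoot ζ p) (E : 𝓞 K)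
    (hE : ¬ ∃ x : K, x ^ p = (E : K)) (S : Finset ℕ) :
    ∃ P : HeightOneSpectrum (𝓞 K), (Ideal.absNorm P.asIdeal).Prime ∧
      Ideal.absNorm P.asIdeal ∉ S ∧ Ideal.absNorm P.asIdeal ≠ p ∧ E ∉ P.asIdeal ∧
      ∀ x : 𝓞 K, x ^ p - E ∉ P.asIdeal := by
  have hfin : {P : HeightOneSpectrum (𝓞 K) | Ideal.absNorm P.asIdeal ∈ S}.Finite := by
    have hprod : ((∏ q ∈ S.filter (· ≠ 0), (q : 𝓞 K))) ≠ 0 := by
      rw [Finset.prod_ne_zero_iff]
      intro q hq
      have := (Finset.mem_filter.1 hq).2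
      exact_mod_cast this
    have hI : Ideal.span {(∏ q ∈ S.filter (· ≠ 0), (q : 𝓞 K))} ≠ 0 := by
      rw [Ne, Ideal.zero_eq_bot, Ideal.span_singleton_eq_bot]
      exact hprod
    refine (Ideal.finite_factors hI).subset ?_
    intro P hP
    change P.asIdeal ∣ Ideal.span {(∏ q ∈ S.filter (· ≠ 0), (q : 𝓞 K))}
    rw [Ideal.dvd_iff_le, Ideal.span_singleton_le_iff_mem]
    have hmem := Ideal.absNorm_mem P.asIdeal
    have hne : Ideal.absNorm P.asIdeal ≠ 0 := by
      rw [Ne, Ideal.absNorm_eq_zero_iff]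
      exact P.ne_bot
    have hq : Ideal.absNorm P.asIdeal ∈ S.filter (· ≠ 0) := Finset.mem_filter.2 ⟨hP, hne⟩
    rw [← Finset.mul_prod_erase _ _ hq]
    exact Ideal.mul_mem_right _ _ hmem
  obtain ⟨P, h1, h2, h3, h4, h5⟩ := anF_exists_prime p hp hp3 K ζ hζ E hE _ hfin
  exact ⟨P, h1, h4, h2, h3, h5⟩

end Fermat.Agent.S55
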