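import Mathlib

/-!
# S55, global side, [R-AUX], part (K): Kummer independence of distinct primes

* `raux_kummer_step`: `K` a field containing a primitive `p`-th root of unity (`p` prime),
  `L = K(α)` with `α ^ p = a ∈ K`.  If `b ∈ K` is a `p`-th power in `L`, then `b * a ^ k` is a
  `p`-th power in `K` for some `k`.
* `raux_tower`: the same along a tower `ℚ(ζ, β t : t ∈ T)`.
* `raux_not_pow_abelian`, `raux_not_pow_cyclotomic`: a rational number which is not a `p`-th
  power in `ℚ` is not a `p`-th power in an abelian extension of `ℚ` (`p` odd).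
* `raux_not_pow_rat`: unique factorisation.
* `raux_indep`: for distinct primes `l₁`, `t ∈ T`, the prime `l₁` is not a `p`-th power in
  `ℚ(ζ, (l₁ ^ (p - 1) t) ^ (1 / p) : t ∈ T)`.
-/

set_option autoImplicit false

open Polynomial IntermediateField

namespace Fermat.Agent.S55

/-- Two elements with the same `p`-th power differ by a power of a primitive `p`-th root of
unity. -/
theorem raux_eq_pow_mul {L : Type*} [Field L] {p : ℕ} (hp : p ≠ 0) {ζ : L}
    (hζ : IsPrimitiveRoot ζ p) {u v : L} (hv : v ≠ 0) (h : u ^ p = v ^ p) :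
    ∃ i < p, u = ζ ^ i * v := by
  have : NeZero p := ⟨hp⟩
  have h1 : (u / v) ^ p = 1 := by
    rw [div_pow, h, div_self (pow_ne_zero _ hv)]
  obtain ⟨i, hi, hi'⟩ := hζ.eq_pow_of_pow_eq_one h1
  refine ⟨i, hi, ?_⟩
  rw [hi', div_mul_cancel₀ _ hv]

/-- **One step of Kummer theory.** -/
theorem raux_kummer_step {K L : Type*} [Field K] [Field L] [Algebra K L] {p : ℕ}
    (hp : p.Prime) {ζ : K} (hζ : IsPrimitiveRoot ζ p) {a b : K} {α y : L}
    (hα : α ^ p = algebraMap K L a) (htop : K⟮α⟯ = ⊤)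
    (hy : y ^ p = algebraMap K L b) :
    ∃ (k : ℕ) (c : K), b * a ^ k = c ^ p := by
  classical
  have : NeZero p := ⟨hp.ne_zero⟩
  have hζL : IsPrimitiveRoot (algebraMap K L ζ) p :=
    hζ.map_of_injective (algebraMap K L).injective
  by_cases hpow : ∃ β : K, β ^ p = a
  · -- `α ∈ K`, so `L = K`
    obtain ⟨β, hβ⟩ := hpow
    have hαmem : α ∈ (⊥ : IntermediateField K L) := by
      by_cases hβ0 : β = 0
      · have : α = 0 := by
          have h0 : α ^ p = 0 := by rw [hα, ← hβ, hβ0, zero_pow hp.ne_zero, map_zero]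
          exact pow_eq_zero_iff hp.ne_zero |>.mp h0
        rw [this]
        exact zero_mem _
      · have hβL : algebraMap K L β ≠ 0 := by
          rwa [Ne, map_eq_zero]
        obtain ⟨i, -, hi⟩ := raux_eq_pow_mul hp.ne_zero hζL hβL
          (show α ^ p = (algebraMap K L β) ^ p by rw [hα, ← hβ, map_pow])
        rw [hi, ← map_pow, ← map_mul]
        exact IntermediateField.mem_bot.mpr ⟨_, rfl⟩
    have hbot : (⊤ : IntermediateField K L) = ⊥ := by
      rw [← htop]
      exact IntermediateField.adjoin_simple_eq_bot_iff.mpr hαmem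
    have hymem : y ∈ (⊥ : IntermediateField K L) := hbot ▸ IntermediateField.mem_top
    obtain ⟨c, rfl⟩ := IntermediateField.mem_bot.mp hymem
    refine ⟨0, c, ?_⟩
    apply (algebraMap K L).injective
    rw [pow_zero, mul_one, ← hy, map_pow]
  · simp only [not_exists] at hpow
    have H : Irreducible (X ^ p - C a) := X_pow_sub_C_irreducible_of_prime hp hpow
    have hζ' : (primitiveRoots p K).Nonempty := ⟨ζ, (mem_primitiveRoots hp.pos).mpr hζ⟩
    have ha0 : a ≠ 0 := by
      intro h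
      exact hpow 0 (by rw [h, zero_pow hp.ne_zero])
    have hα0 : α ≠ 0 := by
      intro h
      rw [h, zero_pow hp.ne_zero] at hα
      exact ha0 ((map_eq_zero _).mp hα.symm)
    have hαalg : IsAlgebraic K α := by
      refine ⟨X ^ p - C a, X_pow_sub_C_ne_zero hp.pos a, ?_⟩
      simp [hα]
    have hsplit : IsSplittingField K L (X ^ p - C a) := by
      constructor
      · rw [Polynomial.map_sub, Polynomial.map_pow, Polynomial.map_C, Polynomial.map_X]
        exact X_pow_sub_C_splits_of_isPrimitiveRoot hζL hα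
      · rw [eq_top_iff, ← IntermediateField.top_toSubalgebra, ← htop,
          IntermediateField.adjoin_simple_toSubalgebra_of_isAlgebraic hαalg]
        apply Algebra.adjoin_mono
        rw [Set.singleton_subset_iff, mem_rootSet_of_ne (X_pow_sub_C_ne_zero hp.pos a),
          aeval_def, eval₂_sub, eval₂_X_pow, eval₂_C, hα, sub_self]
    have hgal : IsGalois K L := isGalois_of_isSplittingField_X_pow_sub_C hζ' H L
    have hfin : FiniteDimensional K L := IsSplittingField.finiteDimensional L (X ^ p - C a)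
    set e := autEquivZmod H L hζ with he
    set σ : L ≃ₐ[K] L := e.symm (Multiplicative.ofAdd (1 : ZMod p)) with hσ
    have hσα : σ α = algebraMap K L ζ * α := by
      have h := autEquivZmod_symm_apply_natCast H L hα hζ 1
      rw [Nat.cast_one, pow_one, Algebra.smul_def] at h
      exact h
    by_cases hy0 : y = 0
    · refine ⟨0, 0, ?_⟩
      apply (algebraMap K L).injective
      rw [pow_zero, mul_one, ← hy, hy0, zero_pow hp.ne_zero, zero_pow hp.ne_zero, map_zero]
    have hσy : (σ y) ^ p = y ^ p := by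
      rw [← map_pow, hy, AlgEquiv.commutes]
    obtain ⟨i, hi, hσyi⟩ := raux_eq_pow_mul hp.ne_zero hζL hy0 hσy
    set z : L := y * α ^ (p - i) with hz
    have hσz : σ z = z := by
      rw [hz, map_mul, map_pow, hσyi, hσα, mul_pow]
      have : (algebraMap K L ζ) ^ i * (algebraMap K L ζ) ^ (p - i) = 1 := by
        rw [← pow_add, Nat.add_sub_cancel' hi.le, hζL.pow_eq_one]
      calc (algebraMap K L ζ) ^ i * y * ((algebraMap K L ζ) ^ (p - i) * α ^ (p - i))
          = ((algebraMap K L ζ) ^ i * (algebraMap K L ζ) ^ (p - i)) * (y * α ^ (p - i)) := by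
            ring
        _ = y * α ^ (p - i) := by rw [this, one_mul]
    have hpowfix : ∀ n : ℕ, (σ ^ n) z = z := by
      intro n
      induction n with
      | zero => simp
      | succ n ih => rw [pow_succ, AlgEquiv.mul_apply, hσz, ih]
    have hall : ∀ τ : L ≃ₐ[K] L, τ z = z := by
      intro τ
      have hτ : τ = σ ^ (Multiplicative.toAdd (e τ)).val := by
        apply e.injective
        rw [map_pow, hσ, MulEquiv.apply_symm_apply, ← ofAdd_nsmul, nsmul_eq_mul, mul_one,
          ZMod.natCast_zmod_val]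
        rfl
      rw [hτ]
      exact hpowfix _
    obtain ⟨c, hc⟩ := (IsGalois.mem_range_algebraMap_iff_fixed z).mpr hall
    refine ⟨p - i, c, ?_⟩
    apply (algebraMap K L).injective
    rw [map_mul, map_pow, map_pow, hc, hz, mul_pow, hy, ← pow_mul, mul_comm (p - i) p, pow_mul,
      hα]

/-- One step of Kummer theory, inside an ambient field. -/
theorem raux_kummer_step_ambient {K Ω : Type*} [Field K] [Field Ω] [Algebra K Ω] {p : ℕ}
    (hp : p.Prime) {ζ : K} (hζ : IsPrimitiveRoot ζ p) {a b : K} {α y : Ω}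
    (hα : α ^ p = algebraMap K Ω a) (hymem : y ∈ K⟮α⟯) (hy : y ^ p = algebraMap K Ω b) :
    ∃ (k : ℕ) (c : K), b * a ^ k = c ^ p := by
  have htop : K⟮(AdjoinSimple.gen K α)⟯ = ⊤ := by
    apply IntermediateField.lift_injective
    rw [lift_adjoin_simple, lift_top, AdjoinSimple.coe_gen]
  exact raux_kummer_step (L := K⟮α⟯) hp hζ (α := AdjoinSimple.gen K α) (y := ⟨y, hymem⟩)
    (Subtype.ext hα) htop (Subtype.ext hy)

/-- **Kummer descent along a tower of radical extensions.**  If `N` is a `p`-th power in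
`ℚ(ζ, β t : t ∈ T)` with `β t ^ p = m t`, then `N * ∏ m t ^ k t` is a `p`-th power in `ℚ(ζ)`
for suitable exponents. -/
theorem raux_tower {Ω : Type*} [Field Ω] [Algebra ℚ Ω] {p : ℕ} (hp : p.Prime) {ζ η : Ω}
    (hη : IsPrimitiveRoot η p) (hηmem : η ∈ ℚ⟮ζ⟯) (β : ℕ → Ω) (m : ℕ → ℕ) (T : Finset ℕ)
    (hβ : ∀ t ∈ T, β t ^ p = (m t : Ω)) (N : ℕ) (x : Ω)
    (hx : x ∈ adjoin ℚ (insert ζ (β '' (T : Set ℕ)))) (hxp : x ^ p = (N : Ω)) :
    ∃ (k : ℕ → ℕ) (c : Ω), c ∈ ℚ⟮ζ⟯ ∧ c ^ p = ((N * ∏ t ∈ T, m t ^ k t : ℕ) : Ω) := by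
  classical
  induction T using Finset.induction_on generalizing N x with
  | empty =>
    refine ⟨fun _ => 0, x, ?_, ?_⟩
    · simpa using hx
    · simpa using hxp
  | insert t₀ T' ht₀ ih =>
    have hβ' : ∀ t ∈ T', β t ^ p = (m t : Ω) := fun t ht => hβ t (Finset.mem_insert_of_mem ht)
    set S : Set Ω := insert ζ (β '' (T' : Set ℕ)) with hS
    have hset : insert ζ (β '' ((insert t₀ T' : Finset ℕ) : Set ℕ)) = S ∪ {β t₀} := by
      rw [hS, Finset.coe_insert, Set.image_insert_eq]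
      ext z
      simp only [Set.mem_insert_iff, Set.mem_union, Set.mem_singleton_iff]
      tauto
    rw [hset, ← adjoin_adjoin_left] at hx
    have hx' : x ∈ (adjoin ℚ S)⟮β t₀⟯ := hx
    have hζS : ζ ∈ adjoin ℚ S := subset_adjoin ℚ S (Set.mem_insert _ _)
    have hle : ℚ⟮ζ⟯ ≤ adjoin ℚ S := by
      rw [adjoin_simple_le_iff]
      exact hζS
    have hηK : IsPrimitiveRoot (⟨η, hle hηmem⟩ : adjoin ℚ S) p := by
      refine IsPrimitiveRoot.of_map_of_injective (f := algebraMap (adjoin ℚ S) Ω) ?_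
        (algebraMap (adjoin ℚ S) Ω).injective
      exact hη
    obtain ⟨k₀, c, hc⟩ := raux_kummer_step_ambient (K := adjoin ℚ S) hp hηK
      (a := (m t₀ : adjoin ℚ S)) (b := (N : adjoin ℚ S)) (α := β t₀) (y := x)
      (by rw [map_natCast]; exact hβ t₀ (Finset.mem_insert_self _ _)) hx'
      (by rw [map_natCast]; exact hxp)
    have hc' : (c : Ω) ^ p = ((N * m t₀ ^ k₀ : ℕ) : Ω) := by
      have := congrArg (algebraMap (adjoin ℚ S) Ω) hc
      rw [map_mul, map_pow, map_pow, map_natCast, map_natCast] at this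
      rw [Nat.cast_mul, Nat.cast_pow]
      exact this.symm
    obtain ⟨k', c', hc'mem, hc'p⟩ := ih hβ' (N * m t₀ ^ k₀) (c : Ω) c.2 hc'
    refine ⟨Function.update k' t₀ k₀, c', hc'mem, ?_⟩
    rw [hc'p, Finset.prod_insert ht₀, Function.update_self]
    have hprod : ∏ t ∈ T', m t ^ (Function.update k' t₀ k₀ t) = ∏ t ∈ T', m t ^ k' t := by
      apply Finset.prod_congr rfl
      intro t ht
      rw [Function.update_of_ne]
      rintro rfl
      exact ht₀ ht
    rw [hprod, mul_assoc]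

/-- An element of `F` which is not a `p`-th power in `F` (`p` an odd prime, `Φ_p` irreducible
over `F`) is not a `p`-th power in any abelian extension of `F`. -/
theorem raux_not_pow_abelian {F M : Type*} [Field F] [CharZero F] [Field M] [Algebra F M]
    [IsAbelianGalois F M]
    {p : ℕ} (hp : p.Prime) (hp2 : p ≠ 2) (hcyc : Irreducible (cyclotomic p F))
    (N : F) (hN : ∀ c : F, c ^ p ≠ N) (x : M) :
    x ^ p ≠ algebraMap F M N := by
  classical
  intro hxp
  have : Fact p.Prime := ⟨hp⟩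
  have : NeZero p := ⟨hp.ne_zero⟩
  have H : Irreducible (X ^ p - C N : F[X]) := X_pow_sub_C_irreducible_of_prime hp hN
  have hmonic : (X ^ p - C N : F[X]).Monic := monic_X_pow_sub_C N hp.ne_zero
  have hint : IsIntegral F x := ⟨X ^ p - C N, hmonic, by simp [hxp]⟩
  have hmin : minpoly F x = X ^ p - C N :=
    (minpoly.eq_of_irreducible_of_monic H (by simp [hxp]) hmonic).symm
  have hfinE : Module.finrank F F⟮x⟯ = p := by
    rw [adjoin.finrank hint, hmin, natDegree_X_pow_sub_C]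
  have : IsGalois F F⟮x⟯ := inferInstance
  have : Normal F F⟮x⟯ := inferInstance
  have hxE : (AdjoinSimple.gen F x) ^ p = algebraMap F F⟮x⟯ N := by
    apply Subtype.ext
    simpa using hxp
  have hminE : minpoly F (AdjoinSimple.gen F x) = X ^ p - C N :=
    (minpoly.eq_of_irreducible_of_monic H (by simp [hxE]) hmonic).symm
  have hsplit : ((X ^ p - C N : F[X]).map (algebraMap F F⟮x⟯)).Splits := by
    have := Normal.splits (F := F) (K := F⟮x⟯) inferInstance (AdjoinSimple.gen F x)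
    rwa [hminE] at this
  have hsep : (X ^ p - C N : F[X]).Separable := H.separable
  have hcard : ((X ^ p - C N : F[X]).map (algebraMap F F⟮x⟯)).roots.card = p := by
    rw [splits_iff_card_roots.mp hsplit, natDegree_map, natDegree_X_pow_sub_C]
  have hnodup : ((X ^ p - C N : F[X]).map (algebraMap F F⟮x⟯)).roots.Nodup :=
    nodup_roots hsep.map
  have hne0 : ((X ^ p - C N : F[X]).map (algebraMap F F⟮x⟯)) ≠ 0 :=
    (hmonic.map _).ne_zero
  obtain ⟨r, hr, hrne⟩ : ∃ r ∈ ((X ^ p - C N : F[X]).map (algebraMap F F⟮x⟯)).roots,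
      r ≠ AdjoinSimple.gen F x := by
    by_contra hcon
    simp only [not_exists, not_and, not_not] at hcon
    have hle : ((X ^ p - C N : F[X]).map (algebraMap F F⟮x⟯)).roots ≤
        {AdjoinSimple.gen F x} := by
      rw [Multiset.le_iff_subset hnodup]
      intro r hr
      rw [Multiset.mem_singleton]
      exact hcon r hr
    have := Multiset.card_le_card hle
    rw [hcard, Multiset.card_singleton] at this
    have := hp.two_le
    omega
  have hrp : r ^ p = algebraMap F F⟮x⟯ N := by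
    have := (mem_roots hne0).mp hr
    simpa [sub_eq_zero] using this
  have hN0 : N ≠ 0 := by
    intro h
    exact hN 0 (by rw [h, zero_pow hp.ne_zero])
  have hx0 : AdjoinSimple.gen F x ≠ 0 := by
    intro h
    rw [h, zero_pow hp.ne_zero] at hxE
    exact hN0 ((map_eq_zero _).mp hxE.symm)
  have hη1 : (r / AdjoinSimple.gen F x) ^ p = 1 := by
    rw [div_pow, hrp, hxE, div_self]
    rwa [Ne, map_eq_zero]
  have hηne : r / AdjoinSimple.gen F x ≠ 1 := by
    intro h
    apply hrne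
    rw [div_eq_one_iff_eq hx0] at h
    exact h
  have hηprim : IsPrimitiveRoot (r / AdjoinSimple.gen F x) p := by
    have h := IsPrimitiveRoot.orderOf (r / AdjoinSimple.gen F x)
    rwa [orderOf_eq_prime hη1 hηne] at h
  have : IsCyclotomicExtension {p} F F⟮r / AdjoinSimple.gen F x⟯ :=
    hηprim.intermediateField_adjoin_isCyclotomicExtension F
  have hdeg : Module.finrank F F⟮r / AdjoinSimple.gen F x⟯ = p - 1 := by
    rw [IsCyclotomicExtension.finrank (n := p) F⟮r / AdjoinSimple.gen F x⟯ hcyc,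
      Nat.totient_prime hp]
  have hdvd : p - 1 ∣ p := by
    rw [← hdeg, ← hfinE]
    exact ⟨_, (Module.finrank_mul_finrank F F⟮r / AdjoinSimple.gen F x⟯ F⟮x⟯).symm⟩
  have h1 : p - 1 ∣ 1 := by
    have h := Nat.dvd_sub hdvd (dvd_refl (p - 1))
    have hp1 : p - (p - 1) = 1 := by have := hp.two_le; omega
    rwa [hp1] at h
  have h2 := Nat.le_of_dvd one_pos h1
  have := hp.two_le
  omega

/-- A rational number which is not a `p`-th power in `ℚ` (`p` an odd prime) is not a `p`-th power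
in a cyclotomic field. -/
theorem raux_not_pow_cyclotomic {Ω : Type*} [Field Ω] [Algebra ℚ Ω] [Algebra.IsIntegral ℚ Ω]
    {p : ℕ} (hp : p.Prime) (hp2 : p ≠ 2) {n : ℕ} [NeZero n] {ζ : Ω} (hζ : IsPrimitiveRoot ζ n)
    (N : ℚ) (hN : ∀ c : ℚ, c ^ p ≠ N) (x : Ω) (hx : x ∈ ℚ⟮ζ⟯) :
    x ^ p ≠ algebraMap ℚ Ω N := by
  intro hxp
  have hcyc := hζ.intermediateField_adjoin_isCyclotomicExtension ℚ
  have hab := @IsCyclotomicExtension.isAbelianGalois {n} ℚ ℚ⟮ζ⟯ _ _
    (IntermediateField.algebra' _) hcyc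
  refine @raux_not_pow_abelian ℚ ℚ⟮ζ⟯ _ _ _ (IntermediateField.algebra' _) hab p hp hp2
    (cyclotomic.irreducible_rat hp.pos) N hN ⟨x, hx⟩ ?_
  apply Subtype.ext
  exact hxp

/-- The product `l₁ * ∏ (l₁ ^ (p - 1) * t) ^ k t` over distinct primes is not a `p`-th power
in `ℚ`. -/
theorem raux_not_pow_rat {p : ℕ} (hp : p.Prime) {l₁ : ℕ} (hl₁ : l₁.Prime) (T : Finset ℕ)
    (hT : ∀ t ∈ T, t.Prime) (hl₁T : l₁ ∉ T) (k : ℕ → ℕ) (c : ℚ) :
    c ^ p ≠ ((l₁ * ∏ t ∈ T, (l₁ ^ (p - 1) * t) ^ k t : ℕ) : ℚ) := by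
  classical
  intro hc
  have hfne : ∀ t ∈ T, (l₁ ^ (p - 1) * t) ^ k t ≠ 0 := fun t ht =>
    pow_ne_zero _ (mul_ne_zero (pow_ne_zero _ hl₁.ne_zero) (hT t ht).ne_zero)
  have hprod0 : ∏ t ∈ T, (l₁ ^ (p - 1) * t) ^ k t ≠ 0 := Finset.prod_ne_zero_iff.mpr hfne
  set N := l₁ * ∏ t ∈ T, (l₁ ^ (p - 1) * t) ^ k t with hN
  have hN0 : N ≠ 0 := mul_ne_zero hl₁.ne_zero hprod0
  have hc0 : c ≠ 0 := by
    rintro rfl
    rw [zero_pow hp.ne_zero] at hc
    exact hN0 (by exact_mod_cast hc.symm)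
  have key : ∀ ℓ : ℕ, ℓ.Prime → p ∣ N.factorization ℓ := by
    intro ℓ hℓ
    have := Fact.mk hℓ
    have h1 : padicValRat ℓ (c ^ p) = p * padicValRat ℓ c := padicValRat.pow c
    rw [hc, padicValRat.of_nat, ← Nat.factorization_def N hℓ] at h1
    exact Int.natCast_dvd_natCast.mp ⟨_, h1⟩
  have hfac : ∀ ℓ : ℕ, N.factorization ℓ = (if l₁ = ℓ then 1 else 0) +
      ∑ t ∈ T, k t * ((p - 1) * (if l₁ = ℓ then 1 else 0) + (if t = ℓ then 1 else 0)) := by
    intro ℓ
    rw [hN, Nat.factorization_mul hl₁.ne_zero hprod0, hl₁.factorization,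
      Nat.factorization_prod hfne, Finsupp.add_apply, Finsupp.finsetSum_apply,
      Finsupp.single_apply]
    congr 1
    apply Finset.sum_congr rfl
    intro t ht
    rw [Nat.factorization_pow, Nat.factorization_mul (pow_ne_zero _ hl₁.ne_zero)
      (hT t ht).ne_zero, Nat.factorization_pow, hl₁.factorization, (hT t ht).factorization]
    simp only [Finsupp.smul_apply, Finsupp.add_apply, Finsupp.single_apply, smul_eq_mul]
  have hk : ∀ t₀ ∈ T, p ∣ k t₀ := by
    intro t₀ ht₀
    have h := key t₀ (hT t₀ ht₀)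
    have hne : l₁ ≠ t₀ := fun h => hl₁T (h ▸ ht₀)
    rw [hfac, if_neg hne] at h
    simpa [Finset.sum_ite_eq', ht₀] using h
  have h := key l₁ hl₁
  rw [hfac, if_pos rfl] at h
  have hsum : ∑ t ∈ T, k t * ((p - 1) * 1 + (if t = l₁ then 1 else 0)) =
      ∑ t ∈ T, k t * (p - 1) := by
    apply Finset.sum_congr rfl
    intro t ht
    have hne : t ≠ l₁ := fun h => hl₁T (h ▸ ht)
    rw [if_neg hne, mul_one, add_zero]
  rw [hsum] at h
  have hdvd : p ∣ ∑ t ∈ T, k t * (p - 1) :=
    Finset.dvd_sum fun t ht => Dvd.dvd.mul_right (hk t ht) _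
  have h1 : p ∣ 1 := (Nat.dvd_add_left hdvd).mp h
  exact hp.one_lt.ne' (Nat.dvd_one.mp h1)

/-- **Kummer independence of distinct primes.**  Let `ζ` be a primitive `n`-th root of unity
with `p ∣ n` (`p` an odd prime), `l₁` a prime, `T` a finite set of primes not containing `l₁`
and `β t ^ p = l₁ ^ (p - 1) * t` for `t ∈ T`.  Then `l₁` is not a `p`-th power in
`ℚ(ζ, β t : t ∈ T)`. -/
theorem raux_indep {Ω : Type*} [Field Ω] [Algebra ℚ Ω] [Algebra.IsIntegral ℚ Ω] {p : ℕ}
    (hp : p.Prime) (hp2 : p ≠ 2) {n : ℕ} [NeZero n] {ζ : Ω} (hζ : IsPrimitiveRoot ζ n)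
    (hpn : p ∣ n) {l₁ : ℕ} (hl₁ : l₁.Prime) (T : Finset ℕ) (hT : ∀ t ∈ T, t.Prime)
    (hl₁T : l₁ ∉ T) (β : ℕ → Ω) (hβ : ∀ t ∈ T, β t ^ p = ((l₁ ^ (p - 1) * t : ℕ) : Ω))
    (x : Ω) (hx : x ∈ adjoin ℚ (insert ζ (β '' (T : Set ℕ)))) : x ^ p ≠ (l₁ : Ω) := by
  intro hxp
  obtain ⟨d, hd⟩ := hpn
  have hη : IsPrimitiveRoot (ζ ^ d) p :=
    hζ.pow (NeZero.pos n) (by rw [hd, mul_comm])
  have hηmem : ζ ^ d ∈ ℚ⟮ζ⟯ := pow_mem (mem_adjoin_simple_self ℚ ζ) d
  obtain ⟨k, c, hcmem, hcp⟩ := raux_tower hp hη hηmem β (fun t => l₁ ^ (p - 1) * t) T hβ l₁ x hx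
    hxp
  refine raux_not_pow_cyclotomic hp hp2 hζ
    ((l₁ * ∏ t ∈ T, (l₁ ^ (p - 1) * t) ^ k t : ℕ) : ℚ)
    (fun c => raux_not_pow_rat hp hl₁ T hT hl₁T k c) c hcmem ?_
  rw [hcp, map_natCast]

end Fermat.Agent.S55
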