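import Mathlib
import Fermat.Agent.S55.Global.KummerPrimeFree
import Fermat.Agent.S55.Global.RAuxKummer

/-!
# S55, global side, [R-AUX]: auxiliary primes

For an odd prime `p`, `j ≥ 0`, a finite set `L` of primes and a finite set `F` of excluded
numbers there is a prime `q ∉ F ∪ L`, `q ≡ 1 mod p ^ j`, such that no `l ∈ L` is a `p`-th power
modulo `q`.

Proof: apply the `ψ`-free analytic statement `anF_exists_prime_norm` to the number field
`B = ℚ(ζ, (l₁ ^ (p - 1) t) ^ (1 / p) : t ∈ L ∖ {l₁})`, `ζ` a primitive `p ^ (j + 1)`-th root of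
unity, and `E = l₁` (not a `p`-th power in `B` by Kummer independence `raux_indep`), and descend
from the prime of degree one of `B` to `q`.
-/

set_option autoImplicit false

open scoped NumberField
open IsDedekindDomain IntermediateField

namespace Fermat.Agent.S55

/-- The shape of the descent step (proved as `rauxD_main`). -/
def raux_DescentStatement : Prop :=
  ∀ (p : ℕ) (_ : p.Prime) (j : ℕ) (K : Type) [Field K] [NumberField K] (ζ : K)
    (_ : IsPrimitiveRoot ζ (p ^ j)) (L : Finset ℕ) (_ : ∀ l ∈ L, l.Prime) (l₁ : ℕ)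
    (β : ℕ → 𝓞 K) (_ : ∀ l ∈ L, β l ^ p = (l₁ : 𝓞 K) ^ (p - 1) * (l : 𝓞 K))
    (P : Ideal (𝓞 K)) (_ : (Ideal.absNorm P).Prime) (_ : Ideal.absNorm P ∉ L)
    (_ : Ideal.absNorm P ≠ p) (_ : ∀ x : 𝓞 K, x ^ p - (l₁ : 𝓞 K) ∉ P),
    p ^ j ∣ Ideal.absNorm P - 1 ∧
      ∀ l ∈ L, ¬ ∃ x : ZMod (Ideal.absNorm P), x ^ p = (l : ZMod (Ideal.absNorm P))

/-- `AlgebraicClosure ℚ` is integral over `ℚ` (for the canonical `ℚ`-algebra structure of a
field of characteristic zero). -/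
theorem raux_isIntegral_Qbar : Algebra.IsIntegral ℚ (AlgebraicClosure ℚ) := by
  have e : (AlgebraicClosure.instAlgebra ℚ : Algebra ℚ (AlgebraicClosure ℚ)) =
      DivisionRing.toRatAlgebra := Subsingleton.elim _ _
  have h : @Algebra.IsIntegral ℚ (AlgebraicClosure ℚ) _ _ (AlgebraicClosure.instAlgebra ℚ) :=
    @Algebra.IsAlgebraic.isIntegral ℚ (AlgebraicClosure ℚ) _ _ (AlgebraicClosure.instAlgebra ℚ)
      (AlgebraicClosure.isAlgebraic ℚ)
  rw [e] at h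
  exact h

/-- The core of [R-AUX]: `L = insert l₁ T`, exponent `j + 1`. -/
theorem raux_core_of (hD : raux_DescentStatement) (p : ℕ) (hp : p.Prime) (hp3 : 3 ≤ p) (j : ℕ)
    (l₁ : ℕ) (hl₁ : l₁.Prime) (T : Finset ℕ) (hT : ∀ t ∈ T, t.Prime) (hl₁T : l₁ ∉ T)
    (F : Finset ℕ) :
    ∃ q : ℕ, q.Prime ∧ q ∉ F ∧ q ∉ insert l₁ T ∧ q ≠ p ∧ p ^ (j + 1) ∣ q - 1 ∧
      ∀ l ∈ insert l₁ T, ¬ ∃ x : ZMod q, x ^ p = (l : ZMod q) := by
  classical
  have hp2 : p ≠ 2 := by omega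
  have hintQ : Algebra.IsIntegral ℚ (AlgebraicClosure ℚ) := raux_isIntegral_Qbar
  have hne : NeZero (p ^ (j + 1)) := ⟨pow_ne_zero _ hp.ne_zero⟩
  obtain ⟨ζ, hζ⟩ := HasEnoughRootsOfUnity.exists_primitiveRoot (AlgebraicClosure ℚ) (p ^ (j + 1))
  have hroot : ∀ t : ℕ, ∃ z : AlgebraicClosure ℚ, z ^ p = ((l₁ ^ (p - 1) * t : ℕ) :
      AlgebraicClosure ℚ) := fun t => IsAlgClosed.exists_pow_nat_eq _ hp.pos
  choose β hβ using hroot
  set B : IntermediateField ℚ (AlgebraicClosure ℚ) :=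
    adjoin ℚ (insert ζ (β '' (T : Set ℕ))) with hB
  have hfinS : Finite ↥(insert ζ (β '' (T : Set ℕ))) :=
    ((T.finite_toSet.image β).insert ζ).to_subtype
  have hfd : FiniteDimensional ℚ B :=
    finiteDimensional_adjoin (fun x _ => Algebra.IsIntegral.isIntegral x)
  have hnf : NumberField B := NumberField.of_module_finite ℚ B
  -- the root of unity
  have hζmem : ζ ∈ B := subset_adjoin ℚ _ (Set.mem_insert _ _)
  have hζB : IsPrimitiveRoot (⟨ζ, hζmem⟩ : B) (p ^ (j + 1)) :=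
    IsPrimitiveRoot.of_map_of_injective (f := algebraMap B (AlgebraicClosure ℚ)) hζ
      (algebraMap B (AlgebraicClosure ℚ)).injective
  have hηB : IsPrimitiveRoot ((⟨ζ, hζmem⟩ : B) ^ (p ^ j)) p :=
    hζB.pow (pow_pos hp.pos _) (pow_succ p j)
  -- the radicals
  have hβmem : ∀ t ∈ T, β t ∈ B := fun t ht =>
    subset_adjoin ℚ _ (Set.mem_insert_of_mem _ (Set.mem_image_of_mem β ht))
  have hβint : ∀ t (ht : t ∈ T), IsIntegral ℤ (⟨β t, hβmem t ht⟩ : B) := by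
    intro t ht
    refine ⟨Polynomial.X ^ p - Polynomial.C ((l₁ ^ (p - 1) * t : ℕ) : ℤ),
      Polynomial.monic_X_pow_sub_C _ hp.ne_zero, ?_⟩
    apply Subtype.ext
    simp [hβ t]
  set b : ℕ → 𝓞 B := fun l =>
    if l = l₁ then (l₁ : 𝓞 B) else if h : l ∈ T then ⟨⟨β l, hβmem l h⟩, hβint l h⟩ else 0
    with hb
  have hbp : ∀ l ∈ insert l₁ T, b l ^ p = (l₁ : 𝓞 B) ^ (p - 1) * (l : 𝓞 B) := by
    intro l hl
    by_cases hll : l = l₁
    · rw [hb]
      simp only [hll, if_true]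
      rw [← pow_succ, Nat.sub_add_cancel hp.one_le]
    · have hlT : l ∈ T := (Finset.mem_insert.mp hl).resolve_left hll
      rw [hb]
      simp only [hll, if_false, dif_pos hlT]
      apply NumberField.RingOfIntegers.ext
      apply Subtype.ext
      simp [hβ l]
  -- `l₁` is not a `p`-th power in `B`
  have hE : ¬ ∃ x : B, x ^ p = (((l₁ : ℕ) : 𝓞 B) : B) := by
    rintro ⟨x, hx⟩
    refine raux_indep hp hp2 hζ (dvd_pow_self p (Nat.succ_ne_zero j)) hl₁ T hT hl₁T β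
      (fun t _ => hβ t) (x : AlgebraicClosure ℚ) x.2 ?_
    have := congrArg (fun z : B => (z : AlgebraicClosure ℚ)) hx
    simpa using this
  obtain ⟨P, hq, hqS, hqp, -, hP⟩ := anF_exists_prime_norm p hp hp3 B _ hηB (l₁ : 𝓞 B) hE
    (F ∪ insert l₁ T)
  have hqF : Ideal.absNorm P.asIdeal ∉ F := fun h => hqS (Finset.mem_union_left _ h)
  have hqL : Ideal.absNorm P.asIdeal ∉ insert l₁ T := fun h => hqS (Finset.mem_union_right _ h)
  have hL : ∀ l ∈ insert l₁ T, l.Prime := by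
    intro l hl
    rcases Finset.mem_insert.mp hl with rfl | h
    · exact hl₁
    · exact hT l h
  obtain ⟨h1, h2⟩ := hD p hp (j + 1) B _ hζB (insert l₁ T) hL l₁ b hbp P.asIdeal hq hqL hqp hP
  exact ⟨_, hq, hqF, hqL, hqp, h1, h2⟩

/-- **[R-AUX]** from the descent step. -/
theorem raux_main_of (hD : raux_DescentStatement) (p : ℕ) (hp : p.Prime) (hp3 : 3 ≤ p) (j : ℕ)
    (L F : Finset ℕ) (hL : ∀ l ∈ L, l.Prime) :
    ∃ q : ℕ, q.Prime ∧ q ∉ F ∧ q ∉ L ∧ q ≠ p ∧ p ^ j ∣ q - 1 ∧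
      ∀ l ∈ L, ¬ ∃ x : ZMod q, x ^ p = (l : ZMod q) := by
  classical
  rcases L.eq_empty_or_nonempty with rfl | ⟨l₁, hl₁⟩
  · obtain ⟨q, hq, hqF, -, hqp, hdvd, -⟩ :=
      raux_core_of hD p hp hp3 j 2 Nat.prime_two ∅ (by simp) (by simp) F
    exact ⟨q, hq, hqF, by simp, hqp, (pow_dvd_pow p (Nat.le_succ j)).trans hdvd, by simp⟩
  · have hins : insert l₁ (L.erase l₁) = L := Finset.insert_erase hl₁
    obtain ⟨q, hq, hqF, hqL, hqp, hdvd, hpow⟩ :=
      raux_core_of hD p hp hp3 j l₁ (hL l₁ hl₁) (L.erase l₁)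
        (fun t ht => hL t (Finset.mem_of_mem_erase ht)) (Finset.notMem_erase l₁ L) F
    rw [hins] at hqL hpow
    exact ⟨q, hq, hqF, hqL, hqp, (pow_dvd_pow p (Nat.le_succ j)).trans hdvd, hpow⟩

end Fermat.Agent.S55
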