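import Mathlib

/-!
# S55, global side, package [R-AUX], part (D): the descent

Let `K` be a number field and `P` an ideal of `𝓞 K` of prime norm `q`.  Then `𝓞 K ⧸ P = 𝔽_q`, and

* `rauxD_dvd` : if `K` contains a primitive `n`-th root of unity and `q ∤ n`, then `n ∣ q - 1`;
* `rauxD_not_pow` : if `a u ^ p ≡ b v ^ p mod P` with `u ∉ P` and `a` is not a `p`-th power
  mod `P`, then `b` is not a `p`-th power mod `P`;
* `rauxD_main` : the descent step of [R-AUX]: from `β_l ^ p = l₁ ^ (p - 1) l` (`l ∈ L`) and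
  `l₁` not a `p`-th power mod `P` we get `p ^ j ∣ q - 1` and no `l ∈ L` is a `p`-th power
  mod `q`.
-/

set_option autoImplicit false

noncomputable section

namespace Fermat.Agent.S55

open NumberField

variable {K : Type*} [Field K] [NumberField K]

/-- For an ideal `P` of prime norm `q` there is a surjection `𝓞 K → ZMod q` with kernel `P`. -/
theorem rauxD_exists_phi (P : Ideal (𝓞 K)) (hq : (Ideal.absNorm P).Prime) :
    ∃ φ : 𝓞 K →+* ZMod (Ideal.absNorm P),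
      Function.Surjective φ ∧ ∀ x : 𝓞 K, φ x = 0 ↔ x ∈ P := by
  have hcard : Nat.card (𝓞 K ⧸ P) = Ideal.absNorm P := by
    rw [Ideal.absNorm_apply, Submodule.cardQuot_apply]
  have : Finite (𝓞 K ⧸ P) := Nat.finite_of_card_ne_zero (by rw [hcard]; exact hq.ne_zero)
  letI : Fintype (𝓞 K ⧸ P) := Fintype.ofFinite _
  have hcard' : Fintype.card (𝓞 K ⧸ P) = Ideal.absNorm P := by
    rw [← Nat.card_eq_fintype_card, hcard]
  let e := ZMod.ringEquivOfPrime (𝓞 K ⧸ P) hq hcard'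
  refine ⟨(e.symm : (𝓞 K ⧸ P) →+* ZMod (Ideal.absNorm P)).comp (Ideal.Quotient.mk P), ?_, ?_⟩
  · intro y
    obtain ⟨x, hx⟩ := Ideal.Quotient.mk_surjective (e y)
    refine ⟨x, ?_⟩
    simp only [RingHom.coe_comp, RingHom.coe_coe, Function.comp_apply, hx]
    exact e.symm_apply_apply y
  · intro x
    simp only [RingHom.coe_comp, RingHom.coe_coe, Function.comp_apply]
    rw [map_eq_zero_iff _ e.symm.injective, Ideal.Quotient.eq_zero_iff_mem]

/-- A natural number lies in an ideal of prime norm `q` iff it is divisible by `q`. -/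
theorem rauxD_natCast_mem (P : Ideal (𝓞 K)) (hq : (Ideal.absNorm P).Prime) (n : ℕ) :
    (n : 𝓞 K) ∈ P ↔ Ideal.absNorm P ∣ n := by
  obtain ⟨φ, -, hφ⟩ := rauxD_exists_phi P hq
  rw [← hφ, map_natCast, ZMod.natCast_eq_zero_iff]

/-- **Roots of unity and the norm**: if `K` contains a primitive `n`-th root of unity and `P`
has prime norm `q ∤ n`, then `n ∣ q - 1`. -/
theorem rauxD_dvd (n : ℕ) (ζ : K) (hζ : IsPrimitiveRoot ζ n) (P : Ideal (𝓞 K))
    (hq : (Ideal.absNorm P).Prime) (hqn : ¬ Ideal.absNorm P ∣ n) :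
    n ∣ Ideal.absNorm P - 1 := by
  have hn0 : n ≠ 0 := by
    rintro rfl
    exact hqn (dvd_zero _)
  haveI : NeZero n := ⟨hn0⟩
  haveI : Fact (Ideal.absNorm P).Prime := ⟨hq⟩
  obtain ⟨φ, -, -⟩ := rauxD_exists_phi P hq
  have hζ' : IsPrimitiveRoot hζ.toInteger n := hζ.toInteger_isPrimitiveRoot
  haveI : NeZero ((n : ℕ) : 𝓞 K) := ⟨by exact_mod_cast hn0⟩
  have hroot : (Polynomial.cyclotomic n (𝓞 K)).IsRoot hζ.toInteger :=
    Polynomial.isRoot_cyclotomic_iff.mpr hζ'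
  have hroot' : (Polynomial.cyclotomic n (ZMod (Ideal.absNorm P))).IsRoot (φ hζ.toInteger) := by
    have := hroot.map (f := φ)
    rwa [Polynomial.map_cyclotomic] at this
  haveI : NeZero ((n : ℕ) : ZMod (Ideal.absNorm P)) :=
    ⟨by rw [Ne, ZMod.natCast_eq_zero_iff]; exact hqn⟩
  have hprim : IsPrimitiveRoot (φ hζ.toInteger) n := Polynomial.isRoot_cyclotomic_iff.mp hroot'
  apply hprim.dvd_of_pow_eq_one
  exact ZMod.pow_card_sub_one_eq_one (hprim.ne_zero hn0)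

/-- **Transfer of non-residuosity**: if `a u ^ p ≡ b v ^ p mod P` with `u ∉ P` and `a` is not a
`p`-th power modulo `P`, then neither is `b`. -/
theorem rauxD_not_pow (p : ℕ) (P : Ideal (𝓞 K)) (hq : (Ideal.absNorm P).Prime)
    (a b u v : 𝓞 K) (hu : u ∉ P) (h : a * u ^ p - b * v ^ p ∈ P)
    (ha : ∀ x : 𝓞 K, x ^ p - a ∉ P) : ∀ x : 𝓞 K, x ^ p - b ∉ P := by
  haveI : Fact (Ideal.absNorm P).Prime := ⟨hq⟩
  obtain ⟨φ, hsurj, hφ⟩ := rauxD_exists_phi P hq
  intro x hx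
  have hu' : φ u ≠ 0 := fun h0 => hu ((hφ u).mp h0)
  have h1 : φ a * φ u ^ p = φ b * φ v ^ p := by
    have := (hφ _).mpr h
    rw [map_sub, map_mul, map_mul, map_pow, map_pow, sub_eq_zero] at this
    exact this
  have h2 : φ x ^ p = φ b := by
    have := (hφ _).mpr hx
    rw [map_sub, map_pow, sub_eq_zero] at this
    exact this
  obtain ⟨y, hy⟩ := hsurj (φ x * φ v / φ u)
  apply ha y
  rw [← hφ, map_sub, map_pow, hy, sub_eq_zero, div_pow, mul_pow, h2, ← h1]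
  field_simp

/-- Non-residuosity modulo `P` in terms of `ZMod q`. -/
theorem rauxD_not_pow_zmod (p : ℕ) (P : Ideal (𝓞 K)) (hq : (Ideal.absNorm P).Prime) (l : ℕ)
    (h : ∀ x : 𝓞 K, x ^ p - (l : 𝓞 K) ∉ P) :
    ¬ ∃ x : ZMod (Ideal.absNorm P), x ^ p = (l : ZMod (Ideal.absNorm P)) := by
  obtain ⟨φ, hsurj, hφ⟩ := rauxD_exists_phi P hq
  rintro ⟨x, hx⟩
  obtain ⟨y, rfl⟩ := hsurj x
  apply h y
  rw [← hφ, map_sub, map_pow, map_natCast, hx, sub_self]

/-- Conversely, a `p`-th power modulo `P` gives a `p`-th power in `ZMod q`. -/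
theorem rauxD_pow_zmod (p : ℕ) (P : Ideal (𝓞 K)) (hq : (Ideal.absNorm P).Prime) (l : ℕ)
    (x : 𝓞 K) (h : x ^ p - (l : 𝓞 K) ∈ P) :
    ∃ y : ZMod (Ideal.absNorm P), y ^ p = (l : ZMod (Ideal.absNorm P)) := by
  obtain ⟨φ, -, hφ⟩ := rauxD_exists_phi P hq
  refine ⟨φ x, ?_⟩
  have := (hφ _).mpr h
  rwa [map_sub, map_pow, map_natCast, sub_eq_zero] at this

/-- **[R-AUX], the descent (D).**  Let `P` be an ideal of `𝓞 K` of prime norm `q ∉ L`, `q ≠ p`,
let `K` contain a primitive `p ^ j`-th root of unity and elements `β l` (`l ∈ L`) with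
`β l ^ p = l₁ ^ (p - 1) * l`, and suppose `l₁` is not a `p`-th power modulo `P`.  Then
`p ^ j ∣ q - 1` and no `l ∈ L` is a `p`-th power modulo `q`. -/
theorem rauxD_main (p : ℕ) (hp : p.Prime) (j : ℕ) (K : Type*) [Field K] [NumberField K]
    (ζ : K) (hζ : IsPrimitiveRoot ζ (p ^ j)) (L : Finset ℕ) (hL : ∀ l ∈ L, l.Prime) (l₁ : ℕ)
    (β : ℕ → 𝓞 K) (hβ : ∀ l ∈ L, β l ^ p = (l₁ : 𝓞 K) ^ (p - 1) * (l : 𝓞 K))
    (P : Ideal (𝓞 K)) (hq : (Ideal.absNorm P).Prime) (hqL : Ideal.absNorm P ∉ L)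
    (hqp : Ideal.absNorm P ≠ p) (hE : ∀ x : 𝓞 K, x ^ p - (l₁ : 𝓞 K) ∉ P) :
    p ^ j ∣ Ideal.absNorm P - 1 ∧
      ∀ l ∈ L, ¬ ∃ x : ZMod (Ideal.absNorm P), x ^ p = (l : ZMod (Ideal.absNorm P)) := by
  refine ⟨?_, ?_⟩
  · apply rauxD_dvd (p ^ j) ζ hζ P hq
    intro hdvd
    exact hqp ((Nat.prime_dvd_prime_iff_eq hq hp).mp (hq.dvd_of_dvd_pow hdvd))
  · intro l hl
    apply rauxD_not_pow_zmod p P hq l
    -- `l₁ ∉ P`
    have hl₁ : (l₁ : 𝓞 K) ∉ P := by
      intro h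
      apply hE 0
      rw [zero_pow hp.ne_zero, zero_sub]
      exact P.neg_mem h
    -- `l ∉ P`
    have hlP : (l : 𝓞 K) ∉ P := by
      rw [rauxD_natCast_mem P hq]
      intro hdvd
      have : Ideal.absNorm P = l := (Nat.prime_dvd_prime_iff_eq hq (hL l hl)).mp hdvd
      exact hqL (this ▸ hl)
    haveI hPprime : P.IsPrime := by
      haveI : Fact (Ideal.absNorm P).Prime := ⟨hq⟩
      obtain ⟨φ, -, hφ⟩ := rauxD_exists_phi P hq
      have hker : RingHom.ker φ = P := by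
        ext x
        rw [RingHom.mem_ker, hφ]
      rw [← hker]
      exact RingHom.ker_isPrime φ
    -- `β l ∉ P`
    have hβP : β l ∉ P := by
      intro h
      have h1 : β l ^ p ∈ P := P.pow_mem_of_mem h p hp.pos
      rw [hβ l hl] at h1
      rcases hPprime.mem_or_mem h1 with h2 | h2
      · exact hl₁ (hPprime.mem_of_pow_mem _ h2)
      · exact hlP h2
    refine rauxD_not_pow p P hq (l₁ : 𝓞 K) (l : 𝓞 K) (β l) (l₁ : 𝓞 K) hβP ?_ hE
    have hpow : (l₁ : 𝓞 K) ^ p = (l₁ : 𝓞 K) ^ (p - 1) * (l₁ : 𝓞 K) := by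
      rw [← pow_succ, Nat.sub_add_cancel hp.one_le]
    have : (l₁ : 𝓞 K) * β l ^ p - (l : 𝓞 K) * (l₁ : 𝓞 K) ^ p = 0 := by
      rw [hβ l hl, hpow]
      ring
    rw [this]
    exact P.zero_mem

end Fermat.Agent.S55
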