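import Mathlib
import Fermat.Agent.S55.Global.RAux
import Fermat.Agent.S55.Global.RAuxDescent

/-!
# S55, global side, [R-AUX]: auxiliary primes (final statement)

`raux_main`: for an odd prime `p`, `j ≥ 0`, a finite set `L` of primes and a finite set `F` of
excluded numbers there is a prime `q ∉ F ∪ L`, `q ≠ p`, `q ≡ 1 mod p ^ j`, such that no `l ∈ L`
is a `p`-th power modulo `q`.
-/

set_option autoImplicit false

namespace Fermat.Agent.S55

/-- The descent step holds. -/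
theorem raux_descent : raux_DescentStatement :=
  fun p hp j K _ _ ζ hζ L hL l₁ β hβ P hq hqL hqp hE =>
    rauxD_main p hp j K ζ hζ L hL l₁ β hβ P hq hqL hqp hE

/-- **[R-AUX]**: auxiliary primes. -/
theorem raux_main (p : ℕ) (hp : p.Prime) (hp3 : 3 ≤ p) (j : ℕ) (L F : Finset ℕ)
    (hL : ∀ l ∈ L, l.Prime) :
    ∃ q : ℕ, q.Prime ∧ q ∉ F ∧ q ∉ L ∧ q ≠ p ∧ p ^ j ∣ q - 1 ∧
      ∀ l ∈ L, ¬ ∃ x : ZMod q, x ^ p = (l : ZMod q) :=
  raux_main_of raux_descent p hp hp3 j L F hL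

end Fermat.Agent.S55
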