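import Mathlib
import Fermat.Agent.S55.Global.RAuxMain
import Fermat.Agent.S55.Global.RecDefs

/-!
# S55, global side: the leaf [R-AUX] in the shape of `Global/RecDefs.lean`
-/

set_option autoImplicit false

namespace Fermat.Agent.S55

/-- **[R-AUX]** auxiliary primes, in the shape `gl_RAuxStatement` of `Global/RecDefs.lean`. -/
theorem raux_gl : gl_RAuxStatement := by
  intro p hp hp2 j _ B X hB
  have hp3 : 3 ≤ p := by
    have := hp.two_le
    omega
  obtain ⟨q, hq, hqX, -, -, hdvd, hpow⟩ := raux_main p hp hp3 j B X hB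
  exact ⟨q, hq, hqX, hdvd, hpow⟩

end Fermat.Agent.S55
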