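import Mathlib
import Fermat.Agent.S55.Global.FundOfTower
import Fermat.Agent.S55.Global.InvConjLoc
import Fermat.Agent.S55.Global.InflSum
import Fermat.Agent.S55.Global.RAuxGl
import Fermat.Agent.S55.Global.RamFin
import Fermat.Agent.S55.Global.CycExt

/-!
# S55, global side, assembly [FUND-OF], part 6: the group theory of the cyclotomic tower

`E = F(ζ_q)`, `G = Gal(E/F^H)`, `C = Gal(E/F) = ker π`, `ω : G → (ℤ/q)ˣ` the cyclotomic character,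
`n = #H ∣ q - 1`.  `N := ω⁻¹((ℤ/q)ˣⁿ)` has index `n` in `G`, `C' := C ⊓ N`; every element of `G`
is congruent modulo `N` to an element of `C`, and `σ ^ n ∈ C'` for every `σ ∈ G`.  Prefix `fof_`.
-/

set_option autoImplicit false
set_option linter.unusedSectionVars false
set_option linter.unusedVariables false
set_option linter.style.longLine false
set_option linter.style.haveILetI false

namespace Fermat.Agent.S55

open groupCohomology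

noncomputable section

section omega

variable {E : Type} [Field E] [NumberField E] (G : Subgroup (E ≃ₐ[ℚ] E)) {q : ℕ} [Fact q.Prime]
  {ζ : E} (hζ : IsPrimitiveRoot ζ q)

/-- The cyclotomic character modulo `q` on `G`. -/
def fof_omega : ↥G →* (ZMod q)ˣ :=
  haveI : NeZero q := ⟨(Fact.out : q.Prime).ne_zero⟩
  (hζ.autToPow ℚ).comp G.subtype

theorem fof_omega_spec (σ : ↥G) :
    ζ ^ ((fof_omega G hζ σ : (ZMod q)ˣ) : ZMod q).val = ((σ : ↥G) : E ≃ₐ[ℚ] E) ζ :=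
  haveI : NeZero q := ⟨(Fact.out : q.Prime).ne_zero⟩
  hζ.autToPow_spec ℚ ((σ : ↥G) : E ≃ₐ[ℚ] E)

theorem fof_omega_eq_one_iff (σ : ↥G) :
    fof_omega G hζ σ = 1 ↔ ((σ : ↥G) : E ≃ₐ[ℚ] E) ζ = ζ := by
  haveI : NeZero q := ⟨(Fact.out : q.Prime).ne_zero⟩
  have hq1 : 1 < q := (Fact.out : q.Prime).one_lt
  haveI : Fact (1 < q) := ⟨hq1⟩
  constructor
  · intro h
    rw [← fof_omega_spec G hζ σ, h, Units.val_one, ZMod.val_one, pow_one]
  · intro h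
    have h1 := fof_omega_spec G hζ σ
    rw [h] at h1
    have h2 : ((fof_omega G hζ σ : (ZMod q)ˣ) : ZMod q).val = 1 := by
      apply hζ.pow_inj (ZMod.val_lt _) hq1
      rw [h1, pow_one]
    apply Units.ext
    rw [Units.val_one, ← ZMod.natCast_zmod_val ((fof_omega G hζ σ : (ZMod q)ˣ) : ZMod q), h2,
      Nat.cast_one]

end omega

section subgroups

variable {F E : Type} [Field F] [Field E] [NumberField F] [NumberField E]
  {H : Subgroup (F ≃ₐ[ℚ] F)} {G : Subgroup (E ≃ₐ[ℚ] E)} (t : gl_Tower F E H G)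
  {q : ℕ} [Fact q.Prime] {ζ : E} (hζ : IsPrimitiveRoot ζ q) (n : ℕ)

/-- `N = ω⁻¹((ℤ/q)ˣⁿ)`. -/
def fof_N : Subgroup ↥G :=
  ((powMonoidHom n : (ZMod q)ˣ →* (ZMod q)ˣ).range).comap (fof_omega G hζ)

instance fof_N_normal : (fof_N (G := G) hζ n).Normal :=
  Subgroup.Normal.comap inferInstance _

theorem fof_mem_N_iff (σ : ↥G) :
    σ ∈ fof_N (G := G) hζ n ↔ ∃ u : (ZMod q)ˣ, u ^ n = fof_omega G hζ σ := Iff.rfl

theorem fof_mem_N_of_fix (σ : ↥G) (h : ((σ : ↥G) : E ≃ₐ[ℚ] E) ζ = ζ) :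
    σ ∈ fof_N (G := G) hζ n :=
  (fof_mem_N_iff hζ n σ).2 ⟨1, by rw [one_pow, (fof_omega_eq_one_iff G hζ σ).2 h]⟩

theorem fof_pow_mem_N (σ : ↥G) : σ ^ n ∈ fof_N (G := G) hζ n :=
  (fof_mem_N_iff hζ n (σ ^ n)).2 ⟨fof_omega G hζ σ, by rw [map_pow]⟩

/-- `C' = C ⊓ N`, `C = ker π`. -/
def fof_C' : Subgroup ↥G := t.π.ker ⊓ fof_N (G := G) hζ n

instance fof_C'_normal : (fof_C' t hζ n).Normal :=
  Subgroup.normal_inf_normal _ _

theorem fof_C'_le_ker : fof_C' t hζ n ≤ t.π.ker := inf_le_left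

theorem fof_C'_le_N : fof_C' t hζ n ≤ fof_N (G := G) hζ n := inf_le_right

theorem fof_pow_mem_C' (σ : ↥G) : σ ^ Nat.card ↥H ∈ fof_C' t hζ (Nat.card ↥H) := by
  refine Subgroup.mem_inf.2 ⟨?_, fof_pow_mem_N hζ _ σ⟩
  rw [MonoidHom.mem_ker, map_pow, pow_card_eq_one']

theorem fof_omega_surjective
    (hfaith : ∀ σ : ↥G, t.π σ = 1 → ((σ : ↥G) : E ≃ₐ[ℚ] E) ζ = ζ → σ = 1)
    (hcard : Nat.card ↥(t.π.ker) = q - 1) : Function.Surjective (fof_omega G hζ) := by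
  have hinj : Function.Injective ((fof_omega G hζ).comp (t.π.ker).subtype) := by
    rw [injective_iff_map_eq_one]
    intro c hc
    apply Subtype.ext
    exact hfaith c.1 c.2 ((fof_omega_eq_one_iff G hζ c.1).1 hc)
  have hle : Nat.card (ZMod q)ˣ ≤ Nat.card ↥(t.π.ker) := by
    rw [hcard, Nat.card_eq_fintype_card, ZMod.card_units]
  have hbij := hinj.bijective_of_nat_card_le hle
  intro u
  obtain ⟨c, hc⟩ := hbij.2 u
  exact ⟨c.1, hc⟩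

theorem fof_N_index
    (hfaith : ∀ σ : ↥G, t.π σ = 1 → ((σ : ↥G) : E ≃ₐ[ℚ] E) ζ = ζ → σ = 1)
    (hcard : Nat.card ↥(t.π.ker) = q - 1) (hn : n ∣ q - 1) :
    (fof_N (G := G) hζ n).index = n := by
  unfold fof_N
  rw [Subgroup.index_comap_of_surjective _ (fof_omega_surjective t hζ hfaith hcard),
    IsCyclic.index_powMonoidHom_range, Nat.card_eq_fintype_card, ZMod.card_units]
  exact Nat.gcd_eq_right hn

theorem fof_exists_C
    (hdec : ∀ σ : ↥G, ∃ σ₁ σ₂ : ↥G, t.π σ₁ = 1 ∧ ((σ₂ : ↥G) : E ≃ₐ[ℚ] E) ζ = ζ ∧ σ = σ₁ * σ₂)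
    (σ : ↥G) : ∃ c : ↥G, t.π c = 1 ∧ c⁻¹ * σ ∈ fof_N (G := G) hζ n := by
  obtain ⟨σ₁, σ₂, h1, h2, rfl⟩ := hdec σ
  refine ⟨σ₁, h1, ?_⟩
  rw [inv_mul_cancel_left]
  exact fof_mem_N_of_fix hζ n σ₂ h2

end subgroups

section loc

variable {M E : Type} [Field M] [Field E] [NumberField M] [NumberField E]
  {GM : Subgroup (M ≃ₐ[ℚ] M)} {G : Subgroup (E ≃ₐ[ℚ] E)} (s : gl_Tower M E GM G)
  {q : ℕ} [Fact q.Prime] (ι : E →ₐ[ℚ] PadicAlgCl q)

/-- If every element of `Z ≤ Aut(M/ℚ)` is the restriction of an element of the decomposition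
group of `ι` in `G`, the decomposition group of `ι ∘ j` in `Z` is all of `Z`. -/
theorem fof_locSigma_surj (Z : Subgroup (M ≃ₐ[ℚ] M))
    (hgen : ∀ z : ↥Z, ∃ c : ↥G, ((s.π c : ↥GM) : M ≃ₐ[ℚ] M) = (z : M ≃ₐ[ℚ] M) ∧
      ((c : ↥G) : E ≃ₐ[ℚ] E) ∈ gl_decomp q E ι) :
    Function.Surjective (gl_locSigma q M Z (ι.comp s.j)) := by
  intro z
  obtain ⟨c, hc, τ, hτ⟩ := hgen z
  have h1 : gl_twist q M τ (ι.comp s.j) =
      (ι.comp s.j).comp (((z : ↥Z) : M ≃ₐ[ℚ] M) : M →ₐ[ℚ] M) := by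
    rw [← gis_twist_comp_j s ι τ, ← hτ, gis_comp_pi s ι c, hc]
  have hmem : (τ : lcf_Gal q) ∈ gl_locU q M Z (ι.comp s.j) := ⟨z, z.2, h1⟩
  refine ⟨⟨τ, hmem⟩, ?_⟩
  apply Subtype.ext
  exact gic_locSigma_eq q M Z (ι.comp s.j) ⟨τ, hmem⟩ z h1

end loc

section towers

variable {F E : Type} [Field F] [Field E] [NumberField F] [NumberField E]
  {H : Subgroup (F ≃ₐ[ℚ] F)} {G : Subgroup (E ≃ₐ[ℚ] E)} (t : gl_Tower F E H G)
  {q : ℕ} [Fact q.Prime] {ζ : E} (hζ : IsPrimitiveRoot ζ q) (n : ℕ)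

/-- The tower `(M, G_M) ← (E, G)`, `M = E^{C'}`. -/
def fof_sM : gl_Tower ↥(h12_M G (fof_C' t hζ n)) E (h12_res G (fof_C' t hζ n)).range G :=
  fof_qtower G (fof_C' t hζ n)

/-- The tower `(L, Ḡ) ← (E, G)`, `L = E^N`. -/
def fof_sL : gl_Tower ↥(h12_M G (fof_N (G := G) hζ n)) E
    (h12_res G (fof_N (G := G) hζ n)).range G :=
  fof_qtower G (fof_N (G := G) hζ n)

theorem fof_sM_ker : (fof_sM t hζ n).π.ker = fof_C' t hζ n := fof_qtower_ker G _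

theorem fof_sL_ker : (fof_sL (G := G) hζ n).π.ker = fof_N (G := G) hζ n := fof_qtower_ker G _

/-- The tower `(F, H) ← (M, G_M)`. -/
def fof_tF : gl_Tower F ↥(h12_M G (fof_C' t hζ n)) H (h12_res G (fof_C' t hζ n)).range :=
  fof_factor t (fof_sM t hζ n) (by rw [fof_sM_ker]; exact fof_C'_le_ker t hζ n)

/-- The tower `(L, Ḡ) ← (M, G_M)`. -/
def fof_tL : gl_Tower ↥(h12_M G (fof_N (G := G) hζ n)) ↥(h12_M G (fof_C' t hζ n))
    (h12_res G (fof_N (G := G) hζ n)).range (h12_res G (fof_C' t hζ n)).range :=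
  fof_factor (fof_sL (G := G) hζ n) (fof_sM t hζ n)
    (by rw [fof_sM_ker, fof_sL_ker]; exact fof_C'_le_N t hζ n)

theorem fof_tF_pi (g : ↥G) : (fof_tF t hζ n).π ((fof_sM t hζ n).π g) = t.π g :=
  fof_factor_pi _ _ _ g

theorem fof_tL_pi (g : ↥G) :
    (fof_tL t hζ n).π ((fof_sM t hζ n).π g) = (fof_sL (G := G) hζ n).π g :=
  fof_factor_pi _ _ _ g

theorem fof_tL_j (x : ↥(h12_M G (fof_N (G := G) hζ n))) :
    (fof_sM t hζ n).j ((fof_tL t hζ n).j x) = (fof_sL (G := G) hζ n).j x :=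
  fof_factor_j _ _ _ x

/-- (m1) `G_M` is a `p`-group. -/
theorem fof_GM_pGroup (p h : ℕ) (hcard : Nat.card ↥H = p ^ h) :
    IsPGroup p ↥(h12_res G (fof_C' t hζ (Nat.card ↥H))).range := by
  intro g'
  obtain ⟨g, hg⟩ := (fof_sM t hζ (Nat.card ↥H)).surj g'
  refine ⟨h, ?_⟩
  rw [← hcard, ← hg, ← map_pow]
  have h1 : g ^ Nat.card ↥H ∈ (fof_sM t hζ (Nat.card ↥H)).π.ker := by
    rw [fof_sM_ker]
    exact fof_pow_mem_C' t hζ g
  exact h1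

/-- (m3) `#Ḡ = n`. -/
theorem fof_card_GL
    (hfaith : ∀ σ : ↥G, t.π σ = 1 → ((σ : ↥G) : E ≃ₐ[ℚ] E) ζ = ζ → σ = 1)
    (hcard : Nat.card ↥(t.π.ker) = q - 1) (hn : n ∣ q - 1) :
    Nat.card ↥(h12_res G (fof_N (G := G) hζ n)).range = n := by
  rw [← Subgroup.index_ker, h12_res_ker]
  exact fof_N_index t hζ n hfaith hcard hn

/-- (m4) the decomposition group of `ι` in `Ḡ` is all of `Ḡ`. -/
theorem fof_surj_L
    (hdec : ∀ σ : ↥G, ∃ σ₁ σ₂ : ↥G, t.π σ₁ = 1 ∧ ((σ₂ : ↥G) : E ≃ₐ[ℚ] E) ζ = ζ ∧ σ = σ₁ * σ₂)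
    (hdecomp : ∀ (ι : E →ₐ[ℚ] PadicAlgCl q) (σ : ↥G), t.π σ = 1 →
        ((σ : ↥G) : E ≃ₐ[ℚ] E) ∈ gl_decomp q E ι)
    (ι : E →ₐ[ℚ] PadicAlgCl q) :
    Function.Surjective (gl_locSigma q ↥(h12_M G (fof_N (G := G) hζ n))
      (h12_res G (fof_N (G := G) hζ n)).range
      ((ι.comp (fof_sM t hζ n).j).comp (fof_tL t hζ n).j)) := by
  have e : (ι.comp (fof_sM t hζ n).j).comp (fof_tL t hζ n).j =
      ι.comp (fof_sL (G := G) hζ n).j := by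
    ext x
    show ι ((fof_sM t hζ n).j ((fof_tL t hζ n).j x)) = ι ((fof_sL (G := G) hζ n).j x)
    rw [fof_tL_j]
  rw [e]
  apply fof_locSigma_surj (fof_sL (G := G) hζ n) ι
  intro z
  obtain ⟨g, hg⟩ := (fof_sL (G := G) hζ n).surj z
  obtain ⟨c, hc1, hc2⟩ := fof_exists_C t hζ n hdec g
  refine ⟨c, ?_, hdecomp ι c hc1⟩
  rw [← hg]
  congr 1
  have h1 : (fof_sL (G := G) hζ n).π (c⁻¹ * g) = 1 :=
    (fof_qtower_pi_eq_one_iff G _ _).2 hc2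
  rw [map_mul, map_inv, inv_mul_eq_one] at h1
  exact h1

/-- (m5) the decomposition group of `ι` in `Gal(M/F)` is all of `Gal(M/F)`. -/
theorem fof_surj_M
    (hdecomp : ∀ (ι : E →ₐ[ℚ] PadicAlgCl q) (σ : ↥G), t.π σ = 1 →
        ((σ : ↥G) : E ≃ₐ[ℚ] E) ∈ gl_decomp q E ι)
    (ι : E →ₐ[ℚ] PadicAlgCl q) :
    Function.Surjective (gl_locSigma q ↥(h12_M G (fof_C' t hζ n))
      (fof_kerE (fof_tF t hζ n)) (ι.comp (fof_sM t hζ n).j)) := by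
  apply fof_locSigma_surj (fof_sM t hζ n) ι
  intro z
  obtain ⟨hz, hz1⟩ := (fof_mem_kerE_iff (fof_tF t hζ n) z.1).1 z.2
  obtain ⟨g, hg⟩ := (fof_sM t hζ n).surj ⟨z.1, hz⟩
  refine ⟨g, ?_, hdecomp ι g ?_⟩
  · rw [hg]
  · rw [← fof_tF_pi t hζ n g, hg]
    exact hz1

end towers

section exists_towers

/-- **The auxiliary towers**: for a `p`-group `H ≤ Aut(F/ℚ)` there are number fields
`L ⊆ M ⊇ F` with towers `(F, H) ← (M, G_M) → (L, Ḡ)`, `G_M` a `p`-group, `#Ḡ = #H`, and a prime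
`q` with an embedding `ι` of `M` whose decomposition group is all of `Ḡ` resp. of `Gal(M/F)`.
(`M ⊆ F(ζ_q)`, `L` = the subfield of degree `#H` of `F^H(ζ_q)`, `q ≡ 1 mod #H` unramified in
`F`.) -/
theorem fof_exists_towers (F : Type) [Field F] [NumberField F] (p : ℕ) (hp : p.Prime)
    (hp2 : p ≠ 2) (H : Subgroup (F ≃ₐ[ℚ] F)) (hH : IsPGroup p ↥H) :
    ∃ (M : Type) (_ : Field M) (_ : NumberField M) (GM : Subgroup (M ≃ₐ[ℚ] M))
      (tF : gl_Tower F M H GM)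
      (L : Type) (_ : Field L) (_ : NumberField L) (G₁ : Subgroup (L ≃ₐ[ℚ] L))
      (tL : gl_Tower L M G₁ GM) (q : ℕ) (_ : Fact q.Prime) (ι : M →ₐ[ℚ] PadicAlgCl q),
      IsPGroup p ↥GM ∧ Nat.card ↥G₁ = Nat.card ↥H ∧
      Function.Surjective (gl_locSigma q L G₁ (ι.comp tL.j)) ∧
      Function.Surjective (gl_locSigma q M (fof_kerE tF) ι) := by
  haveI : Fact p.Prime := ⟨hp⟩
  obtain ⟨h, hcardH⟩ := IsPGroup.iff_card.1 hH
  have hfin := ramf_main F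
  obtain ⟨q, hq, hqX, hdvd, -⟩ := raux_gl p hp hp2 (max h 1) (le_max_right _ _) ∅
    (hfin.toFinset.image (fun r : Nat.Primes => (r : ℕ))) (by simp)
  haveI : Fact q.Prime := ⟨hq⟩
  have hur : gl_UnramAt q F := by
    by_contra hnot
    apply hqX
    rw [Finset.mem_image]
    refine ⟨⟨q, hq⟩, ?_, rfl⟩
    rw [Set.Finite.mem_toFinset]
    exact hnot
  obtain ⟨E, _, _, G, t, ζ, hζ, hfaith, hcard, hdec, hcomm, hdecomp⟩ := cyx_main F H q hur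
  have hn : Nat.card ↥H ∣ q - 1 := by
    rw [hcardH]
    exact dvd_trans (pow_dvd_pow p (le_max_left _ _)) hdvd
  let ιE : E →ₐ[ℚ] PadicAlgCl q := IsAlgClosed.lift
  exact ⟨_, _, _, _, fof_tF t hζ (Nat.card ↥H), _, _, _, _, fof_tL t hζ (Nat.card ↥H), q,
    inferInstance, ιE.comp (fof_sM t hζ (Nat.card ↥H)).j, fof_GM_pGroup t hζ p h hcardH,
    fof_card_GL t hζ _ hfaith hcard hn, fof_surj_L t hζ _ hdec hdecomp ιE,
    fof_surj_M t hζ _ hdecomp ιE⟩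

end exists_towers

end

end Fermat.Agent.S55
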