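import Mathlib
import Fermat.Agent.S55.Global.FundOfCore
import Fermat.Agent.S55.Global.FundOfGroup

/-!
# S55, global side, assembly [FUND-OF]: the fundamental class

`fof_main : gl_RecipStatement → gl_H1Statement → gl_H2LeStatement → gl_FundStatement`: the idele
class group of a number field `F ⊇ μ_p` is a class formation for every `p`-subgroup `H` of
`Aut(F/ℚ)` (`p` odd), compatibly with the sums of the local invariants.

Route (CF VII.11.2, with the cyclotomic trick):  `n = #H`; choose a prime `q ≡ 1 mod n`
unramified in `F`, `E = F(ζ_q)`, `G = Gal(E/F^H)`; `L ⊆ F^H(ζ_q)` the subfield of degree `n` over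
`F^H`, `M = F L`.  `L/F^H` is cyclic of degree `n`, totally ramified at the places above `q`, so
there is an idele-valued cocycle `c₁` of `Gal(L/F^H)` with sum of invariants `1/n`
([LOC-FUND] + [SUPP-ONE]).  Its inflation `u` to `Gal(M/F^H)` restricts to `Gal(M/F)` with sum
of invariants `0`; `M/F` is again totally ramified at `q`, so `H²(Gal(M/F), C_M)` is generated by
a class with sum of invariants `1/n` and (reciprocity + second inequality) the sum of invariants
is injective on it: the class of `u` restricts to `0`, hence (inflation-restriction,
`H¹(C_M) = 0`) it is the inflation of a class `a` of `H`.  Reciprocity shows that `a` has order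
`n`, the second inequality that it generates, and the compatibility with the sums of invariants
for `H' ≤ H` follows in the same way in the tower over `H'`.
-/

set_option autoImplicit false
set_option linter.unusedSectionVars false
set_option linter.unusedVariables false
set_option linter.style.longLine false
set_option linter.style.haveILetI false

namespace Fermat.Agent.S55

open groupCohomology

/-- **[FUND-OF]** the fundamental class, from reciprocity and the two inequalities. -/
theorem fof_main : gl_RecipStatement → gl_H1Statement → gl_H2LeStatement → gl_FundStatement := by
  intro hrecip hH1 hH2 inv hinv F _ _ p hp hp2 hζ H hH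
  obtain ⟨M, _, _, GM, tF, L, _, _, G₁, tL, q, _, ι, hGM, hcard, hsL, hsM⟩ :=
    fof_exists_towers F p hp hp2 H hH
  exact fof_core hinv tF tL hrecip hH1 hH2 p hp hp2 hζ hH hGM hcard ι hsL hsM

end Fermat.Agent.S55
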