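/-
S55 (fifth wave), GLOBAL side (helper26): INTERFACE FILE, part 4: the ABSOLUTE level.

Part 3 of the global side (class field theory ==> helper9's six K-level targets of
`Bridge/KDefs.lean`) is derived at the ABSOLUTE level: `G = Gal(ℚ̄/ℚ)`, `K ⊆ ℚ̄` a finite
extension of `ℚ` (NOT necessarily Galois over `ℚ`), `U = G_K = K.fixingSubgroup`; cochains are
functions on `U`, `U × U`, `U × U × U` with values in `ℚ̄ˣ` (natural action), of explicit
finite LEVEL `F` (`K ⊆ F ⊆ ℚ̄` finite, normal over `K`): constant modulo `G_F` with values in `F`.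
Enlarging the level costs nothing here (no towers).

PLACES of `K` are given by pairs `(q, g)`, `q` a prime, `g ∈ G`: the place of the embedding
`ι_q ∘ g : ℚ̄ → Ω_q` (`ι_q = padicEmbedding q`) restricted to `K`.  Its local group is
    `ak_H K q g = {τ ∈ Gal(Ω_q/ℚ_q) | g⁻¹ * loc_q τ * g ∈ U}`     (open, = `G_{K_w}`),
with the localisation map `ak_r K q g : τ ↦ g⁻¹ * loc_q τ * g`, and the localisation of a
2-cochain `f` is `(τ, τ') ↦ ι_q (g (f (r τ, r τ')))`.  Two pairs give the same place of `K` iff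
`q = q'` and `g' = loc_q τ * g * u` with `u ∈ U` (`ak_SamePlace`).
For `K/ℚ` Galois `ak_H K q g = kl_H K q` (helper9's local group) as subgroups.

THE ABSOLUTE IMPORTS (to be derived from the finite-level `gl_` statements by the package
[FINLEVEL-K]); `p` odd, "`p`-primary" = some `p`-power of the cocycle is a coboundary:
  `ak_ConjStatement`   [AK-CONJ]   the local invariant depends only on the place
  `ak_UnrStatement`    [AK-UNR]    unit-valued cocycles have invariant `0` at unramified primes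
  `ak_RecipStatement`  [AK-RECIP]  the sum formula
  `ak_HasseStatement`  [AK-HASSE]  the Hasse principle, AT THE SAME LEVEL
  `ak_ExiStatement`    [AK-EXI]    classes with prescribed local invariants (sum zero), split by
                                   a `p`-level which is unramified wherever `K` is (outside `p`)
  `ak_H3FStatement`    [AK-H3F]    `H³(-, ℚ̄ˣ)` dies at a higher level-`S` `p`-level
  `ak_CycPStatement`   [AK-CYCP]   a nonzero character of degree `p` is nonzero on the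
                                   decomposition group of a place outside any finite set
-/
import Mathlib
import Fermat.Agent.S55.Defs
import Fermat.Agent.S55.Local.LCFDefs
import Fermat.Prelude.Def_GaloisRep_CompletionBridge

set_option autoImplicit false

namespace Fermat.Agent.S55

open groupCohomology

noncomputable section

local notation "Qbar" => AlgebraicClosure ℚ

/-! ### Levels -/

section levels

variable (K F : IntermediateField ℚ Qbar)

/-- `F` is a LEVEL over `K`: `K ⊆ F`, `F` finite over `ℚ` and normal over `K`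
(`G_F` is a normal subgroup of `U = G_K`). -/
structure ak_IsLevel : Prop where
  le : K ≤ F
  fin : FiniteDimensional ℚ F
  normal : ∀ u ∈ K.fixingSubgroup, ∀ s ∈ F.fixingSubgroup, u⁻¹ * s * u ∈ F.fixingSubgroup

/-- `[F : K]` is a power of `p` (as the index of `G_F` in `G_K`). -/
def ak_IsPLevel (p : ℕ) : Prop :=
  ∃ n : ℕ, (F.fixingSubgroup.subgroupOf K.fixingSubgroup).index = p ^ n

/-- A function on `U` is constant modulo `G_F`. -/
def ak_Const₁ {X : Type*} (b : ↥K.fixingSubgroup → X) : Prop :=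
  ∀ g s : ↥K.fixingSubgroup, (s : s55_GQ) ∈ F.fixingSubgroup → b (g * s) = b g

/-- A function on `U × U` is constant modulo `G_F`. -/
def ak_Const₂ {X : Type*} (f : ↥K.fixingSubgroup × ↥K.fixingSubgroup → X) : Prop :=
  ∀ g g' s s' : ↥K.fixingSubgroup, (s : s55_GQ) ∈ F.fixingSubgroup →
    (s' : s55_GQ) ∈ F.fixingSubgroup → f (g * s, g' * s') = f (g, g')

/-- A function on `U × U × U` is constant modulo `G_F`. -/
def ak_Const₃ {X : Type*}
    (z : ↥K.fixingSubgroup × ↥K.fixingSubgroup × ↥K.fixingSubgroup → X) : Prop :=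
  ∀ g g' g'' s s' s'' : ↥K.fixingSubgroup, (s : s55_GQ) ∈ F.fixingSubgroup →
    (s' : s55_GQ) ∈ F.fixingSubgroup → (s'' : s55_GQ) ∈ F.fixingSubgroup →
      z (g * s, g' * s', g'' * s'') = z (g, g', g'')

/-- A 1-cochain with values in `ℚ̄ˣ` of level `F`. -/
def ak_Lev₁ (b : ↥K.fixingSubgroup → Qbarˣ) : Prop :=
  ak_Const₁ K F b ∧ ∀ g, ((b g : Qbarˣ) : Qbar) ∈ F

/-- A 2-cochain with values in `ℚ̄ˣ` of level `F`. -/
def ak_Lev₂ (f : ↥K.fixingSubgroup × ↥K.fixingSubgroup → Qbarˣ) : Prop :=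
  ak_Const₂ K F f ∧ ∀ x, ((f x : Qbarˣ) : Qbar) ∈ F

/-- A 3-cochain with values in `ℚ̄ˣ` of level `F`. -/
def ak_Lev₃ (z : ↥K.fixingSubgroup × ↥K.fixingSubgroup × ↥K.fixingSubgroup → Qbarˣ) : Prop :=
  ak_Const₃ K F z ∧ ∀ x, ((z x : Qbarˣ) : Qbar) ∈ F

end levels

/-! ### Cochains with values in `ℚ̄ˣ`

1- and 2-cocycles and 2-coboundaries are Mathlib's `IsMulCocycle₁`, `IsMulCocycle₂`,
`IsMulCoboundary₂` for the action `g • x` of `↥U` on `ℚ̄ˣ`
(`((g • x : ℚ̄ˣ) : ℚ̄) = g x`); the coboundary of a 1-cochain `b` is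
`(g, h) ↦ g • b h / b (g * h) * b g`. -/

section cochains

variable (K : IntermediateField ℚ Qbar)

/-- The coboundary of a 1-cochain. -/
def ak_d₁ (b : ↥K.fixingSubgroup → Qbarˣ) : ↥K.fixingSubgroup × ↥K.fixingSubgroup → Qbarˣ :=
  fun x => x.1 • b x.2 / b (x.1 * x.2) * b x.1

/-- The coboundary of a 2-cochain:
`(g, h, j) ↦ g • a (h, j) / a (g h, j) * a (g, h j) / a (g, h)`. -/
def ak_d₂ (a : ↥K.fixingSubgroup × ↥K.fixingSubgroup → Qbarˣ) :
    ↥K.fixingSubgroup × ↥K.fixingSubgroup × ↥K.fixingSubgroup → Qbarˣ :=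
  fun x => x.1 • a (x.2.1, x.2.2) / a (x.1 * x.2.1, x.2.2) * a (x.1, x.2.1 * x.2.2) /
    a (x.1, x.2.1)

/-- 3-cocycles with values in `ℚ̄ˣ`. -/
def ak_IsCoc₃ (z : ↥K.fixingSubgroup × ↥K.fixingSubgroup × ↥K.fixingSubgroup → Qbarˣ) : Prop :=
  ∀ g h j l : ↥K.fixingSubgroup,
    g • z (h, j, l) / z (g * h, j, l) * z (g, h * j, l) / z (g, h, j * l) * z (g, h, j) = 1

/-- A 2-cochain is `p`-PRIMARY: some `p`-power of it is the coboundary of a 1-cochain of some
level. -/
def ak_PPrim (p : ℕ) (f : ↥K.fixingSubgroup × ↥K.fixingSubgroup → Qbarˣ) : Prop :=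
  ∃ (k : ℕ) (F : IntermediateField ℚ Qbar) (b : ↥K.fixingSubgroup → Qbarˣ),
    ak_IsLevel K F ∧ ak_Lev₁ K F b ∧ ∀ x, f x ^ (p ^ k) = ak_d₁ K b x

end cochains

/-! ### Units and ramification -/

section units

/-- `x ∈ ℚ̄ˣ` is a unit at all places above `q`. -/
def ak_IsUnitAt (q : ℕ) [Fact q.Prime] (x : Qbarˣ) : Prop :=
  ∀ g : s55_GQ, ‖padicEmbedding q (g (x : Qbar))‖ = 1

/-- `x ∈ ℚ̄ˣ` is an `S`-unit. -/
def ak_IsSUnit (S : Finset Nat.Primes) (x : Qbarˣ) : Prop :=
  ∀ q : Nat.Primes, q ∉ S →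
    letI : Fact (q : ℕ).Prime := ⟨q.2⟩
    ak_IsUnitAt (q : ℕ) x

/-- `F` is unramified at the prime `q` (as in the Prelude's `IsUnramifiedOutside`). -/
def ak_UnramAt (q : ℕ) (F : IntermediateField ℚ Qbar) : Prop :=
  ∀ A : ValuationSubring Qbar, A.LiesOverPrime q → A.inertiaSubgroupIn ℚ ≤ F.fixingSubgroup

theorem ak_unramAt_of_outside {S : Finset Nat.Primes} {F : IntermediateField ℚ Qbar}
    (hF : F.IsUnramifiedOutside S) (q : Nat.Primes) (hq : q ∉ S) : ak_UnramAt (q : ℕ) F :=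
  fun A hA => hF.2 q hq A hA

end units

/-! ### Places and localisation -/

section places

variable (K : IntermediateField ℚ Qbar) (q : ℕ) [Fact q.Prime] (g : s55_GQ)

/-- `τ ↦ g⁻¹ * loc_q τ * g`. -/
def ak_conjLoc : lcf_Gal q →* s55_GQ :=
  (MulAut.conj g⁻¹).toMonoidHom.comp (localGaloisToGlobal q)

@[simp] theorem ak_conjLoc_apply (τ : lcf_Gal q) :
    ak_conjLoc q g τ = g⁻¹ * localGaloisToGlobal q τ * g := by
  simp [ak_conjLoc]

/-- The local group at the place `(q, g)` of `K`. -/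
def ak_H : Subgroup (lcf_Gal q) := K.fixingSubgroup.comap (ak_conjLoc q g)

theorem ak_mem_H_iff (τ : lcf_Gal q) :
    τ ∈ ak_H K q g ↔ g⁻¹ * localGaloisToGlobal q τ * g ∈ K.fixingSubgroup := by
  rw [← ak_conjLoc_apply]; rfl

/-- The localisation map at the place `(q, g)`. -/
def ak_r : ↥(ak_H K q g) →* ↥K.fixingSubgroup :=
  (ak_conjLoc q g).subgroupComap K.fixingSubgroup

@[simp] theorem ak_r_coe (τ : ↥(ak_H K q g)) :
    ((ak_r K q g τ : ↥K.fixingSubgroup) : s55_GQ) =
      g⁻¹ * localGaloisToGlobal q (τ : lcf_Gal q) * g :=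
  ak_conjLoc_apply q g _

/-- The embedding `ι_q ∘ g : ℚ̄ → Ω_q`. -/
def ak_iota : Qbar →ₐ[ℚ] PadicAlgCl q := (padicEmbedding q).comp (g : Qbar →ₐ[ℚ] Qbar)

@[simp] theorem ak_iota_apply (x : Qbar) : ak_iota q g x = padicEmbedding q (g x) := rfl

/-- The embedding `ι_q ∘ g` on units. -/
def ak_emb : Qbarˣ →* (PadicAlgCl q)ˣ := Units.map (ak_iota q g : Qbar →* PadicAlgCl q)

@[simp] theorem ak_emb_coe (x : Qbarˣ) :
    ((ak_emb q g x : (PadicAlgCl q)ˣ) : PadicAlgCl q) = padicEmbedding q (g (x : Qbar)) := rfl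

/-- Localisation at `(q, g)` of a 1-cochain with values in `ℚ̄ˣ`. -/
def ak_loc₁ (b : ↥K.fixingSubgroup → Qbarˣ) : ↥(ak_H K q g) → (PadicAlgCl q)ˣ :=
  fun x => ak_emb q g (b (ak_r K q g x))

/-- Localisation at `(q, g)` of a 2-cochain with values in `ℚ̄ˣ`. -/
def ak_loc₂ (f : ↥K.fixingSubgroup × ↥K.fixingSubgroup → Qbarˣ) :
    ↥(ak_H K q g) × ↥(ak_H K q g) → (PadicAlgCl q)ˣ :=
  fun x => ak_emb q g (f (ak_r K q g x.1, ak_r K q g x.2))

/-- The local invariant at the place `(q, g)` of a 2-cochain with values in `ℚ̄ˣ`. -/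
def ak_inv (inv : lcf_InvType) (f : ↥K.fixingSubgroup × ↥K.fixingSubgroup → Qbarˣ) : lcf_QZ :=
  inv q (ak_H K q g) (ak_loc₂ K q g f)

end places

section placesP

variable (K : IntermediateField ℚ Qbar)

/-- The local invariant at a place given as a pair `w = (q, g)`, `q : Nat.Primes`. -/
def ak_invP (inv : lcf_InvType) (w : Nat.Primes × s55_GQ)
    (f : ↥K.fixingSubgroup × ↥K.fixingSubgroup → Qbarˣ) : lcf_QZ :=
  letI : Fact (w.1 : ℕ).Prime := ⟨w.1.2⟩
  ak_inv K (w.1 : ℕ) w.2 inv f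

/-- Two pairs define the same place of `K`. -/
def ak_SamePlace (w w' : Nat.Primes × s55_GQ) : Prop :=
  letI : Fact (w.1 : ℕ).Prime := ⟨w.1.2⟩
  w.1 = w'.1 ∧ ∃ (τ : lcf_Gal (w.1 : ℕ)) (u : s55_GQ), u ∈ K.fixingSubgroup ∧
    w'.2 = localGaloisToGlobal (w.1 : ℕ) τ * w.2 * u

/-- A finite set of pairwise different places of `K`. -/
def ak_IsPlaceSet (T : Finset (Nat.Primes × s55_GQ)) : Prop :=
  ∀ w ∈ T, ∀ w' ∈ T, ak_SamePlace K w w' → w = w'

/-- The place `w'` is none of the places of `T`. -/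
def ak_Outside (T : Finset (Nat.Primes × s55_GQ)) (w' : Nat.Primes × s55_GQ) : Prop :=
  ∀ w ∈ T, ¬ ak_SamePlace K w w'

end placesP

/-- Transport of the invariant along an equality of subgroups (for `K/ℚ` Galois:
`ak_H K q g = kl_H K q`). -/
theorem ak_inv_congr (inv : lcf_InvType) (q : ℕ) [Fact q.Prime] {V V' : Subgroup (lcf_Gal q)}
    (h : V = V') (f : ↥V × ↥V → (PadicAlgCl q)ˣ) (f' : ↥V' × ↥V' → (PadicAlgCl q)ˣ)
    (hf : ∀ (x y : ↥V) (x' y' : ↥V'), (x : lcf_Gal q) = x' → (y : lcf_Gal q) = y' →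
      f (x, y) = f' (x', y')) :
    inv q V f = inv q V' f' := by
  subst h
  have : f = f' := by
    funext x
    exact hf x.1 x.2 x.1 x.2 rfl rfl
  rw [this]

/-! ### The absolute imports -/

/-- **[AK-CONJ]** the local invariant of a cocycle depends only on the place of `K`
((I6) for `loc_q τ`, and conjugation by `u ∈ U` is trivial on `H²`;
= [INV-CONJ] at finite level). -/
def ak_ConjStatement : Prop :=
  ∀ inv : lcf_InvType, lcf_IsInvSystem inv →
    ∀ (K F : IntermediateField ℚ Qbar), FiniteDimensional ℚ K → ak_IsLevel K F →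
      ∀ f : ↥K.fixingSubgroup × ↥K.fixingSubgroup → Qbarˣ, IsMulCocycle₂ f → ak_Lev₂ K F f →
        ∀ w w' : Nat.Primes × s55_GQ, ak_SamePlace K w w' →
          ak_invP K inv w f = ak_invP K inv w' f

/-- **[AK-UNR]** a cocycle of a level `F` unramified at `q` whose values are units at `q` has
invariant `0` at all places above `q` (`H²(unramified, units) = 0`, helper1's `gsup_unr_cob`,
and (I2)). -/
def ak_UnrStatement : Prop :=
  ∀ inv : lcf_InvType, lcf_IsInvSystem inv →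
    ∀ (K F : IntermediateField ℚ Qbar), FiniteDimensional ℚ K → ak_IsLevel K F →
      ∀ (q : ℕ) [Fact q.Prime], ak_UnramAt q F →
        ∀ f : ↥K.fixingSubgroup × ↥K.fixingSubgroup → Qbarˣ, IsMulCocycle₂ f → ak_Lev₂ K F f →
          (∀ x, ak_IsUnitAt q (f x)) → ∀ g : s55_GQ, ak_inv K q g inv f = 0

/-- **[AK-RECIP]** the sum formula: if the local invariants of a `p`-primary cocycle (`p` odd)
vanish outside a finite set `T` of places of `K`, then their sum over `T` is zero.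
(From [RECIP] for `p`-groups by [RES-SUM]: `[H : P] · Σ = 0` and `p^k · Σ = 0`.) -/
def ak_RecipStatement : Prop :=
  ∀ inv : lcf_InvType, lcf_IsInvSystem inv →
    ∀ (p : ℕ), p.Prime → p ≠ 2 →
    ∀ (K F : IntermediateField ℚ Qbar), FiniteDimensional ℚ K → ak_IsLevel K F →
      ∀ f : ↥K.fixingSubgroup × ↥K.fixingSubgroup → Qbarˣ, IsMulCocycle₂ f → ak_Lev₂ K F f →
        ak_PPrim K p f →
        ∀ T : Finset (Nat.Primes × s55_GQ), ak_IsPlaceSet K T →
          (∀ w', ak_Outside K T w' → ak_invP K inv w' f = 0) →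
          ∑ w ∈ T, ak_invP K inv w f = 0

/-- **[AK-HASSE]** the Hasse principle at a fixed level: a `p`-primary cocycle of level `F`
(`p` odd, `μ_p ⊆ K`) all of whose local invariants vanish is the coboundary of a 1-cochain of
THE SAME level `F`. -/
def ak_HasseStatement : Prop :=
  ∀ inv : lcf_InvType, lcf_IsInvSystem inv →
    ∀ (p : ℕ), p.Prime → p ≠ 2 →
    ∀ (K F : IntermediateField ℚ Qbar), FiniteDimensional ℚ K → ak_IsLevel K F →
      (∃ ζ : Qbar, IsPrimitiveRoot ζ p ∧ ζ ∈ K) →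
      ∀ f : ↥K.fixingSubgroup × ↥K.fixingSubgroup → Qbarˣ, IsMulCocycle₂ f → ak_Lev₂ K F f →
        ak_PPrim K p f →
        (∀ w : Nat.Primes × s55_GQ, ak_invP K inv w f = 0) →
        ∃ b : ↥K.fixingSubgroup → Qbarˣ, ak_Lev₁ K F b ∧ ∀ x, ak_d₁ K b x = f x

/-- **[AK-EXI]** existence of classes with prescribed local invariants: for finitely many
places of `K ∋ ζ_p` and invariants `t w` of `p`-power order with sum zero there is a cocycle
of a `p`-level `F` over `K`, unramified outside `S` whenever `K` is (`p ∈ S`), with invariant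
`t w` at `w ∈ T` and `0` at all other places.
(`F ⊆ K(ζ_{p^m})`; [FUND] compatibility with `m = 0`, [LOC-FUND], [SUPP-ONE], and the growth
of the local degrees in the cyclotomic `p`-tower.) -/
def ak_ExiStatement : Prop :=
  ∀ inv : lcf_InvType, lcf_IsInvSystem inv →
    ∀ (p : ℕ) (hp : p.Prime), p ≠ 2 →
    ∀ (K : IntermediateField ℚ Qbar), FiniteDimensional ℚ K →
      (∃ ζ : Qbar, IsPrimitiveRoot ζ p ∧ ζ ∈ K) →
      ∀ T : Finset (Nat.Primes × s55_GQ), ak_IsPlaceSet K T →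
      ∀ t : Nat.Primes × s55_GQ → lcf_QZ, (∀ w ∈ T, ∃ k : ℕ, (p ^ k) • t w = 0) →
        ∑ w ∈ T, t w = 0 →
        ∃ F : IntermediateField ℚ Qbar, ak_IsLevel K F ∧ ak_IsPLevel K F p ∧
          (∀ S : Finset Nat.Primes, (⟨p, hp⟩ : Nat.Primes) ∈ S → K.IsUnramifiedOutside S →
            F.IsUnramifiedOutside S) ∧
          ∃ f : ↥K.fixingSubgroup × ↥K.fixingSubgroup → Qbarˣ, IsMulCocycle₂ f ∧
            ak_Lev₂ K F f ∧ (∀ w ∈ T, ak_invP K inv w f = t w) ∧
            ∀ w', ak_Outside K T w' → ak_invP K inv w' f = 0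

/-- **[AK-H3F]** `H³(G_{K,S}(p), K_S(p)ˣ) = 0`: a 3-cocycle of a `p`-level `F` over `K ∋ ζ_p`,
unramified outside `S ∋ p`, with values in `Fˣ`, is the coboundary of a 2-cochain of a higher
`p`-level unramified outside `S`.
(`H³(H, J_F) = 0`, `H³(H, C_F) = 0`, `H²(H, C_F) = ℤ/n` via the invariant; after inflation to
`F · K(ζ_{p^m})` with a local degree divisible by `n` the class comes from `H²(H, J)`.) -/
def ak_H3FStatement : Prop :=
  ∀ inv : lcf_InvType, lcf_IsInvSystem inv →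
    ∀ (p : ℕ) (hp : p.Prime), p ≠ 2 →
    ∀ (S : Finset Nat.Primes), (⟨p, hp⟩ : Nat.Primes) ∈ S →
    ∀ (K F : IntermediateField ℚ Qbar), ak_IsLevel K F → F.IsUnramifiedOutside S →
      ak_IsPLevel K F p → (∃ ζ : Qbar, IsPrimitiveRoot ζ p ∧ ζ ∈ K) →
      ∀ z : ↥K.fixingSubgroup × ↥K.fixingSubgroup × ↥K.fixingSubgroup → Qbarˣ,
        ak_IsCoc₃ K z → ak_Lev₃ K F z →
        ∃ F' : IntermediateField ℚ Qbar, F ≤ F' ∧ ak_IsLevel K F' ∧ F'.IsUnramifiedOutside S ∧
          ak_IsPLevel K F' p ∧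
          ∃ a : ↥K.fixingSubgroup × ↥K.fixingSubgroup → Qbarˣ, ak_Lev₂ K F' a ∧
            ∀ x, ak_d₂ K a x = z x

/-- **[AK-CYCP]** a nonzero character `y : G_K → F_p` (`K ∋ ζ_p`, `p` odd) of some level is
nonzero on the decomposition group of some place above a prime outside any given finite set
(otherwise all ideles of `K` would be norms from the cyclic extension cut out by `y`,
contradicting [CYC-P]; weak approximation). -/
def ak_CycPStatement : Prop :=
  ∀ (p : ℕ), p.Prime → p ≠ 2 →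
    ∀ (K F : IntermediateField ℚ Qbar), FiniteDimensional ℚ K → ak_IsLevel K F →
      (∃ ζ : Qbar, IsPrimitiveRoot ζ p ∧ ζ ∈ K) →
      ∀ y : ↥K.fixingSubgroup → ZMod p, (∀ g h, y (g * h) = y g + y h) → ak_Const₁ K F y →
        (∃ g, y g ≠ 0) →
        ∀ X : Finset Nat.Primes, ∃ q : Nat.Primes, q ∉ X ∧
          letI : Fact (q : ℕ).Prime := ⟨q.2⟩
          ∃ (g : s55_GQ) (τ : ↥(ak_H K (q : ℕ) g)), y (ak_r K (q : ℕ) g τ) ≠ 0

end

end Fermat.Agent.S55
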