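/-
S55 (fifth wave), GLOBAL side (helper26): INTERFACE FILE, part 5: [E-COH]
(the cohomology of the `S`-units at the absolute level) ==> [K-H2], [K-H3].

Setting (`eco_Setting p S K`): `p` an odd prime, `p ∈ S`, `K ⊆ ℚ̄` finite over `ℚ`, unramified
outside `S`, `ζ_p ∈ K`;  `U = G_K`.  An `S`-LEVEL (`eco_SLevel p S K F`) is a level `F` over `K`
(normal over `K`) which is unramified outside `S` and of `p`-power degree over `K`.
`E` = the `S`-units of `ℚ̄` (`ak_IsSUnit S`), `ord` = the normalised valuation at a place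
`(q, g)`, `q ∉ S`:  `ak_HasOrd q g x n :⟺ ‖ι_q (g x)‖ = q ^ (-n)`  (an integer on fields
unramified at `q`).

NO ideal theory and NO principal ideal theorem is used: "capitulation" is Kummer theory
(`p ∈ S`), cohomology of the divisors outside `S` is done by AVERAGING over `Gal(F/K)` and by
orbit representatives, and the only arithmetic inputs are the class number ([E-CLN]) and the
absolute imports of `AbsDefs.lean`.

LEAVES
  [E-ORD]   eco_OrdStatement     `ord` exists on fields unramified at `q`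
  [E-FIN]   eco_FinStatement     an element of `ℚ̄ˣ` is a unit at almost all primes
  [E-SUP]   eco_SupStatement     the compositum of two `S`-levels is an `S`-level
  [E-KUM]   eco_KumStatement     `p^k`-th roots of elements whose `ord` is divisible by `p^k`
                                 outside `S` generate an `S`-level
  [E-CLN]   eco_ClnStatement     the class number
  [E-REPS]  eco_RepsStatement    finitely many places above a finite set of primes
  [CAP-1]   eco_Cap1Statement    a 1-cochain with `S`-unit coboundary is `d₀ y · (S-unit valued)`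
  [E-LOCOB] eco_LocObStatement   `inv_w g = 0`, `d b₁ = g ^ n`  ⟹  `n ∣ ord_w (b₁ d)`, `d ∈ D_w`
  [E-OBINV] eco_ObInvStatement   `d b₁ = g ^ n`  ⟹  `inv_w g = ord_w (b₁ φ_w) / n`
  [E-GEN]   eco_GenStatement     the obstruction vanishes on the decomposition groups of all
                                 places of a class if it vanishes at one Frobenius
  [E-SHAP]  eco_ShapStatement    `H¹` of the divisors modulo `n` (orbit representatives)
  [E-CAP2]  eco_Cap2Statement    a cocycle with `inv = 0` outside `S` is, up to a power prime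
                                 to `p` and a coboundary, ROOT-OF-UNITY valued
  [E2-SURJ] eco_E2SurjStatement  root-of-unity valued cocycles with prescribed invariants
  [E2-INJ]  eco_E2InjStatement   `S`-unit valued cocycles with `inv = 0` are `d` of `S`-unit
                                 valued cochains
  [E-DIV]   eco_EDivStatement    `S`-unit valued cocycles are `γ ^ p · d e`
  [E3]      eco_E3Statement      `μ_p`-valued 3-cocycles are `d` of root-of-unity valued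
                                 2-cochains
  [AK-H2]   eco_AbsH2Statement   `μ_p`-valued cocycles with prescribed invariants above `S`
  [AK-H3]   eco_AbsH3Statement   `μ_p`-valued 3-cocycles of an `S`-level are `d` of `μ_p`-valued
                                 2-cochains of an `S`-level
-/
import Mathlib
import Fermat.Agent.S55.Global.AbsDefs

set_option autoImplicit false

namespace Fermat.Agent.S55

open groupCohomology

noncomputable section

local notation "Qbar" => AlgebraicClosure ℚ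

/-! ### Vocabulary -/

/-- The setting of part 3. -/
structure eco_Setting (p : ℕ) (S : Finset Nat.Primes) (K : IntermediateField ℚ Qbar) : Prop where
  prime : p.Prime
  odd : p ≠ 2
  mem : ∀ q : Nat.Primes, (q : ℕ) = p → q ∈ S
  unr : K.IsUnramifiedOutside S
  zeta : ∃ ζ : Qbar, IsPrimitiveRoot ζ p ∧ ζ ∈ K

/-- `F` is an `S`-level over `K`: a level, unramified outside `S`, of `p`-power degree. -/
structure eco_SLevel (p : ℕ) (S : Finset Nat.Primes) (K F : IntermediateField ℚ Qbar) :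
    Prop where
  lev : ak_IsLevel K F
  unr : F.IsUnramifiedOutside S
  pl : ak_IsPLevel K F p

/-- `ord_(q,g) x = n`, i.e. `‖ι_q (g x)‖ = q ^ (-n)`. -/
def ak_HasOrd (q : ℕ) [Fact q.Prime] (g : s55_GQ) (x : Qbarˣ) (n : ℤ) : Prop :=
  ‖padicEmbedding q (g (x : Qbar))‖ = (q : ℝ) ^ (-n)

/-- `ord_w x = n` at a place given as a pair. -/
def eco_HasOrdP (w : Nat.Primes × s55_GQ) (x : Qbarˣ) (n : ℤ) : Prop :=
  letI : Fact (w.1 : ℕ).Prime := ⟨w.1.2⟩
  ak_HasOrd (w.1 : ℕ) w.2 x n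

/-- `x` is a root of unity of `p`-power order. -/
def eco_IsRoot (p : ℕ) (x : Qbarˣ) : Prop := ∃ k : ℕ, x ^ (p ^ k) = 1

/-- The `ord` of `x` is divisible by `N` at all places outside `S`. -/
def eco_OrdDvd (S : Finset Nat.Primes) (N : ℕ) (x : Qbarˣ) : Prop :=
  ∀ w : Nat.Primes × s55_GQ, w.1 ∉ S → ∃ n : ℤ, eco_HasOrdP w x ((N : ℤ) * n)

/-- A function on the pairs `(q, g)` which is a function on the places of `L`, with finite
support: a "divisor" of `L`. -/
def eco_IsDiv (L : IntermediateField ℚ Qbar) (c : Nat.Primes × s55_GQ → ℤ) : Prop :=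
  (∀ w w' : Nat.Primes × s55_GQ, ak_SamePlace L w w' → c w = c w') ∧
    ∃ X : Finset Nat.Primes, ∀ w : Nat.Primes × s55_GQ, w.1 ∉ X → c w = 0

/-- `φ` is a Frobenius element at the place `w` of `K`. -/
def eco_IsFrobP (K : IntermediateField ℚ Qbar) (w : Nat.Primes × s55_GQ)
    (σ : ↥K.fixingSubgroup) : Prop :=
  letI : Fact (w.1 : ℕ).Prime := ⟨w.1.2⟩
  ∃ φ : ↥(ak_H K (w.1 : ℕ) w.2), lcf_IsFrob (ak_H K (w.1 : ℕ) w.2) φ ∧
    ak_r K (w.1 : ℕ) w.2 φ = σ

/-- `σ` lies in the decomposition group of the place `w` of `K`. -/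
def eco_IsDecP (K : IntermediateField ℚ Qbar) (w : Nat.Primes × s55_GQ)
    (σ : ↥K.fixingSubgroup) : Prop :=
  letI : Fact (w.1 : ℕ).Prime := ⟨w.1.2⟩
  ∃ τ : ↥(ak_H K (w.1 : ℕ) w.2), ak_r K (w.1 : ℕ) w.2 τ = σ

/-! ### Elementary leaves -/

/-- **[E-ORD]** on a finite extension of `ℚ` unramified at `q` the valuation at every place
above `q` takes its values in `q ^ ℤ`. -/
def eco_OrdStatement : Prop :=
  ∀ (q : ℕ) [Fact q.Prime] (F : IntermediateField ℚ Qbar), FiniteDimensional ℚ F →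
    ak_UnramAt q F → ∀ x : Qbarˣ, (x : Qbar) ∈ F → ∀ g : s55_GQ, ∃ n : ℤ, ak_HasOrd q g x n

/-- **[E-FIN]** an element of `ℚ̄ˣ` is a unit at all places above almost all primes. -/
def eco_FinStatement : Prop :=
  ∀ x : Qbarˣ, ∃ X : Finset Nat.Primes, ∀ q : Nat.Primes, q ∉ X →
    letI : Fact (q : ℕ).Prime := ⟨q.2⟩
    ak_IsUnitAt (q : ℕ) x

/-- **[E-SUP]** the compositum of two `S`-levels over `K` is an `S`-level over `K`. -/
def eco_SupStatement : Prop :=
  ∀ (p : ℕ) (S : Finset Nat.Primes) (K F F' : IntermediateField ℚ Qbar), p.Prime →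
    eco_SLevel p S K F → eco_SLevel p S K F' → eco_SLevel p S K (F ⊔ F')

/-- **[E-KUM]** Kummer theory at level `S`: if the elements of a finite set `X ⊆ Fˣ` have
`ord` divisible by `p ^ k` at all places outside `S ∋ p`, then ALL their `p^k`-th roots lie
in an `S`-level `F' ⊇ F`.
(`F'` := `F`(all `p^k`-th roots of the `U`-conjugates of the elements of `X`); an inertia
element `τ` at `q ∉ S` fixes `y`, `y ^ (p^k) = x`, because `τ y / y` is a `p^k`-th root of unity
which is `≡ 1` modulo the maximal ideal - divide `y` by a power of `q` to make it a unit.) -/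
def eco_KumStatement : Prop :=
  ∀ (p : ℕ) (S : Finset Nat.Primes) (K F : IntermediateField ℚ Qbar),
    eco_Setting p S K → eco_SLevel p S K F →
    ∀ (k : ℕ) (X : Finset Qbarˣ), (∀ x ∈ X, (x : Qbar) ∈ F ∧ eco_OrdDvd S (p ^ k) x) →
      ∃ F' : IntermediateField ℚ Qbar, F ≤ F' ∧ eco_SLevel p S K F' ∧
        ∀ x ∈ X, ∀ y : Qbarˣ, y ^ (p ^ k) = x → (y : Qbar) ∈ F'

/-- **[E-CLN]** the class number: for a finite extension `L` of `ℚ` unramified outside `S`
there is `h > 0` such that for every divisor `c` of `L` there is `x ∈ Lˣ` with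
`ord_w x = h · c w` at all places `w` outside `S`.
(`∏ v ^ (c v)` is a fractional ideal of `L` whose `h`-th power is principal.) -/
def eco_ClnStatement : Prop :=
  ∀ (S : Finset Nat.Primes) (L : IntermediateField ℚ Qbar), L.IsUnramifiedOutside S →
    ∃ h : ℕ, 0 < h ∧ ∀ c : Nat.Primes × s55_GQ → ℤ, eco_IsDiv L c →
      ∃ x : Qbarˣ, (x : Qbar) ∈ L ∧
        ∀ w : Nat.Primes × s55_GQ, w.1 ∉ S → eco_HasOrdP w x ((h : ℤ) * c w)

/-- **[E-REPS]** the places of `K` above a finite set of primes have a finite system of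
representatives. -/
def eco_RepsStatement : Prop :=
  ∀ (K : IntermediateField ℚ Qbar), FiniteDimensional ℚ K → ∀ X : Finset Nat.Primes,
    ∃ T : Finset (Nat.Primes × s55_GQ), ak_IsPlaceSet K T ∧ (∀ w ∈ T, w.1 ∈ X) ∧
      ∀ w' : Nat.Primes × s55_GQ, w'.1 ∈ X → ∃ w ∈ T, ak_SamePlace K w w'

/-! ### Capitulation for 1-cochains -/

/-- **[CAP-1]** a 1-cochain `b` of an `S`-level with values in `Fˣ` whose coboundary is
`S`-unit valued is `d₀ y` times an `S`-unit valued cochain, `y` in a higher `S`-level.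
(`n = [F:K]`, `a := ∏_τ (b τ)⁻¹` gives `b ^ n = d₀ a · (S-units)`; `ord_w a mod n` is constant on
the places `w` of `F` above a place of `K`; [E-CLN] for `K`: `h = p^k m₀`, `k₀`; `N := n p^k`,
`s m₀ = 1 + N t`; `e := a ^ (s h) k₀ ^ (-s)` has `ord ∈ N ℤ`; `Y := e ^ (1/N)` by [E-KUM],
`y := Y / a ^ (p^k t)`; then `(b / d₀ y) ^ N = (b ^ n / d₀ a) ^ (p^k)` is `S`-unit valued.) -/
def eco_Cap1Statement : Prop :=
  ∀ (p : ℕ) (S : Finset Nat.Primes) (K F : IntermediateField ℚ Qbar),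
    eco_Setting p S K → eco_SLevel p S K F →
    ∀ b : ↥K.fixingSubgroup → Qbarˣ, ak_Lev₁ K F b → (∀ x, ak_IsSUnit S (ak_d₁ K b x)) →
      ∃ F' : IntermediateField ℚ Qbar, F ≤ F' ∧ eco_SLevel p S K F' ∧
        ∃ y : Qbarˣ, (y : Qbar) ∈ F' ∧ ∀ g : ↥K.fixingSubgroup, ak_IsSUnit S (b g / (g • y / y))

/-! ### The obstruction at the places outside `S` -/

/-- **[E-LOCOB]** if the cocycle `g₂` of a level `F` unramified at `q` has invariant `0` at the
place `w = (q, g₀)` and `d b₁ = g₂ ^ n`, then `n ∣ ord_w (b₁ σ)` for every `σ` in the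
decomposition group of `w`.
(The localisation of `g₂` is a coboundary `d β` AT THE SAME UNRAMIFIED LEVEL [(I2) + injectivity
of inflation], so `‖β‖ ∈ q ^ ℤ`; `b₁ / β ^ n` is a local 1-cocycle, hence `= d₀ x` [H90] of
norm `1`.) -/
def eco_LocObStatement : Prop :=
  ∀ inv : lcf_InvType, lcf_IsInvSystem inv →
    ∀ (K F : IntermediateField ℚ Qbar), FiniteDimensional ℚ K → ak_IsLevel K F →
      ∀ (w : Nat.Primes × s55_GQ), ak_UnramAt (w.1 : ℕ) F →
      ∀ (n : ℕ) (g₂ : ↥K.fixingSubgroup × ↥K.fixingSubgroup → Qbarˣ)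
        (b₁ : ↥K.fixingSubgroup → Qbarˣ), IsMulCocycle₂ g₂ → ak_Lev₂ K F g₂ → ak_Lev₁ K F b₁ →
        (∀ x, ak_d₁ K b₁ x = g₂ x ^ n) → ak_invP K inv w g₂ = 0 →
        ∀ σ : ↥K.fixingSubgroup, eco_IsDecP K w σ → ∃ m : ℤ, eco_HasOrdP w (b₁ σ) ((n : ℤ) * m)

/-- **[E-OBINV]** the invariant at an unramified place from the obstruction: if `d b₁ = g₂ ^ n`
(`n > 0`), `σ` is a Frobenius at `w` and `ord_w (b₁ σ) = m`, then `inv_w g₂ = m / n`.
(`inv_w g₂ = j / n_w`; `g₂ / c₀ ^ j` has invariant `0` for the normalised cocycle `c₀ = q ^ δθ`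
of (I4), whose obstruction is `n / n_w`; [E-LOCOB].) -/
def eco_ObInvStatement : Prop :=
  ∀ inv : lcf_InvType, lcf_IsInvSystem inv →
    ∀ (K F : IntermediateField ℚ Qbar), FiniteDimensional ℚ K → ak_IsLevel K F →
      ∀ (w : Nat.Primes × s55_GQ), ak_UnramAt (w.1 : ℕ) F →
      ∀ (n : ℕ), 0 < n → ∀ (g₂ : ↥K.fixingSubgroup × ↥K.fixingSubgroup → Qbarˣ)
        (b₁ : ↥K.fixingSubgroup → Qbarˣ), IsMulCocycle₂ g₂ → ak_Lev₂ K F g₂ → ak_Lev₁ K F b₁ →
        (∀ x, ak_d₁ K b₁ x = g₂ x ^ n) →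
        ∀ (σ : ↥K.fixingSubgroup) (m : ℤ), eco_IsFrobP K w σ → eco_HasOrdP w (b₁ σ) m →
          ak_invP K inv w g₂ = lcf_qz ((m : ℚ) / (n : ℚ))

/-- **[E-GEN]** if `ord (d b₁)` is divisible by `n` outside `S` and `n ∣ ord_{w₁} (b₁ φ)` for ONE
Frobenius `φ` at ONE place `w₁` in the class of `w`, then `n ∣ ord_w (b₁ σ)` for all `σ` in the
decomposition group of `w`.
(`σ ↦ ord_w (b₁ σ) mod n` is a homomorphism on the decomposition group, trivial on `G_F` and on
inertia; the decomposition group is generated by `φ`, inertia and `G_F`; conjugation: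
`c (u⁻¹ d u) (g₀ u) ≡ c d g₀` by the cocycle rule.) -/
def eco_GenStatement : Prop :=
  ∀ (S : Finset Nat.Primes) (K F : IntermediateField ℚ Qbar), ak_IsLevel K F →
    F.IsUnramifiedOutside S →
    ∀ (n : ℕ) (b₁ : ↥K.fixingSubgroup → Qbarˣ), ak_Lev₁ K F b₁ →
      (∀ x, eco_OrdDvd S n (ak_d₁ K b₁ x)) →
      ∀ w w₁ : Nat.Primes × s55_GQ, w.1 ∉ S → ak_SamePlace K w₁ w →
        ∀ φ : ↥K.fixingSubgroup, eco_IsFrobP K w₁ φ →
          (∃ m : ℤ, eco_HasOrdP w₁ (b₁ φ) ((n : ℤ) * m)) →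
          ∀ σ : ↥K.fixingSubgroup, eco_IsDecP K w σ → ∃ m : ℤ, eco_HasOrdP w (b₁ σ) ((n : ℤ) * m)

/-- **[E-SHAP]** `H¹(Gal(F/K), Div^S(F) / n) = ⊕_v Hom(D_v, ℤ/n)`, elementwise: if `ord (d b₁)`
is divisible by `n` outside `S` and `n ∣ ord_w (b₁ σ)` for all `σ` in the decomposition group of
every place `w` outside `S`, then `ord (b₁ σ) ≡ σ a - a` modulo `n` for a divisor `a` of `F`:
`ord_(q,g) (b₁ σ) = a (q, g σ) - a (q, g) + n m`.
(Orbit representatives; `a (q, g_v σ) := ord_(q, g_v) (b₁ σ) mod n`.) -/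
def eco_ShapStatement : Prop :=
  ∀ (S : Finset Nat.Primes) (K F : IntermediateField ℚ Qbar), ak_IsLevel K F →
    F.IsUnramifiedOutside S →
    ∀ (n : ℕ), 0 < n → ∀ (b₁ : ↥K.fixingSubgroup → Qbarˣ), ak_Lev₁ K F b₁ →
      (∀ x, eco_OrdDvd S n (ak_d₁ K b₁ x)) →
      (∀ w : Nat.Primes × s55_GQ, w.1 ∉ S → ∀ σ : ↥K.fixingSubgroup, eco_IsDecP K w σ →
        ∃ m : ℤ, eco_HasOrdP w (b₁ σ) ((n : ℤ) * m)) →
      ∃ a : Nat.Primes × s55_GQ → ℤ, eco_IsDiv F a ∧
        ∀ (w : Nat.Primes × s55_GQ), w.1 ∉ S → ∀ σ : ↥K.fixingSubgroup,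
          ∃ m : ℤ, eco_HasOrdP w (b₁ σ) (a (w.1, w.2 * (σ : s55_GQ)) - a w + (n : ℤ) * m)

/-! ### Cocycles -/

/-- **[E-CAP2]** for an `S`-level `F` there is `m₀` prime to `p` such that every cocycle `g₂`
of level `F` with invariant `0` at all places outside `S` satisfies: `g₂ ^ m₀ / d b₂` is
ROOT-OF-UNITY valued for a 1-cochain `b₂` of a higher `S`-level.
(`b₁ := ∏_ρ g₂ (·, ρ)`, `d b₁ = g₂ ^ n`; [E-LOCOB], [E-SHAP]: `ord b₁ ≡ d₀ a mod n`; [E-CLN] for
`F`: `h = p^k m₀`, `ord x₀ = h a`; `b₁ ^ h / d₀ x₀` has `ord ∈ n h ℤ`; `b₂` := its `N`-th root,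
`N = n p^k` [E-KUM]; `(g₂ ^ m₀ / d b₂) ^ N = g₂ ^ (n h) / (d b₁) ^ h = 1`.) -/
def eco_Cap2Statement : Prop :=
  ∀ inv : lcf_InvType, lcf_IsInvSystem inv →
    ∀ (p : ℕ) (S : Finset Nat.Primes) (K F : IntermediateField ℚ Qbar),
      eco_Setting p S K → eco_SLevel p S K F →
      ∃ m₀ : ℕ, 0 < m₀ ∧ ¬ p ∣ m₀ ∧
        ∀ g₂ : ↥K.fixingSubgroup × ↥K.fixingSubgroup → Qbarˣ, IsMulCocycle₂ g₂ →
          ak_Lev₂ K F g₂ →
          (∀ w : Nat.Primes × s55_GQ, w.1 ∉ S → ak_invP K inv w g₂ = 0) →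
          ∃ (F' : IntermediateField ℚ Qbar) (b₂ : ↥K.fixingSubgroup → Qbarˣ),
            F ≤ F' ∧ eco_SLevel p S K F' ∧ ak_Lev₁ K F' b₂ ∧
              ∀ x, eco_IsRoot p (g₂ x ^ m₀ / ak_d₁ K b₂ x)

/-- **[E2-SURJ]** root-of-unity valued cocycles of an `S`-level with prescribed invariants
`t w` (of `p`-power order, sum zero) at finitely many places `w ∈ T` above `S`, and invariant
`0` at all other places.  ([AK-EXI] for `m' • t`, `m' m₀ ≡ 1`, then [E-CAP2].) -/
def eco_E2SurjStatement : Prop :=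
  ∀ inv : lcf_InvType, lcf_IsInvSystem inv →
    ∀ (p : ℕ) (S : Finset Nat.Primes) (K : IntermediateField ℚ Qbar), eco_Setting p S K →
      ∀ T : Finset (Nat.Primes × s55_GQ), ak_IsPlaceSet K T → (∀ w ∈ T, w.1 ∈ S) →
      ∀ t : Nat.Primes × s55_GQ → lcf_QZ, (∀ w ∈ T, ∃ k : ℕ, (p ^ k) • t w = 0) →
        ∑ w ∈ T, t w = 0 →
        ∃ (F : IntermediateField ℚ Qbar)
          (u : ↥K.fixingSubgroup × ↥K.fixingSubgroup → Qbarˣ),
          eco_SLevel p S K F ∧ IsMulCocycle₂ u ∧ ak_Lev₂ K F u ∧ (∀ x, eco_IsRoot p (u x)) ∧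
            (∀ w ∈ T, ak_invP K inv w u = t w) ∧
            ∀ w', ak_Outside K T w' → ak_invP K inv w' u = 0

/-- **[E2-INJ]** an `S`-unit valued cocycle of an `S`-level all of whose invariants vanish is
the coboundary of an `S`-unit valued 1-cochain of a higher `S`-level.
([AK-HASSE] - the cocycle is `p`-primary because `[F:K]` is a power of `p` - and [CAP-1].) -/
def eco_E2InjStatement : Prop :=
  ∀ inv : lcf_InvType, lcf_IsInvSystem inv →
    ∀ (p : ℕ) (S : Finset Nat.Primes) (K F : IntermediateField ℚ Qbar),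
      eco_Setting p S K → eco_SLevel p S K F →
      ∀ u : ↥K.fixingSubgroup × ↥K.fixingSubgroup → Qbarˣ, IsMulCocycle₂ u → ak_Lev₂ K F u →
        (∀ x, ak_IsSUnit S (u x)) → (∀ w : Nat.Primes × s55_GQ, ak_invP K inv w u = 0) →
        ∃ (F' : IntermediateField ℚ Qbar) (e : ↥K.fixingSubgroup → Qbarˣ),
          F ≤ F' ∧ eco_SLevel p S K F' ∧ ak_Lev₁ K F' e ∧ (∀ g, ak_IsSUnit S (e g)) ∧
            ∀ x, ak_d₁ K e x = u x

/-- **[E-DIV]** `H²(G_S, E)(p)` is `p`-divisible: an `S`-unit valued cocycle `κ` of an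
`S`-level is `γ ^ p · d e` with `γ` an `S`-unit valued cocycle and `e` an `S`-unit valued
1-cochain of a higher `S`-level.
(Invariants `t_w` of `κ` at the places above `S` [0 outside `S` by AK-UNR], `Σ t_w = 0` by
AK-RECIP; `p s_w = t_w`, `Σ s_w = 0`; [E2-SURJ] gives `γ`, [E2-INJ] gives `e`.) -/
def eco_EDivStatement : Prop :=
  ∀ inv : lcf_InvType, lcf_IsInvSystem inv →
    ∀ (p : ℕ) (S : Finset Nat.Primes) (K F : IntermediateField ℚ Qbar),
      eco_Setting p S K → eco_SLevel p S K F →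
      ∀ κ : ↥K.fixingSubgroup × ↥K.fixingSubgroup → Qbarˣ, IsMulCocycle₂ κ → ak_Lev₂ K F κ →
        (∀ x, ak_IsSUnit S (κ x)) →
        ∃ (F' : IntermediateField ℚ Qbar)
          (γ : ↥K.fixingSubgroup × ↥K.fixingSubgroup → Qbarˣ) (e : ↥K.fixingSubgroup → Qbarˣ),
          F ≤ F' ∧ eco_SLevel p S K F' ∧ IsMulCocycle₂ γ ∧ ak_Lev₂ K F' γ ∧
            (∀ x, ak_IsSUnit S (γ x)) ∧ ak_Lev₁ K F' e ∧ (∀ g, ak_IsSUnit S (e g)) ∧
            ∀ x, κ x = γ x ^ p * ak_d₁ K e x

/-- **[E3]** a `μ_p`-valued 3-cocycle of an `S`-level is the coboundary of a ROOT-OF-UNITY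
valued 2-cochain of a higher `S`-level.
([AK-H3F]: `z = d f`; `b₁ := ∏_ρ f (·, ρ)`, `d b₁ = f ^ n · z₁`, `z₁ = ∏_ρ z (·,·,ρ)`;
correct `f` by a cocycle `g` from [AK-EXI] with `inv_w g = ord_w (b₁ φ_w) / n` at the finitely
many places outside `S` where this is nonzero (balanced at a place above `p`), so that by
[E-OBINV], [E-GEN] the obstruction of `f / g` vanishes; [E-SHAP], [E-CLN] for `F`, [E-KUM]:
`β' := (f / g) ^ m₀ / d b₂` satisfies `β' ^ N ∈ μ_p`; `β := β' ^ m'`, `m' m₀ ≡ 1 mod p`.) -/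
def eco_E3Statement : Prop :=
  ∀ inv : lcf_InvType, lcf_IsInvSystem inv →
    ∀ (p : ℕ) (S : Finset Nat.Primes) (K F : IntermediateField ℚ Qbar),
      eco_Setting p S K → eco_SLevel p S K F →
      ∀ z : ↥K.fixingSubgroup × ↥K.fixingSubgroup × ↥K.fixingSubgroup → Qbarˣ,
        ak_IsCoc₃ K z → ak_Lev₃ K F z → (∀ x, z x ^ p = 1) →
        ∃ (F' : IntermediateField ℚ Qbar)
          (β : ↥K.fixingSubgroup × ↥K.fixingSubgroup → Qbarˣ),
          F ≤ F' ∧ eco_SLevel p S K F' ∧ ak_Lev₂ K F' β ∧ (∀ x, eco_IsRoot p (β x)) ∧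
            ∀ x, ak_d₂ K β x = z x

/-! ### The two absolute targets -/

/-- **[AK-H2]** `μ_p`-valued cocycles of an `S`-level with prescribed invariants `t w`
(`p • t w = 0`, sum zero) at the places `w ∈ T` above `S`, and invariant `0` elsewhere.
([E2-SURJ]: `u`; `u ^ p = d e` by [E2-INJ]; `e = e₁ ^ p` by [E-KUM]; `c := u / d e₁`.) -/
def eco_AbsH2Statement : Prop :=
  ∀ inv : lcf_InvType, lcf_IsInvSystem inv →
    ∀ (p : ℕ) (S : Finset Nat.Primes) (K : IntermediateField ℚ Qbar), eco_Setting p S K →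
      ∀ T : Finset (Nat.Primes × s55_GQ), ak_IsPlaceSet K T → (∀ w ∈ T, w.1 ∈ S) →
      ∀ t : Nat.Primes × s55_GQ → lcf_QZ, (∀ w ∈ T, p • t w = 0) → ∑ w ∈ T, t w = 0 →
        ∃ (F : IntermediateField ℚ Qbar)
          (c : ↥K.fixingSubgroup × ↥K.fixingSubgroup → Qbarˣ),
          eco_SLevel p S K F ∧ IsMulCocycle₂ c ∧ ak_Lev₂ K F c ∧ (∀ x, c x ^ p = 1) ∧
            (∀ w ∈ T, ak_invP K inv w c = t w) ∧
            ∀ w', ak_Outside K T w' → ak_invP K inv w' c = 0

/-- **[AK-H3]** a `μ_p`-valued 3-cocycle of an `S`-level is the coboundary of a `μ_p`-valued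
2-cochain of a higher `S`-level.
([E3]: `z = d β`, `β` root-of-unity valued; `β ^ p` is an `S`-unit valued cocycle, `= γ ^ p d e`
by [E-DIV], `e = e₁ ^ p` by [E-KUM]; `β / (γ · d e₁)` is `μ_p`-valued with coboundary `z`.) -/
def eco_AbsH3Statement : Prop :=
  ∀ inv : lcf_InvType, lcf_IsInvSystem inv →
    ∀ (p : ℕ) (S : Finset Nat.Primes) (K F : IntermediateField ℚ Qbar),
      eco_Setting p S K → eco_SLevel p S K F →
      ∀ z : ↥K.fixingSubgroup × ↥K.fixingSubgroup × ↥K.fixingSubgroup → Qbarˣ,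
        ak_IsCoc₃ K z → ak_Lev₃ K F z → (∀ x, z x ^ p = 1) →
        ∃ (F' : IntermediateField ℚ Qbar)
          (β : ↥K.fixingSubgroup × ↥K.fixingSubgroup → Qbarˣ),
          F ≤ F' ∧ eco_SLevel p S K F' ∧ ak_Lev₂ K F' β ∧ (∀ x, β x ^ p = 1) ∧
            ∀ x, ak_d₂ K β x = z x

end

end Fermat.Agent.S55
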