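/-
# S55 / GLOBAL, absolute level : [E-SUP]

`esup_main : eco_SupStatement` (the Prop of `Global/EcohDefs.lean`, verbatim): the compositum of
two `S`-levels over `K` is an `S`-level over `K`.

`G_(F ⊔ F') = G_F ⊓ G_F'`; the index of the intersection of two normal subgroups of `p`-power
index is a power of `p`.
-/
import Mathlib
import Fermat.Agent.S55.Global.EcohDefs

set_option autoImplicit false
set_option linter.style.haveILetI false

namespace Fermat.Agent.S55

noncomputable section

local notation "Qbar" => AlgebraicClosure ℚ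

/-- The index of the intersection of two subgroups of `p`-power index, one of them normal, is a
power of `p`. -/
theorem esup_index_inf {G : Type*} [Group G] {p : ℕ} (hp : p.Prime) (A B : Subgroup G)
    [B.Normal] {n n' : ℕ} (hA : A.index = p ^ n) (hB : B.index = p ^ n') :
    ∃ m : ℕ, (A ⊓ B).index = p ^ m := by
  have h1 : (A ⊓ B).relIndex A * A.index = (A ⊓ B).index :=
    Subgroup.relIndex_mul_index inf_le_left
  rw [Subgroup.inf_relIndex_left] at h1
  have h2 : B.relIndex A ∣ p ^ n' := hB ▸ Subgroup.relIndex_dvd_index_of_normal B A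
  obtain ⟨j, -, hj⟩ := (Nat.dvd_prime_pow hp).1 h2
  refine ⟨j + n, ?_⟩
  rw [← h1, hj, hA, pow_add]

/-- The compositum of two levels is a level. -/
theorem esup_isLevel {K F F' : IntermediateField ℚ Qbar} (hF : ak_IsLevel K F)
    (hF' : ak_IsLevel K F') : ak_IsLevel K (F ⊔ F') := by
  refine ⟨hF.le.trans le_sup_left, ?_, ?_⟩
  · haveI := hF.fin
    haveI := hF'.fin
    exact IntermediateField.finiteDimensional_sup F F'
  · intro u hu s hs
    rw [IntermediateField.fixingSubgroup_sup] at hs ⊢
    exact ⟨hF.normal u hu s hs.1, hF'.normal u hu s hs.2⟩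

/-- The compositum of two fields unramified outside `S` is unramified outside `S`. -/
theorem esup_unram {S : Finset Nat.Primes} {F F' : IntermediateField ℚ Qbar}
    (hF : F.IsUnramifiedOutside S) (hF' : F'.IsUnramifiedOutside S) :
    (F ⊔ F').IsUnramifiedOutside S := by
  refine ⟨?_, fun q hq A hA => ?_⟩
  · haveI := hF.1
    haveI := hF'.1
    exact IntermediateField.finiteDimensional_sup F F'
  · rw [IntermediateField.fixingSubgroup_sup]
    exact le_inf (hF.2 q hq A hA) (hF'.2 q hq A hA)

/-- The fixing subgroup of a level is normal in `G_K`. -/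
theorem esup_normal {K F : IntermediateField ℚ Qbar} (hF : ak_IsLevel K F) :
    (F.fixingSubgroup.subgroupOf K.fixingSubgroup).Normal := by
  refine ⟨fun s hs u => ?_⟩
  rw [Subgroup.mem_subgroupOf] at hs ⊢
  have h := hF.normal (u : s55_GQ)⁻¹ (K.fixingSubgroup.inv_mem u.2) (s : s55_GQ) hs
  rw [inv_inv] at h
  exact h

/-- The compositum of two `p`-levels is a `p`-level. -/
theorem esup_isPLevel {p : ℕ} (hp : p.Prime) {K F F' : IntermediateField ℚ Qbar}
    (hF' : ak_IsLevel K F') (h : ak_IsPLevel K F p) (h' : ak_IsPLevel K F' p) :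
    ak_IsPLevel K (F ⊔ F') p := by
  obtain ⟨n, hn⟩ := h
  obtain ⟨n', hn'⟩ := h'
  haveI := esup_normal hF'
  have e : (F ⊔ F').fixingSubgroup.subgroupOf K.fixingSubgroup =
      F.fixingSubgroup.subgroupOf K.fixingSubgroup ⊓
        F'.fixingSubgroup.subgroupOf K.fixingSubgroup := by
    rw [IntermediateField.fixingSubgroup_sup]
    ext x
    simp only [Subgroup.mem_subgroupOf, Subgroup.mem_inf]
  show ∃ m : ℕ, ((F ⊔ F').fixingSubgroup.subgroupOf K.fixingSubgroup).index = p ^ m
  rw [e]
  exact esup_index_inf hp _ _ hn hn'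

/-- **[E-SUP]** -/
theorem esup_main : eco_SupStatement := by
  intro p S K F F' hp hF hF'
  exact ⟨esup_isLevel hF.lev hF'.lev, esup_unram hF.unr hF'.unr,
    esup_isPLevel hp hF'.lev hF.pl hF'.pl⟩

end

end Fermat.Agent.S55
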