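/-
S55 (fifth wave), GLOBAL side, package [FINLEVEL-K] (sub-architect helper23): INTERFACE FILE.
Prefix `flk_`.  Definitions and `Prop`s only (plus the construction of the restriction map).

PURPOSE: derive helper26's seven ABSOLUTE imports of `Global/AbsDefs.lean` (`ak_*Statement`)
from the FINITE-LEVEL statements of `Global/{Defs, RecDefs, TowerDefs}.lean` (`gl_*Statement`).

THE MODEL.  `K ⊆ ℚ̄`, `U = G_K = K.fixingSubgroup`.  A level `F` over `K` is modelled by an
abstract number field `E` (a `Type` with `[Field E] [NumberField E]`, so that the `gl_`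
statements apply verbatim, with their own `Algebra ℚ E` instance) and an embedding
`j : E →ₐ[ℚ] ℚ̄` with `j.fieldRange = F`;  `flk_Stable K j` : `U` maps `j(E)` into itself.
  `flk_res hn : U →* Aut(E/ℚ)`        `j (flk_res hn u x) = u (j x)`      (`flk_res_spec`)
  `flk_H K j hn = range (flk_res hn)`  (`= Gal(F/K)` when `K ≤ F`)
  `flk_resH K j hn : U →* ↥H`          (surjective: `flk_resH_surjective`)
  `flk_infl₁/₂/₃ K j hn`               inflation of cochains `H^n → Additive Eˣ` to `U^n → ℚ̄ˣ`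
  `flk_iota j q g = ι_q ∘ g ∘ j`       the embedding of `E` belonging to the place `(q, g)`.

THE DICTIONARY `flk_DictStatement` (ONE structure-`Prop`; proof: helper23,
`Global/FinLevelKDict.lean`, theorem `flk_dict`).  Every leaf takes it as ONE hypothesis `D`.

THE LEAVES (each = one theorem, file `Global/FinLevelK<Name>.lean`):
  [FLK-UNRVAL] `flk_unrVal  : flk_UnrValStatement`                    (= [UNR-DICT] ⇒, = (E-ORD))
  [FLK-CONJ]   `flk_conj_of : flk_DictStatement → ak_ConjStatement`              (uses `gic_main`)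
  [FLK-UNR]    `flk_unr_of  : flk_DictStatement → flk_UnrValStatement → ak_UnrStatement`
  [FLK-RECIP]  `flk_recip_of : flk_DictStatement → gl_RecipStatement → ak_RecipStatement`
  [FLK-HASSE]  `flk_hasse_of : flk_DictStatement → gl_HasseStatement → ak_HasseStatement`
  [FLK-CYCP]   `flk_cycp_of : flk_DictStatement → gl_CycPStatement → ak_CycPStatement`
  [FLK-EXI]    `flk_exi_of  : flk_DictStatement → gl_FundStatement → ak_ExiStatement`
  [FLK-H3F]    `flk_h3f_of  : flk_DictStatement → gl_FundStatement → ak_H3FStatement`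
(hypothesis-free inputs on main may be used freely: `gic_main`, `grs_main`, `gis_main`,
`glb_main`, `gso_main`, `lfund_fin`, `gdsc_main`, `cyx_main`, `zext_main`, `icl_main`, ...).
-/
import Mathlib
import Fermat.Agent.S55.Global.AbsDefs
import Fermat.Agent.S55.Global.TowerDefs

set_option autoImplicit false

namespace Fermat.Agent.S55

open groupCohomology

noncomputable section

local notation "Qbar" => AlgebraicClosure ℚ

section model

variable (K : IntermediateField ℚ Qbar) {E : Type} [Field E] [NumberField E]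
  (j : E →ₐ[ℚ] Qbar)

/-- `U = G_K` stabilises the image of `j` (i.e. `j(E)` is normal over `K ∩ j(E)`). -/
def flk_Stable : Prop := ∀ u ∈ K.fixingSubgroup, ∀ x : E, ∃ y : E, j y = u (j x)

variable {K j}

theorem flk_inj (j : E →ₐ[ℚ] Qbar) {x y : E} (h : j x = j y) : x = y :=
  j.toRingHom.injective h

/-- the preimage under `j` of `u (j x)`. -/
def flk_pre (hn : flk_Stable K j) (u : ↥K.fixingSubgroup) (x : E) : E :=
  Classical.choose ((show ∀ u ∈ K.fixingSubgroup, ∀ x : E, ∃ y : E, j y = u (j x) from hn)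
    u u.2 x)

theorem flk_pre_spec (hn : flk_Stable K j) (u : ↥K.fixingSubgroup) (x : E) :
    j (flk_pre hn u x) = (u : s55_GQ) (j x) :=
  Classical.choose_spec ((show ∀ u ∈ K.fixingSubgroup, ∀ x : E, ∃ y : E, j y = u (j x) from hn)
    u u.2 x)

/-- the endomorphism of `E` induced by `u ∈ U`. -/
def flk_resHom (hn : flk_Stable K j) (u : ↥K.fixingSubgroup) : E →ₐ[ℚ] E :=
  { toFun := fun x => flk_pre hn u x
    map_one' := by
      apply flk_inj j
      rw [flk_pre_spec, map_one, map_one]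
    map_mul' := fun x y => by
      apply flk_inj j
      rw [flk_pre_spec, map_mul, map_mul, map_mul, flk_pre_spec, flk_pre_spec]
    map_zero' := by
      apply flk_inj j
      rw [flk_pre_spec, map_zero, map_zero]
    map_add' := fun x y => by
      apply flk_inj j
      rw [flk_pre_spec, map_add, map_add, map_add, flk_pre_spec, flk_pre_spec]
    commutes' := fun r => by
      apply flk_inj j
      rw [flk_pre_spec, AlgHom.commutes, AlgEquiv.commutes] }

theorem flk_resHom_spec (hn : flk_Stable K j) (u : ↥K.fixingSubgroup) (x : E) :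
    j (flk_resHom hn u x) = (u : s55_GQ) (j x) :=
  flk_pre_spec hn u x

/-- restriction of automorphisms `U → Aut(E/ℚ)`, `j ∘ res u = u ∘ j`. -/
def flk_res (hn : flk_Stable K j) : ↥K.fixingSubgroup →* (E ≃ₐ[ℚ] E) where
  toFun u := AlgEquiv.ofBijective (flk_resHom hn u) (AlgHom.bijective _)
  map_one' := by
    apply AlgEquiv.ext
    intro x
    apply flk_inj j
    show j (flk_resHom hn 1 x) = j x
    rw [flk_resHom_spec]
    rfl
  map_mul' u v := by
    apply AlgEquiv.ext
    intro x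
    apply flk_inj j
    show j (flk_resHom hn (u * v) x) = j (flk_resHom hn u (flk_resHom hn v x))
    rw [flk_resHom_spec, flk_resHom_spec, flk_resHom_spec]
    rfl

@[simp] theorem flk_res_spec (hn : flk_Stable K j) (u : ↥K.fixingSubgroup) (x : E) :
    j (flk_res hn u x) = (u : s55_GQ) (j x) :=
  flk_resHom_spec hn u x

variable (K j)

/-- The finite Galois group `H = Gal(j(E)/K ∩ j(E))` as a subgroup of `Aut(E/ℚ)`. -/
def flk_H (hn : flk_Stable K j) : Subgroup (E ≃ₐ[ℚ] E) := (flk_res hn).range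

/-- restriction `U → H`. -/
def flk_resH (hn : flk_Stable K j) : ↥K.fixingSubgroup →* ↥(flk_H K j hn) :=
  (flk_res hn).rangeRestrict

@[simp] theorem flk_resH_coe (hn : flk_Stable K j) (u : ↥K.fixingSubgroup) :
    ((flk_resH K j hn u : ↥(flk_H K j hn)) : E ≃ₐ[ℚ] E) = flk_res hn u := rfl

theorem flk_resH_surjective (hn : flk_Stable K j) : Function.Surjective (flk_resH K j hn) :=
  (flk_res hn).rangeRestrict_surjective

/-- inflation of a 1-cochain of `H` with values in `Eˣ`. -/
def flk_infl₁ (hn : flk_Stable K j) (b : ↥(flk_H K j hn) → Additive Eˣ) :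
    ↥K.fixingSubgroup → Qbarˣ :=
  fun u => Units.map (j : E →* Qbar) (b (flk_resH K j hn u)).toMul

/-- inflation of a 2-cochain of `H` with values in `Eˣ`. -/
def flk_infl₂ (hn : flk_Stable K j) (c : ↥(flk_H K j hn) × ↥(flk_H K j hn) → Additive Eˣ) :
    ↥K.fixingSubgroup × ↥K.fixingSubgroup → Qbarˣ :=
  fun x => Units.map (j : E →* Qbar) (c (flk_resH K j hn x.1, flk_resH K j hn x.2)).toMul

/-- the embedding `ι_q ∘ g ∘ j : E → Ω_q` of the place `(q, g)`. -/
def flk_iota (q : ℕ) [Fact q.Prime] (g : s55_GQ) : E →ₐ[ℚ] PadicAlgCl q :=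
  (ak_iota q g).comp j

@[simp] theorem flk_iota_apply (q : ℕ) [Fact q.Prime] (g : s55_GQ) (x : E) :
    flk_iota j q g x = padicEmbedding q (g (j x)) := rfl

/-- inflation of a 3-cochain of `H` with values in `Eˣ`. -/
def flk_infl₃ (hn : flk_Stable K j)
    (c : ↥(flk_H K j hn) × ↥(flk_H K j hn) × ↥(flk_H K j hn) → Additive Eˣ) :
    ↥K.fixingSubgroup × ↥K.fixingSubgroup × ↥K.fixingSubgroup → Qbarˣ :=
  fun x => Units.map (j : E →* Qbar)
    (c (flk_resH K j hn x.1, flk_resH K j hn x.2.1, flk_resH K j hn x.2.2)).toMul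

end model

/-! ### The dictionary -/

/-- **[FLK-DICT]** the dictionary between the absolute level (`ak_`) and the finite level
(`gl_`).  `K ⊆ ℚ̄`, `E` a number field with an embedding `j : E → ℚ̄` whose image `F = j(E)`
contains `K` and is stable under `U = G_K`; `H = flk_H K j hn = Gal(F/K) ≤ Aut(E/ℚ)`. -/
structure flk_DictStatement : Prop where
  /-- (M0) every finite `F ⊆ ℚ̄` has a model. -/
  model : ∀ F : IntermediateField ℚ Qbar, FiniteDimensional ℚ F →
    ∃ (E : Type) (_ : Field E) (_ : NumberField E) (j : E →ₐ[ℚ] Qbar), j.fieldRange = F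
  /-- (M1) the model of a level is stable under `U`. -/
  stable : ∀ (K F : IntermediateField ℚ Qbar), ak_IsLevel K F →
    ∀ (E : Type) [Field E] [NumberField E] (j : E →ₐ[ℚ] Qbar), j.fieldRange = F →
      flk_Stable K j
  /-- (M2) the kernel of the restriction `U → H` is `G_F`. -/
  ker : ∀ (K : IntermediateField ℚ Qbar) (E : Type) [Field E] [NumberField E]
    (j : E →ₐ[ℚ] Qbar) (hn : flk_Stable K j) (u : ↥K.fixingSubgroup),
      flk_res hn u = 1 ↔ (u : s55_GQ) ∈ j.fieldRange.fixingSubgroup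
  /-- (G1) `#H = [G_K : G_F]`. -/
  card : ∀ (K : IntermediateField ℚ Qbar) (E : Type) [Field E] [NumberField E]
    (j : E →ₐ[ℚ] Qbar) (hn : flk_Stable K j),
      Nat.card ↥(flk_H K j hn) =
        (j.fieldRange.fixingSubgroup.subgroupOf K.fixingSubgroup).index
  /-- (G2) the fixed field of `H` is `j⁻¹ K`. -/
  fixed : ∀ (K : IntermediateField ℚ Qbar) (E : Type) [Field E] [NumberField E]
    (j : E →ₐ[ℚ] Qbar) (hn : flk_Stable K j) (x : E),
      (∀ σ ∈ flk_H K j hn, σ x = x) ↔ j x ∈ K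
  /-- (L1) the compositum of two levels is a level. -/
  sup : ∀ (K F₁ F₂ : IntermediateField ℚ Qbar), ak_IsLevel K F₁ → ak_IsLevel K F₂ →
    ak_IsLevel K (F₁ ⊔ F₂)
  /-- (L2) two models of levels `F ≤ F'` over `K` form a tower. -/
  tower : ∀ (K : IntermediateField ℚ Qbar) (E E' : Type) [Field E] [NumberField E] [Field E']
    [NumberField E'] (j : E →ₐ[ℚ] Qbar) (j' : E' →ₐ[ℚ] Qbar) (hn : flk_Stable K j)
    (hn' : flk_Stable K j'), K ≤ j.fieldRange → j.fieldRange ≤ j'.fieldRange →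
      ∃ t : gl_Tower E E' (flk_H K j hn) (flk_H K j' hn'), (∀ x, j' (t.j x) = j x) ∧
        ∀ u, t.π (flk_resH K j' hn' u) = flk_resH K j hn u
  /-- (C00) functions on `U^n` which are constant modulo `G_F` factor through `H^n`. -/
  const₁ : ∀ (K : IntermediateField ℚ Qbar) (E : Type) [Field E] [NumberField E]
    (j : E →ₐ[ℚ] Qbar) (hn : flk_Stable K j) (X : Type) (y : ↥K.fixingSubgroup → X),
      ak_Const₁ K j.fieldRange y → ∃ y₀ : ↥(flk_H K j hn) → X, ∀ u, y₀ (flk_resH K j hn u) = y u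
  const₂ : ∀ (K : IntermediateField ℚ Qbar) (E : Type) [Field E] [NumberField E]
    (j : E →ₐ[ℚ] Qbar) (hn : flk_Stable K j) (X : Type)
    (y : ↥K.fixingSubgroup × ↥K.fixingSubgroup → X),
      ak_Const₂ K j.fieldRange y → ∃ y₀ : ↥(flk_H K j hn) × ↥(flk_H K j hn) → X,
        ∀ u v, y₀ (flk_resH K j hn u, flk_resH K j hn v) = y (u, v)
  const₃ : ∀ (K : IntermediateField ℚ Qbar) (E : Type) [Field E] [NumberField E]
    (j : E →ₐ[ℚ] Qbar) (hn : flk_Stable K j) (X : Type)
    (y : ↥K.fixingSubgroup × ↥K.fixingSubgroup × ↥K.fixingSubgroup → X),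
      ak_Const₃ K j.fieldRange y →
        ∃ y₀ : ↥(flk_H K j hn) × ↥(flk_H K j hn) × ↥(flk_H K j hn) → X,
          ∀ u v w, y₀ (flk_resH K j hn u, flk_resH K j hn v, flk_resH K j hn w) = y (u, v, w)
  /-- (C0) cochains of level `F` are inflated from `H`. -/
  descent₁ : ∀ (K : IntermediateField ℚ Qbar) (E : Type) [Field E] [NumberField E]
    (j : E →ₐ[ℚ] Qbar) (hn : flk_Stable K j) (b : ↥K.fixingSubgroup → Qbarˣ),
      ak_Lev₁ K j.fieldRange b → ∃ b₀, flk_infl₁ K j hn b₀ = b
  descent₂ : ∀ (K : IntermediateField ℚ Qbar) (E : Type) [Field E] [NumberField E]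
    (j : E →ₐ[ℚ] Qbar) (hn : flk_Stable K j)
    (f : ↥K.fixingSubgroup × ↥K.fixingSubgroup → Qbarˣ),
      ak_Lev₂ K j.fieldRange f → ∃ c, flk_infl₂ K j hn c = f
  descent₃ : ∀ (K : IntermediateField ℚ Qbar) (E : Type) [Field E] [NumberField E]
    (j : E →ₐ[ℚ] Qbar) (hn : flk_Stable K j)
    (z : ↥K.fixingSubgroup × ↥K.fixingSubgroup × ↥K.fixingSubgroup → Qbarˣ),
      ak_Lev₃ K j.fieldRange z → ∃ c, flk_infl₃ K j hn c = z
  /-- (C0') inflations have level `F`. -/
  lev₁ : ∀ (K : IntermediateField ℚ Qbar) (E : Type) [Field E] [NumberField E]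
    (j : E →ₐ[ℚ] Qbar) (hn : flk_Stable K j) (b : ↥(flk_H K j hn) → Additive Eˣ),
      ak_Lev₁ K j.fieldRange (flk_infl₁ K j hn b)
  lev₂ : ∀ (K : IntermediateField ℚ Qbar) (E : Type) [Field E] [NumberField E]
    (j : E →ₐ[ℚ] Qbar) (hn : flk_Stable K j)
    (c : ↥(flk_H K j hn) × ↥(flk_H K j hn) → Additive Eˣ),
      ak_Lev₂ K j.fieldRange (flk_infl₂ K j hn c)
  lev₃ : ∀ (K : IntermediateField ℚ Qbar) (E : Type) [Field E] [NumberField E]
    (j : E →ₐ[ℚ] Qbar) (hn : flk_Stable K j)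
    (c : ↥(flk_H K j hn) × ↥(flk_H K j hn) × ↥(flk_H K j hn) → Additive Eˣ),
      ak_Lev₃ K j.fieldRange (flk_infl₃ K j hn c)
  /-- (C1) cocycles correspond to cocycles. -/
  coc₂ : ∀ (K : IntermediateField ℚ Qbar) (E : Type) [Field E] [NumberField E]
    (j : E →ₐ[ℚ] Qbar) (hn : flk_Stable K j)
    (c : ↥(flk_H K j hn) × ↥(flk_H K j hn) → Additive Eˣ),
      IsMulCocycle₂ (flk_infl₂ K j hn c) ↔ IsCocycle₂ c
  /-- (C2) coboundaries correspond to coboundaries of cochains of the same level. -/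
  cob₂ : ∀ (K : IntermediateField ℚ Qbar) (E : Type) [Field E] [NumberField E]
    (j : E →ₐ[ℚ] Qbar) (hn : flk_Stable K j)
    (c : ↥(flk_H K j hn) × ↥(flk_H K j hn) → Additive Eˣ),
      IsCoboundary₂ c ↔
        ∃ b : ↥K.fixingSubgroup → Qbarˣ, ak_Lev₁ K j.fieldRange b ∧
          ∀ x, ak_d₁ K b x = flk_infl₂ K j hn c x
  /-- (P1) the local groups agree. -/
  locU : ∀ (K : IntermediateField ℚ Qbar) (E : Type) [Field E] [NumberField E]
    (j : E →ₐ[ℚ] Qbar) (hn : flk_Stable K j), K ≤ j.fieldRange →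
    ∀ (q : ℕ) [Fact q.Prime] (g : s55_GQ),
      gl_locU q E (flk_H K j hn) (flk_iota j q g) = ak_H K q g
  /-- (P1') the localisation maps agree. -/
  locSigma : ∀ (K : IntermediateField ℚ Qbar) (E : Type) [Field E] [NumberField E]
    (j : E →ₐ[ℚ] Qbar) (hn : flk_Stable K j), K ≤ j.fieldRange →
    ∀ (q : ℕ) [Fact q.Prime] (g : s55_GQ) (τ : ↥(gl_locU q E (flk_H K j hn) (flk_iota j q g)))
      (τ' : ↥(ak_H K q g)), (τ : lcf_Gal q) = τ' →
      gl_locSigma q E (flk_H K j hn) (flk_iota j q g) τ = flk_resH K j hn (ak_r K q g τ')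
  /-- (P2) the local invariants agree. -/
  inv : ∀ (K : IntermediateField ℚ Qbar) (E : Type) [Field E] [NumberField E]
    (j : E →ₐ[ℚ] Qbar) (hn : flk_Stable K j), K ≤ j.fieldRange →
    ∀ (q : ℕ) [Fact q.Prime] (g : s55_GQ) (inv : lcf_InvType)
      (c : ↥(flk_H K j hn) × ↥(flk_H K j hn) → Additive Eˣ),
      gl_invAtF q E (flk_H K j hn) (flk_iota j q g) inv c =
        ak_inv K q g inv (flk_infl₂ K j hn c)
  /-- (P3) every embedding of `E` is the embedding of a place `(q, g)`. -/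
  emb : ∀ (E : Type) [Field E] [NumberField E] (j : E →ₐ[ℚ] Qbar) (q : ℕ) [Fact q.Prime]
    (ι : E →ₐ[ℚ] PadicAlgCl q), ∃ g : s55_GQ, ι = flk_iota j q g
  /-- (P4) two pairs define the same place of `K` iff their embeddings of `E` do. -/
  place : ∀ (K : IntermediateField ℚ Qbar) (E : Type) [Field E] [NumberField E]
    (j : E →ₐ[ℚ] Qbar) (hn : flk_Stable K j), K ≤ j.fieldRange →
    ∀ (q : Nat.Primes) (g g' : s55_GQ),
      letI : Fact (q : ℕ).Prime := ⟨q.2⟩
      ((gl_placeKSetoid (q : ℕ) E (flk_H K j hn)).r (flk_iota j (q : ℕ) g)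
        (flk_iota j (q : ℕ) g') ↔ ak_SamePlace K (q, g) (q, g'))
  /-- (S1) the sum of all local invariants is the sum over a place set outside of which the
  invariants vanish. -/
  sum : ∀ (inv : lcf_InvType), lcf_IsInvSystem inv →
    ∀ (K : IntermediateField ℚ Qbar) (E : Type) [Field E] [NumberField E]
    (j : E →ₐ[ℚ] Qbar) (hn : flk_Stable K j), K ≤ j.fieldRange →
    ∀ c : ↥(flk_H K j hn) × ↥(flk_H K j hn) → Additive Eˣ, IsCocycle₂ c →
    ∀ T : Finset (Nat.Primes × s55_GQ), ak_IsPlaceSet K T →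
      (∀ w', ak_Outside K T w' → ak_invP K inv w' (flk_infl₂ K j hn c) = 0) →
      (Function.support (gl_sumPF inv E (flk_H K j hn) c)).Finite ∧
        gl_sumF inv E (flk_H K j hn) c = ∑ w ∈ T, ak_invP K inv w (flk_infl₂ K j hn c)

/-- **[FLK-UNRVAL]** (= [UNR-DICT] `⇒`, = (E-ORD)): if the inertia groups above `q` act
trivially on the finite extension `F` of `ℚ`, the value group of every embedding of `F` into
`Ω_q` is `q^ℤ`.
(For inert `τ ∈ Gal(Ω_q/ℚ_q)` the element `g⁻¹ loc_q(τ) g` lies in the inertia group of the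
place `g⁻¹ • padicPlace q`, so `τ` fixes `ι_q (g x)`; an element of `Ω_q` fixed by the inertia
group has its absolute value in `q^ℤ`: helper29's `unr_abs_*`.) -/
def flk_UnrValStatement : Prop :=
  ∀ (q : ℕ) [Fact q.Prime] (F : IntermediateField ℚ Qbar), FiniteDimensional ℚ F →
    ak_UnramAt q F → ∀ (g : s55_GQ) (x : Qbar), x ∈ F → x ≠ 0 →
      ∃ n : ℤ, ‖padicEmbedding q (g x)‖ = (q : ℝ) ^ n

end

end Fermat.Agent.S55
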