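/-
S55 (fifth wave), GLOBAL side, package [FINLEVEL-K] (helper23): THE ALGEBRA HALF OF THE
DICTIONARY `flk_DictStatement` of `Global/FinLevelKDefs.lean`.  Prefix `flk_`.

  flk_model, flk_stable, flk_ker, flk_card, flk_fixed, flk_sup, flk_tower,
  flk_const₁/₂/₃, flk_descent₁/₂/₃, flk_lev₁/₂/₃, flk_coc₂, flk_cob₂
+ tools: flk_lift (section of U → H), flk_resH_eq_one_iff, flk_resH_mul_fix, flk_smul_map,
  flk_unitInv, flk_inc (embedding of models E → E'), flk_pi (restriction H' → H).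
-/
import Mathlib
import Fermat.Agent.S55.Global.FinLevelKDefs

set_option autoImplicit false
set_option linter.style.haveILetI false

namespace Fermat.Agent.S55

open groupCohomology

noncomputable section

local notation "Qbar" => AlgebraicClosure ℚ

/-- (M0) every finite `F ⊆ ℚ̄` has a model. -/
theorem flk_model (F : IntermediateField ℚ Qbar) (hfin : FiniteDimensional ℚ F) :
    ∃ (E : Type) (_ : Field E) (_ : NumberField E) (j : E →ₐ[ℚ] Qbar), j.fieldRange = F := by
  haveI := hfin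
  haveI hnf : NumberField ↥F := NumberField.of_module_finite ℚ ↥F
  refine ⟨↥F, inferInstance, hnf, ?_, ?_⟩
  · exact F.val
  · exact IntermediateField.fieldRange_val F

local instance flk_isAlgebraicQbar : Algebra.IsAlgebraic ℚ (AlgebraicClosure ℚ) :=
  AlgebraicClosure.isAlgebraic ℚ
local instance flk_isAlgClosureQbar : IsAlgClosure ℚ (AlgebraicClosure ℚ) :=
  ⟨inferInstance, inferInstance⟩

theorem flk_isGalois : IsGalois ℚ Qbar := inferInstance

theorem flk_mem_of_fixed (F : IntermediateField ℚ Qbar) (x : Qbar)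
    (h : ∀ s ∈ F.fixingSubgroup, s x = x) : x ∈ F := by
  haveI := flk_isGalois
  have h1 := InfiniteGalois.fixedField_fixingSubgroup F
  rw [← h1]
  intro s
  exact h s.1 s.2

section model

variable (K : IntermediateField ℚ Qbar) {E : Type} [Field E] [NumberField E]
  (j : E →ₐ[ℚ] Qbar)

theorem flk_mem_fieldRange (x : E) : j x ∈ j.fieldRange := ⟨x, rfl⟩

/-- (M1) -/
theorem flk_stable (F : IntermediateField ℚ Qbar) (hL : ak_IsLevel K F)
    (hj : j.fieldRange = F) : flk_Stable K j := by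
  intro u hu x
  have hx : j x ∈ F := hj ▸ flk_mem_fieldRange j x
  have h1 : u (j x) ∈ F := by
    apply flk_mem_of_fixed
    intro s hs
    have h2 := hL.normal u hu s hs
    have h3 := (IntermediateField.mem_fixingSubgroup_iff F _).1 h2 (j x) hx
    have h4 : (u⁻¹ * s * u) (j x) = u⁻¹ (s (u (j x))) := rfl
    rw [h4] at h3
    have h5 := congrArg u h3
    rw [show u (u⁻¹ (s (u (j x)))) = s (u (j x)) from AlgEquiv.apply_symm_apply u _] at h5
    exact h5
  rw [← hj] at h1
  obtain ⟨y, hy⟩ := h1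
  exact ⟨y, hy⟩

variable {K j} (hn : flk_Stable K j)

/-- (M2) -/
theorem flk_ker (u : ↥K.fixingSubgroup) :
    flk_res hn u = 1 ↔ (u : s55_GQ) ∈ j.fieldRange.fixingSubgroup := by
  rw [IntermediateField.mem_fixingSubgroup_iff]
  constructor
  · rintro h y ⟨x, rfl⟩
    have h1 := flk_res_spec hn u x
    rw [h] at h1
    exact h1.symm
  · intro h
    apply AlgEquiv.ext
    intro x
    apply flk_inj j
    rw [flk_res_spec]
    exact h _ (flk_mem_fieldRange j x)

theorem flk_resH_eq_one_iff (u : ↥K.fixingSubgroup) :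
    flk_resH K j hn u = 1 ↔ (u : s55_GQ) ∈ j.fieldRange.fixingSubgroup := by
  rw [← flk_ker hn u]
  constructor
  · intro h
    have := congrArg Subtype.val h
    exact this
  · intro h
    exact Subtype.ext h

theorem flk_resH_mul_fix (u s : ↥K.fixingSubgroup)
    (hs : (s : s55_GQ) ∈ j.fieldRange.fixingSubgroup) :
    flk_resH K j hn (u * s) = flk_resH K j hn u := by
  rw [map_mul, (flk_resH_eq_one_iff hn s).2 hs, mul_one]

/-- (G1) -/
theorem flk_card :
    Nat.card ↥(flk_H K j hn) =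
      (j.fieldRange.fixingSubgroup.subgroupOf K.fixingSubgroup).index := by
  have h1 : (flk_res hn).ker = j.fieldRange.fixingSubgroup.subgroupOf K.fixingSubgroup := by
    ext u
    rw [MonoidHom.mem_ker, flk_ker hn u, Subgroup.mem_subgroupOf]
  rw [← h1, Subgroup.index_ker]
  rfl

/-- (G2) -/
theorem flk_fixed (x : E) : (∀ σ ∈ flk_H K j hn, σ x = x) ↔ j x ∈ K := by
  constructor
  · intro h
    apply flk_mem_of_fixed
    intro s hs
    have h1 := h (flk_res hn ⟨s, hs⟩) ⟨⟨s, hs⟩, rfl⟩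
    have h2 := flk_res_spec hn ⟨s, hs⟩ x
    rw [h1] at h2
    exact h2.symm
  · rintro h σ ⟨u, rfl⟩
    apply flk_inj j
    rw [flk_res_spec]
    exact (IntermediateField.mem_fixingSubgroup_iff K _).1 u.2 _ h

/-- a set-theoretic section of `U → H`. -/
def flk_lift (σ : ↥(flk_H K j hn)) : ↥K.fixingSubgroup :=
  Function.surjInv (flk_resH_surjective K j hn) σ

theorem flk_resH_lift (σ : ↥(flk_H K j hn)) : flk_resH K j hn (flk_lift hn σ) = σ :=
  Function.surjInv_eq (flk_resH_surjective K j hn) σ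

theorem flk_lift_resH (u : ↥K.fixingSubgroup) :
    ∃ s : ↥K.fixingSubgroup, (s : s55_GQ) ∈ j.fieldRange.fixingSubgroup ∧
      flk_lift hn (flk_resH K j hn u) = u * s := by
  refine ⟨u⁻¹ * flk_lift hn (flk_resH K j hn u), ?_, by group⟩
  rw [← flk_resH_eq_one_iff hn, map_mul, map_inv, flk_resH_lift, inv_mul_cancel]

/-- (C00) -/
theorem flk_const₁ (X : Type) (y : ↥K.fixingSubgroup → X) (hy : ak_Const₁ K j.fieldRange y) :
    ∃ y₀ : ↥(flk_H K j hn) → X, ∀ u, y₀ (flk_resH K j hn u) = y u := by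
  refine ⟨fun σ => y (flk_lift hn σ), fun u => ?_⟩
  obtain ⟨s, hs, e⟩ := flk_lift_resH hn u
  show y (flk_lift hn (flk_resH K j hn u)) = y u
  rw [e]
  exact hy u s hs

theorem flk_const₂ (X : Type) (y : ↥K.fixingSubgroup × ↥K.fixingSubgroup → X)
    (hy : ak_Const₂ K j.fieldRange y) :
    ∃ y₀ : ↥(flk_H K j hn) × ↥(flk_H K j hn) → X,
      ∀ u v, y₀ (flk_resH K j hn u, flk_resH K j hn v) = y (u, v) := by
  refine ⟨fun σ => y (flk_lift hn σ.1, flk_lift hn σ.2), fun u v => ?_⟩
  obtain ⟨s, hs, e⟩ := flk_lift_resH hn u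
  obtain ⟨s', hs', e'⟩ := flk_lift_resH hn v
  show y (flk_lift hn (flk_resH K j hn u), flk_lift hn (flk_resH K j hn v)) = y (u, v)
  rw [e, e']
  exact hy u v s s' hs hs'

theorem flk_const₃ (X : Type)
    (y : ↥K.fixingSubgroup × ↥K.fixingSubgroup × ↥K.fixingSubgroup → X)
    (hy : ak_Const₃ K j.fieldRange y) :
    ∃ y₀ : ↥(flk_H K j hn) × ↥(flk_H K j hn) × ↥(flk_H K j hn) → X,
      ∀ u v w, y₀ (flk_resH K j hn u, flk_resH K j hn v, flk_resH K j hn w) = y (u, v, w) := by
  refine ⟨fun σ => y (flk_lift hn σ.1, flk_lift hn σ.2.1, flk_lift hn σ.2.2),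
    fun u v w => ?_⟩
  obtain ⟨s, hs, e⟩ := flk_lift_resH hn u
  obtain ⟨s', hs', e'⟩ := flk_lift_resH hn v
  obtain ⟨s'', hs'', e''⟩ := flk_lift_resH hn w
  show y (flk_lift hn (flk_resH K j hn u), flk_lift hn (flk_resH K j hn v),
    flk_lift hn (flk_resH K j hn w)) = y (u, v, w)
  rw [e, e', e'']
  exact hy u v w s s' s'' hs hs' hs''

/-- preimages of units. -/
theorem flk_unit_pre (y : Qbarˣ) (hy : (y : Qbar) ∈ j.fieldRange) :
    ∃ x : Eˣ, Units.map (j : E →* Qbar) x = y := by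
  obtain ⟨x, hx⟩ := hy
  have hx0 : x ≠ 0 := by
    rintro rfl
    have : (y : Qbar) = 0 := by rw [← hx]; exact map_zero j
    exact y.ne_zero this
  refine ⟨Units.mk0 x hx0, ?_⟩
  apply Units.ext
  exact hx

theorem flk_units_map_injective : Function.Injective (Units.map (j : E →* Qbar)) := by
  intro a b h
  apply Units.ext
  apply flk_inj j
  exact congrArg Units.val h

/-- the preimage function on units (junk value `1` outside the range). -/
def flk_unitInv (j : E →ₐ[ℚ] Qbar) (y : Qbarˣ) : Additive Eˣ :=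
  open Classical in
  if h : ∃ x : Eˣ, Units.map (j : E →* Qbar) x = y then Additive.ofMul (Classical.choose h)
  else 0

theorem flk_unitInv_spec (y : Qbarˣ) (hy : (y : Qbar) ∈ j.fieldRange) :
    Units.map (j : E →* Qbar) (flk_unitInv j y).toMul = y := by
  have h := flk_unit_pre y hy
  unfold flk_unitInv
  rw [dif_pos h]
  exact Classical.choose_spec h

/-- (C0) -/
theorem flk_descent₁ (b : ↥K.fixingSubgroup → Qbarˣ) (hb : ak_Lev₁ K j.fieldRange b) :
    ∃ b₀, flk_infl₁ K j hn b₀ = b := by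
  obtain ⟨y₀, hy₀⟩ := flk_const₁ hn Qbarˣ b hb.1
  refine ⟨fun σ => flk_unitInv j (y₀ σ), ?_⟩
  funext u
  show Units.map (j : E →* Qbar) (flk_unitInv j (y₀ (flk_resH K j hn u))).toMul = b u
  rw [hy₀ u]
  exact flk_unitInv_spec _ (hb.2 u)

theorem flk_descent₂ (f : ↥K.fixingSubgroup × ↥K.fixingSubgroup → Qbarˣ)
    (hf : ak_Lev₂ K j.fieldRange f) : ∃ c, flk_infl₂ K j hn c = f := by
  obtain ⟨y₀, hy₀⟩ := flk_const₂ hn Qbarˣ f hf.1
  refine ⟨fun σ => flk_unitInv j (y₀ σ), ?_⟩
  funext u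
  show Units.map (j : E →* Qbar)
    (flk_unitInv j (y₀ (flk_resH K j hn u.1, flk_resH K j hn u.2))).toMul = f u
  rw [hy₀ u.1 u.2]
  exact flk_unitInv_spec _ (hf.2 u)

theorem flk_descent₃ (z : ↥K.fixingSubgroup × ↥K.fixingSubgroup × ↥K.fixingSubgroup → Qbarˣ)
    (hz : ak_Lev₃ K j.fieldRange z) : ∃ c, flk_infl₃ K j hn c = z := by
  obtain ⟨y₀, hy₀⟩ := flk_const₃ hn Qbarˣ z hz.1
  refine ⟨fun σ => flk_unitInv j (y₀ σ), ?_⟩
  funext u
  show Units.map (j : E →* Qbar)
    (flk_unitInv j (y₀ (flk_resH K j hn u.1, flk_resH K j hn u.2.1,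
      flk_resH K j hn u.2.2))).toMul = z u
  rw [hy₀ u.1 u.2.1 u.2.2]
  exact flk_unitInv_spec _ (hz.2 u)

theorem flk_units_map_mem (x : Eˣ) :
    ((Units.map (j : E →* Qbar) x : Qbarˣ) : Qbar) ∈ j.fieldRange :=
  ⟨(x : E), rfl⟩

/-- (C0') -/
theorem flk_lev₁ (b : ↥(flk_H K j hn) → Additive Eˣ) :
    ak_Lev₁ K j.fieldRange (flk_infl₁ K j hn b) := by
  refine ⟨fun g s hs => ?_, fun g => flk_units_map_mem _⟩
  show Units.map (j : E →* Qbar) (b (flk_resH K j hn (g * s))).toMul =
    Units.map (j : E →* Qbar) (b (flk_resH K j hn g)).toMul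
  rw [flk_resH_mul_fix hn g s hs]

theorem flk_lev₂ (c : ↥(flk_H K j hn) × ↥(flk_H K j hn) → Additive Eˣ) :
    ak_Lev₂ K j.fieldRange (flk_infl₂ K j hn c) := by
  refine ⟨fun g g' s s' hs hs' => ?_, fun g => flk_units_map_mem _⟩
  show Units.map (j : E →* Qbar) (c (flk_resH K j hn (g * s), flk_resH K j hn (g' * s'))).toMul =
    Units.map (j : E →* Qbar) (c (flk_resH K j hn g, flk_resH K j hn g')).toMul
  rw [flk_resH_mul_fix hn g s hs, flk_resH_mul_fix hn g' s' hs']

theorem flk_lev₃ (c : ↥(flk_H K j hn) × ↥(flk_H K j hn) × ↥(flk_H K j hn) → Additive Eˣ) :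
    ak_Lev₃ K j.fieldRange (flk_infl₃ K j hn c) := by
  refine ⟨fun g g' g'' s s' s'' hs hs' hs'' => ?_, fun g => flk_units_map_mem _⟩
  show Units.map (j : E →* Qbar) (c (flk_resH K j hn (g * s), flk_resH K j hn (g' * s'),
      flk_resH K j hn (g'' * s''))).toMul =
    Units.map (j : E →* Qbar) (c (flk_resH K j hn g, flk_resH K j hn g',
      flk_resH K j hn g'')).toMul
  rw [flk_resH_mul_fix hn g s hs, flk_resH_mul_fix hn g' s' hs',
    flk_resH_mul_fix hn g'' s'' hs'']

theorem flk_smul_map (u : ↥K.fixingSubgroup) (x : Eˣ) :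
    u • Units.map (j : E →* Qbar) x =
      Units.map (j : E →* Qbar) (((flk_resH K j hn u : ↥(flk_H K j hn)) : E ≃ₐ[ℚ] E) • x) := by
  apply Units.ext
  show (u : s55_GQ) (j (x : E)) = j (flk_res hn u (x : E))
  rw [flk_res_spec]

theorem flk_smul_additive (σ : ↥(flk_H K j hn)) (a : Additive Eˣ) :
    σ • a = Additive.ofMul ((σ : E ≃ₐ[ℚ] E) • a.toMul) := rfl

/-- (C1) -/
theorem flk_coc₂ (c : ↥(flk_H K j hn) × ↥(flk_H K j hn) → Additive Eˣ) :
    IsMulCocycle₂ (flk_infl₂ K j hn c) ↔ IsCocycle₂ c := by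
  have key : ∀ u v w : ↥K.fixingSubgroup,
      (flk_infl₂ K j hn c (u * v, w) * flk_infl₂ K j hn c (u, v) =
        u • flk_infl₂ K j hn c (v, w) * flk_infl₂ K j hn c (u, v * w)) ↔
      (c (flk_resH K j hn u * flk_resH K j hn v, flk_resH K j hn w) +
          c (flk_resH K j hn u, flk_resH K j hn v) =
        flk_resH K j hn u • c (flk_resH K j hn v, flk_resH K j hn w) +
          c (flk_resH K j hn u, flk_resH K j hn v * flk_resH K j hn w)) := by
    intro u v w
    have e1 : flk_infl₂ K j hn c (u * v, w) * flk_infl₂ K j hn c (u, v) =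
        Units.map (j : E →* Qbar) ((c (flk_resH K j hn u * flk_resH K j hn v,
          flk_resH K j hn w)).toMul * (c (flk_resH K j hn u, flk_resH K j hn v)).toMul) := by
      rw [MonoidHom.map_mul, ← map_mul (flk_resH K j hn)]
      rfl
    have e2 : u • flk_infl₂ K j hn c (v, w) * flk_infl₂ K j hn c (u, v * w) =
        Units.map (j : E →* Qbar) ((((flk_resH K j hn u : ↥(flk_H K j hn)) : E ≃ₐ[ℚ] E) •
          (c (flk_resH K j hn v, flk_resH K j hn w)).toMul) *
          (c (flk_resH K j hn u, flk_resH K j hn v * flk_resH K j hn w)).toMul) := by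
      rw [MonoidHom.map_mul, ← flk_smul_map hn, ← map_mul (flk_resH K j hn)]
      rfl
    rw [e1, e2]
    constructor
    · intro h
      exact congrArg Additive.ofMul (flk_units_map_injective h)
    · intro h
      exact congrArg (Units.map (j : E →* Qbar)) (congrArg Additive.toMul h)
  constructor
  · intro h σ τ ρ
    obtain ⟨u, rfl⟩ := flk_resH_surjective K j hn σ
    obtain ⟨v, rfl⟩ := flk_resH_surjective K j hn τ
    obtain ⟨w, rfl⟩ := flk_resH_surjective K j hn ρ
    exact (key u v w).1 (h u v w)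
  · intro h u v w
    exact (key u v w).2 (h _ _ _)

/-- (C2) -/
theorem flk_cob₂ (c : ↥(flk_H K j hn) × ↥(flk_H K j hn) → Additive Eˣ) :
    IsCoboundary₂ c ↔
      ∃ b : ↥K.fixingSubgroup → Qbarˣ, ak_Lev₁ K j.fieldRange b ∧
        ∀ x, ak_d₁ K b x = flk_infl₂ K j hn c x := by
  have key : ∀ (b₀ : ↥(flk_H K j hn) → Additive Eˣ) (u v : ↥K.fixingSubgroup),
      (ak_d₁ K (flk_infl₁ K j hn b₀) (u, v) = flk_infl₂ K j hn c (u, v)) ↔
      (flk_resH K j hn u • b₀ (flk_resH K j hn v) -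
          b₀ (flk_resH K j hn u * flk_resH K j hn v) + b₀ (flk_resH K j hn u) =
        c (flk_resH K j hn u, flk_resH K j hn v)) := by
    intro b₀ u v
    have e1 : ak_d₁ K (flk_infl₁ K j hn b₀) (u, v) =
        Units.map (j : E →* Qbar) ((((flk_resH K j hn u : ↥(flk_H K j hn)) : E ≃ₐ[ℚ] E) •
          (b₀ (flk_resH K j hn v)).toMul) /
          (b₀ (flk_resH K j hn u * flk_resH K j hn v)).toMul *
          (b₀ (flk_resH K j hn u)).toMul) := by
      rw [MonoidHom.map_mul, MonoidHom.map_div, ← flk_smul_map hn, ← map_mul (flk_resH K j hn)]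
      rfl
    rw [e1]
    constructor
    · intro h
      exact congrArg Additive.ofMul (flk_units_map_injective h)
    · intro h
      exact congrArg (Units.map (j : E →* Qbar)) (congrArg Additive.toMul h)
  constructor
  · rintro ⟨b₀, hb₀⟩
    exact ⟨flk_infl₁ K j hn b₀, flk_lev₁ hn b₀, fun x => (key b₀ x.1 x.2).2 (hb₀ _ _)⟩
  · rintro ⟨b, hb, hd⟩
    obtain ⟨b₀, rfl⟩ := flk_descent₁ hn b hb
    refine ⟨b₀, fun σ τ => ?_⟩
    obtain ⟨u, rfl⟩ := flk_resH_surjective K j hn σ
    obtain ⟨v, rfl⟩ := flk_resH_surjective K j hn τ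
    exact (key b₀ u v).1 (hd (u, v))

end model

/-- (L1) -/
theorem flk_sup (K F₁ F₂ : IntermediateField ℚ Qbar) (h₁ : ak_IsLevel K F₁)
    (h₂ : ak_IsLevel K F₂) : ak_IsLevel K (F₁ ⊔ F₂) := by
  haveI := h₁.fin
  haveI := h₂.fin
  refine ⟨le_sup_of_le_left h₁.le, IntermediateField.finiteDimensional_sup F₁ F₂, ?_⟩
  intro u hu s hs
  rw [IntermediateField.fixingSubgroup_sup] at hs ⊢
  exact ⟨h₁.normal u hu s hs.1, h₂.normal u hu s hs.2⟩

section tower

variable (K : IntermediateField ℚ Qbar) {E E' : Type} [Field E] [NumberField E] [Field E']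
  [NumberField E'] (j : E →ₐ[ℚ] Qbar) (j' : E' →ₐ[ℚ] Qbar)

/-- the preimage under `j'` of `j x`. -/
def flk_incPre (hle : j.fieldRange ≤ j'.fieldRange) (x : E) : E' :=
  Classical.choose (hle (flk_mem_fieldRange j x))

theorem flk_incPre_spec (hle : j.fieldRange ≤ j'.fieldRange) (x : E) :
    j' (flk_incPre j j' hle x) = j x :=
  Classical.choose_spec (hle (flk_mem_fieldRange j x))

/-- the embedding `E → E'` of two models of `F ≤ F'`. -/
def flk_inc (hle : j.fieldRange ≤ j'.fieldRange) : E →ₐ[ℚ] E' :=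
  { toFun := fun x => flk_incPre j j' hle x
    map_one' := by
      apply flk_inj j'
      rw [flk_incPre_spec, map_one, map_one]
    map_mul' := fun x y => by
      apply flk_inj j'
      rw [flk_incPre_spec, map_mul, map_mul, flk_incPre_spec, flk_incPre_spec]
    map_zero' := by
      apply flk_inj j'
      rw [flk_incPre_spec, map_zero, map_zero]
    map_add' := fun x y => by
      apply flk_inj j'
      rw [flk_incPre_spec, map_add, map_add, flk_incPre_spec, flk_incPre_spec]
    commutes' := fun r => by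
      apply flk_inj j'
      rw [flk_incPre_spec, AlgHom.commutes, AlgHom.commutes] }

@[simp] theorem flk_inc_spec (hle : j.fieldRange ≤ j'.fieldRange) (x : E) :
    j' (flk_inc j j' hle x) = j x :=
  flk_incPre_spec j j' hle x

variable {K j j'} (hn : flk_Stable K j) (hn' : flk_Stable K j')

theorem flk_ker_le (hle : j.fieldRange ≤ j'.fieldRange) :
    (flk_resH K j' hn').ker ≤ (flk_resH K j hn).ker := by
  intro u hu
  rw [MonoidHom.mem_ker] at hu ⊢
  rw [flk_resH_eq_one_iff] at hu ⊢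
  exact IntermediateField.fixingSubgroup_antitone hle hu

/-- the restriction `H' → H`. -/
def flk_pi (hle : j.fieldRange ≤ j'.fieldRange) : ↥(flk_H K j' hn') →* ↥(flk_H K j hn) :=
  (flk_resH K j' hn').liftOfRightInverse (flk_lift hn') (flk_resH_lift hn')
    ⟨flk_resH K j hn, flk_ker_le hn hn' hle⟩

@[simp] theorem flk_pi_resH (hle : j.fieldRange ≤ j'.fieldRange) (u : ↥K.fixingSubgroup) :
    flk_pi hn hn' hle (flk_resH K j' hn' u) = flk_resH K j hn u :=
  MonoidHom.liftOfRightInverse_comp_apply _ _ _ _ _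

/-- (L2) -/
theorem flk_tower (hK : K ≤ j.fieldRange) (hle : j.fieldRange ≤ j'.fieldRange) :
    ∃ t : gl_Tower E E' (flk_H K j hn) (flk_H K j' hn'), (∀ x, j' (t.j x) = j x) ∧
      ∀ u, t.π (flk_resH K j' hn' u) = flk_resH K j hn u := by
  refine ⟨{ j := flk_inc j j' hle
            π := flk_pi hn hn' hle
            surj := ?_
            compat := ?_
            fixed := ?_ }, fun x => flk_inc_spec j j' hle x, fun u => flk_pi_resH hn hn' hle u⟩
  · intro σ
    obtain ⟨u, rfl⟩ := flk_resH_surjective K j hn σ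
    exact ⟨flk_resH K j' hn' u, flk_pi_resH hn hn' hle u⟩
  · intro σ' x
    obtain ⟨u, rfl⟩ := flk_resH_surjective K j' hn' σ'
    rw [flk_pi_resH]
    apply flk_inj j'
    rw [flk_inc_spec]
    show j (flk_res hn u x) = j' (flk_res hn' u (flk_inc j j' hle x))
    rw [flk_res_spec, flk_res_spec, flk_inc_spec]
  · intro y hy
    have h1 : j' y ∈ j.fieldRange := by
      apply flk_mem_of_fixed
      intro s hs
      have hsK : s ∈ K.fixingSubgroup := IntermediateField.fixingSubgroup_antitone hK hs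
      have h2 := hy (flk_resH K j' hn' ⟨s, hsK⟩) (by
        rw [flk_pi_resH]
        exact (flk_resH_eq_one_iff hn _).2 hs)
      have h3 := flk_res_spec hn' ⟨s, hsK⟩ y
      have h4 : flk_res hn' ⟨s, hsK⟩ y = y := h2
      rw [h4] at h3
      exact h3.symm
    obtain ⟨x, hx⟩ := h1
    refine ⟨x, ?_⟩
    apply flk_inj j'
    rw [← hx]
    exact flk_inc_spec j j' hle x

end tower

end

end Fermat.Agent.S55
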