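/-
S55 (fifth wave), GLOBAL side, package [HASSE] (helper10), part 2: the ABSTRACT assembly.

Pure algebra (Mathlib only).  `G` (a local Galois group) acts on the abelian group `M`
(`= Ω_qˣ`, written additively), `H` (a finite group of automorphisms of the number field) acts on
`A` (`= Fˣ`), `X` (the embeddings `F → Ω_q`) carries a left action `tw` of `G` and a free right
action `rc` of `H`, and `e x : A → M` are the embeddings on units.  If a 2-cocycle `c` of `H` in
`A` becomes, at every point `x₀`, the coboundary of a cochain on the decomposition group, then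
there is a `G`-equivariant family `B τ : X → M` (a semi-local idele for every `τ ∈ H`) with
`B τ (x ∘ σ) - B (σ τ) x + B σ x = e x (c (σ, τ))`, and `B` has values in the kernel of every
`G`-invariant "valuation" `ν : M → ℝ` which kills the values of `c`.
-/
import Mathlib

set_option autoImplicit false

namespace Fermat.Agent.S55

open groupCohomology

/-- The abstract semi-local situation. -/
structure hss_Sys (G H M A X : Type*) [Group G] [Group H] [AddCommGroup M]
    [DistribMulAction G M] [AddCommGroup A] [DistribMulAction H A] where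
  /-- the left action of the local Galois group on the embeddings -/
  tw : G → X → X
  /-- the right action of the global group on the embeddings -/
  rc : X → H → X
  /-- the embeddings on units -/
  e : X → A →+ M
  tw_one : ∀ x, tw 1 x = x
  tw_mul : ∀ g g' x, tw (g * g') x = tw g (tw g' x)
  rc_one : ∀ x, rc x 1 = x
  rc_mul : ∀ x σ σ', rc x (σ * σ') = rc (rc x σ) σ'
  tw_rc : ∀ g x σ, tw g (rc x σ) = rc (tw g x) σ
  rc_inj : ∀ x σ σ', rc x σ = rc x σ' → σ = σ'
  e_tw : ∀ g x a, e (tw g x) a = g • e x a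
  e_rc : ∀ x σ a, e (rc x σ) a = e x (σ • a)

section hss_abs

variable {G H M A X : Type*} [Group G] [Group H] [AddCommGroup M]
  [DistribMulAction G M] [AddCommGroup A] [DistribMulAction H A]
  (S : hss_Sys G H M A X) (c : H × H → A)

theorem hss_rc_inv (x : X) (σ : H) : S.rc (S.rc x σ) σ⁻¹ = x := by
  rw [← S.rc_mul, mul_inv_cancel, S.rc_one]

theorem hss_rc_inv' (x : X) (σ : H) : S.rc (S.rc x σ⁻¹) σ = x := by
  rw [← S.rc_mul, inv_mul_cancel, S.rc_one]

theorem hss_tw_inv (x : X) (g : G) : S.tw g⁻¹ (S.tw g x) = x := by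
  rw [← S.tw_mul, inv_mul_cancel, S.tw_one]

theorem hss_tw_inv' (x : X) (g : G) : S.tw g (S.tw g⁻¹ x) = x := by
  rw [← S.tw_mul, mul_inv_cancel, S.tw_one]

/-- The decomposition group of `x₀`. -/
def hss_D (x₀ : X) : Subgroup H where
  carrier := {σ | ∃ g : G, S.tw g x₀ = S.rc x₀ σ}
  one_mem' := ⟨1, by rw [S.tw_one, S.rc_one]⟩
  mul_mem' := by
    rintro σ σ' ⟨g, hg⟩ ⟨g', hg'⟩
    exact ⟨g * g', by rw [S.tw_mul, hg', S.tw_rc, hg, S.rc_mul]⟩
  inv_mem' := by
    rintro σ ⟨g, hg⟩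
    refine ⟨g⁻¹, ?_⟩
    have h1 : S.tw g⁻¹ (S.rc x₀ σ) = x₀ := by rw [← hg, hss_tw_inv]
    rw [S.tw_rc] at h1
    have h2 := congrArg (fun y => S.rc y σ⁻¹) h1
    simp only [hss_rc_inv] at h2
    exact h2

theorem hss_mem_D_iff (x₀ : X) (σ : H) :
    σ ∈ hss_D S x₀ ↔ ∃ g : G, S.tw g x₀ = S.rc x₀ σ := Iff.rfl

/-- The local hypothesis at `x₀`: `c` is the coboundary of `β` on the decomposition group. -/
def hss_Loc (x₀ : X) (β : H → M) : Prop :=
  ∀ (g h : G) (σ τ : H), S.tw g x₀ = S.rc x₀ σ → S.tw h x₀ = S.rc x₀ τ →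
    g • β τ - β (σ * τ) + β σ = S.e x₀ (c (σ, τ))

theorem hss_smul_e (x₀ : X) (g : G) (σ : H) (hg : S.tw g x₀ = S.rc x₀ σ) (a : A) :
    g • S.e x₀ a = S.e x₀ (σ • a) := by
  rw [← S.e_tw, hg, S.e_rc]

/-- Representatives of the right cosets of a subgroup. -/
theorem hss_exists_rep (D : Subgroup H) :
    ∃ r : H → H, (∀ σ, σ * (r σ)⁻¹ ∈ D) ∧ ∀ δ ∈ D, ∀ σ, r (δ * σ) = r σ := by
  refine ⟨fun σ => (Quotient.mk (QuotientGroup.rightRel D) σ).out, fun σ => ?_, fun δ hδ σ => ?_⟩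
  · have h1 : (QuotientGroup.rightRel D) (Quotient.mk (QuotientGroup.rightRel D) σ).out σ :=
      Quotient.exact (Quotient.out_eq _)
    rw [QuotientGroup.rightRel_apply] at h1
    exact h1
  · have h1 : Quotient.mk (QuotientGroup.rightRel D) (δ * σ) =
        Quotient.mk (QuotientGroup.rightRel D) σ := by
      apply Quotient.sound
      show (QuotientGroup.rightRel D) (δ * σ) σ
      rw [QuotientGroup.rightRel_apply]
      have : σ * (δ * σ)⁻¹ = δ⁻¹ := by group
      rw [this]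
      exact D.inv_mem hδ
    show (Quotient.mk (QuotientGroup.rightRel D) (δ * σ)).out = _
    rw [h1]

/-- The extension of `β` from the decomposition group to `H` along coset representatives. -/
def hss_ext (x₀ : X) (r : H → H) (β : H → M) (σ : H) : M :=
  β (σ * (r σ)⁻¹) - S.e x₀ (c (σ * (r σ)⁻¹, r σ))

variable {S c}

theorem hss_ext_rel (hc : IsCocycle₂ c) {x₀ : X} {β : H → M} (hβ : hss_Loc S c x₀ β)
    {r : H → H} (hr1 : ∀ σ, σ * (r σ)⁻¹ ∈ hss_D S x₀)
    (hr2 : ∀ δ ∈ hss_D S x₀, ∀ σ, r (δ * σ) = r σ)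
    (g : G) (σ' σ : H) (hg : S.tw g x₀ = S.rc x₀ σ') :
    g • hss_ext S c x₀ r β σ + β σ' = S.e x₀ (c (σ', σ)) + hss_ext S c x₀ r β (σ' * σ) := by
  have hσ' : σ' ∈ hss_D S x₀ := ⟨g, hg⟩
  obtain ⟨h, hh⟩ := hr1 σ
  have e1 : r (σ' * σ) = r σ := hr2 σ' hσ' σ
  have e2 : σ' * σ * (r σ)⁻¹ = σ' * (σ * (r σ)⁻¹) := mul_assoc _ _ _
  have h1 := hβ g h σ' (σ * (r σ)⁻¹) hg hh
  have h2 := hc σ' (σ * (r σ)⁻¹) (r σ)
  rw [inv_mul_cancel_right] at h2
  have h3 := congrArg (S.e x₀) h2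
  rw [map_add, map_add, ← hss_smul_e S x₀ g σ' hg] at h3
  unfold hss_ext
  rw [e1, e2, smul_sub]
  linear_combination (norm := abel) h1 + h3

/-- The values of the semi-local cochain at the points `x₀ ∘ σ`. -/
def hss_A (S : hss_Sys G H M A X) (c : H × H → A) (x₀ : X) (β₀ : H → M) (σ τ : H) : M :=
  S.e x₀ (c (σ, τ)) + β₀ (σ * τ) - β₀ σ

theorem hss_A_smul (hc : IsCocycle₂ c) {x₀ : X} {β β₀ : H → M}
    (hR : ∀ (g : G) (σ' σ : H), S.tw g x₀ = S.rc x₀ σ' →
      g • β₀ σ + β σ' = S.e x₀ (c (σ', σ)) + β₀ (σ' * σ))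
    (g : G) (σ' σ τ : H) (hg : S.tw g x₀ = S.rc x₀ σ') :
    g • hss_A S c x₀ β₀ σ τ = hss_A S c x₀ β₀ (σ' * σ) τ := by
  have h1 := hR g σ' (σ * τ) hg
  have h2 := hR g σ' σ hg
  have h3 := congrArg (S.e x₀) (hc σ' σ τ)
  rw [map_add, map_add, ← hss_smul_e S x₀ g σ' hg] at h3
  unfold hss_A
  rw [smul_sub, smul_add, mul_assoc]
  linear_combination (norm := abel) h1 - h2 - h3

theorem hss_A_coc (hc : IsCocycle₂ c) (x₀ : X) (β₀ : H → M) (ρ σ τ : H) :
    hss_A S c x₀ β₀ (ρ * σ) τ - hss_A S c x₀ β₀ ρ (σ * τ) + hss_A S c x₀ β₀ ρ σ =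
      S.e x₀ (ρ • c (σ, τ)) := by
  have h3 := congrArg (S.e x₀) (hc ρ σ τ)
  rw [map_add, map_add] at h3
  unfold hss_A
  rw [mul_assoc]
  linear_combination (norm := abel) h3

/-- A `G`-invariant valuation which kills the values of `c` kills the values of `β` on the
decomposition group (a homomorphism from a finite group to `ℝ` is trivial). -/
theorem hss_val_zero [Finite H] {x₀ : X} {β : H → M} (hβ : hss_Loc S c x₀ β)
    (ν : M →+ ℝ) (hν : ∀ (g : G) (y : M), ν (g • y) = ν y)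
    (hνc : ∀ σ τ : H, ν (S.e x₀ (c (σ, τ))) = 0) (δ : H) (hδ : δ ∈ hss_D S x₀) :
    ν (β δ) = 0 := by
  have hmul : ∀ σ τ : H, σ ∈ hss_D S x₀ → τ ∈ hss_D S x₀ →
      ν (β (σ * τ)) = ν (β σ) + ν (β τ) := by
    rintro σ τ ⟨g, hg⟩ ⟨h, hh⟩
    have h1 := congrArg ν (hβ g h σ τ hg hh)
    rw [map_add, map_sub, hν, hνc] at h1
    linarith
  have h1 : ν (β 1) = 0 := by
    have := hmul 1 1 (Subgroup.one_mem _) (Subgroup.one_mem _)
    rw [mul_one] at this
    linarith
  have hpow : ∀ k : ℕ, ν (β (δ ^ k)) = k * ν (β δ) := by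
    intro k
    induction k with
    | zero => rw [pow_zero, h1]; simp
    | succ k ih =>
      rw [pow_succ, hmul _ _ (Subgroup.pow_mem _ hδ k) hδ, ih]
      push_cast
      ring
  have h2 := hpow (orderOf δ)
  rw [pow_orderOf_eq_one, h1] at h2
  have h3 : (orderOf δ : ℝ) ≠ 0 := by
    exact_mod_cast (orderOf_pos δ).ne'
  rcases mul_eq_zero.mp h2.symm with h | h
  · exact absurd h h3
  · exact h

/-- The local package: extension to `H` with the transformation rule and the valuation bound. -/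
theorem hss_abs_local [Finite H] (hc : IsCocycle₂ c) (x₀ : X)
    (hloc : ∃ β : H → M, hss_Loc S c x₀ β) :
    ∃ β₀ : H → M,
      (∀ (g : G) (σ' σ τ : H), S.tw g x₀ = S.rc x₀ σ' →
        g • hss_A S c x₀ β₀ σ τ = hss_A S c x₀ β₀ (σ' * σ) τ) ∧
      ∀ ν : M →+ ℝ, (∀ (g : G) (y : M), ν (g • y) = ν y) →
        (∀ σ τ : H, ν (S.e x₀ (c (σ, τ))) = 0) → ∀ σ, ν (β₀ σ) = 0 := by
  obtain ⟨β, hβ⟩ := hloc
  obtain ⟨r, hr1, hr2⟩ := hss_exists_rep (hss_D S x₀)
  refine ⟨hss_ext S c x₀ r β, fun g σ' σ τ hg => ?_, fun ν hν hνc σ => ?_⟩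
  · exact hss_A_smul hc (fun g σ' σ hg => hss_ext_rel hc hβ hr1 hr2 g σ' σ hg) g σ' σ τ hg
  · unfold hss_ext
    rw [map_sub, hνc, hss_val_zero hβ ν hν hνc _ (hr1 σ), sub_zero]

end hss_abs

section hss_glob

variable {G H M A X : Type*} [Group G] [Group H] [AddCommGroup M]
  [DistribMulAction G M] [AddCommGroup A] [DistribMulAction H A]
  (S : hss_Sys G H M A X) (c : H × H → A)

/-- Two points lie over the same place of the fixed field of `H`. -/
def hss_setoid : Setoid X where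
  r x x' := ∃ (σ : H) (g : G), x' = S.tw g (S.rc x σ)
  iseqv :=
    { refl := fun x => ⟨1, 1, by rw [S.rc_one, S.tw_one]⟩
      symm := by
        rintro x x' ⟨σ, g, rfl⟩
        refine ⟨σ⁻¹, g⁻¹, ?_⟩
        rw [← S.tw_rc, hss_rc_inv, hss_tw_inv]
      trans := by
        rintro x x' x'' ⟨σ, g, rfl⟩ ⟨σ', g', rfl⟩
        refine ⟨σ * σ', g' * g, ?_⟩
        rw [S.tw_mul, S.rc_mul, S.tw_rc g (S.rc x σ) σ'] }

/-- The base point of the class of `x`. -/
noncomputable def hss_base (x : X) : X := (Quotient.mk (hss_setoid S) x).out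

theorem hss_base_rel (x : X) : ∃ (σ : H) (g : G), x = S.tw g (S.rc (hss_base S x) σ) :=
  Quotient.exact (Quotient.out_eq (Quotient.mk (hss_setoid S) x))

theorem hss_base_tw (g : G) (x : X) : hss_base S (S.tw g x) = hss_base S x := by
  have h1 : Quotient.mk (hss_setoid S) (S.tw g x) = Quotient.mk (hss_setoid S) x := by
    apply Quotient.sound
    exact (hss_setoid S).symm ⟨1, g, by rw [S.rc_one]⟩
  unfold hss_base
  rw [h1]

theorem hss_base_rc (x : X) (σ : H) : hss_base S (S.rc x σ) = hss_base S x := by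
  have h1 : Quotient.mk (hss_setoid S) (S.rc x σ) = Quotient.mk (hss_setoid S) x := by
    apply Quotient.sound
    exact (hss_setoid S).symm ⟨σ, 1, by rw [S.tw_one]⟩
  unfold hss_base
  rw [h1]

/-- The chosen `σ` with `x = g ∘ x₀ ∘ σ`. -/
noncomputable def hss_sig (x : X) : H := Classical.choose (hss_base_rel S x)

/-- The chosen `g` with `x = g ∘ x₀ ∘ σ`. -/
noncomputable def hss_gam (x : X) : G := Classical.choose (Classical.choose_spec (hss_base_rel S x))

theorem hss_gam_spec (x : X) :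
    x = S.tw (hss_gam S x) (S.rc (hss_base S x) (hss_sig S x)) :=
  Classical.choose_spec (Classical.choose_spec (hss_base_rel S x))

/-- The semi-local cochain. -/
noncomputable def hss_B (β₀ : X → H → M) (τ : H) (x : X) : M :=
  hss_gam S x • hss_A S c (hss_base S x) (β₀ (hss_base S x)) (hss_sig S x) τ

variable {S c}

theorem hss_B_eq {β₀ : X → H → M}
    (hQ : ∀ (x₀ : X) (g : G) (σ' σ τ : H), S.tw g x₀ = S.rc x₀ σ' →
      g • hss_A S c x₀ (β₀ x₀) σ τ = hss_A S c x₀ (β₀ x₀) (σ' * σ) τ)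
    (τ : H) (x : X) (g : G) (σ : H) (h : x = S.tw g (S.rc (hss_base S x) σ)) :
    hss_B S c β₀ τ x = g • hss_A S c (hss_base S x) (β₀ (hss_base S x)) σ τ := by
  have h0 := hss_gam_spec S x
  have h1 : S.tw (hss_gam S x) (S.rc (hss_base S x) (hss_sig S x)) =
      S.tw g (S.rc (hss_base S x) σ) := by rw [← h0, ← h]
  have h2 := congrArg (S.tw g⁻¹) h1
  rw [hss_tw_inv, ← S.tw_mul, S.tw_rc] at h2
  have h3 := congrArg (fun y => S.rc y (hss_sig S x)⁻¹) h2
  simp only [hss_rc_inv] at h3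
  rw [← S.rc_mul] at h3
  have h4 := hQ (hss_base S x) (g⁻¹ * hss_gam S x) (σ * (hss_sig S x)⁻¹) (hss_sig S x) τ h3
  rw [inv_mul_cancel_right] at h4
  unfold hss_B
  rw [← h4, smul_smul, mul_inv_cancel_left]

theorem hss_B_tw {β₀ : X → H → M}
    (hQ : ∀ (x₀ : X) (g : G) (σ' σ τ : H), S.tw g x₀ = S.rc x₀ σ' →
      g • hss_A S c x₀ (β₀ x₀) σ τ = hss_A S c x₀ (β₀ x₀) (σ' * σ) τ)
    (τ : H) (h : G) (x : X) :
    hss_B S c β₀ τ (S.tw h x) = h • hss_B S c β₀ τ x := by
  have h1 : S.tw h x = S.tw (h * hss_gam S x)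
      (S.rc (hss_base S (S.tw h x)) (hss_sig S x)) := by
    rw [hss_base_tw, S.tw_mul, ← hss_gam_spec]
  rw [hss_B_eq hQ τ (S.tw h x) (h * hss_gam S x) (hss_sig S x) h1, hss_base_tw, mul_smul]
  rfl

theorem hss_B_coc (hc : IsCocycle₂ c) {β₀ : X → H → M}
    (hQ : ∀ (x₀ : X) (g : G) (σ' σ τ : H), S.tw g x₀ = S.rc x₀ σ' →
      g • hss_A S c x₀ (β₀ x₀) σ τ = hss_A S c x₀ (β₀ x₀) (σ' * σ) τ)
    (σ τ : H) (x : X) :
    hss_B S c β₀ τ (S.rc x σ) - hss_B S c β₀ (σ * τ) x + hss_B S c β₀ σ x =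
      S.e x (c (σ, τ)) := by
  have h1 : S.rc x σ = S.tw (hss_gam S x)
      (S.rc (hss_base S (S.rc x σ)) (hss_sig S x * σ)) := by
    rw [hss_base_rc, S.rc_mul, S.tw_rc, S.tw_rc, ← S.tw_rc, ← hss_gam_spec]
  rw [hss_B_eq hQ τ (S.rc x σ) (hss_gam S x) (hss_sig S x * σ) h1, hss_base_rc]
  have h2 : S.e x (c (σ, τ)) =
      hss_gam S x • S.e (hss_base S x) (hss_sig S x • c (σ, τ)) := by
    conv_lhs => rw [hss_gam_spec S x]
    rw [S.e_tw, S.e_rc]
  rw [h2, ← hss_A_coc hc (hss_base S x) (β₀ (hss_base S x)) (hss_sig S x) σ τ, smul_add,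
    smul_sub]
  rfl

theorem hss_B_val {β₀ : X → H → M} (ν : M →+ ℝ) (hν : ∀ (g : G) (y : M), ν (g • y) = ν y)
    (hνc : ∀ (x : X) (σ τ : H), ν (S.e x (c (σ, τ))) = 0)
    (hN : ∀ (x₀ : X) (σ : H), ν (β₀ x₀ σ) = 0) (τ : H) (x : X) :
    ν (hss_B S c β₀ τ x) = 0 := by
  unfold hss_B hss_A
  rw [hν, map_sub, map_add, hνc, hN, hN]
  simp

/-- **The abstract assembly.** -/
theorem hss_abs_main [Finite H] (hc : IsCocycle₂ c)
    (hloc : ∀ x₀ : X, ∃ β : H → M, hss_Loc S c x₀ β) :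
    ∃ B : H → X → M,
      (∀ (τ : H) (g : G) (x : X), B τ (S.tw g x) = g • B τ x) ∧
      (∀ (σ τ : H) (x : X), B τ (S.rc x σ) - B (σ * τ) x + B σ x = S.e x (c (σ, τ))) ∧
      ∀ ν : M →+ ℝ, (∀ (g : G) (y : M), ν (g • y) = ν y) →
        (∀ (x : X) (σ τ : H), ν (S.e x (c (σ, τ))) = 0) → ∀ (τ : H) (x : X), ν (B τ x) = 0 := by
  choose β₀ hQ hN using fun x₀ => hss_abs_local hc x₀ (hloc x₀)
  refine ⟨hss_B S c β₀, fun τ g x => hss_B_tw hQ τ g x, fun σ τ x => hss_B_coc hc hQ σ τ x,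
    fun ν hν hνc τ x => ?_⟩
  exact hss_B_val ν hν hνc (fun x₀ σ => hN x₀ ν hν (hνc x₀) σ) τ x

end hss_glob

section hss_desc

variable {U H M A : Type*} [Group U] [Group H] [AddCommGroup M] [DistribMulAction U M]
  [AddCommGroup A] [DistribMulAction H A]
  {s : U →* H} {e₀ : A →+ M} {c : H × H → A} {b : U → M}

/-- `c (σ, 1) = σ • c (1, 1)` for a 2-cocycle. -/
theorem hss_cocycle_one {G : Type*} [Group G] {A : Type*} [AddCommGroup A]
    [DistribMulAction G A] {c : G × G → A} (hc : IsCocycle₂ c) (σ : G) :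
    c (σ, 1) = σ • c (1, 1) := by
  have h := hc σ 1 1
  rw [mul_one, mul_one] at h
  exact add_right_cancel h

/-- `c (1, σ) = c (1, 1)` for a 2-cocycle. -/
theorem hss_cocycle_one' {G : Type*} [Group G] {A : Type*} [AddCommGroup A]
    [DistribMulAction G A] {c : G × G → A} (hc : IsCocycle₂ c) (σ : G) :
    c (1, σ) = c (1, 1) := by
  have h := hc 1 1 σ
  rw [one_mul, one_smul, one_mul] at h
  exact (add_left_cancel h).symm

/-- On the kernel of `s`, the cochain `b - e₀ (c (1, 1))` is a 1-cocycle. -/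
theorem hss_desc_coc (he : ∀ (u : U) (a : A), u • e₀ a = e₀ (s u • a))
    (hb : ∀ g h : U, g • b h - b (g * h) + b g = e₀ (c (s g, s h)))
    (n m : U) (hn : s n = 1) (hm : s m = 1) :
    b (n * m) - e₀ (c (1, 1)) = n • (b m - e₀ (c (1, 1))) + (b n - e₀ (c (1, 1))) := by
  have h1 := hb n m
  rw [hn, hm] at h1
  have h2 := he n (c (1, 1))
  rw [hn, one_smul] at h2
  rw [smul_sub, h2]
  linear_combination (norm := abel) - h1

/-- Injectivity of inflation: if the 1-cocycle `b - e₀ (c (1, 1))` on the kernel of `s` is a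
coboundary, then the coboundary `d b` of the inflated cocycle `c ∘ s` is the coboundary of a
cochain which factors through `s`. -/
theorem hss_desc_main (hc : IsCocycle₂ c) (he : ∀ (u : U) (a : A), u • e₀ a = e₀ (s u • a))
    (hb : ∀ g h : U, g • b h - b (g * h) + b g = e₀ (c (s g, s h)))
    (x : M) (hx : ∀ n : U, s n = 1 → b n - e₀ (c (1, 1)) = n • x - x) :
    ∃ β : H → M, ∀ g h : U, g • β (s h) - β (s g * s h) + β (s g) = e₀ (c (s g, s h)) := by
  set b₂ : U → M := fun g => b g - (g • x - x) with hb₂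
  have k1 : ∀ g h : U, g • b₂ h - b₂ (g * h) + b₂ g = e₀ (c (s g, s h)) := by
    intro g h
    have h1 := hb g h
    simp only [hb₂, smul_sub, mul_smul]
    linear_combination (norm := abel) h1
  have k2 : ∀ n : U, s n = 1 → b₂ n = e₀ (c (1, 1)) := by
    intro n hn
    have h1 := hx n hn
    simp only [hb₂]
    linear_combination (norm := abel) h1
  have k3 : ∀ g n : U, s n = 1 → b₂ (g * n) = b₂ g := by
    intro g n hn
    have h1 := k1 g n
    rw [hn, hss_cocycle_one hc, ← he, k2 n hn] at h1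
    linear_combination (norm := abel) - h1
  have k4 : ∀ g g' : U, s g = s g' → b₂ g = b₂ g' := by
    intro g g' hgg
    have h1 : s (g⁻¹ * g') = 1 := by rw [map_mul, map_inv, hgg, inv_mul_cancel]
    have h2 := k3 g (g⁻¹ * g') h1
    rw [mul_inv_cancel_left] at h2
    exact h2.symm
  classical
  refine ⟨fun δ => if h : ∃ g : U, s g = δ then b₂ (Classical.choose h) else 0, fun g h => ?_⟩
  have k5 : ∀ g : U, (if h : ∃ g' : U, s g' = s g then b₂ (Classical.choose h) else 0) = b₂ g := by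
    intro g
    have hex : ∃ g' : U, s g' = s g := ⟨g, rfl⟩
    rw [dif_pos hex]
    exact k4 _ _ (Classical.choose_spec hex)
  have k6 := k5 (g * h)
  rw [map_mul] at k6
  simp only []
  rw [k5 g, k5 h, k6]
  exact k1 g h

end hss_desc

section hss_final

/-- The last step, abstractly: `A → J → C` an "exact sequence" of `G`-modules with
`H¹(G, C) = 0`; a 2-cochain of `G` in `A` which is the coboundary of a `J`-valued cochain is a
coboundary. -/
theorem hss_abs_final {G A J C : Type*} [Group G] [AddCommGroup A] [AddCommGroup J]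
    [AddCommGroup C] [DistribMulAction G A] [DistribMulAction G J] [DistribMulAction G C]
    (D : A →+ J) (π : J →+ C) (hD : Function.Injective D)
    (hDs : ∀ (g : G) (a : A), D (g • a) = g • D a)
    (hπs : ∀ (g : G) (x : J), π (g • x) = g • π x)
    (hπD : ∀ a : A, π (D a) = 0) (hker : ∀ x : J, π x = 0 → ∃ a : A, D a = x)
    (hsurj : Function.Surjective π)
    (hH1 : ∀ f : G → C, IsCocycle₁ f → IsCoboundary₁ f)
    (c : G × G → A) (β : G → J)
    (hβ : ∀ σ τ : G, σ • β τ - β (σ * τ) + β σ = D (c (σ, τ))) :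
    IsCoboundary₂ c := by
  have hy : IsCocycle₁ (fun τ : G => π (β τ)) := by
    intro σ τ
    have h1 := congrArg π (hβ σ τ)
    rw [hπD, map_add, map_sub, hπs] at h1
    show π (β (σ * τ)) = σ • π (β τ) + π (β σ)
    linear_combination (norm := abel) - h1
  obtain ⟨xbar, hxbar⟩ := hH1 _ hy
  obtain ⟨x, rfl⟩ := hsurj xbar
  have hprin : ∀ g : G, ∃ f : A, D f = β g - (g • x - x) := by
    intro g
    apply hker
    have h1 : g • π x - π x = π (β g) := hxbar g
    rw [map_sub, map_sub, hπs, h1, sub_self]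
  choose f hf using hprin
  refine ⟨f, fun σ τ => hD ?_⟩
  rw [map_add, map_sub, hDs, hf, hf, hf, ← hβ σ τ, smul_sub, smul_sub, mul_smul]
  abel

end hss_final

end Fermat.Agent.S55
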