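/-
S55 (fifth wave), GLOBAL side, package [AK-H3F] (owner / sub-architect: helper17).
INTERFACE FILE: the CUT of `ak_H3FStatement` (Global/AbsDefs.lean) into leaves.  Prefix `h3f_`.
Definitions and `Prop`s only.

TARGET  `h3f_main : gl_FundStatement → ak_H3FStatement`
(`H³(G_{K,S}(p), K_S(p)ˣ) = 0`: a 3-cocycle of a `p`-level `F/K` with values in `Fˣ` becomes a
coboundary at a higher `p`-level, unramified outside `S`).

MATHEMATICS (`H = Gal(F/K)` a `p`-group of order `n`, `z : H³ → Fˣ` a 3-cocycle):
 (1) [J-H3]   `diag ∘ z = d j` for an idele-valued 2-cochain `j : H² → J_F`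
              (`H³(H, J_F) = 0`: semi-local Shapiro in degree 3 [SHAP-3] + LOCAL Tate
              `H³(Gal(F_w/K_v), F_wˣ) = 0` [LOC-H3], with unit values at the almost all primes
              where `F` is unramified and `z` is unit-valued [LOC-H3U]);
 (2) `mkA ∘ j : H² → C_F` is a 2-cocycle, hence `= m • a + d k̄` (`a` the fundamental cocycle of
     [FUND], `fg_TateHyp a`);
 (3) in a tower `(F, H) ← (F', H')` of `p`-groups: `infl a = x • a' + d l̄`, and `(n'/n) ∣ x`
     (`n • infl a ~ 0` because `n` kills `H²(H, -)`, and `a'` has exact order `n'`);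
 (4) [SUPP-SUM] if the decomposition group of some embedding `ι'` of `F'` in `H'` has order
     `n'_w` divisible by `n`, there is an idele-valued 2-cocycle `c'` of `H'` with
     `∑_v inv_v c' = (m x) / n'` (this is `y / n'_w`, `y = m (x n / n') (n'_w / n)`), so
     `mkA ∘ c' ~ (m x) • a'` by the compatibility clause of [FUND];
 (5) `mkA ∘ (infl j - c') = d v̄`, so `infl j - c' - d v = diag ∘ f'` and
     `diag (infl z) = d (infl j) = diag (d f')`, i.e. `infl z = d f'`      ([H3-CORE]);
 (6) [H3-ABS] the transfer to the absolute level: helper23's dictionary `flk_dict`, helper1's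
     [P-TOWER] `ptw_main` (the level `K(ζ_{p^m})` has local degree divisible by `n` at a place
     above `p`, and is unramified outside `p`), compositum of levels.

LEAVES (first claim on the board wins; one file each, export VERBATIM):
  [LOC-H3]    `h3f_LocH3Statement`    LOCAL (absolute language, like `gl_LocFundStatement`)
  [LOC-H3U]   `h3f_LocH3UStatement`   LOCAL, unramified, unit values (like `unr_H2UStatement`)
  [SHAP-3]    `h3f_Shap3Statement`    PURE ALGEBRA in helper10's `hss_Sys` (degree 3 analogue of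
                                      `hss_abs_main`; prism identity as in `shin_main₃`)
  [J-H3]      `h3f_JH3Statement`      assembly of the three above (as `hss_semilocal`,
                                      `hss_ideles` in degree 2) + `ramf_main` + `gdiag_finite`
  [SUPP-GEN]  `h3f_SuppGenStatement`  = (X2) of board #950, SHARED with [AK-EXI]: `gso_main`
                                      without the surjectivity hypothesis
  [SUPP-SUM]  `h3f_SuppSumStatement`  from [SUPP-GEN] + `lfund_fin` + `gic_main` + (I1)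
  [H3-CORE]   `h3f_CoreStatement`     steps (2)-(5)                                (helper17)
  [H3-ABS]    `ak_H3FStatement`       step (6)                                     (helper17)
-/
import Mathlib
import Fermat.Agent.S55.Global.TowerDefs
import Fermat.Agent.S55.Global.HasseAbs
import Fermat.Agent.S55.FG.Defs3
import Fermat.Agent.S55.Local.UnrH2UDefs

set_option autoImplicit false

namespace Fermat.Agent.S55

open groupCohomology

noncomputable section

/-! ### The local leaves -/

section local_leaves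

variable {q : ℕ} [Fact q.Prime]

/-- The 3-cochain `z` on `U` is inflated from `U / U'`: it is invariant under right translation
of all arguments by elements of `U'`, and its values are fixed by `U'`. -/
def h3f_IsInfl₃ (U U' : Subgroup (lcf_Gal q)) (z : ↥U × ↥U × ↥U → (PadicAlgCl q)ˣ) : Prop :=
  (∀ g h k s s' s'' : ↥U, (s : lcf_Gal q) ∈ U' → (s' : lcf_Gal q) ∈ U' →
      (s'' : lcf_Gal q) ∈ U' → z (g * s, h * s', k * s'') = z (g, h, k)) ∧
    ∀ g h k s : ↥U, (s : lcf_Gal q) ∈ U' → s • z (g, h, k) = z (g, h, k)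

end local_leaves

/-- **[LOC-H3]** local Tate in degree 3 at finite level: for `U' ≤ U` open, `U'` normal in `U`
(`E = K_{U'}` finite Galois over `K = K_U` with group `D = U/U'`), every 3-cocycle of `U` which
is inflated from `U/U'` is the coboundary of a 2-cochain which is inflated from `U/U'`
(`H³(D, Eˣ) = 0`).
PROOF.  `(D, Eˣ)` satisfies `fg_TateHyp` for the class of `lfund_fin` (invariant `1/#D`): for
every subgroup `D₁ = U₁/U'`, `H¹(D₁, Eˣ) = 0` (Hilbert 90, `lh90_main` / `lh3_H1Zero`), and
`inv ∘ infl : H²(D₁, Eˣ) → ℚ/ℤ` is injective ((I2) + injectivity of inflation, `lh3_inj`) with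
values killed by `#D₁` ((I1) and `#D₁ • H² = 0`), so `#H²(D₁, Eˣ) ≤ #D₁`: `fgT_tateHyp`.  Then
`fgH_H3`.  (helper5's `lh3_fund` is the case `U = ⊤`-levels normal over `ℚ_q`.) -/
def h3f_LocH3Statement : Prop :=
  ∀ inv : lcf_InvType, lcf_IsInvSystem inv →
    ∀ (q : ℕ) [Fact q.Prime] (U U' : Subgroup (lcf_Gal q)), lcf_IsOpen U' →
      spl_IsNormalIn U U' →
      ∀ z : ↥U × ↥U × ↥U → (PadicAlgCl q)ˣ, lcf_IsMulCocycle₃ U z → h3f_IsInfl₃ U U' z →
        ∃ f : ↥U × ↥U → (PadicAlgCl q)ˣ, spl_IsInfl U U' f ∧ lcf_d₂₃ U f = z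

/-- **[LOC-H3U]** the same for units in the unramified case: if `K_{U'}/K_U` is unramified
(`unr_IsUnrLevel`), every unit-valued 3-cocycle of `U` which is inflated from `U/U'` is the
coboundary of a unit-valued 2-cochain which is inflated from `U/U'`.
PROOF.  The units `O_Eˣ` of an unramified extension have `H¹(D₁, O_Eˣ) = H²(D₁, O_Eˣ) = 0` for
all subgroups `D₁` (helper29: `unr_h2u_main` and its `H¹` companion); twin criterion
`fgH_twin`. -/
def h3f_LocH3UStatement : Prop :=
  ∀ (q : ℕ) [Fact q.Prime] (U U' : Subgroup (lcf_Gal q)), lcf_IsOpen U' →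
    spl_IsNormalIn U U' → unr_IsUnrLevel U U' →
    ∀ z : ↥U × ↥U × ↥U → (PadicAlgCl q)ˣ, lcf_IsMulCocycle₃ U z → h3f_IsInfl₃ U U' z →
      (∀ x, ‖((z x : (PadicAlgCl q)ˣ) : PadicAlgCl q)‖ = 1) →
      ∃ f : ↥U × ↥U → (PadicAlgCl q)ˣ, spl_IsInfl U U' f ∧
        (∀ x, ‖((f x : (PadicAlgCl q)ˣ) : PadicAlgCl q)‖ = 1) ∧ lcf_d₂₃ U f = z

/-! ### Semi-local Shapiro in degree 3 (pure algebra) -/

section shapiro

variable {G H M A X : Type*} [Group G] [Group H] [AddCommGroup M]
  [DistribMulAction G M] [AddCommGroup A] [DistribMulAction H A]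

/-- The local hypothesis at `x₀` in degree 3: on the decomposition group of `x₀` the 3-cocycle
`z` is the coboundary of `β` (the analogue of helper10's `hss_Loc`). -/
def h3f_Loc₃ (S : hss_Sys G H M A X) (z : H × H × H → A) (x₀ : X) (β : H × H → M) : Prop :=
  ∀ (g h k : G) (σ τ ρ : H), S.tw g x₀ = S.rc x₀ σ → S.tw h x₀ = S.rc x₀ τ →
    S.tw k x₀ = S.rc x₀ ρ →
    g • β (τ, ρ) - β (σ * τ, ρ) + β (σ, τ * ρ) - β (σ, τ) = S.e x₀ (z (σ, τ, ρ))

end shapiro

/-- **[SHAP-3]** semi-local Shapiro (injectivity) in degree 3, in helper10's abstract system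
`hss_Sys` (Global/HasseAbs.lean): if a 3-cocycle `z` of `H` in `A` is, at every point `x₀`, the
coboundary of a 2-cochain `β` on the decomposition group, then there is a `G`-equivariant family
`B (τ, ρ) : X → M` (a semi-local idele for every pair) with `d B = e ∘ z`, where
`(σ • B (τ, ρ)) x = B (τ, ρ) (x ∘ σ)`.  Moreover `B` takes its values in any `G`-stable subgroup
`M₀` of `M` which contains the values of `e ∘ z` and of the local cochains `β`.
PROOF.  `Map_G(orbit of x₀, M₀) = Coind_D^H (M₀^{G_{x₀}})`, `D = hss_D S x₀`; Shapiro's lemma,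
explicitly with representatives of `D \ H` (`hss_exists_rep`) as in `hss_abs_main`, and the prism
identity of helper24's `shin_main₃`. -/
def h3f_Shap3Statement : Prop :=
  ∀ (G H M A X : Type) [Group G] [Group H] [AddCommGroup M] [DistribMulAction G M]
    [AddCommGroup A] [DistribMulAction H A] (S : hss_Sys G H M A X) (z : H × H × H → A),
    fg_IsCocycle₃ z →
    ∀ M₀ : AddSubgroup M, (∀ (g : G) (m : M), m ∈ M₀ → g • m ∈ M₀) →
      (∀ (x : X) (σ τ ρ : H), S.e x (z (σ, τ, ρ)) ∈ M₀) →
      (∀ x₀ : X, ∃ β : H × H → M, h3f_Loc₃ S z x₀ β ∧ ∀ y, β y ∈ M₀) →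
      ∃ B : H × H → X → M,
        (∀ (y : H × H) (g : G) (x : X), B y (S.tw g x) = g • B y x) ∧
        (∀ (σ τ ρ : H) (x : X),
          B (τ, ρ) (S.rc x σ) - B (σ * τ, ρ) x + B (σ, τ * ρ) x - B (σ, τ) x =
            S.e x (z (σ, τ, ρ))) ∧
        ∀ (y : H × H) (x : X), B y x ∈ M₀

/-! ### Idele-valued cochains -/

/-- **[J-H3]** `H³(H, J_F) = 0` on principal cocycles: the diagonal image of a 3-cocycle of `H`
with values in `Fˣ` is the coboundary of an idele-valued 2-cochain.
PROOF.  For each `q`: [SHAP-3] for helper10's system `hss_sys q F H` with the local cochains of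
[LOC-H3] at `U = gl_locU q F H ι`, `U' = gl_locU q F ⊥ ι` (`= gsup_U0`, the kernel of
`gl_locSigma`); `M₀ =` the elements of norm `1` and [LOC-H3U] at the almost all `q` where `F` is
unramified (`ramf_main`, `gsup_unram_adjoin`) and all values of `z` are units (`gdiag_finite`),
`M₀ = ⊤` at the others.  (Degree 2: `hss_semilocal`, `hss_ideles` of helper10.) -/
def h3f_JH3Statement : Prop :=
  ∀ inv : lcf_InvType, lcf_IsInvSystem inv →
    ∀ (F : Type) [Field F] [NumberField F] (H : Subgroup (F ≃ₐ[ℚ] F))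
      (z : ↥H × ↥H × ↥H → Additive Fˣ), fg_IsCocycle₃ z →
      ∃ j : ↥H × ↥H → Additive (gl_J F), ∀ (g h k : ↥H) (r : Nat.Primes),
        (g • j (h, k) - j (g * h, k) + j (g, h * k) - j (g, h)).toMul.1 r =
          gl_diagP F r (z (g, h, k)).toMul

/-- **[SUPP-GEN]** (= (X2) of board #950; shared with [AK-EXI]) helper16's [SUPP-ONE] without
the surjectivity hypothesis: every smooth 2-cocycle `f` of `gl_locU q F H ι` which is inflated
from the decomposition group of `ι` (constant modulo the kernel of `gl_locSigma`, values fixed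
by it) is the localisation at `ι` of an idele-valued 2-cocycle `c` of `H` whose components at
the other primes, and at the embeddings which do not define the same place of `K = F^H` as `ι`,
are trivial.
PROOF.  Shapiro's `E`-construction (surjectivity in degree 2) with representatives `s_x` of
`D \ H`, `s_ι = 1`, on the orbit of `ι`, extended by twist (`gso_fun`), `1` elsewhere. -/
def h3f_SuppGenStatement : Prop :=
  ∀ (F : Type) [Field F] [NumberField F] (H : Subgroup (F ≃ₐ[ℚ] F)) (q : ℕ) [Fact q.Prime]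
    (ι : F →ₐ[ℚ] PadicAlgCl q),
    ∀ f : ↥(gl_locU q F H ι) × ↥(gl_locU q F H ι) → (PadicAlgCl q)ˣ,
      lcf_IsCoc (gl_locU q F H ι) f →
      (∀ g g' u u' : ↥(gl_locU q F H ι), gl_locSigma q F H ι u = 1 →
        gl_locSigma q F H ι u' = 1 → f (g * u, g' * u') = f (g, g')) →
      (∀ (g g' u : ↥(gl_locU q F H ι)), gl_locSigma q F H ι u = 1 →
        (u : lcf_Gal q) • f (g, g') = f (g, g')) →
      ∃ c : ↥H × ↥H → Additive (gl_J F), IsCocycle₂ c ∧ gl_locJ q F H ι c = f ∧
        (∀ (x : ↥H × ↥H) (r : Nat.Primes), (r : ℕ) ≠ q → (c x).toMul.1 r = 1) ∧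
        ∀ (x : ↥H × ↥H) (ι' : F →ₐ[ℚ] PadicAlgCl q), ¬ (gl_placeKSetoid q F H).r ι ι' →
          (((c x).toMul.1 (⟨q, Fact.out⟩ : Nat.Primes) : gl_Jq q F)).1 ι' = 1

/-- **[SUPP-SUM]** idele-valued cocycles with prescribed sum of invariants: for every embedding
`ι` of `F` and every integer `y` there is an idele-valued 2-cocycle of `H` whose invariants sum
to `y / n_w`, `n_w = [gl_locU q F H ι : gl_locU q F ⊥ ι]` the order of the decomposition group
of `ι` in `H`.
PROOF.  `lfund_fin` for `U' = gl_locU q F ⊥ ι ≤ U = gl_locU q F H ι` gives `f₀` of invariant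
`1/n_w`; `f = f₀ ^ y` ((I1)); [SUPP-GEN]; the sum: at `r ≠ q` and at the places of `K` above `q`
different from the place of `ι` the localisation is the trivial cocycle (invariant `0`), at the
place of `ι` use `gic_main` ([INV-CONJ]) for the representative `Quotient.out`. -/
def h3f_SuppSumStatement : Prop :=
  ∀ inv : lcf_InvType, lcf_IsInvSystem inv →
    ∀ (F : Type) [Field F] [NumberField F] (H : Subgroup (F ≃ₐ[ℚ] F)) (q : ℕ) [Fact q.Prime]
      (ι : F →ₐ[ℚ] PadicAlgCl q) (y : ℤ),
      ∃ c : ↥H × ↥H → Additive (gl_J F), IsCocycle₂ c ∧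
        gl_sumJ inv F H c =
          lcf_qz ((y : ℚ) / (((gl_locU q F ⊥ ι).relIndex (gl_locU q F H ι) : ℕ) : ℚ))

/-! ### The core at finite level -/

section core

variable {F F' : Type} [Field F] [Field F'] [NumberField F] [NumberField F']
  {H : Subgroup (F ≃ₐ[ℚ] F)} {H' : Subgroup (F' ≃ₐ[ℚ] F')}

/-- Inflation of a 3-cochain with values in `Fˣ` along a tower. -/
def h3f_infl₃ (t : gl_Tower F F' H H') (z : ↥H × ↥H × ↥H → Additive Fˣ) :
    ↥H' × ↥H' × ↥H' → Additive F'ˣ :=
  fun x => Additive.ofMul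
    (Units.map (t.j : F →* F') (z (t.π x.1, t.π x.2.1, t.π x.2.2)).toMul)

end core

/-- **[H3-CORE]** for a tower `(F, H) ← (F', H')` with `H'` a `p`-group (`p` odd, `ζ_p ∈ F`)
such that the order of the decomposition group in `H'` of some embedding `ι'` of `F'` is
divisible by `#H`, the inflation to `H'` of every 3-cocycle of `H` with values in `Fˣ` is the
coboundary of a 2-cochain of `H'` with values in `F'ˣ`.  (Steps (2)-(5) of the file header.) -/
def h3f_CoreStatement : Prop :=
  ∀ inv : lcf_InvType, lcf_IsInvSystem inv →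
    ∀ (F F' : Type) [Field F] [Field F'] [NumberField F] [NumberField F'] (p : ℕ),
      p.Prime → p ≠ 2 → (∃ ζ : F, IsPrimitiveRoot ζ p) →
      ∀ (H : Subgroup (F ≃ₐ[ℚ] F)) (H' : Subgroup (F' ≃ₐ[ℚ] F')) (t : gl_Tower F F' H H'),
        IsPGroup p ↥H' →
        ∀ (q : ℕ) [Fact q.Prime] (ι' : F' →ₐ[ℚ] PadicAlgCl q),
          Nat.card ↥H ∣ (gl_locU q F' ⊥ ι').relIndex (gl_locU q F' H' ι') →
          ∀ z : ↥H × ↥H × ↥H → Additive Fˣ, fg_IsCocycle₃ z →
            fg_IsCoboundary₃ (h3f_infl₃ t z)

end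

end Fermat.Agent.S55
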