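/-
# S55 / GLOBAL, absolute level : [AK-UNR]

`aku_main : ak_UnrStatement` (the Prop of `Global/AbsDefs.lean`, verbatim): a 2-cocycle of
`U = G_K` of a level `F` which is unramified at `q`, with values which are units at `q`, has
local invariant `0` at every place `(q, g)` of `K`.

Route.  `V := ak_H K q g`, `V' := ak_H F q g`.  `V'` is open and normal in `V`; every inert
element of the local Galois group lies in `V'` (its image in `G_ℚ` is in the inertia group of
`padicPlace q`, conjugation by `g`, `ak_UnramAt`); hence `K_{V'} / K_V` is unramified in the value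
group form (`unr_isUnrLevel_of_inert`).  The localisation of the cocycle is inflated from
`V / V'` with `V'`-fixed unit values, so it is a smooth coboundary (`unr_h2u_isCob`), and the
invariant vanishes by (I2).
-/
import Mathlib
import Fermat.Agent.S55.Global.AbsDefs
import Fermat.Agent.S55.Local.UnrH2U
import Fermat.Agent.S55.Local.Krasner
import Fermat.Agent.S55.Bridge.FinLevelG

set_option autoImplicit false
set_option linter.style.haveILetI false

open scoped Pointwise

namespace Fermat.Agent.S55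

open groupCohomology

noncomputable section

local notation "Qbar" => AlgebraicClosure ℚ

/-! ### The place `padicPlace q` -/

section place

variable (q : ℕ) [Fact q.Prime]

theorem aku_mem_nonunits (x : Qbar) :
    x ∈ (padicPlace q).nonunits ↔ ‖padicEmbedding q x‖ < 1 := by
  rw [ValuationSubring.mem_nonunits_iff_or]
  constructor
  · rintro (rfl | h)
    · rw [map_zero, norm_zero]
      exact zero_lt_one
    · by_contra hge
      apply h
      rw [mem_padicPlace_iff, map_inv₀, nnnorm_inv]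
      have h1 : (1 : ℝ) ≤ ‖padicEmbedding q x‖ := not_lt.1 hge
      have h2 : ‖padicEmbedding q x‖⁻¹ ≤ 1 := inv_le_one_of_one_le₀ h1
      exact_mod_cast h2
  · intro h
    by_cases hx : x = 0
    · exact Or.inl hx
    · refine Or.inr fun hmem => ?_
      rw [mem_padicPlace_iff, map_inv₀, nnnorm_inv] at hmem
      have h0 : padicEmbedding q x ≠ 0 := fun h0 =>
        hx ((padicEmbedding q).toRingHom.injective (by rw [RingHom.map_zero]; exact h0))
      have h1 : ‖padicEmbedding q x‖⁻¹ ≤ 1 := by exact_mod_cast hmem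
      have h2 : 0 < ‖padicEmbedding q x‖ := norm_pos_iff.2 h0
      have h3 : 1 ≤ ‖padicEmbedding q x‖ := (inv_le_one₀ h2).1 h1
      exact absurd h (not_lt.2 h3)

theorem aku_liesOver : (padicPlace q).LiesOverPrime q := by
  show (q : Qbar) ∈ (padicPlace q).nonunits
  rw [aku_mem_nonunits, map_natCast]
  have h1 : ((q : ℕ) : PadicAlgCl q) = algebraMap ℚ_[q] (PadicAlgCl q) ((q : ℕ) : ℚ_[q]) := by
    rw [map_natCast]
  rw [h1, PadicAlgCl.norm_extends, Padic.norm_p]
  have hq1 : (1 : ℝ) < ((q : ℕ) : ℝ) := by exact_mod_cast (Fact.out : q.Prime).one_lt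
  exact inv_lt_one_of_one_lt₀ hq1

/-- The image in `G_ℚ` of an inert element of the local Galois group lies in the inertia group
of `padicPlace q`. -/
theorem aku_loc_inert (s : lcf_Gal q) (hs : lcf_IsInert s) :
    localGaloisToGlobal q s ∈ (padicPlace q).inertiaSubgroupIn ℚ := by
  apply Fermat.Agent.S14.redC_mem_inertia (padicPlace q) (Fact.out : q.Prime) (aku_liesOver q)
  intro b
  rw [aku_mem_nonunits, map_sub, padicEmbedding_localGaloisToGlobal]
  apply hs
  have h := Fermat.Agent.S14.redC_int_mem (padicPlace q) (b : Qbar) b.2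
  rw [mem_padicPlace_iff] at h
  exact_mod_cast h

/-- If `F` is unramified at `q`, every inert element of the local Galois group lies in the local
group `ak_H F q g` of every place above `q`. -/
theorem aku_inert_mem (F : IntermediateField ℚ Qbar) (hF : ak_UnramAt q F) (g : s55_GQ)
    (s : lcf_Gal q) (hs : lcf_IsInert s) : s ∈ ak_H F q g := by
  rw [ak_mem_H_iff]
  have h1 := brg_conj_inertia (padicPlace q) (Fact.out : q.Prime) (aku_liesOver q) g _
    (aku_loc_inert q s hs)
  exact hF (g⁻¹ • padicPlace q)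
    (Fermat.Agent.S14.redC_smul_liesOver g⁻¹ _ (aku_liesOver q)) h1

/-- The local group of a place of a finite extension of `ℚ` is open. -/
theorem aku_H_isOpen (K : IntermediateField ℚ Qbar) (hK : FiniteDimensional ℚ K) (g : s55_GQ) :
    lcf_IsOpen (ak_H K q g) := by
  haveI := hK
  have hfin : FiniteDimensional ℚ ↥(K.map (g : Qbar →ₐ[ℚ] Qbar)) :=
    FiniteDimensional.of_surjective (K.equivMap (g : Qbar →ₐ[ℚ] Qbar)).toLinearMap
      (K.equivMap _).surjective
  obtain ⟨E, hE, h⟩ := kras_conv q (K.map (g : Qbar →ₐ[ℚ] Qbar)) hfin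
  refine ⟨E, hE, fun τ hτ => ?_⟩
  rw [ak_mem_H_iff, IntermediateField.mem_fixingSubgroup_iff]
  intro x hx
  have h1 := (IntermediateField.mem_fixingSubgroup_iff _ _).1 (h τ hτ) (g x)
    ((IntermediateField.mem_map K).2 ⟨x, hx, rfl⟩)
  show g⁻¹ (localGaloisToGlobal q τ (g x)) = x
  have h2 : localGaloisToGlobal q τ (g x) = g x := h1
  rw [h2]
  exact g.symm_apply_apply x

end place

/-! ### Localisation of cochains -/

section loc

variable {q : ℕ} [Fact q.Prime] (K : IntermediateField ℚ Qbar) (g : s55_GQ)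

/-- Equivariance of the embedding `ι_q ∘ g` for the localisation map. -/
theorem aku_smul_emb (τ : ↥(ak_H K q g)) (x : Qbarˣ) :
    τ • ak_emb q g x = ak_emb q g (ak_r K q g τ • x) := by
  apply Units.ext
  show (τ : lcf_Gal q) (padicEmbedding q (g (x : Qbar))) =
    padicEmbedding q (g (((ak_r K q g τ : ↥K.fixingSubgroup) : s55_GQ) (x : Qbar)))
  rw [ak_r_coe]
  show _ = padicEmbedding q (g (g⁻¹ (localGaloisToGlobal q (τ : lcf_Gal q) (g (x : Qbar)))))
  rw [show g (g⁻¹ (localGaloisToGlobal q (τ : lcf_Gal q) (g (x : Qbar)))) =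
    localGaloisToGlobal q (τ : lcf_Gal q) (g (x : Qbar)) from g.apply_symm_apply _,
    padicEmbedding_localGaloisToGlobal]

theorem aku_loc₂_apply (f : ↥K.fixingSubgroup × ↥K.fixingSubgroup → Qbarˣ)
    (a b : ↥(ak_H K q g)) :
    ak_loc₂ K q g f (a, b) = ak_emb q g (f (ak_r K q g a, ak_r K q g b)) := rfl

theorem aku_loc₁_apply (b : ↥K.fixingSubgroup → Qbarˣ) (a : ↥(ak_H K q g)) :
    ak_loc₁ K q g b a = ak_emb q g (b (ak_r K q g a)) := rfl

/-- The localisation of a 2-cocycle is a 2-cocycle. -/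
theorem aku_loc₂_isMulCocycle (f : ↥K.fixingSubgroup × ↥K.fixingSubgroup → Qbarˣ)
    (hf : IsMulCocycle₂ f) : IsMulCocycle₂ (ak_loc₂ K q g f) := by
  intro a b c
  have e1 : ak_r K q g (a * b) = ak_r K q g a * ak_r K q g b := map_mul _ _ _
  have e2 : ak_r K q g (b * c) = ak_r K q g b * ak_r K q g c := map_mul _ _ _
  rw [aku_loc₂_apply, aku_loc₂_apply, aku_loc₂_apply, aku_loc₂_apply, aku_smul_emb,
    e1, e2, ← map_mul (ak_emb q g), ← map_mul (ak_emb q g), hf]

/-- The localisation of the coboundary of a 1-cochain. -/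
theorem aku_loc₂_d₁ (b : ↥K.fixingSubgroup → Qbarˣ) (x y : ↥(ak_H K q g)) :
    x • ak_loc₁ K q g b y / ak_loc₁ K q g b (x * y) * ak_loc₁ K q g b x =
      ak_loc₂ K q g (ak_d₁ K b) (x, y) := by
  rw [aku_loc₂_apply, aku_loc₁_apply, aku_loc₁_apply, aku_loc₁_apply, aku_smul_emb,
    map_mul (ak_r K q g), ← map_div, ← map_mul]
  rfl

variable {K}

theorem aku_r_mem {F : IntermediateField ℚ Qbar} (s : ↥(ak_H K q g))
    (hs : (s : lcf_Gal q) ∈ ak_H F q g) :
    ((ak_r K q g s : ↥K.fixingSubgroup) : s55_GQ) ∈ F.fixingSubgroup := by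
  rw [ak_r_coe]
  exact (ak_mem_H_iff F q g _).1 hs

theorem aku_H_mono {F : IntermediateField ℚ Qbar} (h : K ≤ F) : ak_H F q g ≤ ak_H K q g := by
  intro τ hτ
  rw [ak_mem_H_iff] at hτ ⊢
  exact IntermediateField.fixingSubgroup_le h hτ

/-- `ak_H F q g` is normal in `ak_H K q g` for a level `F` over `K`. -/
theorem aku_normalIn {F : IntermediateField ℚ Qbar} (hF : ak_IsLevel K F) :
    spl_IsNormalIn (ak_H K q g) (ak_H F q g) := by
  refine ⟨aku_H_mono g hF.le, fun a ha s hs => ?_⟩
  rw [ak_mem_H_iff] at ha hs ⊢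
  have hu : (g⁻¹ * localGaloisToGlobal q a * g)⁻¹ ∈ K.fixingSubgroup :=
    K.fixingSubgroup.inv_mem ha
  have h1 := hF.normal _ hu _ hs
  have e : g⁻¹ * localGaloisToGlobal q (a * s * a⁻¹) * g =
      (g⁻¹ * localGaloisToGlobal q a * g)⁻¹⁻¹ * (g⁻¹ * localGaloisToGlobal q s * g) *
        (g⁻¹ * localGaloisToGlobal q a * g)⁻¹ := by
    rw [map_mul, map_mul, map_inv]
    group
  rw [e]
  exact h1

/-- The localisation of a cochain of level `F` is inflated from `ak_H K q g / ak_H F q g`. -/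
theorem aku_loc₂_infl {F : IntermediateField ℚ Qbar}
    (f : ↥K.fixingSubgroup × ↥K.fixingSubgroup → Qbarˣ) (hlev : ak_Lev₂ K F f) :
    spl_IsInfl (ak_H K q g) (ak_H F q g) (ak_loc₂ K q g f) := by
  constructor
  · intro a b s s' hs hs'
    have e1 : ak_r K q g (a * s) = ak_r K q g a * ak_r K q g s := map_mul _ _ _
    have e2 : ak_r K q g (b * s') = ak_r K q g b * ak_r K q g s' := map_mul _ _ _
    rw [aku_loc₂_apply, aku_loc₂_apply, e1, e2,
      hlev.1 _ _ _ _ (aku_r_mem g s hs) (aku_r_mem g s' hs')]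
  · intro a b s hs
    rw [aku_loc₂_apply, aku_smul_emb]
    congr 1
    apply Units.ext
    exact (IntermediateField.mem_fixingSubgroup_iff _ _).1 (aku_r_mem g s hs) _ (hlev.2 _)

/-- The localisation of a 1-cochain which is constant modulo `G_F` is smooth. -/
theorem aku_loc₁_smooth {F : IntermediateField ℚ Qbar} (hF : FiniteDimensional ℚ F)
    (b : ↥K.fixingSubgroup → Qbarˣ) (hb : ak_Const₁ K F b) :
    lcf_Smooth₁ (ak_H K q g) (ak_loc₁ K q g b) := by
  obtain ⟨E, hE, hEF⟩ := aku_H_isOpen q F hF g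
  refine ⟨E, hE, fun a s hs => ?_⟩
  rw [aku_loc₁_apply, aku_loc₁_apply, map_mul (ak_r K q g), hb _ _ (aku_r_mem g s (hEF hs))]

/-- The localisation of a 2-cochain which is constant modulo `G_F` is smooth. -/
theorem aku_loc₂_smooth {F : IntermediateField ℚ Qbar} (hF : FiniteDimensional ℚ F)
    (f : ↥K.fixingSubgroup × ↥K.fixingSubgroup → Qbarˣ) (hf : ak_Const₂ K F f) :
    lcf_Smooth₂ (ak_H K q g) (ak_loc₂ K q g f) := by
  obtain ⟨E, hE, hEF⟩ := aku_H_isOpen q F hF g
  refine ⟨E, hE, fun a b s s' hs hs' => ?_⟩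
  have e1 : ak_r K q g (a * s) = ak_r K q g a * ak_r K q g s := map_mul _ _ _
  have e2 : ak_r K q g (b * s') = ak_r K q g b * ak_r K q g s' := map_mul _ _ _
  rw [aku_loc₂_apply, aku_loc₂_apply, e1, e2,
    hf _ _ _ _ (aku_r_mem g s (hEF hs)) (aku_r_mem g s' (hEF hs'))]

/-- The localisation of a 2-cocycle which is constant modulo `G_F` is a smooth 2-cocycle. -/
theorem aku_loc₂_isCoc {F : IntermediateField ℚ Qbar} (hF : FiniteDimensional ℚ F)
    (f : ↥K.fixingSubgroup × ↥K.fixingSubgroup → Qbarˣ) (hc : IsMulCocycle₂ f)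
    (hf : ak_Const₂ K F f) : lcf_IsCoc (ak_H K q g) (ak_loc₂ K q g f) :=
  ⟨aku_loc₂_isMulCocycle K g f hc, aku_loc₂_smooth g hF f hf⟩

/-- The localisation of the coboundary of a 1-cochain which is constant modulo `G_F` is a
smooth coboundary. -/
theorem aku_loc₂_isCob {F : IntermediateField ℚ Qbar} (hF : FiniteDimensional ℚ F)
    (b : ↥K.fixingSubgroup → Qbarˣ) (hb : ak_Const₁ K F b) :
    lcf_IsCob (ak_H K q g) (ak_loc₂ K q g (ak_d₁ K b)) :=
  ⟨ak_loc₁ K q g b, aku_loc₁_smooth g hF b hb, fun x y => aku_loc₂_d₁ K g b x y⟩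

end loc

/-! ### The main theorem -/

/-- **[AK-UNR]** -/
theorem aku_main : ak_UnrStatement := by
  intro inv hinv K F hK hlevel q _ hunr f hf hlev hunit g
  have hV : lcf_IsOpen (ak_H K q g) := aku_H_isOpen q K hK g
  have hV' : lcf_IsOpen (ak_H F q g) := aku_H_isOpen q F hlevel.fin g
  have hu : unr_IsUnrLevel (ak_H K q g) (ak_H F q g) :=
    unr_isUnrLevel_of_inert hV (fun s hs => aku_inert_mem q F hunr g s hs)
  have hcob : lcf_IsCob (ak_H K q g) (ak_loc₂ K q g f) :=
    unr_h2u_isCob _ _ hV' (aku_normalIn g hlevel) hu _ (aku_loc₂_isMulCocycle K g f hf)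
      (aku_loc₂_infl g f hlev) (fun a b => hunit _ g)
  exact (hinv.eq_zero_iff q _ hV _ (aku_loc₂_isCoc g hlevel.fin f hf hlev.1)).2 hcob

end

end Fermat.Agent.S55
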