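/-
S55 (fifth wave), GLOBAL side, absolute level, package [P-TOWER] (helper1): INTERFACE FILE.

The cyclotomic `p`-tower over a finite extension `K ∋ ζ_p` of `ℚ` (`p` odd): for a primitive
`p^m`-th root of unity `ζ ∈ ℚ̄` the field `ptw_F K ζ = K(ζ)` is a level over `K` (`ak_IsLevel`), a
`p`-level (`ak_IsPLevel`), cyclic over `K`, unramified outside `S` whenever `K` is (`p ∈ S`)
[`ptw_LevelStatement`], and the local degrees `[K(ζ)_w : K_w]` at finitely many given places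
of `K` are divisible by any given power of `p` as soon as `m` is large [`ptw_DegreeStatement`].
`ptw_Statement` is the combined existence statement consumed by [FLK-EXI] and [FLK-H3F].

Definitions and `Prop`s only.
-/
import Mathlib
import Fermat.Agent.S55.Global.AbsDefs

set_option autoImplicit false

namespace Fermat.Agent.S55

noncomputable section

local notation "Qbar" => AlgebraicClosure ℚ

/-- The field `K(ζ)`. -/
def ptw_F (K : IntermediateField ℚ Qbar) (ζ : Qbar) : IntermediateField ℚ Qbar :=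
  K ⊔ IntermediateField.adjoin ℚ {ζ}

/-- `F / K` is cyclic (elementwise form): `G_K` is generated by one element modulo `G_F`. -/
def ptw_IsCyc (K F : IntermediateField ℚ Qbar) : Prop :=
  ∃ σ : s55_GQ, σ ∈ K.fixingSubgroup ∧
    ∀ u : s55_GQ, u ∈ K.fixingSubgroup → ∃ i : ℕ, u⁻¹ * σ ^ i ∈ F.fixingSubgroup

/-- **[P-TOWER], level part**: for EVERY `m` and every primitive `p^m`-th root of unity `ζ` the
field `K(ζ)` is a cyclic `p`-level over `K ∋ ζ_p`, unramified outside `S ∋ p` whenever `K` is.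
(`u ζ = ζ ^ a(u)` defines an injection `G_K / G_{K(ζ)} → ker ((ℤ/p^m)ˣ → (ℤ/p)ˣ)`, a cyclic group
of order `p^(m-1)` for `p` odd; an inertia element at `q ≠ p` fixes the roots of unity of
`p`-power order, because `1 - μ` divides `p` for every root of unity `μ ≠ 1` of `p`-power
order.) -/
def ptw_LevelStatement : Prop :=
  ∀ (p : ℕ) (hp : p.Prime), p ≠ 2 →
    ∀ (K : IntermediateField ℚ Qbar), FiniteDimensional ℚ K →
      (∃ ζ : Qbar, IsPrimitiveRoot ζ p ∧ ζ ∈ K) →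
      ∀ (m : ℕ) (ζ : Qbar), IsPrimitiveRoot ζ (p ^ m) →
        ak_IsLevel K (ptw_F K ζ) ∧ ak_IsPLevel K (ptw_F K ζ) p ∧ ptw_IsCyc K (ptw_F K ζ) ∧
          ∀ S : Finset Nat.Primes, (⟨p, hp⟩ : Nat.Primes) ∈ S → K.IsUnramifiedOutside S →
            (ptw_F K ζ).IsUnramifiedOutside S

/-- **[P-TOWER], degree part**: for finitely many places `w = (q, g)` of `K ∋ ζ_p` and every `k`
the local degree of `K(ζ_{p^m}) / K` at `w` is divisible by `p ^ k` for all large `m`.
(The local degree is `p ^ b` with `ζ_w ^ (p^b) ∈ K_w` [`a ≡ 1 mod p`, `a ^ (p^b) = 1` in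
`(ℤ/p^m)ˣ` implies `a ≡ 1 mod p^(m-b)`, `p` odd], and the local field `K_w` contains a primitive
`p^j`-th root of unity only for `j ≤ c(w)`: for `q ≠ p` the roots of unity of `p`-power order are
pairwise incongruent modulo the maximal ideal and the residue field is finite; for `q = p`
`‖1 - η‖ ^ φ(p^j) = ‖p‖` and the value group of `K_w` is discrete.) -/
def ptw_DegreeStatement : Prop :=
  ∀ (p : ℕ), p.Prime → p ≠ 2 →
    ∀ (K : IntermediateField ℚ Qbar), FiniteDimensional ℚ K →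
      (∃ ζ : Qbar, IsPrimitiveRoot ζ p ∧ ζ ∈ K) →
      ∀ (T : Finset (Nat.Primes × s55_GQ)) (k : ℕ), ∃ m₀ : ℕ, ∀ m : ℕ, m₀ ≤ m →
        ∀ ζ : Qbar, IsPrimitiveRoot ζ (p ^ m) → ∀ w ∈ T,
          letI : Fact (w.1 : ℕ).Prime := ⟨w.1.2⟩
          p ^ k ∣ (ak_H (ptw_F K ζ) (w.1 : ℕ) w.2).relIndex (ak_H K (w.1 : ℕ) w.2)

/-- **[P-TOWER]** (combined): for `K ∋ ζ_p` finite over `ℚ`, `p` odd, a finite set `T` of places
and `k` there is a cyclic `p`-level `F = K(ζ_{p^m})` over `K`, unramified outside `S ∋ p`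
whenever `K` is, whose local degrees at the places of `T` are divisible by `p ^ k`. -/
def ptw_Statement : Prop :=
  ∀ (p : ℕ) (hp : p.Prime), p ≠ 2 →
    ∀ (K : IntermediateField ℚ Qbar), FiniteDimensional ℚ K →
      (∃ ζ : Qbar, IsPrimitiveRoot ζ p ∧ ζ ∈ K) →
      ∀ (T : Finset (Nat.Primes × s55_GQ)) (k : ℕ),
        ∃ (m : ℕ) (ζ : Qbar), IsPrimitiveRoot ζ (p ^ m) ∧
          ak_IsLevel K (ptw_F K ζ) ∧ ak_IsPLevel K (ptw_F K ζ) p ∧ ptw_IsCyc K (ptw_F K ζ) ∧
          (∀ S : Finset Nat.Primes, (⟨p, hp⟩ : Nat.Primes) ∈ S → K.IsUnramifiedOutside S →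
            (ptw_F K ζ).IsUnramifiedOutside S) ∧
          ∀ w ∈ T,
            letI : Fact (w.1 : ℕ).Prime := ⟨w.1.2⟩
            p ^ k ∣ (ak_H (ptw_F K ζ) (w.1 : ℕ) w.2).relIndex (ak_H K (w.1 : ℕ) w.2)

/-- The combined statement follows from the two parts (and the existence of primitive roots of
unity in `ℚ̄`). -/
theorem ptw_of (hL : ptw_LevelStatement) (hD : ptw_DegreeStatement) : ptw_Statement := by
  intro p hp hp2 K hK hζ T k
  obtain ⟨m₀, hm₀⟩ := hD p hp hp2 K hK hζ T k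
  have : NeZero ((p ^ m₀ : ℕ) : Qbar) := ⟨by
    have : (p ^ m₀ : ℕ) ≠ 0 := pow_ne_zero _ hp.ne_zero
    exact_mod_cast this⟩
  obtain ⟨ζ, hζ'⟩ := HasEnoughRootsOfUnity.exists_primitiveRoot Qbar (p ^ m₀)
  obtain ⟨h1, h2, h3, h4⟩ := hL p hp hp2 K hK hζ m₀ ζ hζ'
  exact ⟨m₀, ζ, hζ', h1, h2, h3, h4, hm₀ m₀ le_rfl ζ hζ'⟩

end

end Fermat.Agent.S55
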