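/-
# S55 / GLOBAL, absolute level : [P-TOWER], level part

`ptw_level : ptw_LevelStatement` (the Prop of `Global/PTowerDefs.lean`, verbatim): for a finite
extension `K ∋ ζ_p` of `ℚ` (`p` odd) and a primitive `p^m`-th root of unity `ζ ∈ ℚ̄` the field
`K(ζ)` is a cyclic `p`-level over `K`, unramified outside `S ∋ p` whenever `K` is.

The character `χ = ptw_chi hζ : G_ℚ → (ℤ/p^m)ˣ`, `g ζ = ζ ^ χ(g)` (Mathlib's `autToPow`):
`G_{K(ζ)} = G_K ⊓ ker χ`, `χ(u) ≡ 1 mod p` for `u ∈ G_K` (so `χ(u) ^ (p^m) = 1`), `(ℤ/p^m)ˣ` is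
cyclic for `p` odd, and `χ` kills the inertia groups at the primes `q ≠ p`.
-/
import Mathlib
import Fermat.Agent.S55.Global.PTowerDefs
import Fermat.Agent.S05.Inertia

set_option autoImplicit false
set_option linter.style.haveILetI false

namespace Fermat.Agent.S55

noncomputable section

local notation "Qbar" => AlgebraicClosure ℚ

/-! ### Arithmetic in `ℤ/p^m` -/

section arith

/-- Lifting the exponent: `a ≡ 1 mod p`, `a ^ (p^b) ≡ 1 mod p^m` imply `a ≡ 1 mod p^(m-b)`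
(`p` odd). -/
theorem ptw_lte {p : ℕ} (hp : p.Prime) (hp2 : p ≠ 2) (a : ℤ) (b m : ℕ)
    (h1 : (p : ℤ) ∣ a - 1) (h2 : (p : ℤ) ^ m ∣ a ^ p ^ b - 1) : (p : ℤ) ^ (m - b) ∣ a - 1 := by
  have hpi : Prime (p : ℤ) := Nat.prime_iff_prime_int.1 hp
  have hodd : Odd p := hp.odd_of_ne_two hp2
  have hna : ¬ (p : ℤ) ∣ a := by
    intro h
    have h3 : (p : ℤ) ∣ 1 := by
      have := dvd_sub h h1
      simpa using this
    exact hpi.not_dvd_one h3
  have key := emultiplicity_pow_prime_pow_sub_pow_prime_pow (R := ℤ) (p := p) (x := a) (y := 1)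
    hpi hodd h1 hna b
  rw [one_pow] at key
  have h3 : (m : ℕ∞) ≤ emultiplicity (p : ℤ) (a ^ p ^ b - 1) :=
    le_emultiplicity_of_pow_dvd h2
  rw [key] at h3
  apply pow_dvd_of_le_emultiplicity
  by_cases hmb : m ≤ b
  · rw [Nat.sub_eq_zero_of_le hmb]
    exact bot_le
  · rw [not_le] at hmb
    have h4 : ((m - b : ℕ) : ℕ∞) + (b : ℕ∞) ≤ emultiplicity (p : ℤ) (a - 1) + (b : ℕ∞) := by
      have : ((m - b : ℕ) : ℕ∞) + (b : ℕ∞) = (m : ℕ∞) := by
        rw [← Nat.cast_add, Nat.sub_add_cancel hmb.le]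
      rw [this]
      exact h3
    exact (ENat.add_le_add_iff_right (ENat.natCast_ne_top b)).1 h4

/-- In `ℤ/p^m`: `x ≡ 1 mod p` implies `x ^ (p^m) = 1`. -/
theorem ptw_pow_eq_one {p : ℕ} (m : ℕ) (a : ℤ) (h1 : (p : ℤ) ∣ a - 1) :
    ((a : ZMod (p ^ m)) ^ p ^ m) = 1 := by
  have h := dvd_sub_pow_of_dvd_sub (R := ℤ) (p := p) (a := a) (b := 1) h1 m
  rw [one_pow] at h
  have h2 : ((p ^ m : ℕ) : ℤ) ∣ a ^ p ^ m - 1 := by
    refine Dvd.dvd.trans ?_ h
    rw [Nat.cast_pow]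
    exact pow_dvd_pow _ (Nat.le_succ m)
  have h3 := (ZMod.intCast_zmod_eq_zero_iff_dvd (a ^ p ^ m - 1) (p ^ m)).2 h2
  rw [Int.cast_sub, Int.cast_pow, Int.cast_one, sub_eq_zero] at h3
  exact h3

end arith

/-! ### The cyclotomic character attached to a primitive root of unity -/

section char

variable {n : ℕ} [NeZero n] {ζ : Qbar} (hζ : IsPrimitiveRoot ζ n)

/-- The cyclotomic character modulo `n` attached to the primitive `n`-th root of unity `ζ`. -/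
def ptw_chi : s55_GQ →* (ZMod n)ˣ := hζ.autToPow ℚ

theorem ptw_chi_spec (g : s55_GQ) :
    g ζ = ζ ^ ((ptw_chi hζ g : (ZMod n)ˣ) : ZMod n).val :=
  (hζ.autToPow_spec ℚ g).symm

include hζ in
theorem ptw_pow_eq_pow_iff (i j : ℕ) :
    ζ ^ i = ζ ^ j ↔ ((i : ℕ) : ZMod n) = ((j : ℕ) : ZMod n) := by
  have hu : IsUnit ζ := hζ.isUnit (NeZero.ne n)
  obtain ⟨u, rfl⟩ := hu
  have ho : orderOf u = n := by
    rw [← orderOf_units, ← hζ.eq_orderOf]
  rw [ZMod.natCast_eq_natCast_iff, ← ho, ← pow_eq_pow_iff_modEq, ← Units.val_pow_eq_pow_val,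
    ← Units.val_pow_eq_pow_val, Units.val_inj]

theorem ptw_chi_eq_one_iff (g : s55_GQ) : ptw_chi hζ g = 1 ↔ g ζ = ζ := by
  have h1 : g ζ = ζ ↔ ζ ^ ((ptw_chi hζ g : (ZMod n)ˣ) : ZMod n).val = ζ ^ 1 := by
    rw [← ptw_chi_spec hζ g, pow_one]
  rw [h1, ptw_pow_eq_pow_iff hζ, ZMod.natCast_zmod_val, Nat.cast_one]
  exact ⟨fun h => by rw [h]; rfl, fun h => Units.ext h⟩

/-- An automorphism fixing `x` fixes `ℚ(x)` pointwise. -/
theorem ptw_fix_adjoin (g : s55_GQ) (x : Qbar) (hx : g x = x) :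
    g ∈ (IntermediateField.adjoin ℚ {x}).fixingSubgroup := by
  rw [IntermediateField.mem_fixingSubgroup_iff]
  intro y hy
  have h : ((g : Qbar →ₐ[ℚ] Qbar).comp (IntermediateField.adjoin ℚ {x}).val) =
      (IntermediateField.adjoin ℚ {x}).val := by
    apply IntermediateField.adjoin_algHom_ext
    intro z hz
    rw [Set.mem_singleton_iff] at hz
    subst hz
    simpa using hx
  exact DFunLike.congr_fun h ⟨y, hy⟩

/-- `G_{K(ζ)} = G_K ⊓ ker χ`. -/
theorem ptw_mem_fix_iff (K : IntermediateField ℚ Qbar) (g : s55_GQ) :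
    g ∈ (ptw_F K ζ).fixingSubgroup ↔ g ∈ K.fixingSubgroup ∧ ptw_chi hζ g = 1 := by
  unfold ptw_F
  rw [IntermediateField.fixingSubgroup_sup, Subgroup.mem_inf, ptw_chi_eq_one_iff]
  constructor
  · rintro ⟨h1, h2⟩
    exact ⟨h1, (IntermediateField.mem_fixingSubgroup_iff _ _).1 h2 ζ
      (IntermediateField.subset_adjoin ℚ {ζ} (Set.mem_singleton ζ))⟩
  · rintro ⟨h1, h2⟩
    exact ⟨h1, ptw_fix_adjoin g ζ h2⟩

end char

section modp

variable {p : ℕ}

/-- For `u ∈ G_K`, `K ∋ ζ_p`: `χ(u) ≡ 1 mod p`. -/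
theorem ptw_chi_modp (hp : p.Prime) {m : ℕ} {ζ : Qbar}
    (hζ : haveI : NeZero (p ^ (m + 1)) := ⟨pow_ne_zero _ hp.ne_zero⟩; IsPrimitiveRoot ζ (p ^ (m + 1)))
    (K : IntermediateField ℚ Qbar) (hK : ∃ ζ' : Qbar, IsPrimitiveRoot ζ' p ∧ ζ' ∈ K)
    (u : s55_GQ) (hu : u ∈ K.fixingSubgroup) :
    haveI : NeZero (p ^ (m + 1)) := ⟨pow_ne_zero _ hp.ne_zero⟩
    (p : ℤ) ∣ ((((ptw_chi hζ u : (ZMod (p ^ (m + 1)))ˣ) : ZMod (p ^ (m + 1))).val : ℕ) : ℤ) - 1 := by
  haveI : NeZero (p ^ (m + 1)) := ⟨pow_ne_zero _ hp.ne_zero⟩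
  haveI : NeZero p := ⟨hp.ne_zero⟩
  set a : ℕ := ((ptw_chi hζ u : (ZMod (p ^ (m + 1)))ˣ) : ZMod (p ^ (m + 1))).val with ha
  -- the primitive `p`-th root of unity `ζ ^ (p^m)` lies in `K`
  have hζp : IsPrimitiveRoot (ζ ^ p ^ m) p :=
    hζ.pow (pow_pos hp.pos _) (pow_succ p m)
  obtain ⟨ζ', hζ', hmem⟩ := hK
  obtain ⟨i, -, hi⟩ := hζ'.eq_pow_of_pow_eq_one hζp.pow_eq_one
  have hmemp : ζ ^ p ^ m ∈ K := by
    rw [← hi]
    exact pow_mem hmem i
  have hfix : u (ζ ^ p ^ m) = ζ ^ p ^ m :=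
    (IntermediateField.mem_fixingSubgroup_iff _ _).1 hu _ hmemp
  rw [map_pow, ptw_chi_spec hζ u, ← pow_mul, ptw_pow_eq_pow_iff hζ] at hfix
  -- `a * p^m ≡ p^m mod p^(m+1)`
  have h1 := (ZMod.natCast_eq_natCast_iff _ _ _).1 hfix
  have h2 := (Nat.modEq_iff_dvd.1 h1.symm)
  -- `p^(m+1) ∣ a p^m - p^m`
  have h3 : ((p : ℤ) ^ m) * (p : ℤ) ∣ ((p : ℤ) ^ m) * ((a : ℤ) - 1) := by
    have h4 : ((p ^ (m + 1) : ℕ) : ℤ) = (p : ℤ) ^ m * (p : ℤ) := by
      push_cast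
      rw [pow_succ]
    have h5 : (((a * p ^ m : ℕ) : ℤ) - ((p ^ m : ℕ) : ℤ)) = (p : ℤ) ^ m * ((a : ℤ) - 1) := by
      push_cast
      ring
    rw [← h4, ← h5]
    exact h2
  exact (mul_dvd_mul_iff_left (pow_ne_zero m (by exact_mod_cast hp.ne_zero))).1 h3

end modp

/-! ### Inertia at `q ≠ p` fixes the roots of unity of `p`-power order -/

section inertia

variable {p : ℕ}

/-- A root of unity has valuation `1`. -/
theorem ptw_val_root (A : ValuationSubring Qbar) {t : Qbar} {n : ℕ} (hn : n ≠ 0)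
    (ht : t ^ n = 1) : A.valuation t = 1 := by
  have h := congrArg A.valuation ht
  rw [map_pow, map_one] at h
  rcases pow_eq_one_iff.1 h with h1 | h1
  · exact h1
  · exact absurd h1 hn

/-- `p` is the product of `1 - ν` over the primitive `p^(i+1)`-th roots of unity. -/
theorem ptw_prod_one_sub (hp : p.Prime) {i : ℕ} {μ : Qbar}
    (hμ : IsPrimitiveRoot μ (p ^ (i + 1))) :
    (p : Qbar) = ∏ ν ∈ primitiveRoots (p ^ (i + 1)) Qbar, (1 - ν) := by
  haveI : Fact p.Prime := ⟨hp⟩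
  have h1 := Polynomial.cyclotomic_eq_prod_X_sub_primitiveRoots hμ
  have h2 := congrArg (Polynomial.eval (1 : Qbar)) h1
  rw [Polynomial.eval_one_cyclotomic_prime_pow, Polynomial.eval_prod] at h2
  simpa using h2

/-- An inertia element at a prime `q ≠ p` fixes every root of unity of `p`-power order. -/
theorem ptw_inertia_fix (hp : p.Prime) {q : ℕ} (hq : q.Prime) (hqp : q ≠ p)
    (A : ValuationSubring Qbar) (hA : A.LiesOverPrime q) (τ : s55_GQ)
    (hτ : τ ∈ A.inertiaSubgroupIn ℚ) (j : ℕ) (t : Qbar) (ht : t ^ p ^ j = 1) : τ t = t := by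
  classical
  by_contra hne
  have hpj : p ^ j ≠ 0 := pow_ne_zero _ hp.ne_zero
  have ht0 : t ≠ 0 := by
    rintro rfl
    rw [zero_pow hpj] at ht
    exact zero_ne_one ht
  set μ : Qbar := τ t * t⁻¹ with hμ
  have hτt : (τ t) ^ p ^ j = 1 := by rw [← map_pow, ht, map_one]
  have hμp : μ ^ p ^ j = 1 := by
    rw [hμ, mul_pow, inv_pow, hτt, ht]
    simp
  have hμ1 : μ ≠ 1 := by
    intro h
    apply hne
    rw [hμ] at h
    field_simp at h
    exact h
  -- the order of `μ` is `p ^ (i + 1)`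
  obtain ⟨i, -, hi⟩ := (Nat.dvd_prime_pow hp).1 (orderOf_dvd_of_pow_eq_one hμp)
  have hi0 : i ≠ 0 := by
    rintro rfl
    rw [pow_zero, orderOf_eq_one_iff] at hi
    exact hμ1 hi
  obtain ⟨i', rfl⟩ := Nat.exists_eq_succ_of_ne_zero hi0
  have hprim : IsPrimitiveRoot μ (p ^ (i' + 1)) := by
    have := IsPrimitiveRoot.orderOf μ
    rwa [hi] at this
  have hpos : 0 < p ^ (i' + 1) := pow_pos hp.pos _
  have hmem : μ ∈ primitiveRoots (p ^ (i' + 1)) Qbar := (mem_primitiveRoots hpos).2 hprim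
  -- valuations
  have hvt : A.valuation t = 1 := ptw_val_root A hpj ht
  have hlt : A.valuation (1 - μ) < 1 := by
    have h1 := Fermat.Agent.S05.inertia_sub_lt_one A τ hτ t hvt.le
    have h2 : (1 - μ) = -((τ t - t) * t⁻¹) := by
      rw [hμ]
      field_simp
      ring
    rw [h2, Valuation.map_neg, map_mul, map_inv₀, hvt, inv_one, mul_one]
    exact h1
  have hle : ∀ ν ∈ primitiveRoots (p ^ (i' + 1)) Qbar, A.valuation (1 - ν) ≤ 1 := by
    intro ν hν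
    have hν' := ((mem_primitiveRoots hpos).1 hν).pow_eq_one
    have h1 := ptw_val_root A hpos.ne' hν'
    calc A.valuation (1 - ν) ≤ max (A.valuation 1) (A.valuation ν) := Valuation.map_sub _ _ _
      _ = 1 := by rw [map_one, h1, max_self]
  have hprod : A.valuation (p : Qbar) < 1 := by
    rw [ptw_prod_one_sub hp hprim, map_prod, ← Finset.mul_prod_erase _ _ hmem]
    calc A.valuation (1 - μ) * ∏ x ∈ (primitiveRoots (p ^ (i' + 1)) Qbar).erase μ,
          A.valuation (1 - x)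
        ≤ A.valuation (1 - μ) * 1 := by
          refine mul_le_mul_right (Finset.prod_le_one' (fun ν hν => ?_)) _
          exact hle ν (Finset.mem_of_mem_erase hν)
      _ < 1 := by rw [mul_one]; exact hlt
  have hone : A.valuation (((p : ℤ) : ℚ) : Qbar) = 1 := by
    refine Fermat.Agent.S05.valuation_intCast_eq_one A hq hA (p : ℤ) ?_
    intro hdvd
    have h3 : q ∣ p := by exact_mod_cast hdvd
    exact hqp ((Nat.prime_dvd_prime_iff_eq hq hp).1 h3)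
  have hcast : ((((p : ℤ) : ℚ)) : Qbar) = (p : Qbar) := by push_cast; rfl
  rw [hcast] at hone
  rw [hone] at hprod
  exact lt_irrefl _ hprod

end inertia

/-! ### The level statement -/

section level

variable {p : ℕ}

/-- `K(ζ)` is a level over `K`. -/
theorem ptw_isLevel {n : ℕ} [NeZero n] {ζ : Qbar} (hζ : IsPrimitiveRoot ζ n)
    (K : IntermediateField ℚ Qbar) (hK : FiniteDimensional ℚ K) : ak_IsLevel K (ptw_F K ζ) := by
  refine ⟨le_sup_left, ?_, ?_⟩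
  · haveI : FiniteDimensional ℚ (IntermediateField.adjoin ℚ {ζ}) :=
      IntermediateField.adjoin.finiteDimensional (hζ.isIntegral (NeZero.pos n)).tower_top
    exact IntermediateField.finiteDimensional_sup K _
  · intro u hu s hs
    rw [ptw_mem_fix_iff hζ] at hs ⊢
    refine ⟨K.fixingSubgroup.mul_mem
      (K.fixingSubgroup.mul_mem (K.fixingSubgroup.inv_mem hu) hs.1) hu, ?_⟩
    rw [map_mul, map_mul, hs.2, mul_one, map_inv, inv_mul_cancel]

/-- The restriction of the cyclotomic character to `G_K`. -/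
def ptw_psi {n : ℕ} [NeZero n] {ζ : Qbar} (hζ : IsPrimitiveRoot ζ n)
    (K : IntermediateField ℚ Qbar) : ↥K.fixingSubgroup →* (ZMod n)ˣ :=
  (ptw_chi hζ).comp K.fixingSubgroup.subtype

theorem ptw_psi_ker {n : ℕ} [NeZero n] {ζ : Qbar} (hζ : IsPrimitiveRoot ζ n)
    (K : IntermediateField ℚ Qbar) :
    (ptw_psi hζ K).ker = (ptw_F K ζ).fixingSubgroup.subgroupOf K.fixingSubgroup := by
  ext u
  rw [MonoidHom.mem_ker, Subgroup.mem_subgroupOf, ptw_mem_fix_iff hζ]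
  exact ⟨fun h => ⟨u.2, h⟩, fun h => h.2⟩

/-- For `u ∈ G_K`, `K ∋ ζ_p`: `χ(u) ^ (p^m) = 1` in `(ℤ/p^m)ˣ`. -/
theorem ptw_chi_pow (hp : p.Prime) {m : ℕ} {ζ : Qbar}
    (hζ : haveI : NeZero (p ^ m) := ⟨pow_ne_zero _ hp.ne_zero⟩; IsPrimitiveRoot ζ (p ^ m))
    (K : IntermediateField ℚ Qbar) (hK : ∃ ζ' : Qbar, IsPrimitiveRoot ζ' p ∧ ζ' ∈ K)
    (u : s55_GQ) (hu : u ∈ K.fixingSubgroup) :
    haveI : NeZero (p ^ m) := ⟨pow_ne_zero _ hp.ne_zero⟩
    (ptw_chi hζ u) ^ p ^ m = 1 := by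
  haveI : NeZero (p ^ m) := ⟨pow_ne_zero _ hp.ne_zero⟩
  cases m with
  | zero =>
    haveI : Subsingleton (ZMod (p ^ 0))ˣ := by
      rw [pow_zero]
      infer_instance
    exact Subsingleton.elim _ _
  | succ m =>
    have h1 := ptw_chi_modp hp hζ K hK u hu
    have h2 := ptw_pow_eq_one (p := p) (m + 1) _ h1
    apply Units.ext
    rw [Units.val_pow_eq_pow_val, Units.val_one]
    rw [Int.cast_natCast, ZMod.natCast_zmod_val] at h2
    exact h2

/-- **[P-TOWER], level part.** -/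
theorem ptw_level : ptw_LevelStatement := by
  intro p hp hp2 K hK hKζ m ζ hζ
  haveI : NeZero (p ^ m) := ⟨pow_ne_zero _ hp.ne_zero⟩
  haveI : Fact p.Prime := ⟨hp⟩
  have hlev : ak_IsLevel K (ptw_F K ζ) := ptw_isLevel hζ K hK
  refine ⟨hlev, ?_, ?_, ?_⟩
  · -- a `p`-level
    have hP : IsPGroup p ↥(ptw_psi hζ K).range := by
      rintro ⟨x, u, rfl⟩
      refine ⟨m, ?_⟩
      apply Subtype.ext
      rw [SubgroupClass.coe_pow, Subgroup.coe_one]
      exact ptw_chi_pow hp hζ K hKζ (u : s55_GQ) u.2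
    obtain ⟨n, hn⟩ := hP.exists_card_eq
    refine ⟨n, ?_⟩
    rw [← ptw_psi_ker hζ K, Subgroup.index_ker, hn]
  · -- cyclic
    haveI : IsCyclic (ZMod (p ^ m))ˣ := ZMod.isCyclic_units_of_prime_pow p hp hp2 m
    obtain ⟨⟨x, σ, rfl⟩, hx⟩ := IsCyclic.exists_generator (α := ↥(ptw_psi hζ K).range)
    refine ⟨(σ : s55_GQ), σ.2, ?_⟩
    intro u hu
    have h1 := hx ⟨ptw_psi hζ K ⟨u, hu⟩, ⟨u, hu⟩, rfl⟩
    rw [← mem_powers_iff_mem_zpowers] at h1
    obtain ⟨i, hi⟩ := h1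
    refine ⟨i, ?_⟩
    rw [ptw_mem_fix_iff hζ]
    refine ⟨K.fixingSubgroup.mul_mem (K.fixingSubgroup.inv_mem hu)
      (K.fixingSubgroup.pow_mem σ.2 i), ?_⟩
    have h2 := congrArg Subtype.val hi
    simp only [SubgroupClass.coe_pow] at h2
    have h3 : ptw_chi hζ (σ : s55_GQ) ^ i = ptw_chi hζ u := h2
    rw [map_mul, map_inv, map_pow, h3, inv_mul_cancel]
  · -- unramified outside `S`
    intro S hpS hKS
    refine ⟨hlev.fin, ?_⟩
    intro q hq A hA τ hτ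
    have hqp : (q : ℕ) ≠ p := by
      intro h
      apply hq
      have : q = ⟨p, hp⟩ := Subtype.ext h
      rw [this]
      exact hpS
    rw [ptw_mem_fix_iff hζ, ptw_chi_eq_one_iff]
    exact ⟨hKS.2 q hq A hA hτ,
      ptw_inertia_fix hp q.2 hqp A hA τ hτ m ζ hζ.pow_eq_one⟩

end level

end

end Fermat.Agent.S55

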