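/-
# S55 / GLOBAL, absolute level : [P-TOWER], the local bound

A finite extension `E` of `ℚ_q` inside `Ω_q = PadicAlgCl q` contains a primitive `p^j`-th root of
unity only for `j ≤ c(E)` (`ptw_local_bound`).

* `q ≠ p`: distinct roots of unity of `p`-power order are incongruent modulo the maximal ideal
  (`‖1 - μ‖ = 1`, because `1 - μ` divides `p` and `‖p‖ = 1`), and the residue field of `E` is
  finite.
* `q = p`: `‖1 - η‖ ^ φ(p^j) = ‖p‖` for a primitive `p^j`-th root of unity `η`, and the value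
  group of `E` is generated by the norm of a uniformizer.
-/
import Mathlib
import Fermat.Agent.S55.Local.LFPadic

set_option autoImplicit false
set_option linter.style.haveILetI false

namespace Fermat.Agent.S55

noncomputable section

section generic

/-- `p` is the product of `1 - ν` over the primitive `p^(i+1)`-th roots of unity (any domain
containing one of them). -/
theorem ptw_prod_one_sub_gen {R : Type*} [CommRing R] [IsDomain R] {p : ℕ} (hp : p.Prime)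
    {i : ℕ} {μ : R} (hμ : IsPrimitiveRoot μ (p ^ (i + 1))) :
    (p : R) = ∏ ν ∈ primitiveRoots (p ^ (i + 1)) R, (1 - ν) := by
  haveI : Fact p.Prime := ⟨hp⟩
  have h1 := Polynomial.cyclotomic_eq_prod_X_sub_primitiveRoots hμ
  have h2 := congrArg (Polynomial.eval (1 : R)) h1
  rw [Polynomial.eval_one_cyclotomic_prime_pow, Polynomial.eval_prod] at h2
  simpa using h2

/-- `j ≤ φ(p^j)`. -/
theorem ptw_le_totient {p : ℕ} (hp : p.Prime) (j : ℕ) : j ≤ Nat.totient (p ^ j) := by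
  cases j with
  | zero => exact Nat.zero_le _
  | succ i =>
    rw [Nat.totient_prime_pow hp (Nat.succ_pos i), Nat.succ_sub_one]
    have h1 : i < p ^ i := Nat.lt_pow_self hp.one_lt
    have h2 : 1 ≤ p - 1 := by have := hp.two_le; omega
    calc i + 1 ≤ p ^ i := h1
      _ = p ^ i * 1 := (mul_one _).symm
      _ ≤ p ^ i * (p - 1) := Nat.mul_le_mul_left _ h2

end generic

section norms

variable {q : ℕ} [Fact q.Prime]

/-- A root of unity has norm `1`. -/
theorem ptw_norm_root {t : PadicAlgCl q} {n : ℕ} (hn : n ≠ 0) (ht : t ^ n = 1) : ‖t‖ = 1 := by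
  have h := congrArg norm ht
  rw [norm_pow, norm_one] at h
  exact (pow_eq_one_iff_of_nonneg (norm_nonneg t) hn).1 h

/-- `‖1 - x‖ ≤ 1` for `‖x‖ ≤ 1`. -/
theorem ptw_norm_one_sub_le {x : PadicAlgCl q} (hx : ‖x‖ ≤ 1) : ‖1 - x‖ ≤ 1 := by
  have h := IsUltrametricDist.norm_add_le_max (1 : PadicAlgCl q) (-x)
  rw [← sub_eq_add_neg, norm_neg, norm_one] at h
  exact h.trans (max_le le_rfl hx)

/-- A geometric sum of integral elements is integral. -/
theorem ptw_norm_geom_le {x : PadicAlgCl q} (hx : ‖x‖ ≤ 1) (a : ℕ) :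
    ‖∑ i ∈ Finset.range a, x ^ i‖ ≤ 1 := by
  induction a with
  | zero => simp
  | succ a ih =>
    rw [Finset.sum_range_succ]
    refine (IsUltrametricDist.norm_add_le_max _ _).trans (max_le ih ?_)
    rw [norm_pow]
    exact pow_le_one₀ (norm_nonneg _) hx

/-- `‖1 - x ^ a‖ ≤ ‖1 - x‖` for `‖x‖ ≤ 1`. -/
theorem ptw_norm_one_sub_pow_le {x : PadicAlgCl q} (hx : ‖x‖ ≤ 1) (a : ℕ) :
    ‖1 - x ^ a‖ ≤ ‖1 - x‖ := by
  rw [← mul_neg_geom_sum x a, norm_mul]
  calc ‖1 - x‖ * ‖∑ i ∈ Finset.range a, x ^ i‖ ≤ ‖1 - x‖ * 1 :=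
        mul_le_mul_of_nonneg_left (ptw_norm_geom_le hx a) (norm_nonneg _)
    _ = ‖1 - x‖ := mul_one _

/-- The norm of a natural number in `Ω_q`. -/
theorem ptw_norm_natCast (n : ℕ) : ‖(n : PadicAlgCl q)‖ = ‖(n : ℚ_[q])‖ := by
  have h1 : ((n : ℕ) : PadicAlgCl q) = algebraMap ℚ_[q] (PadicAlgCl q) ((n : ℕ) : ℚ_[q]) := by
    rw [map_natCast]
  rw [h1, PadicAlgCl.norm_extends]

/-- All `1 - ν`, `ν` a primitive `n`-th root of unity, have the same norm. -/
theorem ptw_norm_one_sub_prim {n : ℕ} [NeZero n] {η ν : PadicAlgCl q}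
    (hη : IsPrimitiveRoot η n) (hν : IsPrimitiveRoot ν n) : ‖1 - ν‖ = ‖1 - η‖ := by
  have hn : n ≠ 0 := NeZero.ne n
  obtain ⟨a, -, ha⟩ := hη.eq_pow_of_pow_eq_one hν.pow_eq_one
  obtain ⟨b, -, hb⟩ := hν.eq_pow_of_pow_eq_one hη.pow_eq_one
  apply le_antisymm
  · rw [← ha]
    exact ptw_norm_one_sub_pow_le (ptw_norm_root hn hη.pow_eq_one).le a
  · rw [← hb]
    exact ptw_norm_one_sub_pow_le (ptw_norm_root hn hν.pow_eq_one).le b

/-- `‖1 - η‖ ^ φ(p^(i+1)) = ‖p‖` for a primitive `p^(i+1)`-th root of unity `η`. -/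
theorem ptw_norm_one_sub_pow {p : ℕ} (hp : p.Prime) {i : ℕ} {η : PadicAlgCl q}
    (hη : IsPrimitiveRoot η (p ^ (i + 1))) :
    ‖1 - η‖ ^ Nat.totient (p ^ (i + 1)) = ‖(p : PadicAlgCl q)‖ := by
  haveI : NeZero (p ^ (i + 1)) := ⟨pow_ne_zero _ hp.ne_zero⟩
  have hpos : 0 < p ^ (i + 1) := pow_pos hp.pos _
  rw [ptw_prod_one_sub_gen hp hη, norm_prod, ← hη.card_primitiveRoots, ← Finset.prod_const]
  refine Finset.prod_congr rfl (fun ν hν => ?_)
  exact (ptw_norm_one_sub_prim hη ((mem_primitiveRoots hpos).1 hν)).symm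

/-- For `q ≠ p`: `‖1 - μ‖ = 1` for every root of unity `μ ≠ 1` of `p`-power order. -/
theorem ptw_norm_one_sub_eq_one {p : ℕ} (hp : p.Prime) (hqp : q ≠ p) {j : ℕ}
    {μ : PadicAlgCl q} (hμ : μ ^ p ^ j = 1) (hμ1 : μ ≠ 1) : ‖1 - μ‖ = 1 := by
  have hq : q.Prime := Fact.out
  obtain ⟨i, -, hi⟩ := (Nat.dvd_prime_pow hp).1 (orderOf_dvd_of_pow_eq_one hμ)
  have hi0 : i ≠ 0 := by
    rintro rfl
    rw [pow_zero, orderOf_eq_one_iff] at hi
    exact hμ1 hi
  obtain ⟨i', rfl⟩ := Nat.exists_eq_succ_of_ne_zero hi0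
  have hprim : IsPrimitiveRoot μ (p ^ (i' + 1)) := by
    have := IsPrimitiveRoot.orderOf μ
    rwa [hi] at this
  have h1 := ptw_norm_one_sub_pow hp hprim
  have h2 : ‖(p : PadicAlgCl q)‖ = 1 := by
    rw [ptw_norm_natCast, Padic.norm_natCast_eq_one_iff]
    exact (Nat.coprime_primes hq hp).2 hqp
  rw [h2] at h1
  have h3 : Nat.totient (p ^ (i' + 1)) ≠ 0 :=
    (Nat.totient_pos.2 (pow_pos hp.pos _)).ne'
  exact (pow_eq_one_iff_of_nonneg (norm_nonneg _) h3).1 h1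

end norms

section bound

variable {q : ℕ} [Fact q.Prime]

/-- The case `q ≠ p` of the local bound. -/
theorem ptw_local_bound_ne {p : ℕ} (hp : p.Prime) (hqp : q ≠ p)
    (E : IntermediateField ℚ_[q] (PadicAlgCl q)) [FiniteDimensional ℚ_[q] ↥E] :
    ∃ c : ℕ, ∀ (j : ℕ) (η : PadicAlgCl q), η ∈ E → IsPrimitiveRoot η (p ^ j) → j ≤ c := by
  classical
  obtain ⟨s, hs⟩ := lf_IsLocal.finite_residue (K := ↥E)
  refine ⟨s.card, ?_⟩
  intro j η hηE hη
  by_contra hlt
  rw [not_le] at hlt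
  have hpj : p ^ j ≠ 0 := pow_ne_zero _ hp.ne_zero
  have hnorm : ∀ i : ℕ, ‖η ^ i‖ = 1 := by
    intro i
    rw [norm_pow, ptw_norm_root hpj hη.pow_eq_one, one_pow]
  have hx : ∀ i : ℕ, ∃ a ∈ s, ‖(⟨η ^ i, pow_mem hηE i⟩ : ↥E) - a‖ < 1 := by
    intro i
    apply hs
    exact (hnorm i).le
  choose f hf hf' using hx
  have hcard : s.card < (Finset.range (p ^ j)).card := by
    rw [Finset.card_range]
    exact hlt.trans (Nat.lt_pow_self hp.one_lt)
  obtain ⟨i, hi, i', hi', hne, heq⟩ :=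
    Finset.exists_ne_map_eq_of_card_lt_of_maps_to hcard (f := f) (fun a _ => hf a)
  rw [Finset.mem_range] at hi hi'
  have hne' : η ^ i ≠ η ^ i' := fun h => hne (hη.pow_inj hi hi' h)
  -- the two powers are congruent
  have h1 : ‖η ^ i - η ^ i'‖ < 1 := by
    have e : η ^ i - η ^ i' = (η ^ i - ((f i : ↥E) : PadicAlgCl q)) +
        -(η ^ i' - ((f i' : ↥E) : PadicAlgCl q)) := by
      rw [heq]
      ring
    rw [e]
    refine (IsUltrametricDist.norm_add_le_max _ _).trans_lt (max_lt (hf' i) ?_)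
    rw [norm_neg]
    exact hf' i'
  -- but they are not
  have hi0 : η ^ i ≠ 0 := by
    intro h
    have := hnorm i
    rw [h, norm_zero] at this
    exact zero_ne_one this
  have h2 : η ^ i - η ^ i' = η ^ i * (1 - η ^ i' * (η ^ i)⁻¹) := by
    field_simp
  have h3 : (η ^ i' * (η ^ i)⁻¹) ^ p ^ j = 1 := by
    rw [mul_pow, inv_pow, ← pow_mul, ← pow_mul, mul_comm i', mul_comm i, pow_mul, pow_mul,
      hη.pow_eq_one, one_pow, one_pow, inv_one, mul_one]
  have h4 : η ^ i' * (η ^ i)⁻¹ ≠ 1 := by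
    intro h
    apply hne'
    field_simp at h
    exact h.symm
  rw [h2, norm_mul, hnorm i, one_mul, ptw_norm_one_sub_eq_one hp hqp h3 h4] at h1
  exact lt_irrefl _ h1

/-- The case `q = p` of the local bound. -/
theorem ptw_local_bound_eq
    (E : IntermediateField ℚ_[q] (PadicAlgCl q)) [FiniteDimensional ℚ_[q] ↥E] :
    ∃ c : ℕ, ∀ (j : ℕ) (η : PadicAlgCl q), η ∈ E → IsPrimitiveRoot η (q ^ j) → j ≤ c := by
  have hq : q.Prime := Fact.out
  obtain ⟨ϖ, hϖ0, hϖ1, hϖ⟩ := lf_IsLocal.exists_uniformizer (K := ↥E)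
  have hq0 : ((q : ℕ) : ↥E) ≠ 0 := by exact_mod_cast hq.ne_zero
  obtain ⟨e, he⟩ := hϖ _ hq0
  have hnq : ‖((q : ℕ) : ↥E)‖ = ‖((q : ℕ) : PadicAlgCl q)‖ := rfl
  have hpos : 0 < ‖ϖ‖ := norm_pos_iff.2 hϖ0
  refine ⟨e.toNat, ?_⟩
  intro j η hηE hη
  cases j with
  | zero => exact Nat.zero_le _
  | succ i =>
    have hη1 : η ≠ 1 := by
      intro h
      have h1 := hη.unique (h ▸ IsPrimitiveRoot.one)
      have h2 : 1 < q ^ (i + 1) := Nat.one_lt_pow (Nat.succ_ne_zero i) hq.one_lt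
      omega
    have hx0 : (1 - (⟨η, hηE⟩ : ↥E)) ≠ 0 := by
      intro h
      apply hη1
      have := congrArg Subtype.val (sub_eq_zero.1 h)
      exact this.symm
    obtain ⟨n, hn⟩ := hϖ _ hx0
    have hn' : ‖1 - η‖ = ‖ϖ‖ ^ n := hn
    have h1 := ptw_norm_one_sub_pow hq hη
    rw [hn', ← hnq, he, ← zpow_natCast, ← zpow_mul] at h1
    have h2 : n * ((Nat.totient (q ^ (i + 1)) : ℕ) : ℤ) = e :=
      zpow_right_injective₀ hpos hϖ1.ne h1
    -- `e > 0`
    have he0 : 0 < e := by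
      by_contra hle
      rw [not_lt] at hle
      have h3 : (1 : ℝ) ≤ ‖ϖ‖ ^ e := by
        obtain ⟨k, hk⟩ := Int.exists_eq_neg_ofNat hle
        rw [hk, zpow_neg, zpow_natCast]
        exact (one_le_inv₀ (pow_pos hpos k)).2 (pow_le_one₀ hpos.le hϖ1.le)
      rw [← he, hnq, ptw_norm_natCast, Padic.norm_p] at h3
      have h4 : ((q : ℝ))⁻¹ < 1 := inv_lt_one_of_one_lt₀ (by exact_mod_cast hq.one_lt)
      exact absurd h3 (not_le.2 h4)
    have hφ : 0 < ((Nat.totient (q ^ (i + 1)) : ℕ) : ℤ) := by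
      exact_mod_cast Nat.totient_pos.2 (pow_pos hq.pos _)
    have hn0 : 0 < n := by
      by_contra hle
      rw [not_lt] at hle
      have := mul_nonpos_of_nonpos_of_nonneg hle hφ.le
      omega
    have h5 : ((Nat.totient (q ^ (i + 1)) : ℕ) : ℤ) ≤ e := by
      rw [← h2]
      exact le_mul_of_one_le_left hφ.le hn0
    have h6 := ptw_le_totient hq (i + 1)
    omega

/-- **The local bound**: a finite extension of `ℚ_q` contains primitive `p^j`-th roots of unity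
only for bounded `j`. -/
theorem ptw_local_bound {p : ℕ} (hp : p.Prime)
    (E : IntermediateField ℚ_[q] (PadicAlgCl q)) [FiniteDimensional ℚ_[q] ↥E] :
    ∃ c : ℕ, ∀ (j : ℕ) (η : PadicAlgCl q), η ∈ E → IsPrimitiveRoot η (p ^ j) → j ≤ c := by
  by_cases hqp : q = p
  · subst hqp
    exact ptw_local_bound_eq E
  · exact ptw_local_bound_ne hp hqp E

end bound

end

end Fermat.Agent.S55
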