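/-
# S55 / GLOBAL, absolute level : [P-TOWER], degree part

`ptw_degree : ptw_DegreeStatement` (the Prop of `Global/PTowerDefs.lean`, verbatim): for finitely
many places `w = (q, g)` of `K ∋ ζ_p` and every `k` the local degree of `K(ζ_{p^m}) / K` at `w`
is divisible by `p ^ k` for all large `m`.

The local character `θ = ptw_theta : ak_H K q g → (ℤ/p^m)ˣ`, `τ ↦ χ(g⁻¹ loc(τ) g)`, has kernel
`ak_H K(ζ) q g`; its image has order `p ^ b`, so `θ(τ) ^ (p^b) = 1` and hence (`ptw_lte`)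
`θ(τ) ≡ 1 mod p^(m-b)` for all `τ`: the primitive `p^(m-b)`-th root of unity `ι_q(g(ζ^(p^b)))`
lies in the local field `K_w`, and `m - b ≤ c(w)` by `ptw_local_bound`.
-/
import Mathlib
import Fermat.Agent.S55.Global.PTowerLevel
import Fermat.Agent.S55.Global.PTowerLocal
import Fermat.Agent.S55.Global.AkUnr
import Fermat.Agent.S55.UnrAbs1

set_option autoImplicit false
set_option linter.style.haveILetI false

namespace Fermat.Agent.S55

noncomputable section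

local notation "Qbar" => AlgebraicClosure ℚ

section degree

variable (q : ℕ) [Fact q.Prime]

/-- The local cyclotomic character at the place `(q, g)` of `K`. -/
def ptw_theta {n : ℕ} [NeZero n] {ζ : Qbar} (hζ : IsPrimitiveRoot ζ n)
    (K : IntermediateField ℚ Qbar) (g : s55_GQ) : ↥(ak_H K q g) →* (ZMod n)ˣ :=
  (ptw_psi hζ K).comp (ak_r K q g)

theorem ptw_theta_apply {n : ℕ} [NeZero n] {ζ : Qbar} (hζ : IsPrimitiveRoot ζ n)
    (K : IntermediateField ℚ Qbar) (g : s55_GQ) (τ : ↥(ak_H K q g)) :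
    ptw_theta q hζ K g τ = ptw_chi hζ (g⁻¹ * localGaloisToGlobal q (τ : lcf_Gal q) * g) := by
  rw [← ak_r_coe]
  rfl

theorem ptw_theta_ker {n : ℕ} [NeZero n] {ζ : Qbar} (hζ : IsPrimitiveRoot ζ n)
    (K : IntermediateField ℚ Qbar) (g : s55_GQ) :
    (ptw_theta q hζ K g).ker = (ak_H (ptw_F K ζ) q g).subgroupOf (ak_H K q g) := by
  ext τ
  rw [MonoidHom.mem_ker, Subgroup.mem_subgroupOf, ak_mem_H_iff, ptw_mem_fix_iff hζ,
    ptw_theta_apply]
  exact ⟨fun h => ⟨(ak_mem_H_iff K q g _).1 τ.2, h⟩, fun h => h.2⟩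

/-- The local degree is the order of the image of the local character. -/
theorem ptw_relIndex_eq {n : ℕ} [NeZero n] {ζ : Qbar} (hζ : IsPrimitiveRoot ζ n)
    (K : IntermediateField ℚ Qbar) (g : s55_GQ) :
    (ak_H (ptw_F K ζ) q g).relIndex (ak_H K q g) = Nat.card ↥(ptw_theta q hζ K g).range := by
  rw [← Subgroup.index_ker, ptw_theta_ker]
  rfl

variable {p : ℕ}

/-- The core of the degree statement at one place. -/
theorem ptw_degree_core (hp : p.Prime) (hp2 : p ≠ 2) (K : IntermediateField ℚ Qbar)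
    (hKζ : ∃ ζ' : Qbar, IsPrimitiveRoot ζ' p ∧ ζ' ∈ K) (g : s55_GQ) (c : ℕ)
    (hc : ∀ (j : ℕ) (η : PadicAlgCl q), η ∈ IntermediateField.fixedField (ak_H K q g) →
      IsPrimitiveRoot η (p ^ j) → j ≤ c)
    (m : ℕ) (ζ : Qbar) (hζ : IsPrimitiveRoot ζ (p ^ m)) (k : ℕ) (hm : k + c ≤ m) :
    p ^ k ∣ (ak_H (ptw_F K ζ) q g).relIndex (ak_H K q g) := by
  haveI : NeZero (p ^ m) := ⟨pow_ne_zero _ hp.ne_zero⟩
  haveI : Fact p.Prime := ⟨hp⟩
  have hP : IsPGroup p ↥(ptw_theta q hζ K g).range := by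
    rintro ⟨x, τ, rfl⟩
    refine ⟨m, ?_⟩
    apply Subtype.ext
    rw [SubgroupClass.coe_pow, Subgroup.coe_one]
    exact ptw_chi_pow hp hζ K hKζ _ (ak_r K q g τ).2
  obtain ⟨b, hb⟩ := hP.exists_card_eq
  rw [ptw_relIndex_eq q hζ K g, hb]
  apply pow_dvd_pow
  by_contra hlt
  rw [not_le] at hlt
  have hbm : b < m := by omega
  obtain ⟨m', rfl⟩ : ∃ m' : ℕ, m = m' + 1 := ⟨m - 1, by omega⟩
  -- the root of unity `ζ ^ (p^b)`
  have hsplit : p ^ (m' + 1) = p ^ b * p ^ (m' + 1 - b) := by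
    rw [← pow_add]
    congr 1
    omega
  have hη₀ : IsPrimitiveRoot (ζ ^ p ^ b) (p ^ (m' + 1 - b)) :=
    hζ.pow (pow_pos hp.pos _) hsplit
  have hinj : Function.Injective (ak_iota q g) := (ak_iota q g).toRingHom.injective
  have hη : IsPrimitiveRoot (ak_iota q g (ζ ^ p ^ b)) (p ^ (m' + 1 - b)) :=
    hη₀.map_of_injective hinj
  have hmem : ak_iota q g (ζ ^ p ^ b) ∈ IntermediateField.fixedField (ak_H K q g) := by
    rw [IntermediateField.mem_fixedField_iff]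
    intro τ hτ
    set u : s55_GQ := g⁻¹ * localGaloisToGlobal q τ * g with hu
    have huK : u ∈ K.fixingSubgroup := (ak_mem_H_iff K q g τ).1 hτ
    -- `χ(u) ^ (p^b) = 1`
    have h1 : (ptw_chi hζ u) ^ p ^ b = 1 := by
      have h2 := pow_card_eq_one' (G := ↥(ptw_theta q hζ K g).range)
        (x := ⟨ptw_theta q hζ K g ⟨τ, hτ⟩, ⟨τ, hτ⟩, rfl⟩)
      rw [hb] at h2
      have h3 := congrArg Subtype.val h2
      rw [SubgroupClass.coe_pow, Subgroup.coe_one] at h3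
      have h4 : ptw_theta q hζ K g ⟨τ, hτ⟩ = ptw_chi hζ u := ptw_theta_apply q hζ K g ⟨τ, hτ⟩
      rw [← h4]
      exact h3
    set a : ℕ := ((ptw_chi hζ u : (ZMod (p ^ (m' + 1)))ˣ) : ZMod (p ^ (m' + 1))).val with ha
    have ha1 : (p : ℤ) ∣ (a : ℤ) - 1 := ptw_chi_modp hp hζ K hKζ u huK
    have ha2 : (p : ℤ) ^ (m' + 1) ∣ (a : ℤ) ^ p ^ b - 1 := by
      have h4 : (((a : ℤ) ^ p ^ b - 1 : ℤ) : ZMod (p ^ (m' + 1))) = 0 := by
        rw [Int.cast_sub, Int.cast_pow, Int.cast_one, Int.cast_natCast, ha,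
          ZMod.natCast_zmod_val, sub_eq_zero, ← Units.val_pow_eq_pow_val, h1, Units.val_one]
      have h5 := (ZMod.intCast_zmod_eq_zero_iff_dvd _ _).1 h4
      rwa [Nat.cast_pow] at h5
    have ha3 := ptw_lte hp hp2 (a : ℤ) b (m' + 1) ha1 ha2
    -- `u` fixes `ζ ^ (p^b)`
    have hfix : u (ζ ^ p ^ b) = ζ ^ p ^ b := by
      rw [map_pow, ptw_chi_spec hζ u, ← pow_mul, ptw_pow_eq_pow_iff hζ,
        ZMod.natCast_eq_natCast_iff]
      apply Nat.ModEq.symm
      rw [Nat.modEq_iff_dvd]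
      have h6 : (((a * p ^ b : ℕ) : ℤ) - ((p ^ b : ℕ) : ℤ)) = ((a : ℤ) - 1) * (p : ℤ) ^ b := by
        push_cast
        ring
      have h7 : ((p ^ (m' + 1) : ℕ) : ℤ) = (p : ℤ) ^ (m' + 1 - b) * (p : ℤ) ^ b := by
        rw [← pow_add, Nat.cast_pow]
        congr 1
        omega
      rw [h6, h7]
      exact mul_dvd_mul_right ha3 _
    -- hence `loc τ` fixes `g (ζ ^ (p^b))`
    have hfix' : localGaloisToGlobal q τ (g (ζ ^ p ^ b)) = g (ζ ^ p ^ b) := by
      have h8 : g (u (ζ ^ p ^ b)) = localGaloisToGlobal q τ (g (ζ ^ p ^ b)) := by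
        rw [hu]
        show g (g⁻¹ (localGaloisToGlobal q τ (g (ζ ^ p ^ b)))) = _
        exact AlgEquiv.apply_symm_apply g _
      rw [← h8, hfix]
    show τ (padicEmbedding q (g (ζ ^ p ^ b))) = padicEmbedding q (g (ζ ^ p ^ b))
    rw [← padicEmbedding_localGaloisToGlobal, hfix']
  have := hc _ _ hmem hη
  omega

/-- **[P-TOWER], degree part.** -/
theorem ptw_degree : ptw_DegreeStatement := by
  classical
  intro p hp hp2 K hK hKζ T k
  have hex : ∀ w : Nat.Primes × s55_GQ, ∃ c : ℕ,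
      letI : Fact (w.1 : ℕ).Prime := ⟨w.1.2⟩
      ∀ (j : ℕ) (η : PadicAlgCl (w.1 : ℕ)),
        η ∈ IntermediateField.fixedField (ak_H K (w.1 : ℕ) w.2) →
        IsPrimitiveRoot η (p ^ j) → j ≤ c := by
    intro w
    letI : Fact (w.1 : ℕ).Prime := ⟨w.1.2⟩
    haveI := unr_abs_finite _ (aku_H_isOpen (w.1 : ℕ) K hK w.2)
    exact ptw_local_bound hp _
  choose c hc using hex
  refine ⟨k + T.sup c, ?_⟩
  intro m hm ζ hζ w hw
  letI : Fact (w.1 : ℕ).Prime := ⟨w.1.2⟩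
  have h1 : c w ≤ T.sup c := Finset.le_sup (f := c) hw
  exact ptw_degree_core (w.1 : ℕ) hp hp2 K hKζ w.2 (c w) (hc w) m ζ hζ k (by omega)

end degree

end

end Fermat.Agent.S55
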