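/-
# S55 / GLOBAL, absolute level : [P-TOWER]

`ptw_main : ptw_Statement` (the Prop of `Global/PTowerDefs.lean`, verbatim): for `K ∋ ζ_p` finite
over `ℚ`, `p` odd, a finite set `T` of places and `k` there is a cyclic `p`-level
`F = K(ζ_{p^m})` over `K`, unramified outside `S ∋ p` whenever `K` is, whose local degrees at the
places of `T` are divisible by `p ^ k`.
-/
import Mathlib
import Fermat.Agent.S55.Global.PTowerLevel
import Fermat.Agent.S55.Global.PTowerDegree

set_option autoImplicit false

namespace Fermat.Agent.S55

/-- **[P-TOWER]**. -/
theorem ptw_main : ptw_Statement := ptw_of ptw_level ptw_degree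

end Fermat.Agent.S55
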