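/-
S55 (fifth wave), GLOBAL side, package [AK-H3F] (helper17), leaf [H3-ABS]: the transfer of
[H3-CORE] to the absolute level.  Prefix `h3fa_`.

  `h3fa_of   : ptw_Statement → h3f_CoreStatement → ak_H3FStatement`
  `h3fa_main : h3f_CoreStatement → ak_H3FStatement`          (`ptw_main` plugged)

ROUTE.  `K ≤ F` a `p`-level of degree `p^k`, `z` a 3-cocycle of level `F`.  [P-TOWER] gives a
cyclotomic `p`-level `F₁ = K(ζ_{p^m})`, unramified outside `S`, whose local degree at the place
`(p, 1)` of `K` is divisible by `p^k`; `F' = F ⊔ F₁` is a `p`-level unramified outside `S`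
(helper1's `esup_*`), and its local degree at `(p, 1)` is divisible by `p^k` too.  With
helper23's dictionary (`flk_*`): models `(E, j)`, `(E', j')` of `F ≤ F'`, `H = Gal(F/K)`,
`H' = Gal(F'/K)`, the tower `t`, `z = infl z₀`; [H3-CORE] gives `infl_t z₀ = d y'`, and
`a = infl y'` has level `F'` and `d a = z`.
-/
import Mathlib
import Fermat.Agent.S55.Global.H3FDefs
import Fermat.Agent.S55.Global.PTower
import Fermat.Agent.S55.Global.EcoSup
import Fermat.Agent.S55.Global.FinLevelKAlg
import Fermat.Agent.S55.Global.FinLevelKPlace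

set_option autoImplicit false

namespace Fermat.Agent.S55

open groupCohomology

noncomputable section

local notation "Qbar" => AlgebraicClosure ℚ

section model

variable {K : IntermediateField ℚ Qbar} {E : Type} [Field E] [NumberField E]
  {j : E →ₐ[ℚ] Qbar} (hn : flk_Stable K j)

/-- (C1) in degree 3: a 3-cochain of `H` whose inflation is a 3-cocycle is a 3-cocycle. -/
theorem h3fa_coc₃ (c : ↥(flk_H K j hn) × ↥(flk_H K j hn) × ↥(flk_H K j hn) → Additive Eˣ)
    (h : ak_IsCoc₃ K (flk_infl₃ K j hn c)) : fg_IsCocycle₃ c := by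
  intro σ τ ρ π
  obtain ⟨u, rfl⟩ := flk_resH_surjective K j hn σ
  obtain ⟨v, rfl⟩ := flk_resH_surjective K j hn τ
  obtain ⟨w, rfl⟩ := flk_resH_surjective K j hn ρ
  obtain ⟨x, rfl⟩ := flk_resH_surjective K j hn π
  have h1 := h u v w x
  have e : u • flk_infl₃ K j hn c (v, w, x) / flk_infl₃ K j hn c (u * v, w, x) *
      flk_infl₃ K j hn c (u, v * w, x) / flk_infl₃ K j hn c (u, v, w * x) *
      flk_infl₃ K j hn c (u, v, w) =
      Units.map (j : E →* Qbar) ((((flk_resH K j hn u : ↥(flk_H K j hn)) : E ≃ₐ[ℚ] E) •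
        (c (flk_resH K j hn v, flk_resH K j hn w, flk_resH K j hn x)).toMul) /
        (c (flk_resH K j hn u * flk_resH K j hn v, flk_resH K j hn w,
          flk_resH K j hn x)).toMul *
        (c (flk_resH K j hn u, flk_resH K j hn v * flk_resH K j hn w,
          flk_resH K j hn x)).toMul /
        (c (flk_resH K j hn u, flk_resH K j hn v,
          flk_resH K j hn w * flk_resH K j hn x)).toMul *
        (c (flk_resH K j hn u, flk_resH K j hn v, flk_resH K j hn w)).toMul) := by
    rw [MonoidHom.map_mul, MonoidHom.map_div, MonoidHom.map_mul, MonoidHom.map_div,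
      ← flk_smul_map hn, ← map_mul (flk_resH K j hn), ← map_mul (flk_resH K j hn),
      ← map_mul (flk_resH K j hn)]
    rfl
  rw [e] at h1
  have h2 := flk_units_map_injective (j := j) (h1.trans (map_one _).symm)
  exact congrArg Additive.ofMul h2

/-- The coboundary of the inflation of a 2-cochain. -/
theorem h3fa_d₂ (y : ↥(flk_H K j hn) × ↥(flk_H K j hn) → Additive Eˣ)
    (u v w : ↥K.fixingSubgroup) :
    ak_d₂ K (flk_infl₂ K j hn y) (u, v, w) =
      Units.map (j : E →* Qbar)
        (flk_resH K j hn u • y (flk_resH K j hn v, flk_resH K j hn w) -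
          y (flk_resH K j hn u * flk_resH K j hn v, flk_resH K j hn w) +
          y (flk_resH K j hn u, flk_resH K j hn v * flk_resH K j hn w) -
          y (flk_resH K j hn u, flk_resH K j hn v)).toMul := by
  have e : Units.map (j : E →* Qbar)
        (flk_resH K j hn u • y (flk_resH K j hn v, flk_resH K j hn w) -
          y (flk_resH K j hn u * flk_resH K j hn v, flk_resH K j hn w) +
          y (flk_resH K j hn u, flk_resH K j hn v * flk_resH K j hn w) -
          y (flk_resH K j hn u, flk_resH K j hn v)).toMul =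
      Units.map (j : E →* Qbar) ((((flk_resH K j hn u : ↥(flk_H K j hn)) : E ≃ₐ[ℚ] E) •
        (y (flk_resH K j hn v, flk_resH K j hn w)).toMul) /
        (y (flk_resH K j hn u * flk_resH K j hn v, flk_resH K j hn w)).toMul *
        (y (flk_resH K j hn u, flk_resH K j hn v * flk_resH K j hn w)).toMul /
        (y (flk_resH K j hn u, flk_resH K j hn v)).toMul) := rfl
  rw [e, MonoidHom.map_div, MonoidHom.map_mul, MonoidHom.map_div, ← flk_smul_map hn,
    ← map_mul (flk_resH K j hn), ← map_mul (flk_resH K j hn)]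
  rfl

end model

section self

variable {E : Type} [Field E] [NumberField E] (j : E →ₐ[ℚ] Qbar)

/-- The model of `F` is stable under `G_F`. -/
theorem h3fa_stable_self : flk_Stable j.fieldRange j := by
  intro u hu x
  exact ⟨x, ((IntermediateField.mem_fixingSubgroup_iff _ _).1 hu _
    (flk_mem_fieldRange j x)).symm⟩

/-- `Gal(F/F) = 1`. -/
theorem h3fa_H_self (hn : flk_Stable j.fieldRange j) : flk_H j.fieldRange j hn = ⊥ := by
  rw [eq_bot_iff]
  rintro σ ⟨u, rfl⟩
  rw [Subgroup.mem_bot]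
  exact (flk_ker hn u).2 u.2

/-- The local group of the trivial subgroup. -/
theorem h3fa_locU_bot (q : ℕ) [Fact q.Prime] (g : s55_GQ) :
    gl_locU q E ⊥ (flk_iota j q g) = ak_H j.fieldRange q g := by
  have h := flk_locU j.fieldRange j (h3fa_stable_self j) q g le_rfl
  rw [h3fa_H_self] at h
  exact h

end self

/-- The local groups are antitone in the field. -/
theorem h3fa_H_anti {K K' : IntermediateField ℚ Qbar} (h : K ≤ K') (q : ℕ) [Fact q.Prime]
    (g : s55_GQ) : ak_H K' q g ≤ ak_H K q g :=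
  Subgroup.comap_mono (IntermediateField.fixingSubgroup_antitone h)

set_option synthInstance.maxHeartbeats 400000 in
set_option maxHeartbeats 1000000 in
/-- **[H3-ABS]** the transfer of [H3-CORE] to the absolute level. -/
theorem h3fa_of (hP : ptw_Statement) (hC : h3f_CoreStatement) : ak_H3FStatement := by
  intro inv hinv p hp hp2 S hpS K F hL hFunr hPL hζ z hz hlev
  have hFact : Fact p.Prime := ⟨hp⟩
  have hKunr : K.IsUnramifiedOutside S := hFunr.of_le hL.le
  have hKfin : FiniteDimensional ℚ K := hKunr.1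
  obtain ⟨k, hk⟩ := hPL
  obtain ⟨m, ζ₁, hζ₁, hL₁, hPL₁, -, hunr₁, hdeg⟩ :=
    hP p hp hp2 K hKfin hζ {((⟨p, hp⟩ : Nat.Primes), (1 : s55_GQ))} k
  have hdeg' : p ^ k ∣ (ak_H (ptw_F K ζ₁) p 1).relIndex (ak_H K p 1) :=
    hdeg ((⟨p, hp⟩ : Nat.Primes), (1 : s55_GQ)) (Finset.mem_singleton_self _)
  -- the compositum
  have hL' : ak_IsLevel K (F ⊔ ptw_F K ζ₁) := esup_isLevel hL hL₁
  have hunr' : (F ⊔ ptw_F K ζ₁).IsUnramifiedOutside S := hFunr.sup (hunr₁ S hpS hKunr)
  have hPL' : ak_IsPLevel K (F ⊔ ptw_F K ζ₁) p := esup_isPLevel hp hL₁ ⟨k, hk⟩ hPL₁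
  -- models
  obtain ⟨E, _, _, j, hj⟩ := flk_model F hL.fin
  obtain ⟨E', _, _, j', hj'⟩ := flk_model (F ⊔ ptw_F K ζ₁) hL'.fin
  subst hj
  have hn : flk_Stable K j := flk_stable K j _ hL rfl
  have hn' : flk_Stable K j' := flk_stable K j' _ hL' hj'
  have hKj : K ≤ j.fieldRange := hL.le
  have hjj' : j.fieldRange ≤ j'.fieldRange := by
    rw [hj']
    exact le_sup_left
  obtain ⟨t, htj, htπ⟩ := flk_tower hn hn' hKj hjj'
  -- descent of `z`
  obtain ⟨z₀, hz₀⟩ := flk_descent₃ hn z hlev
  have hz₀c : fg_IsCocycle₃ z₀ := h3fa_coc₃ hn z₀ (by rw [hz₀]; exact hz)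
  -- the hypotheses of the core
  have hζE : ∃ ζ₀ : E, IsPrimitiveRoot ζ₀ p := by
    obtain ⟨ζ, hζp, hζK⟩ := hζ
    obtain ⟨x, hx⟩ := hKj hζK
    have hx' : j x = ζ := hx
    refine ⟨x, ?_⟩
    have h1 : IsPrimitiveRoot (j x) p := by
      rw [hx']
      exact hζp
    exact IsPrimitiveRoot.of_map_of_injective (f := j) h1 j.toRingHom.injective
  have hPG' : IsPGroup p ↥(flk_H K j' hn') := by
    obtain ⟨k', hk'⟩ := hPL'
    apply IsPGroup.of_card (n := k')
    rw [flk_card hn', hj']
    exact hk'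
  have hcardH : Nat.card ↥(flk_H K j hn) = p ^ k := by
    rw [flk_card hn]
    exact hk
  have hdiv : Nat.card ↥(flk_H K j hn) ∣
      (gl_locU p E' ⊥ (flk_iota j' p 1)).relIndex
        (gl_locU p E' (flk_H K j' hn') (flk_iota j' p 1)) := by
    rw [hcardH, h3fa_locU_bot, flk_locU K j' hn' p 1 (hKj.trans hjj'), hj']
    have h1 : ak_H (j.fieldRange ⊔ ptw_F K ζ₁) p 1 ≤ ak_H (ptw_F K ζ₁) p 1 :=
      h3fa_H_anti le_sup_right p 1
    have h2 : ak_H (ptw_F K ζ₁) p 1 ≤ ak_H K p 1 := h3fa_H_anti hL₁.le p 1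
    rw [← Subgroup.relIndex_mul_relIndex _ _ _ h1 h2]
    exact Dvd.dvd.mul_left hdeg' _
  obtain ⟨y', hy'⟩ := hC inv hinv E E' p hp hp2 hζE (flk_H K j hn) (flk_H K j' hn') t hPG' p
    (flk_iota j' p 1) hdiv z₀ hz₀c
  refine ⟨j.fieldRange ⊔ ptw_F K ζ₁, le_sup_left, hL', hunr', hPL',
    flk_infl₂ K j' hn' y', ?_, ?_⟩
  · have h := flk_lev₂ hn' y'
    rw [hj'] at h
    exact h
  · rintro ⟨u, v, w⟩
    rw [h3fa_d₂ hn' y' u v w, hy', ← hz₀]
    show Units.map (j' : E' →* Qbar) (Units.map (t.j : E →* E')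
        (z₀ (t.π (flk_resH K j' hn' u), t.π (flk_resH K j' hn' v),
          t.π (flk_resH K j' hn' w))).toMul) =
      Units.map (j : E →* Qbar)
        (z₀ (flk_resH K j hn u, flk_resH K j hn v, flk_resH K j hn w)).toMul
    rw [htπ, htπ, htπ]
    apply Units.ext
    exact htj _

/-- **[H3-ABS]** with helper1's [P-TOWER] plugged. -/
theorem h3fa_main (hC : h3f_CoreStatement) : ak_H3FStatement := h3fa_of ptw_main hC

end

end Fermat.Agent.S55
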