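/-
S55 (Poitou-Tate), GLOBAL side, leaf [J-H3] of helper17's cut of [AK-H3F] (helper14), part 2:
the SEMI-LOCAL cochain.  Prefix `h3fj_`.

For every prime `q` the image of a 3-cocycle `z` of `H` in the semi-local ideles `gl_Jq q F` is
the coboundary of a 2-cochain `B : H × H → gl_Jq q F` ([LOC-H3] + [SHAP-3]); `B` is unit-valued
if `F` is unramified at `q` and `z` is unit-valued at `q` ([LOC-H3U] + [SHAP-3]).
-/
import Mathlib
import Fermat.Agent.S55.Global.H3FJLocal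

set_option autoImplicit false

namespace Fermat.Agent.S55

open groupCohomology

noncomputable section

section h3fj_semi

variable {q : ℕ} [Fact q.Prime] {F : Type} [Field F] [NumberField F]
  {H : Subgroup (F ≃ₐ[ℚ] F)}

attribute [local instance] hss_actM

/-- The local cochain at `ι` from [LOC-H3]. -/
theorem h3fj_exists_beta (hLoc : h3f_LocH3Statement) (inv : lcf_InvType)
    (hinv : lcf_IsInvSystem inv) (z : ↥H × ↥H × ↥H → Additive Fˣ) (hz : fg_IsCocycle₃ z)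
    (ι : F →ₐ[ℚ] PadicAlgCl q) :
    ∃ β : ↥H × ↥H → Additive (PadicAlgCl q)ˣ, h3f_Loc₃ (hss_sys q F H) z ι β := by
  obtain ⟨f, hf, hd⟩ := hLoc inv hinv q (gl_locU q F H ι) (gsup_U0 q F ι)
    (gsup_U0_isOpen q F ι) (gsup_isNormalIn q F H ι) (h3fj_loc₃ ι z) (h3fj_loc₃_isCoc ι z hz)
    (h3fj_loc₃_infl ι z)
  exact ⟨h3fj_beta ι f, h3fj_descent ι z f hf hd⟩

/-- If `F` is unramified at `q`, the level `U₀ ≤ U` is unramified. -/
theorem h3fj_unrLevel (hur : gl_UnramAt q F) (ι : F →ₐ[ℚ] PadicAlgCl q) :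
    unr_IsUnrLevel (gl_locU q F H ι) (gsup_U0 q F ι) := by
  intro x hx
  have hqp : q.Prime := Fact.out
  have hx1 : (x : PadicAlgCl q) ∈ IntermediateField.fixedField (gsup_U0 q F ι) := by
    rw [IntermediateField.mem_fixedField_iff]
    intro s hs
    exact congrArg Units.val (hx ⟨s, hs⟩)
  rw [gsup_fixedField_U0] at hx1
  obtain ⟨k, hk⟩ := gsup_unram_adjoin hur ι (x : PadicAlgCl q) hx1 x.ne_zero
  have hq0 : ((q : ℕ) : PadicAlgCl q) ≠ 0 := Nat.cast_ne_zero.2 hqp.ne_zero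
  refine ⟨(Units.mk0 ((q : ℕ) : PadicAlgCl q) hq0) ^ (-k), ?_, ?_⟩
  · intro g
    have h1 : g • Units.mk0 ((q : ℕ) : PadicAlgCl q) hq0 =
        Units.mk0 ((q : ℕ) : PadicAlgCl q) hq0 := by
      apply Units.ext
      show (g : lcf_Gal q) ((q : ℕ) : PadicAlgCl q) = ((q : ℕ) : PadicAlgCl q)
      exact map_natCast _ q
    rw [smul_zpow', h1]
  · have hnq : ‖((q : ℕ) : PadicAlgCl q)‖ = (q : ℝ)⁻¹ := by
      have h : ((q : ℕ) : PadicAlgCl q) = algebraMap ℚ_[q] (PadicAlgCl q) (q : ℚ_[q]) := by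
        simp
      rw [h, PadicAlgCl.norm_extends]
      exact Padic.norm_p
    rw [hk, Units.val_zpow_eq_zpow_val, Units.val_mk0, norm_zpow, hnq, inv_zpow,
      zpow_neg, inv_inv]

/-- The local cochain at `ι` from [LOC-H3U], unit-valued. -/
theorem h3fj_exists_beta_unit (hLocU : h3f_LocH3UStatement) (hur : gl_UnramAt q F)
    (z : ↥H × ↥H × ↥H → Additive Fˣ) (hz : fg_IsCocycle₃ z)
    (hu : ∀ x, gl_diagq q F (z x).toMul ∈ gl_Uq q F) (ι : F →ₐ[ℚ] PadicAlgCl q) :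
    ∃ β : ↥H × ↥H → Additive (PadicAlgCl q)ˣ, h3f_Loc₃ (hss_sys q F H) z ι β ∧
      ∀ y, β y ∈ (hss_nu q).ker := by
  obtain ⟨f, hf, hn, hd⟩ := hLocU q (gl_locU q F H ι) (gsup_U0 q F ι)
    (gsup_U0_isOpen q F ι) (gsup_isNormalIn q F H ι) (h3fj_unrLevel hur ι) (h3fj_loc₃ ι z)
    (h3fj_loc₃_isCoc ι z hz) (h3fj_loc₃_infl ι z) (fun x => hu _ ι)
  refine ⟨h3fj_beta ι f, h3fj_descent ι z f hf hd, fun y => ?_⟩
  rw [AddMonoidHom.mem_ker, hss_nu_eq_zero_iff]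
  exact h3fj_beta_norm ι f hn y

/-- The semi-local cochain, with values in a `G`-stable subgroup `M₀`. -/
theorem h3fj_semi_aux (hShap : h3f_Shap3Statement) (z : ↥H × ↥H × ↥H → Additive Fˣ)
    (hz : fg_IsCocycle₃ z) (M₀ : AddSubgroup (Additive (PadicAlgCl q)ˣ))
    (hM₀ : ∀ (g : lcf_Gal q) (m : Additive (PadicAlgCl q)ˣ), m ∈ M₀ → g • m ∈ M₀)
    (hze : ∀ (ι : F →ₐ[ℚ] PadicAlgCl q) (σ τ ρ : ↥H),
      (hss_sys q F H).e ι (z (σ, τ, ρ)) ∈ M₀)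
    (hβ : ∀ ι : F →ₐ[ℚ] PadicAlgCl q, ∃ β : ↥H × ↥H → Additive (PadicAlgCl q)ˣ,
      h3f_Loc₃ (hss_sys q F H) z ι β ∧ ∀ y, β y ∈ M₀) :
    ∃ B : ↥H × ↥H → gl_Jq q F,
      (∀ g h k : ↥H, (g : F ≃ₐ[ℚ] F) • B (h, k) / B (g * h, k) * B (g, h * k) / B (g, h) =
        gl_diagq q F (z (g, h, k)).toMul) ∧
      ∀ (y : ↥H × ↥H) (ι : F →ₐ[ℚ] PadicAlgCl q), Additive.ofMul ((B y).1 ι) ∈ M₀ := by
  obtain ⟨B, hB1, hB2, hB3⟩ := hShap (lcf_Gal q) ↥H (Additive (PadicAlgCl q)ˣ) (Additive Fˣ)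
    (F →ₐ[ℚ] PadicAlgCl q) (hss_sys q F H) z hz M₀ hM₀ hze hβ
  refine ⟨fun y => ⟨fun ι => (B y ι).toMul, fun g ι => congrArg Additive.toMul (hB1 y g ι)⟩,
    fun g h k => ?_, fun y ι => hB3 y ι⟩
  apply Subtype.ext
  funext ι
  exact congrArg Additive.toMul (hB2 g h k ι)

/-- **The semi-local cochain.** -/
theorem h3fj_semilocal (hLoc : h3f_LocH3Statement) (hShap : h3f_Shap3Statement)
    (inv : lcf_InvType) (hinv : lcf_IsInvSystem inv) (z : ↥H × ↥H × ↥H → Additive Fˣ)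
    (hz : fg_IsCocycle₃ z) :
    ∃ B : ↥H × ↥H → gl_Jq q F,
      ∀ g h k : ↥H, (g : F ≃ₐ[ℚ] F) • B (h, k) / B (g * h, k) * B (g, h * k) / B (g, h) =
        gl_diagq q F (z (g, h, k)).toMul := by
  obtain ⟨B, hB, -⟩ := h3fj_semi_aux (q := q) hShap z hz ⊤ (fun _ _ _ => AddSubgroup.mem_top _)
    (fun _ _ _ _ => AddSubgroup.mem_top _)
    (fun ι => by
      obtain ⟨β, hβ⟩ := h3fj_exists_beta hLoc inv hinv z hz ι
      exact ⟨β, hβ, fun _ => AddSubgroup.mem_top _⟩)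
  exact ⟨B, hB⟩

/-- **The semi-local cochain, unit-valued** at the primes where `F` is unramified and `z` is
unit-valued. -/
theorem h3fj_semilocal_unit (hLocU : h3f_LocH3UStatement) (hShap : h3f_Shap3Statement)
    (hur : gl_UnramAt q F) (z : ↥H × ↥H × ↥H → Additive Fˣ) (hz : fg_IsCocycle₃ z)
    (hu : ∀ x, gl_diagq q F (z x).toMul ∈ gl_Uq q F) :
    ∃ B : ↥H × ↥H → gl_Jq q F,
      (∀ g h k : ↥H, (g : F ≃ₐ[ℚ] F) • B (h, k) / B (g * h, k) * B (g, h * k) / B (g, h) =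
        gl_diagq q F (z (g, h, k)).toMul) ∧
      ∀ y, B y ∈ gl_Uq q F := by
  obtain ⟨B, hB1, hB2⟩ := h3fj_semi_aux (q := q) hShap z hz (hss_nu q).ker
    (fun g m hm => by
      rw [AddMonoidHom.mem_ker] at hm ⊢
      rw [hss_nu_smul, hm])
    (fun ι σ τ ρ => by
      rw [AddMonoidHom.mem_ker, hss_nu_eq_zero_iff]
      exact hu (σ, τ, ρ) ι)
    (fun ι => h3fj_exists_beta_unit hLocU hur z hz hu ι)
  refine ⟨B, hB1, fun y ι => ?_⟩
  have h1 := hB2 y ι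
  rw [AddMonoidHom.mem_ker, hss_nu_eq_zero_iff] at h1
  exact h1

end h3fj_semi

end

end Fermat.Agent.S55
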