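/-
S55 (Poitou-Tate), GLOBAL side, leaf [SHAP-3] of helper17's cut of [AK-H3F] (helper28).
Prefix `h3s_`.

    theorem h3s_main : h3f_Shap3Statement          (HYPOTHESIS-FREE, pure algebra)

Semi-local Shapiro (injectivity) in degree 3 in helper10's abstract system `hss_Sys`.

PROOF.  Fix a base point `x₀`, `D = hss_D S x₀` its decomposition group, `r` representatives of
`D \ H` (`hss_exists_rep`), `p h = h * (r h)⁻¹ ∈ D` (so `p (δ h) = δ p h` for `δ ∈ D`), and lifts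
`lift δ ∈ G` of the elements of `D`.  In HOMOGENEOUS coordinates put

    Z (h₀, h₁, h₂, h₃) = e x₀ (h₀ • z (h₀⁻¹ h₁, h₁⁻¹ h₂, h₂⁻¹ h₃))        (a 3-cocycle, `h3s_Z_coc`)
    b (d₀, d₁, d₂)     = lift d₀ • β (d₀⁻¹ d₁, d₁⁻¹ d₂)                    (`d b = Z` on `D`)
    F (h₀, h₁, h₂)     = b (p h₀, p h₁, p h₂) - Z (h₀, p h₀, p h₁, p h₂)
                           + Z (h₀, h₁, p h₁, p h₂) - Z (h₀, h₁, h₂, p h₂)   (the prism operator)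

Then `d F = Z` (`h3s_F_coc`: the prism identity, four instances of the cocycle identity of `Z`
and `d b = Z` at `(p h₀, .., p h₃)`) and `g • F (h₀, h₁, h₂) = F (δ h₀, δ h₁, δ h₂)` for every
lift `g` of `δ ∈ D` (`h3s_F_smul`).  Finally, for `x = g ∘ x₀ ∘ ν` (`x₀` the base point of the
class of `x`), `B (τ, ρ) x = g • F (ν, ν τ, ν τ ρ)`.
-/
import Mathlib
import Fermat.Agent.S55.Global.H3FDefs

set_option autoImplicit false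

namespace Fermat.Agent.S55

open groupCohomology

section h3s_local

variable {G H M A X : Type*} [Group G] [Group H] [AddCommGroup M]
  [DistribMulAction G M] [AddCommGroup A] [DistribMulAction H A]
  (S : hss_Sys G H M A X) (z : H × H × H → A)

/-- The homogeneous form of `e x₀ ∘ z`. -/
def h3s_Z (x₀ : X) (h₀ h₁ h₂ h₃ : H) : M :=
  S.e x₀ (h₀ • z (h₀⁻¹ * h₁, h₁⁻¹ * h₂, h₂⁻¹ * h₃))

/-- The homogeneous form of the local cochain `β`. -/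
def h3s_b (lift : H → G) (β : H × H → M) (d₀ d₁ d₂ : H) : M :=
  lift d₀ • β (d₀⁻¹ * d₁, d₁⁻¹ * d₂)

/-- The projection `H → D` along the representatives `r`. -/
def h3s_p (r : H → H) (h : H) : H := h * (r h)⁻¹

/-- The prism operator applied to `Z`, corrected by `b`. -/
def h3s_F (x₀ : X) (r : H → H) (lift : H → G) (β : H × H → M) (h₀ h₁ h₂ : H) : M :=
  h3s_b lift β (h3s_p r h₀) (h3s_p r h₁) (h3s_p r h₂)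
    - h3s_Z S z x₀ h₀ (h3s_p r h₀) (h3s_p r h₁) (h3s_p r h₂)
    + h3s_Z S z x₀ h₀ h₁ (h3s_p r h₁) (h3s_p r h₂)
    - h3s_Z S z x₀ h₀ h₁ h₂ (h3s_p r h₂)

variable {S z}

theorem h3s_Z_coc (hz : fg_IsCocycle₃ z) (x₀ : X) (h₀ h₁ h₂ h₃ h₄ : H) :
    h3s_Z S z x₀ h₁ h₂ h₃ h₄ - h3s_Z S z x₀ h₀ h₂ h₃ h₄ + h3s_Z S z x₀ h₀ h₁ h₃ h₄
      - h3s_Z S z x₀ h₀ h₁ h₂ h₄ + h3s_Z S z x₀ h₀ h₁ h₂ h₃ = 0 := by
  have h := hz (h₀⁻¹ * h₁) (h₁⁻¹ * h₂) (h₂⁻¹ * h₃) (h₃⁻¹ * h₄)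
  have e1 : h₀⁻¹ * h₁ * (h₁⁻¹ * h₂) = h₀⁻¹ * h₂ := by group
  have e2 : h₁⁻¹ * h₂ * (h₂⁻¹ * h₃) = h₁⁻¹ * h₃ := by group
  have e3 : h₂⁻¹ * h₃ * (h₃⁻¹ * h₄) = h₂⁻¹ * h₄ := by group
  rw [e1, e2, e3] at h
  have h' := congrArg (fun a => S.e x₀ (h₀ • a)) h
  simp only [smul_add, smul_sub, smul_zero, map_add, map_sub, map_zero, smul_smul,
    mul_inv_cancel_left] at h'
  unfold h3s_Z
  linear_combination (norm := abel) h'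

theorem h3s_Z_smul (x₀ : X) (g : G) (δ : H) (hg : S.tw g x₀ = S.rc x₀ δ) (h₀ h₁ h₂ h₃ : H) :
    g • h3s_Z S z x₀ h₀ h₁ h₂ h₃ = h3s_Z S z x₀ (δ * h₀) (δ * h₁) (δ * h₂) (δ * h₃) := by
  have e1 : (δ * h₀)⁻¹ * (δ * h₁) = h₀⁻¹ * h₁ := by group
  have e2 : (δ * h₁)⁻¹ * (δ * h₂) = h₁⁻¹ * h₂ := by group
  have e3 : (δ * h₂)⁻¹ * (δ * h₃) = h₂⁻¹ * h₃ := by group
  unfold h3s_Z
  rw [e1, e2, e3, hss_smul_e S x₀ g δ hg, smul_smul]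

theorem h3s_Z_mem (M₀ : AddSubgroup M)
    (hM₀ : ∀ (x : X) (σ τ ρ : H), S.e x (z (σ, τ, ρ)) ∈ M₀) (x₀ : X) (h₀ h₁ h₂ h₃ : H) :
    h3s_Z S z x₀ h₀ h₁ h₂ h₃ ∈ M₀ := by
  unfold h3s_Z
  rw [← S.e_rc]
  exact hM₀ _ _ _ _

theorem h3s_p_mul {D : Subgroup H} {r : H → H} (hr2 : ∀ δ ∈ D, ∀ σ, r (δ * σ) = r σ)
    (δ : H) (hδ : δ ∈ D) (h : H) : h3s_p r (δ * h) = δ * h3s_p r h := by
  unfold h3s_p
  rw [hr2 δ hδ h, mul_assoc]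

/-- A choice of lifts of the elements of the decomposition group. -/
theorem h3s_exists_lift (S : hss_Sys G H M A X) (x₀ : X) :
    ∃ lift : H → G, ∀ δ ∈ hss_D S x₀, S.tw (lift δ) x₀ = S.rc x₀ δ := by
  classical
  refine ⟨fun δ => if h : ∃ g : G, S.tw g x₀ = S.rc x₀ δ then Classical.choose h else 1,
    fun δ hδ => ?_⟩
  have h : ∃ g : G, S.tw g x₀ = S.rc x₀ δ := hδ
  simp only [dif_pos h]
  exact Classical.choose_spec h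

theorem h3s_tw_mul_lift (x₀ : X) (g g' : G) (δ δ' : H) (hg : S.tw g x₀ = S.rc x₀ δ)
    (hg' : S.tw g' x₀ = S.rc x₀ δ') : S.tw (g * g') x₀ = S.rc x₀ (δ * δ') := by
  rw [S.tw_mul, hg', S.tw_rc, hg, S.rc_mul]

theorem h3s_tw_inv_lift (x₀ : X) (g : G) (δ : H) (hg : S.tw g x₀ = S.rc x₀ δ) :
    S.tw g⁻¹ x₀ = S.rc x₀ δ⁻¹ := by
  have h1 : S.tw g⁻¹ (S.rc x₀ δ) = x₀ := by rw [← hg, hss_tw_inv]
  rw [S.tw_rc] at h1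
  have h2 := congrArg (fun y => S.rc y δ⁻¹) h1
  simp only [hss_rc_inv] at h2
  exact h2

/-- The action of a lift of `σ ∈ D` on the values of `β` on `D × D` does not depend on the
lift. -/
theorem h3s_beta_indep {x₀ : X} {β : H × H → M} (hβ : h3f_Loc₃ S z x₀ β)
    (g₁ g₂ : G) (σ : H) (h₁ : S.tw g₁ x₀ = S.rc x₀ σ) (h₂ : S.tw g₂ x₀ = S.rc x₀ σ)
    (τ ρ : H) (hτ : τ ∈ hss_D S x₀) (hρ : ρ ∈ hss_D S x₀) :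
    g₁ • β (τ, ρ) = g₂ • β (τ, ρ) := by
  obtain ⟨h, hh⟩ := hτ
  obtain ⟨k, hk⟩ := hρ
  have e1 := hβ g₁ h k σ τ ρ h₁ hh hk
  have e2 := hβ g₂ h k σ τ ρ h₂ hh hk
  linear_combination (norm := abel) e1 - e2

theorem h3s_b_smul {x₀ : X} {β : H × H → M} (hβ : h3f_Loc₃ S z x₀ β) {lift : H → G}
    (hl : ∀ δ ∈ hss_D S x₀, S.tw (lift δ) x₀ = S.rc x₀ δ)
    (g : G) (δ : H) (hg : S.tw g x₀ = S.rc x₀ δ) (d₀ d₁ d₂ : H)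
    (h₀ : d₀ ∈ hss_D S x₀) (h₁ : d₁ ∈ hss_D S x₀) (h₂ : d₂ ∈ hss_D S x₀) :
    g • h3s_b lift β d₀ d₁ d₂ = h3s_b lift β (δ * d₀) (δ * d₁) (δ * d₂) := by
  have hδ : δ ∈ hss_D S x₀ := ⟨g, hg⟩
  have e1 : (δ * d₀)⁻¹ * (δ * d₁) = d₀⁻¹ * d₁ := by group
  have e2 : (δ * d₁)⁻¹ * (δ * d₂) = d₁⁻¹ * d₂ := by group
  unfold h3s_b
  rw [e1, e2, smul_smul]
  exact h3s_beta_indep hβ _ _ (δ * d₀) (h3s_tw_mul_lift x₀ g (lift d₀) δ d₀ hg (hl d₀ h₀))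
    (hl _ ((hss_D S x₀).mul_mem hδ h₀)) _ _
    ((hss_D S x₀).mul_mem ((hss_D S x₀).inv_mem h₀) h₁)
    ((hss_D S x₀).mul_mem ((hss_D S x₀).inv_mem h₁) h₂)

theorem h3s_b_coc {x₀ : X} {β : H × H → M} (hβ : h3f_Loc₃ S z x₀ β) {lift : H → G}
    (hl : ∀ δ ∈ hss_D S x₀, S.tw (lift δ) x₀ = S.rc x₀ δ) (d₀ d₁ d₂ d₃ : H)
    (h₀ : d₀ ∈ hss_D S x₀) (h₁ : d₁ ∈ hss_D S x₀) (h₂ : d₂ ∈ hss_D S x₀)
    (h₃ : d₃ ∈ hss_D S x₀) :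
    h3s_b lift β d₁ d₂ d₃ - h3s_b lift β d₀ d₂ d₃ + h3s_b lift β d₀ d₁ d₃
      - h3s_b lift β d₀ d₁ d₂ = h3s_Z S z x₀ d₀ d₁ d₂ d₃ := by
  have hσ : S.tw ((lift d₀)⁻¹ * lift d₁) x₀ = S.rc x₀ (d₀⁻¹ * d₁) :=
    h3s_tw_mul_lift x₀ _ _ _ _ (h3s_tw_inv_lift x₀ _ _ (hl d₀ h₀)) (hl d₁ h₁)
  obtain ⟨h, hh⟩ : d₁⁻¹ * d₂ ∈ hss_D S x₀ := (hss_D S x₀).mul_mem ((hss_D S x₀).inv_mem h₁) h₂
  obtain ⟨k, hk⟩ : d₂⁻¹ * d₃ ∈ hss_D S x₀ := (hss_D S x₀).mul_mem ((hss_D S x₀).inv_mem h₂) h₃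
  have e := hβ _ h k _ _ _ hσ hh hk
  have e1 : d₀⁻¹ * d₁ * (d₁⁻¹ * d₂) = d₀⁻¹ * d₂ := by group
  have e2 : d₁⁻¹ * d₂ * (d₂⁻¹ * d₃) = d₁⁻¹ * d₃ := by group
  rw [e1, e2] at e
  have e' := congrArg (fun m => lift d₀ • m) e
  simp only [smul_add, smul_sub, smul_smul, mul_inv_cancel_left] at e'
  rw [hss_smul_e S x₀ (lift d₀) d₀ (hl d₀ h₀)] at e'
  unfold h3s_b h3s_Z
  exact e'

theorem h3s_p_mem {D : Subgroup H} {r : H → H} (hr1 : ∀ σ, σ * (r σ)⁻¹ ∈ D) (h : H) :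
    h3s_p r h ∈ D := hr1 h

theorem h3s_F_smul {x₀ : X} {β : H × H → M} (hβ : h3f_Loc₃ S z x₀ β) {lift : H → G}
    (hl : ∀ δ ∈ hss_D S x₀, S.tw (lift δ) x₀ = S.rc x₀ δ) {r : H → H}
    (hr1 : ∀ σ, σ * (r σ)⁻¹ ∈ hss_D S x₀) (hr2 : ∀ δ ∈ hss_D S x₀, ∀ σ, r (δ * σ) = r σ)
    (g : G) (δ : H) (hg : S.tw g x₀ = S.rc x₀ δ) (h₀ h₁ h₂ : H) :
    g • h3s_F S z x₀ r lift β h₀ h₁ h₂ = h3s_F S z x₀ r lift β (δ * h₀) (δ * h₁) (δ * h₂) := by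
  have hδ : δ ∈ hss_D S x₀ := ⟨g, hg⟩
  unfold h3s_F
  rw [h3s_p_mul hr2 δ hδ h₀, h3s_p_mul hr2 δ hδ h₁, h3s_p_mul hr2 δ hδ h₂, smul_sub, smul_add,
    smul_sub, h3s_b_smul hβ hl g δ hg _ _ _ (h3s_p_mem hr1 h₀) (h3s_p_mem hr1 h₁)
      (h3s_p_mem hr1 h₂), h3s_Z_smul x₀ g δ hg, h3s_Z_smul x₀ g δ hg, h3s_Z_smul x₀ g δ hg]

/-- The prism identity: `d F = Z`. -/
theorem h3s_F_coc (hz : fg_IsCocycle₃ z) {x₀ : X} {β : H × H → M} (hβ : h3f_Loc₃ S z x₀ β)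
    {lift : H → G} (hl : ∀ δ ∈ hss_D S x₀, S.tw (lift δ) x₀ = S.rc x₀ δ) {r : H → H}
    (hr1 : ∀ σ, σ * (r σ)⁻¹ ∈ hss_D S x₀) (h₀ h₁ h₂ h₃ : H) :
    h3s_F S z x₀ r lift β h₁ h₂ h₃ - h3s_F S z x₀ r lift β h₀ h₂ h₃
      + h3s_F S z x₀ r lift β h₀ h₁ h₃ - h3s_F S z x₀ r lift β h₀ h₁ h₂ =
      h3s_Z S z x₀ h₀ h₁ h₂ h₃ := by
  have hb := h3s_b_coc hβ hl _ _ _ _ (h3s_p_mem hr1 h₀) (h3s_p_mem hr1 h₁) (h3s_p_mem hr1 h₂)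
    (h3s_p_mem hr1 h₃)
  have T0 := h3s_Z_coc (S := S) hz x₀ h₀ (h3s_p r h₀) (h3s_p r h₁) (h3s_p r h₂) (h3s_p r h₃)
  have T1 := h3s_Z_coc (S := S) hz x₀ h₀ h₁ (h3s_p r h₁) (h3s_p r h₂) (h3s_p r h₃)
  have T2 := h3s_Z_coc (S := S) hz x₀ h₀ h₁ h₂ (h3s_p r h₂) (h3s_p r h₃)
  have T3 := h3s_Z_coc (S := S) hz x₀ h₀ h₁ h₂ h₃ (h3s_p r h₃)
  unfold h3s_F
  linear_combination (norm := abel) hb + T0 - T1 + T2 - T3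

theorem h3s_F_mem (M₀ : AddSubgroup M) (hG : ∀ (g : G) (m : M), m ∈ M₀ → g • m ∈ M₀)
    (hM₀ : ∀ (x : X) (σ τ ρ : H), S.e x (z (σ, τ, ρ)) ∈ M₀) (x₀ : X) (r : H → H)
    (lift : H → G) (β : H × H → M) (hβ : ∀ y, β y ∈ M₀) (h₀ h₁ h₂ : H) :
    h3s_F S z x₀ r lift β h₀ h₁ h₂ ∈ M₀ := by
  unfold h3s_F
  refine M₀.sub_mem (M₀.add_mem (M₀.sub_mem ?_ (h3s_Z_mem M₀ hM₀ _ _ _ _ _))
    (h3s_Z_mem M₀ hM₀ _ _ _ _ _)) (h3s_Z_mem M₀ hM₀ _ _ _ _ _)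
  unfold h3s_b
  exact hG _ _ (hβ _)

/-- The local package at `x₀`: a homogeneous 2-cochain `F` with `d F = Z`, equivariant for the
decomposition group, with values in `M₀`. -/
theorem h3s_local (hz : fg_IsCocycle₃ z) (M₀ : AddSubgroup M)
    (hG : ∀ (g : G) (m : M), m ∈ M₀ → g • m ∈ M₀)
    (hM₀ : ∀ (x : X) (σ τ ρ : H), S.e x (z (σ, τ, ρ)) ∈ M₀) (x₀ : X)
    (hloc : ∃ β : H × H → M, h3f_Loc₃ S z x₀ β ∧ ∀ y, β y ∈ M₀) :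
    ∃ F : H → H → H → M,
      (∀ (g : G) (δ : H), S.tw g x₀ = S.rc x₀ δ → ∀ h₀ h₁ h₂ : H,
        g • F h₀ h₁ h₂ = F (δ * h₀) (δ * h₁) (δ * h₂)) ∧
      (∀ h₀ h₁ h₂ h₃ : H, F h₁ h₂ h₃ - F h₀ h₂ h₃ + F h₀ h₁ h₃ - F h₀ h₁ h₂ =
        h3s_Z S z x₀ h₀ h₁ h₂ h₃) ∧
      ∀ h₀ h₁ h₂ : H, F h₀ h₁ h₂ ∈ M₀ := by
  obtain ⟨β, hβ, hβM⟩ := hloc
  obtain ⟨r, hr1, hr2⟩ := hss_exists_rep (hss_D S x₀)
  obtain ⟨lift, hl⟩ := h3s_exists_lift S x₀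
  exact ⟨h3s_F S z x₀ r lift β, fun g δ hg h₀ h₁ h₂ => h3s_F_smul hβ hl hr1 hr2 g δ hg h₀ h₁ h₂,
    fun h₀ h₁ h₂ h₃ => h3s_F_coc hz hβ hl hr1 h₀ h₁ h₂ h₃,
    fun h₀ h₁ h₂ => h3s_F_mem M₀ hG hM₀ x₀ r lift β hβM h₀ h₁ h₂⟩

end h3s_local

section h3s_glob

variable {G H M A X : Type*} [Group G] [Group H] [AddCommGroup M]
  [DistribMulAction G M] [AddCommGroup A] [DistribMulAction H A]
  (S : hss_Sys G H M A X) (z : H × H × H → A)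

/-- The semi-local 2-cochain. -/
noncomputable def h3s_B (F : X → H → H → H → M) (y : H × H) (x : X) : M :=
  hss_gam S x • F (hss_base S x) (hss_sig S x) (hss_sig S x * y.1) (hss_sig S x * y.1 * y.2)

variable {S z}

theorem h3s_B_eq {F : X → H → H → H → M}
    (hE : ∀ (x₀ : X) (g : G) (δ : H), S.tw g x₀ = S.rc x₀ δ → ∀ h₀ h₁ h₂ : H,
      g • F x₀ h₀ h₁ h₂ = F x₀ (δ * h₀) (δ * h₁) (δ * h₂))
    (y : H × H) (x : X) (g : G) (ν : H) (h : x = S.tw g (S.rc (hss_base S x) ν)) :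
    h3s_B S F y x = g • F (hss_base S x) ν (ν * y.1) (ν * y.1 * y.2) := by
  have h0 := hss_gam_spec S x
  have h1 : S.tw (hss_gam S x) (S.rc (hss_base S x) (hss_sig S x)) =
      S.tw g (S.rc (hss_base S x) ν) := by rw [← h0, ← h]
  have h2 := congrArg (S.tw g⁻¹) h1
  rw [hss_tw_inv, ← S.tw_mul, S.tw_rc] at h2
  have h3 := congrArg (fun y => S.rc y (hss_sig S x)⁻¹) h2
  simp only [hss_rc_inv] at h3
  rw [← S.rc_mul] at h3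
  have h4 := hE (hss_base S x) (g⁻¹ * hss_gam S x) (ν * (hss_sig S x)⁻¹) h3 (hss_sig S x)
    (hss_sig S x * y.1) (hss_sig S x * y.1 * y.2)
  have e1 : ν * (hss_sig S x)⁻¹ * hss_sig S x = ν := inv_mul_cancel_right _ _
  have e2 : ν * (hss_sig S x)⁻¹ * (hss_sig S x * y.1) = ν * y.1 := by group
  have e3 : ν * (hss_sig S x)⁻¹ * (hss_sig S x * y.1 * y.2) = ν * y.1 * y.2 := by group
  rw [e1, e2, e3] at h4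
  unfold h3s_B
  rw [← h4, smul_smul, mul_inv_cancel_left]

theorem h3s_B_tw {F : X → H → H → H → M}
    (hE : ∀ (x₀ : X) (g : G) (δ : H), S.tw g x₀ = S.rc x₀ δ → ∀ h₀ h₁ h₂ : H,
      g • F x₀ h₀ h₁ h₂ = F x₀ (δ * h₀) (δ * h₁) (δ * h₂))
    (y : H × H) (h : G) (x : X) :
    h3s_B S F y (S.tw h x) = h • h3s_B S F y x := by
  have h1 : S.tw h x = S.tw (h * hss_gam S x)
      (S.rc (hss_base S (S.tw h x)) (hss_sig S x)) := by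
    rw [hss_base_tw, S.tw_mul, ← hss_gam_spec]
  rw [h3s_B_eq hE y (S.tw h x) (h * hss_gam S x) (hss_sig S x) h1, hss_base_tw, mul_smul]
  rfl

theorem h3s_B_coc {F : X → H → H → H → M}
    (hE : ∀ (x₀ : X) (g : G) (δ : H), S.tw g x₀ = S.rc x₀ δ → ∀ h₀ h₁ h₂ : H,
      g • F x₀ h₀ h₁ h₂ = F x₀ (δ * h₀) (δ * h₁) (δ * h₂))
    (hC : ∀ (x₀ : X) (h₀ h₁ h₂ h₃ : H),
      F x₀ h₁ h₂ h₃ - F x₀ h₀ h₂ h₃ + F x₀ h₀ h₁ h₃ - F x₀ h₀ h₁ h₂ =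
        h3s_Z S z x₀ h₀ h₁ h₂ h₃)
    (σ τ ρ : H) (x : X) :
    h3s_B S F (τ, ρ) (S.rc x σ) - h3s_B S F (σ * τ, ρ) x + h3s_B S F (σ, τ * ρ) x
      - h3s_B S F (σ, τ) x = S.e x (z (σ, τ, ρ)) := by
  have h1 : S.rc x σ = S.tw (hss_gam S x)
      (S.rc (hss_base S (S.rc x σ)) (hss_sig S x * σ)) := by
    rw [hss_base_rc, S.rc_mul, S.tw_rc, S.tw_rc, ← S.tw_rc, ← hss_gam_spec]
  rw [h3s_B_eq hE (τ, ρ) (S.rc x σ) (hss_gam S x) (hss_sig S x * σ) h1, hss_base_rc]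
  have h2 : S.e x (z (σ, τ, ρ)) =
      hss_gam S x • S.e (hss_base S x) (hss_sig S x • z (σ, τ, ρ)) := by
    conv_lhs => rw [hss_gam_spec S x]
    rw [S.e_tw, S.e_rc]
  have h3 := hC (hss_base S x) (hss_sig S x) (hss_sig S x * σ) (hss_sig S x * σ * τ)
    (hss_sig S x * σ * τ * ρ)
  have e1 : (hss_sig S x)⁻¹ * (hss_sig S x * σ) = σ := inv_mul_cancel_left _ _
  have e2 : (hss_sig S x * σ)⁻¹ * (hss_sig S x * σ * τ) = τ := inv_mul_cancel_left _ _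
  have e3 : (hss_sig S x * σ * τ)⁻¹ * (hss_sig S x * σ * τ * ρ) = ρ := inv_mul_cancel_left _ _
  unfold h3s_Z at h3
  rw [e1, e2, e3] at h3
  rw [h2, ← h3]
  unfold h3s_B
  simp only [smul_add, smul_sub, mul_assoc]

theorem h3s_B_mem {F : X → H → H → H → M} (M₀ : AddSubgroup M)
    (hG : ∀ (g : G) (m : M), m ∈ M₀ → g • m ∈ M₀)
    (hF : ∀ (x₀ : X) (h₀ h₁ h₂ : H), F x₀ h₀ h₁ h₂ ∈ M₀) (y : H × H) (x : X) :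
    h3s_B S F y x ∈ M₀ := hG _ _ (hF _ _ _ _)

/-- **[SHAP-3]**, universe-polymorphic form. -/
theorem h3s_abs_main (hz : fg_IsCocycle₃ z) (M₀ : AddSubgroup M)
    (hG : ∀ (g : G) (m : M), m ∈ M₀ → g • m ∈ M₀)
    (hM₀ : ∀ (x : X) (σ τ ρ : H), S.e x (z (σ, τ, ρ)) ∈ M₀)
    (hloc : ∀ x₀ : X, ∃ β : H × H → M, h3f_Loc₃ S z x₀ β ∧ ∀ y, β y ∈ M₀) :
    ∃ B : H × H → X → M,
      (∀ (y : H × H) (g : G) (x : X), B y (S.tw g x) = g • B y x) ∧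
      (∀ (σ τ ρ : H) (x : X),
        B (τ, ρ) (S.rc x σ) - B (σ * τ, ρ) x + B (σ, τ * ρ) x - B (σ, τ) x =
          S.e x (z (σ, τ, ρ))) ∧
      ∀ (y : H × H) (x : X), B y x ∈ M₀ := by
  choose F hE hC hF using fun x₀ => h3s_local hz M₀ hG hM₀ x₀ (hloc x₀)
  exact ⟨h3s_B S F, fun y g x => h3s_B_tw hE y g x, fun σ τ ρ x => h3s_B_coc hE hC σ τ ρ x,
    fun y x => h3s_B_mem M₀ hG hF y x⟩

end h3s_glob

/-- **[SHAP-3]** semi-local Shapiro (injectivity) in degree 3. -/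
theorem h3s_main : h3f_Shap3Statement := by
  intro G H M A X _ _ _ _ _ _ S z hz M₀ hG hM₀ hloc
  exact h3s_abs_main hz M₀ hG hM₀ hloc

end Fermat.Agent.S55
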