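/-
S55 (Poitou-Tate), GLOBAL side, leaf [J-H3] of helper17's cut of [AK-H3F] (helper14), part 3:
the IDELES.  Prefix `h3fj_`.

    theorem h3fj_main :
      h3f_LocH3Statement → h3f_LocH3UStatement → h3f_Shap3Statement → h3f_JH3Statement

`H³(H, J_F) = 0` on principal cocycles: the diagonal image of a 3-cocycle `z` of `H` with values
in `Fˣ` is the coboundary of an idele-valued 2-cochain.  At every prime the semi-local cochain of
`Global/H3FJSemi.lean`; it is unit-valued outside the finite set of the primes where `F` is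
ramified (`ramf_main`) or some value of `z` is not a unit (`gdiag_finite`).
-/
import Mathlib
import Fermat.Agent.S55.Global.H3FJSemi
import Fermat.Agent.S55.Global.Diag
import Fermat.Agent.S55.Global.RamFin
import Fermat.Agent.S55.Global.H3FShap3

set_option autoImplicit false

namespace Fermat.Agent.S55

open groupCohomology

noncomputable section

/-- **[J-H3]** from [LOC-H3], [LOC-H3U] and [SHAP-3]. -/
theorem h3fj_main :
    h3f_LocH3Statement → h3f_LocH3UStatement → h3f_Shap3Statement → h3f_JH3Statement := by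
  intro hLoc hLocU hShap inv hinv F _ _ H z hz
  classical
  have : Finite ↥H := inferInstance
  -- the bad primes
  have hbad : (gl_ram F ∪ ⋃ x : ↥H × ↥H × ↥H,
      {Q : Nat.Primes | gl_diagP F Q (z x).toMul ∉ gl_UP F Q}).Finite :=
    (ramf_main F).union (Set.finite_iUnion fun x => gdiag_finite (z x).toMul)
  -- the semi-local cochains
  have h1 : ∀ Q : Nat.Primes, ∃ B : ↥H × ↥H → gl_JP F Q,
      (∀ g h k : ↥H, (g : F ≃ₐ[ℚ] F) • B (h, k) / B (g * h, k) * B (g, h * k) / B (g, h) =
        gl_diagP F Q (z (g, h, k)).toMul) ∧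
      (Q ∉ (gl_ram F ∪ ⋃ x : ↥H × ↥H × ↥H,
        {Q : Nat.Primes | gl_diagP F Q (z x).toMul ∉ gl_UP F Q}) → ∀ y, B y ∈ gl_UP F Q) := by
    intro Q
    have : Fact (Q : ℕ).Prime := ⟨Q.2⟩
    by_cases hQ : Q ∈ (gl_ram F ∪ ⋃ x : ↥H × ↥H × ↥H,
        {Q : Nat.Primes | gl_diagP F Q (z x).toMul ∉ gl_UP F Q})
    · obtain ⟨B, hB⟩ := h3fj_semilocal (q := (Q : ℕ)) hLoc hShap inv hinv z hz
      exact ⟨B, hB, fun h => absurd hQ h⟩
    · have hur : gl_UnramAt (Q : ℕ) F := by
        by_contra h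
        exact hQ (Or.inl h)
      have hu : ∀ x, gl_diagq (Q : ℕ) F (z x).toMul ∈ gl_Uq (Q : ℕ) F := by
        intro x
        by_contra h
        exact hQ (Or.inr (Set.mem_iUnion.2 ⟨x, h⟩))
      obtain ⟨B, hB1, hB2⟩ := h3fj_semilocal_unit hLocU hShap hur z hz hu
      exact ⟨B, hB1, fun _ => hB2⟩
  choose B hB1 hB2 using h1
  have hJ : ∀ y : ↥H × ↥H, (fun Q => B Q y) ∈ gl_J F := by
    intro y
    refine hbad.subset ?_
    intro Q hQ
    by_contra hcon
    exact hQ (hB2 Q hcon y)
  refine ⟨fun y => Additive.ofMul ⟨fun Q => B Q y, hJ y⟩, fun g h k r => ?_⟩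
  exact hB1 r g h k

/-- **[J-H3]** with helper28's [SHAP-3] plugged in. -/
theorem h3fj_of (hLoc : h3f_LocH3Statement) (hLocU : h3f_LocH3UStatement) : h3f_JH3Statement :=
  h3fj_main hLoc hLocU h3s_main

end

end Fermat.Agent.S55
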