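/-
S55 (Poitou-Tate), GLOBAL side, package [SUPP-SUM] (helper16): idele-valued 2-cocycles with
prescribed sum of invariants.  For every embedding `ι` of `F` and every integer `y` there is an
idele-valued 2-cocycle of `H` whose invariants sum to `y / n_w`,
`n_w = [gl_locU q F H ι : gl_locU q F ⊥ ι]` the order of the decomposition group of `ι` in `H`.
Prefix `gsm_`.  Exports: `gsm_main : h3f_SuppGenStatement → h3f_SuppSumStatement`,
`gsm_fin : h3f_SuppSumStatement`.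

Proof: `lfund_fin` gives a cocycle `f₀` of `U = gl_locU q F H ι`, inflated from `U / U'`
(`U' = gl_locU q F ⊥ ι` is the kernel of `gl_locSigma`), of invariant `1 / n_w`;
`f = f₀ ^ k`, `k = (y mod n_w)`, has invariant `y / n_w` ((I1)); [SUPP-GEN] gives `c` with
localisation `f` at `ι` and trivial components elsewhere; the sum of the invariants of `c` has
one non-zero term, at the place of `ι`, equal to `inv f` by [INV-CONJ].
-/
import Mathlib
import Fermat.Agent.S55.Global.SuppGen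
import Fermat.Agent.S55.Global.InvConj
import Fermat.Agent.S55.Local.LocFundFin
import Fermat.Agent.S55.Local.H3Mu
import Fermat.Agent.S55.Local.PtInv

set_option autoImplicit false

namespace Fermat.Agent.S55

open groupCohomology

noncomputable section

/-! ### Arithmetic in `ℚ/ℤ` -/

theorem gsm_qz (n : ℕ) (y : ℤ) :
    ((y % (n : ℤ)).toNat) • lcf_qz (1 / (n : ℚ)) = lcf_qz ((y : ℚ) / (n : ℚ)) := by
  by_cases hn : n = 0
  · subst hn
    simp
  · have hn' : (n : ℤ) ≠ 0 := by exact_mod_cast hn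
    have hnq : (n : ℚ) ≠ 0 := by exact_mod_cast hn
    have h1 : (((y % (n : ℤ)).toNat : ℕ) : ℤ) = y % (n : ℤ) :=
      Int.toNat_of_nonneg (Int.emod_nonneg y hn')
    have h2 : y % (n : ℤ) = y - (n : ℤ) * (y / (n : ℤ)) := by
      have := Int.emod_add_mul_ediv y (n : ℤ)
      linarith
    have h3 : (((y % (n : ℤ)).toNat : ℕ) : ℚ) = (y : ℚ) - (n : ℚ) * ((y / (n : ℤ) : ℤ) : ℚ) := by
      have h4 : ((((y % (n : ℤ)).toNat : ℕ) : ℤ) : ℚ) = ((y - (n : ℤ) * (y / (n : ℤ)) : ℤ) : ℚ) := by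
        rw [h1, h2]
      push_cast at h4
      exact h4
    rw [← map_nsmul, nsmul_eq_mul, h3]
    have h5 : ((y : ℚ) - (n : ℚ) * ((y / (n : ℤ) : ℤ) : ℚ)) * (1 / (n : ℚ)) =
        (y : ℚ) / (n : ℚ) - ((y / (n : ℤ) : ℤ) : ℚ) := by
      field_simp
    rw [h5, map_sub, ptinv_qz_intCast, sub_zero]

/-! ### The kernel of `gl_locSigma` -/

section kernel

variable {q : ℕ} [Fact q.Prime] {F : Type} [Field F] [NumberField F]
  (H : Subgroup (F ≃ₐ[ℚ] F)) (ι : F →ₐ[ℚ] PadicAlgCl q)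

theorem gsm_mem_bot_iff (u : lcf_Gal q) :
    u ∈ gl_locU q F ⊥ ι ↔ gl_twist q F u ι = ι := by
  constructor
  · rintro ⟨σ, hσ, h⟩
    rw [Subgroup.mem_bot] at hσ
    subst hσ
    rw [h]
    ext x
    rfl
  · intro h
    exact gic_mem_locU_of_fix q F ⊥ ι u h

theorem gsm_bot_le : gl_locU q F ⊥ ι ≤ gl_locU q F H ι := fun u hu =>
  gic_mem_locU_of_fix q F H ι u ((gsm_mem_bot_iff ι u).1 hu)

theorem gsm_sigma_eq_one_iff (u : ↥(gl_locU q F H ι)) :
    gl_locSigma q F H ι u = 1 ↔ (u : lcf_Gal q) ∈ gl_locU q F ⊥ ι := by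
  constructor
  · intro h
    rw [gsm_mem_bot_iff]
    have h1 := gl_locSigma_spec q F H ι u
    rw [h] at h1
    rw [h1]
    ext x
    rfl
  · intro h
    exact gic_locSigma_of_fix q F H ι u ((gsm_mem_bot_iff ι _).1 h)

theorem gsm_bot_normal (g : lcf_Gal q) (hg : g ∈ gl_locU q F H ι) (u : lcf_Gal q)
    (hu : u ∈ gl_locU q F ⊥ ι) : g * u * g⁻¹ ∈ gl_locU q F ⊥ ι := by
  have hu' : gl_locSigma q F H ι ⟨u, gsm_bot_le H ι hu⟩ = 1 :=
    (gsm_sigma_eq_one_iff H ι _).2 hu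
  have h1 : gl_locSigma q F H ι
      ((⟨g, hg⟩ : ↥(gl_locU q F H ι)) * ⟨u, gsm_bot_le H ι hu⟩ * (⟨g, hg⟩)⁻¹) = 1 := by
    rw [gic_locSigma_mul, gic_locSigma_mul, gsg_locSigma_inv, hu', mul_one, mul_inv_cancel]
  exact (gsm_sigma_eq_one_iff H ι _).1 h1

/-- A smooth 2-cocycle of `gl_locU q F H ι`, inflated from the decomposition group, of
invariant `y / n_w`. -/
theorem gsm_exists_local (inv : lcf_InvType) (hinv : lcf_IsInvSystem inv) (y : ℤ) :
    ∃ f : ↥(gl_locU q F H ι) × ↥(gl_locU q F H ι) → (PadicAlgCl q)ˣ,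
      lcf_IsCoc (gl_locU q F H ι) f ∧
      (∀ g g' u u' : ↥(gl_locU q F H ι), gl_locSigma q F H ι u = 1 →
        gl_locSigma q F H ι u' = 1 → f (g * u, g' * u') = f (g, g')) ∧
      (∀ (g g' u : ↥(gl_locU q F H ι)), gl_locSigma q F H ι u = 1 →
        (u : lcf_Gal q) • f (g, g') = f (g, g')) ∧
      inv q (gl_locU q F H ι) f =
        lcf_qz ((y : ℚ) / (((gl_locU q F ⊥ ι).relIndex (gl_locU q F H ι) : ℕ) : ℚ)) := by
  obtain ⟨f₀, hf₀, hinf₀, hfix₀, hinv₀⟩ := lfund_fin inv hinv q (gl_locU q F H ι)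
    (gl_locU q F ⊥ ι) (gic_locU_isOpen q F H ι) (gic_locU_isOpen q F ⊥ ι) (gsm_bot_le H ι)
    (gsm_bot_normal H ι)
  set n : ℕ := (gl_locU q F ⊥ ι).relIndex (gl_locU q F H ι) with hn
  refine ⟨f₀ ^ ((y % (n : ℤ)).toNat), lh3m_isCoc_pow hf₀ _, ?_, ?_, ?_⟩
  · intro g g' u u' hu hu'
    show (f₀ (g * u, g' * u')) ^ _ = (f₀ (g, g')) ^ _
    rw [hinf₀ g g' u u' ((gsm_sigma_eq_one_iff H ι u).1 hu)
      ((gsm_sigma_eq_one_iff H ι u').1 hu')]
  · intro g g' u hu
    show (u : lcf_Gal q) • (f₀ (g, g')) ^ _ = (f₀ (g, g')) ^ _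
    rw [smul_pow', hfix₀ g g' (u : lcf_Gal q) ((gsm_sigma_eq_one_iff H ι u).1 hu)]
  · rw [lh3m_inv_pow hinv _ (gic_locU_isOpen q F H ι) hf₀, hinv₀]
    exact gsm_qz n y

end kernel

/-! ### The sum of the invariants -/

section sums

variable (inv : lcf_InvType) (hinv : lcf_IsInvSystem inv)
  {F : Type} [Field F] [NumberField F] (H : Subgroup (F ≃ₐ[ℚ] F))

include hinv in
theorem gsm_inv_trivial (r : ℕ) [Fact r.Prime] (ι' : F →ₐ[ℚ] PadicAlgCl r)
    (c : ↥H × ↥H → Additive (gl_J F))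
    (h1 : ∀ x : ↥H × ↥H,
      (((c x).toMul.1 (⟨r, Fact.out⟩ : Nat.Primes) : gl_Jq r F)).1 ι' = 1) :
    gl_invAtJ r F H ι' inv c = 0 := by
  have h2 : gl_locJ r F H ι' c = 1 := by
    funext x
    exact h1 _
  show inv r (gl_locU r F H ι') (gl_locJ r F H ι' c) = 0
  rw [h2]
  exact lh3m_inv_one hinv _ (gic_locU_isOpen r F H ι')

end sums

/-- **[SUPP-SUM]** from [SUPP-GEN]. -/
theorem gsm_main : h3f_SuppGenStatement → h3f_SuppSumStatement := by
  intro hSG inv hinv F _ _ H q _ ι y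
  obtain ⟨f, hf, hinf, hfix, hinvf⟩ := gsm_exists_local H ι inv hinv y
  obtain ⟨c, hc, hloc, hr, hι'⟩ := hSG F H q ι f hf hinf hfix
  refine ⟨c, hc, ?_⟩
  have hq0 : gl_sumPJ inv F H c (⟨q, Fact.out⟩ : Nat.Primes) =
      lcf_qz ((y : ℚ) / (((gl_locU q F ⊥ ι).relIndex (gl_locU q F H ι) : ℕ) : ℚ)) := by
    show (∑ᶠ v : gl_PlaceK q F H, gl_invAtJ q F H (Quotient.out v) inv c) = _
    refine Eq.trans (finsum_eq_single
      (fun v : gl_PlaceK q F H => gl_invAtJ q F H (Quotient.out v) inv c)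
      (Quotient.mk (gl_placeKSetoid q F H) ι : gl_PlaceK q F H) ?_) ?_
    swap
    · have hrel : (gl_placeKSetoid q F H).r ι
          (Quotient.out (Quotient.mk (gl_placeKSetoid q F H) ι : gl_PlaceK q F H)) :=
        (gl_placeKSetoid q F H).symm (Quotient.mk_out ι)
      refine ((gic_main inv hinv F H q ι _ hrel).2 c hc).trans ?_
      show inv q (gl_locU q F H ι) (gl_locJ q F H ι c) = _
      rw [hloc]
      exact hinvf
    · intro v hv
      apply gsm_inv_trivial inv hinv H q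
      intro x
      apply hι' x
      intro hrel
      apply hv
      have h1 : Quotient.mk (gl_placeKSetoid q F H) (Quotient.out v) = v := Quotient.out_eq v
      rw [← h1]
      exact (Quotient.sound hrel).symm
  have hne : ∀ r : Nat.Primes, r ≠ (⟨q, Fact.out⟩ : Nat.Primes) →
      gl_sumPJ inv F H c r = 0 := by
    intro r hr'
    have : Fact (r : ℕ).Prime := ⟨r.2⟩
    show (∑ᶠ v : gl_PlaceK (r : ℕ) F H, gl_invAtJ (r : ℕ) F H (Quotient.out v) inv c) = 0
    apply finsum_eq_zero_of_forall_eq_zero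
    intro v
    apply gsm_inv_trivial inv hinv H (r : ℕ)
    intro x
    have h2 : (c x).toMul.1 r = 1 := hr x r (fun h => hr' (Subtype.ext h))
    exact congrArg (fun z : gl_JP F r => z.1 (Quotient.out v)) h2
  show (∑ᶠ r : Nat.Primes, gl_sumPJ inv F H c r) = _
  exact (finsum_eq_single (fun r : Nat.Primes => gl_sumPJ inv F H c r)
    (⟨q, Fact.out⟩ : Nat.Primes) hne).trans hq0

/-- **[SUPP-SUM]**, hypothesis-free. -/
theorem gsm_fin : h3f_SuppSumStatement := gsm_main gsg_main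

end

end Fermat.Agent.S55
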