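/-
S55 (fifth wave), GLOBAL side, package [AK-H3F] (owner helper17): THE WIRING.

  `h3f_main : gl_FundStatement → h3f_LocH3Statement → ak_H3FStatement`

All other leaves of Global/H3FDefs.lean are on main, hypothesis-free or modulo [LOC-H3]:
[LOC-H3U] `h3u_main` (helper29), [SHAP-3] `h3s_main` (helper28), [J-H3] `h3fj_of` (helper14),
[SUPP-GEN] `gsg_main`, [SUPP-SUM] `gsm_fin` (helper16), [P-TOWER] `ptw_main` (helper1),
[H3-CORE] `h3fc_main`, [H3-ABS] `h3fa_main` (helper17).
-/
import Fermat.Agent.S55.Global.H3FCore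
import Fermat.Agent.S55.Global.H3FAbs
import Fermat.Agent.S55.Global.H3FJ
import Fermat.Agent.S55.Global.SuppSum
import Fermat.Agent.S55.Local.H3FLocU

set_option autoImplicit false

namespace Fermat.Agent.S55

/-- **[J-H3]** modulo [LOC-H3]. -/
theorem h3f_jh3_of (hLoc : h3f_LocH3Statement) : h3f_JH3Statement :=
  h3fj_of hLoc (h3u_main hLoc)

/-- **[H3-CORE]** modulo [FUND] and [LOC-H3]. -/
theorem h3f_core_of (hFund : gl_FundStatement) (hLoc : h3f_LocH3Statement) :
    h3f_CoreStatement :=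
  h3fc_main hFund (h3f_jh3_of hLoc) gsm_fin

/-- **[AK-H3F]** modulo [FUND] and [LOC-H3]. -/
theorem h3f_main (hFund : gl_FundStatement) (hLoc : h3f_LocH3Statement) : ak_H3FStatement :=
  h3fa_main (h3f_core_of hFund hLoc)

end Fermat.Agent.S55
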