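/-
S55 (fifth wave), GLOBAL side, package [E-KUM] (helper18): Kummer theory at level `S`.

`ekum_main : eco_KumStatement` (`Global/EcohDefs.lean`, verbatim), hypothesis-free.

Setting: `p` odd, `p ∈ S`, `ζ_p ∈ K`, `F` an `S`-level over `K`, `X ⊆ Fˣ` finite with
`p ^ k ∣ ord_w x` at all places `w` outside `S`.  The field
    `F' := F (Y)`,   `Y := {y | y ^ (p ^ k) = u x, x ∈ X, u ∈ G_K}`
is an `S`-level over `K`:
* `Y` is finite (roots of `(minpoly x) (T ^ (p ^ k))`) and stable under `G_K`, and so is `F`;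
* UNRAMIFIED outside `S`: `A` a valuation ring of `ℚ̄` over `q ∉ S`, `τ` in its inertia group.
  `A = g⁻¹ • padicPlace q` (`ekum_place`, conjugacy of the valuation rings over `q`), so
  `‖ι_q (g y)‖ = q ^ (-n)` and `y₀ := y / q ^ n` is a unit of `A`; `ξ := τ y / y = τ y₀ / y₀` is
  `≡ 1` modulo the maximal ideal and `ξ ^ (p ^ k) = τ x' / x' = 1` (`x' ∈ F` is fixed by `τ`);
  hence `ξ = 1` because `q ≠ p` (`ekum_root_eq_one`: `N = ∑ (1 - ξ ^ i)`).
* `p`-LEVEL: `h ∈ G_K` ⟹ `s := h ^ (p ^ n) ∈ G_F`; `s` fixes `μ_p ⊆ K`, so `t := s ^ (p ^ k)` fixes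
  `μ_(p ^ k)` (`ekum_pow_fix_roots`), and `t ^ (p ^ k)` fixes `Y` (`ekum_pow_fix`); so
  `G_K / G_F'` is a finite group all of whose elements have `p`-power order.
-/
import Mathlib
import Fermat.Agent.S55.Global.EcohDefs
import Fermat.Agent.S55.Global.EcoSup
import Fermat.Agent.S55.Global.AkUnr
import Fermat.Agent.S14.DecompApprox
import Fermat.Agent.S05.Inertia

set_option autoImplicit false
set_option linter.style.haveILetI false

open scoped Pointwise

namespace Fermat.Agent.S55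

open IntermediateField Polynomial

noncomputable section

local notation "Qbar" => AlgebraicClosure ℚ

/-! ### Powers of an automorphism on roots -/

/-- Powers of an automorphism fix what the automorphism fixes. -/
theorem ekum_pow_apply (s : s55_GQ) (z : Qbar) (h : s z = z) (m : ℕ) : (s ^ m) z = z := by
  induction m with
  | zero => rfl
  | succ m ih => rw [pow_succ', AlgEquiv.mul_apply, ih, h]

/-- If `t` fixes `x = y ^ N` and the `N`-th roots of unity, then `t ^ N` fixes `y`. -/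
theorem ekum_pow_fix (t : s55_GQ) (N : ℕ) (x y : Qbar) (hy0 : y ≠ 0) (hy : y ^ N = x)
    (hx : t x = x) (hroot : ∀ ω : Qbar, ω ^ N = 1 → t ω = ω) : (t ^ N) y = y := by
  have hx0 : x ≠ 0 := by
    rw [← hy]
    exact pow_ne_zero _ hy0
  have hωN : (t y / y) ^ N = 1 := by
    rw [div_pow, ← map_pow, hy, hx, div_self hx0]
  have htω : t (t y / y) = t y / y := hroot _ hωN
  have hty : t y = t y / y * y := by
    rw [div_mul_cancel₀ _ hy0]
  have key : ∀ m : ℕ, (t ^ m) y = (t y / y) ^ m * y := by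
    intro m
    induction m with
    | zero => rw [pow_zero, pow_zero, one_mul]; rfl
    | succ m ih =>
      rw [pow_succ', AlgEquiv.mul_apply, ih, map_mul, map_pow, htω, pow_succ, mul_assoc, ← hty]
  rw [key N, hωN, one_mul]

/-- If `s` fixes the `p`-th roots of unity, then `s ^ (p ^ j)` fixes the `p ^ (j + 1)`-th roots
of unity. -/
theorem ekum_pow_fix_roots (s : s55_GQ) (p : ℕ) (h : ∀ ω : Qbar, ω ^ p = 1 → s ω = ω) (j : ℕ) :
    ∀ ξ : Qbar, ξ ^ (p ^ (j + 1)) = 1 → (s ^ (p ^ j)) ξ = ξ := by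
  induction j with
  | zero =>
    intro ξ hξ
    rw [pow_zero, pow_one]
    apply h
    rw [zero_add, pow_one] at hξ
    exact hξ
  | succ j ih =>
    intro ξ hξ
    by_cases hξ0 : ξ = 0
    · rw [hξ0, map_zero]
    have h1 : (s ^ (p ^ j)) (ξ ^ p) = ξ ^ p := by
      apply ih
      rw [← pow_mul, ← pow_succ']
      exact hξ
    have h2 : ∀ ω : Qbar, ω ^ p = 1 → (s ^ (p ^ j)) ω = ω := fun ω hω =>
      ekum_pow_apply s ω (h ω hω) _
    have h3 := ekum_pow_fix (s ^ (p ^ j)) p (ξ ^ p) ξ hξ0 rfl h1 h2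
    rw [← pow_mul, ← pow_succ] at h3
    exact h3

/-- If `s` fixes the `p`-th roots of unity, then `s ^ (p ^ k)` fixes the `p ^ k`-th roots of
unity. -/
theorem ekum_pow_fix_roots' (s : s55_GQ) (p : ℕ) (h : ∀ ω : Qbar, ω ^ p = 1 → s ω = ω) (k : ℕ) :
    ∀ ξ : Qbar, ξ ^ (p ^ k) = 1 → (s ^ (p ^ k)) ξ = ξ := by
  intro ξ hξ
  cases k with
  | zero =>
    rw [pow_zero, pow_one] at hξ
    rw [hξ, map_one]
  | succ j =>
    have h1 := ekum_pow_fix_roots s p h j ξ hξ
    have h2 := ekum_pow_apply (s ^ (p ^ j)) ξ h1 p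
    rw [← pow_mul, ← pow_succ] at h2
    exact h2

/-! ### Roots of unity of order prime to the residue characteristic -/

/-- A root of unity of order prime to `q` which is `≡ 1` modulo the maximal ideal of a valuation
ring over `q` is `1`. -/
theorem ekum_root_eq_one (A : ValuationSubring Qbar) {q : ℕ} (hq : q.Prime)
    (hA : A.LiesOverPrime q) (N : ℕ) (hN : ¬ q ∣ N) (ξ : Qbar) (hξ : ξ ^ N = 1)
    (h : A.valuation (ξ - 1) < 1) : ξ = 1 := by
  by_contra hne
  have hN0 : N ≠ 0 := fun h0 => hN (h0 ▸ dvd_zero q)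
  have hsum : ∑ i ∈ Finset.range N, ξ ^ i = 0 := by
    have h1 := mul_geom_sum ξ N
    rw [hξ, sub_self] at h1
    exact (mul_eq_zero.1 h1).resolve_left (sub_ne_zero.2 hne)
  have hvξ : A.valuation ξ = 1 := by
    have h1 := congrArg A.valuation hξ
    rw [map_pow, map_one] at h1
    exact (pow_eq_one_iff.1 h1).resolve_right hN0
  have hterm : ∀ i : ℕ, A.valuation (ξ ^ i - 1) < 1 := by
    intro i
    have h1 : ξ ^ i - 1 = (ξ - 1) * ∑ j ∈ Finset.range i, ξ ^ j := (mul_geom_sum ξ i).symm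
    rw [h1, map_mul]
    have hle : A.valuation (∑ j ∈ Finset.range i, ξ ^ j) ≤ 1 := by
      apply Valuation.map_sum_le
      intro j _
      rw [map_pow, hvξ, one_pow]
    calc A.valuation (ξ - 1) * A.valuation (∑ j ∈ Finset.range i, ξ ^ j)
        ≤ A.valuation (ξ - 1) * 1 := mul_le_mul_right hle _
      _ < 1 := by rw [mul_one]; exact h
  have hNval : A.valuation (N : Qbar) < 1 := by
    have h1 : (N : Qbar) = - ∑ i ∈ Finset.range N, (ξ ^ i - 1) := by
      rw [Finset.sum_sub_distrib, hsum, Finset.sum_const, Finset.card_range, nsmul_eq_mul,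
        mul_one, zero_sub, neg_neg]
    rw [h1, Valuation.map_neg]
    exact Valuation.map_sum_lt _ one_ne_zero (fun i _ => hterm i)
  have h1 := Fermat.Agent.S14.redD_val_intCast_eq_one hq hA (n := (N : ℤ))
    (by exact_mod_cast hN)
  rw [Int.cast_natCast] at h1
  rw [h1] at hNval
  exact lt_irrefl _ hNval

/-! ### The valuation rings of `ℚ̄` over `q` are the places `(q, g)` -/

/-- The integers of a valuation ring over `q` which are in its maximal ideal. -/
theorem ekum_val_int_lt_one_iff (B : ValuationSubring Qbar) {q : ℕ} (hq : q.Prime)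
    (hB : B.LiesOverPrime q) (n : ℤ) : B.valuation (n : Qbar) < 1 ↔ (q : ℤ) ∣ n := by
  constructor
  · intro h
    by_contra hn
    rw [Fermat.Agent.S14.redD_val_intCast_eq_one hq hB hn] at h
    exact lt_irrefl _ h
  · rintro ⟨m, rfl⟩
    have hqv : B.valuation (q : Qbar) < 1 := (ValuationSubring.mem_nonunits_iff B).1 hB
    rw [Int.cast_mul, map_mul, Int.cast_natCast]
    calc B.valuation (q : Qbar) * B.valuation (m : Qbar)
        ≤ B.valuation (q : Qbar) * 1 :=
          mul_le_mul_right (Fermat.Agent.S14.redD_val_intCast_le B m) _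
      _ < 1 := by rw [mul_one]; exact hqv

/-- Every valuation ring of `ℚ̄` over `q` is the valuation ring of an embedding `ι_q ∘ g`. -/
theorem ekum_place (q : ℕ) [Fact q.Prime] (A : ValuationSubring Qbar) (hA : A.LiesOverPrime q) :
    ∃ g : s55_GQ, ∀ z : Qbar, z ∈ A ↔ ‖padicEmbedding q (g z)‖ ≤ 1 := by
  have hq : q.Prime := Fact.out
  obtain ⟨g, -, hg⟩ := Fermat.Agent.S14.redD_exists_smul_eq (⊥ : IntermediateField ℚ Qbar)
    (A := padicPlace q) (B := A) hq (aku_liesOver q) hA (by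
      intro z hz hint
      obtain ⟨r, rfl⟩ := IntermediateField.mem_bot.1 hz
      have h1 : IsIntegral ℤ r :=
        (isIntegral_algebraMap_iff (algebraMap ℚ Qbar).injective).1 hint
      obtain ⟨n, rfl⟩ := IsIntegrallyClosed.isIntegral_iff.1 h1
      have h2 : algebraMap ℚ Qbar (algebraMap ℤ ℚ n) = (n : Qbar) := by
        simp
      rw [h2, ekum_val_int_lt_one_iff _ hq (aku_liesOver q), ekum_val_int_lt_one_iff _ hq hA])
  refine ⟨g⁻¹, fun z => ?_⟩
  rw [hg, Fermat.Agent.S14.redD_mem_smul_iff, mem_padicPlace_iff]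
  exact Iff.rfl

/-! ### Levels -/

/-- A level over `K` is stable under `G_K`. -/
theorem ekum_stable {K F : IntermediateField ℚ Qbar} (hF : ak_IsLevel K F) (u : s55_GQ)
    (hu : u ∈ K.fixingSubgroup) (z : Qbar) (hz : z ∈ F) : u z ∈ F := by
  haveI _i1 : Algebra.IsAlgebraic ℚ Qbar := AlgebraicClosure.isAlgebraic ℚ
  haveI _i2 : IsAlgClosure ℚ Qbar := ⟨inferInstance, inferInstance⟩
  haveI _i3 : IsGalois ℚ Qbar := inferInstance
  have h1 := InfiniteGalois.fixedField_fixingSubgroup F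
  rw [← h1]
  intro s
  have h2 := hF.normal u hu s.1 s.2
  have h3 := (IntermediateField.mem_fixingSubgroup_iff F _).1 h2 z hz
  have h4 : (u⁻¹ * s.1 * u) z = u⁻¹ (s.1 (u z)) := rfl
  rw [h4] at h3
  have h5 := congrArg u h3
  rw [show u (u⁻¹ (s.1 (u z))) = s.1 (u z) from AlgEquiv.apply_symm_apply u _] at h5
  exact h5

/-- An automorphism fixing the generators fixes the field they generate. -/
theorem ekum_mem_fixing_adjoin (Y : Set Qbar) (σ : s55_GQ) (h : ∀ y ∈ Y, σ y = y) :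
    σ ∈ (adjoin ℚ Y).fixingSubgroup := by
  have h1 : adjoin ℚ Y ≤ fixedField (Subgroup.zpowers σ) := by
    rw [adjoin_le_iff]
    intro y hy
    rintro ⟨τ, hτ⟩
    obtain ⟨m, rfl⟩ := Subgroup.mem_zpowers_iff.1 hτ
    show (σ ^ m) y = y
    have h2 : σ ∈ MulAction.stabilizer s55_GQ y := h y hy
    exact (Subgroup.zpow_mem _ h2 m)
  exact (IntermediateField.le_iff_le _ _).1 h1 (Subgroup.mem_zpowers σ)

/-- `h ^ (p ^ n)` lies in a normal subgroup of index `p ^ n`. -/
theorem ekum_pow_mem {G : Type*} [Group G] (H : Subgroup G) [H.Normal] (m : ℕ)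
    (hm : H.index = m) (h : G) : h ^ m ∈ H := by
  rw [← QuotientGroup.eq_one_iff, QuotientGroup.mk_pow, ← hm, Subgroup.index_eq_card]
  exact pow_card_eq_one'

/-- A normal subgroup of finite index such that every element has a `p`-power in it has
`p`-power index. -/
theorem ekum_index_pow {G : Type*} [Group G] (H : Subgroup G) [H.Normal] (p : ℕ)
    (hp : p.Prime) (hfin : H.index ≠ 0) (h : ∀ g : G, ∃ m : ℕ, g ^ (p ^ m) ∈ H) :
    ∃ n : ℕ, H.index = p ^ n := by
  haveI : Fact p.Prime := ⟨hp⟩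
  haveI : H.FiniteIndex := ⟨hfin⟩
  haveI : Finite (G ⧸ H) := Subgroup.finite_quotient_of_finiteIndex
  have hP : IsPGroup p (G ⧸ H) := by
    intro x
    obtain ⟨g, rfl⟩ := QuotientGroup.mk_surjective x
    obtain ⟨m, hm⟩ := h g
    exact ⟨m, by rw [← QuotientGroup.mk_pow]; exact (QuotientGroup.eq_one_iff _).2 hm⟩
  obtain ⟨n, hn⟩ := IsPGroup.iff_card.1 hP
  exact ⟨n, by rw [Subgroup.index_eq_card]; exact hn⟩

/-! ### The Kummer field -/

/-- The roots: `Y := {y | y ^ N = u x, x ∈ X, u ∈ G_K}`. -/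
def ekum_Y (K : IntermediateField ℚ Qbar) (N : ℕ) (X : Finset Qbarˣ) : Set Qbar :=
  {y | ∃ x ∈ X, ∃ u ∈ K.fixingSubgroup, y ^ N = u ((x : Qbarˣ) : Qbar)}

theorem ekum_Y_finite (K : IntermediateField ℚ Qbar) (N : ℕ) (hN : 0 < N) (X : Finset Qbarˣ) :
    (ekum_Y K N X).Finite := by
  classical
  have hint : ∀ z : Qbar, IsIntegral ℚ z := fun z =>
    (AlgebraicClosure.isAlgebraic ℚ).isIntegral.isIntegral z
  refine (Set.Finite.biUnion X.finite_toSet (fun x _ =>
    ((minpoly ℚ ((x : Qbarˣ) : Qbar)).comp (Polynomial.X ^ N : ℚ[X])).rootSet_finite Qbar)).subset ?_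
  rintro y ⟨x, hx, u, -, hy⟩
  refine Set.mem_biUnion (Finset.mem_coe.2 hx) ?_
  rw [Polynomial.mem_rootSet]
  constructor
  · intro h0
    have h1 := congrArg Polynomial.natDegree h0
    rw [Polynomial.natDegree_comp, Polynomial.natDegree_X_pow, Polynomial.natDegree_zero] at h1
    rcases Nat.mul_eq_zero.1 h1 with h2 | h2
    · exact absurd h2 (minpoly.natDegree_pos (hint _)).ne'
    · exact absurd h2 hN.ne'
  · rw [Polynomial.aeval_comp, map_pow, Polynomial.aeval_X, hy]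
    have h1 := Polynomial.aeval_algHom_apply (u : Qbar →ₐ[ℚ] Qbar) ((x : Qbarˣ) : Qbar)
      (minpoly ℚ ((x : Qbarˣ) : Qbar))
    rw [minpoly.aeval, map_zero] at h1
    exact h1

theorem ekum_Y_stable (K : IntermediateField ℚ Qbar) (N : ℕ) (X : Finset Qbarˣ) (u : s55_GQ)
    (hu : u ∈ K.fixingSubgroup) (y : Qbar) (hy : y ∈ ekum_Y K N X) : u y ∈ ekum_Y K N X := by
  obtain ⟨x, hx, u', hu', hy'⟩ := hy
  refine ⟨x, hx, u * u', mul_mem hu hu', ?_⟩
  rw [← map_pow, hy']
  rfl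

/-- The Kummer field `F (Y)`. -/
def ekum_F (K F : IntermediateField ℚ Qbar) (N : ℕ) (X : Finset Qbarˣ) :
    IntermediateField ℚ Qbar :=
  F ⊔ adjoin ℚ (ekum_Y K N X)

theorem ekum_F_finite (K F : IntermediateField ℚ Qbar) (hF : FiniteDimensional ℚ F) (N : ℕ)
    (hN : 0 < N) (X : Finset Qbarˣ) : FiniteDimensional ℚ (ekum_F K F N X) := by
  haveI := hF
  haveI : Finite ↥(ekum_Y K N X) := (ekum_Y_finite K N hN X).to_subtype
  haveI : FiniteDimensional ℚ (adjoin ℚ (ekum_Y K N X)) :=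
    finiteDimensional_adjoin (fun z _ => (AlgebraicClosure.isAlgebraic ℚ).isIntegral.isIntegral z)
  exact IntermediateField.finiteDimensional_sup F _

theorem ekum_F_stable {K F : IntermediateField ℚ Qbar} (hF : ak_IsLevel K F) (N : ℕ)
    (X : Finset Qbarˣ) (u : s55_GQ) (hu : u ∈ K.fixingSubgroup) (z : Qbar)
    (hz : z ∈ ekum_F K F N X) : u z ∈ ekum_F K F N X := by
  have h1 : ekum_F K F N X ≤ (ekum_F K F N X).comap (u : Qbar →ₐ[ℚ] Qbar) := by
    refine sup_le (fun z hz => ?_) (adjoin_le_iff.2 (fun y hy => ?_))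
    · exact (le_sup_left : F ≤ ekum_F K F N X) (ekum_stable hF u hu z hz)
    · exact (le_sup_right : adjoin ℚ (ekum_Y K N X) ≤ ekum_F K F N X)
        (subset_adjoin ℚ _ (ekum_Y_stable K N X u hu y hy))
  exact h1 hz

theorem ekum_F_mem_fixing (K F : IntermediateField ℚ Qbar) (N : ℕ) (X : Finset Qbarˣ)
    (σ : s55_GQ) (hσ : σ ∈ F.fixingSubgroup) (h : ∀ y ∈ ekum_Y K N X, σ y = y) :
    σ ∈ (ekum_F K F N X).fixingSubgroup := by
  show σ ∈ (F ⊔ adjoin ℚ (ekum_Y K N X)).fixingSubgroup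
  rw [IntermediateField.fixingSubgroup_sup]
  exact ⟨hσ, ekum_mem_fixing_adjoin _ σ h⟩

theorem ekum_F_isLevel {K F : IntermediateField ℚ Qbar} (hF : ak_IsLevel K F) (N : ℕ)
    (hN : 0 < N) (X : Finset Qbarˣ) : ak_IsLevel K (ekum_F K F N X) := by
  refine ⟨hF.le.trans le_sup_left, ekum_F_finite K F hF.fin N hN X, ?_⟩
  intro u hu s hs
  rw [IntermediateField.mem_fixingSubgroup_iff] at hs ⊢
  intro z hz
  have h1 := hs (u z) (ekum_F_stable hF N X u hu z hz)
  show u⁻¹ (s (u z)) = z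
  rw [h1]
  exact AlgEquiv.symm_apply_apply u z

/-! ### Inertia fixes the roots -/

/-- The arithmetic step: if `p ^ k ∣ ord x` at all places above `q`, `N` is prime to `q`, and
the inertia element `τ` at a valuation ring over `q` fixes `x = y ^ N`, then `τ` fixes `y`. -/
theorem ekum_inertia_fix (q : ℕ) [Fact q.Prime] (A : ValuationSubring Qbar)
    (hA : A.LiesOverPrime q) (τ : s55_GQ) (hτ : τ ∈ A.inertiaSubgroupIn ℚ) (N : ℕ)
    (hN : ¬ q ∣ N) (x y : Qbar) (hy0 : y ≠ 0) (hy : y ^ N = x) (hx : τ x = x)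
    (hord : ∀ g : s55_GQ, ∃ n : ℤ, ‖padicEmbedding q (g x)‖ = (q : ℝ) ^ (-((N : ℤ) * n))) :
    τ y = y := by
  have hq : q.Prime := Fact.out
  have hN0 : N ≠ 0 := fun h0 => hN (h0 ▸ dvd_zero q)
  have hqR : (0 : ℝ) < (q : ℝ) := by exact_mod_cast hq.pos
  obtain ⟨g, hg⟩ := ekum_place q A hA
  obtain ⟨n, hn⟩ := hord g
  -- the norm of `y`
  have hny : ‖padicEmbedding q (g y)‖ = (q : ℝ) ^ (-n) := by
    have h1 : ‖padicEmbedding q (g y)‖ ^ N = ((q : ℝ) ^ (-n)) ^ N := by
      rw [← norm_pow, ← map_pow, ← map_pow, hy, hn, ← zpow_natCast ((q : ℝ) ^ (-n)) N,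
        ← zpow_mul]
      congr 1
      ring
    exact (pow_left_inj₀ (norm_nonneg _) (zpow_nonneg hqR.le _) hN0).1 h1
  -- the unit `y₀ = y / q ^ n`
  set c : Qbar := (q : Qbar) ^ n with hc
  have hc0 : c ≠ 0 := zpow_ne_zero _ (Nat.cast_ne_zero.2 hq.ne_zero)
  have hfixc : ∀ σ : s55_GQ, σ c = c := by
    intro σ
    rw [hc, map_zpow₀, map_natCast]
  have hnc : ‖padicEmbedding q (g c)‖ = (q : ℝ) ^ (-n) := by
    have hnq : ‖((q : ℕ) : PadicAlgCl q)‖ = (q : ℝ)⁻¹ := by
      have h1 : ((q : ℕ) : PadicAlgCl q) = algebraMap ℚ_[q] (PadicAlgCl q) ((q : ℕ) : ℚ_[q]) := by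
        rw [map_natCast]
      rw [h1, PadicAlgCl.norm_extends, Padic.norm_p]
    rw [hfixc g, hc, map_zpow₀, map_natCast, norm_zpow, hnq, inv_zpow']
  have hy₀0 : y / c ≠ 0 := div_ne_zero hy0 hc0
  have hn1 : ‖padicEmbedding q (g (y / c))‖ = 1 := by
    rw [map_div₀, map_div₀, norm_div, hny, hnc]
    exact div_self (zpow_ne_zero _ hqR.ne')
  have hmem : y / c ∈ A := (hg _).2 hn1.le
  have hmem' : (y / c)⁻¹ ∈ A := by
    apply (hg _).2
    rw [map_inv₀, map_inv₀, norm_inv, hn1, inv_one]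
  have hv1 : A.valuation (y / c) = 1 := by
    have h1 : A.valuation (y / c) ≤ 1 := (A.valuation_le_one_iff _).2 hmem
    have h2 : A.valuation (y / c)⁻¹ ≤ 1 := (A.valuation_le_one_iff _).2 hmem'
    rw [map_inv₀] at h2
    have h3 : 0 < A.valuation (y / c) := zero_lt_iff.2 ((Valuation.ne_zero_iff _).2 hy₀0)
    exact le_antisymm h1 ((inv_le_one₀ h3).1 h2)
  -- inertia
  have hin := Fermat.Agent.S05.inertia_sub_lt_one A τ hτ (y / c) hv1.le
  have hξ : A.valuation (τ y / y - 1) < 1 := by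
    have h1 : τ y / y - 1 = (τ (y / c) - y / c) * (y / c)⁻¹ := by
      rw [map_div₀, hfixc τ]
      field_simp
    rw [h1, map_mul, map_inv₀, hv1, inv_one, mul_one]
    exact hin
  have hξN : (τ y / y) ^ N = 1 := by
    have hx0 : x ≠ 0 := by
      rw [← hy]
      exact pow_ne_zero _ hy0
    rw [div_pow, ← map_pow, hy, hx, div_self hx0]
  have h1 := ekum_root_eq_one A hq hA N hN _ hξN hξ
  exact (div_eq_one_iff_eq hy0).1 h1

/-! ### The main theorem -/

/-- The `p`-th roots of unity lie in `K`. -/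
theorem ekum_root_mem {p : ℕ} {S : Finset Nat.Primes} {K : IntermediateField ℚ Qbar}
    (hset : eco_Setting p S K) (ω : Qbar) (hω : ω ^ p = 1) : ω ∈ K := by
  obtain ⟨ζ, hζ, hζK⟩ := hset.zeta
  haveI : NeZero p := ⟨hset.prime.ne_zero⟩
  obtain ⟨i, -, rfl⟩ := hζ.eq_pow_of_pow_eq_one hω
  exact pow_mem hζK i

/-- **[E-KUM]** Kummer theory at level `S`. -/
theorem ekum_main : eco_KumStatement := by
  intro p S K F hset hsl k X hX
  have hp : p.Prime := hset.prime
  have hN : 0 < p ^ k := pow_pos hp.pos k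
  have hlev' : ak_IsLevel K (ekum_F K F (p ^ k) X) := ekum_F_isLevel hsl.lev _ hN X
  have hYF : ∀ y ∈ ekum_Y K (p ^ k) X, y ≠ 0 ∧ y ^ (p ^ k) ∈ F := by
    rintro y ⟨x, hx, u, hu, hy⟩
    refine ⟨fun h0 => ?_, ?_⟩
    · rw [h0, zero_pow hN.ne'] at hy
      exact x.ne_zero ((map_eq_zero_iff u u.injective).1 hy.symm)
    · rw [hy]
      exact ekum_stable hsl.lev u hu _ (hX x hx).1
  refine ⟨ekum_F K F (p ^ k) X, le_sup_left, ⟨hlev', ?_, ?_⟩, ?_⟩
  · -- unramified outside `S`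
    refine ⟨hlev'.fin, fun q hq A hA τ hτ => ?_⟩
    haveI : Fact (q : ℕ).Prime := ⟨q.2⟩
    have hτF : τ ∈ F.fixingSubgroup := hsl.unr.2 q hq A hA hτ
    refine ekum_F_mem_fixing K F _ X τ hτF (fun y hy => ?_)
    have hqp : (q : ℕ) ≠ p := fun h => hq (hset.mem q h)
    have hy2 := hYF y hy
    obtain ⟨x, hx, u, hu, hy'⟩ := hy
    refine ekum_inertia_fix (q : ℕ) A hA τ hτ (p ^ k) ?_ (u ((x : Qbarˣ) : Qbar)) y hy2.1 hy'
      ?_ ?_
    · intro hdvd
      exact hqp ((Nat.prime_dvd_prime_iff_eq q.2 hp).1 (q.2.dvd_of_dvd_pow hdvd))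
    · rw [← hy']
      exact (IntermediateField.mem_fixingSubgroup_iff F τ).1 hτF _ hy2.2
    · intro g
      obtain ⟨n, hn⟩ := (hX x hx).2 (q, g * u) hq
      exact ⟨n, hn⟩
  · -- `p`-level
    obtain ⟨n, hn⟩ := hsl.pl
    haveI := esup_normal hsl.lev
    haveI := esup_normal hlev'
    refine ekum_index_pow _ p hp ?_ (fun h => ⟨n + k + k, ?_⟩)
    · -- finite index
      haveI := hlev'.fin
      haveI _i1 : Algebra.IsAlgebraic ℚ Qbar := AlgebraicClosure.isAlgebraic ℚ
      haveI _i2 : IsAlgClosure ℚ Qbar := ⟨inferInstance, inferInstance⟩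
      haveI _i3 : IsGalois ℚ Qbar := inferInstance
      have h1 := IntermediateField.finrank_eq_fixingSubgroup_index Qbar (ekum_F K F (p ^ k) X)
      have h2 : 0 < Module.finrank ℚ ↥(ekum_F K F (p ^ k) X) :=
        Module.finrank_pos (R := ℚ) (M := ↥(ekum_F K F (p ^ k) X))
      have h3 : (ekum_F K F (p ^ k) X).fixingSubgroup ≤ K.fixingSubgroup :=
        IntermediateField.fixingSubgroup_le hlev'.le
      have h4 := Subgroup.relIndex_mul_index h3
      intro h0
      have h5 : (ekum_F K F (p ^ k) X).fixingSubgroup.relIndex K.fixingSubgroup = 0 := h0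
      rw [h5, zero_mul, ← h1] at h4
      exact h2.ne h4
    · -- every element has a `p`-power in `G_F'`
      have hs : h ^ (p ^ n) ∈ F.fixingSubgroup.subgroupOf K.fixingSubgroup :=
        ekum_pow_mem _ _ hn h
      rw [Subgroup.mem_subgroupOf] at hs ⊢
      rw [Subgroup.coe_pow] at hs ⊢
      set s : s55_GQ := (h : s55_GQ) ^ (p ^ n) with hsdef
      have hsroot : ∀ ω : Qbar, ω ^ p = 1 → s ω = ω := fun ω hω =>
        (IntermediateField.mem_fixingSubgroup_iff F s).1 hs ω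
          (hsl.lev.le (ekum_root_mem hset ω hω))
      have htroot := ekum_pow_fix_roots' s p hsroot k
      have htF : s ^ (p ^ k) ∈ F.fixingSubgroup := pow_mem hs _
      have e : (h : s55_GQ) ^ (p ^ (n + k + k)) = (s ^ (p ^ k)) ^ (p ^ k) := by
        rw [hsdef, ← pow_mul, ← pow_mul, ← pow_add, ← pow_add, add_assoc]
      rw [e]
      refine ekum_F_mem_fixing K F _ X _ (pow_mem htF _) (fun y hy => ?_)
      have hy2 := hYF y hy
      exact ekum_pow_fix (s ^ (p ^ k)) (p ^ k) (y ^ (p ^ k)) y hy2.1 rfl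
        ((IntermediateField.mem_fixingSubgroup_iff F _).1 htF _ hy2.2) htroot
  · -- the roots
    intro x hx y hy
    apply (le_sup_right : adjoin ℚ (ekum_Y K (p ^ k) X) ≤ ekum_F K F (p ^ k) X)
    apply subset_adjoin
    refine ⟨x, hx, 1, one_mem _, ?_⟩
    rw [← Units.val_pow_eq_pow_val, hy]
    rfl

end

end Fermat.Agent.S55
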