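/-
S55 (fifth wave), GLOBAL side, part 3: THE CUT OF [K-SHA]
(`kl_ShaInjStatement`, `kl_ShaSurjStatement` of `Bridge/KDefs.lean`).
Owner of the interface: helper27.  Prefix `ksha_`.  Definitions and closed Props only.

SETTING (`ksha_Ctx`): `p` odd, `p ∈ S`, `K ⊆ ℚ̄` finite GALOIS over `ℚ`, unramified outside `S`,
`ζ = ld_zeta p ∈ K`, `U = G_K`, `R` representatives of the places of `K` above `S`.
Places of `K` are pairs `w = (q, g)` as in `Global/AbsDefs.lean`; `|x|_w = ‖ι_q (g x)‖`.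

ROUTE (helper26 #871).  Write `ỹ = val ∘ y : U → ℕ` and `δy (g, h) = (ỹ g + ỹ h) / p ∈ {0, 1}`
(so `ỹ g + ỹ h = ỹ (g h) + p δy (g, h)`) for a character `y : U → F_p`.
* A DATUM for `c ∈ Ш²` (`ksha_Datum`): a level `F` over `K`, unramified outside `S`,
  `b : U → Fˣ` of level `F` with `d b = ζ ^ c`, and `x ∈ Fˣ` with `b(g) ^ p = g x / x`.
  [KSHA-HASSE]: every `c ∈ Ш²` has a datum (`ζ ^ c` has all local invariants `0`: (I2) at `S`,
  AK-UNR outside; AK-HASSE gives `b`; `b ^ p` is a 1-cocycle, Hilbert 90 gives `x`).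
* The obstruction is the "ideal class" of `x` modulo `p`: `w ↦ ord_w x mod p` (`w ∉ S`).
  [KSHA-KUM]: if `ord_w (x / k) ≡ 0 mod p` for all `w ∉ S`, some `k ∈ Kˣ`, then `c = d₁ a` with
  `a` of level `S` (`β ^ p = x / k`, `F(β)` is unramified outside `S`, `b = ζ ^ a · d₀ β`).
* [KSHA-FORMULA]: for `y ∈ Ш¹` and `d₂ ε = c ∪ y`,
      `Φ := ζ ^ ε / ((b ∪ ỹ) · (x ∪ δy))`,   `Φ (g, h) = ζ ^ ε(g,h) / (b(g) ^ ỹ(h) · x ^ δy(g,h))`
  is a `p`-primary 2-cocycle with values in `ℚ̄ˣ` (`Φ ^ p = d ((x ∪ ỹ)⁻¹)`); its invariant at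
  `w ∣ S` is `kl_inv (ε ∘ r_w)` (there `ỹ = 0`, `δy = 0`), at `w ∤ S` it is
  `- ord_w x • A_w(y)`, `A_w(y) := inv_w (q ∪ δy)` (`ksha_art`; `= y(Frob_w) / p` by (I4));
  AK-RECIP:   `∑_{w ∣ S} kl_inv (ε ∘ r_w) = ∑_{w ∤ S} ord_w x • A_w(y)`.
* [KSHA-ARTPERF] (class field theory, from the [K-EX] package of helper25): if
  `∑_w N_w • A_w(y) = 0` for all `y ∈ Ш¹`, then `N ≡ ord k mod p` outside `S` for some `k ∈ Kˣ`.
* [KSHA-ARTSURJ] every additive functional on `Ш¹` is `y ↦ ∑_w N_w • A_w(y)`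
  (AK-CYCP + (I4) + finiteness of `Ш¹`).
* [KSHA-EXI] every finitely supported `N` is `ord x mod p` for the datum of some `c ∈ Ш²`
  (class number `h = p^j m`, `x = k^(1/p^j)`, `b(g) = (g x / x)^(1/p)`, `ζ ^ c := d b`;
  `c ∈ Ш²` by (I2) and [V20-INJ]).
ASSEMBLIES (helper27):
  `ksha_inj_of`  : K-H3 + HASSE + FORMULA + KUM + ARTPERF + PLACES + ORD + SAME ⟹ [K-SHA-INJ]
  `ksha_surj_of` : ARTSURJ + EXI + FORMULA + PTORS ⟹ [K-SHA-SURJ].
-/
import Fermat.Agent.S55.Bridge.KDefs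
import Fermat.Agent.S55.Global.AbsDefs

set_option autoImplicit false
set_option maxHeartbeats 1000000
set_option synthInstance.maxHeartbeats 400000
open CategoryTheory Module groupCohomology ExtCitation

noncomputable section

namespace Fermat.Agent.S55

local notation "Qbar" => AlgebraicClosure ℚ

/-! ### Vocabulary -/

section Defs

/-- The fixed primitive `p`-th root of unity `ζ = ld_zeta p`, as a unit of `ℚ̄`. -/
def ksha_zeta (p : ℕ) [Fact p.Prime] : Qbarˣ :=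
  Units.mk0 (ld_zeta p) ((ld_zeta_spec p).ne_zero (Fact.out : p.Prime).ne_zero)

/-- The prime `q`, as a unit of `ℚ̄`. -/
def ksha_qU (q : Nat.Primes) : Qbarˣ :=
  Units.mk0 (((q : ℕ) : Qbar)) (Nat.cast_ne_zero.2 q.2.ne_zero)

/-- The integral Bockstein cocycle `δy (g, h) = (ỹ g + ỹ h) / p ∈ {0, 1}`, `ỹ = val ∘ y`
(the exponent of `lcf_unrCoc`). -/
def ksha_bock {p : ℕ} {H : Type*} (y : H → ZMod p) : H × H → ℕ :=
  fun x => ((y x.1).val + (y x.2).val) / p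

/-- `ζ ^ f` for an `F_p`-valued function `f`. -/
def ksha_exp {p : ℕ} [Fact p.Prime] {X : Type*} (f : X → ZMod p) : X → Qbarˣ :=
  fun x => ksha_zeta p ^ (f x).val

variable (K : IntermediateField ℚ Qbar)

/-- The 2-cochain `a ∪ δy : (g, h) ↦ a ^ δy (g, h)` of `U = G_K` (a cocycle for `a ∈ Kˣ`). -/
def ksha_cupB {p : ℕ} (a : Qbarˣ) (y : ↥K.fixingSubgroup → ZMod p) :
    ↥K.fixingSubgroup × ↥K.fixingSubgroup → Qbarˣ :=
  fun x => a ^ ksha_bock y x

/-- **The local Artin symbol** of the character `y` at the place `w = (q, g)`: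
`A_w(y) = inv_w (q ∪ δy)`; its localisation is `lcf_unrCoc (ak_H K q g) p (y ∘ r_w) q`.
For `q ∉ S` and `y` of level `S` it is `y (Frob_w) / p` by (I4). -/
def ksha_art {p : ℕ} (inv : lcf_InvType) (y : ↥K.fixingSubgroup → ZMod p)
    (w : Nat.Primes × s55_GQ) : lcf_QZ :=
  ak_invP K inv w (ksha_cupB K (ksha_qU w.1) y)

/-- `ord_w x = N` at the place `w = (q, g)`: `‖ι_q (g x)‖ = ‖q‖ ^ N`. -/
def ksha_Ord (w : Nat.Primes × s55_GQ) (x : Qbarˣ) (N : ℤ) : Prop :=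
  letI : Fact (w.1 : ℕ).Prime := ⟨w.1.2⟩
  ‖padicEmbedding (w.1 : ℕ) (w.2 (x : Qbar))‖ = ‖(((w.1 : ℕ) : ℕ) : PadicAlgCl (w.1 : ℕ))‖ ^ N

/-- `p ∣ ord_w x`. -/
def ksha_PDiv (p : ℕ) (w : Nat.Primes × s55_GQ) (x : Qbarˣ) : Prop :=
  ∃ m : ℤ, ksha_Ord w x ((p : ℤ) * m)

/-- A **datum** for the `F_p`-valued 2-cocycle `c` of `U = G_K`: a level `F` over `K`,
unramified outside `S`, a 1-cochain `b` of level `F` with `d b = ζ ^ c`, and `x ∈ Fˣ` with
`b(g) ^ p = g x / x`. -/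
structure ksha_Datum {p : ℕ} [Fact p.Prime] (S : Finset Nat.Primes)
    (F : IntermediateField ℚ Qbar)
    (c : ↥K.fixingSubgroup × ↥K.fixingSubgroup → ZMod p)
    (b : ↥K.fixingSubgroup → Qbarˣ) (x : Qbarˣ) : Prop where
  level : ak_IsLevel K F
  unr : F.IsUnramifiedOutside S
  lev : ak_Lev₁ K F b
  db : ∀ g h : ↥K.fixingSubgroup, ak_d₁ K b (g, h) = ksha_zeta p ^ (c (g, h)).val
  mem : (x : Qbar) ∈ F
  pow : ∀ g : ↥K.fixingSubgroup, b g ^ p = g • x / x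

/-- The 2-cochain `Φ = ζ ^ ε / ((b ∪ ỹ) · (x ∪ δy))`. -/
def ksha_Phi {p : ℕ} [Fact p.Prime]
    (ε : ↥K.fixingSubgroup × ↥K.fixingSubgroup → ZMod p) (y : ↥K.fixingSubgroup → ZMod p)
    (b : ↥K.fixingSubgroup → Qbarˣ) (x : Qbarˣ) :
    ↥K.fixingSubgroup × ↥K.fixingSubgroup → Qbarˣ :=
  fun z => ksha_zeta p ^ (ε z).val / (b z.1 ^ (y z.2).val * x ^ ksha_bock y z)

/-- The standing hypotheses of the `K`-level targets of `Bridge/KDefs.lean`. -/
structure ksha_Ctx (inv : lcf_InvType) (p : ℕ) [Fact p.Prime] (S : Finset Nat.Primes)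
    [K.fixingSubgroup.Normal] (R : ↥S → Finset s55_GQ) : Prop where
  inv : lcf_IsInvSystem inv
  odd : p ≠ 2
  mem : pPrime p ∈ S
  unr : K.IsUnramifiedOutside S
  cyc : ∀ s ∈ K.fixingSubgroup, cycloChar p s = 1
  reps : kl_IsReps S K R

/-- The sum of the local invariants above `S` of a 2-cochain `ε` of `U`
(the pairing value of `kl_ShaPair` is its negative). -/
def ksha_sumS (inv : lcf_InvType) {p : ℕ} [Fact p.Prime] (S : Finset Nat.Primes)
    [K.fixingSubgroup.Normal] (R : ↥S → Finset s55_GQ)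
    (ε : ↥K.fixingSubgroup × ↥K.fixingSubgroup → ZMod p) : lcf_QZ :=
  ∑ q : ↥S, ∑ g ∈ R q, kl_inv K inv (q : Nat.Primes) g
    (fun x => ε (kl_r K (q : Nat.Primes) g x.1, kl_r K (q : Nat.Primes) g x.2))

end Defs

/-! ### Elementary leaves (valuations, places, fields) -/

/-- **[KSHA-ORD]** (= helper29's (E-ORD)) value groups at unramified primes: if `F` is
unramified at `q` and `x ∈ Fˣ`, then `‖ι_q (g x)‖ ∈ ‖q‖ ^ ℤ` for every `g`.
(Inertia form ⟹ value-group form: `unr_isUnrLevel_of_inert` / `unr_abs_urVal` for the open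
subgroup `loc_q⁻¹ (g G_F g⁻¹)` of `Gal(Ω_q/ℚ_q)` inside `⊤`, and the dictionary between the
Prelude's `inertiaSubgroupIn` and `lcf_IsInert`.) -/
def ksha_OrdStatement : Prop :=
  ∀ (F : IntermediateField ℚ Qbar), FiniteDimensional ℚ F →
    ∀ (q : Nat.Primes), ak_UnramAt (q : ℕ) F →
      ∀ x : Qbarˣ, (x : Qbar) ∈ F → ∀ g : s55_GQ, ∃ N : ℤ, ksha_Ord (q, g) x N

/-- **[KSHA-PLACES]** finiteness of the non-unit places: every finite set `T` of places of `K`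
outside `S` can be enlarged to a finite set `T'` of places outside `S` such that `x` is a unit
at every place outside `S` which is not in `T'`.
(`x` and `x⁻¹` are integral over `ℤ[1/M]`; for the finitely many `q ∣ M` the double cosets
`loc_q (Γ_q) \ G_ℚ / U` are finite because `U` has finite index.) -/
def ksha_PlacesStatement : Prop :=
  ∀ (S : Finset Nat.Primes) (K : IntermediateField ℚ Qbar), FiniteDimensional ℚ K →
    ∀ T : Finset (Nat.Primes × s55_GQ), ak_IsPlaceSet K T → (∀ w ∈ T, w.1 ∉ S) →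
    ∀ x : Qbarˣ, ∃ T' : Finset (Nat.Primes × s55_GQ), T ⊆ T' ∧ ak_IsPlaceSet K T' ∧
      (∀ w ∈ T', w.1 ∉ S) ∧
      ∀ w' : Nat.Primes × s55_GQ, w'.1 ∉ S → ak_Outside K T' w' → ksha_Ord w' x 0

/-- **[KSHA-KUMFIELD]** (= helper29's (E-KUM)) roots of `p`-power order stay at level `S`:
if `F` is a level over `K ∋ ζ_p`, unramified outside `S ∋ p`, `x ∈ Fˣ`, `n = p ^ j`, and
`n ∣ ord_w x` for all places `w = (q, g)`, `q ∉ S`, then every `β` with `β ^ n = x` lies in a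
level `F' ⊇ F` over `K` which is unramified outside `S` and contains the `n`-th roots of unity.
(`F' :=` the normal closure of `F(ζ_(p n), β)`; for `τ` in an inertia group at `q ∉ S`:
`τ β = ξ β`, `ξ ^ n = 1`; `β = q ^ m · u` with `u` a unit, so `ξ ≡ 1` modulo the maximal ideal,
hence `ξ = 1` because `q ≠ p`; the same for the roots of unity.
ADAPTER: this follows from helper26's `eco_KumStatement` applied to the BASE FIELD `F`
(`eco_Setting p S F`, `eco_SLevel p S F F`), with `X = {x, 1}` and `k = j + 1` for the roots of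
unity, followed by `brg_normalClosure_unram` (a normal closure over `ℚ` is a level over `K`).) -/
def ksha_KumFieldStatement : Prop :=
  ∀ (p : ℕ) [Fact p.Prime] (S : Finset Nat.Primes), p ≠ 2 → pPrime p ∈ S →
    ∀ (K F : IntermediateField ℚ Qbar), ak_IsLevel K F → F.IsUnramifiedOutside S →
      (∃ ζ : Qbar, IsPrimitiveRoot ζ p ∧ ζ ∈ K) →
      ∀ (j : ℕ) (x β : Qbarˣ), (x : Qbar) ∈ F → β ^ (p ^ j) = x →
        (∀ (q : Nat.Primes), q ∉ S → ∀ g : s55_GQ,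
          ∃ m : ℤ, ksha_Ord (q, g) x (((p ^ j : ℕ) : ℤ) * m)) →
        ∃ F' : IntermediateField ℚ Qbar, F ≤ F' ∧ ak_IsLevel K F' ∧ F'.IsUnramifiedOutside S ∧
          (β : Qbar) ∈ F' ∧ ∀ ξ : Qbar, ξ ^ (p ^ (j + 1)) = 1 → ξ ∈ F'

/-- **[KSHA-CLN]** (= helper29's (E-CLN) for `K`) finiteness of the class group, absolute
form: there is `h > 0` such that for every finite set `T` of places of `K` outside `S` and
every `N`, some `k ∈ Kˣ` has `ord_w k = h N_w` for `w ∈ T` and is a unit at all other places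
outside `S`.  (`𝔭_w ^ h` is principal, `h` the class number; `plc_prime`, `gpl_`.) -/
def ksha_ClnStatement : Prop :=
  ∀ (S : Finset Nat.Primes) (K : IntermediateField ℚ Qbar), K.IsUnramifiedOutside S →
    ∃ h : ℕ, 0 < h ∧
      ∀ T : Finset (Nat.Primes × s55_GQ), ak_IsPlaceSet K T → (∀ w ∈ T, w.1 ∉ S) →
      ∀ N : Nat.Primes × s55_GQ → ℤ, ∃ k : Qbarˣ, (k : Qbar) ∈ K ∧
        (∀ w ∈ T, ksha_Ord w k ((h : ℤ) * N w)) ∧
        ∀ w' : Nat.Primes × s55_GQ, w'.1 ∉ S → ak_Outside K T w' → ksha_Ord w' k 0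

/-- **[KSHA-H90]** Hilbert 90 in absolute form: a 1-cocycle of level `F` over `K` with values
in `ℚ̄ˣ` is `g ↦ g x / x` for some `x ∈ Fˣ`.
(Descend to `Gal(F/K)`; Mathlib's `isMulCoboundary₁_of_isMulCocycle₁_of_aut_to_units`.) -/
def ksha_H90Statement : Prop :=
  ∀ (K F : IntermediateField ℚ Qbar), ak_IsLevel K F →
    ∀ β : ↥K.fixingSubgroup → Qbarˣ, IsMulCocycle₁ β → ak_Lev₁ K F β →
      ∃ x : Qbarˣ, (x : Qbar) ∈ F ∧ ∀ g : ↥K.fixingSubgroup, β g = g • x / x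

/-! ### The structure of `Ш²` -/

/-- **[KSHA-HASSE]** every `c ∈ Ш²` has a datum.
PROOF.  `c` is constant modulo `G_{F₀}`, `F₀` unramified outside `S`; `F :=` normal closure of
`F₀ ⊔ K` (`brg_normalClosure_unram`), a level over `K`.  `f := ζ ^ c` is a multiplicative
2-cocycle of level `F` (`ζ ∈ K` is fixed by `U`), `f ^ p = 1`, so `f` is `p`-primary.
Invariants: at `(q, g)`, `q ∈ S`: by `kl_IsReps` and [AK-CONJ] we may take `g ∈ R q`; the
localisation is `ζ_loc ^ (χ(g) (c ∘ r)) = d (ζ_loc ^ (χ(g) b_w))`, a smooth coboundary, so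
`inv = 0` by (I2).  At `q ∉ S`: [AK-UNR] (`F` unramified at `q`, roots of unity are units).
[AK-HASSE] gives `b` of level `F` with `d b = f`.  Then `b ^ p` is a 1-cocycle of level `F`
(`d (b ^ p) = f ^ p = 1`), and [KSHA-H90] gives `x`. -/
def ksha_HasseStatement : Prop :=
  ∀ (inv : lcf_InvType) (p : ℕ) [Fact p.Prime] (S : Finset Nat.Primes)
    (K : IntermediateField ℚ Qbar) [K.fixingSubgroup.Normal] (R : ↥S → Finset s55_GQ),
    ksha_Ctx K inv p S R →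
    ∀ c : ↥K.fixingSubgroup × ↥K.fixingSubgroup → ZMod p, kl_IsSha₂ S K R c →
      ∃ (F : IntermediateField ℚ Qbar) (b : ↥K.fixingSubgroup → Qbarˣ) (x : Qbarˣ),
        ksha_Datum K S F c b x

/-- **[KSHA-KUM]** the Kummer criterion: if the "ideal class" of a datum of `c` is trivial
modulo `p`, then `c` is the coboundary of a level-`S` 1-cochain.
PROOF.  Choose `β ∈ ℚ̄ˣ` with `β ^ p = x / k`; by [KSHA-KUMFIELD] (`j = 1`) `β` lies in a level
`F' ⊇ F` over `K`, unramified outside `S`.  For `g ∈ U`: `(g β / β) ^ p = g x / x = b(g) ^ p`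
(`g k = k`), so `b(g) = ζ ^ a(g) · g β / β` for a unique `a(g) ∈ F_p`; `a` is constant modulo
`G_{F'}`, and `ζ ^ (d₁ a) = d b / d (d₀ β) = ζ ^ c`, i.e. `d₁ a = c`. -/
def ksha_KumStatement : Prop :=
  ∀ (inv : lcf_InvType) (p : ℕ) [Fact p.Prime] (S : Finset Nat.Primes)
    (K : IntermediateField ℚ Qbar) [K.fixingSubgroup.Normal] (R : ↥S → Finset s55_GQ),
    ksha_Ctx K inv p S R →
    ∀ (c : ↥K.fixingSubgroup × ↥K.fixingSubgroup → ZMod p) (F : IntermediateField ℚ Qbar)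
      (b : ↥K.fixingSubgroup → Qbarˣ) (x : Qbarˣ), ksha_Datum K S F c b x →
    ∀ k : Qbarˣ, (k : Qbar) ∈ K →
      (∀ (q : Nat.Primes), q ∉ S → ∀ g : s55_GQ, ksha_PDiv p (q, g) (x / k)) →
      ∃ a : ↥K.fixingSubgroup → ZMod p, kl_LevelS₁ S K a ∧ ∀ z, kl_d₁ a z = c z

/-- **[KSHA-SAME]** `ord_w x mod p` depends only on the place of `K` (for the `x` of a datum),
and `ord_w k` depends only on the place of `K` for `k ∈ Kˣ`.
PROOF.  `w' = (q, loc_q τ * g * u)`: `‖ι_q (loc_q τ (g (u z)))‖ = ‖τ (ι_q (g (u z)))‖ =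
‖ι_q (g (u z))‖` (`plc_norm_aut`); `u k = k`; `u x = x · b(u) ^ p` and `ord_(q,g) (b u) ∈ ℤ`
by [KSHA-ORD]. -/
def ksha_SameStatement : Prop :=
  ∀ (p : ℕ) [Fact p.Prime] (S : Finset Nat.Primes)
    (K : IntermediateField ℚ Qbar) (c : ↥K.fixingSubgroup × ↥K.fixingSubgroup → ZMod p)
    (F : IntermediateField ℚ Qbar) (b : ↥K.fixingSubgroup → Qbarˣ) (x : Qbarˣ),
    ksha_Datum K S F c b x →
    ∀ k : Qbarˣ, (k : Qbar) ∈ K → ∀ w w' : Nat.Primes × s55_GQ, w.1 ∉ S →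
      ak_SamePlace K w w' → ksha_PDiv p w (x / k) → ksha_PDiv p w' (x / k)

/-! ### The pairing formula -/

/-- **[KSHA-PHI]** (pure cochain algebra) `Φ = ζ ^ ε / ((b ∪ ỹ) · (x ∪ δy))` is a `p`-primary
multiplicative 2-cocycle of `U`, of every level `F'` containing `F` modulo which `ε` and `y`
are constant.
PROOF.  `d (b ∪ ỹ) (g,h,j) = (d b (g,h)) ^ ỹ(j) · b(g) ^ (ỹ(hj) - ỹ(h) - ỹ(j))
= ζ ^ (c(g,h) ỹ(j)) · (g x / x) ^ (- δy(h,j))`,  `d (x ∪ δy) (g,h,j) = (g x / x) ^ δy(h,j)`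
(`δy` is an integral 2-cocycle), `d (ζ ^ ε) = ζ ^ (d₂ ε) = ζ ^ (c ∪ y)` (`ζ` is fixed by `U`);
so `d Φ = 1`.  `Φ ^ p = ((b ^ p ∪ ỹ) · (x ∪ p δy))⁻¹ = (d (x ∪ ỹ))⁻¹`, `(x ∪ ỹ)(g) = x ^ ỹ(g)`. -/
def ksha_PhiStatement : Prop :=
  ∀ (p : ℕ) [Fact p.Prime] (S : Finset Nat.Primes) (K : IntermediateField ℚ Qbar),
    (∀ s ∈ K.fixingSubgroup, cycloChar p s = 1) →
    ∀ (c : ↥K.fixingSubgroup × ↥K.fixingSubgroup → ZMod p) (F : IntermediateField ℚ Qbar)
      (b : ↥K.fixingSubgroup → Qbarˣ) (x : Qbarˣ), ksha_Datum K S F c b x →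
    ∀ y : ↥K.fixingSubgroup → ZMod p, kl_IsHom y →
    ∀ ε : ↥K.fixingSubgroup × ↥K.fixingSubgroup → ZMod p,
      (∀ g h j : ↥K.fixingSubgroup, kl_d₂ ε (g, h, j) = c (g, h) * y j) →
    ∀ F' : IntermediateField ℚ Qbar, F ≤ F' → ak_IsLevel K F' → ak_Const₁ K F' y →
      ak_Const₂ K F' ε →
      IsMulCocycle₂ (ksha_Phi K ε y b x) ∧ ak_Lev₂ K F' (ksha_Phi K ε y b x) ∧
        ak_PPrim K p (ksha_Phi K ε y b x)

/-- **[KSHA-LOC-S]** the invariant of `Φ` at a place above `S` where `y` is locally trivial is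
the invariant of `ε`.
PROOF.  On `kl_H K q = ak_H K q g` (`U` is normal) `y ∘ r = 0`, hence `ỹ ∘ r = 0` and
`δy ∘ (r × r) = 0`, and the localisation of `Φ` is `ι_q (g ζ) ^ (ε ∘ r) =
ζ_loc ^ (χ(g) (ε ∘ r))` (`ak_inv_congr`). -/
def ksha_LocSStatement : Prop :=
  ∀ (inv : lcf_InvType) (p : ℕ) [Fact p.Prime]
    (K : IntermediateField ℚ Qbar) [K.fixingSubgroup.Normal] (q : Nat.Primes) (g : s55_GQ)
    (y : ↥K.fixingSubgroup → ZMod p),
    (∀ τ : ↥(kl_H K q), y (kl_r K q g τ) = 0) →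
    ∀ (ε : ↥K.fixingSubgroup × ↥K.fixingSubgroup → ZMod p) (b : ↥K.fixingSubgroup → Qbarˣ)
      (x : Qbarˣ),
      ak_invP K inv (q, g) (ksha_Phi K ε y b x) =
        kl_inv K inv q g (fun z => ε (kl_r K q g z.1, kl_r K q g z.2))

/-- **[KSHA-LOC-U]** the invariant of `Φ` at a place `w = (q, g)` outside `S`:
`inv_w Φ = - ord_w x • A_w(y)`.
PROOF.  `F'` is unramified at `q`.  `ι_q (g x) = q ^ N · u`, `‖u‖ = 1`, so the localisation is
`Φ_w = Ψ · (q ∪ δy_w) ^ (- N)`, `Ψ = ζ ^ ε_w / ((b ∪ ỹ)_w · (u ∪ δy_w))`.  `q ∪ δy_w` is a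
smooth cocycle (`q` is fixed, `δy_w` is an integral cocycle), hence so is `Ψ`; `Ψ` is
unit-valued (`‖ι_q (g (b (r τ)))‖ ^ p = ‖τ (ι_q (g x))‖ / ‖ι_q (g x)‖ = 1`) and inflated from
the unramified level `loc_q⁻¹ (g G_{F'} g⁻¹)`, so `inv Ψ = 0` by helper29's `unr_h2u_isCob`
and (I2); (I1) gives the formula. -/
def ksha_LocUStatement : Prop :=
  ∀ (inv : lcf_InvType) (p : ℕ) [Fact p.Prime] (S : Finset Nat.Primes)
    (K : IntermediateField ℚ Qbar) [K.fixingSubgroup.Normal] (R : ↥S → Finset s55_GQ),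
    ksha_Ctx K inv p S R →
    ∀ (c : ↥K.fixingSubgroup × ↥K.fixingSubgroup → ZMod p) (F : IntermediateField ℚ Qbar)
      (b : ↥K.fixingSubgroup → Qbarˣ) (x : Qbarˣ), ksha_Datum K S F c b x →
    ∀ y : ↥K.fixingSubgroup → ZMod p, kl_IsHom y → kl_LevelS₁ S K y →
    ∀ ε : ↥K.fixingSubgroup × ↥K.fixingSubgroup → ZMod p, kl_LevelS₂ S K ε →
      (∀ g h j : ↥K.fixingSubgroup, kl_d₂ ε (g, h, j) = c (g, h) * y j) →
    ∀ (w : Nat.Primes × s55_GQ), w.1 ∉ S → ∀ N : ℤ, ksha_Ord w x N →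
      ak_invP K inv w (ksha_Phi K ε y b x) = - (N • ksha_art K inv y w)

/-- **[KSHA-PTORS]** `p • A_w(y) = 0` for a level-`S` character `y` and `w` outside `S`.
(`(q ∪ δy) ^ p = q ∪ d ỹ` is the coboundary of `g ↦ q ^ (- ỹ g)`; (I1), (I2).) -/
def ksha_PTorsStatement : Prop :=
  ∀ (inv : lcf_InvType) (p : ℕ) [Fact p.Prime] (S : Finset Nat.Primes)
    (K : IntermediateField ℚ Qbar) [K.fixingSubgroup.Normal] (R : ↥S → Finset s55_GQ),
    ksha_Ctx K inv p S R →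
    ∀ y : ↥K.fixingSubgroup → ZMod p, kl_IsHom y → kl_LevelS₁ S K y →
    ∀ (w : Nat.Primes × s55_GQ), w.1 ∉ S → p • ksha_art K inv y w = 0

/-- **[KSHA-FORMULA]** the pairing formula:
`∑_{w ∣ S} kl_inv (ε ∘ r_w) = ∑_{w ∈ T} ord_w x • A_w(y)` for a datum `(F, b, x)` of `c`,
`y ∈ Ш¹`, `d₂ ε = c ∪ y`, and every finite set `T` of places outside `S` such that
`p ∣ ord_w x` at the places outside `S` and `T`.
PROOF.  [KSHA-PLACES] enlarges `T` to `T'` with `x` a unit outside; `T_S := {(q, g) | q ∈ S,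
g ∈ R q}`; `T_S ∪ T'` is a set of places (`kl_IsReps`), and every place outside it is outside
`S` with `ord x = 0`.  [KSHA-PHI], [KSHA-LOC-S], [KSHA-LOC-U] (with `N = 0` outside `T'`, `N =
p m` on `T' \ T` and [KSHA-PTORS], [KSHA-ORD] on `T`... ) and [AK-RECIP]. -/
def ksha_FormulaStatement : Prop :=
  ∀ (inv : lcf_InvType) (p : ℕ) [Fact p.Prime] (S : Finset Nat.Primes)
    (K : IntermediateField ℚ Qbar) [K.fixingSubgroup.Normal] (R : ↥S → Finset s55_GQ),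
    ksha_Ctx K inv p S R →
    ∀ (c : ↥K.fixingSubgroup × ↥K.fixingSubgroup → ZMod p) (F : IntermediateField ℚ Qbar)
      (b : ↥K.fixingSubgroup → Qbarˣ) (x : Qbarˣ), ksha_Datum K S F c b x →
    ∀ y : ↥K.fixingSubgroup → ZMod p, kl_IsSha₁ S K R y →
    ∀ ε : ↥K.fixingSubgroup × ↥K.fixingSubgroup → ZMod p, kl_LevelS₂ S K ε →
      (∀ g h j : ↥K.fixingSubgroup, kl_d₂ ε (g, h, j) = c (g, h) * y j) →
    ∀ T : Finset (Nat.Primes × s55_GQ), ak_IsPlaceSet K T → (∀ w ∈ T, w.1 ∉ S) →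
    ∀ N : Nat.Primes × s55_GQ → ℤ, (∀ w ∈ T, ksha_Ord w x (N w)) →
      (∀ w' : Nat.Primes × s55_GQ, w'.1 ∉ S → ak_Outside K T w' → ksha_PDiv p w' x) →
      ksha_sumS K inv S R ε = ∑ w ∈ T, N w • ksha_art K inv y w

/-! ### The Artin pairing (class field theory) -/

/-- **[KSHA-ARTPERF]** (the existence theorem for the `S`-Hilbert class field modulo `p`; from
the [K-EX] package, helper25): a divisor `∑_{w ∈ T} N_w w` outside `S` which is orthogonal to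
`Ш¹` under the Artin pairing is the divisor of some `k ∈ Kˣ` modulo `p` outside `S`. -/
def ksha_ArtPerfStatement : Prop :=
  ∀ (inv : lcf_InvType) (p : ℕ) [Fact p.Prime] (S : Finset Nat.Primes)
    (K : IntermediateField ℚ Qbar) [K.fixingSubgroup.Normal] (R : ↥S → Finset s55_GQ),
    ksha_Ctx K inv p S R →
    ∀ T : Finset (Nat.Primes × s55_GQ), ak_IsPlaceSet K T → (∀ w ∈ T, w.1 ∉ S) →
    ∀ N : Nat.Primes × s55_GQ → ℤ,
      (∀ y : ↥K.fixingSubgroup → ZMod p, kl_IsSha₁ S K R y →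
        ∑ w ∈ T, N w • ksha_art K inv y w = 0) →
      ∃ k : Qbarˣ, (k : Qbar) ∈ K ∧ (∀ w ∈ T, ∃ m : ℤ, ksha_Ord w k (N w + (p : ℤ) * m)) ∧
        ∀ w' : Nat.Primes × s55_GQ, w'.1 ∉ S → ak_Outside K T w' → ksha_PDiv p w' k

/-- **[KSHA-ARTSURJ]** every additive functional on `Ш¹` is given by a divisor outside `S`.
PROOF.  `Ш¹` is a finite `F_p`-vector space (finitely many characters of level `S`: Kummer
theory and the finiteness of `S`-units and of the class group; or the count of [K-EX]); the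
functionals `y ↦ A_w(y)`, `w ∉ S`, are additive and separate the points of `Ш¹`: for `y ≠ 0`
[AK-CYCP] (`X = S`) gives `w = (q, g)`, `q ∉ S`, with `y ∘ r_w ≠ 0`; `y ∘ r_w` is an unramified
character, so `y (r_w φ) ≠ 0` for a Frobenius `φ`, and `A_w(y) = y (r_w φ) / p ≠ 0` by (I4).
Hence they span the dual of `Ш¹`; [AK-CONJ] makes `T` a set of places. -/
def ksha_ArtSurjStatement : Prop :=
  ∀ (inv : lcf_InvType) (p : ℕ) [Fact p.Prime] (S : Finset Nat.Primes)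
    (K : IntermediateField ℚ Qbar) [K.fixingSubgroup.Normal] (R : ↥S → Finset s55_GQ),
    ksha_Ctx K inv p S R →
    ∀ l : (↥K.fixingSubgroup → ZMod p) → ZMod p,
      (∀ y y' : ↥K.fixingSubgroup → ZMod p, l (y + y') = l y + l y') →
      ∃ T : Finset (Nat.Primes × s55_GQ), ak_IsPlaceSet K T ∧ (∀ w ∈ T, w.1 ∉ S) ∧
        ∃ N : Nat.Primes × s55_GQ → ℤ,
          ∀ y : ↥K.fixingSubgroup → ZMod p, kl_IsSha₁ S K R y →
            kl_e (l y) = - ∑ w ∈ T, N w • ksha_art K inv y w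

/-- **[KSHA-EXI]** every divisor outside `S` is, modulo `p`, the divisor of the `x` of a datum
of some `c ∈ Ш²`.
PROOF.  [KSHA-CLN]: `h = p ^ j · m`, `p ∤ m`, `m m' ≡ 1 mod p`; `k ∈ Kˣ` with
`ord_w k = h m' N_w` on `T`, `0` outside.  `x ^ (p ^ j) = k`: by [KSHA-KUMFIELD] `x` lies in a
level `F` over `K`, unramified outside `S`, containing `μ_(p^(j+1))`; `ord_w x = m m' N_w`.
`g x / x ∈ μ_(p^j)`; `b(g) := ρ (g x / x)`, `ρ` a section of `ξ ↦ ξ ^ p` on `μ_(p^j)`; `b` has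
level `F`; `(d b) ^ p = d (d₀ x) = 1`, so `d b = ζ ^ c` for a unique `c`, a 2-cocycle constant
modulo `G_F`.  `c ∈ Ш²`: at `(q, g)`, `q ∈ S`, `g ∈ R q`, `ζ_loc ^ (χ(g) (c ∘ r)) = d (b_w)` is a
smooth coboundary, so its invariant is `0` (I2), and [V20-INJ] (`lv20_inj`) gives a smooth
`F_p`-valued primitive of `χ(g) (c ∘ r)`, hence of `c ∘ r`. -/
def ksha_ExiStatement : Prop :=
  ∀ (inv : lcf_InvType) (p : ℕ) [Fact p.Prime] (S : Finset Nat.Primes)
    (K : IntermediateField ℚ Qbar) [K.fixingSubgroup.Normal] (R : ↥S → Finset s55_GQ),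
    ksha_Ctx K inv p S R →
    ∀ T : Finset (Nat.Primes × s55_GQ), ak_IsPlaceSet K T → (∀ w ∈ T, w.1 ∉ S) →
    ∀ N : Nat.Primes × s55_GQ → ℤ,
      ∃ c : ↥K.fixingSubgroup × ↥K.fixingSubgroup → ZMod p, kl_IsSha₂ S K R c ∧
        ∃ (F : IntermediateField ℚ Qbar) (b : ↥K.fixingSubgroup → Qbarˣ) (x : Qbarˣ),
          ksha_Datum K S F c b x ∧
          (∀ w ∈ T, ∃ m : ℤ, ksha_Ord w x (N w + (p : ℤ) * m)) ∧
          ∀ w' : Nat.Primes × s55_GQ, w'.1 ∉ S → ak_Outside K T w' → ksha_PDiv p w' x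

end Fermat.Agent.S55
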