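/-
S55 (fifth wave), GLOBAL side, part 3, [K-SHA]: BASIC TOOLS for the vocabulary of
`Global/KShaDefs.lean`.  Owner: helper27.  Prefix `ksha_`.

* `ζ = ksha_zeta p`: `ksha_zeta_pow`, `ksha_zeta_prim`, `ksha_smul_zeta` (fixed by `U = G_K` when
  the cyclotomic character is trivial on `U`), `ksha_zeta_mem` (`ζ ∈ K`);
* `e a = ζ ^ a.val` (any commutative group): `ksha_pow_val_add/neg/sub/mul`, injectivity;
* the integral Bockstein `ksha_bock`: `ksha_bock_spec`, `ksha_bock_cocycle`, `ksha_bock_zero`;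
* a commutative-group identity `ksha_comm_aux`.
-/
import Fermat.Agent.S55.Global.KShaDefs
import Fermat.Agent.S55.Adm

set_option autoImplicit false
set_option linter.style.haveILetI false
set_option maxHeartbeats 1000000
set_option synthInstance.maxHeartbeats 400000
open CategoryTheory Module groupCohomology ExtCitation

noncomputable section

namespace Fermat.Agent.S55

local notation "Qbar" => AlgebraicClosure ℚ

/-! ### Powers of an element of order dividing `p` -/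

section Exp

variable {M : Type*} [CommGroup M] {p : ℕ}

theorem ksha_pow_mod {ζ : M} (hζ : ζ ^ p = 1) (n : ℕ) : ζ ^ (n % p) = ζ ^ n := by
  conv_rhs => rw [← Nat.div_add_mod n p, pow_add, pow_mul, hζ, one_pow, one_mul]

variable [Fact p.Prime]

theorem ksha_pow_val_add {ζ : M} (hζ : ζ ^ p = 1) (a b : ZMod p) :
    ζ ^ (a + b).val = ζ ^ a.val * ζ ^ b.val := by
  rw [ZMod.val_add, ksha_pow_mod hζ, pow_add]

theorem ksha_pow_val_mul {ζ : M} (hζ : ζ ^ p = 1) (a b : ZMod p) :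
    ζ ^ (a * b).val = (ζ ^ a.val) ^ b.val := by
  rw [ZMod.val_mul, ksha_pow_mod hζ, pow_mul]

theorem ksha_pow_val_zero (ζ : M) : ζ ^ (0 : ZMod p).val = 1 := by
  rw [ZMod.val_zero, pow_zero]

theorem ksha_pow_val_neg {ζ : M} (hζ : ζ ^ p = 1) (a : ZMod p) :
    ζ ^ (-a).val = (ζ ^ a.val)⁻¹ := by
  have h := ksha_pow_val_add hζ (-a) a
  rw [neg_add_cancel, ksha_pow_val_zero] at h
  exact eq_inv_of_mul_eq_one_left h.symm

theorem ksha_pow_val_sub {ζ : M} (hζ : ζ ^ p = 1) (a b : ZMod p) :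
    ζ ^ (a - b).val = ζ ^ a.val / ζ ^ b.val := by
  rw [sub_eq_add_neg, ksha_pow_val_add hζ, ksha_pow_val_neg hζ, div_eq_mul_inv]

theorem ksha_pow_val_injective {ζ : M} (hζ : IsPrimitiveRoot ζ p) {a b : ZMod p}
    (h : ζ ^ a.val = ζ ^ b.val) : a = b := by
  haveI : NeZero p := ⟨(Fact.out : p.Prime).ne_zero⟩
  have h1 := hζ.pow_inj (ZMod.val_lt a) (ZMod.val_lt b) h
  exact ZMod.val_injective p h1

/-- every element of order dividing `p` is a power of a primitive `p`-th root of unity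
(in a commutative group in which `X ^ p = 1` has at most `p` solutions: here via the
cyclic group generated by `ζ` in a field). -/
theorem ksha_exists_log {L : Type*} [Field L] {ζ : Lˣ} (hζ : IsPrimitiveRoot ζ p) (u : Lˣ)
    (hu : u ^ p = 1) : ∃ a : ZMod p, ζ ^ a.val = u := by
  haveI : NeZero p := ⟨(Fact.out : p.Prime).ne_zero⟩
  have hmem : u ∈ rootsOfUnity p L := (mem_rootsOfUnity _ _).2 hu
  obtain ⟨i, hi, hiu⟩ := hζ.eq_pow_of_mem_rootsOfUnity hmem
  refine ⟨(i : ZMod p), ?_⟩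
  rw [ZMod.val_natCast, Nat.mod_eq_of_lt hi]
  exact hiu

end Exp

/-! ### The Bockstein -/

section Bock

variable {p : ℕ} [Fact p.Prime] {H : Type*}

theorem ksha_bock_spec [Mul H] {y : H → ZMod p} (hy : kl_IsHom y) (g h : H) :
    (y g).val + (y h).val = (y (g * h)).val + p * ksha_bock y (g, h) := by
  have h1 : (y (g * h)).val = ((y g).val + (y h).val) % p := by
    rw [hy g h, ZMod.val_add]
  rw [h1]
  show _ = _ + p * (((y g).val + (y h).val) / p)
  exact (Nat.mod_add_div _ _).symm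

theorem ksha_bock_zero {y : H → ZMod p} (g h : H) (hg : y g = 0) (hh : y h = 0) :
    ksha_bock y (g, h) = 0 := by
  show ((y g).val + (y h).val) / p = 0
  rw [hg, hh, ZMod.val_zero, add_zero, Nat.zero_div]

end Bock

theorem ksha_bock_cocycle {p : ℕ} [Fact p.Prime] {H : Type*} [Semigroup H] {y : H → ZMod p}
    (hy : kl_IsHom y) (g h j : H) :
    ksha_bock y (g * h, j) + ksha_bock y (g, h) = ksha_bock y (h, j) + ksha_bock y (g, h * j) := by
  have hp : 0 < p := (Fact.out : p.Prime).pos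
  have h1 := ksha_bock_spec hy (g * h) j
  have h2 := ksha_bock_spec hy g h
  have h3 := ksha_bock_spec hy h j
  have h4 := ksha_bock_spec hy g (h * j)
  rw [mul_assoc] at h1
  have h5 : p * (ksha_bock y (g * h, j) + ksha_bock y (g, h))
      = p * (ksha_bock y (h, j) + ksha_bock y (g, h * j)) := by
    rw [mul_add, mul_add]
    omega
  exact Nat.eq_of_mul_eq_mul_left hp h5

/-! ### `ζ` -/

theorem ksha_isGalois : IsGalois ℚ Qbar := by
  have hclos : IsAlgClosure ℚ (AlgebraicClosure ℚ) := AlgebraicClosure.instIsAlgClosure ℚ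
  exact inferInstance

section Zeta

variable (p : ℕ) [Fact p.Prime]

theorem ksha_zeta_val : ((ksha_zeta p : Qbarˣ) : Qbar) = ld_zeta p := rfl

theorem ksha_zeta_prim : IsPrimitiveRoot (ksha_zeta p) p := by
  have h := ld_zeta_spec p
  have h2 : IsPrimitiveRoot ((ksha_zeta p : Qbarˣ) : Qbar) p := h
  exact (IsPrimitiveRoot.coe_units_iff).1 h2

theorem ksha_zeta_pow : ksha_zeta p ^ p = 1 := (ksha_zeta_prim p).pow_eq_one

theorem ksha_zeta_mem_roots : ksha_zeta p ∈ rootsOfUnity p Qbar := by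
  haveI : NeZero p := ⟨(Fact.out : p.Prime).ne_zero⟩
  exact (mem_rootsOfUnity _ _).2 (ksha_zeta_pow p)

/-- `g ζ = ζ ^ χ(g)`. -/
theorem ksha_apply_zeta (g : s55_GQ) :
    g (ld_zeta p) = ld_zeta p ^ ((cycloChar p g : ZMod p)).val :=
  adm_cyclo_spec p g (ksha_zeta_mem_roots p)

variable {p} (K : IntermediateField ℚ Qbar)

/-- `ζ` is fixed by `U = G_K` if the cyclotomic character is trivial on `U`. -/
theorem ksha_smul_zeta (hcyc : ∀ s ∈ K.fixingSubgroup, cycloChar p s = 1)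
    (g : ↥K.fixingSubgroup) : g • ksha_zeta p = ksha_zeta p := by
  apply Units.ext
  show (g : s55_GQ) (ld_zeta p) = ld_zeta p
  rw [ksha_apply_zeta, hcyc g g.2]
  have : ((1 : (ZMod p)ˣ) : ZMod p).val = 1 := by
    rw [Units.val_one]
    exact ZMod.val_one p
  rw [this, pow_one]

theorem ksha_smul_zeta_pow (hcyc : ∀ s ∈ K.fixingSubgroup, cycloChar p s = 1)
    (g : ↥K.fixingSubgroup) (n : ℕ) : g • (ksha_zeta p ^ n) = ksha_zeta p ^ n := by
  rw [smul_pow', ksha_smul_zeta K hcyc]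

/-- `ζ ∈ K` if the cyclotomic character is trivial on `U = G_K`. -/
theorem ksha_zeta_mem (hcyc : ∀ s ∈ K.fixingSubgroup, cycloChar p s = 1) :
    ld_zeta p ∈ K := by
  haveI : IsGalois ℚ Qbar := ksha_isGalois
  rw [← InfiniteGalois.fixedField_fixingSubgroup K]
  rw [IntermediateField.mem_fixedField_iff]
  intro g hg
  have := ksha_smul_zeta K hcyc ⟨g, hg⟩
  exact congrArg (fun u : Qbarˣ => (u : Qbar)) this

theorem ksha_exists_zeta (hcyc : ∀ s ∈ K.fixingSubgroup, cycloChar p s = 1) :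
    ∃ ζ : Qbar, IsPrimitiveRoot ζ p ∧ ζ ∈ K :=
  ⟨ld_zeta p, ld_zeta_spec p, ksha_zeta_mem K hcyc⟩

end Zeta

/-! ### A commutative group identity -/

theorem ksha_comm_aux {M : Type*} [CommGroup M]
    (e₁ e₂ e₃ e₄ b₁ b₂ b₃ b₄ x₁ x₂ x₃ x₄ P Q : M)
    (h1 : e₁ * e₂ / (e₃ * e₄) = P⁻¹) (h2 : b₁ * b₂ / (b₃ * b₄) = P⁻¹ * Q)
    (h3 : x₁ * x₂ / (x₃ * x₄) = Q⁻¹) :
    (e₁ / (b₁ * x₁)) * (e₂ / (b₂ * x₂)) = (e₃ / (b₃ * x₃)) * (e₄ / (b₄ * x₄)) := by
  have e1 : e₁ * e₂ = P⁻¹ * (e₃ * e₄) := by rw [← h1, div_mul_cancel]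
  have e2 : b₁ * b₂ = P⁻¹ * Q * (b₃ * b₄) := by rw [← h2, div_mul_cancel]
  have e3 : x₁ * x₂ = Q⁻¹ * (x₃ * x₄) := by rw [← h3, div_mul_cancel]
  have k1 : (e₁ / (b₁ * x₁)) * (e₂ / (b₂ * x₂)) = (e₁ * e₂) / ((b₁ * b₂) * (x₁ * x₂)) := by
    rw [div_mul_div_comm, mul_mul_mul_comm]
  have k2 : (e₃ / (b₃ * x₃)) * (e₄ / (b₄ * x₄)) = (e₃ * e₄) / ((b₃ * b₄) * (x₃ * x₄)) := by
    rw [div_mul_div_comm, mul_mul_mul_comm]
  rw [k1, k2, e1, e2, e3]
  rw [div_eq_div_iff_mul_eq_mul]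
  have : P⁻¹ * Q * (b₃ * b₄) * (Q⁻¹ * (x₃ * x₄)) = P⁻¹ * ((b₃ * b₄) * (x₃ * x₄)) := by
    rw [mul_assoc P⁻¹ Q, mul_assoc P⁻¹, mul_assoc Q, mul_left_comm (b₃ * b₄) Q⁻¹,
      mul_inv_cancel_left]
  rw [this, mul_assoc, mul_left_comm]

end Fermat.Agent.S55
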