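/-
S55 (fifth wave), GLOBAL side, package [AK-HASSE] (helper10), part 2: Hilbert 90 for cocycles of
finite level, for an ARBITRARY field extension `Ω / k` (Mathlib only).

`U ≤ Aut(Ω/k)` any subgroup, `E ⊆ Ω` finite over `k`, `c : U → Ωˣ` a 1-cocycle which is constant
modulo `Gal(Ω/E)`.  Then `c g = g • x / x` for some `x ∈ Ωˣ`.
(Poincaré series over the finitely many embeddings of `E`; same proof as helper3's local
`lh90_main`, which is the case `Ω = PadicAlgCl q`.)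
-/
import Mathlib

set_option autoImplicit false

noncomputable section

namespace Fermat.Agent.S55

open groupCohomology

section akh_h90

variable {k Ω : Type*} [Field k] [Field Ω] [Algebra k Ω]

/-- The restriction of an automorphism of `Ω` to an intermediate field, as an embedding. -/
def akh_resE (E : IntermediateField k Ω) (g : Ω ≃ₐ[k] Ω) : ↥E →ₐ[k] Ω :=
  (g : Ω →ₐ[k] Ω).comp E.val

@[simp] theorem akh_resE_apply (E : IntermediateField k Ω) (g : Ω ≃ₐ[k] Ω) (x : ↥E) :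
    akh_resE E g x = g (x : Ω) := rfl

theorem akh_resE_mul (E : IntermediateField k Ω) (h g : Ω ≃ₐ[k] Ω) :
    akh_resE E (h * g) = (h : Ω →ₐ[k] Ω).comp (akh_resE E g) := by
  ext x
  rfl

/-- Two automorphisms with the same restriction to `E` differ by an element of `Gal(Ω/E)`. -/
theorem akh_mem_fixingSubgroup {E : IntermediateField k Ω} {g g' : Ω ≃ₐ[k] Ω}
    (h : akh_resE E g = akh_resE E g') : g⁻¹ * g' ∈ E.fixingSubgroup := by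
  rw [IntermediateField.mem_fixingSubgroup_iff]
  intro x hx
  have h1 : g x = g' x := DFunLike.congr_fun h ⟨x, hx⟩
  show g⁻¹ (g' x) = x
  rw [← h1]
  exact g.symm_apply_apply x

/-- A cochain of level `E` depends only on the restriction to `E`. -/
theorem akh_eq_of_resE_eq {X : Type*} {U : Subgroup (Ω ≃ₐ[k] Ω)}
    {E : IntermediateField k Ω} {c : ↥U → X}
    (hsm : ∀ g s : ↥U, (s : Ω ≃ₐ[k] Ω) ∈ E.fixingSubgroup → c (g * s) = c g) {g g' : ↥U}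
    (h : akh_resE E (g : Ω ≃ₐ[k] Ω) = akh_resE E (g' : Ω ≃ₐ[k] Ω)) : c g = c g' := by
  have h1 := hsm g (g⁻¹ * g') (akh_mem_fixingSubgroup h)
  rw [mul_inv_cancel_left] at h1
  exact h1.symm

/-- The weight of an embedding of `E`: `c g` if it is the restriction of `g ∈ U`, else `0`. -/
def akh_w (U : Subgroup (Ω ≃ₐ[k] Ω)) (E : IntermediateField k Ω)
    (c : ↥U → Ωˣ) (σ : ↥E →ₐ[k] Ω) : Ω :=
  open Classical in
  if h : ∃ g : ↥U, akh_resE E (g : Ω ≃ₐ[k] Ω) = σ then ((c h.choose : Ωˣ) : Ω) else 0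

theorem akh_w_res {U : Subgroup (Ω ≃ₐ[k] Ω)} {E : IntermediateField k Ω} {c : ↥U → Ωˣ}
    (hsm : ∀ g s : ↥U, (s : Ω ≃ₐ[k] Ω) ∈ E.fixingSubgroup → c (g * s) = c g) (g : ↥U) :
    akh_w U E c (akh_resE E (g : Ω ≃ₐ[k] Ω)) = ((c g : Ωˣ) : Ω) := by
  have hex : ∃ g' : ↥U, akh_resE E (g' : Ω ≃ₐ[k] Ω) = akh_resE E (g : Ω ≃ₐ[k] Ω) := ⟨g, rfl⟩
  rw [akh_w, dif_pos hex]
  exact congrArg Units.val (akh_eq_of_resE_eq hsm hex.choose_spec)

theorem akh_w_of_not {U : Subgroup (Ω ≃ₐ[k] Ω)} {E : IntermediateField k Ω} {c : ↥U → Ωˣ}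
    {σ : ↥E →ₐ[k] Ω} (h : ¬ ∃ g : ↥U, akh_resE E (g : Ω ≃ₐ[k] Ω) = σ) :
    akh_w U E c σ = 0 := by
  rw [akh_w, dif_neg h]

/-- The transformation rule of the weights. -/
theorem akh_w_comp {U : Subgroup (Ω ≃ₐ[k] Ω)} {E : IntermediateField k Ω} {c : ↥U → Ωˣ}
    (hc : IsMulCocycle₁ c)
    (hsm : ∀ g s : ↥U, (s : Ω ≃ₐ[k] Ω) ∈ E.fixingSubgroup → c (g * s) = c g) (h : ↥U)
    (σ : ↥E →ₐ[k] Ω) :
    akh_w U E c (((h : Ω ≃ₐ[k] Ω) : Ω →ₐ[k] Ω).comp σ) =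
      ((c h : Ωˣ) : Ω) * (h : Ω ≃ₐ[k] Ω) (akh_w U E c σ) := by
  by_cases hσ : ∃ g : ↥U, akh_resE E (g : Ω ≃ₐ[k] Ω) = σ
  · obtain ⟨g, rfl⟩ := hσ
    have h1 : ((h : Ω ≃ₐ[k] Ω) : Ω →ₐ[k] Ω).comp (akh_resE E (g : Ω ≃ₐ[k] Ω)) =
        akh_resE E ((h * g : ↥U) : Ω ≃ₐ[k] Ω) := by
      rw [Subgroup.coe_mul, akh_resE_mul]
    rw [h1, akh_w_res hsm, akh_w_res hsm, hc h g, Units.val_mul, mul_comm]
    rfl
  · have hσ' : ¬ ∃ g : ↥U, akh_resE E (g : Ω ≃ₐ[k] Ω) =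
        ((h : Ω ≃ₐ[k] Ω) : Ω →ₐ[k] Ω).comp σ := by
      rintro ⟨g, hg⟩
      apply hσ
      refine ⟨h⁻¹ * g, ?_⟩
      rw [Subgroup.coe_mul, akh_resE_mul, hg]
      ext x
      show ((h⁻¹ : ↥U) : Ω ≃ₐ[k] Ω) ((h : Ω ≃ₐ[k] Ω) (σ x)) = σ x
      rw [Subgroup.coe_inv]
      exact (h : Ω ≃ₐ[k] Ω).symm_apply_apply (σ x)
    rw [akh_w_of_not hσ, akh_w_of_not hσ', map_zero, mul_zero]

/-- Composition with an automorphism permutes the embeddings. -/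
def akh_perm (E : IntermediateField k Ω) (h : Ω ≃ₐ[k] Ω) : (↥E →ₐ[k] Ω) ≃ (↥E →ₐ[k] Ω) where
  toFun σ := (h : Ω →ₐ[k] Ω).comp σ
  invFun σ := ((h⁻¹ : Ω ≃ₐ[k] Ω) : Ω →ₐ[k] Ω).comp σ
  left_inv σ := by
    ext x
    show (h⁻¹ : Ω ≃ₐ[k] Ω) (h (σ x)) = σ x
    exact h.symm_apply_apply (σ x)
  right_inv σ := by
    ext x
    show h ((h⁻¹ : Ω ≃ₐ[k] Ω) (σ x)) = σ x
    exact h.apply_symm_apply (σ x)

/-- Dedekind: the weighted sum of the embeddings does not vanish identically. -/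
theorem akh_exists_ne_zero {U : Subgroup (Ω ≃ₐ[k] Ω)}
    {E : IntermediateField k Ω} [FiniteDimensional k ↥E] {c : ↥U → Ωˣ}
    (hsm : ∀ g s : ↥U, (s : Ω ≃ₐ[k] Ω) ∈ E.fixingSubgroup → c (g * s) = c g) :
    ∃ a : ↥E, ∑ σ : ↥E →ₐ[k] Ω, akh_w U E c σ * σ a ≠ 0 := by
  by_contra hcon
  simp only [not_exists, ne_eq, not_not] at hcon
  have hli : LinearIndependent Ω (fun σ : ↥E →ₐ[k] Ω => (σ : ↥E → Ω)) :=
    LinearIndependent.comp (ι' := ↥E →ₐ[k] Ω)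
      (linearIndependent_monoidHom ↥E Ω)
      (fun σ => ((σ : ↥E →+* Ω) : ↥E →* Ω))
      (fun x y h => by
        ext a
        exact DFunLike.congr_fun h a)
  have h0 := Fintype.linearIndependent_iff.1 hli (akh_w U E c) (by
    funext a
    simpa using hcon a) (akh_resE E ((1 : ↥U) : Ω ≃ₐ[k] Ω))
  rw [akh_w_res hsm] at h0
  exact Units.ne_zero _ h0

/-- **Hilbert 90 for 1-cocycles of finite level.** -/
theorem akh_h90 (U : Subgroup (Ω ≃ₐ[k] Ω)) (E : IntermediateField k Ω)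
    [FiniteDimensional k ↥E] (c : ↥U → Ωˣ) (hc : IsMulCocycle₁ c)
    (hsm : ∀ g s : ↥U, (s : Ω ≃ₐ[k] Ω) ∈ E.fixingSubgroup → c (g * s) = c g) :
    ∃ x : Ωˣ, ∀ g : ↥U, c g = g • x / x := by
  obtain ⟨a, ha⟩ := akh_exists_ne_zero (U := U) (E := E) (c := c) hsm
  set b : Ω := ∑ σ : ↥E →ₐ[k] Ω, akh_w U E c σ * σ a with hb
  have key : ∀ h : ↥U, ((c h : Ωˣ) : Ω) * (h : Ω ≃ₐ[k] Ω) b = b := by
    intro h
    rw [hb, map_sum, Finset.mul_sum]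
    rw [← Equiv.sum_comp (akh_perm E (h : Ω ≃ₐ[k] Ω)) (fun σ => akh_w U E c σ * σ a)]
    refine Finset.sum_congr rfl fun σ _ => ?_
    show _ = akh_w U E c (((h : Ω ≃ₐ[k] Ω) : Ω →ₐ[k] Ω).comp σ) * (h : Ω ≃ₐ[k] Ω) (σ a)
    rw [akh_w_comp hc hsm, map_mul, mul_assoc]
  refine ⟨(Units.mk0 b ha)⁻¹, fun h => ?_⟩
  rw [smul_inv', div_inv_eq_mul, eq_comm, inv_mul_eq_iff_eq_mul]
  apply Units.ext
  rw [Units.val_mul]
  show b = (h : Ω ≃ₐ[k] Ω) b * ((c h : Ωˣ) : Ω)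
  rw [mul_comm]
  exact (key h).symm

end akh_h90

end Fermat.Agent.S55
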