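/-
S55 (fifth wave), GLOBAL side, part 3, [K-SHA]: the leaf [KSHA-H90] = `ksha_H90Statement` of
`Global/KShaDefs.lean` (Hilbert 90, absolute form, with `x` in the level).
Owner: helper27.  Prefix `ksha_`.  From helper10's `akh_h90` (Global/AkHasseH90.lean).

Export: `ksha_h90_main : ksha_H90Statement`.
-/
import Fermat.Agent.S55.Global.KShaBasic
import Fermat.Agent.S55.Global.AkHasseH90

set_option autoImplicit false
set_option linter.style.haveILetI false
set_option maxHeartbeats 1000000
set_option synthInstance.maxHeartbeats 400000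
open CategoryTheory Module groupCohomology ExtCitation

noncomputable section

namespace Fermat.Agent.S55

local notation "Qbar" => AlgebraicClosure ℚ

/-- an element of `ℚ̄ˣ` fixed by `G_F` lies in `F`. -/
theorem ksha_mem_of_fixed (F : IntermediateField ℚ Qbar) (x : Qbar)
    (h : ∀ s ∈ F.fixingSubgroup, s x = x) : x ∈ F := by
  haveI : IsGalois ℚ Qbar := ksha_isGalois
  rw [← InfiniteGalois.fixedField_fixingSubgroup F, IntermediateField.mem_fixedField_iff]
  exact h

/-- **[KSHA-H90]** -/
theorem ksha_h90_main : ksha_H90Statement := by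
  intro K F hF β hβ hlev
  haveI := hF.fin
  obtain ⟨x, hx⟩ := akh_h90 K.fixingSubgroup F β hβ hlev.1
  refine ⟨x, ?_, hx⟩
  apply ksha_mem_of_fixed
  intro s hs
  have hsK : s ∈ K.fixingSubgroup := IntermediateField.fixingSubgroup_antitone hF.le hs
  have h1 : β ⟨s, hsK⟩ = 1 := by
    have h2 := hlev.1 1 ⟨s, hsK⟩ hs
    rw [one_mul] at h2
    rw [h2]
    exact map_one_of_isMulCocycle₁ hβ
  have h3 := hx ⟨s, hsK⟩
  rw [h1, eq_comm, div_eq_one] at h3
  exact congrArg (fun u : Qbarˣ => (u : Qbar)) h3

end Fermat.Agent.S55
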