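/-
S55 (fifth wave), GLOBAL side, [K-SHA] leaf [KSHA-PTORS] = `ksha_PTorsStatement` of
`Global/KShaDefs.lean`.  Owner: helper8.  Prefix `kpt_`.  Export: `kpt_main`.

`p • A_w(y) = 0`: the localisation of `q ∪ δy` at `w = (q, g)` is the smooth cocycle
`(τ, τ') ↦ q ^ δy (r τ, r τ')`, and its `p`-th power is the coboundary of `τ ↦ q ^ ỹ (r τ)`
(`ỹ = val ∘ y`, `p δy (g, h) + ỹ (g h) = ỹ g + ỹ h`); conclude by (I1), (I2).
-/
import Mathlib
import Fermat.Agent.S55.Global.KShaDefs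
import Fermat.Agent.S55.Local.H3Mu
import Fermat.Agent.S55.Local.Krasner

set_option autoImplicit false
set_option maxHeartbeats 1000000
set_option synthInstance.maxHeartbeats 400000
set_option linter.unusedSectionVars false
set_option linter.unusedVariables false
set_option linter.style.haveILetI false

open CategoryTheory Module groupCohomology ExtCitation

noncomputable section

namespace Fermat.Agent.S55

local notation "Qbar" => AlgebraicClosure ℚ

section Bock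

variable {p : ℕ} [Fact p.Prime] {H : Type*} [Mul H]

/-- `p δy (g, h) + ỹ (g h) = ỹ g + ỹ h`. -/
theorem kpt_bock_spec (y : H → ZMod p) (hy : kl_IsHom y) (g h : H) :
    p * ksha_bock y (g, h) + (y (g * h)).val = (y g).val + (y h).val := by
  haveI : NeZero p := ⟨(Fact.out : p.Prime).ne_zero⟩
  rw [hy g h, ZMod.val_add]
  exact Nat.div_add_mod _ _

/-- `δy` is an integral 2-cocycle. -/
theorem kpt_bock_cocycle {H : Type*} [Semigroup H] (y : H → ZMod p) (hy : kl_IsHom y)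
    (g h j : H) :
    ksha_bock y (g * h, j) + ksha_bock y (g, h) = ksha_bock y (h, j) + ksha_bock y (g, h * j) := by
  have hp : 0 < p := (Fact.out : p.Prime).pos
  have h1 := kpt_bock_spec y hy (g * h) j
  have h2 := kpt_bock_spec y hy g h
  have h3 := kpt_bock_spec y hy h j
  have h4 := kpt_bock_spec y hy g (h * j)
  rw [mul_assoc] at h1
  apply Nat.eq_of_mul_eq_mul_left hp
  rw [mul_add, mul_add]
  omega

end Bock

section Local

variable (q : ℕ) [Fact q.Prime]

/-- The prime `q` as a unit of `Ω_q`. -/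
def kpt_qLoc : (PadicAlgCl q)ˣ :=
  Units.mk0 ((q : ℕ) : PadicAlgCl q) (Nat.cast_ne_zero.2 (Fact.out : q.Prime).ne_zero)

theorem kpt_qLoc_smul (τ : lcf_Gal q) : τ • kpt_qLoc q = kpt_qLoc q := by
  apply Units.ext
  rw [AlgEquiv.smul_units_def, Units.coe_map]
  exact map_natCast τ q

theorem kpt_qLoc_smul' (U : Subgroup (lcf_Gal q)) (τ : ↥U) (n : ℕ) :
    τ • kpt_qLoc q ^ n = kpt_qLoc q ^ n := by
  rw [smul_pow']
  congr 1
  exact kpt_qLoc_smul q (τ : lcf_Gal q)

end Local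

/-- Every finite level is contained in a finite level whose fixing subgroup is normal. -/
theorem kpt_exists_normal (F : IntermediateField ℚ Qbar) (hF : FiniteDimensional ℚ F) :
    ∃ F' : IntermediateField ℚ Qbar, FiniteDimensional ℚ F' ∧ F ≤ F' ∧
      F'.fixingSubgroup.Normal := by
  haveI := hF
  have hclos : IsAlgClosure ℚ Qbar := AlgebraicClosure.instIsAlgClosure ℚ
  haveI hgal : IsGalois ℚ Qbar := inferInstance
  haveI : Normal ℚ Qbar := IsGalois.to_normal
  haveI hn : Normal ℚ ↥(IntermediateField.normalClosure ℚ ↥F Qbar) :=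
    normalClosure.normal ℚ _ Qbar
  haveI : IsGalois ℚ ↥(IntermediateField.normalClosure ℚ ↥F Qbar) := ⟨⟩
  exact ⟨IntermediateField.normalClosure ℚ ↥F Qbar, normalClosure.is_finiteDimensional ℚ _ Qbar,
    IntermediateField.le_normalClosure F,
    IsGalois.fixingSubgroup_normal_of_isGalois _⟩

theorem kpt_emb_q (q : Nat.Primes) (g : s55_GQ) :
    letI : Fact (q : ℕ).Prime := ⟨q.2⟩
    ak_emb (q : ℕ) g (ksha_qU q) = kpt_qLoc (q : ℕ) := by
  letI : Fact (q : ℕ).Prime := ⟨q.2⟩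
  apply Units.ext
  rw [ak_emb_coe]
  show padicEmbedding (q : ℕ) (g (((q : ℕ) : Qbar))) = (((q : ℕ) : ℕ) : PadicAlgCl (q : ℕ))
  rw [map_natCast, map_natCast]

/-- **[KSHA-PTORS]** -/
theorem kpt_main : ksha_PTorsStatement := by
  intro inv p _ S K hK R hctx y hy hyl w hw
  obtain ⟨q, g⟩ := w
  letI : Fact (q : ℕ).Prime := ⟨q.2⟩
  have hp : 0 < p := (Fact.out : p.Prime).pos
  -- the local group is open
  obtain ⟨EK, hEK, hEKfix⟩ := kras_conv (q : ℕ) K hctx.unr.1
  have hV : lcf_IsOpen (ak_H K (q : ℕ) g) := by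
    refine ⟨EK, hEK, fun s hs => ?_⟩
    rw [ak_mem_H_iff]
    have h1 := hK.conj_mem _ (hEKfix s hs) g⁻¹
    rwa [inv_inv] at h1
  -- the level of `y`, made normal
  obtain ⟨F, hF, hFy⟩ := hyl
  obtain ⟨F', hF'fin, hFF', hF'N⟩ := kpt_exists_normal F hF.1
  obtain ⟨E, hE, hEfix⟩ := kras_conv (q : ℕ) F' hF'fin
  have hys : ∀ τ s : ↥(ak_H K (q : ℕ) g), (s : lcf_Gal (q : ℕ)) ∈ E.fixingSubgroup →
      y (ak_r K (q : ℕ) g (τ * s)) = y (ak_r K (q : ℕ) g τ) := by
    intro τ s hs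
    rw [map_mul]
    refine hFy _ _ ?_
    rw [ak_r_coe]
    have h1 := hF'N.conj_mem _ (hEfix _ hs) g⁻¹
    rw [inv_inv] at h1
    exact IntermediateField.fixingSubgroup_antitone hFF' h1
  -- the local cocycle
  set yl : ↥(ak_H K (q : ℕ) g) → ZMod p := fun τ => y (ak_r K (q : ℕ) g τ) with hyl'
  have hylh : kl_IsHom yl := fun τ τ' => by
    simp only [hyl']
    rw [map_mul]
    exact hy _ _
  set f : ↥(ak_H K (q : ℕ) g) × ↥(ak_H K (q : ℕ) g) → (PadicAlgCl (q : ℕ))ˣ :=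
    fun x => kpt_qLoc (q : ℕ) ^ ksha_bock yl x with hf
  have hfe : ak_loc₂ K (q : ℕ) g (ksha_cupB K (ksha_qU q) y) = f := by
    funext x
    show ak_emb (q : ℕ) g (ksha_qU q ^ _) = _
    rw [map_pow, kpt_emb_q]
    rfl
  have hfcoc : lcf_IsCoc (ak_H K (q : ℕ) g) f := by
    refine ⟨fun τ τ' τ'' => ?_, E, hE, fun τ τ' s s' hs hs' => ?_⟩
    · simp only [hf]
      rw [kpt_qLoc_smul', ← pow_add, ← pow_add, kpt_bock_cocycle yl hylh]
    · simp only [hf, ksha_bock, hyl']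
      rw [hys τ s hs, hys τ' s' hs']
  have hcob : lcf_IsCob (ak_H K (q : ℕ) g) (f ^ p) := by
    refine ⟨fun τ => kpt_qLoc (q : ℕ) ^ (yl τ).val, ⟨E, hE, fun τ s hs => ?_⟩, fun τ τ' => ?_⟩
    · simp only [hyl']
      rw [hys τ s hs]
    · rw [kpt_qLoc_smul', Pi.pow_apply]
      simp only [hf]
      rw [← pow_mul, div_mul_eq_mul_div, div_eq_iff_eq_mul, ← pow_add, ← pow_add]
      congr 1
      have h1 := kpt_bock_spec yl hylh τ τ'
      rw [mul_comm (ksha_bock yl (τ, τ')) p]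
      omega
  show p • inv (q : ℕ) (ak_H K (q : ℕ) g) (ak_loc₂ K (q : ℕ) g (ksha_cupB K (ksha_qU q) y)) = 0
  rw [hfe, ← lh3m_inv_pow hctx.inv _ hV hfcoc p]
  exact (hctx.inv.eq_zero_iff (q : ℕ) _ hV _ (lh3m_isCoc_pow hfcoc p)).2 hcob

end Fermat.Agent.S55
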