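/-
S55 (fifth wave), GLOBAL side, [K-SHA] leaf [KSHA-LOC-U] = `ksha_LocUStatement` of
`Global/KShaDefs.lean`.  Owner: helper8.  Prefix `klu_`.
Export: `klu_main : ksha_PhiStatement → ksha_LocUStatement`.

PROOF.  `w = (q, g)`, `q ∉ S`, `V = ak_H K q g`, `F'` a common normal level of the datum, of `y`
and of `ε`, unramified outside `S` (so unramified at `q`); `Φ_w`, `f_w` the localisations of `Φ`
and of `q ∪ δy`, both smooth cocycles of `V` ([KSHA-PHI] resp. `δy` is an integral cocycle).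
With `N = a - b`, `a, b ∈ ℕ`, the cocycle `Ψ = Φ_w · f_w ^ a / f_w ^ b` is inflated from the
unramified level `ak_H F' q g` and unit-valued (`‖ι ζ‖ = 1`, `‖ι (b u)‖ ^ p = ‖τ (ι x)‖ / ‖ι x‖ =
1`, `‖ι x‖ = ‖q‖ ^ N`), hence a smooth coboundary (`unr_h2u_isCob`); (I1), (I2) give
`inv Φ_w = b • inv f_w - a • inv f_w = - N • A_w(y)`.
-/
import Mathlib
import Fermat.Agent.S55.Global.KShaDefs
import Fermat.Agent.S55.Global.KShaPTors
import Fermat.Agent.S55.Global.AkUnr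
import Fermat.Agent.S55.Local.H3Mu
import Fermat.Agent.S55.UnrAbs1

set_option autoImplicit false
set_option maxHeartbeats 1000000
set_option synthInstance.maxHeartbeats 400000
set_option linter.unusedSectionVars false
set_option linter.unusedVariables false
set_option linter.style.haveILetI false

open CategoryTheory Module groupCohomology ExtCitation

noncomputable section

namespace Fermat.Agent.S55

local notation "Qbar" => AlgebraicClosure ℚ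

/-! ### A common normal level -/

/-- A common level of four fields unramified outside `S`, with normal fixing subgroup. -/
theorem klu_common_level {S : Finset Nat.Primes} {F₀ F₁ F₂ F₃ : IntermediateField ℚ Qbar}
    (h₀ : F₀.IsUnramifiedOutside S) (h₁ : F₁.IsUnramifiedOutside S)
    (h₂ : F₂.IsUnramifiedOutside S) (h₃ : F₃.IsUnramifiedOutside S) :
    ∃ F : IntermediateField ℚ Qbar, F.IsUnramifiedOutside S ∧ F₀ ≤ F ∧ F₁ ≤ F ∧ F₂ ≤ F ∧
      F₃ ≤ F ∧ F.fixingSubgroup.Normal := by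
  obtain ⟨F, hn, h01, h23, hF⟩ := brg_common_level (h₀.sup h₁) (h₂.sup h₃)
  have hclos : IsAlgClosure ℚ Qbar := AlgebraicClosure.instIsAlgClosure ℚ
  haveI hgal : IsGalois ℚ Qbar := inferInstance
  haveI := hn
  haveI := hF.1
  have hG : IsGalois ℚ ↥F := ⟨⟩
  exact ⟨F, hF, le_sup_left.trans h01, le_sup_right.trans h01, le_sup_left.trans h23,
    le_sup_right.trans h23, @IsGalois.fixingSubgroup_normal_of_isGalois ℚ Qbar _ _ _ F hgal hG⟩

theorem klu_isLevel {K F : IntermediateField ℚ Qbar} (hKF : K ≤ F) (hF : FiniteDimensional ℚ F)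
    (hn : F.fixingSubgroup.Normal) : ak_IsLevel K F :=
  ⟨hKF, hF, fun u _ s hs => by
    have h := hn.conj_mem s hs u⁻¹
    rwa [inv_inv] at h⟩

/-! ### The cochain `q ∪ δy` -/

section CupB

variable {p : ℕ} [Fact p.Prime] (K : IntermediateField ℚ Qbar)

theorem klu_qU_smul (q : Nat.Primes) (u : ↥K.fixingSubgroup) : u • ksha_qU q = ksha_qU q := by
  apply Units.ext
  show (u : s55_GQ) (((q : ℕ) : Qbar)) = ((q : ℕ) : Qbar)
  exact map_natCast (u : s55_GQ) _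

theorem klu_cupB_apply (a : Qbarˣ) (y : ↥K.fixingSubgroup → ZMod p)
    (z : ↥K.fixingSubgroup × ↥K.fixingSubgroup) :
    ksha_cupB K a y z = a ^ ksha_bock y z := rfl

theorem klu_cupB_cocycle (q : Nat.Primes) (y : ↥K.fixingSubgroup → ZMod p) (hy : kl_IsHom y) :
    IsMulCocycle₂ (ksha_cupB K (ksha_qU q) y) := by
  intro g h j
  rw [klu_cupB_apply, klu_cupB_apply, klu_cupB_apply, klu_cupB_apply, smul_pow', klu_qU_smul,
    ← pow_add, ← pow_add, kpt_bock_cocycle y hy]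

theorem klu_cupB_const (q : Nat.Primes) (F' : IntermediateField ℚ Qbar)
    (y : ↥K.fixingSubgroup → ZMod p) (hy : ak_Const₁ K F' y) :
    ak_Const₂ K F' (ksha_cupB K (ksha_qU q) y) := by
  intro g g' s s' hs hs'
  simp only [klu_cupB_apply, ksha_bock]
  rw [hy g s hs, hy g' s' hs']

theorem klu_cupB_lev (q : Nat.Primes) (F' : IntermediateField ℚ Qbar)
    (y : ↥K.fixingSubgroup → ZMod p) (hy : ak_Const₁ K F' y) :
    ak_Lev₂ K F' (ksha_cupB K (ksha_qU q) y) := by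
  refine ⟨klu_cupB_const K q F' y hy, fun z => ?_⟩
  rw [klu_cupB_apply, Units.val_pow_eq_pow_val]
  exact pow_mem (natCast_mem F' _) _

end CupB

/-! ### Norms -/

theorem klu_real_aux {ν : ℝ} (hν : ν ≠ 0) (a b δ : ℕ) :
    1 / (ν ^ a / ν ^ b) ^ δ * (ν ^ δ) ^ a / (ν ^ δ) ^ b = 1 := by
  have hA : (ν ^ δ) ^ a = (ν ^ a) ^ δ := by rw [← pow_mul, ← pow_mul, mul_comm]
  have hB : (ν ^ δ) ^ b = (ν ^ b) ^ δ := by rw [← pow_mul, ← pow_mul, mul_comm]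
  have hA0 : (ν ^ a) ^ δ ≠ 0 := pow_ne_zero _ (pow_ne_zero _ hν)
  have hB0 : (ν ^ b) ^ δ ≠ 0 := pow_ne_zero _ (pow_ne_zero _ hν)
  rw [hA, hB, div_pow]
  field_simp

section Norms

variable {p : ℕ} [Fact p.Prime] {q : ℕ} [Fact q.Prime]

theorem klu_norm_eq_one_of_pow {x : PadicAlgCl q} (h : ‖x‖ ^ p = 1) : ‖x‖ = 1 :=
  (pow_eq_one_iff_of_nonneg (norm_nonneg x) (Fact.out : p.Prime).ne_zero).1 h

theorem klu_zeta_pow : ksha_zeta p ^ p = 1 := by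
  apply Units.ext
  rw [Units.val_pow_eq_pow_val, Units.val_one]
  exact (ld_zeta_spec p).pow_eq_one

/-- `‖ι ζ‖ = 1`. -/
theorem klu_norm_zeta (g : s55_GQ) : ‖((ak_emb q g (ksha_zeta p) : (PadicAlgCl q)ˣ) :
    PadicAlgCl q)‖ = 1 := by
  apply klu_norm_eq_one_of_pow (p := p)
  rw [← norm_pow, ← Units.val_pow_eq_pow_val, ← map_pow, klu_zeta_pow, map_one, Units.val_one,
    norm_one]

/-- `‖τ u‖ = ‖u‖` on units. -/
theorem klu_norm_smul (V : Subgroup (lcf_Gal q)) (τ : ↥V) (u : (PadicAlgCl q)ˣ) :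
    ‖((τ • u : (PadicAlgCl q)ˣ) : PadicAlgCl q)‖ = ‖(u : PadicAlgCl q)‖ := by
  rw [unr_abs_smul_units_val]
  exact unr_abs_norm_map _ _

/-- `‖ι (b (r τ))‖ = 1` if `b u ^ p = u x / x`. -/
theorem klu_norm_b (K : IntermediateField ℚ Qbar) (g : s55_GQ) (b : ↥K.fixingSubgroup → Qbarˣ)
    (x : Qbarˣ) (hb : ∀ u : ↥K.fixingSubgroup, b u ^ p = u • x / x) (τ : ↥(ak_H K q g)) :
    ‖((ak_emb q g (b (ak_r K q g τ)) : (PadicAlgCl q)ˣ) : PadicAlgCl q)‖ = 1 := by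
  apply klu_norm_eq_one_of_pow (p := p)
  have h1 : ak_emb q g (b (ak_r K q g τ)) ^ p = τ • ak_emb q g x / ak_emb q g x := by
    rw [← map_pow, hb, map_div, aku_smul_emb]
  rw [← norm_pow, ← Units.val_pow_eq_pow_val, h1, Units.val_div_eq_div_val, norm_div,
    klu_norm_smul]
  exact div_self (norm_ne_zero_iff.2 (Units.ne_zero _))

end Norms

/-! ### The local computation -/

section Local

variable {p : ℕ} [Fact p.Prime] {q : ℕ} [Fact q.Prime]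

theorem klu_infl_combine {V V' : Subgroup (lcf_Gal q)} {f c : ↥V × ↥V → (PadicAlgCl q)ˣ}
    (hf : spl_IsInfl V V' f) (hc : spl_IsInfl V V' c) (a b : ℕ) :
    spl_IsInfl V V' (f * c ^ a / c ^ b) := by
  refine ⟨fun g h s s' hs hs' => ?_, fun g h s hs => ?_⟩
  · simp only [Pi.mul_apply, Pi.div_apply, Pi.pow_apply]
    rw [hf.1 g h s s' hs hs', hc.1 g h s s' hs hs']
  · simp only [Pi.mul_apply, Pi.div_apply, Pi.pow_apply]
    rw [smul_div', smul_mul', smul_pow', smul_pow', hf.2 g h s hs, hc.2 g h s hs]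

end Local

/-- **[KSHA-LOC-U]** -/
theorem klu_main (hPhi : ksha_PhiStatement) : ksha_LocUStatement := by
  intro inv p _ S K hK R hctx c F b x hD y hy hyl ε hεl hdε w hw N hN
  obtain ⟨q, g⟩ := w
  letI : Fact (q : ℕ).Prime := ⟨q.2⟩
  have hinv := hctx.inv
  -- a common level
  obtain ⟨Fy, hFy, hFyy⟩ := hyl
  obtain ⟨Fε, hFε, hFεε⟩ := hεl
  obtain ⟨F', hF', hFF', hFyF', hFεF', hKF', hF'n⟩ := klu_common_level hD.unr hFy hFε hctx.unr
  have hlevel : ak_IsLevel K F' := klu_isLevel hKF' hF'.1 hF'n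
  have hyc : ak_Const₁ K F' y := fun u s hs =>
    hFyy u s (IntermediateField.fixingSubgroup_antitone hFyF' hs)
  have hεc : ak_Const₂ K F' ε := fun u u' s s' hs hs' =>
    hFεε u u' s s' (IntermediateField.fixingSubgroup_antitone hFεF' hs)
      (IntermediateField.fixingSubgroup_antitone hFεF' hs')
  obtain ⟨hΦc, hΦl, -⟩ := hPhi p S K hctx.cyc c F b x hD y hy ε hdε F' hFF' hlevel hyc hεc
  -- the local groups
  have hV : lcf_IsOpen (ak_H K (q : ℕ) g) := aku_H_isOpen (q : ℕ) K hctx.unr.1 g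
  have hV' : lcf_IsOpen (ak_H F' (q : ℕ) g) := aku_H_isOpen (q : ℕ) F' hF'.1 g
  have hunr : ak_UnramAt (q : ℕ) F' := ak_unramAt_of_outside hF' q hw
  have hu : unr_IsUnrLevel (ak_H K (q : ℕ) g) (ak_H F' (q : ℕ) g) :=
    unr_isUnrLevel_of_inert hV (fun s hs => aku_inert_mem (q : ℕ) F' hunr g s hs)
  -- the local cocycles
  set Φw : ↥(ak_H K (q : ℕ) g) × ↥(ak_H K (q : ℕ) g) → (PadicAlgCl (q : ℕ))ˣ :=
    ak_loc₂ K (q : ℕ) g (ksha_Phi K ε y b x) with hΦw_def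
  set fw : ↥(ak_H K (q : ℕ) g) × ↥(ak_H K (q : ℕ) g) → (PadicAlgCl (q : ℕ))ˣ :=
    ak_loc₂ K (q : ℕ) g (ksha_cupB K (ksha_qU q) y) with hfw_def
  have hΦw : lcf_IsCoc (ak_H K (q : ℕ) g) Φw := aku_loc₂_isCoc g hF'.1 _ hΦc hΦl.1
  have hfw : lcf_IsCoc (ak_H K (q : ℕ) g) fw :=
    aku_loc₂_isCoc g hF'.1 _ (klu_cupB_cocycle K q y hy) (klu_cupB_const K q F' y hyc)
  have hΦi : spl_IsInfl (ak_H K (q : ℕ) g) (ak_H F' (q : ℕ) g) Φw := aku_loc₂_infl g _ hΦl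
  have hfi : spl_IsInfl (ak_H K (q : ℕ) g) (ak_H F' (q : ℕ) g) fw :=
    aku_loc₂_infl g _ (klu_cupB_lev K q F' y hyc)
  obtain ⟨a, b', rfl⟩ : ∃ a b' : ℕ, N = (a : ℤ) - b' := ⟨N.toNat, (-N).toNat, by omega⟩
  have hΨc : lcf_IsCoc (ak_H K (q : ℕ) g) (Φw * fw ^ a / fw ^ b') :=
    lh3m_isCoc_div (lh3m_isCoc_mul hΦw (lh3m_isCoc_pow hfw a)) (lh3m_isCoc_pow hfw b')
  -- unit-valued
  have hν : ‖(((q : ℕ) : ℕ) : PadicAlgCl (q : ℕ))‖ ≠ 0 :=
    norm_ne_zero_iff.2 (Nat.cast_ne_zero.2 q.2.ne_zero)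
  have hx : ‖((ak_emb (q : ℕ) g x : (PadicAlgCl (q : ℕ))ˣ) : PadicAlgCl (q : ℕ))‖ =
      ‖(((q : ℕ) : ℕ) : PadicAlgCl (q : ℕ))‖ ^ ((a : ℤ) - b') := hN
  have hq : ‖((kpt_qLoc (q : ℕ) : (PadicAlgCl (q : ℕ))ˣ) : PadicAlgCl (q : ℕ))‖ =
      ‖(((q : ℕ) : ℕ) : PadicAlgCl (q : ℕ))‖ := rfl
  have hΨu : ∀ τ τ' : ↥(ak_H K (q : ℕ) g),
      ‖(((Φw * fw ^ a / fw ^ b') (τ, τ') : (PadicAlgCl (q : ℕ))ˣ) : PadicAlgCl (q : ℕ))‖ = 1 := by
    intro τ τ'
    have h1 : (Φw * fw ^ a / fw ^ b') (τ, τ') =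
        ak_emb (q : ℕ) g (ksha_zeta p) ^
            (ε (ak_r K (q : ℕ) g τ, ak_r K (q : ℕ) g τ')).val /
          (ak_emb (q : ℕ) g (b (ak_r K (q : ℕ) g τ)) ^ (y (ak_r K (q : ℕ) g τ')).val *
            ak_emb (q : ℕ) g x ^ ksha_bock y (ak_r K (q : ℕ) g τ, ak_r K (q : ℕ) g τ')) *
          (kpt_qLoc (q : ℕ) ^ ksha_bock y (ak_r K (q : ℕ) g τ, ak_r K (q : ℕ) g τ')) ^ a /
          (kpt_qLoc (q : ℕ) ^ ksha_bock y (ak_r K (q : ℕ) g τ, ak_r K (q : ℕ) g τ')) ^ b' := by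
      simp only [hΦw_def, hfw_def, Pi.mul_apply, Pi.div_apply, Pi.pow_apply, aku_loc₂_apply,
        ksha_Phi, klu_cupB_apply, map_div, map_mul, map_pow]
      rw [kpt_emb_q]
    rw [h1]
    simp only [Units.val_mul, Units.val_div_eq_div_val, Units.val_pow_eq_pow_val, norm_mul,
      norm_div, norm_pow]
    rw [klu_norm_zeta, klu_norm_b K g b x hD.pow τ, one_pow, one_pow, one_mul, hx, hq,
      zpow_sub₀ hν, zpow_natCast, zpow_natCast]
    exact klu_real_aux hν a b' _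
  have hΨcob : lcf_IsCob (ak_H K (q : ℕ) g) (Φw * fw ^ a / fw ^ b') :=
    unr_h2u_isCob _ _ hV' (aku_normalIn g hlevel) hu _ hΨc.1 (klu_infl_combine hΦi hfi a b') hΨu
  have hΨ0 : inv (q : ℕ) (ak_H K (q : ℕ) g) (Φw * fw ^ a / fw ^ b') = 0 :=
    (hinv.eq_zero_iff (q : ℕ) _ hV _ hΨc).2 hΨcob
  -- (I1)
  have e : Φw = (Φw * fw ^ a / fw ^ b') * fw ^ b' / fw ^ a := by
    rw [div_mul_cancel, mul_div_cancel_right]
  show inv (q : ℕ) (ak_H K (q : ℕ) g) Φw =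
    -(((a : ℤ) - b') • inv (q : ℕ) (ak_H K (q : ℕ) g) fw)
  rw [e, lh3m_inv_div hinv _ hV (lh3m_isCoc_mul hΨc (lh3m_isCoc_pow hfw b'))
      (lh3m_isCoc_pow hfw a),
    hinv.add (q : ℕ) _ hV _ _ hΨc (lh3m_isCoc_pow hfw b'), hΨ0, zero_add,
    lh3m_inv_pow hinv _ hV hfw, lh3m_inv_pow hinv _ hV hfw, sub_zsmul, natCast_zsmul,
    natCast_zsmul]
  abel

end Fermat.Agent.S55
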