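/-
S55 (fifth wave), GLOBAL side, [K-EX] package, leaf [KEX-KUMGEN] (helper8).  Prefix `kxk_`.

Every level-`S` character `y` of `U = G_K` (`ζ_p ∈ K`) is a Kummer character:
  `kxk_main : kex_KumGenStatement`   (hypothesis-free; `ksha_h90_main` plugged).

PROOF.  `F` a normal common level of the level field of `y` and `K`; `ζ ^ y` is a 1-cocycle of
level `F`; Hilbert 90 gives `α ∈ Fˣ` with `ζ ^ y(σ) = σ α / α`; `α ^ p` is fixed by `U`.
-/
import Fermat.Agent.S55.Global.KExArtDefs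
import Fermat.Agent.S55.Global.KShaBasic
import Fermat.Agent.S55.Global.KShaLocU
import Fermat.Agent.S55.Global.KShaH90

set_option autoImplicit false
set_option linter.style.haveILetI false
set_option maxHeartbeats 1000000
set_option synthInstance.maxHeartbeats 400000

open CategoryTheory Module groupCohomology ExtCitation

noncomputable section

namespace Fermat.Agent.S55

local notation "Qbar" => AlgebraicClosure ℚ

section

variable {p : ℕ} [Fact p.Prime] (K : IntermediateField ℚ Qbar)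

/-- `ζ ^ y` is a multiplicative 1-cocycle for a character `y`. -/
theorem kxk_exp_cocycle (hcyc : ∀ s ∈ K.fixingSubgroup, cycloChar p s = 1)
    (y : ↥K.fixingSubgroup → ZMod p) (hy : kl_IsHom y) :
    IsMulCocycle₁ (fun σ : ↥K.fixingSubgroup => ksha_zeta p ^ (y σ).val) := by
  intro g h
  show ksha_zeta p ^ _ = g • (ksha_zeta p ^ _) * ksha_zeta p ^ _
  rw [ksha_smul_zeta_pow K hcyc, hy g h, ksha_pow_val_add (ksha_zeta_pow p), mul_comm]

/-- `ζ ^ y` has level `F` if `y` is constant modulo `G_F` and `K ≤ F`. -/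
theorem kxk_exp_lev (hcyc : ∀ s ∈ K.fixingSubgroup, cycloChar p s = 1)
    (F : IntermediateField ℚ Qbar) (hKF : K ≤ F)
    (y : ↥K.fixingSubgroup → ZMod p) (hy : ak_Const₁ K F y) :
    ak_Lev₁ K F (fun σ : ↥K.fixingSubgroup => ksha_zeta p ^ (y σ).val) := by
  refine ⟨fun g s hs => ?_, fun g => ?_⟩
  · show ksha_zeta p ^ _ = ksha_zeta p ^ _
    rw [hy g s hs]
  · show ((ksha_zeta p ^ (y g).val : Qbarˣ) : Qbar) ∈ F
    rw [Units.val_pow_eq_pow_val]
    exact pow_mem (hKF (ksha_zeta_mem K hcyc)) _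

/-- If `σ α = ζ ^ y(σ) α` for all `σ ∈ U`, then `α ^ p ∈ K`. -/
theorem kxk_pow_mem (y : ↥K.fixingSubgroup → ZMod p) (α : Qbarˣ)
    (hα : ∀ σ : ↥K.fixingSubgroup, σ • α = ksha_zeta p ^ (y σ).val * α) :
    ((α ^ p : Qbarˣ) : Qbar) ∈ K := by
  apply ksha_mem_of_fixed
  intro s hs
  have h1 : (⟨s, hs⟩ : ↥K.fixingSubgroup) • (α ^ p) = α ^ p := by
    rw [smul_pow', hα, mul_pow, pow_right_comm, ksha_zeta_pow, one_pow, one_mul]
  exact congrArg (fun u : Qbarˣ => (u : Qbar)) h1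

end

/-- **[KEX-KUMGEN]** from Hilbert 90. -/
theorem kxk_of (hH90 : ksha_H90Statement) : kex_KumGenStatement := by
  intro p _ S K hK hunr hcyc y hy hlevS
  obtain ⟨F₀, hF₀, hconst⟩ := hlevS
  obtain ⟨F, hF, hF₀F, hKF, -, -, hn⟩ := klu_common_level hF₀ hunr hF₀ hF₀
  have hlev : ak_IsLevel K F := klu_isLevel hKF hF.1 hn
  have hyF : ak_Const₁ K F y := fun g s hs =>
    hconst g s (IntermediateField.fixingSubgroup_le hF₀F hs)
  obtain ⟨α, hαF, hα⟩ := hH90 K F hlev _ (kxk_exp_cocycle K hcyc y hy)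
    (kxk_exp_lev K hcyc F hKF y hyF)
  have hα' : ∀ σ : ↥K.fixingSubgroup, σ • α = ksha_zeta p ^ (y σ).val * α := by
    intro σ
    have h1 : ksha_zeta p ^ (y σ).val = σ • α / α := hα σ
    rw [h1, div_mul_cancel]
  exact ⟨F, α, hF, hαF, kxk_pow_mem K y α hα', hα'⟩

/-- **[KEX-KUMGEN]** -/
theorem kxk_main : kex_KumGenStatement := kxk_of ksha_h90_main

end Fermat.Agent.S55
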