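/-
S55 (fifth wave), GLOBAL side, leaf [E-ORD] (= [UNR-DICT] "⇒") of helper26's `Global/EcohDefs.lean`
(helper23).  Prefix `eord_`.

  eord_main   : eco_OrdStatement      (hypothesis-free)
  flk_unrVal  : flk_UnrValStatement   (the same with `q ^ n` instead of `q ^ (-n)`)
  eord_value  : a nonzero element of `Ω_q` fixed by all inert `s` has norm `q ^ (-n)`
  eord_mem_base : an element of `Ω_q` fixed by `Gal(Ω_q/ℚ_q)` lies in `ℚ_q`

Inputs: helper1's `aku_inert_mem` (inert ⟹ in the local group of an unramified level) and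
helper29's `unr_abs_urVal` (value group of the inertia field).
-/
import Mathlib
import Fermat.Agent.S55.Global.EcohDefs
import Fermat.Agent.S55.Global.AkUnr
import Fermat.Agent.S55.Local.SplUrVal
import Fermat.Agent.S55.Global.FinLevelKDefs

set_option autoImplicit false
set_option linter.style.haveILetI false

namespace Fermat.Agent.S55

noncomputable section

local notation "Qbar" => AlgebraicClosure ℚ

section

variable (q : ℕ) [Fact q.Prime]

theorem eord_isOpen_top : lcf_IsOpen (⊤ : Subgroup (lcf_Gal q)) :=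
  ⟨⊥, inferInstance, le_top⟩

/-- an element of `Ω_q` fixed by the whole Galois group lies in `ℚ_q`. -/
theorem eord_mem_base (y : PadicAlgCl q) (hy : ∀ g : lcf_Gal q, g y = y) :
    ∃ a : ℚ_[q], algebraMap ℚ_[q] (PadicAlgCl q) a = y := by
  have h := (InfiniteGalois.mem_bot_iff_fixed (k := ℚ_[q]) (K := PadicAlgCl q) y).2 hy
  exact IntermediateField.mem_bot.1 h

/-- the norm of a nonzero element of `Ω_q` fixed by the inertia group is a power of `q`. -/
theorem eord_value (x : PadicAlgCl q) (hx0 : x ≠ 0)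
    (hx : ∀ s : lcf_Gal q, lcf_IsInert s → s x = x) : ∃ n : ℤ, ‖x‖ = (q : ℝ) ^ (-n) := by
  obtain ⟨y, hy0, hyU, hxy⟩ := unr_abs_urVal (⊤ : Subgroup (lcf_Gal q)) (eord_isOpen_top q) x hx0
    (fun s hs => hx s hs)
  obtain ⟨a, ha⟩ := eord_mem_base q y (fun g => hyU ⟨g, Subgroup.mem_top g⟩)
  have ha0 : a ≠ 0 := by
    rintro rfl
    exact hy0 (by rw [← ha, map_zero])
  refine ⟨a.valuation, ?_⟩
  rw [hxy, ← ha, PadicAlgCl.norm_extends, Padic.norm_eq_zpow_neg_valuation ha0]

/-- **[E-ORD]** -/
theorem eord_main : eco_OrdStatement := by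
  intro q _ F _ hF x hx g
  have hx0 : padicEmbedding q (g (x : Qbar)) ≠ 0 := by
    intro h
    have h1 : g (x : Qbar) = 0 := by
      have := (padicEmbedding q).toRingHom.injective (a₁ := g (x : Qbar)) (a₂ := 0)
      apply this
      rw [map_zero]
      exact h
    have h2 : (x : Qbar) = 0 := by
      have := g.injective (a₁ := (x : Qbar)) (a₂ := 0)
      apply this
      rw [map_zero]
      exact h1
    exact x.ne_zero h2
  apply eord_value q _ hx0
  intro s hs
  have h1 := aku_inert_mem q F hF g s hs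
  rw [ak_mem_H_iff] at h1
  have h2 := (IntermediateField.mem_fixingSubgroup_iff F _).1 h1 (x : Qbar) hx
  have h3 : (g⁻¹ * localGaloisToGlobal q s * g) (x : Qbar) =
      g⁻¹ (localGaloisToGlobal q s (g (x : Qbar))) := rfl
  rw [h3] at h2
  have h4 := congrArg g h2
  rw [show g (g⁻¹ (localGaloisToGlobal q s (g (x : Qbar)))) =
    localGaloisToGlobal q s (g (x : Qbar)) from AlgEquiv.apply_symm_apply g _] at h4
  rw [← padicEmbedding_localGaloisToGlobal, h4]

/-- **[FLK-UNRVAL]** -/
theorem flk_unrVal : flk_UnrValStatement := by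
  intro q _ F hfin hF g x hx hx0
  obtain ⟨n, hn⟩ := eord_main q F hfin hF (Units.mk0 x hx0) hx g
  exact ⟨-n, hn⟩

end

end

end Fermat.Agent.S55
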