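/-
S55 (fifth wave), GLOBAL side, part 3: THE CUT OF [K-EX] (`kl_ExStatement` of `Bridge/KDefs.lean`).
Owner of the interface: helper25.  Prefix `kex_`.  Definitions and closed Props only.

SETTING (`ksha_Ctx`): `p` odd, `p ∈ S`, `K ⊆ ℚ̄` finite GALOIS over `ℚ`, unramified outside `S`,
`ζ_p ∈ K`, `U = G_K`, `R` representatives of the places of `K` above `S`.  For a place
`w = (q, g)` (`q ∈ S`, `g ∈ R q`) put `Θ_w = Hom_sm (kl_H K q, F_p)` (finite: `lfk_finHom`),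
`P = ∏_w Θ_w`, `Y = Y_S =` the level-`S` characters of `U`, `loc : Y → P`, `y ↦ (y ∘ r_w)_w`, and
    `b_w (θ, η) = kl_inv K inv q g (θ ∪ η)`,    `B (θ, η) = ∑_w b_w (θ_w, η_w)`.
[K-EX] says: `B (θ, loc y) = 0` for all `y ∈ Y`  ⟹  `θ ∈ loc Y`.

ROUTE (COUNTING, but WITHOUT class groups and WITHOUT the Artin pairing: the class group is
killed by ENLARGING `S`).
 (A) LARGE `S` (`kex_ExLargeStatement`): there is `S₀ = S₀(K)` such that [K-EX] holds for all
     `S ⊇ S₀`.  PROOF: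
     * `B` is bi-additive and right non-degenerate on `P`          ([KEX-PAIR] ⟸ (I1) + [V11]);
     * `loc Y` is isotropic: `B (loc y, loc y') = 0`    ([KEX-REC] ⟸ AK-RECIP + AK-UNR for `ζ^(y ∪ y')`);
     * `#P ≤ p ^ (2 #S_K + [K:ℚ])`                      ([KEX-LOCCOUNT] + [KEX-DEG]);
     * `#(loc Y)² ≥ p ^ (2 #S_K + [K:ℚ])`               ([KEX-GLOBCOUNT] ⟸ [KEX-UNITS] + [E-KUM]:
       the Kummer characters of the `S`-units; `S`-unit theorem [SEC-SUNIT] and [SEC-KEY] with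
       `T = ∅`, which needs `J_K = Kˣ J_{K,S}`, i.e. `S` LARGE);
     * linear algebra: right non-degeneracy gives `#(⊥ I) = #P / #I` for `I = loc Y`, and
       `I ⊆ ⊥ I`, `#P ≤ #I²` give `⊥ I = I`                          ([KEX-LINALG], helper25).
 (B) ENLARGING (`S ⊆ S' = S ∪ S₀`): given `θ ⟂ loc Y_S`, the functional
     `λ (y) = ∑_{w ∣ S} b_w (θ_w, y ∘ r_w)` on `Y_{S'}` vanishes on `Y_S`, and
     `Y_S = {y ∈ Y_{S'} | y ∘ r_w unramified for all w ∣ S' \ S}`          ([KEX-LEVEL])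
         `= {y ∈ Y_{S'} | b_w (t, y ∘ r_w) = 0 for all unramified t, w ∣ S' \ S}` ([KEX-UNR-PERP]);
     so (finite-dimensional duality) `λ = - ∑_{w ∣ S' \ S} b_w (t_w, · ∘ r_w)` for a family of
     UNRAMIFIED `t_w`; by (A) the family `(θ, t)` is `loc θ₀`, `θ₀ ∈ Y_{S'}`, and `θ₀ ∈ Y_S` by
     [KEX-LEVEL] again.

LEAVES (each = one theorem `<prefix>_main : <inputs> → kex_<Name>Statement`, own file
`Global/KEx<Name>.lean`, own prefix):
  [KEX-PAIR]      kex_PairStatement       local, ⟸ `lcf_V11Statement` + (I1)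
  [KEX-REC]       kex_RecKStatement       ⟸ `ak_RecipStatement`, `ak_UnrStatement`
  [KEX-LOCCOUNT]  kex_LocCountStatement   local: `#Hom_sm (U, F_p) ≤ p ^ (2 + [q = p] [K_U:ℚ_q])`
  [KEX-DEG]       kex_DegStatement        group theory: `#R_q · [Γ_q : kl_H] = [G : U]`
  [KEX-UNITS]     kex_UnitsStatement      ⟸ [SEC-SUNIT], [SEC-KEY] (`T = ∅`), [IDL-CLASS]
  [KEX-GLOBCOUNT] kex_GlobCountStatement  ⟸ `kex_UnitsStatement`, `eco_KumStatement`
  [KEX-UNR-PERP]  kex_UnrPerpStatement    local, `q ≠ p`: `(Θ^unr)^⊥ ⊆ Θ^unr`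
  [KEX-LEVEL]     kex_LevelStatement      ⟸ [KSHA-H90], [E-ORD], [E-KUM] (or inertia directly)
ASSEMBLIES (helper25): [KEX-LINALG]; `kex_large_of` : PAIR + REC + LOCCOUNT + DEG + GLOBCOUNT ⟹
`kex_ExLargeStatement`; `kex_main_of` : `kex_ExLargeStatement` + PAIR + UNR-PERP + LEVEL ⟹
`kl_ExStatement`.
-/
import Fermat.Agent.S55.Bridge.KDefs
import Fermat.Agent.S55.Global.AbsDefs
import Fermat.Agent.S55.Global.KShaDefs
import Fermat.Agent.S55.Global.EcohDefs

set_option autoImplicit false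
set_option maxHeartbeats 1000000
set_option synthInstance.maxHeartbeats 400000
open CategoryTheory Module groupCohomology ExtCitation

noncomputable section

namespace Fermat.Agent.S55

local notation "Qbar" => AlgebraicClosure ℚ

/-! ### Vocabulary -/

/-- The cup product `(θ ∪ η)(g, h) = θ g * η h` of two `F_p`-valued functions. -/
def kex_cup {H : Type*} {p : ℕ} (θ η : H → ZMod p) : H × H → ZMod p :=
  fun x => θ x.1 * η x.2

/-- A local character is UNRAMIFIED: it vanishes on the inert elements. -/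
def kex_IsUnr {q : ℕ} [Fact q.Prime] {X : Type*} [Zero X] (U : Subgroup (lcf_Gal q))
    (t : ↥U → X) : Prop :=
  ∀ s : ↥U, lcf_IsInert (s : lcf_Gal q) → t s = 0

/-! ### Local leaves -/

/-- **[KEX-PAIR]** the local pairing `(θ, η) ↦ inv_U (ζ ^ (θ ∪ η))` on the smooth characters
`U → F_p` (`U` open, fixing the primitive `p`-th root of unity `ζ ∈ Ωˣ`, `p` odd) is bi-additive
and non-degenerate on the right.
PROOF.  `θ ∪ η` is a smooth `F_p`-valued 2-cocycle (trivial action), so `ζ ^ (θ ∪ η)` is a smooth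
cocycle (`lv20_isCoc_exp`), and `ζ ^ ((θ + θ') ∪ η) = ζ ^ (θ ∪ η) * ζ ^ (θ' ∪ η)`
(`lv20_exp_add`); (I1).  Non-degeneracy is [V11] verbatim. -/
def kex_PairStatement : Prop :=
  ∀ (inv : lcf_InvType), lcf_IsInvSystem inv →
  ∀ (q : ℕ) [Fact q.Prime] (p : ℕ) [Fact p.Prime], p ≠ 2 →
    ∀ (U : Subgroup (lcf_Gal q)), lcf_IsOpen U →
    ∀ ζ : (PadicAlgCl q)ˣ, IsPrimitiveRoot ζ p → (∀ g : ↥U, g • ζ = ζ) →
      (∀ θ θ' η : ↥U → ZMod p, kl_IsHom θ → lcf_Smooth₁ U θ → kl_IsHom θ' → lcf_Smooth₁ U θ' →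
        kl_IsHom η → lcf_Smooth₁ U η →
        inv q U (fun x => ζ ^ ((θ x.1 + θ' x.1) * η x.2).val) =
          inv q U (fun x => ζ ^ (θ x.1 * η x.2).val) +
            inv q U (fun x => ζ ^ (θ' x.1 * η x.2).val)) ∧
      (∀ θ η η' : ↥U → ZMod p, kl_IsHom θ → lcf_Smooth₁ U θ → kl_IsHom η → lcf_Smooth₁ U η →
        kl_IsHom η' → lcf_Smooth₁ U η' →
        inv q U (fun x => ζ ^ (θ x.1 * (η x.2 + η' x.2)).val) =
          inv q U (fun x => ζ ^ (θ x.1 * η x.2).val) +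
            inv q U (fun x => ζ ^ (θ x.1 * η' x.2).val)) ∧
      (∀ η : ↥U → ZMod p, kl_IsHom η → lcf_Smooth₁ U η → η ≠ 0 →
        ∃ θ : ↥U → ZMod p, kl_IsHom θ ∧ lcf_Smooth₁ U θ ∧
          inv q U (fun x => ζ ^ (θ x.1 * η x.2).val) ≠ 0)

/-- **[KEX-LOCCOUNT]** the number of smooth characters `U → F_p` of an open subgroup `U` fixing
`μ_p` (`p` odd) is at most `p ^ (2 + [q = p] · [K_U : ℚ_q])`, `[K_U : ℚ_q] = [Γ : U]`.
PROOF.  Every smooth character is a Kummer character `g ↦ log_ζ (g β / β)`, `β ^ p = a ∈ K_Uˣ`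
([KUM1] = `lkum_kummer1`), which depends only on `a` modulo `p`-th powers; and
`[K_Uˣ : K_Uˣᵖ] = p · #μ_p(K_U) · [O : p O] = p² · p ^ ([K_U : ℚ_q] [q = p])`
(the local part of [SEC-LOCIDX]: `lpw_main` + `Kˣ ≅ ℤ × Oˣ` + Herbrand quotient of `Oˣ`).
(Equality holds, but only `≤` is needed.) -/
def kex_LocCountStatement : Prop :=
  ∀ (q : ℕ) [Fact q.Prime] (p : ℕ) [Fact p.Prime], p ≠ 2 →
    ∀ (U : Subgroup (lcf_Gal q)), lcf_IsOpen U →
    ∀ ζ : (PadicAlgCl q)ˣ, IsPrimitiveRoot ζ p → (∀ g : ↥U, g • ζ = ζ) →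
      Nat.card {θ : ↥U → ZMod p // kl_IsHom θ ∧ lcf_Smooth₁ U θ} ≤
        p ^ (2 + if q = p then U.index else 0)

/-- **[KEX-UNR-PERP]** (`q ≠ p`) a smooth character `η` of `U` which is orthogonal to all
UNRAMIFIED smooth characters is unramified.
PROOF.  `η` is the Kummer character of some `a ∈ K_Uˣ` ([KUM1]); for a smooth character `t`:
`inv (ζ ^ (t ∪ η)) = inv (a ∪ δt)` (with `b g = β ^ t̃(g)`: `d b = ζ ^ (η ∪ t) · (a ∪ δt)`, and
`t ∪ η + η ∪ t = - d (t η)`; this is the computation in the proof of [V11]).  For `t` unramified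
with `t (Frob) = 1` (`unr_abs_unrChar`): `a = ϖ ^ n u`, `inv (u ∪ δt) = 0` (`unr_h2u_isCob`),
`inv (ϖ ∪ δt) = 1/p` (I4), so `p ∣ n`, and `η` is the Kummer character of the unit `u`, which
is unramified because `q ≠ p` (`tame_`: unit Kummer characters are unramified).
(Alternatively: `dim Θ ≤ 2` by [KEX-LOCCOUNT], `Θ^unr ≠ 0` is isotropic, [V11].) -/
def kex_UnrPerpStatement : Prop :=
  ∀ (inv : lcf_InvType), lcf_IsInvSystem inv →
  ∀ (q : ℕ) [Fact q.Prime] (p : ℕ) [Fact p.Prime], p ≠ 2 → q ≠ p →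
    ∀ (U : Subgroup (lcf_Gal q)), lcf_IsOpen U →
    ∀ ζ : (PadicAlgCl q)ˣ, IsPrimitiveRoot ζ p → (∀ g : ↥U, g • ζ = ζ) →
    ∀ η : ↥U → ZMod p, kl_IsHom η → lcf_Smooth₁ U η →
      (∀ t : ↥U → ZMod p, kl_IsHom t → lcf_Smooth₁ U t → kex_IsUnr U t →
        inv q U (fun x => ζ ^ (t x.1 * η x.2).val) = 0) →
      kex_IsUnr U η

/-! ### Global leaves -/

/-- **[KEX-REC]** reciprocity over `K` for `μ_p`: the local invariants above `S` of a level-`S`
`F_p`-valued 2-cocycle `c` of `U = G_K` sum to zero.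
PROOF.  `f = ζ ^ c` (`ksha_exp c`) is a multiplicative 2-cocycle (`ζ ∈ K` is fixed by `U`) of
level `F` = normal closure over `K` of (level field of `c`) `⊔ K` (`brg_normalClosure_unram`),
`f ^ p = 1` so `f` is `p`-primary; `T := {(q, g) | q ∈ S, g ∈ R q}` is a place set
(`kl_IsReps`), and a place outside `T` lies above a prime outside `S`, where `inv f = 0` by
[AK-UNR] (`F` unramified, roots of unity are units).  [AK-RECIP] gives `∑_{w ∈ T} inv_w f = 0`,
and `inv_(q,g) f = kl_inv K inv q g (c ∘ r)` because `ak_H K q g = kl_H K q` (`U` normal,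
`ak_inv_congr`) and `ι_q (g ζ) = ζ_loc ^ χ(g)` (as in [KSHA-LOC-S]). -/
def kex_RecKStatement : Prop :=
  ∀ (inv : lcf_InvType) (p : ℕ) [Fact p.Prime] (S : Finset Nat.Primes)
    (K : IntermediateField ℚ Qbar) [K.fixingSubgroup.Normal] (R : ↥S → Finset s55_GQ),
    ksha_Ctx K inv p S R →
    ∀ c : ↥K.fixingSubgroup × ↥K.fixingSubgroup → ZMod p, kl_IsCoc₂ c → kl_LevelS₂ S K c →
      ksha_sumS K inv S R c = 0

/-- **[KEX-DEG]** (group theory) `#{places of K above q} · [K_w : ℚ_q] = [K : ℚ]` for `K/ℚ`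
Galois: `(R q).card * [Γ_q : kl_H K q] = [G_ℚ : U]`.
PROOF.  `Γ_q` acts on the finite set `G_ℚ / U` through `loc_q`; since `U` is normal the
stabilizer of every coset `g U` is `kl_H K q`, so every orbit has `[Γ_q : kl_H K q]` elements;
the orbits are the double cosets `loc_q (Γ_q) g U`, and `R q` is a system of representatives. -/
def kex_DegStatement : Prop :=
  ∀ (S : Finset Nat.Primes) (K : IntermediateField ℚ Qbar) [K.fixingSubgroup.Normal],
    FiniteDimensional ℚ K → ∀ R : ↥S → Finset s55_GQ, kl_IsReps S K R →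
    ∀ q : ↥S, (R q).card * (kl_H K (q : Nat.Primes)).index = K.fixingSubgroup.index

/-- **[KEX-UNITS]** the `S`-units modulo `p`-th powers are detected locally above `S`, for
`S` LARGE: there is `S₀` such that for every `S ⊇ S₀` there is a set `E₀` of `S`-units of `K`
with `(#E₀)² ≥ p ^ (2 #{places above S} + [K : ℚ])`, no two of which differ by an element which
is a `p`-th power in `K_w` for all places `w = (q, g)`, `q ∈ S`, `g ∈ R q`.
PROOF.  Model `K` by the number field `↥K`; `S₀ := T₀ ∪ ram ∪ {p}` (`icl_main`, `ramf_main`).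
[SEC-SUNIT] (`T = ∅`): `[E_S : E_Sᵖ] = p ^ n`, `n = #{places above S} + [K:ℚ]/2`, `[K:ℚ]` even
(`sec_two_dvd_finrank`); `E₀` := representatives.  If `x / x'` is a `p`-th power at all places
`(q, g)`, `g ∈ R q`, then at ALL places above `S` (every place is `(q, loc τ * g * u)`), so
`diag (x / x')` is a `p`-th power in `gl_Jq q ↥K` for `q ∈ S` (choose the roots equivariantly);
[SEC-KEY] with `T = ∅` (`sec_Onto` is trivial) gives `x / x' = z ^ p`, `z ∈ Kˣ`. -/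
def kex_UnitsStatement : Prop :=
  ∀ (p : ℕ) [Fact p.Prime], p ≠ 2 →
  ∀ (K : IntermediateField ℚ Qbar) [K.fixingSubgroup.Normal], FiniteDimensional ℚ K →
    (∀ s ∈ K.fixingSubgroup, cycloChar p s = 1) →
    ∃ S₀ : Finset Nat.Primes, ∀ S : Finset Nat.Primes, S₀ ⊆ S → pPrime p ∈ S →
      K.IsUnramifiedOutside S →
      ∀ R : ↥S → Finset s55_GQ, kl_IsReps S K R →
      ∃ E₀ : Finset Qbarˣ,
        (∀ x ∈ E₀, (x : Qbar) ∈ K ∧ ak_IsSUnit S x) ∧
        p ^ (2 * (∑ q : ↥S, (R q).card) + K.fixingSubgroup.index) ≤ E₀.card ^ 2 ∧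
        ∀ x ∈ E₀, ∀ x' ∈ E₀,
          (∀ (q : ↥S), ∀ g ∈ R q, ∃ β : (PadicAlgCl ((q : Nat.Primes) : ℕ))ˣ,
            (∀ τ : ↥(kl_H K (q : Nat.Primes)), τ • β = β) ∧
              β ^ p = ak_emb ((q : Nat.Primes) : ℕ) g (x / x')) →
          x = x'

/-- **[KEX-GLOBCOUNT]** for `S` LARGE there are at least `p ^ (#{places above S} + [K:ℚ]/2)`
level-`S` characters of `U` with pairwise different localisations above `S`.
PROOF (from [KEX-UNITS] and [E-KUM]).  For `x ∈ E₀` choose `α` with `α ^ p = x` and put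
`y_x (σ) = log_ζ (σ α / α)` (`ζ = ksha_zeta p`): a character of `U` (`ζ, x ∈ K`), constant modulo
`G_F` for the `S`-level `F ∋ α` of [E-KUM] (`F := K`, `k = 1`, `X = {x}`; `ord x = 0` outside
`S`).  If `y_x ∘ r_w = y_x' ∘ r_w` on `kl_H K q`, then `r_w τ` fixes `γ = α / α'` for all `τ`,
so `τ` fixes `β = ak_emb q g γ` (`akc_emb_smul`), and `β ^ p = ak_emb q g (x / x')`. -/
def kex_GlobCountStatement : Prop :=
  ∀ (p : ℕ) [Fact p.Prime], p ≠ 2 →
  ∀ (K : IntermediateField ℚ Qbar) [K.fixingSubgroup.Normal], FiniteDimensional ℚ K →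
    (∀ s ∈ K.fixingSubgroup, cycloChar p s = 1) →
    ∃ S₀ : Finset Nat.Primes, ∀ S : Finset Nat.Primes, S₀ ⊆ S → pPrime p ∈ S →
      K.IsUnramifiedOutside S →
      ∀ R : ↥S → Finset s55_GQ, kl_IsReps S K R →
      ∃ Y₀ : Finset (↥K.fixingSubgroup → ZMod p),
        (∀ y ∈ Y₀, kl_IsHom y ∧ kl_LevelS₁ S K y) ∧
        p ^ (2 * (∑ q : ↥S, (R q).card) + K.fixingSubgroup.index) ≤ Y₀.card ^ 2 ∧
        ∀ y ∈ Y₀, ∀ y' ∈ Y₀,
          (∀ (q : ↥S), ∀ g ∈ R q, ∀ τ : ↥(kl_H K (q : Nat.Primes)),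
            y (kl_r K (q : Nat.Primes) g τ) = y' (kl_r K (q : Nat.Primes) g τ)) →
          y = y'

/-- **[KEX-LEVEL]** a character of level `S' ⊇ S` which is locally unramified at all places
above `S' \ S` has level `S`.
PROOF.  `ζ ^ y` is a 1-cocycle of the level `F' K` (`F'` the level field of `y`, normalised by
`brg_normalClosure_unram`), so `ζ ^ y(σ) = σ α / α` with `α ∈ F' K` ([KSHA-H90]), and
`x := α ^ p ∈ K`.  At `(q, g)`, `q ∉ S'`: `ord α ∈ ℤ` ([E-ORD], `F' K` is unramified at `q`), so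
`p ∣ ord x`.  At `(q, g)`, `q ∈ S' \ S`: every inert `τ ∈ Γ_q` lies in `kl_H K q`
(`aku_inert_mem`, `K` is unramified at `q`) and `y (r τ) = 0`, so `τ` fixes `ι_q (g α)`; an
element of `Ω_q` fixed by the inertia group has absolute value in `q ^ ℤ` (`unr_abs_*`), so again
`p ∣ ord x`.  [E-KUM] (`F := K`, `k = 1`, `X = {x}`) gives an `S`-level `F ∋ α`, and `y` is
constant modulo `G_F`. -/
def kex_LevelStatement : Prop :=
  ∀ (p : ℕ) [Fact p.Prime], p ≠ 2 → ∀ (S S' : Finset Nat.Primes), S ⊆ S' → pPrime p ∈ S →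
    ∀ (K : IntermediateField ℚ Qbar) [K.fixingSubgroup.Normal], K.IsUnramifiedOutside S →
      (∀ s ∈ K.fixingSubgroup, cycloChar p s = 1) →
      ∀ y : ↥K.fixingSubgroup → ZMod p, kl_IsHom y → kl_LevelS₁ S' K y →
        (∀ q : Nat.Primes, q ∈ S' → q ∉ S → ∀ g : s55_GQ,
          kex_IsUnr (kl_H K q) (fun τ => y (kl_r K q g τ))) →
        kl_LevelS₁ S K y

/-! ### The intermediate target -/

/-- **[K-EX] for LARGE `S`**: there is a finite set `S₀` of primes (depending on `K`, `p`)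
such that the assertion of `kl_ExStatement` holds for all `S ⊇ S₀`. -/
def kex_ExLargeStatement : Prop :=
  ∀ (inv : lcf_InvType), lcf_IsInvSystem inv →
  ∀ {p : ℕ} [Fact p.Prime], p ≠ 2 →
    ∀ (K : IntermediateField ℚ Qbar) [K.fixingSubgroup.Normal], FiniteDimensional ℚ K →
      (∀ s ∈ K.fixingSubgroup, cycloChar p s = 1) →
      ∃ S₀ : Finset Nat.Primes, ∀ S : Finset Nat.Primes, S₀ ⊆ S → pPrime p ∈ S →
      K.IsUnramifiedOutside S →
      ∀ R : ↥S → Finset s55_GQ, kl_IsReps S K R →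
      ∀ θ : ∀ q : ↥S, s55_GQ → ↥(kl_H K (q : Nat.Primes)) → ZMod p,
        (∀ (q : ↥S), ∀ g ∈ R q, kl_IsHom (θ q g) ∧ lcf_Smooth₁ (kl_H K (q : Nat.Primes)) (θ q g)) →
        (∀ y : ↥K.fixingSubgroup → ZMod p, kl_IsHom y → kl_LevelS₁ S K y →
          ∑ q : ↥S, ∑ g ∈ R q, kl_inv K inv (q : Nat.Primes) g
            (fun x => θ q g x.1 * y (kl_r K (q : Nat.Primes) g x.2)) = 0) →
        ∃ θ₀ : ↥K.fixingSubgroup → ZMod p, kl_IsHom θ₀ ∧ kl_LevelS₁ S K θ₀ ∧
          ∀ (q : ↥S), ∀ g ∈ R q, ∀ τ : ↥(kl_H K (q : Nat.Primes)),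
            θ₀ (kl_r K (q : Nat.Primes) g τ) = θ q g τ

end Fermat.Agent.S55
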