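/-
S55 (fifth wave), GLOBAL side, package [PLACES], second half (helper18).  Prefix `gpl_`.
On top of helper23's dictionary `Global/Places.lean` (`plc_`):

* (P4) `gpl_exists_embedding`  : SURJECTIVITY - every prime of `𝓞 F` above `q` is
                                 `plc_prime q ι` for an embedding `ι : F →ₐ[ℚ] Ω_q`
                                 (prime avoidance over the finitely many embeddings + the norm);
* `gpl_exists_prime_over`, `gpl_prime_over_unique` : every prime lies over exactly one `q`;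
* `gpl_norm_eq_of_prime_eq`    : embeddings with the same prime induce the same absolute value;
* (P3) `gpl_placeOf_eq_iff`    : `gl_placeOf ι = gl_placeOf ι' ↔ plc_prime q ι = plc_prime q ι'`;
* `gpl_placePrime`             : the map `gl_Place q F → HeightOneSpectrum (𝓞 F)`, injective, with
                                 range the primes above `q`;  `Finite (gl_Place q F)`;
* (P6) `gpl_prime_comp`        : `plc_prime q (ι ∘ σ) = σ⁻¹ (plc_prime q ι)`.
-/
import Mathlib
import Fermat.Agent.S55.Global.Places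

set_option autoImplicit false
set_option linter.style.haveILetI false
set_option maxHeartbeats 1000000
set_option synthInstance.maxHeartbeats 400000

noncomputable section

namespace Fermat.Agent.S55

open NumberField IsDedekindDomain

/-! ### Surjectivity: every prime above `q` comes from an embedding -/

section Surj

variable (q : ℕ) [Fact q.Prime] (F : Type) [Field F] [NumberField F]

theorem gpl_nonempty_embedding : Nonempty (F →ₐ[ℚ] PadicAlgCl q) :=
  ⟨IsAlgClosed.lift⟩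

theorem gpl_norm_intCast_lt_one_iff (N : ℤ) : ‖(N : PadicAlgCl q)‖ < 1 ↔ (q : ℤ) ∣ N := by
  have h := PadicAlgCl.norm_extends q (N : ℚ_[q])
  have h2 : algebraMap ℚ_[q] (PadicAlgCl q) (N : ℚ_[q]) = (N : PadicAlgCl q) := map_intCast _ N
  rw [h2] at h
  rw [h]
  exact Padic.norm_intCast_lt_one_iff

omit [NumberField F] in
/-- If `q ∈ v` and the integer `N` lies in `v`, then `q ∣ N`. -/
theorem gpl_dvd_of_mem (v : HeightOneSpectrum (𝓞 F)) (hq : ((q : ℕ) : 𝓞 F) ∈ v.asIdeal)
    (N : ℤ) (hN : (N : 𝓞 F) ∈ v.asIdeal) : (q : ℤ) ∣ N := by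
  by_contra hdvd
  have hcop : IsCoprime (q : ℤ) N := by
    have hp : Prime (q : ℤ) := Nat.prime_iff_prime_int.1 (Fact.out : q.Prime)
    exact (Prime.coprime_iff_not_dvd hp).2 hdvd
  obtain ⟨a, b, hab⟩ := hcop
  have h1 : ((a * q + b * N : ℤ) : 𝓞 F) ∈ v.asIdeal := by
    push_cast
    exact v.asIdeal.add_mem (v.asIdeal.mul_mem_left _ (by exact_mod_cast hq))
      (v.asIdeal.mul_mem_left _ hN)
  rw [hab] at h1
  have h2 : (1 : 𝓞 F) ∈ v.asIdeal := by exact_mod_cast h1
  exact v.isPrime.ne_top ((Ideal.eq_top_iff_one _).2 h2)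

/-- **(P4) Surjectivity**: every prime of `𝓞 F` above `q` is the prime of an embedding
`F → Ω_q`. -/
theorem gpl_exists_embedding (v : HeightOneSpectrum (𝓞 F))
    (hq : ((q : ℕ) : 𝓞 F) ∈ v.asIdeal) :
    ∃ ι : F →ₐ[ℚ] PadicAlgCl q, plc_prime q ι = v := by
  classical
  by_contra hcon
  have hne : ∀ ι : F →ₐ[ℚ] PadicAlgCl q, ¬ v.asIdeal ≤ plc_ideal q ι := by
    intro ι hle
    apply hcon
    refine ⟨ι, ?_⟩
    have h1 : v.asIdeal = plc_ideal q ι :=
      v.isMaximal.eq_of_le (plc_ideal_isPrime q ι).ne_top hle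
    exact HeightOneSpectrum.ext h1.symm
  obtain ⟨ι₀⟩ := gpl_nonempty_embedding q F
  have havoid : ¬ ((v.asIdeal : Set (𝓞 F)) ⊆
      ⋃ ι ∈ ((Finset.univ : Finset (F →ₐ[ℚ] PadicAlgCl q)) : Set (F →ₐ[ℚ] PadicAlgCl q)),
        (plc_ideal q ι : Set (𝓞 F))) := by
    intro hsub
    obtain ⟨ι, -, hι⟩ := (Ideal.subset_union_prime (s := Finset.univ)
      (f := fun ι : F →ₐ[ℚ] PadicAlgCl q => plc_ideal q ι) ι₀ ι₀
      (fun ι _ _ _ => plc_ideal_isPrime q ι)).1 hsub
    exact hne ι hι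
  rw [Set.not_subset] at havoid
  obtain ⟨x, hxv, hx⟩ := havoid
  have hx1 : ∀ ι : F →ₐ[ℚ] PadicAlgCl q, ‖ι (x : F)‖ = 1 := by
    intro ι
    apply plc_norm_eq_one_of_notMem
    intro hmem
    apply hx
    simp only [Set.mem_iUnion]
    exact ⟨ι, Finset.mem_coe.2 (Finset.mem_univ ι), hmem⟩
  -- the norm of `x`
  have hnorm := Algebra.norm_eq_prod_embeddings ℚ (PadicAlgCl q) (x : F)
  have hN : (algebraMap ℚ (PadicAlgCl q)) ((Algebra.norm ℚ) (x : F)) =
      ((Algebra.norm ℤ x : ℤ) : PadicAlgCl q) := by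
    rw [← Algebra.coe_norm_int]
    exact map_intCast _ _
  rw [hN] at hnorm
  have hN1 : ‖((Algebra.norm ℤ x : ℤ) : PadicAlgCl q)‖ = 1 := by
    rw [hnorm, norm_prod]
    exact Finset.prod_eq_one (fun ι _ => hx1 ι)
  have hndvd : ¬ (q : ℤ) ∣ Algebra.norm ℤ x := by
    rw [← gpl_norm_intCast_lt_one_iff, hN1]
    exact lt_irrefl _
  -- but the norm lies in `v`
  have hmem : ((Ideal.absNorm (Ideal.span {x}) : ℕ) : 𝓞 F) ∈ Ideal.span {x} :=
    Ideal.absNorm_mem _
  rw [Ideal.absNorm_span_singleton] at hmem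
  have hmem2 : ((((Algebra.norm ℤ x).natAbs : ℕ) : ℤ) : 𝓞 F) ∈ v.asIdeal := by
    have hle : Ideal.span {x} ≤ v.asIdeal := (Ideal.span_singleton_le_iff_mem _).2 hxv
    have := hle hmem
    rw [Int.cast_natCast]
    exact this
  have hd := gpl_dvd_of_mem q F v hq _ hmem2
  exact hndvd (Int.dvd_natAbs.1 hd)

end Surj

/-! ### Every prime lies over exactly one rational prime -/

section Over

variable (F : Type) [Field F] [NumberField F]

/-- Every prime of `𝓞 F` contains a rational prime. -/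
theorem gpl_exists_prime_over (v : HeightOneSpectrum (𝓞 F)) :
    ∃ q : Nat.Primes, ((q : ℕ) : 𝓞 F) ∈ v.asIdeal := by
  have hN : ((Ideal.absNorm v.asIdeal : ℕ) : 𝓞 F) ∈ v.asIdeal := Ideal.absNorm_mem _
  have hN0 : Ideal.absNorm v.asIdeal ≠ 0 := by
    rw [Ne, Ideal.absNorm_eq_zero_iff]
    exact v.ne_bot
  have key : ∀ n : ℕ, n ≠ 0 → ((n : ℕ) : 𝓞 F) ∈ v.asIdeal →
      ∃ q : Nat.Primes, ((q : ℕ) : 𝓞 F) ∈ v.asIdeal := by
    intro n
    induction n using Nat.strong_induction_on with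
    | _ n ih =>
      intro hn0 hn
      have hn1 : n ≠ 1 := by
        rintro rfl
        rw [Nat.cast_one] at hn
        exact v.isPrime.ne_top ((Ideal.eq_top_iff_one _).2 hn)
      obtain ⟨p, hp, hpn⟩ := Nat.exists_prime_and_dvd hn1
      obtain ⟨m, rfl⟩ := hpn
      rw [Nat.cast_mul] at hn
      rcases v.isPrime.mem_or_mem hn with h | h
      · exact ⟨⟨p, hp⟩, h⟩
      · have hm0 : m ≠ 0 := by
          rintro rfl
          exact hn0 (mul_zero _)
        have hlt : m < p * m := by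
          have := hp.one_lt
          nlinarith [Nat.pos_of_ne_zero hm0]
        exact ih m hlt hm0 h
  exact key _ hN0 hN

omit [NumberField F] in
/-- A prime of `𝓞 F` contains at most one rational prime. -/
theorem gpl_prime_over_unique (v : HeightOneSpectrum (𝓞 F)) (q q' : Nat.Primes)
    (hq : ((q : ℕ) : 𝓞 F) ∈ v.asIdeal) (hq' : ((q' : ℕ) : 𝓞 F) ∈ v.asIdeal) : q = q' := by
  haveI : Fact (q : ℕ).Prime := ⟨q.2⟩
  have h := gpl_dvd_of_mem (q : ℕ) F v hq ((q' : ℕ) : ℤ) (by exact_mod_cast hq')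
  have h2 : (q : ℕ) ∣ (q' : ℕ) := by exact_mod_cast h
  exact Subtype.ext ((Nat.prime_dvd_prime_iff_eq q.2 q'.2).1 h2)

end Over

/-! ### Places and primes -/

section Place

variable (q : ℕ) [Fact q.Prime] (F : Type) [Field F] [NumberField F]

/-- Embeddings with the same prime induce the same absolute value on `F`. -/
theorem gpl_norm_eq_of_prime_eq (ι ι' : F →ₐ[ℚ] PadicAlgCl q)
    (h : plc_prime q ι = plc_prime q ι') (x : F) : ‖ι x‖ = ‖ι' x‖ := by
  obtain ⟨τ, rfl⟩ := plc_conj q ι ι' h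
  rw [gl_twist_apply, plc_norm_aut]

/-- **(P3)** two embeddings define the same place iff they define the same prime. -/
theorem gpl_placeOf_eq_iff (ι ι' : F →ₐ[ℚ] PadicAlgCl q) :
    gl_placeOf q F ι = gl_placeOf q F ι' ↔ plc_prime q ι = plc_prime q ι' := by
  constructor
  · intro h
    obtain ⟨τ, rfl⟩ : ∃ τ : gl_GQq q, ι' = gl_twist q F τ ι := Quotient.exact h
    exact (plc_prime_twist q ι τ).symm
  · intro h
    exact Quotient.sound (plc_conj q ι ι' h)

/-- The prime of a place. -/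
def gpl_placePrime : gl_Place q F → HeightOneSpectrum (𝓞 F) :=
  Quotient.lift (fun ι : F →ₐ[ℚ] PadicAlgCl q => plc_prime q ι) (by
    rintro ι ι' ⟨τ, rfl⟩
    exact (plc_prime_twist q ι τ).symm)

@[simp] theorem gpl_placePrime_placeOf (ι : F →ₐ[ℚ] PadicAlgCl q) :
    gpl_placePrime q F (gl_placeOf q F ι) = plc_prime q ι := rfl

theorem gpl_placeOf_surjective : Function.Surjective (gl_placeOf q F) :=
  Quotient.mk_surjective

theorem gpl_placePrime_injective : Function.Injective (gpl_placePrime q F) := by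
  intro w w' h
  obtain ⟨ι, rfl⟩ := gpl_placeOf_surjective q F w
  obtain ⟨ι', rfl⟩ := gpl_placeOf_surjective q F w'
  exact (gpl_placeOf_eq_iff q F ι ι').2 h

theorem gpl_q_mem_placePrime (w : gl_Place q F) :
    ((q : ℕ) : 𝓞 F) ∈ (gpl_placePrime q F w).asIdeal := by
  obtain ⟨ι, rfl⟩ := gpl_placeOf_surjective q F w
  exact plc_q_mem_prime q ι

/-- The places above `q` are exactly the primes above `q`. -/
theorem gpl_mem_range_placePrime_iff (v : HeightOneSpectrum (𝓞 F)) :
    v ∈ Set.range (gpl_placePrime q F) ↔ ((q : ℕ) : 𝓞 F) ∈ v.asIdeal := by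
  constructor
  · rintro ⟨w, rfl⟩
    exact gpl_q_mem_placePrime q F w
  · intro h
    obtain ⟨ι, rfl⟩ := gpl_exists_embedding q F v h
    exact ⟨gl_placeOf q F ι, rfl⟩

/-- The bijection between the places of `F` above `q` and the primes of `𝓞 F` above `q`. -/
def gpl_placeEquiv :
    gl_Place q F ≃ {v : HeightOneSpectrum (𝓞 F) // ((q : ℕ) : 𝓞 F) ∈ v.asIdeal} :=
  Equiv.ofBijective (fun w => ⟨gpl_placePrime q F w, gpl_q_mem_placePrime q F w⟩)
    ⟨fun w w' h => gpl_placePrime_injective q F (congrArg Subtype.val h),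
      fun v => by
        obtain ⟨w, hw⟩ := (gpl_mem_range_placePrime_iff q F v.1).2 v.2
        exact ⟨w, Subtype.ext hw⟩⟩

@[simp] theorem gpl_placeEquiv_apply (w : gl_Place q F) :
    ((gpl_placeEquiv q F w : {v : HeightOneSpectrum (𝓞 F) // ((q : ℕ) : 𝓞 F) ∈ v.asIdeal}) :
      HeightOneSpectrum (𝓞 F)) = gpl_placePrime q F w := rfl

theorem gpl_finite_place : Finite (gl_Place q F) :=
  Finite.of_surjective (gl_placeOf q F) (gpl_placeOf_surjective q F)

/-- **(P6)** elementwise: `a ∈ P_(ι ∘ σ) ↔ σ a ∈ P_ι`. -/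
theorem gpl_mem_prime_comp (σ : F ≃ₐ[ℚ] F) (ι : F →ₐ[ℚ] PadicAlgCl q) (a : 𝓞 F) :
    a ∈ (plc_prime q (ι.comp (σ : F →ₐ[ℚ] F))).asIdeal ↔
      RingOfIntegers.mapRingEquiv (σ : F ≃+* F) a ∈ (plc_prime q ι).asIdeal := by
  rw [plc_mem_prime, plc_mem_prime]
  rfl

/-- **(P6)** `P_(ι ∘ σ) = σ⁻¹ P_ι` as ideals. -/
theorem gpl_prime_comp (σ : F ≃ₐ[ℚ] F) (ι : F →ₐ[ℚ] PadicAlgCl q) :
    (plc_prime q (ι.comp (σ : F →ₐ[ℚ] F))).asIdeal =
      Ideal.comap (RingOfIntegers.mapRingEquiv (σ : F ≃+* F)) (plc_prime q ι).asIdeal := by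
  ext a
  rw [Ideal.mem_comap]
  exact gpl_mem_prime_comp q F σ ι a

/-- **(P6)** for places: the prime of `gl_placeMap σ w` is `σ⁻¹` of the prime of `w`. -/
theorem gpl_placePrime_placeMap (σ : F ≃ₐ[ℚ] F) (w : gl_Place q F) :
    (gpl_placePrime q F (gl_placeMap q F σ w)).asIdeal =
      Ideal.comap (RingOfIntegers.mapRingEquiv (σ : F ≃+* F)) (gpl_placePrime q F w).asIdeal := by
  obtain ⟨ι, rfl⟩ := gpl_placeOf_surjective q F w
  rw [gl_placeMap_placeOf, gpl_placePrime_placeOf, gpl_placePrime_placeOf]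
  exact gpl_prime_comp q F σ ι

/-- A place is fixed by `σ` iff its prime is `σ`-stable. -/
theorem gpl_placeMap_eq_iff (σ : F ≃ₐ[ℚ] F) (w : gl_Place q F) :
    gl_placeMap q F σ w = w ↔
      Ideal.comap (RingOfIntegers.mapRingEquiv (σ : F ≃+* F)) (gpl_placePrime q F w).asIdeal =
        (gpl_placePrime q F w).asIdeal := by
  rw [← gpl_placePrime_placeMap]
  constructor
  · intro h
    rw [h]
  · intro h
    exact gpl_placePrime_injective q F (HeightOneSpectrum.ext h)

end Place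

end Fermat.Agent.S55
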