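/-
S55 (fifth wave), GLOBAL side, package [SEC-SUNIT] (helper18), part 2: NUMBER FIELDS.

For a number field `K` and a finite injective family `pr : I → {primes of 𝓞 K}` the group
`E = ssu_E K (range pr)` of `Σ`-units (`Σ = range pr`) satisfies
`[E : Eⁿ] / #E[n] = n ^ (rank 𝓞ˣ + #I)`; if `K ∋ ζ_p` (`p` odd) then
`[E : Eᵖ] = p ^ (#I + [K : ℚ] / 2)`.
Mathlib + the Herbrand calculus only (no `p`-adic embeddings here).
-/
import Mathlib
import Fermat.Agent.S55.Global.SecSUnitAlg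

set_option autoImplicit false

namespace Fermat.Agent.S55

open IsDedekindDomain NumberField

open scoped nonZeroDivisors

noncomputable section

section ord

variable (K : Type) [Field K] [NumberField K]

/-- The order `ord_v : Kˣ → ℤ` at a prime `v` of `𝓞 K`. -/
def ssu_ord (v : HeightOneSpectrum (𝓞 K)) : Additive Kˣ →+ ℤ where
  toFun a := -(WithZero.log (v.valuation K ((a.toMul : Kˣ) : K)))
  map_zero' := by
    show -(WithZero.log (v.valuation K ((1 : Kˣ) : K))) = 0
    simp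
  map_add' a b := by
    show -(WithZero.log (v.valuation K (((a.toMul * b.toMul : Kˣ)) : K))) =
      -(WithZero.log (v.valuation K ((a.toMul : Kˣ) : K))) +
        -(WithZero.log (v.valuation K ((b.toMul : Kˣ) : K)))
    rw [Units.val_mul, map_mul, WithZero.log_mul
      ((Valuation.ne_zero_iff _).2 (Units.ne_zero _))
      ((Valuation.ne_zero_iff _).2 (Units.ne_zero _))]
    ring

theorem ssu_ord_apply (v : HeightOneSpectrum (𝓞 K)) (a : Kˣ) :
    ssu_ord K v (Additive.ofMul a) = -(WithZero.log (v.valuation K (a : K))) := rfl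

theorem ssu_ord_eq_zero_iff (v : HeightOneSpectrum (𝓞 K)) (a : Kˣ) :
    ssu_ord K v (Additive.ofMul a) = 0 ↔ v.valuation K (a : K) = 1 := by
  rw [ssu_ord_apply, neg_eq_zero]
  have h0 : v.valuation K (a : K) ≠ 0 := (Valuation.ne_zero_iff _).2 (Units.ne_zero _)
  constructor
  · intro h
    rw [← WithZero.exp_log h0, h, WithZero.exp_zero]
  · intro h
    rw [h, WithZero.log_one]

/-- The `Σ`-units: units at all primes outside `Σ`. -/
def ssu_E (Sg : Set (HeightOneSpectrum (𝓞 K))) : Subgroup Kˣ where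
  carrier := {a | ∀ v : HeightOneSpectrum (𝓞 K), v ∉ Sg → v.valuation K (a : K) = 1}
  one_mem' := fun v _ => by simp
  mul_mem' := fun {a b} ha hb v hv => by
    rw [Units.val_mul, map_mul, ha v hv, hb v hv, mul_one]
  inv_mem' := fun {a} ha v hv => by
    rw [Units.val_inv_eq_inv_val, map_inv₀, ha v hv, inv_one]

theorem ssu_mem_E_iff (Sg : Set (HeightOneSpectrum (𝓞 K))) (a : Kˣ) :
    a ∈ ssu_E K Sg ↔ ∀ v : HeightOneSpectrum (𝓞 K), v ∉ Sg → v.valuation K (a : K) = 1 :=
  Iff.rfl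

/-- Units of `𝓞 K` are units at all primes. -/
theorem ssu_valuation_unit (v : HeightOneSpectrum (𝓞 K)) (u : (𝓞 K)ˣ) :
    v.valuation K (algebraMap (𝓞 K) K (u : 𝓞 K)) = 1 := by
  have h1 := v.valuation_le_one (K := K) (u : 𝓞 K)
  have h2 := v.valuation_le_one (K := K) ((u⁻¹ : (𝓞 K)ˣ) : 𝓞 K)
  have h3 : v.valuation K (algebraMap (𝓞 K) K (u : 𝓞 K)) *
      v.valuation K (algebraMap (𝓞 K) K ((u⁻¹ : (𝓞 K)ˣ) : 𝓞 K)) = 1 := by
    rw [← map_mul, ← map_mul, ← Units.val_mul, mul_inv_cancel, Units.val_one, map_one, map_one]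
  refine le_antisymm h1 ?_
  by_contra hlt
  rw [not_le] at hlt
  have h4 : v.valuation K (algebraMap (𝓞 K) K (u : 𝓞 K)) *
      v.valuation K (algebraMap (𝓞 K) K ((u⁻¹ : (𝓞 K)ˣ) : 𝓞 K)) < 1 := by
    calc _ ≤ v.valuation K (algebraMap (𝓞 K) K (u : 𝓞 K)) * 1 := by
          exact mul_le_mul_right h2 _
      _ < 1 := by rw [mul_one]; exact hlt
  rw [h3] at h4
  exact lt_irrefl _ h4

/-- An element of `Kˣ` which is a unit at all primes comes from a unit of `𝓞 K`. -/
theorem ssu_exists_unit (a : Kˣ)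
    (ha : ∀ v : HeightOneSpectrum (𝓞 K), v.valuation K (a : K) = 1) :
    ∃ u : (𝓞 K)ˣ, algebraMap (𝓞 K) K (u : 𝓞 K) = (a : K) := by
  obtain ⟨x, hx⟩ := HeightOneSpectrum.mem_integers_of_valuation_le_one (R := 𝓞 K) (K := K)
    (a : K) (fun v => (ha v).le)
  obtain ⟨y, hy⟩ := HeightOneSpectrum.mem_integers_of_valuation_le_one (R := 𝓞 K) (K := K)
    ((a⁻¹ : Kˣ) : K) (fun v => by
      rw [Units.val_inv_eq_inv_val, map_inv₀, ha v, inv_one])
  have hinj : Function.Injective (algebraMap (𝓞 K) K) := RingOfIntegers.coe_injective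
  have hxy : x * y = 1 := by
    apply hinj
    rw [map_mul, hx, hy, map_one, ← Units.val_mul, mul_inv_cancel, Units.val_one]
  have hyx : y * x = 1 := by rw [mul_comm]; exact hxy
  exact ⟨⟨x, y, hxy, hyx⟩, hx⟩

/-- The count of a principal fractional ideal is the order of its generator. -/
theorem ssu_count_span (v : HeightOneSpectrum (𝓞 K)) (a : K) (ha : a ≠ 0) :
    FractionalIdeal.count K v (FractionalIdeal.spanSingleton (𝓞 K)⁰ a) =
      -(WithZero.log (v.valuation K a)) := by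
  obtain ⟨n, d, hd, rfl⟩ := IsFractionRing.div_surjective (A := 𝓞 K) a
  have hd0 : (d : 𝓞 K) ≠ 0 := nonZeroDivisors.ne_zero hd
  have hn0 : n ≠ 0 := by
    rintro rfl
    simp at ha
  have hI : FractionalIdeal.spanSingleton (𝓞 K)⁰
      (algebraMap (𝓞 K) K n / algebraMap (𝓞 K) K d) ≠ 0 := by
    rw [ne_eq, FractionalIdeal.spanSingleton_eq_zero_iff]
    exact ha
  have h1 : FractionalIdeal.spanSingleton (𝓞 K)⁰
      (algebraMap (𝓞 K) K n / algebraMap (𝓞 K) K d) =
      FractionalIdeal.spanSingleton (𝓞 K)⁰ ((algebraMap (𝓞 K) K d))⁻¹ *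
        ((Ideal.span {n} : Ideal (𝓞 K)) : FractionalIdeal (𝓞 K)⁰ K) := by
    rw [FractionalIdeal.coeIdeal_span_singleton,
      FractionalIdeal.spanSingleton_mul_spanSingleton, div_eq_inv_mul]
  rw [FractionalIdeal.count_well_defined K v hI h1]
  rw [map_div₀, HeightOneSpectrum.valuation_of_algebraMap,
    HeightOneSpectrum.valuation_of_algebraMap,
    HeightOneSpectrum.intValuation_if_neg v hn0, HeightOneSpectrum.intValuation_if_neg v hd0]
  rw [← WithZero.exp_sub, WithZero.log_exp]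
  ring

open scoped Classical in
/-- A generator of `v ^ h`, `h` the class number: an element of `Kˣ` of order `h` at `v` and
`0` at all other primes. -/
theorem ssu_exists_gen (v : HeightOneSpectrum (𝓞 K)) :
    ∃ a : Kˣ, ∀ w : HeightOneSpectrum (𝓞 K),
      ssu_ord K w (Additive.ofMul a) = if w = v then (classNumber K : ℤ) else 0 := by
  set h := classNumber K with hh
  have hv0 : v.asIdeal ∈ (Ideal (𝓞 K))⁰ := mem_nonZeroDivisors_iff_ne_zero.2 v.ne_bot
  have h1 : (ClassGroup.mk0 (⟨v.asIdeal, hv0⟩ : (Ideal (𝓞 K))⁰)) ^ h = 1 := by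
    rw [hh, classNumber]
    exact pow_card_eq_one
  rw [← map_pow, ClassGroup.mk0_eq_one_iff] at h1
  obtain ⟨α, hα⟩ := h1
  have hα' : v.asIdeal ^ h = Ideal.span {α} := hα
  have hα0 : α ≠ 0 := by
    rintro rfl
    rw [Ideal.span_singleton_eq_bot.2 rfl] at hα'
    exact v.ne_bot (pow_eq_zero_iff (n := h) (by rw [hh]; exact (classNumber_ne_zero K)) |>.1 hα')
  have hα1 : algebraMap (𝓞 K) K α ≠ 0 := by
    intro h0
    exact hα0 (RingOfIntegers.coe_injective (by rw [h0, map_zero]))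
  refine ⟨Units.mk0 _ hα1, fun w => ?_⟩
  rw [ssu_ord_apply, Units.val_mk0, ← ssu_count_span K w _ hα1,
    ← FractionalIdeal.coeIdeal_span_singleton, ← hα', FractionalIdeal.coeIdeal_pow,
    FractionalIdeal.count_pow, FractionalIdeal.count_maximal]
  split_ifs with h1 h2 h2
  · simp
  · exact absurd h1.symm h2
  · exact absurd h2.symm h1
  · simp

end ord

/-! ### The unit group -/

section units

variable (K : Type) [Field K] (n : ℕ)

/-- The inclusion of the torsion units, additively. -/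
def ssu_torsIncl : Additive ↥(Units.torsion K) →+ Additive (𝓞 K)ˣ :=
  MonoidHom.toAdditive (Units.torsion K).subtype

/-- The projection onto the units modulo torsion, additively. -/
def ssu_torsProj : Additive (𝓞 K)ˣ →+ Additive ((𝓞 K)ˣ ⧸ Units.torsion K) :=
  MonoidHom.toAdditive (QuotientGroup.mk' (Units.torsion K))

theorem ssu_torsIncl_injective : Function.Injective (ssu_torsIncl K) := by
  intro x y h
  exact Subtype.ext (congrArg Additive.toMul h)

theorem ssu_torsProj_surjective : Function.Surjective (ssu_torsProj K) := by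
  intro y
  obtain ⟨x, hx⟩ := QuotientGroup.mk'_surjective (Units.torsion K) y.toMul
  exact ⟨Additive.ofMul x, congrArg Additive.ofMul hx⟩

theorem ssu_tors_exact : (ssu_torsProj K).ker = (ssu_torsIncl K).range := by
  ext x
  rw [AddMonoidHom.mem_ker, AddMonoidHom.mem_range]
  constructor
  · intro hx
    have h1 : QuotientGroup.mk' (Units.torsion K) x.toMul = 1 := congrArg Additive.toMul hx
    rw [QuotientGroup.mk'_apply, QuotientGroup.eq_one_iff] at h1
    exact ⟨Additive.ofMul ⟨x.toMul, h1⟩, rfl⟩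
  · rintro ⟨y, rfl⟩
    have h1 : QuotientGroup.mk' (Units.torsion K) ((y.toMul : ↥(Units.torsion K)) : (𝓞 K)ˣ) = 1 := by
      rw [QuotientGroup.mk'_apply, QuotientGroup.eq_one_iff]
      exact (y.toMul).2
    exact congrArg Additive.ofMul h1

variable [NumberField K]

/-- Dirichlet's unit theorem: the units modulo torsion are `ℤ ^ rank`. -/
def ssu_modTorsEquiv : Additive ((𝓞 K)ˣ ⧸ Units.torsion K) ≃+ (Fin (Units.rank K) → ℤ) :=
  letI iA : AddCommGroup (Additive ((𝓞 K)ˣ ⧸ Units.torsion K)) := inferInstance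
  letI _iM : Module ℤ (Additive ((𝓞 K)ˣ ⧸ Units.torsion K)) := @AddCommGroup.toIntModule _ iA
  (Units.basisModTorsion K).equivFun.toAddEquiv

theorem ssu_modTors_fin (hn : n ≠ 0) : ssu_Fin (Additive ((𝓞 K)ˣ ⧸ Units.torsion K)) n :=
  (ssu_Fin_congr n (ssu_modTorsEquiv K)).2 (ssu_Fin_pi n _ hn)

theorem ssu_modTors_Q (hn : n ≠ 0) :
    ssu_Q (Additive ((𝓞 K)ˣ ⧸ Units.torsion K)) n = (n : ℚ) ^ Units.rank K := by
  rw [ssu_Q_congr n (ssu_modTorsEquiv K), ssu_Q_pi n _ hn, Fintype.card_fin]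

theorem ssu_units_fin (hn : n ≠ 0) : ssu_Fin (Additive (𝓞 K)ˣ) n :=
  ssu_Fin_mid n (ssu_torsIncl K) (ssu_torsProj K) (ssu_torsIncl_injective K)
    (ssu_torsProj_surjective K) (ssu_tors_exact K) (ssu_Fin_of_finite _ n)
    (ssu_modTors_fin K n hn)

theorem ssu_units_Q (hn : n ≠ 0) : ssu_Q (Additive (𝓞 K)ˣ) n = (n : ℚ) ^ Units.rank K := by
  rw [ssu_Q_mul n (ssu_torsIncl K) (ssu_torsProj K) (ssu_torsIncl_injective K)
    (ssu_torsProj_surjective K) (ssu_tors_exact K) (ssu_Fin_of_finite _ n)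
    (ssu_modTors_fin K n hn), ssu_Q_of_finite, one_mul, ssu_modTors_Q K n hn]

end units

/-! ### The `Σ`-units -/

section sunits

variable (K : Type) [Field K] [NumberField K] {I : Type}
  (pr : I → HeightOneSpectrum (𝓞 K))

/-- The orders at the primes of `Σ`. -/
def ssu_ordI : Additive ↥(ssu_E K (Set.range pr)) →+ (I → ℤ) :=
  AddMonoidHom.pi fun i =>
    (ssu_ord K (pr i)).comp (MonoidHom.toAdditive (ssu_E K (Set.range pr)).subtype)

theorem ssu_ordI_apply (a : Additive ↥(ssu_E K (Set.range pr))) (i : I) :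
    ssu_ordI K pr a i = ssu_ord K (pr i) (Additive.ofMul ((a.toMul : ↥(ssu_E K (Set.range pr))) : Kˣ)) :=
  rfl

/-- The units of `𝓞 K` inside the `Σ`-units. -/
def ssu_unitIncl : Additive (𝓞 K)ˣ →+ Additive ↥(ssu_E K (Set.range pr)) :=
  MonoidHom.toAdditive
    ((Units.map (algebraMap (𝓞 K) K : 𝓞 K →* K)).codRestrict (ssu_E K (Set.range pr))
      (fun u v _ => ssu_valuation_unit K v u))

theorem ssu_unitIncl_apply (u : Additive (𝓞 K)ˣ) :
    ((((ssu_unitIncl K pr u).toMul : ↥(ssu_E K (Set.range pr))) : Kˣ) : K) =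
      algebraMap (𝓞 K) K ((u.toMul : (𝓞 K)ˣ) : 𝓞 K) := rfl

theorem ssu_unitIncl_injective : Function.Injective (ssu_unitIncl K pr) := by
  intro u u' h
  have h1 : algebraMap (𝓞 K) K ((u.toMul : (𝓞 K)ˣ) : 𝓞 K) =
      algebraMap (𝓞 K) K ((u'.toMul : (𝓞 K)ˣ) : 𝓞 K) := by
    rw [← ssu_unitIncl_apply K pr u, ← ssu_unitIncl_apply K pr u', h]
  have h2 : ((u.toMul : (𝓞 K)ˣ) : 𝓞 K) = ((u'.toMul : (𝓞 K)ˣ) : 𝓞 K) :=
    RingOfIntegers.coe_injective h1
  exact congrArg Additive.ofMul (Units.ext h2)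

theorem ssu_ordI_ker : (ssu_ordI K pr).ker = (ssu_unitIncl K pr).range := by
  ext x
  rw [AddMonoidHom.mem_ker, AddMonoidHom.mem_range]
  constructor
  · intro hx
    have h1 : ∀ v : HeightOneSpectrum (𝓞 K),
        v.valuation K (((x.toMul : ↥(ssu_E K (Set.range pr))) : Kˣ) : K) = 1 := by
      intro v
      by_cases hv : v ∈ Set.range pr
      · obtain ⟨i, rfl⟩ := hv
        have h2 := congrFun hx i
        rw [ssu_ordI_apply] at h2
        exact (ssu_ord_eq_zero_iff K (pr i) _).1 h2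
      · exact (x.toMul : ↥(ssu_E K (Set.range pr))).2 v hv
    obtain ⟨u, hu⟩ := ssu_exists_unit K _ h1
    refine ⟨Additive.ofMul u, ?_⟩
    apply congrArg Additive.ofMul
    apply Subtype.ext
    apply Units.ext
    exact hu
  · rintro ⟨u, rfl⟩
    funext i
    rw [ssu_ordI_apply]
    exact (ssu_ord_eq_zero_iff K (pr i) _).2 (ssu_valuation_unit K (pr i) u.toMul)

variable {pr} [Fintype I]

open scoped Classical in
/-- The image of `ord` contains `h • ℤ^I`, `h` the class number. -/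
theorem ssu_smul_mem_range (hpr : Function.Injective pr) (m : I → ℤ) :
    (classNumber K : ℤ) • m ∈ (ssu_ordI K pr).range := by
  choose a ha using fun i : I => ssu_exists_gen K (pr i)
  have haE : ∀ i, a i ∈ ssu_E K (Set.range pr) := by
    intro i v hv
    have h1 := ha i v
    rw [if_neg (fun h => hv ⟨i, h.symm⟩)] at h1
    exact (ssu_ord_eq_zero_iff K v _).1 h1
  refine ⟨∑ i, m i • Additive.ofMul (⟨a i, haE i⟩ : ↥(ssu_E K (Set.range pr))), ?_⟩
  funext j
  rw [map_sum, Finset.sum_apply]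
  have h2 : ∀ i, (ssu_ordI K pr (m i • Additive.ofMul (⟨a i, haE i⟩ :
      ↥(ssu_E K (Set.range pr))))) j = if i = j then (classNumber K : ℤ) * m j else 0 := by
    intro i
    rw [map_zsmul, Pi.smul_apply, ssu_ordI_apply]
    have h3 := ha i (pr j)
    change ssu_ord K (pr j) (Additive.ofMul (a i)) = _ at h3
    show m i • ssu_ord K (pr j) (Additive.ofMul (a i)) = _
    rw [h3]
    by_cases hij : i = j
    · subst hij
      rw [if_pos rfl, if_pos rfl, smul_eq_mul, mul_comm]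
    · rw [if_neg (fun h => hij (hpr h).symm), if_neg hij, smul_zero]
  rw [Finset.sum_congr rfl (fun i _ => h2 i), Finset.sum_ite_eq' Finset.univ j,
    if_pos (Finset.mem_univ j)]
  rfl

theorem ssu_range_finiteIndex (hpr : Function.Injective pr) :
    (ssu_ordI K pr).range.FiniteIndex := by
  have h1 : (ssu_pm (I → ℤ) (classNumber K)).range ≤ (ssu_ordI K pr).range := by
    rintro _ ⟨m, rfl⟩
    have := ssu_smul_mem_range K hpr m
    rwa [natCast_zsmul] at this
  have h2 : (ssu_pm (I → ℤ) (classNumber K)).range.FiniteIndex := by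
    rw [AddSubgroup.finiteIndex_iff, ssu_index_pi]
    exact pow_ne_zero _ (classNumber_ne_zero K)
  exact AddSubgroup.finiteIndex_of_le h1

/-- The Herbrand quotient of the image of `ord`. -/
theorem ssu_range_fin_Q (hpr : Function.Injective pr) (n : ℕ) (hn : n ≠ 0) :
    ssu_Fin ↥(ssu_ordI K pr).range n ∧
      ssu_Q ↥(ssu_ordI K pr).range n = (n : ℚ) ^ Fintype.card I := by
  have := ssu_range_finiteIndex K hpr
  have : Finite ((I → ℤ) ⧸ (ssu_ordI K pr).range) :=
    AddSubgroup.finite_quotient_of_finiteIndex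
  have hi : Function.Injective (ssu_ordI K pr).range.subtype := Subtype.val_injective
  have hπ : Function.Surjective (QuotientAddGroup.mk' (ssu_ordI K pr).range) :=
    QuotientAddGroup.mk'_surjective _
  have hex : (QuotientAddGroup.mk' (ssu_ordI K pr).range).ker =
      (ssu_ordI K pr).range.subtype.range := by
    rw [QuotientAddGroup.ker_mk', AddSubgroup.range_subtype]
  have hfin := ssu_Fin_sub n _ _ hi hπ hex (ssu_Fin_pi n I hn) (ssu_Fin_of_finite _ n)
  refine ⟨hfin, ?_⟩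
  have hQ := ssu_Q_mul n _ _ hi hπ hex hfin (ssu_Fin_of_finite _ n)
  rw [ssu_Q_of_finite ((I → ℤ) ⧸ (ssu_ordI K pr).range) n, mul_one, ssu_Q_pi n I hn] at hQ
  exact hQ.symm

/-- The Herbrand quotient of the `Σ`-units. -/
theorem ssu_E_fin_Q (hpr : Function.Injective pr) (n : ℕ) (hn : n ≠ 0) :
    ssu_Fin (Additive ↥(ssu_E K (Set.range pr))) n ∧
      ssu_Q (Additive ↥(ssu_E K (Set.range pr))) n =
        (n : ℚ) ^ (Units.rank K + Fintype.card I) := by
  obtain ⟨hL, hLQ⟩ := ssu_range_fin_Q K hpr n hn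
  have hi := ssu_unitIncl_injective K pr
  have hπ : Function.Surjective (ssu_ordI K pr).rangeRestrict :=
    AddMonoidHom.rangeRestrict_surjective _
  have hex : (ssu_ordI K pr).rangeRestrict.ker = (ssu_unitIncl K pr).range := by
    rw [AddMonoidHom.ker_rangeRestrict, ssu_ordI_ker]
  refine ⟨ssu_Fin_mid n _ _ hi hπ hex (ssu_units_fin K n hn) hL, ?_⟩
  rw [ssu_Q_mul n _ _ hi hπ hex (ssu_units_fin K n hn) hL, ssu_units_Q K n hn, hLQ, pow_add]

/-- Roots of unity are `Σ`-units. -/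
theorem ssu_mem_E_of_pow_eq_one (Sg : Set (HeightOneSpectrum (𝓞 K))) (n : ℕ) (hn : n ≠ 0)
    (x : Kˣ) (hx : x ^ n = 1) : x ∈ ssu_E K Sg := by
  intro v _
  rw [← ssu_ord_eq_zero_iff]
  have h1 : n • ssu_ord K v (Additive.ofMul x) = 0 := by
    rw [← map_nsmul, ← ofMul_pow, hx, ofMul_one, map_zero]
  rw [nsmul_eq_mul] at h1
  rcases mul_eq_zero.1 h1 with h | h
  · exact absurd (by exact_mod_cast h) hn
  · exact h

/-- `#E[p] = p` if `ζ_p ∈ K`. -/
theorem ssu_card_torsion (Sg : Set (HeightOneSpectrum (𝓞 K))) (p : ℕ) (hp : p.Prime)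
    (hζ : ∃ ζ : K, IsPrimitiveRoot ζ p) :
    Nat.card {x : Kˣ // x ∈ ssu_E K Sg ∧ x ^ p = 1} = p := by
  obtain ⟨ζ, hζ⟩ := hζ
  have : NeZero p := ⟨hp.ne_zero⟩
  have h1 : Nat.card ↥(rootsOfUnity p K) = p := hζ.card_rootsOfUnity
  refine Eq.trans (Nat.card_congr (Equiv.subtypeEquivRight fun x => ?_)) h1
  rw [mem_rootsOfUnity]
  exact ⟨fun h => h.2, fun h => ⟨ssu_mem_E_of_pow_eq_one K Sg p hp.ne_zero x h, h⟩⟩

/-- `r₂ = [K : ℚ] / 2` and `r₁ = 0` if `ζ_p ∈ K`, `p` odd. -/
theorem ssu_rank_add_one (p : ℕ) (hp : p.Prime) (hp2 : p ≠ 2)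
    (hζ : ∃ ζ : K, IsPrimitiveRoot ζ p) :
    Units.rank K + 1 = Module.finrank ℚ K / 2 := by
  obtain ⟨ζ, hζ⟩ := hζ
  have h2 : 2 < p := lt_of_le_of_ne hp.two_le (Ne.symm hp2)
  have h3 : InfinitePlace.nrRealPlaces K = 0 :=
    InfinitePlace.IsPrimitiveRoot.nrRealPlaces_eq_zero_of_two_lt h2 hζ
  have h4 := InfinitePlace.card_add_two_mul_card_eq_rank K
  have h5 := InfinitePlace.card_eq_nrRealPlaces_add_nrComplexPlaces K
  rw [h3, zero_add] at h4 h5
  have h6 : 0 < Fintype.card (InfinitePlace K) := Fintype.card_pos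
  unfold Units.rank
  omega

/-- **The `Σ`-unit theorem modulo `p`-th powers**: `[E_Σ : E_Σᵖ] = p ^ (#Σ + [K : ℚ] / 2)`
for a number field `K ∋ ζ_p`, `p` odd. -/
theorem ssu_index_E (hpr : Function.Injective pr) (p : ℕ) (hp : p.Prime) (hp2 : p ≠ 2)
    (hζ : ∃ ζ : K, IsPrimitiveRoot ζ p) :
    ((ssu_E K (Set.range pr)).map (powMonoidHom p : Kˣ →* Kˣ)).relIndex
        (ssu_E K (Set.range pr)) = p ^ (Fintype.card I + Module.finrank ℚ K / 2) := by
  obtain ⟨hfin, hQ⟩ := ssu_E_fin_Q K hpr p hp.ne_zero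
  have h1 := ssu_index_eq (Additive ↥(ssu_E K (Set.range pr))) p hfin
  rw [hQ, ssu_card_ker_eq, ssu_card_torsion K _ p hp hζ, ← ssu_relIndex_eq, ← pow_succ] at h1
  have h2 : Units.rank K + Fintype.card I + 1 = Fintype.card I + Module.finrank ℚ K / 2 := by
    rw [← ssu_rank_add_one K p hp hp2 hζ]
    ring
  rw [h2] at h1
  exact_mod_cast h1

end sunits

end

end Fermat.Agent.S55
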