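/-
S55 (fifth wave), GLOBAL side, package [E-CLN] (helper18): the class number at the absolute
level.

`ecln_main : eco_OrdStatement → eco_ClnStatement` (`Global/EcohDefs.lean`): for a finite
extension `L ⊆ ℚ̄` of `ℚ` unramified outside `S` and `h` the class number of `L`, every divisor
`c` of `L` satisfies `ord_w x = h · c w` at all places `w = (q, g)` outside `S`, for some
`x ∈ Lˣ`.

* a pair `w = (q, g)` defines the embedding `ecln_iota L q g = ι_q ∘ g|_L` and the prime
  `ecln_prime L w` of `𝓞 L`; pairs with the same prime define the same place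
  (`ecln_samePlace`, from `plc_conj`);
* `ecln_exists`: every finitely supported integer function on the primes of `𝓞 L` is
  `(1/h) ord` of an element of `Lˣ` (`ssu_exists_gen`);
* the normalisation: `‖ι x‖ = c ^ ord_v x` with `c = q⁻¹` at the unramified primes
  (`ecln_c_eq`, the only use of [E-ORD]).
-/
import Mathlib
import Fermat.Agent.S55.Global.EcohDefs
import Fermat.Agent.S55.Global.PlacesSurj
import Fermat.Agent.S55.Global.SecSUnitNF

set_option autoImplicit false

namespace Fermat.Agent.S55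

open IsDedekindDomain NumberField

noncomputable section

local notation "Qbar" => AlgebraicClosure ℚ

/-- The primality instance of an element of `Nat.Primes`. -/
local instance ecln_fact (q : Nat.Primes) : Fact (q : ℕ).Prime := ⟨q.2⟩

section pairs

variable (L : IntermediateField ℚ Qbar)

/-- The embedding `ι_q ∘ g` restricted to `L`. -/
def ecln_iota (q : ℕ) [Fact q.Prime] (g : s55_GQ) : ↥L →ₐ[ℚ] PadicAlgCl q :=
  (ak_iota q g).comp L.val

@[simp] theorem ecln_iota_apply (q : ℕ) [Fact q.Prime] (g : s55_GQ) (x : ↥L) :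
    ecln_iota L q g x = padicEmbedding q (g (x : Qbar)) := rfl

variable [NumberField ↥L]

/-- The prime of `𝓞 L` defined by the pair `w = (q, g)`. -/
def ecln_prime (w : Nat.Primes × s55_GQ) : HeightOneSpectrum (𝓞 ↥L) :=
  plc_prime (w.1 : ℕ) (ecln_iota L (w.1 : ℕ) w.2)

/-- Pairs with the same prime define the same place of `L`. -/
theorem ecln_samePlace (w w' : Nat.Primes × s55_GQ)
    (h : ecln_prime L w = ecln_prime L w') : ak_SamePlace L w w' := by
  obtain ⟨q, g⟩ := w
  obtain ⟨q', g'⟩ := w'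
  have hq : q = q' :=
    gpl_prime_over_unique ↥L (ecln_prime L (q, g)) q q'
      (plc_q_mem_prime (q : ℕ) (ecln_iota L (q : ℕ) g))
      (by rw [h]; exact plc_q_mem_prime (q' : ℕ) (ecln_iota L (q' : ℕ) g'))
  subst hq
  obtain ⟨τ, hτ⟩ := plc_conj (q : ℕ) (ecln_iota L (q : ℕ) g) (ecln_iota L (q : ℕ) g') h
  refine ⟨rfl, τ, (localGaloisToGlobal (q : ℕ) τ * g)⁻¹ * g', ?_, by group⟩
  rw [IntermediateField.mem_fixingSubgroup_iff]
  intro x hx
  have h1 : padicEmbedding (q : ℕ) (g' x) =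
      padicEmbedding (q : ℕ) ((localGaloisToGlobal (q : ℕ) τ * g) x) := by
    have h2 := congrArg (fun f : ↥L →ₐ[ℚ] PadicAlgCl (q : ℕ) => f ⟨x, hx⟩) hτ
    simp only [ecln_iota_apply, gl_twist_apply] at h2
    rw [h2, AlgEquiv.mul_apply, padicEmbedding_localGaloisToGlobal]
  have h3 : g' x = (localGaloisToGlobal (q : ℕ) τ * g) x :=
    (padicEmbedding (q : ℕ)).toRingHom.injective h1
  show ((localGaloisToGlobal (q : ℕ) τ * g)⁻¹ * g') x = x
  rw [AlgEquiv.mul_apply, h3]
  exact AlgEquiv.symm_apply_apply _ x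

/-- The primes above a rational prime are finite in number. -/
theorem ecln_finite_over (q : Nat.Primes) :
    {v : HeightOneSpectrum (𝓞 ↥L) | ((q : ℕ) : 𝓞 ↥L) ∈ v.asIdeal}.Finite := by
  have := gpl_finite_place (q : ℕ) ↥L
  have h2 : Finite {v : HeightOneSpectrum (𝓞 ↥L) // ((q : ℕ) : 𝓞 ↥L) ∈ v.asIdeal} :=
    Finite.of_equiv _ (gpl_placeEquiv (q : ℕ) ↥L)
  exact Set.finite_coe_iff.1 h2

open scoped Classical in
/-- Every finitely supported integer function on the primes is `(1/h) ord` of an element. -/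
theorem ecln_exists (c' : HeightOneSpectrum (𝓞 ↥L) → ℤ) (hc' : (Function.support c').Finite) :
    ∃ x : (↥L)ˣ, ∀ v : HeightOneSpectrum (𝓞 ↥L),
      ssu_ord ↥L v (Additive.ofMul x) = (classNumber ↥L : ℤ) * c' v := by
  choose a ha using fun v : HeightOneSpectrum (𝓞 ↥L) => ssu_exists_gen ↥L v
  refine ⟨∏ u ∈ hc'.toFinset, a u ^ c' u, fun v => ?_⟩
  rw [ofMul_prod, map_sum]
  have h1 : ∀ u ∈ hc'.toFinset, ssu_ord ↥L v (Additive.ofMul (a u ^ c' u)) =
      if v = u then (classNumber ↥L : ℤ) * c' v else 0 := by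
    intro u _
    rw [ofMul_zpow, map_zsmul, ha u v]
    by_cases hvu : v = u
    · subst hvu
      rw [if_pos rfl, if_pos rfl, smul_eq_mul, mul_comm]
    · rw [if_neg hvu, if_neg hvu, smul_zero]
  rw [Finset.sum_congr rfl h1, Finset.sum_ite_eq]
  split_ifs with hv
  · rfl
  · rw [Set.Finite.mem_toFinset, Function.mem_support, not_not] at hv
    rw [hv, mul_zero]

/-- The normalisation at an unramified prime: the value group of `ι` is `q ^ ℤ`. -/
theorem ecln_c_eq (hord : eco_OrdStatement) (q : ℕ) [Fact q.Prime]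
    (hfin : FiniteDimensional ℚ ↥L) (hunr : ak_UnramAt q L) (g : s55_GQ) :
    plc_c q (ecln_iota L q g) = (q : ℝ)⁻¹ := by
  have hq1 : (1 : ℝ) < (q : ℝ) := by exact_mod_cast (Fact.out : q.Prime).one_lt
  have hq0 : (0 : ℝ) < (q : ℝ) := lt_trans zero_lt_one hq1
  set π : ↥L := plc_unif q (ecln_iota L q g) with hπ
  have hπ0 : π ≠ 0 := plc_unif_ne_zero q (ecln_iota L q g)
  have hπ1 : (π : Qbar) ≠ 0 := fun h => hπ0 (Subtype.ext h)
  obtain ⟨n, hn⟩ := hord q L hfin hunr (Units.mk0 (π : Qbar) hπ1) π.2 g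
  have hc : plc_c q (ecln_iota L q g) = (q : ℝ) ^ (-n) := hn
  -- the norm of `q`
  have hqL : ((q : ℕ) : ↥L) ≠ 0 := by exact_mod_cast (Fact.out : q.Prime).ne_zero
  have h1 := plc_norm_eq q (ecln_iota L q g) ((q : ℕ) : ↥L) hqL
  rw [map_natCast, plc_norm_q, hc, ← zpow_mul, ← zpow_neg_one] at h1
  have h2 : (-1 : ℤ) = -n * -(WithZero.log
      ((plc_prime q (ecln_iota L q g)).valuation ↥L ((q : ℕ) : ↥L))) :=
    zpow_right_injective₀ hq0 hq1.ne' h1
  have h3 : n * WithZero.log
      ((plc_prime q (ecln_iota L q g)).valuation ↥L ((q : ℕ) : ↥L)) = -1 := by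
    rw [h2]; ring
  have h4 : n = 1 ∨ n = -1 := by
    have h5 : n ∣ 1 := ⟨-WithZero.log
      ((plc_prime q (ecln_iota L q g)).valuation ↥L ((q : ℕ) : ↥L)), by rw [mul_neg, h3]; ring⟩
    have h6 := Int.natAbs_dvd_natAbs.2 h5
    have h7 : n.natAbs = 1 := Nat.dvd_one.1 (by simpa using h6)
    rcases Int.natAbs_eq n with h | h
    · left; rw [h, h7]; rfl
    · right; rw [h, h7]; rfl
  rcases h4 with h | h
  · rw [hc, h, zpow_neg_one]
  · exfalso
    have h8 := plc_c_lt_one q (ecln_iota L q g)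
    rw [hc, h, neg_neg, zpow_one] at h8
    exact absurd h8 (not_lt.2 hq1.le)

end pairs

/-- **[E-CLN]** the class number, from [E-ORD]. -/
theorem ecln_main (hord : eco_OrdStatement) : eco_ClnStatement := by
  classical
  intro S L hL
  have hfin : FiniteDimensional ℚ ↥L := hL.1
  let _i : NumberField ↥L := { to_charZero := inferInstance, to_finiteDimensional := hfin }
  refine ⟨classNumber ↥L, Nat.pos_of_ne_zero (classNumber_ne_zero ↥L), fun c hc => ?_⟩
  obtain ⟨hc1, X, hX⟩ := hc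
  -- the divisor as a function on the primes
  set c' : HeightOneSpectrum (𝓞 ↥L) → ℤ := fun v =>
    if h : ∃ w : Nat.Primes × s55_GQ, ecln_prime L w = v then c h.choose else 0 with hc'
  have hc'w : ∀ w : Nat.Primes × s55_GQ, c' (ecln_prime L w) = c w := by
    intro w
    have h : ∃ w' : Nat.Primes × s55_GQ, ecln_prime L w' = ecln_prime L w := ⟨w, rfl⟩
    rw [hc']
    simp only
    rw [dif_pos h]
    exact hc1 _ _ (ecln_samePlace L _ _ h.choose_spec)
  have hsupp : (Function.support c').Finite := by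
    refine (Set.Finite.biUnion X.finite_toSet (fun q _ => ecln_finite_over L q)).subset ?_
    intro v hv
    rw [Function.mem_support] at hv
    by_cases h : ∃ w : Nat.Primes × s55_GQ, ecln_prime L w = v
    · obtain ⟨w, rfl⟩ := h
      rw [hc'w] at hv
      have hwX : w.1 ∈ X := by
        by_contra hw
        exact hv (hX w hw)
      refine Set.mem_biUnion hwX ?_
      exact plc_q_mem_prime (w.1 : ℕ) (ecln_iota L (w.1 : ℕ) w.2)
    · exfalso
      apply hv
      rw [hc']
      simp only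
      rw [dif_neg h]
  obtain ⟨x, hx⟩ := ecln_exists L c' hsupp
  refine ⟨Units.map (L.val : ↥L →* Qbar) x, (x : ↥L).2, fun w hw => ?_⟩
  show ‖padicEmbedding (w.1 : ℕ) (w.2 ((x : ↥L) : Qbar))‖ =
    ((w.1 : ℕ) : ℝ) ^ (-((classNumber ↥L : ℤ) * c w))
  have h1 := plc_norm_eq (w.1 : ℕ) (ecln_iota L (w.1 : ℕ) w.2) (x : ↥L) (Units.ne_zero x)
  rw [ecln_iota_apply] at h1
  rw [h1, ecln_c_eq L hord (w.1 : ℕ) hfin (ak_unramAt_of_outside hL w.1 hw) w.2]
  have h2 := hx (ecln_prime L w)
  rw [ssu_ord_apply, hc'w] at h2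
  have h3 : -(WithZero.log ((plc_prime (w.1 : ℕ) (ecln_iota L (w.1 : ℕ) w.2)).valuation ↥L
      (x : ↥L))) = (classNumber ↥L : ℤ) * c w := h2
  rw [h3, inv_zpow', zpow_neg]

end

end Fermat.Agent.S55
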