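/-
S55 (fifth wave), GLOBAL side, package [E-REPS] (helper18): the places of `K` above a finite
set of primes have a finite system of representatives.

`erep_main : eco_RepsStatement` (`Global/EcohDefs.lean`), hypothesis-free.
The pairs `w = (q, g)` are mapped to the primes `ecln_prime K w` of `𝓞 K`; two pairs define
the same place iff they have the same prime (`erep_samePlace_iff`), and there are only
finitely many primes above a finite set of rational primes.
-/
import Mathlib
import Fermat.Agent.S55.Global.EcoCln

set_option autoImplicit false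

namespace Fermat.Agent.S55

open IsDedekindDomain NumberField

noncomputable section

local notation "Qbar" => AlgebraicClosure ℚ

/-- The primality instance of an element of `Nat.Primes`. -/
local instance erep_fact (q : Nat.Primes) : Fact (q : ℕ).Prime := ⟨q.2⟩

section

variable (K : IntermediateField ℚ Qbar) [NumberField ↥K]

/-- Pairs defining the same place have the same prime. -/
theorem erep_prime_eq (w w' : Nat.Primes × s55_GQ) (h : ak_SamePlace K w w') :
    ecln_prime K w = ecln_prime K w' := by
  obtain ⟨q, g⟩ := w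
  obtain ⟨q', g'⟩ := w'
  obtain ⟨hq, τ, u, hu, hg⟩ := h
  have hq' : q = q' := hq
  subst hq'
  have hg' : g' = localGaloisToGlobal (q : ℕ) τ * g * u := hg
  have h1 : ecln_iota K (q : ℕ) g' = gl_twist (q : ℕ) ↥K τ (ecln_iota K (q : ℕ) g) := by
    ext x
    rw [gl_twist_apply, ecln_iota_apply, ecln_iota_apply, hg', AlgEquiv.mul_apply,
      AlgEquiv.mul_apply, padicEmbedding_localGaloisToGlobal]
    rw [(IntermediateField.mem_fixingSubgroup_iff K u).1 hu (x : Qbar) x.2]
  show plc_prime (q : ℕ) (ecln_iota K (q : ℕ) g) = plc_prime (q : ℕ) (ecln_iota K (q : ℕ) g')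
  rw [h1, plc_prime_twist]

/-- Two pairs define the same place iff they have the same prime. -/
theorem erep_samePlace_iff (w w' : Nat.Primes × s55_GQ) :
    ak_SamePlace K w w' ↔ ecln_prime K w = ecln_prime K w' :=
  ⟨erep_prime_eq K w w', ecln_samePlace K w w'⟩

/-- The primes of the pairs above a finite set of primes are finite in number. -/
theorem erep_finite (X : Finset Nat.Primes) :
    {v : HeightOneSpectrum (𝓞 ↥K) |
      ∃ w : Nat.Primes × s55_GQ, w.1 ∈ X ∧ ecln_prime K w = v}.Finite := by
  refine (Set.Finite.biUnion X.finite_toSet (fun q _ => ecln_finite_over K q)).subset ?_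
  rintro v ⟨w, hw, rfl⟩
  exact Set.mem_biUnion hw (plc_q_mem_prime (w.1 : ℕ) (ecln_iota K (w.1 : ℕ) w.2))

end

/-- **[E-REPS]** the places of `K` above a finite set of primes have a finite system of
representatives. -/
theorem erep_main : eco_RepsStatement := by
  classical
  intro K hfin X
  let _i : NumberField ↥K := { to_charZero := inferInstance, to_finiteDimensional := hfin }
  set P := (erep_finite K X).toFinset with hP
  have hPm : ∀ v, v ∈ P ↔ ∃ w : Nat.Primes × s55_GQ, w.1 ∈ X ∧ ecln_prime K w = v := by
    intro v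
    rw [hP, Set.Finite.mem_toFinset]
    rfl
  -- one pair for each prime
  let r : HeightOneSpectrum (𝓞 ↥K) → Nat.Primes × s55_GQ := fun v =>
    if h : ∃ w : Nat.Primes × s55_GQ, w.1 ∈ X ∧ ecln_prime K w = v then h.choose
    else (⟨2, Nat.prime_two⟩, 1)
  have hr : ∀ v ∈ P, (r v).1 ∈ X ∧ ecln_prime K (r v) = v := by
    intro v hv
    have h := (hPm v).1 hv
    show (dite _ _ _ : Nat.Primes × s55_GQ).1 ∈ X ∧ ecln_prime K (dite _ _ _) = v
    rw [dif_pos h]
    exact h.choose_spec
  refine ⟨P.image r, ?_, ?_, ?_⟩
  · intro w hw w' hw' hs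
    obtain ⟨v, hv, rfl⟩ := Finset.mem_image.1 hw
    obtain ⟨v', hv', rfl⟩ := Finset.mem_image.1 hw'
    have h1 := erep_prime_eq K _ _ hs
    rw [(hr v hv).2, (hr v' hv').2] at h1
    rw [h1]
  · intro w hw
    obtain ⟨v, hv, rfl⟩ := Finset.mem_image.1 hw
    exact (hr v hv).1
  · intro w' hw'
    have hv : ecln_prime K w' ∈ P := (hPm _).2 ⟨w', hw', rfl⟩
    exact ⟨r (ecln_prime K w'), Finset.mem_image_of_mem r hv,
      ecln_samePlace K _ _ (hr _ hv).2⟩

end

end Fermat.Agent.S55
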