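/-
S55 (fifth wave), GLOBAL side, package [KSHA-ADAPT] (helper18): the four elementary leaves of
the [K-SHA] cut (`Global/KShaDefs.lean`, helper27) are ADAPTERS of the elementary leaves of
[E-COH] (`Global/EcohDefs.lean`, helper26).  Prefix `ksad_`.

  `ksad_ord      : eco_OrdStatement → ksha_OrdStatement`
  `ksad_places   : eco_FinStatement → eco_RepsStatement → ksha_PlacesStatement`
  `ksad_kumField : eco_KumStatement → ksha_KumFieldStatement`
  `ksad_cln      : eco_ClnStatement → ksha_ClnStatement`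

and the forms with the hypotheses which are already closed on the main branch plugged in
(`ksad_places_of`, `ksad_cln_of`).

The dictionary is `ksad_ord_iff : ksha_Ord w x N ↔ eco_HasOrdP w x N`
(`‖(q : Ω_q)‖ = q⁻¹`, `plc_norm_q`).
-/
import Mathlib
import Fermat.Agent.S55.Global.KShaDefs
import Fermat.Agent.S55.Global.EcohDefs
import Fermat.Agent.S55.Global.Places
import Fermat.Agent.S55.Bridge.FinLevelG
import Fermat.Agent.S55.Global.EcoReps

set_option autoImplicit false
set_option linter.style.haveILetI false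

namespace Fermat.Agent.S55

open IntermediateField

noncomputable section

local notation "Qbar" => AlgebraicClosure ℚ

/-! ### The dictionary between the two forms of `ord` -/

/-- `ksha_Ord` (helper27) and `eco_HasOrdP` (helper26) are the same relation. -/
theorem ksad_ord_iff (w : Nat.Primes × s55_GQ) (x : Qbarˣ) (N : ℤ) :
    ksha_Ord w x N ↔ eco_HasOrdP w x N := by
  letI : Fact (w.1 : ℕ).Prime := ⟨w.1.2⟩
  show ‖padicEmbedding (w.1 : ℕ) (w.2 (x : Qbar))‖ =
      ‖(((w.1 : ℕ) : ℕ) : PadicAlgCl (w.1 : ℕ))‖ ^ N ↔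
    ‖padicEmbedding (w.1 : ℕ) (w.2 (x : Qbar))‖ = (((w.1 : ℕ) : ℕ) : ℝ) ^ (-N)
  rw [plc_norm_q, inv_zpow']

/-- `ord_w x = 0` iff `x` is a unit at `w`. -/
theorem ksad_ord_zero_iff (w : Nat.Primes × s55_GQ) (x : Qbarˣ) :
    ksha_Ord w x 0 ↔
      letI : Fact (w.1 : ℕ).Prime := ⟨w.1.2⟩
      ‖padicEmbedding (w.1 : ℕ) (w.2 (x : Qbar))‖ = 1 := by
  letI : Fact (w.1 : ℕ).Prime := ⟨w.1.2⟩
  show ‖padicEmbedding (w.1 : ℕ) (w.2 (x : Qbar))‖ =
      ‖(((w.1 : ℕ) : ℕ) : PadicAlgCl (w.1 : ℕ))‖ ^ (0 : ℤ) ↔ _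
  rw [zpow_zero]

/-- `ord_w 1 = 0`. -/
theorem ksad_hasOrd_one (w : Nat.Primes × s55_GQ) : eco_HasOrdP w 1 0 := by
  letI : Fact (w.1 : ℕ).Prime := ⟨w.1.2⟩
  show ‖padicEmbedding (w.1 : ℕ) (w.2 ((1 : Qbarˣ) : Qbar))‖ = (((w.1 : ℕ) : ℕ) : ℝ) ^ (-(0 : ℤ))
  rw [Units.val_one, map_one, map_one, norm_one, neg_zero, zpow_zero]

/-! ### `ak_SamePlace` is an equivalence relation -/

section same

variable (K : IntermediateField ℚ Qbar)

theorem ksad_same_refl (w : Nat.Primes × s55_GQ) : ak_SamePlace K w w := by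
  refine ⟨rfl, 1, 1, one_mem _, ?_⟩
  rw [map_one, one_mul, mul_one]

variable [NumberField ↥K]

theorem ksad_same_symm {w w' : Nat.Primes × s55_GQ} (h : ak_SamePlace K w w') :
    ak_SamePlace K w' w :=
  (erep_samePlace_iff K w' w).2 ((erep_samePlace_iff K w w').1 h).symm

theorem ksad_same_trans {w w' w'' : Nat.Primes × s55_GQ} (h : ak_SamePlace K w w')
    (h' : ak_SamePlace K w' w'') : ak_SamePlace K w w'' :=
  (erep_samePlace_iff K w w'').2
    (((erep_samePlace_iff K w w').1 h).trans ((erep_samePlace_iff K w' w'').1 h'))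

end same

/-! ### [KSHA-ORD] -/

/-- **[KSHA-ORD]** from [E-ORD]. -/
theorem ksad_ord (h : eco_OrdStatement) : ksha_OrdStatement := by
  intro F hF q hq x hx g
  letI : Fact (q : ℕ).Prime := ⟨q.2⟩
  obtain ⟨n, hn⟩ := h (q : ℕ) F hF hq x hx g
  exact ⟨n, (ksad_ord_iff (q, g) x n).2 hn⟩

/-! ### [KSHA-PLACES] -/

/-- **[KSHA-PLACES]** from [E-FIN] and [E-REPS]. -/
theorem ksad_places (hfin : eco_FinStatement) (hreps : eco_RepsStatement) :
    ksha_PlacesStatement := by
  classical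
  intro S K hK T hT hTS x
  let _i : NumberField ↥K := { to_charZero := inferInstance, to_finiteDimensional := hK }
  obtain ⟨X, hX⟩ := hfin x
  obtain ⟨T₀, hT₀, hT₀X, hT₀c⟩ := hreps K hK (X \ S)
  refine ⟨T ∪ T₀.filter (fun w => ∀ t ∈ T, ¬ ak_SamePlace K t w), Finset.subset_union_left,
    ?_, ?_, ?_⟩
  · intro w hw w' hw' hs
    rcases Finset.mem_union.1 hw with h1 | h1 <;> rcases Finset.mem_union.1 hw' with h2 | h2
    · exact hT w h1 w' h2 hs
    · exact absurd hs ((Finset.mem_filter.1 h2).2 w h1)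
    · exact absurd (ksad_same_symm K hs) ((Finset.mem_filter.1 h1).2 w' h2)
    · exact hT₀ w (Finset.mem_filter.1 h1).1 w' (Finset.mem_filter.1 h2).1 hs
  · intro w hw
    rcases Finset.mem_union.1 hw with h1 | h1
    · exact hTS w h1
    · exact (Finset.mem_sdiff.1 (hT₀X w (Finset.mem_filter.1 h1).1)).2
  · intro w' hw' hout
    by_cases hq : w'.1 ∈ X
    · exfalso
      obtain ⟨w, hw, hs⟩ := hT₀c w' (Finset.mem_sdiff.2 ⟨hq, hw'⟩)
      by_cases hf : ∀ t ∈ T, ¬ ak_SamePlace K t w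
      · exact hout w (Finset.mem_union_right _ (Finset.mem_filter.2 ⟨hw, hf⟩)) hs
      · simp only [not_forall, not_not] at hf
        obtain ⟨t, ht, hts⟩ := hf
        exact hout t (Finset.mem_union_left _ ht) (ksad_same_trans K hts hs)
    · exact (ksad_ord_zero_iff w' x).2 (hX w'.1 hq w'.2)

/-- **[KSHA-PLACES]** from [E-FIN] alone ([E-REPS] is `erep_main`). -/
theorem ksad_places_of (hfin : eco_FinStatement) : ksha_PlacesStatement :=
  ksad_places hfin erep_main

/-! ### [KSHA-CLN] -/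

/-- **[KSHA-CLN]** from [E-CLN]. -/
theorem ksad_cln (hcln : eco_ClnStatement) : ksha_ClnStatement := by
  classical
  intro S K hK
  let _i : NumberField ↥K := { to_charZero := inferInstance, to_finiteDimensional := hK.1 }
  obtain ⟨h, hh, H⟩ := hcln S K hK
  refine ⟨h, hh, fun T hT hTS N => ?_⟩
  let c : Nat.Primes × s55_GQ → ℤ := fun w' =>
    if hw : ∃ w ∈ T, ak_SamePlace K w w' then N hw.choose else 0
  have hc_pos : ∀ w ∈ T, ∀ w', ak_SamePlace K w w' → c w' = N w := by
    intro w hw w' hs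
    have hex : ∃ w ∈ T, ak_SamePlace K w w' := ⟨w, hw, hs⟩
    have h1 : c w' = N hex.choose := dif_pos hex
    have h2 : hex.choose = w :=
      hT _ hex.choose_spec.1 _ hw
        (ksad_same_trans K hex.choose_spec.2 (ksad_same_symm K hs))
    rw [h1, h2]
  have hc_neg : ∀ w', ak_Outside K T w' → c w' = 0 := by
    intro w' hout
    exact dif_neg (fun ⟨w, hw, hs⟩ => hout w hw hs)
  have hc : eco_IsDiv K c := by
    refine ⟨fun w w' hs => ?_, T.image Prod.fst, fun w hw => ?_⟩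
    · by_cases hex : ∃ t ∈ T, ak_SamePlace K t w
      · obtain ⟨t, ht, hts⟩ := hex
        rw [hc_pos t ht w hts, hc_pos t ht w' (ksad_same_trans K hts hs)]
      · have h1 : ak_Outside K T w := fun t ht hts => hex ⟨t, ht, hts⟩
        have h2 : ak_Outside K T w' := fun t ht hts =>
          hex ⟨t, ht, ksad_same_trans K hts (ksad_same_symm K hs)⟩
        rw [hc_neg w h1, hc_neg w' h2]
    · refine hc_neg w (fun t ht hts => hw ?_)
      have h1 : t.1 = w.1 := hts.1
      rw [← h1]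
      exact Finset.mem_image_of_mem Prod.fst ht
  obtain ⟨k, hk, hord⟩ := H c hc
  refine ⟨k, hk, fun w hw => ?_, fun w' hw' hout => ?_⟩
  · rw [ksad_ord_iff, ← hc_pos w hw w (ksad_same_refl K w)]
    exact hord w (hTS w hw)
  · have h1 := hord w' hw'
    rw [hc_neg w' hout, mul_zero] at h1
    exact (ksad_ord_iff w' k 0).2 h1

/-- **[KSHA-CLN]** from [E-ORD] ([E-CLN] is `ecln_main`). -/
theorem ksad_cln_of (hord : eco_OrdStatement) : ksha_ClnStatement :=
  ksad_cln (ecln_main hord)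

/-! ### [KSHA-KUMFIELD] -/

/-- A field is a level over itself. -/
theorem ksad_isLevel_self (F : IntermediateField ℚ Qbar) (hF : FiniteDimensional ℚ F) :
    ak_IsLevel F F :=
  ⟨le_rfl, hF, fun _ hu _ hs => mul_mem (mul_mem (inv_mem hu) hs) hu⟩

/-- A field is a `p`-level over itself (index `1 = p ^ 0`). -/
theorem ksad_isPLevel_self (F : IntermediateField ℚ Qbar) (p : ℕ) : ak_IsPLevel F F p := by
  refine ⟨0, ?_⟩
  rw [pow_zero, Subgroup.subgroupOf_self, Subgroup.index_top]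

/-- The normal closure over `ℚ` of a finite extension containing `K` is a level over `K`. -/
theorem ksad_isLevel_normalClosure (K F : IntermediateField ℚ Qbar) (hKF : K ≤ F)
    (hF : FiniteDimensional ℚ F) : ak_IsLevel K (normalClosure ℚ F Qbar) := by
  have _i1 : FiniteDimensional ℚ F := hF
  have _i2 : Algebra.IsAlgebraic ℚ Qbar := AlgebraicClosure.isAlgebraic ℚ
  have _i3 : IsAlgClosure ℚ Qbar := ⟨inferInstance, inferInstance⟩
  have _i4 : Normal ℚ Qbar := IsAlgClosure.normal ℚ Qbar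
  refine ⟨hKF.trans (le_normalClosure F), normalClosure.is_finiteDimensional ℚ F Qbar, ?_⟩
  intro u _ s hs
  rw [IntermediateField.mem_fixingSubgroup_iff] at hs ⊢
  intro x hx
  have hn : Normal ℚ (normalClosure ℚ F Qbar) := normalClosure.normal ℚ F Qbar
  have hux : u x ∈ normalClosure ℚ F Qbar :=
    (normal_iff_forall_map_le'.1 hn u) ((IntermediateField.mem_map _).2 ⟨x, hx, rfl⟩)
  have h1 := hs (u x) hux
  show u⁻¹ (s (u x)) = x
  rw [h1]
  exact AlgEquiv.symm_apply_apply u x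

/-- **[KSHA-KUMFIELD]** from [E-KUM]. -/
theorem ksad_kumField (hkum : eco_KumStatement) : ksha_KumFieldStatement := by
  classical
  intro p hp S hodd hpS K F hlev hunr hζ j x β hx hβ hdiv
  have hpp : p.Prime := hp.out
  have hset : eco_Setting p S F := by
    refine ⟨hpp, hodd, fun q hq => ?_, hunr, ?_⟩
    · have h1 : q = ExtCitation.pPrime p := Subtype.ext hq
      rw [h1]
      exact hpS
    · obtain ⟨ζ, hζ1, hζ2⟩ := hζ
      exact ⟨ζ, hζ1, hlev.le hζ2⟩
  have hsl : eco_SLevel p S F F :=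
    ⟨ksad_isLevel_self F hunr.1, hunr, ksad_isPLevel_self F p⟩
  -- the roots of `x`
  obtain ⟨F₁, hF₁, hsl₁, hroot₁⟩ := hkum p S F F hset hsl j {x} (by
    intro y hy
    rw [Finset.mem_singleton] at hy
    subst hy
    refine ⟨hx, fun w hw => ?_⟩
    obtain ⟨m, hm⟩ := hdiv w.1 hw w.2
    exact ⟨m, (ksad_ord_iff w y _).1 hm⟩)
  -- the roots of unity
  obtain ⟨F₂, hF₂, hsl₂, hroot₂⟩ := hkum p S F F₁ hset hsl₁ (j + 1) {1} (by
    intro y hy
    rw [Finset.mem_singleton] at hy
    subst hy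
    refine ⟨?_, fun w _ => ⟨0, ?_⟩⟩
    · rw [Units.val_one]
      exact one_mem _
    · rw [mul_zero]
      exact ksad_hasOrd_one w)
  have hFF₂ : F ≤ F₂ := hF₁.trans hF₂
  refine ⟨normalClosure ℚ F₂ Qbar, hFF₂.trans (le_normalClosure F₂),
    ksad_isLevel_normalClosure K F₂ (hlev.le.trans hFF₂) hsl₂.unr.1,
    brg_normalClosure_unram hsl₂.unr, ?_, ?_⟩
  · exact le_normalClosure F₂ (hF₂ (hroot₁ x (Finset.mem_singleton_self x) β hβ))
  · intro ξ hξ
    have hξ0 : ξ ≠ 0 := by
      intro h0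
      rw [h0, zero_pow (pow_ne_zero _ hpp.ne_zero)] at hξ
      exact zero_ne_one hξ
    have h1 : (Units.mk0 ξ hξ0) ^ (p ^ (j + 1)) = (1 : Qbarˣ) := by
      apply Units.ext
      rw [Units.val_pow_eq_pow_val, Units.val_mk0, Units.val_one, hξ]
    exact le_normalClosure F₂ (hroot₂ 1 (Finset.mem_singleton_self 1) (Units.mk0 ξ hξ0) h1)

end

end Fermat.Agent.S55
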