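/-
S55 (fifth wave), GLOBAL side, [K-SHA] leaf [KSHA-LOC-S] = `ksha_LocSStatement` of
`Global/KShaDefs.lean`.  Owner: helper8.  Prefix `kls_`.  Export: `kls_main`.

At a place `(q, g)` where the character `y` is locally trivial the localisation of
`Φ = ζ ^ ε / ((b ∪ ỹ) · (x ∪ δy))` is `ι_q (g ζ) ^ (ε ∘ r) = ζ_loc ^ (χ(g) (ε ∘ r))`, and
`ak_H K q g = kl_H K q` because `U = G_K` is normal.
-/
import Mathlib
import Fermat.Agent.S55.Global.KShaDefs
import Fermat.Agent.S55.Local.PtInv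
import Fermat.Agent.S55.Adm

set_option autoImplicit false
set_option maxHeartbeats 1000000
set_option synthInstance.maxHeartbeats 400000
set_option linter.unusedSectionVars false
set_option linter.unusedVariables false
set_option linter.style.haveILetI false

open CategoryTheory Module groupCohomology ExtCitation

noncomputable section

namespace Fermat.Agent.S55

local notation "Qbar" => AlgebraicClosure ℚ

section

variable (p : ℕ) [Fact p.Prime] (q : ℕ) [Fact q.Prime]

/-- `ι_q (g ζ) = ζ_loc ^ χ(g)`. -/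
theorem kls_zeta_emb (g : s55_GQ) :
    ak_emb q g (ksha_zeta p) =
      ld_zetaLoc p q ^ ((cycloChar p g : (ZMod p)ˣ) : ZMod p).val := by
  apply Units.ext
  rw [ak_emb_coe, Units.val_pow_eq_pow_val]
  change padicEmbedding q (g (ld_zeta p)) = (padicEmbedding q (ld_zeta p)) ^ _
  rw [← map_pow]
  congr 1
  have hu : IsUnit (ld_zeta p) := (ld_zeta_spec p).isUnit (Fact.out : p.Prime).ne_zero
  have ht : hu.unit ∈ rootsOfUnity p (AlgebraicClosure ℚ) := by
    rw [mem_rootsOfUnity]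
    apply Units.ext
    rw [Units.val_pow_eq_pow_val, IsUnit.unit_spec, (ld_zeta_spec p).pow_eq_one, Units.val_one]
  have h := adm_cyclo_spec p g ht
  rw [IsUnit.unit_spec] at h
  exact h

/-- For `U` normal the local group of the place `(q, g)` does not depend on `g`. -/
theorem kls_H_eq (K : IntermediateField ℚ Qbar) [hK : K.fixingSubgroup.Normal] (q : Nat.Primes)
    (g : s55_GQ) :
    letI : Fact (q : ℕ).Prime := ⟨q.2⟩
    ak_H K (q : ℕ) g = kl_H K q := by
  letI : Fact (q : ℕ).Prime := ⟨q.2⟩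
  ext τ
  rw [ak_mem_H_iff, kl_mem_H_iff]
  constructor
  · intro h
    have h1 := hK.conj_mem _ h g
    have h2 : g * (g⁻¹ * localGaloisToGlobal (q : ℕ) τ * g) * g⁻¹ =
        localGaloisToGlobal (q : ℕ) τ := by group
    rwa [h2] at h1
  · intro h
    have h1 := hK.conj_mem _ h g⁻¹
    rwa [inv_inv] at h1

end

/-- **[KSHA-LOC-S]** -/
theorem kls_main : ksha_LocSStatement := by
  intro inv p _ K hK q g y hy ε b x
  letI : Fact (q : ℕ).Prime := ⟨q.2⟩
  show inv (q : ℕ) (ak_H K (q : ℕ) g) (ak_loc₂ K (q : ℕ) g (ksha_Phi K ε y b x)) =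
    inv (q : ℕ) (kl_H K q) _
  refine ak_inv_congr inv (q : ℕ) (kls_H_eq K q g) _ _ fun τ τ' σ σ' hτ hτ' => ?_
  have e1 : ak_r K (q : ℕ) g τ = kl_r K q g σ := by
    apply Subtype.ext
    rw [ak_r_coe, kl_r_coe, hτ]
  have e2 : ak_r K (q : ℕ) g τ' = kl_r K q g σ' := by
    apply Subtype.ext
    rw [ak_r_coe, kl_r_coe, hτ']
  show ak_emb (q : ℕ) g (ksha_Phi K ε y b x (ak_r K (q : ℕ) g τ, ak_r K (q : ℕ) g τ')) = _
  rw [e1, e2]
  have hy1 : y (kl_r K q g σ) = 0 := hy σ
  have hy2 : y (kl_r K q g σ') = 0 := hy σ'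
  have hΦ : ksha_Phi K ε y b x (kl_r K q g σ, kl_r K q g σ') =
      ksha_zeta p ^ (ε (kl_r K q g σ, kl_r K q g σ')).val := by
    simp only [ksha_Phi, ksha_bock, hy1, hy2, ZMod.val_zero, pow_zero, add_zero, Nat.zero_div,
      mul_one, div_one]
  rw [hΦ, map_pow, kls_zeta_emb]
  show ptinv_exp p (q : ℕ) _ ^ _ = ptinv_exp p (q : ℕ) _
  rw [← ptinv_exp_mul, mul_comm]

end Fermat.Agent.S55
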