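/-
S55 (fifth wave), GLOBAL side, package [K-EX], leaf [KEX-LEVEL] = `kex_LevelStatement`
(Global/KExDefs.lean) (helper2).  Prefix `kxv_`.

EXPORT:  `theorem kxv_main : eco_KumStatement → kex_LevelStatement`.

ROUTE.  `y` a character of `U = G_K` of level `S'`, `F₀` its level field,
`F` = the normal closure of `F₀ K` (a level over `K`, unramified outside `S'`).  `β = ζ ^ y` is
a 1-cocycle of level `F`, so `β σ = σ α / α` with `α ∈ F` ([KSHA-H90]) and `x := α ^ p ∈ K`.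
At a place `(q, g)`, `q ∉ S`, the inertia group of `Ω_q` fixes `ι_q (g α)`: for `q ∉ S'`
because `F` is unramified at `q` ([E-ORD]), for `q ∈ S' \ S` because every inert `s` lies in
`kl_H K q` (`K` is unramified at `q`) and `y (r s) = 0`.  Hence `‖ι_q (g α)‖ ∈ q ^ ℤ`
(`eord_value`) and `p ∣ ord x`.  [E-KUM] (`F := K`, `k = 1`, `X = {x}`) gives an `S`-level
`F' ∋ α`, and `y` is constant modulo `G_F'`.
-/
import Fermat.Agent.S55.Global.KExDefs
import Fermat.Agent.S55.Global.KExGlobCount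
import Fermat.Agent.S55.Global.KShaH90
import Fermat.Agent.S55.Global.KShaAdapt
import Fermat.Agent.S55.Global.KShaLocS
import Fermat.Agent.S55.Global.EcoOrd

set_option autoImplicit false
set_option linter.style.haveILetI false
set_option maxHeartbeats 1000000
set_option synthInstance.maxHeartbeats 400000
open CategoryTheory Module groupCohomology ExtCitation

noncomputable section

namespace Fermat.Agent.S55

local notation "Qbar" => AlgebraicClosure ℚ

section kxl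

variable {p : ℕ} [Fact p.Prime] (K : IntermediateField ℚ Qbar)

/-- `β = ζ ^ y`. -/
def kxv_beta (y : ↥K.fixingSubgroup → ZMod p) : ↥K.fixingSubgroup → Qbarˣ :=
  fun σ => ksha_zeta p ^ (y σ).val

theorem kxv_beta_cocycle (hcyc : ∀ s ∈ K.fixingSubgroup, cycloChar p s = 1)
    (y : ↥K.fixingSubgroup → ZMod p) (hy : kl_IsHom y) : IsMulCocycle₁ (kxv_beta K y) := by
  intro g h
  show ksha_zeta p ^ (y (g * h)).val =
    g • (ksha_zeta p ^ (y h).val) * ksha_zeta p ^ (y g).val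
  rw [ksha_smul_zeta_pow K hcyc, hy g h, ksha_pow_val_add (ksha_zeta_pow p), mul_comm]

theorem kxv_beta_mem (hcyc : ∀ s ∈ K.fixingSubgroup, cycloChar p s = 1)
    (y : ↥K.fixingSubgroup → ZMod p) (F : IntermediateField ℚ Qbar) (hKF : K ≤ F)
    (σ : ↥K.fixingSubgroup) : ((kxv_beta K y σ : Qbarˣ) : Qbar) ∈ F := by
  show ((ksha_zeta p ^ (y σ).val : Qbarˣ) : Qbar) ∈ F
  rw [Units.val_pow_eq_pow_val]
  exact pow_mem (hKF (ksha_zeta_mem K hcyc)) _

/-- `y σ = 0` iff `σ` fixes `α`, for `β = ζ ^ y = d α`. -/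
theorem kxv_eq_zero_of_fix (y : ↥K.fixingSubgroup → ZMod p) (α : Qbarˣ)
    (hα : ∀ g : ↥K.fixingSubgroup, kxv_beta K y g = g • α / α) (σ : ↥K.fixingSubgroup)
    (h : σ • α = α) : y σ = 0 := by
  apply ksha_pow_val_injective (ksha_zeta_prim p)
  have h1 : ksha_zeta p ^ (y σ).val = σ • α / α := hα σ
  rw [h1, h, div_self', ksha_pow_val_zero]

theorem kxv_fix_of_eq_zero (y : ↥K.fixingSubgroup → ZMod p) (α : Qbarˣ)
    (hα : ∀ g : ↥K.fixingSubgroup, kxv_beta K y g = g • α / α) (σ : ↥K.fixingSubgroup)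
    (h : y σ = 0) : σ • α = α := by
  have h1 : ksha_zeta p ^ (y σ).val = σ • α / α := hα σ
  rw [h, ksha_pow_val_zero] at h1
  exact (div_eq_one.1 h1.symm)

/-- `α ^ p ∈ K`. -/
theorem kxv_pow_mem (y : ↥K.fixingSubgroup → ZMod p) (α : Qbarˣ)
    (hα : ∀ g : ↥K.fixingSubgroup, kxv_beta K y g = g • α / α) :
    ((α ^ p : Qbarˣ) : Qbar) ∈ K := by
  haveI : IsGalois ℚ Qbar := ksha_isGalois
  rw [← InfiniteGalois.fixedField_fixingSubgroup K, IntermediateField.mem_fixedField_iff]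
  intro g hg
  have h1 : (⟨g, hg⟩ : ↥K.fixingSubgroup) • (α ^ p) = α ^ p := by
    have h2 : (⟨g, hg⟩ : ↥K.fixingSubgroup) • α = kxv_beta K y ⟨g, hg⟩ * α := by
      rw [hα, div_mul_cancel]
    have h3 : kxv_beta K y ⟨g, hg⟩ ^ p = 1 := by
      show (ksha_zeta p ^ (y ⟨g, hg⟩).val) ^ p = 1
      rw [← pow_mul, mul_comm, pow_mul, ksha_zeta_pow, one_pow]
    rw [smul_pow', h2, mul_pow, h3, one_mul]
  exact congrArg (fun u : Qbarˣ => (u : Qbar)) h1

/-- `ord (α ^ p) = p · ord α`. -/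
theorem kxv_ord_pow (q : ℕ) [Fact q.Prime] (g : s55_GQ) (α : Qbarˣ) (n : ℤ)
    (h : ‖padicEmbedding q (g (α : Qbar))‖ = (q : ℝ) ^ (-n)) (m : ℕ) :
    ‖padicEmbedding q (g ((α ^ m : Qbarˣ) : Qbar))‖ = (q : ℝ) ^ (-(((m : ℕ) : ℤ) * n)) := by
  rw [Units.val_pow_eq_pow_val, map_pow, map_pow, norm_pow, h, ← zpow_natCast, ← zpow_mul]
  congr 1
  ring

end kxl

/-- **[KEX-LEVEL]** from [E-KUM]. -/
theorem kxv_main : eco_KumStatement → kex_LevelStatement := by
  intro hKum p _ hp2 S S' hSS' hpS K _ hunr hcyc y hy hlev hloc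
  obtain ⟨F₀, hF₀, hconst⟩ := hlev
  have hK' : K.IsUnramifiedOutside S' := hunr.mono hSS'
  have hF₁ : (F₀ ⊔ K).IsUnramifiedOutside S' := hF₀.sup hK'
  have hFlev : ak_IsLevel K (IntermediateField.normalClosure ℚ ↥(F₀ ⊔ K) Qbar) :=
    ksad_isLevel_normalClosure K (F₀ ⊔ K) le_sup_right hF₁.1
  have hFunr : (IntermediateField.normalClosure ℚ ↥(F₀ ⊔ K) Qbar).IsUnramifiedOutside S' :=
    brg_normalClosure_unram hF₁
  have hF₀F : F₀ ≤ IntermediateField.normalClosure ℚ ↥(F₀ ⊔ K) Qbar :=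
    le_sup_left.trans (IntermediateField.le_normalClosure _)
  generalize IntermediateField.normalClosure ℚ ↥(F₀ ⊔ K) Qbar = F at hFlev hFunr hF₀F
  -- Hilbert 90
  have hβlev : ak_Lev₁ K F (kxv_beta K y) := by
    refine ⟨fun g s hs => ?_, fun g => kxv_beta_mem K hcyc y F hFlev.le g⟩
    show ksha_zeta p ^ (y (g * s)).val = ksha_zeta p ^ (y g).val
    have hs0 : (s : s55_GQ) ∈ F₀.fixingSubgroup := by
      rw [IntermediateField.mem_fixingSubgroup_iff] at hs ⊢
      intro z hz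
      exact hs z (hF₀F hz)
    rw [hconst g s hs0]
  obtain ⟨α, hαF, hα⟩ := ksha_h90_main K F hFlev (kxv_beta K y) (kxv_beta_cocycle K hcyc y hy)
    hβlev
  have hxK : ((α ^ p : Qbarˣ) : Qbar) ∈ K := kxv_pow_mem K y α hα
  -- the orders of `α` outside `S`
  have hord : ∀ w : Nat.Primes × s55_GQ, w.1 ∉ S →
      ∃ n : ℤ, ‖padicEmbedding (w.1 : ℕ) (w.2 (α : Qbar))‖ = ((w.1 : ℕ) : ℝ) ^ (-n) := by
    intro w hw
    by_cases hw' : w.1 ∈ S'
    · have hx0 : padicEmbedding (w.1 : ℕ) (w.2 (α : Qbar)) ≠ 0 :=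
        (ak_emb (w.1 : ℕ) w.2 α).ne_zero
      apply eord_value (w.1 : ℕ) _ hx0
      intro s hs
      have hsH : s ∈ kl_H K w.1 := by
        have h1 := aku_inert_mem (w.1 : ℕ) K (ak_unramAt_of_outside hunr w.1 hw) w.2 s hs
        have h2 := kls_H_eq K w.1 w.2
        rw [← h2]
        exact h1
      have h3 : y (kl_r K w.1 w.2 ⟨s, hsH⟩) = 0 := hloc w.1 hw' hw w.2 ⟨s, hsH⟩ hs
      have h4 := kxv_fix_of_eq_zero K y α hα _ h3
      have h5 := kxg_emb_fixed K w.1 w.2 ⟨s, hsH⟩ α h4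
      exact congrArg (fun u : (PadicAlgCl (w.1 : ℕ))ˣ => (u : PadicAlgCl (w.1 : ℕ))) h5
    · exact eord_main (w.1 : ℕ) F hFunr.1 (ak_unramAt_of_outside hFunr w.1 hw') α hαF w.2
  -- the setting of [E-KUM]
  have hset : eco_Setting p S K :=
    { prime := Fact.out
      odd := hp2
      mem := by
        intro q hq
        have : q = pPrime p := Subtype.ext hq
        rw [this]
        exact hpS
      unr := hunr
      zeta := ksha_exists_zeta K hcyc }
  have hlevK : eco_SLevel p S K K :=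
    { lev :=
        { le := le_rfl
          fin := hunr.1
          normal := fun u hu s hs =>
            K.fixingSubgroup.mul_mem (K.fixingSubgroup.mul_mem (K.fixingSubgroup.inv_mem hu) hs)
              hu }
      unr := hunr
      pl := ⟨0, by
        rw [pow_zero, Subgroup.index_eq_one]
        exact Subgroup.subgroupOf_self _⟩ }
  have hX : ∀ x₁ ∈ ({α ^ p} : Finset Qbarˣ), (x₁ : Qbar) ∈ K ∧ eco_OrdDvd S (p ^ 1) x₁ := by
    intro x₁ hx₁
    rw [Finset.mem_singleton] at hx₁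
    subst hx₁
    refine ⟨hxK, fun w hw => ?_⟩
    obtain ⟨n, hn⟩ := hord w hw
    refine ⟨n, ?_⟩
    have h1 := kxv_ord_pow (w.1 : ℕ) w.2 α n hn p
    rw [pow_one]
    exact h1
  obtain ⟨F', -, hF', hF'2⟩ := hKum p S K K hset hlevK 1 {α ^ p} hX
  have hαF' : (α : Qbar) ∈ F' :=
    hF'2 (α ^ p) (Finset.mem_singleton_self _) α (by rw [pow_one])
  refine ⟨F', hF'.unr, fun g s hs => ?_⟩
  have hsα : s • α = α := by
    apply Units.ext
    exact hs ⟨_, hαF'⟩
  rw [hy g s, kxv_eq_zero_of_fix K y α hα s hsα, add_zero]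

end Fermat.Agent.S55
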