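/-
S55 (fifth wave), GLOBAL side, part 3: [K-EX] ⟹ the class field theory inputs of [K-SHA]
(`ksha_ArtPerfStatement` of `Global/KShaDefs.lean` and the finiteness of `Ш¹`).
Owner of the interface: helper25.  Prefix `kex_`.  Definitions and closed Props only.

SETTING as in `Global/KExDefs.lean`.  For a place `w = (q, g)`, `q ∉ S` (so `q ≠ p` and `K` is
unramified at `q`), `Θ_w^unr` = the unramified smooth characters of `kl_H K q`, and
    `A_w (t) = kex_artLoc inv q (kl_H K q) t = inv (q ∪ δt)`      (the local Artin symbol);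
for a global character `y`:  `ksha_art K inv y w = A_w (y ∘ r_w)`.

ROUTE of [KSHA-ARTPERF] (from [K-EX] ITSELF, by duality; reviewed by helper26 in #1023).
Given `T` (places outside `S`) and `N` with `∑_{w ∈ T} N_w • A_w (y) = 0` for all `y ∈ Ш¹_S`:
`S'' := S ∪ primes (T)`, `R''` representatives for `S''` extending `R` and containing `T`
([KEX-REPSEXT]), `N'_w := N_w` on `T`, `0` at the other places above `S'' \ S`.
`V := ∏_{w ∣ S'' \ S} Θ_w^unr` (finite), `μ (t, η) := ∑_{w ∣ S'' \ S} b_w (t_w, η ∘ r_w)` for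
`η ∈ Y_{S''}`, `Λ (t) := ∑_w N'_w • A_w (t_w)`.
 * If `μ (t, ·) = 0` then the family `(0, t)` is orthogonal to `loc Y_{S''}`, so by [K-EX] for
   `S''` it is `loc θ₀`, `θ₀ ∈ Y_{S''}`; `θ₀ ∈ Y_S` by [KEX-LEVEL], and `θ₀ ∈ Ш¹_S`; hence
   `Λ (t) = ∑_T N_w • ksha_art θ₀ w = 0` by hypothesis.
 * Linear algebra (`kex_la_represent_raw`): `Λ = μ (·, η)` for some `η ∈ Y_{S''}`.
 * `η` is the Kummer character of some `k ∈ Kˣ` ([KEX-KUMGEN]), and
   `b_w (t, η ∘ r_w) = ord_w (k) • A_w (t)` for unramified `t` ([KEX-TAME]); with `t` supported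
   at one place and `A_w (t) ≠ 0` ([KEX-ARTNZ]; `p • A_w (t) = 0`): `ord_w k ≡ N'_w mod p` at all
   places above `S'' \ S`.  Outside `S''`: `p ∣ ord k` because `α = k^(1/p)` lies in a field
   unramified outside `S''` ([KSHA-ORD]).
ROUTE of the finiteness of `Y_S` ([KEX-YFIN], hence of `Ш¹_S ⊆ Y_S`): every `y ∈ Y_S` is the
Kummer character of some `x ∈ Kˣ` with `p ∣ ord_w x` outside `S` ([KEX-KUMGEN], [KSHA-ORD]),
it depends only on `x` modulo `Kˣᵖ`, and `V_S / Kˣᵖ` is finite ([KEX-VFIN]).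

LEAVES:
  [KEX-TAME]    kex_TameStatement     local: `inv (ζ^(t ∪ η_a)) = ord (a) • inv (q ∪ δt)`, `t` unramified
  [KEX-ARTNZ]   kex_ArtNzStatement    local: an unramified `t` with `inv (q ∪ δt) ≠ 0`
  [KEX-KUMGEN]  kex_KumGenStatement   every level-`S` character is a Kummer character (H90)
  [KEX-VFIN]    kex_VFinStatement     `V_S / Kˣᵖ` is finite (class group + `S`-units)
  [KEX-YFIN]    kex_YFinStatement     ⟸ KUMGEN + [KSHA-ORD] + VFIN
  [KEX-REPSEXT] kex_RepsExtStatement  representatives for `S'' ⊇ S` extending `R`, containing `T`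
ASSEMBLY [KEX-ARTPERF-OF]:
  `kl_ExStatement → kex_LevelStatement → kex_PairStatement → kex_TameStatement →
   kex_ArtNzStatement → kex_KumGenStatement → ksha_OrdStatement → kex_RepsExtStatement →
   ksha_ArtPerfStatement`.
-/
import Fermat.Agent.S55.Global.KExDefs

set_option autoImplicit false
set_option maxHeartbeats 1000000
set_option synthInstance.maxHeartbeats 400000
open CategoryTheory Module groupCohomology ExtCitation

noncomputable section

namespace Fermat.Agent.S55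

local notation "Qbar" => AlgebraicClosure ℚ

/-! ### Vocabulary -/

/-- The prime `q` as a unit of `Ω_q`. -/
def kex_qLoc (q : ℕ) [Fact q.Prime] : (PadicAlgCl q)ˣ :=
  Units.mk0 ((q : ℕ) : PadicAlgCl q) (Nat.cast_ne_zero.2 (Fact.out : q.Prime).ne_zero)

/-- **The local Artin symbol** of a character `t : U → F_p`: `inv_U (q ∪ δt)`,
`(q ∪ δt)(g, h) = q ^ ((t̃ g + t̃ h) / p)` (`= lcf_unrCoc U p t q`). -/
def kex_artLoc {p : ℕ} (inv : lcf_InvType) (q : ℕ) [Fact q.Prime] (U : Subgroup (lcf_Gal q))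
    (t : ↥U → ZMod p) : lcf_QZ :=
  inv q U (fun x => kex_qLoc q ^ ksha_bock t x)

/-! ### Local leaves -/

/-- **[KEX-TAME]** the tame formula: for an UNRAMIFIED smooth character `t` of `U` and the
Kummer character `η` of `a = β ^ p ∈ K_Uˣ` (`τ β = ζ ^ η(τ) β`) with `‖a‖ = ‖q‖ ^ n`:
`inv (ζ ^ (t ∪ η)) = n • inv (q ∪ δt)`.
PROOF.  With `b (g) = β ^ t̃(g)`: `d b = ζ ^ (η ∪ t) · (a ∪ δt)`, a smooth coboundary, and
`ζ ^ (t ∪ η) · ζ ^ (η ∪ t) = d (ζ ^ (- t η))`; so `inv (ζ ^ (t ∪ η)) = inv (a ∪ δt)` by (I1), (I2)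
(this is the computation in the proof of [V11], `Local/V11.lean`).  `a = q ^ n · u` with
`u ∈ K_Uˣ` a unit; `u ∪ δt` is inflated from the unramified quotient `U / ker t` with unit values,
so `inv (u ∪ δt) = 0` (`unr_h2u_isCob`, (I2)); (I1). -/
def kex_TameStatement : Prop :=
  ∀ (inv : lcf_InvType), lcf_IsInvSystem inv →
  ∀ (q : ℕ) [Fact q.Prime] (p : ℕ) [Fact p.Prime], p ≠ 2 →
    ∀ (U : Subgroup (lcf_Gal q)), lcf_IsOpen U →
    ∀ ζ : (PadicAlgCl q)ˣ, IsPrimitiveRoot ζ p → (∀ g : ↥U, g • ζ = ζ) →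
    ∀ t : ↥U → ZMod p, kl_IsHom t → lcf_Smooth₁ U t → kex_IsUnr U t →
    ∀ (η : ↥U → ZMod p) (β : (PadicAlgCl q)ˣ), (∀ τ : ↥U, τ • β = ζ ^ (η τ).val * β) →
    ∀ n : ℤ, ‖((β ^ p : (PadicAlgCl q)ˣ) : PadicAlgCl q)‖ = ‖((q : ℕ) : PadicAlgCl q)‖ ^ n →
      inv q U (fun x => ζ ^ (t x.1 * η x.2).val) = n • kex_artLoc inv q U t

/-- **[KEX-ARTNZ]** if `K_U / ℚ_q` is unramified (`U` contains the inertia group), there is an
unramified smooth character `t : U → F_p` with `inv (q ∪ δt) ≠ 0`.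
PROOF.  `t` := the unramified character with `t (Frob) = 1` (`unr_abs_unrChar`); `q` is a
uniformizer of `K_U`; (I4): `inv (q ∪ δt) = 1/p ≠ 0`. -/
def kex_ArtNzStatement : Prop :=
  ∀ (inv : lcf_InvType), lcf_IsInvSystem inv →
  ∀ (q : ℕ) [Fact q.Prime] (p : ℕ) [Fact p.Prime],
    ∀ (U : Subgroup (lcf_Gal q)), lcf_IsOpen U → (∀ s : lcf_Gal q, lcf_IsInert s → s ∈ U) →
    ∃ t : ↥U → ZMod p, kl_IsHom t ∧ lcf_Smooth₁ U t ∧ kex_IsUnr U t ∧
      kex_artLoc inv q U t ≠ 0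

/-! ### Global leaves -/

/-- **[KEX-KUMGEN]** every level-`S` character `y` of `U = G_K` (`ζ_p ∈ K`) is a Kummer
character: `σ α = ζ ^ y(σ) α` with `α` in a field unramified outside `S` and `α ^ p ∈ K`.
PROOF.  `F` := the normal closure of (level field of `y`) `⊔ K` (`brg_normalClosure_unram`), a
level over `K`; `ζ ^ y` is a 1-cocycle of level `F` (`ζ ∈ K`); [KSHA-H90] (`ksha_h90_main`) gives
`α ∈ Fˣ` with `ζ ^ y(σ) = σ α / α`; `α ^ p` is fixed by `U`, so it lies in `K`. -/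
def kex_KumGenStatement : Prop :=
  ∀ (p : ℕ) [Fact p.Prime] (S : Finset Nat.Primes) (K : IntermediateField ℚ Qbar)
    [K.fixingSubgroup.Normal], K.IsUnramifiedOutside S →
    (∀ s ∈ K.fixingSubgroup, cycloChar p s = 1) →
    ∀ y : ↥K.fixingSubgroup → ZMod p, kl_IsHom y → kl_LevelS₁ S K y →
      ∃ (F : IntermediateField ℚ Qbar) (α : Qbarˣ), F.IsUnramifiedOutside S ∧
        (α : Qbar) ∈ F ∧ ((α ^ p : Qbarˣ) : Qbar) ∈ K ∧
        ∀ σ : ↥K.fixingSubgroup, σ • α = ksha_zeta p ^ (y σ).val * α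

/-- **[KEX-VFIN]** `V_S / Kˣᵖ` is finite, `V_S = {x ∈ Kˣ | p ∣ ord_w x for all w ∉ S}`.
PROOF.  `x ↦` (the class of `𝔞`, `(x) = 𝔞 ^ p · (S-part)`) maps `V_S` to the `p`-torsion of the
`S`-class group (finite: Mathlib's `ClassGroup` of `𝓞 ↥K`, `ecln_prime`), with kernel
`E_S · Kˣᵖ`, and `E_S / E_Sᵖ` is finite (`S`-unit theorem, `ssu_main` with `T = ∅`). -/
def kex_VFinStatement : Prop :=
  ∀ (p : ℕ) [Fact p.Prime] (S : Finset Nat.Primes) (K : IntermediateField ℚ Qbar),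
    K.IsUnramifiedOutside S →
    ∃ X : Finset Qbarˣ, ∀ x : Qbarˣ, (x : Qbar) ∈ K →
      (∀ q : Nat.Primes, q ∉ S → ∀ g : s55_GQ, ksha_PDiv p (q, g) x) →
      ∃ x₀ ∈ X, ∃ z : Qbarˣ, (z : Qbar) ∈ K ∧ x = x₀ * z ^ p

/-- **[KEX-YFIN]** there are only finitely many level-`S` characters `U → F_p`
(`H¹(G_{K,S}, F_p)` is finite); in particular `Ш¹` is finite.
PROOF.  [KEX-KUMGEN]: `y` is the Kummer character of `x = α ^ p ∈ Kˣ`, `α ∈ F` unramified outside
`S`; [KSHA-ORD]: `ord_w α ∈ ℤ` for `w ∉ S`, so `p ∣ ord_w x`; [KEX-VFIN]: `x = x₀ z ^ p`, `x₀ ∈ X`;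
then `(α / z) ^ p = x₀`, so `α / z = ζ ^ i α₀` for the chosen root `α₀` of `x₀`, and
`ζ ^ y(σ) = σ α / α = σ α₀ / α₀` (`z, ζ ∈ K`): `y` is determined by `x₀ ∈ X`. -/
def kex_YFinStatement : Prop :=
  ∀ (p : ℕ) [Fact p.Prime] (S : Finset Nat.Primes) (K : IntermediateField ℚ Qbar)
    [K.fixingSubgroup.Normal], K.IsUnramifiedOutside S →
    (∀ s ∈ K.fixingSubgroup, cycloChar p s = 1) →
    {y : ↥K.fixingSubgroup → ZMod p | kl_IsHom y ∧ kl_LevelS₁ S K y}.Finite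

/-- **[KEX-REPSEXT]** (combinatorics) representatives of the places above `S'' ⊇ S` which
extend given representatives `R` above `S` and contain a given set `T` of pairwise different
places above `S'' \ S`.
PROOF.  `R₁` := any representatives for `S''` (`ka_exists_reps`); for `q ∈ S'' \ S` put
`R'' q := {g | (q, g) ∈ T} ∪ {g₀ ∈ R₁ q | (q, g₀) is not the place of any (q, g) ∈ T}`. -/
def kex_RepsExtStatement : Prop :=
  ∀ (S S'' : Finset Nat.Primes), S ⊆ S'' →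
    ∀ (K : IntermediateField ℚ Qbar) [K.fixingSubgroup.Normal], FiniteDimensional ℚ K →
    ∀ R : ↥S → Finset s55_GQ, kl_IsReps S K R →
    ∀ T : Finset (Nat.Primes × s55_GQ), ak_IsPlaceSet K T →
      (∀ w ∈ T, w.1 ∈ S'' ∧ w.1 ∉ S) →
      ∃ R'' : ↥S'' → Finset s55_GQ, kl_IsReps S'' K R'' ∧
        (∀ (q : ↥S'') (h : (q : Nat.Primes) ∈ S), R'' q = R ⟨(q : Nat.Primes), h⟩) ∧
        ∀ w ∈ T, ∀ h : w.1 ∈ S'', w.2 ∈ R'' ⟨w.1, h⟩

end Fermat.Agent.S55
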