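/-
S55 (fifth wave), GLOBAL side, package [K-EX] (helper25): [KEX-LINALG], the linear algebra.
Prefix `kex_la_`.  Mathlib only.

Three statements about bilinear pairings of vector spaces over a field `k` (used for
`k = ZMod p`), and their "raw" versions for bi-additive pairings with values in an abelian
group `A` containing a copy `e : ZMod p →+ A` of `ZMod p` which contains all the values:
* `kex_la_lagrangian` : `P` finite-dimensional, `B` right non-degenerate on `I ≤ P`, `I`
  isotropic, `dim P ≤ 2 dim I`  ⟹  `⊥I ⊆ I`;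
* `kex_la_extend` : `V` finite-dimensional, `μ : V × Y → k`, `λ : Y → k` vanishing on the right
  kernel of `μ`  ⟹  `λ = μ (t, ·)`;
* `kex_la_represent` : `V` finite-dimensional, `μ : V × Y → k`, `Λ : V → k` vanishing on the left
  kernel of `μ`  ⟹  `Λ = μ (·, y)`.
-/
import Mathlib

set_option autoImplicit false

namespace Fermat.Agent.S55

open Module

section layer0

variable {k : Type*} [Field k]

/-- The left orthogonal complement of `I` has dimension `dim P - dim I` if the pairing is
non-degenerate on the right on `I`; in the form: restriction to `I` of the functionals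
`B θ` is surjective. -/
theorem kex_la_restrict_surjective {P : Type*} [AddCommGroup P] [Module k P]
    [FiniteDimensional k P] (B : P →ₗ[k] P →ₗ[k] k) (I : Submodule k P)
    (hnd : ∀ i ∈ I, i ≠ 0 → ∃ θ, B θ i ≠ 0) :
    Function.Surjective ((I.subtype.dualMap : Dual k P →ₗ[k] Dual k I) ∘ₗ B) := by
  intro f
  have hinj : Function.Injective (B.flip ∘ₗ I.subtype) := by
    rw [← LinearMap.ker_eq_bot, LinearMap.ker_eq_bot']
    intro i hi
    by_contra h
    obtain ⟨θ, hθ⟩ := hnd i i.2 (fun h0 => h (Subtype.ext h0))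
    apply hθ
    have := congrArg (fun φ : Dual k P => φ θ) hi
    simpa using this
  obtain ⟨F, hF⟩ := LinearMap.dualMap_surjective_of_injective hinj f
  obtain ⟨θ, hθ⟩ := (Module.evalEquiv k P).surjective F
  refine ⟨θ, ?_⟩
  ext i
  have h1 : f i = F ((B.flip ∘ₗ I.subtype) i) := by
    rw [← hF]; rfl
  rw [h1, ← hθ]
  simp

theorem kex_la_finrank_perp {P : Type*} [AddCommGroup P] [Module k P]
    [FiniteDimensional k P] (B : P →ₗ[k] P →ₗ[k] k) (I : Submodule k P)
    (hnd : ∀ i ∈ I, i ≠ 0 → ∃ θ, B θ i ≠ 0) :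
    finrank k I +
      finrank k (LinearMap.ker ((I.subtype.dualMap : Dual k P →ₗ[k] Dual k I) ∘ₗ B)) =
        finrank k P := by
  have h := LinearMap.finrank_range_add_finrank_ker
    ((I.subtype.dualMap : Dual k P →ₗ[k] Dual k I) ∘ₗ B)
  rw [LinearMap.range_eq_top.2 (kex_la_restrict_surjective B I hnd), finrank_top,
    Subspace.dual_finrank_eq] at h
  exact h

/-- **Lagrangian criterion.** -/
theorem kex_la_lagrangian {P : Type*} [AddCommGroup P] [Module k P]
    [FiniteDimensional k P] (B : P →ₗ[k] P →ₗ[k] k) (I : Submodule k P)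
    (hnd : ∀ i ∈ I, i ≠ 0 → ∃ θ, B θ i ≠ 0)
    (hiso : ∀ i ∈ I, ∀ i' ∈ I, B i i' = 0)
    (hdim : finrank k P ≤ 2 * finrank k I)
    (θ : P) (hθ : ∀ i ∈ I, B θ i = 0) : θ ∈ I := by
  set Φ : P →ₗ[k] Dual k I := (I.subtype.dualMap : Dual k P →ₗ[k] Dual k I) ∘ₗ B with hΦ
  have hle : I ≤ LinearMap.ker Φ := by
    intro i hi
    rw [LinearMap.mem_ker]
    ext i'
    simpa [hΦ] using hiso i hi i' i'.2
  have hfr := kex_la_finrank_perp B I hnd
  have heq : I = LinearMap.ker Φ := by
    apply Submodule.eq_of_le_of_finrank_le hle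
    rw [← hΦ] at hfr
    omega
  rw [heq, LinearMap.mem_ker]
  ext i
  simpa [hΦ] using hθ i i.2

/-- **Extension of functionals.** -/
theorem kex_la_extend {V Y : Type*} [AddCommGroup V] [Module k V] [FiniteDimensional k V]
    [AddCommGroup Y] [Module k Y] (μ : V →ₗ[k] Y →ₗ[k] k) (lam : Y →ₗ[k] k)
    (h : ∀ y, (∀ t, μ t y = 0) → lam y = 0) : ∃ t, ∀ y, lam y = μ t y := by
  set M : Y →ₗ[k] Dual k V := μ.flip with hM
  have hker : LinearMap.ker M ≤ LinearMap.ker lam := by
    intro y hy
    rw [LinearMap.mem_ker] at hy ⊢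
    apply h
    intro t
    have := congrArg (fun φ : Dual k V => φ t) hy
    simpa [hM] using this
  -- the functional on the range of `M`
  let f : LinearMap.range M →ₗ[k] k :=
    ((LinearMap.ker M).liftQ lam hker) ∘ₗ (M.quotKerEquivRange.symm : _ →ₗ[k] _)
  obtain ⟨g, hg⟩ := LinearMap.exists_extend f
  obtain ⟨t, ht⟩ := (Module.evalEquiv k V).surjective g
  refine ⟨t, fun y => ?_⟩
  have h1 : g (M y) = f ⟨M y, LinearMap.mem_range_self M y⟩ := by
    rw [← hg]; rfl
  have h2 : f ⟨M y, LinearMap.mem_range_self M y⟩ = lam y := by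
    show ((LinearMap.ker M).liftQ lam hker) (M.quotKerEquivRange.symm ⟨M y, _⟩) = lam y
    have : M.quotKerEquivRange.symm ⟨M y, LinearMap.mem_range_self M y⟩ =
        Submodule.Quotient.mk y := by
      rw [LinearEquiv.symm_apply_eq]
      rfl
    rw [this]
    rfl
  rw [← h2, ← h1, ← ht]
  simp [hM]

/-- **Representation of functionals.** -/
theorem kex_la_represent {V Y : Type*} [AddCommGroup V] [Module k V] [FiniteDimensional k V]
    [AddCommGroup Y] [Module k Y] (μ : V →ₗ[k] Y →ₗ[k] k) (Lam : V →ₗ[k] k)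
    (h : ∀ t, (∀ y, μ t y = 0) → Lam t = 0) : ∃ y, ∀ t, Lam t = μ t y := by
  set Φ : Subspace k (Dual k V) := LinearMap.range μ.flip with hΦ
  have hmem : Lam ∈ (Submodule.dualCoannihilator Φ).dualAnnihilator := by
    rw [Submodule.mem_dualAnnihilator]
    intro t ht
    apply h
    intro y
    rw [Submodule.mem_dualCoannihilator] at ht
    have := ht (μ.flip y) (LinearMap.mem_range_self _ y)
    simpa using this
  rw [Subspace.dualCoannihilator_dualAnnihilator_eq] at hmem
  obtain ⟨y, hy⟩ := hmem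
  refine ⟨y, fun t => ?_⟩
  rw [← hy]
  simp

end layer0

/-! ### Raw versions: bi-additive pairings with values in `A ⊇ e (ZMod p)` -/

section layer1

variable {p : ℕ} [Fact p.Prime] {A : Type*} [AddCommGroup A] (e : ZMod p →+ A)

/-- The preimage under `e` of a value (`0` outside the image). -/
noncomputable def kex_la_val (a : A) : ZMod p :=
  open Classical in if h : ∃ c, e c = a then h.choose else 0

theorem kex_la_val_spec {a : A} (h : ∃ c, e c = a) : e (kex_la_val e a) = a := by
  unfold kex_la_val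
  rw [dif_pos h]
  exact h.choose_spec

variable {e}

theorem kex_la_val_add (he : Function.Injective e) {a b : A} (ha : ∃ c, e c = a)
    (hb : ∃ c, e c = b) : kex_la_val e (a + b) = kex_la_val e a + kex_la_val e b := by
  apply he
  have hab : ∃ c, e c = a + b := by
    obtain ⟨c, hc⟩ := ha
    obtain ⟨d, hd⟩ := hb
    exact ⟨c + d, by rw [map_add, hc, hd]⟩
  rw [kex_la_val_spec e hab, map_add, kex_la_val_spec e ha, kex_la_val_spec e hb]

theorem kex_la_val_eq_zero_iff (he : Function.Injective e) {a : A} (ha : ∃ c, e c = a) :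
    kex_la_val e a = 0 ↔ a = 0 := by
  constructor
  · intro h
    rw [← kex_la_val_spec e ha, h, map_zero]
  · intro h
    apply he
    rw [kex_la_val_spec e ha, h, map_zero]

variable (e)

/-- A raw bi-additive pairing with values in the image of `e` as a bilinear map over
`ZMod p`. -/
noncomputable def kex_la_bil (he : Function.Injective e) {V Y : Type*} [AddCommGroup V]
    [Module (ZMod p) V] [AddCommGroup Y] [Module (ZMod p) Y] (μ : V → Y → A)
    (hl : ∀ t t' y, μ (t + t') y = μ t y + μ t' y)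
    (hr : ∀ t y y', μ t (y + y') = μ t y + μ t y')
    (hv : ∀ t y, ∃ c, e c = μ t y) : V →ₗ[ZMod p] Y →ₗ[ZMod p] ZMod p :=
  AddMonoidHom.toZModLinearMap p
    (AddMonoidHom.mk' (fun t => AddMonoidHom.toZModLinearMap p
        (AddMonoidHom.mk' (fun y => kex_la_val e (μ t y)) (fun y y' => by
          rw [hr, kex_la_val_add he (hv t y) (hv t y')])))
      (fun t t' => by
        apply LinearMap.ext
        intro y
        show kex_la_val e (μ (t + t') y) = kex_la_val e (μ t y) + kex_la_val e (μ t' y)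
        rw [hl, kex_la_val_add he (hv t y) (hv t' y)]))

theorem kex_la_bil_apply (he : Function.Injective e) {V Y : Type*} [AddCommGroup V]
    [Module (ZMod p) V] [AddCommGroup Y] [Module (ZMod p) Y] (μ : V → Y → A)
    (hl : ∀ t t' y, μ (t + t') y = μ t y + μ t' y)
    (hr : ∀ t y y', μ t (y + y') = μ t y + μ t y')
    (hv : ∀ t y, ∃ c, e c = μ t y) (t : V) (y : Y) :
    kex_la_bil e he μ hl hr hv t y = kex_la_val e (μ t y) := rfl

theorem kex_la_bil_eq_zero_iff (he : Function.Injective e) {V Y : Type*} [AddCommGroup V]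
    [Module (ZMod p) V] [AddCommGroup Y] [Module (ZMod p) Y] (μ : V → Y → A)
    (hl : ∀ t t' y, μ (t + t') y = μ t y + μ t' y)
    (hr : ∀ t y y', μ t (y + y') = μ t y + μ t y')
    (hv : ∀ t y, ∃ c, e c = μ t y) (t : V) (y : Y) :
    kex_la_bil e he μ hl hr hv t y = 0 ↔ μ t y = 0 := by
  rw [kex_la_bil_apply, kex_la_val_eq_zero_iff he (hv t y)]

/-- A raw additive functional with values in the image of `e` as a linear map. -/
noncomputable def kex_la_lin (he : Function.Injective e) {Y : Type*} [AddCommGroup Y]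
    [Module (ZMod p) Y] (lam : Y → A) (ha : ∀ y y', lam (y + y') = lam y + lam y')
    (hv : ∀ y, ∃ c, e c = lam y) : Y →ₗ[ZMod p] ZMod p :=
  AddMonoidHom.toZModLinearMap p
    (AddMonoidHom.mk' (fun y => kex_la_val e (lam y)) (fun y y' => by
      rw [ha, kex_la_val_add he (hv y) (hv y')]))

theorem kex_la_lin_apply (he : Function.Injective e) {Y : Type*} [AddCommGroup Y]
    [Module (ZMod p) Y] (lam : Y → A) (ha : ∀ y y', lam (y + y') = lam y + lam y')
    (hv : ∀ y, ∃ c, e c = lam y) (y : Y) :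
    kex_la_lin e he lam ha hv y = kex_la_val e (lam y) := rfl

theorem kex_la_card_le_iff {P : Type*} [AddCommGroup P] [Module (ZMod p) P] [Finite P]
    (I : Submodule (ZMod p) P) :
    Nat.card P ≤ Nat.card I ^ 2 ↔ finrank (ZMod p) P ≤ 2 * finrank (ZMod p) I := by
  have hp : 1 < p := (Fact.out : p.Prime).one_lt
  rw [Module.natCard_eq_pow_finrank (K := ZMod p) (V := P),
    Module.natCard_eq_pow_finrank (K := ZMod p) (V := I), Nat.card_zmod, ← pow_mul,
    Nat.pow_le_pow_iff_right hp, mul_comm]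

/-- **Lagrangian criterion, raw form.** -/
theorem kex_la_lagrangian_raw (he : Function.Injective e) {P : Type*} [AddCommGroup P]
    [Module (ZMod p) P] [Finite P] (B : P → P → A)
    (hl : ∀ t t' y, B (t + t') y = B t y + B t' y)
    (hr : ∀ t y y', B t (y + y') = B t y + B t y')
    (hv : ∀ t y, ∃ c, e c = B t y) (I : Submodule (ZMod p) P)
    (hnd : ∀ i ∈ I, i ≠ 0 → ∃ θ, B θ i ≠ 0)
    (hiso : ∀ i ∈ I, ∀ i' ∈ I, B i i' = 0)
    (hcard : Nat.card P ≤ Nat.card I ^ 2)
    (θ : P) (hθ : ∀ i ∈ I, B θ i = 0) : θ ∈ I := by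
  refine kex_la_lagrangian (kex_la_bil e he B hl hr hv) I ?_ ?_
    ((kex_la_card_le_iff I).1 hcard) θ ?_
  · intro i hi h0
    obtain ⟨θ', hθ'⟩ := hnd i hi h0
    exact ⟨θ', fun h => hθ' ((kex_la_bil_eq_zero_iff e he B hl hr hv θ' i).1 h)⟩
  · intro i hi i' hi'
    exact (kex_la_bil_eq_zero_iff e he B hl hr hv i i').2 (hiso i hi i' hi')
  · intro i hi
    exact (kex_la_bil_eq_zero_iff e he B hl hr hv θ i).2 (hθ i hi)

/-- **Extension of functionals, raw form.** -/
theorem kex_la_extend_raw (he : Function.Injective e) {V Y : Type*} [AddCommGroup V]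
    [Module (ZMod p) V] [Finite V] [AddCommGroup Y] [Module (ZMod p) Y] (μ : V → Y → A)
    (hl : ∀ t t' y, μ (t + t') y = μ t y + μ t' y)
    (hr : ∀ t y y', μ t (y + y') = μ t y + μ t y')
    (hv : ∀ t y, ∃ c, e c = μ t y)
    (lam : Y → A) (ha : ∀ y y', lam (y + y') = lam y + lam y') (hvl : ∀ y, ∃ c, e c = lam y)
    (h : ∀ y, (∀ t, μ t y = 0) → lam y = 0) : ∃ t, ∀ y, lam y = μ t y := by
  obtain ⟨t, ht⟩ := kex_la_extend (kex_la_bil e he μ hl hr hv) (kex_la_lin e he lam ha hvl)
    (fun y hy => by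
      rw [kex_la_lin_apply, kex_la_val_eq_zero_iff he (hvl y)]
      exact h y (fun t => (kex_la_bil_eq_zero_iff e he μ hl hr hv t y).1 (hy t)))
  refine ⟨t, fun y => ?_⟩
  have := ht y
  rw [kex_la_lin_apply, kex_la_bil_apply] at this
  rw [← kex_la_val_spec e (hvl y), this, kex_la_val_spec e (hv t y)]

/-- **Representation of functionals, raw form.** -/
theorem kex_la_represent_raw (he : Function.Injective e) {V Y : Type*} [AddCommGroup V]
    [Module (ZMod p) V] [Finite V] [AddCommGroup Y] [Module (ZMod p) Y] (μ : V → Y → A)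
    (hl : ∀ t t' y, μ (t + t') y = μ t y + μ t' y)
    (hr : ∀ t y y', μ t (y + y') = μ t y + μ t y')
    (hv : ∀ t y, ∃ c, e c = μ t y)
    (Lam : V → A) (ha : ∀ t t', Lam (t + t') = Lam t + Lam t') (hvl : ∀ t, ∃ c, e c = Lam t)
    (h : ∀ t, (∀ y, μ t y = 0) → Lam t = 0) : ∃ y, ∀ t, Lam t = μ t y := by
  obtain ⟨y, hy⟩ := kex_la_represent (kex_la_bil e he μ hl hr hv) (kex_la_lin e he Lam ha hvl)
    (fun t ht => by
      rw [kex_la_lin_apply, kex_la_val_eq_zero_iff he (hvl t)]
      exact h t (fun y => (kex_la_bil_eq_zero_iff e he μ hl hr hv t y).1 (ht y)))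
  refine ⟨y, fun t => ?_⟩
  have := hy t
  rw [kex_la_lin_apply, kex_la_bil_apply] at this
  rw [← kex_la_val_spec e (hvl t), this, kex_la_val_spec e (hv t y)]

end layer1

end Fermat.Agent.S55
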