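/-
S55 (fifth wave), GLOBAL side, part 3, package [E-COH] (owner: helper29): THE TOP.
Prefix `ec_`.  This file: the two extra leaf `Prop`s of the assemblies
  [K-H2-OF]  `eco_AbsH2Statement → ec_LocMupStatement → kl_H2Statement`      (Global/ECohH2.lean)
  [K-H3-OF]  `eco_AbsH3Statement → ec_TransferStatement → kl_H3Statement`    (Global/ECohH3.lean)
(the cut of [E-COH] itself is helper26's `Global/EcohDefs.lean`, prefix `eco_`).
-/
import Mathlib
import Fermat.Agent.S55.Global.EcohDefs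
import Fermat.Agent.S55.Bridge.KDefs

set_option autoImplicit false

namespace Fermat.Agent.S55

open groupCohomology

noncomputable section

/-- **[L-MUP]** local: `H²(V, μ_p) → H²(V, Ωˣ)` is injective.  `V` an open subgroup of
`Gal(Ω_q/ℚ_q)`, `ζ ∈ Ωˣ` a primitive `p`-th root of unity fixed by `V`, `f` a smooth `F_p`-valued
2-cochain of `V` such that `ζ ^ f` is a smooth coboundary: then `f = d b` with `b` a smooth
`F_p`-valued 1-cochain.
(`ζ ^ f = d β`, `β` smooth; `d (β ^ p) = 1`, so `β ^ p = d₀ x` by Hilbert 90 [`lh90_main`],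
`x = y ^ p` in `Ω`; `β / d₀ y` is smooth with `p`-th power `1`, so it is `ζ ^ b`, and
`ζ ^ (d b) = d (β / d₀ y) = ζ ^ f`.) -/
def ec_LocMupStatement : Prop :=
  ∀ (p : ℕ) [Fact p.Prime] (q : ℕ) [Fact q.Prime] (V : Subgroup (lcf_Gal q)), lcf_IsOpen V →
    ∀ ζ : (PadicAlgCl q)ˣ, IsPrimitiveRoot ζ p → (∀ g : ↥V, g • ζ = ζ) →
      ∀ f : ↥V × ↥V → ZMod p, lcf_Smooth₂ V f →
        lcf_IsCob V (fun x => ζ ^ (f x).val) →
        ∃ b : ↥V → ZMod p, lcf_Smooth₁ V b ∧ ∀ x, kl_d₁ b x = f x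

/-- **[E-TRANSFER]** (pure group theory) `P ≤ G` of index prime to `p`, `N ≤ P` normal in `G` of
finite index: a 3-cocycle `z` of `G` with values in `F_p` (trivial action), constant modulo `N`,
whose restriction to `P` is the coboundary of a 2-cochain of `P` constant modulo `N`, is the
coboundary of a 2-cochain of `G` constant modulo `N`.
(Homogeneous cochains on `G/N`: `z = d(ã₁ + k z)` with `P`-invariant cochains (`ã₁ = a₁ ∘ π`,
`π : G → P` a `P`-equivariant retraction, `k` the prism homotopy between `id` and `π`); apply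
`cores = Σ_{c ∈ G/P} c •` and divide by `[G : P]`.) -/
def ec_TransferStatement : Prop :=
  ∀ (p : ℕ) [Fact p.Prime] (G : Type) [Group G] (P N : Subgroup G), N.Normal → N ≤ P →
    N.index ≠ 0 → (P.index).Coprime p →
    ∀ z : G × G × G → ZMod p, kl_IsCoc₃ z →
      (∀ g g' g'' s s' s'' : G, s ∈ N → s' ∈ N → s'' ∈ N →
        z (g * s, g' * s', g'' * s'') = z (g, g', g'')) →
      ∀ a₁ : ↥P × ↥P → ZMod p,
        (∀ g g' s s' : ↥P, (s : G) ∈ N → (s' : G) ∈ N → a₁ (g * s, g' * s') = a₁ (g, g')) →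
        (∀ x : ↥P × ↥P × ↥P, kl_d₂ a₁ x = z ((x.1 : G), (x.2.1 : G), (x.2.2 : G))) →
        ∃ a : G × G → ZMod p,
          (∀ g g' s s' : G, s ∈ N → s' ∈ N → a (g * s, g' * s') = a (g, g')) ∧
            ∀ x, kl_d₂ a x = z x

end

end Fermat.Agent.S55
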