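/-
S55 (fifth wave), GLOBAL side, part 3, package [E-COH] (owner: helper29): tools for the top
assemblies [K-H2-OF], [K-H3-OF].  Prefix `ec_`.

* `ec_pw ζ a = ζ ^ a.val` : the exponential `ZMod p → M` attached to `ζ` with `ζ ^ p = 1`;
* `ec_zeta p` : the fixed global primitive `p`-th root of unity `ld_zeta p`, as a unit of `ℚ̄`;
  `ec_log` : the logarithm on the `p`-th roots of unity of `ℚ̄`;
* `ec_setting` : the hypotheses of the `kl_` targets give `eco_Setting p S K`;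
* the invariant of powers and quotients for an abstract invariant system.
-/
import Mathlib
import Fermat.Agent.S55.Global.ECohTop
import Fermat.Agent.S55.Global.AkUnr
import Fermat.Agent.S55.Local.PtInv

set_option autoImplicit false
set_option linter.style.haveILetI false
set_option linter.unusedSectionVars false

namespace Fermat.Agent.S55

open groupCohomology ExtCitation

noncomputable section

local notation "Qbar" => AlgebraicClosure ℚ

/-! ### The exponential attached to a `p`-th root of unity -/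

section pw

variable {M : Type*} [CommGroup M] {p : ℕ} [Fact p.Prime]

/-- `a ↦ ζ ^ a`, `a ∈ ZMod p`. -/
def ec_pw (ζ : M) (a : ZMod p) : M := ζ ^ a.val

theorem ec_pw_def (ζ : M) (a : ZMod p) : ec_pw ζ a = ζ ^ a.val := rfl

theorem ec_pw_zero (ζ : M) : ec_pw ζ (0 : ZMod p) = 1 := by
  rw [ec_pw, ZMod.val_zero, pow_zero]

theorem ec_pw_add {ζ : M} (hζ : ζ ^ p = 1) (a b : ZMod p) :
    ec_pw ζ (a + b) = ec_pw ζ a * ec_pw ζ b := by
  haveI : NeZero p := ⟨(Fact.out : p.Prime).ne_zero⟩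
  rw [ec_pw, ec_pw, ec_pw, ZMod.val_add, ← pow_add]
  exact (pow_eq_pow_mod _ hζ).symm

theorem ec_pw_neg {ζ : M} (hζ : ζ ^ p = 1) (a : ZMod p) : ec_pw ζ (-a) = (ec_pw ζ a)⁻¹ := by
  apply eq_inv_of_mul_eq_one_left
  rw [← ec_pw_add hζ, neg_add_cancel, ec_pw_zero]

theorem ec_pw_sub {ζ : M} (hζ : ζ ^ p = 1) (a b : ZMod p) :
    ec_pw ζ (a - b) = ec_pw ζ a / ec_pw ζ b := by
  rw [sub_eq_add_neg, ec_pw_add hζ, ec_pw_neg hζ, div_eq_mul_inv]

theorem ec_pw_mul {ζ : M} (hζ : ζ ^ p = 1) (c a : ZMod p) :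
    ec_pw ζ (c * a) = ec_pw (ζ ^ c.val) a := by
  rw [ec_pw, ec_pw, ZMod.val_mul, ← pow_mul]
  exact (pow_eq_pow_mod _ hζ).symm

theorem ec_pw_pow_p {ζ : M} (hζ : ζ ^ p = 1) (a : ZMod p) : ec_pw ζ a ^ p = 1 := by
  rw [ec_pw, ← pow_mul, mul_comm, pow_mul, hζ, one_pow]

theorem ec_pw_nsmul {ζ : M} (hζ : ζ ^ p = 1) (k : ℕ) (a : ZMod p) :
    ec_pw ζ (k • a) = ec_pw ζ a ^ k := by
  induction k with
  | zero => rw [zero_smul, ec_pw_zero, pow_zero]
  | succ k ih => rw [succ_nsmul, ec_pw_add hζ, ih, pow_succ]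

theorem ec_pw_inj {ζ : M} (hζ : IsPrimitiveRoot ζ p) {a b : ZMod p}
    (h : ec_pw ζ a = ec_pw ζ b) : a = b := by
  haveI : NeZero p := ⟨(Fact.out : p.Prime).ne_zero⟩
  have h1 := hζ.pow_inj (ZMod.val_lt a) (ZMod.val_lt b) h
  exact ZMod.val_injective p h1

theorem ec_pw_map {N : Type*} [CommGroup N] (φ : M →* N) (ζ : M) (a : ZMod p) :
    φ (ec_pw ζ a) = ec_pw (φ ζ) a := by
  rw [ec_pw, ec_pw, map_pow]

end pw

/-! ### The global root of unity -/

section zeta

variable (p : ℕ) [Fact p.Prime]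

/-- The fixed primitive `p`-th root of unity of `ℚ̄`, as a unit. -/
def ec_zeta : Qbarˣ :=
  Units.mk0 (ld_zeta p) ((ld_zeta_spec p).ne_zero (Fact.out : p.Prime).ne_zero)

@[simp] theorem ec_zeta_coe : ((ec_zeta p : Qbarˣ) : Qbar) = ld_zeta p := rfl

theorem ec_zeta_prim : IsPrimitiveRoot (ec_zeta p) p := by
  rw [← IsPrimitiveRoot.coe_units_iff]
  exact ld_zeta_spec p

theorem ec_zeta_pow : ec_zeta p ^ p = 1 := (ec_zeta_prim p).pow_eq_one

theorem ec_zeta_mem_roots : ec_zeta p ∈ rootsOfUnity p Qbar := by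
  rw [mem_rootsOfUnity]
  exact ec_zeta_pow p

/-- `g ζ = ζ ^ χ(g)`. -/
theorem ec_zeta_apply (g : s55_GQ) :
    g (ld_zeta p) = ld_zeta p ^ ((cycloChar p g : ZMod p)).val :=
  adm_cyclo_spec p g (ec_zeta_mem_roots p)

/-- every `p`-th root of unity of `ℚ̄` is a power of `ζ`. -/
theorem ec_exists_log (x : Qbarˣ) (hx : x ^ p = 1) : ∃ a : ZMod p, ec_pw (ec_zeta p) a = x := by
  haveI : NeZero p := ⟨(Fact.out : p.Prime).ne_zero⟩
  have hx' : (x : Qbar) ^ p = 1 := by
    rw [← Units.val_pow_eq_pow_val, hx, Units.val_one]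
  obtain ⟨i, hi, hix⟩ := (ld_zeta_spec p).eq_pow_of_pow_eq_one hx'
  refine ⟨(i : ZMod p), ?_⟩
  apply Units.ext
  rw [ec_pw, ZMod.val_natCast, Nat.mod_eq_of_lt hi, Units.val_pow_eq_pow_val, ec_zeta_coe, hix]

/-- The logarithm to the base `ζ` on the `p`-th roots of unity (`0` elsewhere). -/
def ec_log (x : Qbarˣ) : ZMod p :=
  if h : x ^ p = 1 then (ec_exists_log p x h).choose else 0

theorem ec_log_spec (x : Qbarˣ) (hx : x ^ p = 1) : ec_pw (ec_zeta p) (ec_log p x) = x := by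
  rw [ec_log, dif_pos hx]
  exact (ec_exists_log p x hx).choose_spec

theorem ec_log_pw (a : ZMod p) : ec_log p (ec_pw (ec_zeta p) a) = a :=
  ec_pw_inj (ec_zeta_prim p) (ec_log_spec p _ (ec_pw_pow_p (ec_zeta_pow p) a))

variable {p}

/-- `U = G_K` fixes `ζ` if the cyclotomic character is trivial on `U`. -/
theorem ec_smul_zeta {K : IntermediateField ℚ Qbar}
    (hχ : ∀ s ∈ K.fixingSubgroup, cycloChar p s = 1) (g : ↥K.fixingSubgroup) :
    g • ec_zeta p = ec_zeta p := by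
  apply Units.ext
  show (g : s55_GQ) (ld_zeta p) = ld_zeta p
  rw [ec_zeta_apply, hχ _ g.2, Units.val_one, ZMod.val_one, pow_one]

theorem ec_smul_pw {K : IntermediateField ℚ Qbar}
    (hχ : ∀ s ∈ K.fixingSubgroup, cycloChar p s = 1) (g : ↥K.fixingSubgroup) (a : ZMod p) :
    g • ec_pw (ec_zeta p) a = ec_pw (ec_zeta p) a := by
  rw [ec_pw, smul_pow', ec_smul_zeta hχ]

/-- `ζ ∈ K` if the cyclotomic character is trivial on `G_K`. -/
theorem ec_zeta_mem {K : IntermediateField ℚ Qbar}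
    (hχ : ∀ s ∈ K.fixingSubgroup, cycloChar p s = 1) : ld_zeta p ∈ K := by
  haveI : IsGalois ℚ Qbar := by
    have hclos : IsAlgClosure ℚ (AlgebraicClosure ℚ) := AlgebraicClosure.instIsAlgClosure ℚ
    exact inferInstance
  have h1 : ld_zeta p ∈ IntermediateField.fixedField K.fixingSubgroup := by
    rw [IntermediateField.mem_fixedField_iff]
    intro g hg
    rw [ec_zeta_apply, hχ _ hg, Units.val_one, ZMod.val_one, pow_one]
  rwa [InfiniteGalois.fixedField_fixingSubgroup] at h1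

/-- The setting of `Global/EcohDefs.lean` from the hypotheses of the `kl_` targets. -/
theorem ec_setting (hp2 : p ≠ 2) {S : Finset Nat.Primes} (hpS : pPrime p ∈ S)
    {K : IntermediateField ℚ Qbar} (hK : K.IsUnramifiedOutside S)
    (hχ : ∀ s ∈ K.fixingSubgroup, cycloChar p s = 1) : eco_Setting p S K where
  prime := Fact.out
  odd := hp2
  mem := fun q hq => by
    have : q = pPrime p := Subtype.ext hq
    rw [this]
    exact hpS
  unr := hK
  zeta := ⟨ld_zeta p, ld_zeta_spec p, ec_zeta_mem hχ⟩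

end zeta

/-! ### Invariants of products, powers and quotients -/

section inv

variable {inv : lcf_InvType} (hinv : lcf_IsInvSystem inv) {q : ℕ} [Fact q.Prime]
  {V : Subgroup (lcf_Gal q)}

theorem ec_isCoc_one : lcf_IsCoc V (1 : ↥V × ↥V → (PadicAlgCl q)ˣ) := by
  refine ⟨fun g h j => ?_, ⟨⊥, inferInstance, fun _ _ _ _ _ _ => rfl⟩⟩
  simp

theorem ec_isCoc_mul {f f' : ↥V × ↥V → (PadicAlgCl q)ˣ} (hf : lcf_IsCoc V f)
    (hf' : lcf_IsCoc V f') : lcf_IsCoc V (f * f') := by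
  obtain ⟨E, hE, h⟩ := hf.2
  obtain ⟨E', hE', h'⟩ := hf'.2
  haveI := hE
  haveI := hE'
  refine ⟨fun g h j => ?_, ⟨E ⊔ E', IntermediateField.finiteDimensional_sup E E',
    fun g g' s s' hs hs' => ?_⟩⟩
  · simp only [Pi.mul_apply, smul_mul']
    rw [mul_mul_mul_comm, hf.1 g h j, hf'.1 g h j, mul_mul_mul_comm]
  · have hle : (E ⊔ E').fixingSubgroup ≤ E.fixingSubgroup :=
      IntermediateField.fixingSubgroup_le le_sup_left
    have hle' : (E ⊔ E').fixingSubgroup ≤ E'.fixingSubgroup :=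
      IntermediateField.fixingSubgroup_le le_sup_right
    simp only [Pi.mul_apply]
    rw [h g g' s s' (hle hs) (hle hs'), h' g g' s s' (hle' hs) (hle' hs')]

include hinv in
theorem ec_inv_one (hV : lcf_IsOpen V) : inv q V (1 : ↥V × ↥V → (PadicAlgCl q)ˣ) = 0 := by
  have h := hinv.add q V hV 1 1 ec_isCoc_one ec_isCoc_one
  rw [one_mul] at h
  exact (add_eq_left.1 h.symm)

theorem ec_isCoc_pow {f : ↥V × ↥V → (PadicAlgCl q)ˣ} (hf : lcf_IsCoc V f) (k : ℕ) :
    lcf_IsCoc V (f ^ k) := by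
  induction k with
  | zero => rw [pow_zero]; exact ec_isCoc_one
  | succ k ih => rw [pow_succ]; exact ec_isCoc_mul ih hf

include hinv in
theorem ec_inv_pow (hV : lcf_IsOpen V) {f : ↥V × ↥V → (PadicAlgCl q)ˣ} (hf : lcf_IsCoc V f)
    (k : ℕ) : inv q V (f ^ k) = k • inv q V f := by
  induction k with
  | zero => rw [pow_zero, zero_smul]; exact ec_inv_one hinv hV
  | succ k ih =>
    rw [pow_succ, hinv.add q V hV _ _ (ec_isCoc_pow hf k) hf, ih, succ_nsmul]

end inv

end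

end Fermat.Agent.S55
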