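/-
S55 (fifth wave), GLOBAL side, part 3, package [E-COH] (owner: helper29):
the top assembly [K-H2-OF]

    theorem ec_H2_of : eco_AbsH2Statement → ec_LocMupStatement → kl_H2Statement

(`kl_H2Statement` VERBATIM from `Bridge/KDefs.lean`, `eco_AbsH2Statement` VERBATIM from
`Global/EcohDefs.lean`, `ec_LocMupStatement` = [L-MUP] from `Global/ECohTop.lean`).

Route: `T := {(q, g) : q ∈ S, g ∈ R q}` is a place set (`kl_IsReps`), `t (q, g) := kl_inv (α q g)`
has `p • t = 0` and sum zero; [AK-H2] gives a `μ_p`-valued cocycle `c'` of an `S`-level with these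
invariants; `c := log_ζ c'`.  At `(q, g)` the local group `ak_H K q g` is `kl_H K q` (`U` normal),
the localisation of `c'` is `ζ' ^ (c ∘ r)` with `ζ' = ι_q (g ζ) = ζ_loc ^ χ(g)`, the cocycle of
`kl_inv` is `ζ' ^ α`; so `ζ' ^ (c ∘ r - α)` has invariant `0` by (I1), is a smooth coboundary by
(I2), and [L-MUP] applies.
-/
import Mathlib
import Fermat.Agent.S55.Global.ECohExp

set_option autoImplicit false
set_option linter.style.haveILetI false
set_option linter.unusedSectionVars false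
set_option maxHeartbeats 1000000

namespace Fermat.Agent.S55

open groupCohomology ExtCitation

noncomputable section

local notation "Qbar" => AlgebraicClosure ℚ

/-! ### The local group for `U` normal -/

section local_group

variable (K : IntermediateField ℚ Qbar) [hK : K.fixingSubgroup.Normal]
  (q : ℕ) [Fact q.Prime] (g : s55_GQ)

theorem ec_mem_conj_iff (x : s55_GQ) : g⁻¹ * x * g ∈ K.fixingSubgroup ↔ x ∈ K.fixingSubgroup := by
  constructor
  · intro h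
    have h1 := hK.conj_mem _ h g
    have e : g * (g⁻¹ * x * g) * g⁻¹ = x := by group
    rwa [e] at h1
  · intro h
    have h1 := hK.conj_mem _ h g⁻¹
    rwa [inv_inv] at h1

end local_group

section local_group'

variable (K : IntermediateField ℚ Qbar) [hK : K.fixingSubgroup.Normal]
  (q : Nat.Primes) (g : s55_GQ)

/-- For `U` normal the local group at every place above `q` is `kl_H K q`. -/
theorem ec_H_eq : ak_H K (q : ℕ) g = kl_H K q := by
  ext τ
  rw [ak_mem_H_iff, kl_mem_H_iff]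
  exact ec_mem_conj_iff K g _

theorem ec_r_eq (x : ↥(ak_H K (q : ℕ) g)) (x' : ↥(kl_H K q))
    (h : (x : lcf_Gal (q : ℕ)) = x') : ak_r K (q : ℕ) g x = kl_r K q g x' := by
  apply Subtype.ext
  rw [ak_r_coe, kl_r_coe, h]

theorem ec_klH_isOpen (hfin : FiniteDimensional ℚ K) : lcf_IsOpen (kl_H K q) := by
  rw [← ec_H_eq K q 1]
  exact aku_H_isOpen (q : ℕ) K hfin 1

/-- `F_p`-valued cochains of `U` which are constant modulo `G_F`, `F` finite, localise to smooth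
cochains. -/
theorem ec_smooth₂_comp {X : Type*} {F : IntermediateField ℚ Qbar}
    (hF : FiniteDimensional ℚ F) (c : ↥K.fixingSubgroup × ↥K.fixingSubgroup → X)
    (hc : ak_Const₂ K F c) :
    lcf_Smooth₂ (kl_H K q) (fun x => c (kl_r K q g x.1, kl_r K q g x.2)) := by
  obtain ⟨E, hE, hEF⟩ := aku_H_isOpen (q : ℕ) F hF g
  refine ⟨E, hE, fun a b s s' hs hs' => ?_⟩
  have hs1 : ((kl_r K q g s : ↥K.fixingSubgroup) : s55_GQ) ∈ F.fixingSubgroup := by
    rw [kl_r_coe]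
    exact (ak_mem_H_iff F (q : ℕ) g _).1 (hEF hs)
  have hs2 : ((kl_r K q g s' : ↥K.fixingSubgroup) : s55_GQ) ∈ F.fixingSubgroup := by
    rw [kl_r_coe]
    exact (ak_mem_H_iff F (q : ℕ) g _).1 (hEF hs')
  show c (kl_r K q g (a * s), kl_r K q g (b * s')) = c (kl_r K q g a, kl_r K q g b)
  rw [map_mul, map_mul]
  exact hc _ _ _ _ hs1 hs2

end local_group'

/-! ### Cocycles `ζ ^ γ` -/

section expcoc

variable {p : ℕ} [Fact p.Prime] {q : ℕ} [Fact q.Prime] {V : Subgroup (lcf_Gal q)}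

theorem ec_smooth₂_sub {γ γ' : ↥V × ↥V → ZMod p} (h : lcf_Smooth₂ V γ) (h' : lcf_Smooth₂ V γ') :
    lcf_Smooth₂ V (fun x => γ x - γ' x) := by
  obtain ⟨E, hE, h⟩ := h
  obtain ⟨E', hE', h'⟩ := h'
  haveI := hE
  haveI := hE'
  refine ⟨E ⊔ E', IntermediateField.finiteDimensional_sup E E', fun g g' s s' hs hs' => ?_⟩
  have hle : (E ⊔ E').fixingSubgroup ≤ E.fixingSubgroup :=
    IntermediateField.fixingSubgroup_le le_sup_left
  have hle' : (E ⊔ E').fixingSubgroup ≤ E'.fixingSubgroup :=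
    IntermediateField.fixingSubgroup_le le_sup_right
  show γ _ - γ' _ = γ _ - γ' _
  rw [h g g' s s' (hle hs) (hle hs'), h' g g' s s' (hle' hs) (hle' hs')]

theorem ec_isCoc₂_sub {H : Type*} [Mul H] {γ γ' : H × H → ZMod p} (h : kl_IsCoc₂ γ)
    (h' : kl_IsCoc₂ γ') : kl_IsCoc₂ (fun x => γ x - γ' x) := by
  intro a b c
  have e := h a b c
  have e' := h' a b c
  show γ _ - γ' _ + (γ _ - γ' _) = γ _ - γ' _ + (γ _ - γ' _)
  linear_combination e - e'

/-- `ζ ^ γ` is a smooth cocycle for a smooth additive cocycle `γ` and a `V`-fixed `ζ`. -/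
theorem ec_isCoc_pw {ζ : (PadicAlgCl q)ˣ} (hζ : ζ ^ p = 1) (hfix : ∀ τ : ↥V, τ • ζ = ζ)
    {γ : ↥V × ↥V → ZMod p} (hc : kl_IsCoc₂ γ) (hs : lcf_Smooth₂ V γ) :
    lcf_IsCoc V (fun x => ec_pw ζ (γ x)) := by
  refine ⟨fun a b c => ?_, ?_⟩
  · show ec_pw ζ (γ (a * b, c)) * ec_pw ζ (γ (a, b)) =
      a • ec_pw ζ (γ (b, c)) * ec_pw ζ (γ (a, b * c))
    have e1 : a • ec_pw ζ (γ (b, c)) = ec_pw ζ (γ (b, c)) := by
      rw [ec_pw, smul_pow', hfix]
    rw [e1, ← ec_pw_add hζ, ← ec_pw_add hζ, hc a b c]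
  · obtain ⟨E, hE, h⟩ := hs
    exact ⟨E, hE, fun a b s s' hs hs' => by
      show ec_pw ζ (γ _) = ec_pw ζ (γ _)
      rw [h a b s s' hs hs']⟩

end expcoc

/-! ### The place set of a system of representatives -/

section placeset

variable (S : Finset Nat.Primes) (K : IntermediateField ℚ Qbar) (R : ↥S → Finset s55_GQ)

open Classical in
/-- `T = {(q, g) : q ∈ S, g ∈ R q}`. -/
def ec_T : Finset (Nat.Primes × s55_GQ) :=
  S.attach.biUnion (fun q => (R q).image (fun g => ((q : Nat.Primes), g)))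

theorem ec_mem_T (w : Nat.Primes × s55_GQ) :
    w ∈ ec_T S R ↔ ∃ h : w.1 ∈ S, w.2 ∈ R ⟨w.1, h⟩ := by
  classical
  rw [ec_T, Finset.mem_biUnion]
  constructor
  · rintro ⟨q, -, hw⟩
    rw [Finset.mem_image] at hw
    obtain ⟨g, hg, rfl⟩ := hw
    exact ⟨q.2, hg⟩
  · rintro ⟨h, hw⟩
    exact ⟨⟨w.1, h⟩, Finset.mem_attach _ _, Finset.mem_image.2 ⟨w.2, hw, rfl⟩⟩

theorem ec_mk_mem_T (q : ↥S) (g : s55_GQ) (hg : g ∈ R q) : ((q : Nat.Primes), g) ∈ ec_T S R :=
  (ec_mem_T S R _).2 ⟨q.2, hg⟩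

theorem ec_T_isPlaceSet (hR : kl_IsReps S K R) : ak_IsPlaceSet K (ec_T S R) := by
  intro w hw w' hw' hsame
  obtain ⟨h1, hg⟩ := (ec_mem_T S R w).1 hw
  obtain ⟨h1', hg'⟩ := (ec_mem_T S R w').1 hw'
  obtain ⟨hq, τ, u, hu, huw⟩ := hsame
  obtain ⟨w1, w2⟩ := w
  obtain ⟨w1', w2'⟩ := w'
  simp only at hq h1 h1' hg hg' huw
  subst hq
  obtain ⟨g₀, -, huniq⟩ := hR ⟨w1, h1⟩ w2'
  have e1 : w2' = g₀ := huniq w2' ⟨hg', 1, 1, K.fixingSubgroup.one_mem, by simp⟩
  have e2 : w2 = g₀ := huniq w2 ⟨hg, τ, u, hu, huw⟩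
  rw [e1, e2]

theorem ec_sum_T {A : Type*} [AddCommMonoid A] (t : Nat.Primes × s55_GQ → A) :
    ∑ w ∈ ec_T S R, t w = ∑ q : ↥S, ∑ g ∈ R q, t ((q : Nat.Primes), g) := by
  classical
  rw [ec_T, Finset.sum_biUnion]
  · rw [Finset.univ_eq_attach]
    refine Finset.sum_congr rfl fun q _ => ?_
    rw [Finset.sum_image]
    intro a _ b _ hab
    exact (Prod.mk.inj hab).2
  · intro a _ b _ hab
    rw [Function.onFun, Finset.disjoint_left]
    intro w hw hw'
    rw [Finset.mem_image] at hw hw'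
    obtain ⟨g, -, rfl⟩ := hw
    obtain ⟨g', -, h⟩ := hw'
    exact hab (Subtype.ext (Prod.mk.inj h).1.symm)

end placeset

/-! ### The assembly -/

section main

variable {p : ℕ} [Fact p.Prime]

/-- `ι_q (g ζ) = ζ_loc ^ χ(g)`. -/
theorem ec_emb_zeta (q : ℕ) [Fact q.Prime] (g : s55_GQ) :
    ak_emb q g (ec_zeta p) = ld_zetaLoc p q ^ ((cycloChar p g : ZMod p)).val := by
  apply Units.ext
  rw [ak_emb_coe, ec_zeta_coe, ec_zeta_apply, map_pow, Units.val_pow_eq_pow_val]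
  rfl

theorem ec_zetaLoc_prim (q : ℕ) [Fact q.Prime] : IsPrimitiveRoot (ld_zetaLoc p q) p := by
  rw [← IsPrimitiveRoot.coe_units_iff]
  exact (ld_zeta_spec p).map_of_injective (padicEmbedding q).injective

/-- `ζ' = ζ_loc ^ χ(g)` is a primitive `p`-th root of unity. -/
theorem ec_zeta'_prim (q : ℕ) [Fact q.Prime] (g : s55_GQ) :
    IsPrimitiveRoot (ld_zetaLoc p q ^ ((cycloChar p g : ZMod p)).val) p := by
  haveI : NeZero p := ⟨(Fact.out : p.Prime).ne_zero⟩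
  apply (ec_zetaLoc_prim q).pow_of_coprime
  rw [Nat.coprime_comm, (Fact.out : p.Prime).coprime_iff_not_dvd]
  intro hdvd
  have h0 : ((cycloChar p g : (ZMod p)ˣ) : ZMod p) = 0 := by
    have := (ZMod.natCast_eq_zero_iff _ _).2 hdvd
    rwa [ZMod.natCast_val, ZMod.cast_id', id] at this
  exact (cycloChar p g).ne_zero h0

/-- `kl_H K q` fixes `ζ_loc` when the cyclotomic character is trivial on `U`. -/
theorem ec_fix_zetaLoc {K : IntermediateField ℚ Qbar}
    (hχ : ∀ s ∈ K.fixingSubgroup, cycloChar p s = 1) (q : Nat.Primes) (τ : ↥(kl_H K q)) :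
    τ • ld_zetaLoc p (q : ℕ) = ld_zetaLoc p (q : ℕ) := by
  have h := ptinv_zeta_smul p (q : ℕ) (τ : lcf_Gal (q : ℕ))
  rw [hχ _ ((kl_mem_H_iff K q _).1 τ.2), Units.val_one, ZMod.val_one, pow_one] at h
  exact h

/-- **[K-H2-OF]** -/
theorem ec_H2_of (hAbs : eco_AbsH2Statement) (hMup : ec_LocMupStatement) : kl_H2Statement := by
  intro inv hinv p _ hp2 S hpS K hKn hKunr hχ R hR α hα hsum
  classical
  have hset : eco_Setting p S K := ec_setting hp2 hpS hKunr hχ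
  have hKfin : FiniteDimensional ℚ K := hKunr.1
  -- the invariants
  set t : Nat.Primes × s55_GQ → lcf_QZ := fun w =>
    if h : w.1 ∈ S then kl_inv K inv w.1 w.2 (α ⟨w.1, h⟩ w.2) else 0 with ht
  have ht_mk : ∀ (q : ↥S) (g : s55_GQ), t ((q : Nat.Primes), g) =
      kl_inv K inv (q : Nat.Primes) g (α q g) := by
    intro q g
    rw [ht]
    simp only
    rw [dif_pos q.2]
  -- the cocycle of `kl_inv` is `ζ' ^ α`
  have hkl : ∀ (q : ↥S) (g : s55_GQ) (γ : ↥(kl_H K (q : Nat.Primes)) ×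
      ↥(kl_H K (q : Nat.Primes)) → ZMod p),
      kl_inv K inv (q : Nat.Primes) g γ = inv ((q : Nat.Primes) : ℕ) (kl_H K (q : Nat.Primes))
        (fun x => ec_pw (ld_zetaLoc p ((q : Nat.Primes) : ℕ) ^
          ((cycloChar p g : ZMod p)).val) (γ x)) := by
    intro q g γ
    rw [kl_inv]
    congr 1
    funext x
    exact ec_pw_mul (ptinv_zetaLoc_pow p _) _ _
  have hζ'pow : ∀ (q : ↥S) (g : s55_GQ),
      (ld_zetaLoc p ((q : Nat.Primes) : ℕ) ^ ((cycloChar p g : ZMod p)).val) ^ p = 1 :=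
    fun q g => (ec_zeta'_prim _ g).pow_eq_one
  have hζ'fix : ∀ (q : ↥S) (g : s55_GQ) (τ : ↥(kl_H K (q : Nat.Primes))),
      τ • (ld_zetaLoc p ((q : Nat.Primes) : ℕ) ^ ((cycloChar p g : ZMod p)).val) =
        ld_zetaLoc p ((q : Nat.Primes) : ℕ) ^ ((cycloChar p g : ZMod p)).val := by
    intro q g τ
    rw [smul_pow', ec_fix_zetaLoc hχ]
  have hopen : ∀ q : ↥S, lcf_IsOpen (kl_H K (q : Nat.Primes)) :=
    fun q => ec_klH_isOpen K _ hKfin
  -- the hypotheses of [AK-H2]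
  have hT : ak_IsPlaceSet K (ec_T S R) := ec_T_isPlaceSet S K R hR
  have hTS : ∀ w ∈ ec_T S R, w.1 ∈ S := fun w hw => ((ec_mem_T S R w).1 hw).1
  have htp : ∀ w ∈ ec_T S R, p • t w = 0 := by
    intro w hw
    obtain ⟨h1, hg⟩ := (ec_mem_T S R w).1 hw
    have e : t w = kl_inv K inv w.1 w.2 (α ⟨w.1, h1⟩ w.2) := by
      rw [ht]
      simp only
      rw [dif_pos h1]
    rw [e, hkl ⟨w.1, h1⟩ w.2]
    have hcoc := ec_isCoc_pw (hζ'pow ⟨w.1, h1⟩ w.2) (hζ'fix ⟨w.1, h1⟩ w.2)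
      (hα ⟨w.1, h1⟩ w.2 hg).1 (hα ⟨w.1, h1⟩ w.2 hg).2
    rw [← ec_inv_pow hinv (hopen ⟨w.1, h1⟩) hcoc p]
    have e1 : (fun x => ec_pw (ld_zetaLoc p (w.1 : ℕ) ^ ((cycloChar p w.2 : ZMod p)).val)
        (α ⟨w.1, h1⟩ w.2 x)) ^ p = 1 := by
      funext x
      exact ec_pw_pow_p (hζ'pow ⟨w.1, h1⟩ w.2) _
    rw [e1]
    exact ec_inv_one hinv (hopen ⟨w.1, h1⟩)
  have htsum : ∑ w ∈ ec_T S R, t w = 0 := by
    rw [ec_sum_T]
    rw [← hsum]
    refine Finset.sum_congr rfl fun q _ => Finset.sum_congr rfl fun g _ => ?_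
    exact ht_mk q g
  obtain ⟨F, c', hF, hc'coc, hc'lev, hc'p, hc'inv, -⟩ :=
    hAbs inv hinv p S K hset (ec_T S R) hT hTS t htp htsum
  have hFfin : FiniteDimensional ℚ F := hF.lev.fin
  -- the logarithm
  set c : ↥K.fixingSubgroup × ↥K.fixingSubgroup → ZMod p := fun x => ec_log p (c' x) with hc
  have hcspec : ∀ x, ec_pw (ec_zeta p) (c x) = c' x := fun x => ec_log_spec p _ (hc'p x)
  have hcconst : ak_Const₂ K F c := by
    intro g g' s s' hs hs'
    show ec_log p (c' _) = ec_log p (c' _)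
    rw [hc'lev.1 g g' s s' hs hs']
  have hccoc : kl_IsCoc₂ c := by
    intro g h j
    apply ec_pw_inj (ec_zeta_prim p)
    rw [ec_pw_add (ec_zeta_pow p), ec_pw_add (ec_zeta_pow p), hcspec, hcspec, hcspec, hcspec]
    have e := hc'coc g h j
    rw [← hcspec (h, j), ec_smul_pw hχ, hcspec] at e
    exact e
  refine ⟨c, hccoc, ⟨F, hF.unr, fun g g' s s' hs hs' => hcconst g g' s s' hs hs'⟩, ?_⟩
  intro q g hg
  -- local comparison
  have hcr_coc : kl_IsCoc₂ (fun x : ↥(kl_H K (q : Nat.Primes)) × ↥(kl_H K (q : Nat.Primes)) =>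
      c (kl_r K (q : Nat.Primes) g x.1, kl_r K (q : Nat.Primes) g x.2)) := by
    intro a b d
    show c (kl_r K _ g (a * b), kl_r K _ g d) + c (kl_r K _ g a, kl_r K _ g b) =
      c (kl_r K _ g b, kl_r K _ g d) + c (kl_r K _ g a, kl_r K _ g (b * d))
    rw [map_mul, map_mul]
    exact hccoc _ _ _
  have hcr_sm := ec_smooth₂_comp K (q : Nat.Primes) g hFfin c hcconst
  have h1 : ak_invP K inv ((q : Nat.Primes), g) c' =
      inv ((q : Nat.Primes) : ℕ) (kl_H K (q : Nat.Primes))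
        (fun x => ec_pw (ld_zetaLoc p ((q : Nat.Primes) : ℕ) ^ ((cycloChar p g : ZMod p)).val)
          (c (kl_r K (q : Nat.Primes) g x.1, kl_r K (q : Nat.Primes) g x.2))) := by
    show inv ((q : Nat.Primes) : ℕ) (ak_H K ((q : Nat.Primes) : ℕ) g)
      (ak_loc₂ K ((q : Nat.Primes) : ℕ) g c') = _
    apply ak_inv_congr inv ((q : Nat.Primes) : ℕ) (ec_H_eq K (q : Nat.Primes) g)
    intro x y x' y' hx hy
    rw [aku_loc₂_apply, ec_r_eq K (q : Nat.Primes) g x x' hx, ec_r_eq K (q : Nat.Primes) g y y' hy,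
      ← hcspec, ec_pw_map, ec_emb_zeta]
  have h2 := hc'inv _ (ec_mk_mem_T S R q g hg)
  rw [h1, ht_mk q g, hkl q g] at h2
  -- the difference has invariant zero
  have hd_coc := ec_isCoc_pw (hζ'pow q g) (hζ'fix q g)
    (ec_isCoc₂_sub hcr_coc (hα q g hg).1) (ec_smooth₂_sub hcr_sm (hα q g hg).2)
  have hα_coc := ec_isCoc_pw (hζ'pow q g) (hζ'fix q g) (hα q g hg).1 (hα q g hg).2
  have hadd := hinv.add _ _ (hopen q) _ _ hd_coc hα_coc
  have emul : ((fun x => ec_pw (ld_zetaLoc p ((q : Nat.Primes) : ℕ) ^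
        ((cycloChar p g : ZMod p)).val)
        (c (kl_r K (q : Nat.Primes) g x.1, kl_r K (q : Nat.Primes) g x.2) - α q g x)) *
      fun x => ec_pw (ld_zetaLoc p ((q : Nat.Primes) : ℕ) ^ ((cycloChar p g : ZMod p)).val)
        (α q g x)) =
      fun x => ec_pw (ld_zetaLoc p ((q : Nat.Primes) : ℕ) ^ ((cycloChar p g : ZMod p)).val)
        (c (kl_r K (q : Nat.Primes) g x.1, kl_r K (q : Nat.Primes) g x.2)) := by
    funext x
    rw [Pi.mul_apply, ← ec_pw_add (hζ'pow q g), sub_add_cancel]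
  rw [emul, h2] at hadd
  have hzero := add_eq_right.1 hadd.symm
  have hcob := (hinv.eq_zero_iff _ _ (hopen q) _ hd_coc).1 hzero
  obtain ⟨b, hbs, hb⟩ := hMup p ((q : Nat.Primes) : ℕ) (kl_H K (q : Nat.Primes)) (hopen q)
    _ (ec_zeta'_prim _ g) (hζ'fix q g) _ (ec_smooth₂_sub hcr_sm (hα q g hg).2) hcob
  exact ⟨b, hbs, fun τ τ' => (hb (τ, τ')).symm⟩

end main

end

end Fermat.Agent.S55
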