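/-
S55 (Poitou-Tate), GLOBAL side, assembly [KEX-MAIN-OF] of the cut of [K-EX] (helper20), part 1:
tools.  Prefix `kxm_`.

* `kxm_b` : the local pairing `b_w (θ, η) = kl_inv K inv q g (θ ∪ η)` at the place `w = (q, g)`;
  `kxm_b_eq` (it is the pairing of [KEX-PAIR] for `ζ' = ζ_loc ^ χ(g)`), bi-additivity
  (`kxm_b_add_left`, `kxm_b_add_right`, from `kex_PairStatement`), `kxm_b_zero_left`,
  `kxm_b_sub_left`, `kxm_b_range` (the values are `p`-torsion, hence in the image of `ptinv_e`);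
* closure properties of characters / smooth functions / unramified functions;
* `kxm_hom_comp`, `kxm_smooth_comp` : localisation of level-`S` characters;
* `kxm_unr_conj` : "unramified at the representatives ⟹ unramified at all `g`";
* `kxm_finite_Theta` : finiteness of the smooth characters of `kl_H K q`;
* `kxm_sum_restrict` : sums over `↥S'` supported on `S ⊆ S'`.
-/
import Mathlib
import Fermat.Agent.S55.Global.KExDefs
import Fermat.Agent.S55.Global.KExPair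
import Fermat.Agent.S55.Global.ECohH2
import Fermat.Agent.S55.Local.ConjUnr
import Fermat.Agent.S55.Local.FinKpHom

set_option autoImplicit false
set_option linter.style.haveILetI false
set_option linter.unusedSectionVars false
set_option linter.unusedVariables false
set_option maxHeartbeats 1000000
set_option synthInstance.maxHeartbeats 400000
open CategoryTheory Module groupCohomology ExtCitation

noncomputable section

namespace Fermat.Agent.S55

local notation "Qbar" => AlgebraicClosure ℚ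

/-! ### Characters, smooth and unramified functions -/

section closure

variable {p : ℕ} [Fact p.Prime]

theorem kxm_hom_zero {H : Type*} [Mul H] : kl_IsHom (0 : H → ZMod p) :=
  fun _ _ => (add_zero (0 : ZMod p)).symm

theorem kxm_hom_add {H : Type*} [Mul H] {θ θ' : H → ZMod p} (h : kl_IsHom θ)
    (h' : kl_IsHom θ') : kl_IsHom (θ + θ') := by
  intro a b
  show θ (a * b) + θ' (a * b) = θ a + θ' a + (θ b + θ' b)
  rw [h a b, h' a b]
  abel

theorem kxm_hom_smul {H : Type*} [Mul H] {θ : H → ZMod p} (c : ZMod p) (h : kl_IsHom θ) :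
    kl_IsHom (c • θ) := by
  intro a b
  show c * θ (a * b) = c * θ a + c * θ b
  rw [h a b, mul_add]

theorem kxm_hom_neg {H : Type*} [Mul H] {θ : H → ZMod p} (h : kl_IsHom θ) :
    kl_IsHom (-θ) := by
  intro a b
  show -θ (a * b) = -θ a + -θ b
  rw [h a b]
  abel

theorem kxm_hom_sub {H : Type*} [Mul H] {θ θ' : H → ZMod p} (h : kl_IsHom θ)
    (h' : kl_IsHom θ') : kl_IsHom (θ - θ') := by
  rw [sub_eq_add_neg]
  exact kxm_hom_add h (kxm_hom_neg h')

theorem kxm_hom_one {H : Type*} [Group H] {θ : H → ZMod p} (h : kl_IsHom θ) : θ 1 = 0 := by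
  have h1 := h 1 1
  rw [mul_one] at h1
  exact left_eq_add.1 h1

theorem kxm_hom_inv {H : Type*} [Group H] {θ : H → ZMod p} (h : kl_IsHom θ) (a : H) :
    θ a⁻¹ = -θ a := by
  have h1 := h a⁻¹ a
  rw [inv_mul_cancel, kxm_hom_one h] at h1
  exact eq_neg_of_add_eq_zero_left h1.symm

theorem kxm_hom_conj {H : Type*} [Group H] {θ : H → ZMod p} (h : kl_IsHom θ) (u a : H) :
    θ (u⁻¹ * a * u) = θ a := by
  rw [h, h, kxm_hom_inv h]
  abel

variable {q : ℕ} [Fact q.Prime] {U : Subgroup (lcf_Gal q)}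

theorem kxm_smooth_zero : lcf_Smooth₁ U (0 : ↥U → ZMod p) :=
  ⟨⊥, inferInstance, fun _ _ _ => rfl⟩

theorem kxm_smooth_add {θ θ' : ↥U → ZMod p} (h : lcf_Smooth₁ U θ) (h' : lcf_Smooth₁ U θ') :
    lcf_Smooth₁ U (θ + θ') := by
  obtain ⟨E, hE, hθ⟩ := h
  obtain ⟨E', hE', hθ'⟩ := h'
  haveI := hE
  haveI := hE'
  refine ⟨E ⊔ E', IntermediateField.finiteDimensional_sup E E', fun g s hs => ?_⟩
  show θ (g * s) + θ' (g * s) = θ g + θ' g
  rw [hθ g s (IntermediateField.fixingSubgroup_antitone le_sup_left hs),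
    hθ' g s (IntermediateField.fixingSubgroup_antitone le_sup_right hs)]

theorem kxm_smooth_smul {θ : ↥U → ZMod p} (c : ZMod p) (h : lcf_Smooth₁ U θ) :
    lcf_Smooth₁ U (c • θ) := by
  obtain ⟨E, hE, hθ⟩ := h
  refine ⟨E, hE, fun g s hs => ?_⟩
  show c * θ (g * s) = c * θ g
  rw [hθ g s hs]

theorem kxm_smooth_neg {θ : ↥U → ZMod p} (h : lcf_Smooth₁ U θ) : lcf_Smooth₁ U (-θ) := by
  obtain ⟨E, hE, hθ⟩ := h
  refine ⟨E, hE, fun g s hs => ?_⟩
  show -θ (g * s) = -θ g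
  rw [hθ g s hs]

theorem kxm_smooth_sub {θ θ' : ↥U → ZMod p} (h : lcf_Smooth₁ U θ) (h' : lcf_Smooth₁ U θ') :
    lcf_Smooth₁ U (θ - θ') := by
  rw [sub_eq_add_neg]
  exact kxm_smooth_add h (kxm_smooth_neg h')

theorem kxm_unr_zero : kex_IsUnr U (0 : ↥U → ZMod p) := fun _ _ => rfl

theorem kxm_unr_add {θ θ' : ↥U → ZMod p} (h : kex_IsUnr U θ) (h' : kex_IsUnr U θ') :
    kex_IsUnr U (θ + θ') := by
  intro s hs
  show θ s + θ' s = 0
  rw [h s hs, h' s hs, add_zero]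

theorem kxm_unr_smul {θ : ↥U → ZMod p} (c : ZMod p) (h : kex_IsUnr U θ) :
    kex_IsUnr U (c • θ) := by
  intro s hs
  show c * θ s = 0
  rw [h s hs, mul_zero]

theorem kxm_unr_neg {θ : ↥U → ZMod p} (h : kex_IsUnr U θ) : kex_IsUnr U (-θ) := by
  intro s hs
  show -θ s = 0
  rw [h s hs, neg_zero]

end closure

/-! ### The local pairing -/

section pairing

variable {p : ℕ} [Fact p.Prime] (K : IntermediateField ℚ Qbar) [hKn : K.fixingSubgroup.Normal]

/-- The local pairing at the place `(q, g)`. -/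
def kxm_b (inv : lcf_InvType) (q : Nat.Primes) (g : s55_GQ)
    (θ η : ↥(kl_H K q) → ZMod p) : lcf_QZ :=
  kl_inv K inv q g (fun x => θ x.1 * η x.2)

/-- `ζ' = ζ_loc ^ χ(g)`. -/
def kxm_zeta (p : ℕ) [Fact p.Prime] (q : Nat.Primes) (g : s55_GQ) : (PadicAlgCl (q : ℕ))ˣ :=
  ld_zetaLoc p (q : ℕ) ^ ((cycloChar p g : (ZMod p)ˣ) : ZMod p).val

theorem kxm_zeta_prim (q : Nat.Primes) (g : s55_GQ) : IsPrimitiveRoot (kxm_zeta p q g) p :=
  ec_zeta'_prim (q : ℕ) g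

theorem kxm_zeta_fix (hχ : ∀ s ∈ K.fixingSubgroup, cycloChar p s = 1) (q : Nat.Primes)
    (g : s55_GQ) (τ : ↥(kl_H K q)) : τ • kxm_zeta p q g = kxm_zeta p q g := by
  unfold kxm_zeta
  rw [smul_pow', ec_fix_zetaLoc hχ q τ]

theorem kxm_b_eq (inv : lcf_InvType) (q : Nat.Primes) (g : s55_GQ)
    (θ η : ↥(kl_H K q) → ZMod p) :
    kxm_b K inv q g θ η =
      inv (q : ℕ) (kl_H K q) (fun x => kxm_zeta p q g ^ (θ x.1 * η x.2).val) := by
  unfold kxm_b kl_inv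
  congr 1
  funext x
  exact ec_pw_mul (ptinv_zetaLoc_pow p _) _ _

variable {K}

theorem kxm_b_add_left (hP : kex_PairStatement) {inv : lcf_InvType}
    (hinv : lcf_IsInvSystem inv) (hp2 : p ≠ 2) (hfin : FiniteDimensional ℚ K)
    (hχ : ∀ s ∈ K.fixingSubgroup, cycloChar p s = 1) (q : Nat.Primes) (g : s55_GQ)
    {θ θ' η : ↥(kl_H K q) → ZMod p} (hθ : kl_IsHom θ) (hθs : lcf_Smooth₁ (kl_H K q) θ)
    (hθ' : kl_IsHom θ') (hθ's : lcf_Smooth₁ (kl_H K q) θ')
    (hη : kl_IsHom η) (hηs : lcf_Smooth₁ (kl_H K q) η) :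
    kxm_b K inv q g (θ + θ') η = kxm_b K inv q g θ η + kxm_b K inv q g θ' η := by
  rw [kxm_b_eq, kxm_b_eq, kxm_b_eq]
  exact (hP inv hinv (q : ℕ) p hp2 (kl_H K q) (ec_klH_isOpen K q hfin) (kxm_zeta p q g)
    (kxm_zeta_prim q g) (kxm_zeta_fix K hχ q g)).1 θ θ' η hθ hθs hθ' hθ's hη hηs

theorem kxm_b_add_right (hP : kex_PairStatement) {inv : lcf_InvType}
    (hinv : lcf_IsInvSystem inv) (hp2 : p ≠ 2) (hfin : FiniteDimensional ℚ K)
    (hχ : ∀ s ∈ K.fixingSubgroup, cycloChar p s = 1) (q : Nat.Primes) (g : s55_GQ)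
    {θ η η' : ↥(kl_H K q) → ZMod p} (hθ : kl_IsHom θ) (hθs : lcf_Smooth₁ (kl_H K q) θ)
    (hη : kl_IsHom η) (hηs : lcf_Smooth₁ (kl_H K q) η)
    (hη' : kl_IsHom η') (hη's : lcf_Smooth₁ (kl_H K q) η') :
    kxm_b K inv q g θ (η + η') = kxm_b K inv q g θ η + kxm_b K inv q g θ η' := by
  rw [kxm_b_eq, kxm_b_eq, kxm_b_eq]
  exact (hP inv hinv (q : ℕ) p hp2 (kl_H K q) (ec_klH_isOpen K q hfin) (kxm_zeta p q g)
    (kxm_zeta_prim q g) (kxm_zeta_fix K hχ q g)).2.1 θ η η' hθ hθs hη hηs hη' hη's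

theorem kxm_b_zero_left (hP : kex_PairStatement) {inv : lcf_InvType}
    (hinv : lcf_IsInvSystem inv) (hp2 : p ≠ 2) (hfin : FiniteDimensional ℚ K)
    (hχ : ∀ s ∈ K.fixingSubgroup, cycloChar p s = 1) (q : Nat.Primes) (g : s55_GQ)
    {η : ↥(kl_H K q) → ZMod p} (hη : kl_IsHom η) (hηs : lcf_Smooth₁ (kl_H K q) η) :
    kxm_b K inv q g 0 η = 0 := by
  have h := kxm_b_add_left hP hinv hp2 hfin hχ q g (θ := 0) (θ' := 0) kxm_hom_zero
    kxm_smooth_zero kxm_hom_zero kxm_smooth_zero hη hηs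
  rw [add_zero] at h
  exact left_eq_add.1 h

theorem kxm_b_sub_left (hP : kex_PairStatement) {inv : lcf_InvType}
    (hinv : lcf_IsInvSystem inv) (hp2 : p ≠ 2) (hfin : FiniteDimensional ℚ K)
    (hχ : ∀ s ∈ K.fixingSubgroup, cycloChar p s = 1) (q : Nat.Primes) (g : s55_GQ)
    {θ θ' η : ↥(kl_H K q) → ZMod p} (hθ : kl_IsHom θ) (hθs : lcf_Smooth₁ (kl_H K q) θ)
    (hθ' : kl_IsHom θ') (hθ's : lcf_Smooth₁ (kl_H K q) θ')
    (hη : kl_IsHom η) (hηs : lcf_Smooth₁ (kl_H K q) η) :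
    kxm_b K inv q g (θ - θ') η = kxm_b K inv q g θ η - kxm_b K inv q g θ' η := by
  have h := kxm_b_add_left hP hinv hp2 hfin hχ q g (kxm_hom_sub hθ hθ')
    (kxm_smooth_sub hθs hθ's) hθ' hθ's hη hηs
  rw [sub_add_cancel] at h
  rw [h, add_sub_cancel_right]

/-- The values of the local pairing are `p`-torsion, hence in the image of `ptinv_e`. -/
theorem kxm_b_range {inv : lcf_InvType}
    (hinv : lcf_IsInvSystem inv) (hfin : FiniteDimensional ℚ K)
    (hχ : ∀ s ∈ K.fixingSubgroup, cycloChar p s = 1) (q : Nat.Primes) (g : s55_GQ)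
    {θ η : ↥(kl_H K q) → ZMod p} (hθ : kl_IsHom θ) (hθs : lcf_Smooth₁ (kl_H K q) θ)
    (hη : kl_IsHom η) (hηs : lcf_Smooth₁ (kl_H K q) η) :
    ∃ c : ZMod p, ptinv_e p c = kxm_b K inv q g θ η := by
  apply ptinv_e_range
  rw [kxm_b_eq]
  have hcoc := kxp_isCoc (kl_H K q) (kxm_zeta_prim (p := p) q g) (kxm_zeta_fix K hχ q g) θ η
    hθ hθs hη hηs
  rw [← ec_inv_pow hinv (ec_klH_isOpen K q hfin) hcoc p]
  have h1 : (fun x : ↥(kl_H K q) × ↥(kl_H K q) => kxm_zeta p q g ^ (θ x.1 * η x.2).val) ^ p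
      = 1 := by
    funext x
    show (kxm_zeta p q g ^ (θ x.1 * η x.2).val) ^ p = 1
    rw [← pow_mul, mul_comm, pow_mul, (kxm_zeta_prim (p := p) q g).pow_eq_one, one_pow]
  rw [h1]
  exact ec_inv_one hinv (ec_klH_isOpen K q hfin)

end pairing

/-! ### Localisation of level-`S` characters -/

section loc

variable {p : ℕ} [Fact p.Prime] (K : IntermediateField ℚ Qbar) [hKn : K.fixingSubgroup.Normal]

theorem kxm_hom_comp {y : ↥K.fixingSubgroup → ZMod p} (hy : kl_IsHom y) (q : Nat.Primes)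
    (g : s55_GQ) : kl_IsHom (fun τ : ↥(kl_H K q) => y (kl_r K q g τ)) := by
  intro a b
  show y (kl_r K q g (a * b)) = y (kl_r K q g a) + y (kl_r K q g b)
  rw [map_mul, hy]

theorem kxm_smooth_comp {S : Finset Nat.Primes} {y : ↥K.fixingSubgroup → ZMod p}
    (hy : kl_LevelS₁ S K y) (q : Nat.Primes) (g : s55_GQ) :
    lcf_Smooth₁ (kl_H K q) (fun τ : ↥(kl_H K q) => y (kl_r K q g τ)) := by
  obtain ⟨F, hF, hyF⟩ := hy
  obtain ⟨E, hE, hEF⟩ := aku_H_isOpen (q : ℕ) F hF.1 g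
  refine ⟨E, hE, fun a s hs => ?_⟩
  have hs1 : ((kl_r K q g s : ↥K.fixingSubgroup) : s55_GQ) ∈ F.fixingSubgroup := by
    rw [kl_r_coe]
    exact (ak_mem_H_iff F (q : ℕ) g _).1 (hEF hs)
  show y (kl_r K q g (a * s)) = y (kl_r K q g a)
  rw [map_mul]
  exact hyF _ _ hs1

/-- Unramified at one representative of a place ⟹ unramified at every `g` defining it. -/
theorem kxm_unr_conj {y : ↥K.fixingSubgroup → ZMod p} (hy : kl_IsHom y) (q : Nat.Primes)
    (g₀ g : s55_GQ) (τ : lcf_Gal (q : ℕ)) (u : s55_GQ) (hu : u ∈ K.fixingSubgroup)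
    (hg : g = localGaloisToGlobal (q : ℕ) τ * g₀ * u)
    (h : kex_IsUnr (kl_H K q) (fun s : ↥(kl_H K q) => y (kl_r K q g₀ s))) :
    kex_IsUnr (kl_H K q) (fun s : ↥(kl_H K q) => y (kl_r K q g s)) := by
  intro s hs
  have hs' : τ⁻¹ * (s : lcf_Gal (q : ℕ)) * τ ∈ kl_H K q := by
    rw [kl_mem_H_iff, map_mul, map_mul, map_inv]
    have h1 := hKn.conj_mem _ ((kl_mem_H_iff K q _).1 s.2)
      (localGaloisToGlobal (q : ℕ) τ)⁻¹
    rwa [inv_inv] at h1
  have h0 := h ⟨τ⁻¹ * (s : lcf_Gal (q : ℕ)) * τ, hs'⟩ (lconj_isInert τ _ hs)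
  have e : kl_r K q g s =
      (⟨u, hu⟩ : ↥K.fixingSubgroup)⁻¹ * kl_r K q g₀ ⟨τ⁻¹ * (s : lcf_Gal (q : ℕ)) * τ, hs'⟩ *
        ⟨u, hu⟩ := by
    apply Subtype.ext
    rw [kl_r_coe, Subgroup.coe_mul, Subgroup.coe_mul, Subgroup.coe_inv, kl_r_coe, hg]
    simp only [map_mul, map_inv]
    group
  show y (kl_r K q g s) = 0
  rw [e, kxm_hom_conj hy]
  exact h0

end loc

/-! ### Finiteness of the smooth characters -/

section fin

variable {p : ℕ} [Fact p.Prime] {q : ℕ} [Fact q.Prime]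

theorem kxm_finite_Theta (U : Subgroup (lcf_Gal q)) (hU : lcf_IsOpen U) :
    Finite {θ : ↥U → ZMod p // kl_IsHom θ ∧ lcf_Smooth₁ U θ} := by
  have h := lfk_finHom q p U hU
  haveI : Finite ↥{θ : ↥U →* Multiplicative (ZMod p) | lcf_Smooth₁ U θ} := h.to_subtype
  let f : {θ : ↥U → ZMod p // kl_IsHom θ ∧ lcf_Smooth₁ U θ} →
      ↥{θ : ↥U →* Multiplicative (ZMod p) | lcf_Smooth₁ U θ} := fun θ =>
    ⟨{ toFun := fun g => Multiplicative.ofAdd (θ.1 g)
       map_one' := by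
        show Multiplicative.ofAdd (θ.1 1) = 1
        rw [kxm_hom_one θ.2.1]
        rfl
       map_mul' := fun a b => by
        show Multiplicative.ofAdd (θ.1 (a * b)) =
          Multiplicative.ofAdd (θ.1 a) * Multiplicative.ofAdd (θ.1 b)
        rw [θ.2.1 a b]
        rfl }, by
      obtain ⟨E, hE, hθ⟩ := θ.2.2
      exact ⟨E, hE, fun g s hs => congrArg Multiplicative.ofAdd (hθ g s hs)⟩⟩
  refine Finite.of_injective f ?_
  intro θ θ' hθθ'
  apply Subtype.ext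
  funext g
  have h1 := congrArg (fun φ : ↥{θ : ↥U →* Multiplicative (ZMod p) | lcf_Smooth₁ U θ} =>
    Multiplicative.toAdd ((φ : ↥U →* Multiplicative (ZMod p)) g)) hθθ'
  exact h1

end fin

/-! ### Sums over `↥S'` supported on `S ⊆ S'` -/

theorem kxm_sum_restrict {S S' : Finset Nat.Primes} (hSS' : S ⊆ S') {A : Type*}
    [AddCommMonoid A] (G : ↥S → A) :
    ∑ q : ↥S', (if h : (q : Nat.Primes) ∈ S then G ⟨(q : Nat.Primes), h⟩ else 0) =
      ∑ q : ↥S, G q := by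
  classical
  have h1 : ∑ q : ↥S', (if h : (q : Nat.Primes) ∈ S then G ⟨(q : Nat.Primes), h⟩ else 0) =
      ∑ q ∈ S', (if h : q ∈ S then G ⟨q, h⟩ else 0) :=
    Finset.sum_coe_sort S' (fun q : Nat.Primes => if h : q ∈ S then G ⟨q, h⟩ else 0)
  have h2 : ∑ q ∈ S, (if h : q ∈ S then G ⟨q, h⟩ else 0) =
      ∑ q ∈ S', (if h : q ∈ S then G ⟨q, h⟩ else 0) :=
    Finset.sum_subset hSS' (fun q _ hq => dif_neg hq)
  have h3 : ∑ q : ↥S, (if h : (q : Nat.Primes) ∈ S then G ⟨(q : Nat.Primes), h⟩ else 0) =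
      ∑ q ∈ S, (if h : q ∈ S then G ⟨q, h⟩ else 0) :=
    Finset.sum_coe_sort S (fun q : Nat.Primes => if h : q ∈ S then G ⟨q, h⟩ else 0)
  rw [h1, ← h2, ← h3]
  refine Finset.sum_congr rfl fun q _ => ?_
  rw [dif_pos q.2]

end Fermat.Agent.S55
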