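/-
S55 (Poitou-Tate), GLOBAL side, assembly [KEX-MAIN-OF] of the cut of [K-EX] (helper20), part 2:
the two spaces of the linear algebra.  Prefix `kxm_`.

* `kxm_Y p S K` : the level-`S` characters of `U = G_K`, a submodule of `U → F_p`;
* `kxm_V p S K R'` : the families `(t_{q,g})` of unramified smooth characters of `kl_H K q`,
  supported on the places `(q, g)`, `q ∈ S' \ S`, `g ∈ R' q`; a FINITE submodule;
* `kxm_single` : the family supported at one place.
-/
import Mathlib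
import Fermat.Agent.S55.Global.KExMainOfTools

set_option autoImplicit false
set_option linter.style.haveILetI false
set_option linter.unusedSectionVars false
set_option linter.unusedVariables false
set_option maxHeartbeats 1000000
set_option synthInstance.maxHeartbeats 400000
open CategoryTheory Module groupCohomology ExtCitation

noncomputable section

namespace Fermat.Agent.S55

local notation "Qbar" => AlgebraicClosure ℚ

section spaces

variable (p : ℕ) [Fact p.Prime] (S : Finset Nat.Primes) (K : IntermediateField ℚ Qbar)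
  [hKn : K.fixingSubgroup.Normal]

/-- The level-`S` characters of `U`. -/
def kxm_Y : Submodule (ZMod p) (↥K.fixingSubgroup → ZMod p) where
  carrier := {y | kl_IsHom y ∧ kl_LevelS₁ S K y}
  zero_mem' := ⟨kxm_hom_zero, ⟨⊥, IntermediateField.isUnramifiedOutside_bot S,
    fun _ _ _ => rfl⟩⟩
  add_mem' := by
    rintro y y' ⟨hy, F, hF, hyF⟩ ⟨hy', F', hF', hyF'⟩
    refine ⟨kxm_hom_add hy hy', ⟨F ⊔ F', hF.sup hF', fun g s hs => ?_⟩⟩
    show y (g * s) + y' (g * s) = y g + y' g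
    rw [hyF g s (IntermediateField.fixingSubgroup_antitone le_sup_left hs),
      hyF' g s (IntermediateField.fixingSubgroup_antitone le_sup_right hs)]
  smul_mem' := by
    rintro c y ⟨hy, F, hF, hyF⟩
    refine ⟨kxm_hom_smul c hy, ⟨F, hF, fun g s hs => ?_⟩⟩
    show c * y (g * s) = c * y g
    rw [hyF g s hs]

variable {p S K}

theorem kxm_mem_Y {y : ↥K.fixingSubgroup → ZMod p} :
    y ∈ kxm_Y p S K ↔ kl_IsHom y ∧ kl_LevelS₁ S K y := Iff.rfl

variable (p S K)

/-- The families of unramified smooth characters supported above `S' \ S`. -/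
def kxm_V {S' : Finset Nat.Primes} (R' : ↥S' → Finset s55_GQ) :
    Submodule (ZMod p) (∀ q : ↥S', s55_GQ → ↥(kl_H K (q : Nat.Primes)) → ZMod p) where
  carrier := {t | ∀ (q : ↥S') (g : s55_GQ), kl_IsHom (t q g) ∧
    lcf_Smooth₁ (kl_H K (q : Nat.Primes)) (t q g) ∧ kex_IsUnr (kl_H K (q : Nat.Primes)) (t q g) ∧
    (((q : Nat.Primes) ∈ S ∨ g ∉ R' q) → t q g = 0)}
  zero_mem' := fun _ _ => ⟨kxm_hom_zero, kxm_smooth_zero, kxm_unr_zero, fun _ => rfl⟩
  add_mem' := by
    intro t t' ht ht' q g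
    obtain ⟨h1, h2, h3, h4⟩ := ht q g
    obtain ⟨h1', h2', h3', h4'⟩ := ht' q g
    refine ⟨kxm_hom_add h1 h1', kxm_smooth_add h2 h2', kxm_unr_add h3 h3', fun h => ?_⟩
    show t q g + t' q g = 0
    rw [h4 h, h4' h, add_zero]
  smul_mem' := by
    intro c t ht q g
    obtain ⟨h1, h2, h3, h4⟩ := ht q g
    refine ⟨kxm_hom_smul c h1, kxm_smooth_smul c h2, kxm_unr_smul c h3, fun h => ?_⟩
    show c • t q g = 0
    rw [h4 h, smul_zero]

variable {p S K}

theorem kxm_mem_V {S' : Finset Nat.Primes} {R' : ↥S' → Finset s55_GQ}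
    {t : ∀ q : ↥S', s55_GQ → ↥(kl_H K (q : Nat.Primes)) → ZMod p} :
    t ∈ kxm_V p S K R' ↔ ∀ (q : ↥S') (g : s55_GQ), kl_IsHom (t q g) ∧
      lcf_Smooth₁ (kl_H K (q : Nat.Primes)) (t q g) ∧
      kex_IsUnr (kl_H K (q : Nat.Primes)) (t q g) ∧
      (((q : Nat.Primes) ∈ S ∨ g ∉ R' q) → t q g = 0) := Iff.rfl

/-- `kxm_V` is finite. -/
theorem kxm_finite_V (hfin : FiniteDimensional ℚ K) {S' : Finset Nat.Primes}
    (R' : ↥S' → Finset s55_GQ) : Finite ↥(kxm_V p S K R') := by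
  classical
  haveI : ∀ q : ↥S', Finite {θ : ↥(kl_H K (q : Nat.Primes)) → ZMod p //
      kl_IsHom θ ∧ lcf_Smooth₁ (kl_H K (q : Nat.Primes)) θ} :=
    fun q => kxm_finite_Theta (kl_H K (q : Nat.Primes)) (ec_klH_isOpen K (q : Nat.Primes) hfin)
  let f : ↥(kxm_V p S K R') → (∀ (q : ↥S') (g : ↥(R' q)),
      {θ : ↥(kl_H K (q : Nat.Primes)) → ZMod p //
        kl_IsHom θ ∧ lcf_Smooth₁ (kl_H K (q : Nat.Primes)) θ}) :=
    fun t q g => ⟨t.1 q g.1, (t.2 q g.1).1, (t.2 q g.1).2.1⟩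
  refine Finite.of_injective f ?_
  intro t t' htt'
  apply Subtype.ext
  funext q g
  by_cases hg : g ∈ R' q
  · have h1 := congrFun (congrFun htt' q) ⟨g, hg⟩
    exact congrArg Subtype.val h1
  · rw [(t.2 q g).2.2.2 (Or.inr hg), (t'.2 q g).2.2.2 (Or.inr hg)]

/-- The family supported at the place `(q, g₀)` with value `t₀`. -/
def kxm_single {S' : Finset Nat.Primes} (q : ↥S') (g₀ : s55_GQ)
    (t₀ : ↥(kl_H K (q : Nat.Primes)) → ZMod p) :
    ∀ q' : ↥S', s55_GQ → ↥(kl_H K (q' : Nat.Primes)) → ZMod p := by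
  classical
  exact Function.update (fun _ _ => 0) q (Function.update (fun _ => 0) g₀ t₀)

theorem kxm_single_self {S' : Finset Nat.Primes} (q : ↥S') (g₀ : s55_GQ)
    (t₀ : ↥(kl_H K (q : Nat.Primes)) → ZMod p) : kxm_single q g₀ t₀ q g₀ = t₀ := by
  classical
  unfold kxm_single
  rw [Function.update_self, Function.update_self]

theorem kxm_single_of_ne_g {S' : Finset Nat.Primes} (q : ↥S') (g₀ : s55_GQ)
    (t₀ : ↥(kl_H K (q : Nat.Primes)) → ZMod p) (g : s55_GQ) (hg : g ≠ g₀) :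
    kxm_single q g₀ t₀ q g = 0 := by
  classical
  unfold kxm_single
  rw [Function.update_self, Function.update_of_ne hg]

theorem kxm_single_of_ne_q {S' : Finset Nat.Primes} (q : ↥S') (g₀ : s55_GQ)
    (t₀ : ↥(kl_H K (q : Nat.Primes)) → ZMod p) (q' : ↥S') (hq : q' ≠ q) (g : s55_GQ) :
    kxm_single q g₀ t₀ q' g = 0 := by
  classical
  unfold kxm_single
  rw [Function.update_of_ne hq]

theorem kxm_single_mem {S' : Finset Nat.Primes} {R' : ↥S' → Finset s55_GQ} (q : ↥S')
    (hq : (q : Nat.Primes) ∉ S) (g₀ : s55_GQ) (hg₀ : g₀ ∈ R' q)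
    (t₀ : ↥(kl_H K (q : Nat.Primes)) → ZMod p) (h1 : kl_IsHom t₀)
    (h2 : lcf_Smooth₁ (kl_H K (q : Nat.Primes)) t₀)
    (h3 : kex_IsUnr (kl_H K (q : Nat.Primes)) t₀) :
    kxm_single q g₀ t₀ ∈ kxm_V p S K R' := by
  classical
  intro q' g
  by_cases hq' : q' = q
  · subst hq'
    by_cases hg : g = g₀
    · subst hg
      rw [kxm_single_self]
      refine ⟨h1, h2, h3, fun h => ?_⟩
      rcases h with h | h
      · exact absurd h hq
      · exact absurd hg₀ h
    · rw [kxm_single_of_ne_g _ _ _ _ hg]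
      exact ⟨kxm_hom_zero, kxm_smooth_zero, kxm_unr_zero, fun _ => rfl⟩
  · rw [kxm_single_of_ne_q _ _ _ _ hq']
    exact ⟨kxm_hom_zero, kxm_smooth_zero, kxm_unr_zero, fun _ => rfl⟩

end spaces

end Fermat.Agent.S55
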