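/-
S55 (Poitou-Tate), GLOBAL side, assembly [KEX-MAIN-OF] of the cut of [K-EX] (helper20), part 3:
the assembly.  Prefix `kxm_`.

    theorem kxm_main : kex_ExLargeStatement → kex_PairStatement → kex_UnrPerpStatement →
      kex_LevelStatement → kex_RepsExtStatement → kl_ExStatement

ROUTE ((B) of `Global/KExDefs.lean`).  `S' := S ∪ S₀` (`S₀` from [K-EX] for large `S`), `R'`
representatives for `S'` extending `R` ([KEX-REPSEXT] with `T = ∅`).
`V` := families of unramified smooth characters above `S' \ S` (finite), `Y` := level-`S'`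
characters, `μ (t, y) := ∑_{w ∣ S'} b_w (t_w, y ∘ r_w)`, `lam (y) := ∑_{w ∣ S'} b_w (Θ_w, y ∘ r_w)`
(`Θ` = `θ` extended by zero).  If `μ (·, y) = 0` then `y ∘ r_w` is unramified at the
representatives above `S' \ S` ([KEX-UNR-PERP]), hence at all `g` (`kxm_unr_conj`), so `y` has
level `S` ([KEX-LEVEL]) and `lam y = 0` by hypothesis.  Linear algebra (`kex_la_extend_raw`):
`lam = μ (t, ·)`.  Then `Θ - t` is orthogonal to `Y_{S'}`, so it is `loc θ₀` ([K-EX] for `S'`);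
`θ₀` is unramified above `S' \ S`, hence of level `S` ([KEX-LEVEL]).
-/
import Mathlib
import Fermat.Agent.S55.Global.KExMainOfSpaces
import Fermat.Agent.S55.Global.KExLinAlg
import Fermat.Agent.S55.Global.KExArtDefs

set_option autoImplicit false
set_option linter.style.haveILetI false
set_option linter.unusedSectionVars false
set_option linter.unusedVariables false
set_option maxHeartbeats 2000000
set_option synthInstance.maxHeartbeats 400000
open CategoryTheory Module groupCohomology ExtCitation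

noncomputable section

namespace Fermat.Agent.S55

local notation "Qbar" => AlgebraicClosure ℚ

/-- Sums of elements of the image of `ptinv_e` lie in the image. -/
theorem kxm_range_sum {p : ℕ} [Fact p.Prime] {ι : Type*} (s : Finset ι) (f : ι → lcf_QZ)
    (h : ∀ i ∈ s, ∃ c : ZMod p, ptinv_e p c = f i) : ∃ c : ZMod p, ptinv_e p c = ∑ i ∈ s, f i := by
  have h1 : ∑ i ∈ s, f i ∈ (ptinv_e p).range :=
    AddSubgroup.sum_mem _ (fun i hi => AddMonoidHom.mem_range.2 (h i hi))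
  exact AddMonoidHom.mem_range.1 h1

/-- **[KEX-MAIN-OF]**. -/
theorem kxm_main (hL : kex_ExLargeStatement) (hP : kex_PairStatement)
    (hUP : kex_UnrPerpStatement) (hLev : kex_LevelStatement) (hRE : kex_RepsExtStatement) :
    kl_ExStatement := by
  intro inv hinv p _ hp2 S hpS K hKn hKS hχ R hR θ hθ horth
  classical
  have hfin : FiniteDimensional ℚ K := hKS.1
  obtain ⟨S₀, hS₀⟩ := hL inv hinv hp2 K hfin hχ
  obtain ⟨S', hS'def⟩ : ∃ S' : Finset Nat.Primes, S' = S ∪ S₀ := ⟨_, rfl⟩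
  have hSS' : S ⊆ S' := hS'def ▸ Finset.subset_union_left
  have hS₀S' : S₀ ⊆ S' := hS'def ▸ Finset.subset_union_right
  have hpS' : pPrime p ∈ S' := hSS' hpS
  have hKS' : K.IsUnramifiedOutside S' := hKS.mono hSS'
  obtain ⟨R', hR', hR'R, -⟩ := hRE S S' hSS' K hfin R hR ∅
    (fun w hw => absurd hw (Finset.notMem_empty w))
    (fun w hw => absurd hw (Finset.notMem_empty w))
  have hEx := hS₀ S' hS₀S' hpS' hKS' R' hR'
  -- abbreviations
  have hbL := @kxm_b_add_left p _ K hKn hP inv hinv hp2 hfin hχ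
  have hbR := @kxm_b_add_right p _ K hKn hP inv hinv hp2 hfin hχ
  have hb0 := @kxm_b_zero_left p _ K hKn hP inv hinv hp2 hfin hχ
  have hbS := @kxm_b_sub_left p _ K hKn hP inv hinv hp2 hfin hχ
  have hbrg := @kxm_b_range p _ K hKn inv hinv hfin hχ
  -- localisations of level-`S'` characters
  have hηh : ∀ (y : ↥K.fixingSubgroup → ZMod p), kl_IsHom y → ∀ (q : Nat.Primes) (g : s55_GQ),
      kl_IsHom (fun τ : ↥(kl_H K q) => y (kl_r K q g τ)) :=
    fun y hy q g => kxm_hom_comp K hy q g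
  have hηs : ∀ (y : ↥K.fixingSubgroup → ZMod p), kl_LevelS₁ S' K y →
      ∀ (q : Nat.Primes) (g : s55_GQ),
      lcf_Smooth₁ (kl_H K q) (fun τ : ↥(kl_H K q) => y (kl_r K q g τ)) :=
    fun y hy q g => kxm_smooth_comp K hy q g
  -- `θ` extended by zero
  obtain ⟨Θ, hΘdef⟩ : ∃ Θ : ∀ q : ↥S', s55_GQ → ↥(kl_H K (q : Nat.Primes)) → ZMod p,
      Θ = fun (q : ↥S') (g : s55_GQ) => if h : (q : Nat.Primes) ∈ S then
        (θ ⟨(q : Nat.Primes), h⟩ g : ↥(kl_H K (q : Nat.Primes)) → ZMod p) else 0 :=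
    ⟨_, rfl⟩
  have hΘpos : ∀ (q : ↥S') (h : (q : Nat.Primes) ∈ S) (g : s55_GQ),
      Θ q g = θ ⟨(q : Nat.Primes), h⟩ g := by
    intro q h g
    rw [hΘdef]
    exact dif_pos h
  have hΘneg : ∀ (q : ↥S') (h : (q : Nat.Primes) ∉ S) (g : s55_GQ), Θ q g = 0 := by
    intro q h g
    rw [hΘdef]
    exact dif_neg h
  have hΘhs : ∀ (q : ↥S'), ∀ g ∈ R' q,
      kl_IsHom (Θ q g) ∧ lcf_Smooth₁ (kl_H K (q : Nat.Primes)) (Θ q g) := by
    intro q g hg
    by_cases h : (q : Nat.Primes) ∈ S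
    · rw [hΘpos q h g]
      exact hθ ⟨(q : Nat.Primes), h⟩ g (by rw [← hR'R q h]; exact hg)
    · rw [hΘneg q h g]
      exact ⟨kxm_hom_zero, kxm_smooth_zero⟩
  -- the spaces
  haveI : Finite ↥(kxm_V p S K R') := kxm_finite_V hfin R'
  -- the pairings
  obtain ⟨μ, hμdef⟩ : ∃ μ : ↥(kxm_V p S K R') → ↥(kxm_Y p S' K) → lcf_QZ,
      μ = fun t y => ∑ q : ↥S', ∑ g ∈ R' q, kxm_b K inv (q : Nat.Primes) g (t.1 q g)
        (fun τ => y.1 (kl_r K (q : Nat.Primes) g τ)) := ⟨_, rfl⟩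
  obtain ⟨lam, hlamdef⟩ : ∃ lam : ↥(kxm_Y p S' K) → lcf_QZ,
      lam = fun y => ∑ q : ↥S', ∑ g ∈ R' q, kxm_b K inv (q : Nat.Primes) g (Θ q g)
        (fun τ => y.1 (kl_r K (q : Nat.Primes) g τ)) := ⟨_, rfl⟩
  have hμl : ∀ (t t' : ↥(kxm_V p S K R')) (y : ↥(kxm_Y p S' K)),
      μ (t + t') y = μ t y + μ t' y := by
    intro t t' y
    rw [hμdef]
    simp only
    rw [← Finset.sum_add_distrib]
    refine Finset.sum_congr rfl fun q _ => ?_
    rw [← Finset.sum_add_distrib]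
    refine Finset.sum_congr rfl fun g _ => ?_
    exact hbL (q : Nat.Primes) g (t.2 q g).1 (t.2 q g).2.1 (t'.2 q g).1 (t'.2 q g).2.1
      (hηh y.1 y.2.1 _ g) (hηs y.1 y.2.2 _ g)
  have hμr : ∀ (t : ↥(kxm_V p S K R')) (y y' : ↥(kxm_Y p S' K)),
      μ t (y + y') = μ t y + μ t y' := by
    intro t y y'
    rw [hμdef]
    simp only
    rw [← Finset.sum_add_distrib]
    refine Finset.sum_congr rfl fun q _ => ?_
    rw [← Finset.sum_add_distrib]
    refine Finset.sum_congr rfl fun g _ => ?_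
    exact hbR (q : Nat.Primes) g (t.2 q g).1 (t.2 q g).2.1
      (hηh y.1 y.2.1 _ g) (hηs y.1 y.2.2 _ g) (hηh y'.1 y'.2.1 _ g) (hηs y'.1 y'.2.2 _ g)
  have hμv : ∀ (t : ↥(kxm_V p S K R')) (y : ↥(kxm_Y p S' K)), ∃ c, ptinv_e p c = μ t y := by
    intro t y
    rw [hμdef]
    refine kxm_range_sum _ _ fun q _ => kxm_range_sum _ _ fun g _ => ?_
    exact hbrg (q : Nat.Primes) g (t.2 q g).1 (t.2 q g).2.1
      (hηh y.1 y.2.1 _ g) (hηs y.1 y.2.2 _ g)
  have hlama : ∀ y y' : ↥(kxm_Y p S' K), lam (y + y') = lam y + lam y' := by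
    intro y y'
    rw [hlamdef]
    simp only
    rw [← Finset.sum_add_distrib]
    refine Finset.sum_congr rfl fun q _ => ?_
    rw [← Finset.sum_add_distrib]
    refine Finset.sum_congr rfl fun g hg => ?_
    exact hbR (q : Nat.Primes) g (hΘhs q g hg).1 (hΘhs q g hg).2
      (hηh y.1 y.2.1 _ g) (hηs y.1 y.2.2 _ g) (hηh y'.1 y'.2.1 _ g) (hηs y'.1 y'.2.2 _ g)
  have hlamv : ∀ y : ↥(kxm_Y p S' K), ∃ c, ptinv_e p c = lam y := by
    intro y
    rw [hlamdef]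
    refine kxm_range_sum _ _ fun q _ => kxm_range_sum _ _ fun g hg => ?_
    exact hbrg (q : Nat.Primes) g (hΘhs q g hg).1 (hΘhs q g hg).2
      (hηh y.1 y.2.1 _ g) (hηs y.1 y.2.2 _ g)
  -- unramified at the representatives ⟹ level `S`
  have hlevel : ∀ y : ↥K.fixingSubgroup → ZMod p, kl_IsHom y → kl_LevelS₁ S' K y →
      (∀ q : ↥S', (q : Nat.Primes) ∉ S → ∀ g₀ ∈ R' q,
        kex_IsUnr (kl_H K (q : Nat.Primes)) (fun τ => y (kl_r K (q : Nat.Primes) g₀ τ))) →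
      kl_LevelS₁ S K y := by
    intro y hy hyl hunr
    refine hLev p hp2 S S' hSS' hpS K hKS hχ y hy hyl ?_
    intro q hqS' hqS g
    obtain ⟨g₀, ⟨hg₀, τ, u, hu, hg⟩, -⟩ := hR' ⟨q, hqS'⟩ g
    exact kxm_unr_conj K hy q g₀ g τ u hu hg (hunr ⟨q, hqS'⟩ hqS g₀ hg₀)
  -- `lam` on the level-`S` characters
  have hlamS : ∀ y : ↥(kxm_Y p S' K), kl_LevelS₁ S K y.1 → lam y = 0 := by
    intro y hyS
    have h0 := horth y.1 y.2.1 hyS
    rw [← h0, ← kxm_sum_restrict hSS', hlamdef]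
    simp only
    refine Finset.sum_congr rfl fun q _ => ?_
    by_cases h : (q : Nat.Primes) ∈ S
    · rw [dif_pos h, hR'R q h]
      refine Finset.sum_congr rfl fun g _ => ?_
      rw [hΘpos q h g]
      rfl
    · rw [dif_neg h]
      refine Finset.sum_eq_zero fun g _ => ?_
      rw [hΘneg q h g]
      exact hb0 (q : Nat.Primes) g (hηh y.1 y.2.1 _ g) (hηs y.1 y.2.2 _ g)
  -- the hypothesis of the extension lemma
  have hkey : ∀ y : ↥(kxm_Y p S' K), (∀ t : ↥(kxm_V p S K R'), μ t y = 0) → lam y = 0 := by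
    intro y hy0
    apply hlamS y
    apply hlevel y.1 y.2.1 y.2.2
    intro q hqS g₀ hg₀
    have hqp : ((q : Nat.Primes) : ℕ) ≠ p := by
      intro h
      apply hqS
      have h1 : (q : Nat.Primes) = pPrime p := Subtype.ext h
      rw [h1]
      exact hpS
    refine hUP inv hinv ((q : Nat.Primes) : ℕ) p hp2 hqp (kl_H K (q : Nat.Primes))
      (ec_klH_isOpen K (q : Nat.Primes) hfin) (kxm_zeta p (q : Nat.Primes) g₀)
      (kxm_zeta_prim (q : Nat.Primes) g₀) (kxm_zeta_fix K hχ (q : Nat.Primes) g₀) _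
      (hηh y.1 y.2.1 _ g₀) (hηs y.1 y.2.2 _ g₀) ?_
    intro t₀ ht₀ ht₀s ht₀u
    have h1 := hy0 ⟨kxm_single q g₀ t₀, kxm_single_mem q hqS g₀ hg₀ t₀ ht₀ ht₀s ht₀u⟩
    rw [hμdef] at h1
    simp only at h1
    rw [Finset.sum_eq_single q, Finset.sum_eq_single g₀, kxm_single_self, kxm_b_eq] at h1
    · exact h1
    · intro g _ hg
      rw [kxm_single_of_ne_g _ _ _ _ hg]
      exact hb0 (q : Nat.Primes) g (hηh y.1 y.2.1 _ g) (hηs y.1 y.2.2 _ g)
    · intro h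
      exact absurd hg₀ h
    · intro q' _ hq'
      refine Finset.sum_eq_zero fun g _ => ?_
      rw [kxm_single_of_ne_q _ _ _ _ hq']
      exact hb0 (q' : Nat.Primes) g (hηh y.1 y.2.1 _ g) (hηs y.1 y.2.2 _ g)
    · intro h
      exact absurd (Finset.mem_univ q) h
  obtain ⟨t, ht⟩ := kex_la_extend_raw (ptinv_e p) (ptinv_e_injective p) μ hμl hμr hμv lam hlama hlamv hkey
  -- the family `Θ - t`
  have hθ' : ∀ (q : ↥S'), ∀ g ∈ R' q, kl_IsHom (Θ q g - t.1 q g) ∧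
      lcf_Smooth₁ (kl_H K (q : Nat.Primes)) (Θ q g - t.1 q g) :=
    fun q g hg => ⟨kxm_hom_sub (hΘhs q g hg).1 (t.2 q g).1,
      kxm_smooth_sub (hΘhs q g hg).2 (t.2 q g).2.1⟩
  have horth' : ∀ y : ↥K.fixingSubgroup → ZMod p, kl_IsHom y → kl_LevelS₁ S' K y →
      ∑ q : ↥S', ∑ g ∈ R' q, kl_inv K inv (q : Nat.Primes) g
        (fun x => (Θ q g - t.1 q g) x.1 * y (kl_r K (q : Nat.Primes) g x.2)) = 0 := by
    intro y hy hyl
    have h1 := ht ⟨y, hy, hyl⟩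
    rw [hlamdef, hμdef] at h1
    simp only at h1
    rw [← sub_eq_zero, ← Finset.sum_sub_distrib] at h1
    rw [← h1]
    refine Finset.sum_congr rfl fun q _ => ?_
    rw [← Finset.sum_sub_distrib]
    refine Finset.sum_congr rfl fun g hg => ?_
    exact hbS (q : Nat.Primes) g (hΘhs q g hg).1 (hΘhs q g hg).2 (t.2 q g).1 (t.2 q g).2.1
      (hηh y hy _ g) (hηs y hyl _ g)
  obtain ⟨θ₀, hθ₀h, hθ₀l, hθ₀⟩ := hEx (fun q g => Θ q g - t.1 q g) hθ' horth'
  refine ⟨θ₀, hθ₀h, ?_, ?_⟩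
  · apply hlevel θ₀ hθ₀h hθ₀l
    intro q hqS g₀ hg₀
    have h1 : (fun τ : ↥(kl_H K (q : Nat.Primes)) => θ₀ (kl_r K (q : Nat.Primes) g₀ τ)) =
        -t.1 q g₀ := by
      funext τ
      rw [hθ₀ q g₀ hg₀ τ]
      show (Θ q g₀ - t.1 q g₀) τ = (-t.1 q g₀) τ
      rw [hΘneg q hqS g₀, zero_sub]
    rw [h1]
    exact kxm_unr_neg (t.2 q g₀).2.2.1
  · intro q g hg τ
    have hq' : ((⟨(q : Nat.Primes), hSS' q.2⟩ : ↥S') : Nat.Primes) ∈ S := q.2
    have hg' : g ∈ R' ⟨(q : Nat.Primes), hSS' q.2⟩ := by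
      rw [hR'R ⟨(q : Nat.Primes), hSS' q.2⟩ hq']
      exact hg
    have h1 := hθ₀ ⟨(q : Nat.Primes), hSS' q.2⟩ g hg' τ
    have h2 : t.1 ⟨(q : Nat.Primes), hSS' q.2⟩ g = 0 :=
      (t.2 ⟨(q : Nat.Primes), hSS' q.2⟩ g).2.2.2 (Or.inl hq')
    have h3 : Θ ⟨(q : Nat.Primes), hSS' q.2⟩ g = θ q g :=
      hΘpos ⟨(q : Nat.Primes), hSS' q.2⟩ hq' g
    rw [h2, h3, sub_zero] at h1
    exact h1

end Fermat.Agent.S55
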