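/-
S55 (Poitou-Tate), GLOBAL side, leaf [KEX-REPSEXT] of the cut of [K-EX] / [KSHA-ARTPERF]
(helper20).  Prefix `kxe_`.

    theorem kxe_main : kex_RepsExtStatement          (hypothesis-free)

Combinatorics: representatives of the places of `K` above `S'' ⊇ S` which extend given
representatives `R` above `S` and contain a given set `T` of pairwise different places above
`S'' \ S`.  For `q ∈ S'' \ S`:  `R'' q := T_q ∪ {g₀ ∈ R₁ q | g₀ is not the place of any t ∈ T_q}`,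
`R₁` any representatives (`ka_exists_reps`), `T_q = {g | (q, g) ∈ T}`.
-/
import Mathlib
import Fermat.Agent.S55.Global.KExArtDefs
import Fermat.Agent.S55.Bridge.KACoord

set_option autoImplicit false
set_option linter.style.haveILetI false
set_option maxHeartbeats 1000000
set_option synthInstance.maxHeartbeats 400000

noncomputable section

namespace Fermat.Agent.S55

local notation "Qbar" => AlgebraicClosure ℚ

/-- Exchange of representatives for an equivalence relation: a system of representatives `R₁`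
and a set `T₀` of pairwise inequivalent elements give a system of representatives containing
`T₀`. -/
theorem kxe_abs {G : Type*} (r : G → G → Prop)
    (hsymm : ∀ a b, r a b → r b a) (htrans : ∀ a b c, r a b → r b c → r a c)
    (R₁ T₀ : Finset G) (hR₁ : ∀ g, ∃! g₀, g₀ ∈ R₁ ∧ r g₀ g)
    (hT₀ : ∀ a ∈ T₀, ∀ b ∈ T₀, r a b → a = b) :
    ∃ R'' : Finset G, (∀ g, ∃! g₀, g₀ ∈ R'' ∧ r g₀ g) ∧ T₀ ⊆ R'' := by
  classical
  refine ⟨T₀ ∪ R₁.filter (fun g₀ => ∀ t ∈ T₀, ¬ r g₀ t), fun g => ?_, Finset.subset_union_left⟩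
  by_cases h : ∃ t ∈ T₀, r t g
  · obtain ⟨t, ht, htg⟩ := h
    refine ⟨t, ⟨Finset.mem_union_left _ ht, htg⟩, ?_⟩
    rintro g₀ ⟨hg₀, hg₀g⟩
    rcases Finset.mem_union.1 hg₀ with h1 | h1
    · exact hT₀ g₀ h1 t ht (htrans _ _ _ hg₀g (hsymm _ _ htg))
    · exact absurd (htrans _ _ _ hg₀g (hsymm _ _ htg)) ((Finset.mem_filter.1 h1).2 t ht)
  · obtain ⟨g₁, ⟨hg₁, hg₁g⟩, huniq⟩ := hR₁ g
    refine ⟨g₁, ⟨Finset.mem_union_right _ (Finset.mem_filter.2
      ⟨hg₁, fun t ht htr => h ⟨t, ht, htrans _ _ _ (hsymm _ _ htr) hg₁g⟩⟩), hg₁g⟩, ?_⟩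
    rintro g₀ ⟨hg₀, hg₀g⟩
    rcases Finset.mem_union.1 hg₀ with h1 | h1
    · exact absurd ⟨g₀, h1, hg₀g⟩ h
    · exact huniq g₀ ⟨(Finset.mem_filter.1 h1).1, hg₀g⟩

/-- `g₀` and `g` define the same place of `K` above `q`. -/
def kxe_rel (K : IntermediateField ℚ Qbar) (q : Nat.Primes) (g₀ g : s55_GQ) : Prop :=
  ∃ (τ : lcf_Gal (q : ℕ)) (u : s55_GQ), u ∈ K.fixingSubgroup ∧
    g = localGaloisToGlobal (q : ℕ) τ * g₀ * u

theorem kxe_rel_symm (K : IntermediateField ℚ Qbar) (q : Nat.Primes) (a b : s55_GQ)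
    (h : kxe_rel K q a b) : kxe_rel K q b a := by
  obtain ⟨τ, u, hu, he⟩ := h
  refine ⟨τ⁻¹, u⁻¹, K.fixingSubgroup.inv_mem hu, ?_⟩
  rw [he, map_inv]
  group

theorem kxe_rel_trans (K : IntermediateField ℚ Qbar) (q : Nat.Primes) (a b c : s55_GQ)
    (h : kxe_rel K q a b) (h' : kxe_rel K q b c) : kxe_rel K q a c := by
  obtain ⟨τ, u, hu, he⟩ := h
  obtain ⟨τ', u', hu', he'⟩ := h'
  refine ⟨τ' * τ, u * u', K.fixingSubgroup.mul_mem hu hu', ?_⟩
  rw [he', he, map_mul]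
  group

/-- **[KEX-REPSEXT]**. -/
theorem kxe_main : kex_RepsExtStatement := by
  classical
  intro S S'' hSS K _ hfin R hR T hT hTS
  haveI := hfin
  haveI : Finite (ka_X K) := cov_finite_quot K
  obtain ⟨R₁, hR₁⟩ := ka_exists_reps S'' K
  have hex : ∀ q : ↥S'', ∃ Rq : Finset s55_GQ,
      (∀ g, ∃! g₀, g₀ ∈ Rq ∧ kxe_rel K (q : Nat.Primes) g₀ g) ∧
      (∀ w ∈ T, w.1 = (q : Nat.Primes) → w.2 ∈ Rq) := by
    rintro ⟨q0, hq0⟩
    obtain ⟨Rq, h1, h2⟩ := kxe_abs (kxe_rel K q0) (kxe_rel_symm K q0) (kxe_rel_trans K q0)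
      (R₁ ⟨q0, hq0⟩) ((T.filter (fun w => w.1 = q0)).image Prod.snd) (hR₁ ⟨q0, hq0⟩) (by
        intro a ha b hb hab
        obtain ⟨wa, hwa, rfl⟩ := Finset.mem_image.1 ha
        obtain ⟨wb, hwb, rfl⟩ := Finset.mem_image.1 hb
        obtain ⟨hwaT, hwaq⟩ := Finset.mem_filter.1 hwa
        obtain ⟨hwbT, hwbq⟩ := Finset.mem_filter.1 hwb
        obtain ⟨qa, ga⟩ := wa
        obtain ⟨qb, gb⟩ := wb
        have hwaq' : qa = q0 := hwaq
        have hwbq' : qb = q0 := hwbq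
        subst hwaq'
        subst hwbq'
        have h3 := hT _ hwaT _ hwbT ⟨rfl, hab⟩
        exact congrArg Prod.snd h3)
    exact ⟨Rq, h1, fun w hw hwq =>
      h2 (Finset.mem_image.2 ⟨w, Finset.mem_filter.2 ⟨hw, hwq⟩, rfl⟩)⟩
  choose Rn hRn1 hRn2 using hex
  refine ⟨fun q => if h : (q : Nat.Primes) ∈ S then R ⟨(q : Nat.Primes), h⟩ else Rn q,
    ?_, ?_, ?_⟩
  · intro q g
    by_cases h : (q : Nat.Primes) ∈ S
    · simp only [dif_pos h]
      exact hR ⟨(q : Nat.Primes), h⟩ g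
    · simp only [dif_neg h]
      exact hRn1 q g
  · intro q h
    exact dif_pos h
  · intro w hw h
    have hnS : w.1 ∉ S := (hTS w hw).2
    have h4 : (if h' : w.1 ∈ S then R ⟨w.1, h'⟩ else Rn ⟨w.1, h⟩) = Rn ⟨w.1, h⟩ := dif_neg hnS
    show w.2 ∈ (if h' : w.1 ∈ S then R ⟨w.1, h'⟩ else Rn ⟨w.1, h⟩)
    rw [h4]
    exact hRn2 ⟨w.1, h⟩ w hw rfl

end Fermat.Agent.S55
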