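/-
S55 (Poitou-Tate), GLOBAL side, leaf [KEX-PAIR] of the cut of [K-EX] (helper20).  Prefix `kxp_`.

    theorem kxp_main : kex_PairStatement          (hypothesis-free)

The local pairing `(θ, η) ↦ inv_U (ζ ^ (θ ∪ η))` on the smooth characters `U → F_p` is
bi-additive ((I1) + `lv20_exp_add`: `θ ∪ η` is a smooth 2-cocycle with trivial action, so
`ζ ^ (θ ∪ η)` is a smooth cocycle by `lv20_isCoc_exp`) and non-degenerate on the right
([V11] = `lv11_main`).
-/
import Mathlib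
import Fermat.Agent.S55.Global.KExDefs
import Fermat.Agent.S55.Local.V20
import Fermat.Agent.S55.Local.V11

set_option autoImplicit false
set_option linter.style.haveILetI false
set_option maxHeartbeats 1000000
set_option synthInstance.maxHeartbeats 400000

noncomputable section

namespace Fermat.Agent.S55

section Tools

variable {q : ℕ} [Fact q.Prime] {p : ℕ} [Fact p.Prime]

/-- The cup product of two smooth functions is smooth. -/
theorem kxp_smooth (U : Subgroup (lcf_Gal q)) (θ η : ↥U → ZMod p)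
    (hθ : lcf_Smooth₁ U θ) (hη : lcf_Smooth₁ U η) :
    lcf_Smooth₂ U (fun x : ↥U × ↥U => θ x.1 * η x.2) := by
  obtain ⟨E₁, hE₁, h₁⟩ := hθ
  obtain ⟨E₂, hE₂, h₂⟩ := hη
  haveI := hE₁
  haveI := hE₂
  refine ⟨E₁ ⊔ E₂, IntermediateField.finiteDimensional_sup E₁ E₂, fun g g' s s' hs hs' => ?_⟩
  show θ (g * s) * η (g' * s') = θ g * η g'
  rw [h₁ g s (IntermediateField.fixingSubgroup_antitone le_sup_left hs),
    h₂ g' s' (IntermediateField.fixingSubgroup_antitone le_sup_right hs')]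

/-- The cup product of two characters is a 2-cocycle (trivial action). -/
theorem kxp_coc (U : Subgroup (lcf_Gal q)) (θ η : ↥U → ZMod p)
    (hθ : kl_IsHom θ) (hη : kl_IsHom η) (g h j : ↥U) :
    (fun x : ↥U × ↥U => θ x.1 * η x.2) (h, j) - (fun x : ↥U × ↥U => θ x.1 * η x.2) (g * h, j) +
      (fun x : ↥U × ↥U => θ x.1 * η x.2) (g, h * j) -
        (fun x : ↥U × ↥U => θ x.1 * η x.2) (g, h) = 0 := by
  show θ h * η j - θ (g * h) * η j + θ g * η (h * j) - θ g * η h = 0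
  rw [hθ g h, hη h j]
  ring

/-- `ζ ^ (θ ∪ η)` is a smooth cocycle. -/
theorem kxp_isCoc (U : Subgroup (lcf_Gal q)) {ζ : (PadicAlgCl q)ˣ}
    (hζ : IsPrimitiveRoot ζ p) (hζU : ∀ g : ↥U, g • ζ = ζ) (θ η : ↥U → ZMod p)
    (hθ : kl_IsHom θ) (hθs : lcf_Smooth₁ U θ) (hη : kl_IsHom η) (hηs : lcf_Smooth₁ U η) :
    lcf_IsCoc U (fun x : ↥U × ↥U => ζ ^ (θ x.1 * η x.2).val) :=
  lv20_isCoc_exp U hζ hζU (fun x : ↥U × ↥U => θ x.1 * η x.2) (kxp_smooth U θ η hθs hηs)
    (kxp_coc U θ η hθ hη)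

end Tools

/-- **[KEX-PAIR]** the local pairing on smooth characters is bi-additive and non-degenerate on
the right. -/
theorem kxp_main : kex_PairStatement := by
  intro inv hinv q _ p _ hp2 U hU ζ hζ hζU
  refine ⟨?_, ?_, ?_⟩
  · intro θ θ' η hθ hθs hθ' hθ's hη hηs
    have h1 := kxp_isCoc U hζ hζU θ η hθ hθs hη hηs
    have h2 := kxp_isCoc U hζ hζU θ' η hθ' hθ's hη hηs
    rw [← hinv.add q U hU _ _ h1 h2]
    congr 1
    funext x
    show ζ ^ ((θ x.1 + θ' x.1) * η x.2).val =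
      ζ ^ (θ x.1 * η x.2).val * ζ ^ (θ' x.1 * η x.2).val
    rw [add_mul]
    exact lv20_exp_add hζ.pow_eq_one _ _
  · intro θ η η' hθ hθs hη hηs hη' hη's
    have h1 := kxp_isCoc U hζ hζU θ η hθ hθs hη hηs
    have h2 := kxp_isCoc U hζ hζU θ η' hθ hθs hη' hη's
    rw [← hinv.add q U hU _ _ h1 h2]
    congr 1
    funext x
    show ζ ^ (θ x.1 * (η x.2 + η' x.2)).val =
      ζ ^ (θ x.1 * η x.2).val * ζ ^ (θ x.1 * η' x.2).val
    rw [mul_add]
    exact lv20_exp_add hζ.pow_eq_one _ _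
  · intro η hη hηs hη0
    obtain ⟨θ, hθs, hθ, hne⟩ := lv11_main inv hinv q p hp2 U hU ζ hζ hζU η hηs hη hη0
    exact ⟨θ, hθ, hθs, hne⟩

end Fermat.Agent.S55
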