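/-
S55 (fifth wave), GLOBAL side, package [J-COH] part 2 (helper21): the LOCAL INPUTS of
`gl_JTHerbStatement`, as closed Props in the absolute model of `S55/Local/LCFDefs.lean`.

A local cyclic layer of degree `p` is a pair `(U, τ)`: `U` an open subgroup of
`Γ = Gal(Ω_q/ℚ_q)`, `τ ∈ Γ` normalising `U` with `τ ^ p ∈ U`, `τ ∉ U`
(`jcoh_IsLayer`).  With `L = Ω^U` and `K = Ω^⟨U, τ⟩` the extension `L/K` is cyclic of degree `p`
with group generated by `τ|_L`; `jcoh_fix U = Lˣ`.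

* `jcoh_LocH90Statement` : Hilbert 90 for `L/K`;
* `jcoh_LocIdxStatement` : `Kˣ / N Lˣ` is cyclic of order `p` (local norm index, [L2]);
* `jcoh_LocUnrStatement` : if the value group of `L` is `q^ℤ`, units of `K` are norms of units.
-/
import Fermat.Agent.S55.Global.Defs
import Fermat.Agent.S55.Local.LCFDefs

set_option autoImplicit false

namespace Fermat.Agent.S55

noncomputable section

section defs

variable {q : ℕ} [Fact q.Prime]

/-- The units of `Ω` fixed by the subgroup `U` (the units of the fixed field). -/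
def jcoh_fix (U : Subgroup (lcf_Gal q)) : Subgroup (PadicAlgCl q)ˣ where
  carrier := {a | ∀ g : lcf_Gal q, g ∈ U → g • a = a}
  one_mem' := fun g _ => smul_one g
  mul_mem' := fun {a b} ha hb g hg => by rw [smul_mul', ha g hg, hb g hg]
  inv_mem' := fun {a} ha g hg => by rw [smul_inv', ha g hg]

theorem jcoh_mem_fix_iff (U : Subgroup (lcf_Gal q)) (a : (PadicAlgCl q)ˣ) :
    a ∈ jcoh_fix U ↔ ∀ g : lcf_Gal q, g ∈ U → g • a = a := Iff.rfl

/-- A local cyclic layer of degree `p`: `U` open, `τ` normalises `U`, `τ ^ p ∈ U`, `τ ∉ U`. -/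
structure jcoh_IsLayer (p : ℕ) (U : Subgroup (lcf_Gal q)) (τ : lcf_Gal q) : Prop where
  isOpen : lcf_IsOpen U
  conj_mem : ∀ g : lcf_Gal q, g ∈ U → τ * g * τ⁻¹ ∈ U
  pow_mem : τ ^ p ∈ U
  not_mem : τ ∉ U

end defs

/-- **[JL-H90]** Hilbert 90 for a local cyclic layer: an element of `Lˣ` of norm `1` is of the
form `τ b / b`. -/
def jcoh_LocH90Statement : Prop :=
  ∀ (q : ℕ) [Fact q.Prime] (p : ℕ), p.Prime →
    ∀ (U : Subgroup (lcf_Gal q)) (τ : lcf_Gal q), jcoh_IsLayer p U τ →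
      ∀ a ∈ jcoh_fix U, ∏ k ∈ Finset.range p, τ ^ k • a = 1 →
        ∃ b ∈ jcoh_fix U, a = τ • b / b

/-- **[JL-IDX]** the local norm index of a cyclic layer of degree `p` is `p`: there is a
surjective character `φ : Kˣ → ℤ/p` whose kernel is the group of norms from `Lˣ`. -/
def jcoh_LocIdxStatement : Prop :=
  ∀ (q : ℕ) [Fact q.Prime] (p : ℕ), p.Prime →
    ∀ (U : Subgroup (lcf_Gal q)) (τ : lcf_Gal q), jcoh_IsLayer p U τ →
      ∃ φ : (PadicAlgCl q)ˣ → ZMod p,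
        (∀ a b, a ∈ jcoh_fix U → b ∈ jcoh_fix U → τ • a = a → τ • b = b →
          φ (a * b) = φ a + φ b) ∧
        (∀ t : ZMod p, ∃ a, a ∈ jcoh_fix U ∧ τ • a = a ∧ φ a = t) ∧
        (∀ a, a ∈ jcoh_fix U → τ • a = a →
          (φ a = 0 ↔ ∃ b, b ∈ jcoh_fix U ∧ a = ∏ k ∈ Finset.range p, τ ^ k • b))

/-- **[JL-UNR]** in an unramified cyclic layer (value group of `L` equal to `q^ℤ`) every unit
of `K` is the norm of a unit of `L`. -/
def jcoh_LocUnrStatement : Prop :=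
  ∀ (q : ℕ) [Fact q.Prime] (p : ℕ), p.Prime →
    ∀ (U : Subgroup (lcf_Gal q)) (τ : lcf_Gal q), jcoh_IsLayer p U τ →
      (∀ a ∈ jcoh_fix U, ∃ n : ℤ, ‖(a : PadicAlgCl q)‖ = (q : ℝ) ^ n) →
      ∀ a ∈ jcoh_fix U, τ • a = a → ‖(a : PadicAlgCl q)‖ = 1 →
        ∃ b ∈ jcoh_fix U, ‖(b : PadicAlgCl q)‖ = 1 ∧ a = ∏ k ∈ Finset.range p, τ ^ k • b

end

end Fermat.Agent.S55
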