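/-
S55 (fifth wave), GLOBAL side, package [J-COH] part 5 (helper21): elementary properties of a
local cyclic layer `(U, τ)` (`jcoh_IsLayer`), in the absolute model:
`τ` normalises `U` in both directions, `τ ^ d ∉ U` for `0 < d < p`, the group `jcoh_fix U`
is stable under `τ`, and an automorphism fixing `jcoh_fix U` lies in `U` (Galois correspondence
for the open subgroup `U`).
-/
import Fermat.Agent.S55.Global.JCohDefs

set_option autoImplicit false

namespace Fermat.Agent.S55

open Finset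

noncomputable section

section layer

variable {q : ℕ} [Fact q.Prime]

/-- An open subgroup is the fixing subgroup of its fixed field. -/
theorem jcoh_fixing_fixed (U : Subgroup (lcf_Gal q)) (hU : lcf_IsOpen U) :
    (IntermediateField.fixedField U).fixingSubgroup = U := by
  obtain ⟨E, hE, hEU⟩ := hU
  exact InfiniteGalois.fixingSubgroup_fixedField
    ⟨U, Subgroup.isClosed_of_isOpen U (Subgroup.isOpen_mono hEU E.fixingSubgroup_isOpen)⟩

/-- The fixed field of an open subgroup is finite over `ℚ_q`. -/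
theorem jcoh_fixed_finite (U : Subgroup (lcf_Gal q)) (hU : lcf_IsOpen U) :
    FiniteDimensional ℚ_[q] (IntermediateField.fixedField U) := by
  obtain ⟨E, hE, hEU⟩ := hU
  have h1 : IntermediateField.fixedField U ≤ E := by
    have := IntermediateField.fixedField_antitone hEU
    rwa [InfiniteGalois.fixedField_fixingSubgroup] at this
  exact FiniteDimensional.of_injective (IntermediateField.inclusion h1).toLinearMap
    (IntermediateField.inclusion h1).injective

theorem jcoh_mem_fixedField_iff (U : Subgroup (lcf_Gal q)) (a : (PadicAlgCl q)ˣ) :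
    (a : PadicAlgCl q) ∈ IntermediateField.fixedField U ↔ a ∈ jcoh_fix U := by
  rw [IntermediateField.mem_fixedField_iff]
  constructor
  · intro h g hg
    exact Units.ext (h g hg)
  · intro h g hg
    exact congrArg Units.val (h g hg)

/-- An automorphism which fixes all the units fixed by `U` lies in `U`. -/
theorem jcoh_mem_of_fix (U : Subgroup (lcf_Gal q)) (hU : lcf_IsOpen U) (g : lcf_Gal q)
    (hg : ∀ a ∈ jcoh_fix U, g • a = a) : g ∈ U := by
  rw [← jcoh_fixing_fixed U hU, IntermediateField.mem_fixingSubgroup_iff]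
  intro x hx
  by_cases hx0 : x = 0
  · rw [hx0, map_zero]
  · have := hg (Units.mk0 x hx0) ((jcoh_mem_fixedField_iff U _).1 hx)
    exact congrArg Units.val this

variable {p : ℕ} {U : Subgroup (lcf_Gal q)} {τ : lcf_Gal q}

theorem jcoh_IsLayer.pow_conj_mem (h : jcoh_IsLayer p U τ) (k : ℕ) (g : lcf_Gal q) (hg : g ∈ U) :
    τ ^ k * g * (τ ^ k)⁻¹ ∈ U := by
  induction k with
  | zero => simpa using hg
  | succ k ih =>
    have := h.conj_mem _ ih
    have e : τ ^ (k + 1) * g * (τ ^ (k + 1))⁻¹ = τ * (τ ^ k * g * (τ ^ k)⁻¹) * τ⁻¹ := by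
      rw [pow_succ']
      group
    rw [e]
    exact this

theorem jcoh_IsLayer.conj_mem' (h : jcoh_IsLayer p U τ) (hp : 0 < p) (g : lcf_Gal q)
    (hg : g ∈ U) : τ⁻¹ * g * τ ∈ U := by
  have h1 : (τ ^ p)⁻¹ * g * τ ^ p ∈ U := U.mul_mem (U.mul_mem (U.inv_mem h.pow_mem) hg) h.pow_mem
  have h2 := h.pow_conj_mem (p - 1) _ h1
  have e : τ ^ (p - 1) * ((τ ^ p)⁻¹ * g * τ ^ p) * (τ ^ (p - 1))⁻¹ = τ⁻¹ * g * τ := by
    have hp' : p = (p - 1) + 1 := by omega
    have e1 : τ ^ p = τ ^ (p - 1) * τ := by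
      conv_lhs => rw [hp', pow_succ]
    rw [e1]
    group
  rw [e] at h2
  exact h2

theorem jcoh_IsLayer.smul_mem_fix (h : jcoh_IsLayer p U τ) (hp : 0 < p) {a : (PadicAlgCl q)ˣ}
    (ha : a ∈ jcoh_fix U) : τ • a ∈ jcoh_fix U := by
  intro g hg
  have h1 := ha _ (h.conj_mem' hp g hg)
  rw [mul_smul, mul_smul, inv_smul_eq_iff] at h1
  exact h1

theorem jcoh_IsLayer.pow_smul_mem_fix (h : jcoh_IsLayer p U τ) (hp : 0 < p) (k : ℕ)
    {a : (PadicAlgCl q)ˣ} (ha : a ∈ jcoh_fix U) : τ ^ k • a ∈ jcoh_fix U := by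
  induction k with
  | zero => simpa using ha
  | succ k ih =>
    rw [pow_succ', mul_smul]
    exact h.smul_mem_fix hp ih

theorem jcoh_IsLayer.pow_smul_eq (h : jcoh_IsLayer p U τ) {a : (PadicAlgCl q)ˣ}
    (ha : a ∈ jcoh_fix U) : τ ^ p • a = a := ha _ h.pow_mem

/-- `τ ^ d ∉ U` for `0 < d < p`. -/
theorem jcoh_IsLayer.pow_not_mem (h : jcoh_IsLayer p U τ) (hp : p.Prime) (d : ℕ) (hd : 0 < d)
    (hdp : d < p) : τ ^ d ∉ U := by
  intro hmem
  have hcop : Nat.Coprime d p := by
    rw [Nat.coprime_comm, Nat.Prime.coprime_iff_not_dvd hp]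
    intro hdvd
    have := Nat.le_of_dvd hd hdvd
    omega
  -- `τ = (τ^d)^u * (τ^p)^v`
  have hb := Nat.gcd_eq_gcd_ab d p
  rw [hcop] at hb
  have h1 : τ ^ ((1 : ℕ) : ℤ) = (τ ^ d) ^ (Nat.gcdA d p) * (τ ^ p) ^ (Nat.gcdB d p) := by
    rw [hb, zpow_add, zpow_mul, zpow_mul, zpow_natCast, zpow_natCast]
  rw [Nat.cast_one, zpow_one] at h1
  apply h.not_mem
  rw [h1]
  exact U.mul_mem (U.zpow_mem hmem _) (U.zpow_mem h.pow_mem _)

/-- The restrictions of `1, τ, …, τ ^ (p-1)` to the fixed field of `U` are pairwise distinct. -/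
theorem jcoh_IsLayer.pow_inj (h : jcoh_IsLayer p U τ) (hp : p.Prime) {j k : ℕ} (hj : j < p)
    (hk : k < p) (hjk : ∀ a ∈ jcoh_fix U, τ ^ j • a = τ ^ k • a) : j = k := by
  by_contra hne
  wlog hlt : j < k generalizing j k
  · exact this hk hj (fun a ha => (hjk a ha).symm) (Ne.symm hne) (by omega)
  have hmem : τ ^ (k - j) ∈ U := by
    apply jcoh_mem_of_fix U h.isOpen
    intro a ha
    have h1 := hjk a ha
    have e : τ ^ k = τ ^ j * τ ^ (k - j) := by
      rw [← pow_add, Nat.add_sub_cancel' hlt.le]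
    rw [e, mul_smul] at h1
    exact (smul_left_cancel _ h1).symm
  exact h.pow_not_mem hp (k - j) (by omega) (by omega) hmem

end layer

end

end Fermat.Agent.S55
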