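/-
S55 (Poitou-Tate), GLOBAL side, [K-EX] (helper20): the assembly [KEX-MAIN-OF] with its
hypothesis-free leaves plugged in.  Prefix `kxm_`.

    theorem kxm_fin : kex_ExLargeStatement → kl_ExStatement

([KEX-PAIR] `kxp_main`, [KEX-UNR-PERP] `kxup_main` (helper12), [KEX-LEVEL] `kxv_main ekum_main`
(helper2, helper18), [KEX-REPSEXT] `kxe_main`.)
-/
import Mathlib
import Fermat.Agent.S55.Global.KExMainOf
import Fermat.Agent.S55.Global.KExRepsExt
import Fermat.Agent.S55.Global.KExLevel
import Fermat.Agent.S55.Global.EcoKum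
import Fermat.Agent.S55.Local.KExUnrPerp

set_option autoImplicit false

namespace Fermat.Agent.S55

/-- **[K-EX]** from [K-EX] for large `S`. -/
theorem kxm_fin (hL : kex_ExLargeStatement) : kl_ExStatement :=
  kxm_main hL kxp_main kxup_main (kxv_main ekum_main) kxe_main

end Fermat.Agent.S55
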