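/-
# S55 / GLOBAL, absolute level : [E-FIN]

`efin_main : eco_FinStatement` (the Prop of `Global/EcohDefs.lean`, verbatim): an element of
`ℚ̄ˣ` is a unit at all places above almost all primes.

Proof: `gdiag_norm_emb_eq_one` (`Global/Diag.lean`) for the algebraic extension `ℚ̄` of `ℚ` itself
and the embeddings `ι_q ∘ g`; the exceptional primes divide a denominator of a coefficient of the
minimal polynomial of `x` or of `x⁻¹`.
-/
import Mathlib
import Fermat.Agent.S55.Global.EcohDefs
import Fermat.Agent.S55.Global.Diag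

set_option autoImplicit false
set_option linter.style.haveILetI false

namespace Fermat.Agent.S55

noncomputable section

local notation "Qbar" => AlgebraicClosure ℚ

/-- The finite set of primes at which `x` or `x⁻¹` is possibly not integral. -/
def efin_bad (x : Qbarˣ) : Finset Nat.Primes :=
  ((gdiag_bad_finite (x : Qbar)).union (gdiag_bad_finite ((x⁻¹ : Qbarˣ) : Qbar))).toFinset

theorem efin_not_mem_bad {x : Qbarˣ} {q : Nat.Primes} (hq : q ∉ efin_bad x) :
    q ∉ gdiag_bad (x : Qbar) ∧ q ∉ gdiag_bad ((x⁻¹ : Qbarˣ) : Qbar) := by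
  unfold efin_bad at hq
  rw [Set.Finite.mem_toFinset, Set.mem_union, not_or] at hq
  exact hq

/-- `x` is a unit at every place above a prime outside `efin_bad x`. -/
theorem efin_isUnitAt (x : Qbarˣ) (q : Nat.Primes) (hq : q ∉ efin_bad x) :
    letI : Fact (q : ℕ).Prime := ⟨q.2⟩
    ak_IsUnitAt (q : ℕ) x := by
  letI : Fact (q : ℕ).Prime := ⟨q.2⟩
  haveI : Algebra.IsAlgebraic ℚ Qbar := AlgebraicClosure.isAlgebraic ℚ
  intro g
  have h := efin_not_mem_bad hq
  exact gdiag_norm_emb_eq_one (F := Qbar) x q h.1 h.2 (ak_iota (q : ℕ) g)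

/-- **[E-FIN]** -/
theorem efin_main : eco_FinStatement := fun x => ⟨efin_bad x, fun q hq => efin_isUnitAt x q hq⟩

end

end Fermat.Agent.S55
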