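/-
S55 (fifth wave), GLOBAL side (helper18): the elementary leaves of the [K-SHA] cut and [E-CLN],
HYPOTHESIS-FREE (the closed leaves [E-ORD] `eord_main` (helper23), [E-FIN] `efin_main`
(helper1), [E-REPS] `erep_main`, [E-CLN] `ecln_main` plugged into the adapters of
`Global/KShaAdapt.lean`).
-/
import Mathlib
import Fermat.Agent.S55.Global.KShaAdapt
import Fermat.Agent.S55.Global.EcoOrd
import Fermat.Agent.S55.Global.EcoFin

set_option autoImplicit false

namespace Fermat.Agent.S55

/-- **[E-CLN]**, hypothesis-free. -/
theorem ecln_fin : eco_ClnStatement := ecln_main eord_main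

/-- **[KSHA-ORD]**, hypothesis-free. -/
theorem ksad_ord_fin : ksha_OrdStatement := ksad_ord eord_main

/-- **[KSHA-PLACES]**, hypothesis-free. -/
theorem ksad_places_fin : ksha_PlacesStatement := ksad_places efin_main erep_main

/-- **[KSHA-CLN]**, hypothesis-free. -/
theorem ksad_cln_fin : ksha_ClnStatement := ksad_cln ecln_fin

end Fermat.Agent.S55
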