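/-
S55 (fifth wave), GLOBAL side, [K-EX] package, [KSHA-ARTPERF] with all closed leaves plugged
(helper8).  Prefix `kxa_`.

  `kxa_of_ex  : kl_ExStatement → ksha_ArtPerfStatement`
  `kxa_fin    : kex_ExLargeStatement → ksha_ArtPerfStatement`

Plugged: [KEX-LEVEL] `kxv_main ekum_main`, [KEX-PAIR] `kxp_main`, [KEX-TAME] `kxt_main`,
[KEX-ARTNZ] `kxz_main`, [KEX-KUMGEN] `kxk_main`, [KSHA-ORD] `ksad_ord_fin`,
[KEX-REPSEXT] `kxe_main`; and [KEX-MAIN] `kxm_fin` for the second form.
-/
import Fermat.Agent.S55.Global.KExArtPerf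
import Fermat.Agent.S55.Global.KExLevel
import Fermat.Agent.S55.Global.EcoKum
import Fermat.Agent.S55.Global.KExPair
import Fermat.Agent.S55.Local.KExTame
import Fermat.Agent.S55.Local.KExArtNz
import Fermat.Agent.S55.Global.KExKumGen
import Fermat.Agent.S55.Global.KShaAdaptFin
import Fermat.Agent.S55.Global.KExRepsExt
import Fermat.Agent.S55.Global.KExMainFin

set_option autoImplicit false

namespace Fermat.Agent.S55

/-- **[KSHA-ARTPERF]** from [K-EX]. -/
theorem kxa_of_ex (hEx : kl_ExStatement) : ksha_ArtPerfStatement :=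
  kxa_main hEx (kxv_main ekum_main) kxp_main kxt_main kxz_main kxk_main ksad_ord_fin kxe_main

/-- **[KSHA-ARTPERF]** from [K-EX] for large `S`. -/
theorem kxa_fin (hL : kex_ExLargeStatement) : ksha_ArtPerfStatement :=
  kxa_of_ex (kxm_fin hL)

end Fermat.Agent.S55
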