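/-
S55 (fifth wave), GLOBAL side, package [K-EX], leaf [KEX-DEG] = `kex_DegStatement`
(Global/KExDefs.lean): `#R_q · [Γ_q : kl_H K q] = [G_ℚ : U]` (helper2).  Prefix `kxd_`.

EXPORT:  `theorem kxd_main : kex_DegStatement`  (hypothesis-free).

ROUTE (pure group theory).  `loc : Γ → G` a homomorphism, `U ≤ G` normal, `H = loc⁻¹ U`,
`R ⊆ G` a system of representatives of the double cosets `loc(Γ) \ G / U`.  The map
`R × Γ/H → G/U`, `(g₀, τ H) ↦ loc(τ) g₀ U`, is well defined and bijective.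
-/
import Fermat.Agent.S55.Global.KExDefs

set_option autoImplicit false

namespace Fermat.Agent.S55

noncomputable section

section kxdabs

variable {G Γ : Type*} [Group G] [Group Γ] (loc : Γ →* G) (U : Subgroup G) [hU : U.Normal]

omit hU in
theorem kxd_mem_comap (τ : Γ) : τ ∈ U.comap loc ↔ loc τ ∈ U := Iff.rfl

/-- `loc(τ) g₀ U` depends only on `τ H`. -/
theorem kxd_wd (g₀ : G) (τ τ' : Γ) (h : τ⁻¹ * τ' ∈ U.comap loc) :
    (QuotientGroup.mk (loc τ * g₀) : G ⧸ U) = QuotientGroup.mk (loc τ' * g₀) := by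
  rw [QuotientGroup.eq]
  have h1 : loc (τ⁻¹ * τ') ∈ U := h
  have h2 := hU.conj_mem _ h1 g₀⁻¹
  have e : (loc τ * g₀)⁻¹ * (loc τ' * g₀) = g₀⁻¹ * loc (τ⁻¹ * τ') * g₀⁻¹⁻¹ := by
    rw [map_mul, map_inv]
    group
  rw [e]
  exact h2

/-- The map `R × Γ/H → G/U`. -/
def kxd_Phi (R : Finset G) : ↥R × (Γ ⧸ U.comap loc) → G ⧸ U :=
  fun x => Quotient.liftOn' x.2 (fun τ => (QuotientGroup.mk (loc τ * (x.1 : G)) : G ⧸ U))
    (fun τ τ' h => kxd_wd loc U (x.1 : G) τ τ' (QuotientGroup.leftRel_apply.1 h))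

theorem kxd_Phi_mk (R : Finset G) (g₀ : ↥R) (τ : Γ) :
    kxd_Phi loc U R (g₀, (QuotientGroup.mk τ : Γ ⧸ U.comap loc)) =
      QuotientGroup.mk (loc τ * (g₀ : G)) := rfl

theorem kxd_Phi_bijective (R : Finset G)
    (hR : ∀ g : G, ∃! g₀ : G, g₀ ∈ R ∧ ∃ (τ : Γ) (u : G), u ∈ U ∧ g = loc τ * g₀ * u) :
    Function.Bijective (kxd_Phi loc U R) := by
  constructor
  · rintro ⟨⟨g₀, hg₀⟩, x⟩ ⟨⟨g₀', hg₀'⟩, x'⟩ h
    induction x using QuotientGroup.induction_on with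
    | H τ =>
    induction x' using QuotientGroup.induction_on with
    | H τ' =>
    rw [kxd_Phi_mk, kxd_Phi_mk, QuotientGroup.eq] at h
    have h1 : (loc τ * g₀)⁻¹ * (loc τ' * g₀') ∈ U := h
    -- both `g₀` and `g₀'` represent `loc τ' * g₀'`
    obtain ⟨r, -, hr⟩ := hR (loc τ' * g₀')
    have e1 : g₀ = r := by
      apply hr
      refine ⟨hg₀, τ, (loc τ * g₀)⁻¹ * (loc τ' * g₀'), h1, ?_⟩
      group
    have e2 : g₀' = r := by
      apply hr
      refine ⟨hg₀', τ', 1, U.one_mem, ?_⟩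
      group
    have e3 : g₀ = g₀' := e1.trans e2.symm
    subst e3
    have h2 : τ⁻¹ * τ' ∈ U.comap loc := by
      show loc (τ⁻¹ * τ') ∈ U
      have h3 := hU.conj_mem _ h1 g₀
      have e : g₀ * ((loc τ * g₀)⁻¹ * (loc τ' * g₀)) * g₀⁻¹ = loc (τ⁻¹ * τ') := by
        rw [map_mul, map_inv]
        group
      rwa [e] at h3
    have h4 : (QuotientGroup.mk τ : Γ ⧸ U.comap loc) = QuotientGroup.mk τ' :=
      QuotientGroup.eq.2 h2
    rw [h4]
  · intro y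
    induction y using QuotientGroup.induction_on with
    | H g =>
    obtain ⟨g₀, ⟨hg₀, τ, u, hu, hg⟩, -⟩ := hR g
    refine ⟨(⟨g₀, hg₀⟩, (QuotientGroup.mk τ : Γ ⧸ U.comap loc)), ?_⟩
    rw [kxd_Phi_mk, QuotientGroup.eq]
    show (loc τ * g₀)⁻¹ * g ∈ U
    have e : (loc τ * g₀)⁻¹ * g = u := by
      rw [hg]
      group
    rw [e]
    exact hu

/-- `#R · [Γ : H] = [G : U]`. -/
theorem kxd_abs (R : Finset G)
    (hR : ∀ g : G, ∃! g₀ : G, g₀ ∈ R ∧ ∃ (τ : Γ) (u : G), u ∈ U ∧ g = loc τ * g₀ * u) :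
    R.card * (U.comap loc).index = U.index := by
  have h1 := Nat.card_eq_of_bijective _ (kxd_Phi_bijective loc U R hR)
  rw [Nat.card_prod, Nat.card_eq_fintype_card, Fintype.card_coe] at h1
  exact h1

end kxdabs

/-- **[KEX-DEG]** `#R_q · [Γ_q : kl_H K q] = [G_ℚ : U]`. -/
theorem kxd_main : kex_DegStatement := by
  intro S K _ _ R hR q
  exact kxd_abs (localGaloisToGlobal ((q : Nat.Primes) : ℕ)) K.fixingSubgroup (R q) (hR q)

end

end Fermat.Agent.S55
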