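/-
S55 (fifth wave), GLOBAL side, package [K-EX], leaf [KEX-GLOBCOUNT] = `kex_GlobCountStatement`
(Global/KExDefs.lean) (helper2).  Prefix `kxg_`.

EXPORT:  `theorem kxg_main : kex_UnitsStatement → eco_KumStatement → kex_GlobCountStatement`.

ROUTE.  For `x ∈ E₀` choose `α = kxg_root p x` with `α ^ p = x` and put
`y_x (σ) = log_ζ (σ α / α)` (`kxg_char`): a character of `U` (`ζ, x ∈ K`), of level `S` by
[E-KUM] (`F := K`, `k = 1`, `X = {x}`; an `S`-unit has `ord = 0` outside `S`).  If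
`y_x ∘ r_w = y_x' ∘ r_w` on `kl_H K q`, then `r_w τ` fixes `γ = α / α'`, so `τ` fixes
`β = ak_emb q g γ`, and `β ^ p = ak_emb q g (x / x')`; [KEX-UNITS] gives `x = x'`.
-/
import Fermat.Agent.S55.Global.KExDefs
import Fermat.Agent.S55.Global.KShaBasic

set_option autoImplicit false
set_option linter.style.haveILetI false
set_option maxHeartbeats 1000000
set_option synthInstance.maxHeartbeats 400000
open CategoryTheory Module groupCohomology ExtCitation

noncomputable section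

namespace Fermat.Agent.S55

local notation "Qbar" => AlgebraicClosure ℚ

section kxg

/-- Every unit of `ℚ̄` has a `p`-th root. -/
theorem kxg_exists_root (p : ℕ) [Fact p.Prime] (x : Qbarˣ) : ∃ α : Qbarˣ, α ^ p = x := by
  have hp : 0 < p := (Fact.out : p.Prime).pos
  obtain ⟨z, hz⟩ := IsAlgClosed.exists_pow_nat_eq (x : Qbar) hp
  have hz0 : z ≠ 0 := by
    rintro rfl
    rw [zero_pow hp.ne'] at hz
    exact x.ne_zero hz.symm
  refine ⟨Units.mk0 z hz0, ?_⟩
  apply Units.ext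
  rw [Units.val_pow_eq_pow_val]
  exact hz

/-- A chosen `p`-th root. -/
def kxg_root (p : ℕ) [Fact p.Prime] (x : Qbarˣ) : Qbarˣ := Classical.choose (kxg_exists_root p x)

theorem kxg_root_pow (p : ℕ) [Fact p.Prime] (x : Qbarˣ) : kxg_root p x ^ p = x :=
  Classical.choose_spec (kxg_exists_root p x)

variable {p : ℕ} [Fact p.Prime] (K : IntermediateField ℚ Qbar)

/-- The Kummer character `σ ↦ log_ζ (σ α / α)` of `α`. -/
def kxg_char (α : Qbarˣ) : ↥K.fixingSubgroup → ZMod p := fun σ =>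
  open Classical in
  if h : ∃ a : ZMod p, ksha_zeta p ^ a.val = σ • α / α then Classical.choose h else 0

theorem kxg_smul_of_mem (x : Qbarˣ) (hx : (x : Qbar) ∈ K) (σ : ↥K.fixingSubgroup) :
    σ • x = x := by
  apply Units.ext
  exact σ.2 ⟨(x : Qbar), hx⟩

theorem kxg_char_spec (α : Qbarˣ) (hα : ((α ^ p : Qbarˣ) : Qbar) ∈ K)
    (σ : ↥K.fixingSubgroup) :
    ksha_zeta p ^ (kxg_char (p := p) K α σ).val = σ • α / α := by
  have h1 : (σ • α / α) ^ p = 1 := by
    rw [div_pow, ← smul_pow', kxg_smul_of_mem K _ hα σ, div_self']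
  have h : ∃ a : ZMod p, ksha_zeta p ^ a.val = σ • α / α :=
    ksha_exists_log (ksha_zeta_prim p) _ h1
  unfold kxg_char
  rw [dif_pos h]
  exact Classical.choose_spec h

theorem kxg_char_isHom (hcyc : ∀ s ∈ K.fixingSubgroup, cycloChar p s = 1) (α : Qbarˣ)
    (hα : ((α ^ p : Qbarˣ) : Qbar) ∈ K) : kl_IsHom (kxg_char (p := p) K α) := by
  intro g h
  apply ksha_pow_val_injective (ksha_zeta_prim p)
  rw [ksha_pow_val_add (ksha_zeta_pow p), kxg_char_spec K α hα, kxg_char_spec K α hα,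
    kxg_char_spec K α hα]
  have h1 : g • (h • α / α) = h • α / α := by
    rw [← kxg_char_spec K α hα h]
    exact ksha_smul_zeta_pow K hcyc g _
  have h2 : (g * h) • α / α = g • (h • α / α) * (g • α / α) := by
    rw [smul_div', mul_smul]
    exact (div_mul_div_cancel _ _ _).symm
  rw [h2, h1, mul_comm]

theorem kxg_char_eq_zero (α : Qbarˣ) (hα : ((α ^ p : Qbarˣ) : Qbar) ∈ K)
    (s : ↥K.fixingSubgroup) (hs : s • α = α) : kxg_char (p := p) K α s = 0 := by
  apply ksha_pow_val_injective (ksha_zeta_prim p)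
  rw [kxg_char_spec K α hα, hs, div_self', ksha_pow_val_zero]

/-- If the Kummer characters of `α` and `α'` agree at `σ`, then `σ` fixes `α / α'`. -/
theorem kxg_fix_of_eq (α α' : Qbarˣ) (hα : ((α ^ p : Qbarˣ) : Qbar) ∈ K)
    (hα' : ((α' ^ p : Qbarˣ) : Qbar) ∈ K) (σ : ↥K.fixingSubgroup)
    (h : kxg_char (p := p) K α σ = kxg_char (p := p) K α' σ) : σ • (α / α') = α / α' := by
  have h1 := kxg_char_spec K α hα σ
  have h2 := kxg_char_spec K α' hα' σ
  rw [h] at h1
  have h3 : σ • α / α = σ • α' / α' := h1.symm.trans h2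
  rw [smul_div']
  rw [div_eq_div_iff_mul_eq_mul] at h3 ⊢
  rw [h3]
  exact mul_comm _ _

/-- `τ` fixes `ak_emb q g γ` if `r_(q,g) τ` fixes `γ`. -/
theorem kxg_emb_fixed [K.fixingSubgroup.Normal] (q : Nat.Primes) (g : s55_GQ)
    (τ : ↥(kl_H K q)) (γ : Qbarˣ) (h : kl_r K q g τ • γ = γ) :
    τ • ak_emb (q : ℕ) g γ = ak_emb (q : ℕ) g γ := by
  apply Units.ext
  show (τ : lcf_Gal (q : ℕ)) (padicEmbedding (q : ℕ) (g (γ : Qbar))) =
    padicEmbedding (q : ℕ) (g (γ : Qbar))
  rw [← padicEmbedding_localGaloisToGlobal]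
  congr 1
  have h1 := congrArg (fun u : Qbarˣ => (u : Qbar)) h
  have h2 : g⁻¹ (localGaloisToGlobal (q : ℕ) (τ : lcf_Gal (q : ℕ)) (g (γ : Qbar))) =
      (γ : Qbar) := h1
  have h3 := congrArg g h2
  have h4 : g (g⁻¹ (localGaloisToGlobal (q : ℕ) (τ : lcf_Gal (q : ℕ)) (g (γ : Qbar)))) =
      localGaloisToGlobal (q : ℕ) (τ : lcf_Gal (q : ℕ)) (g (γ : Qbar)) :=
    AlgEquiv.apply_symm_apply g _
  exact h4.symm.trans h3

end kxg

/-- **[KEX-GLOBCOUNT]** from [KEX-UNITS] and [E-KUM]. -/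
theorem kxg_main : kex_UnitsStatement → eco_KumStatement → kex_GlobCountStatement := by
  intro hU hKum p _ hp2 K _ hfd hcyc
  obtain ⟨S₀, hS₀⟩ := hU p hp2 K hfd hcyc
  refine ⟨S₀, fun S hS hpS hunr R hR => ?_⟩
  obtain ⟨E₀, hE1, hE2, hE3⟩ := hS₀ S hS hpS hunr R hR
  classical
  have hroot : ∀ x ∈ E₀, (((kxg_root p x) ^ p : Qbarˣ) : Qbar) ∈ K := by
    intro x hx
    rw [kxg_root_pow]
    exact (hE1 x hx).1
  -- distinct localisations
  have hloc : ∀ x ∈ E₀, ∀ x' ∈ E₀,
      (∀ (q : ↥S), ∀ g ∈ R q, ∀ τ : ↥(kl_H K (q : Nat.Primes)),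
        kxg_char (p := p) K (kxg_root p x) (kl_r K (q : Nat.Primes) g τ) =
          kxg_char (p := p) K (kxg_root p x') (kl_r K (q : Nat.Primes) g τ)) → x = x' := by
    intro x hx x' hx' h
    apply hE3 x hx x' hx'
    intro q g hg
    refine ⟨ak_emb ((q : Nat.Primes) : ℕ) g (kxg_root p x / kxg_root p x'), fun τ => ?_, ?_⟩
    · apply kxg_emb_fixed K (q : Nat.Primes) g τ
      exact kxg_fix_of_eq K _ _ (hroot x hx) (hroot x' hx') _ (h q g hg τ)
    · rw [← map_pow, div_pow, kxg_root_pow, kxg_root_pow]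
  -- the setting of [E-KUM]
  have hset : eco_Setting p S K :=
    { prime := Fact.out
      odd := hp2
      mem := by
        intro q hq
        have : q = pPrime p := Subtype.ext hq
        rw [this]
        exact hpS
      unr := hunr
      zeta := ksha_exists_zeta K hcyc }
  have hlevK : eco_SLevel p S K K :=
    { lev :=
        { le := le_rfl
          fin := hfd
          normal := fun u hu s hs =>
            K.fixingSubgroup.mul_mem (K.fixingSubgroup.mul_mem (K.fixingSubgroup.inv_mem hu) hs)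
              hu }
      unr := hunr
      pl := ⟨0, by
        rw [pow_zero, Subgroup.index_eq_one]
        exact Subgroup.subgroupOf_self _⟩ }
  refine ⟨E₀.image (fun x => kxg_char (p := p) K (kxg_root p x)), ?_, ?_, ?_⟩
  · intro y hy
    obtain ⟨x, hx, rfl⟩ := Finset.mem_image.1 hy
    refine ⟨kxg_char_isHom K hcyc _ (hroot x hx), ?_⟩
    have hX : ∀ x₁ ∈ ({x} : Finset Qbarˣ), (x₁ : Qbar) ∈ K ∧ eco_OrdDvd S (p ^ 1) x₁ := by
      intro x₁ hx₁
      rw [Finset.mem_singleton] at hx₁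
      subst hx₁
      refine ⟨(hE1 x₁ hx).1, fun w hw => ⟨0, ?_⟩⟩
      have h1 := (hE1 x₁ hx).2 w.1 hw w.2
      show ‖padicEmbedding (w.1 : ℕ) (w.2 (x₁ : Qbar))‖ = ((w.1 : ℕ) : ℝ) ^ (-(((p ^ 1 : ℕ) : ℤ) * 0))
      rw [mul_zero, neg_zero, zpow_zero]
      exact h1
    obtain ⟨F', -, hF', hF'2⟩ := hKum p S K K hset hlevK 1 {x} hX
    refine ⟨F', hF'.unr, fun g s hs => ?_⟩
    have hα : ((kxg_root p x : Qbarˣ) : Qbar) ∈ F' :=
      hF'2 x (Finset.mem_singleton_self x) (kxg_root p x) (by rw [pow_one]; exact kxg_root_pow p x)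
    have hsα : s • kxg_root p x = kxg_root p x := by
      apply Units.ext
      exact hs ⟨_, hα⟩
    rw [kxg_char_isHom K hcyc _ (hroot x hx) g s,
      kxg_char_eq_zero K _ (hroot x hx) s hsα, add_zero]
  · have hinj : Set.InjOn (fun x => kxg_char (p := p) K (kxg_root p x)) (E₀ : Set Qbarˣ) := by
      intro x hx x' hx' h
      apply hloc x hx x' hx'
      intro q g _ τ
      exact congrFun h _
    rw [Finset.card_image_of_injOn hinj]
    exact hE2
  · intro y hy y' hy' h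
    obtain ⟨x, hx, rfl⟩ := Finset.mem_image.1 hy
    obtain ⟨x', hx', rfl⟩ := Finset.mem_image.1 hy'
    have := hloc x hx x' hx' h
    rw [this]

end Fermat.Agent.S55
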