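/-
S55 (fifth wave), GLOBAL side, package [AK-CONJ] (helper2):
`akc_main : ak_ConjStatement`  (HYPOTHESIS-FREE): the local invariant at `(q, g)` of a cocycle of
`U = G_K` of some level depends only on the place of `K` defined by `(q, g)`.

DICTIONARY of the absolute localisation (reusable for the other absolute imports):
* `akc_emb_smul` : `ak_emb q g (ak_r K q g x • m) = x • ak_emb q g m`;
* `akc_conj_mem_fix` : if `τ` fixes `ι_q (g L)` pointwise then `g⁻¹ * loc_q τ * g ∈ G_L`;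
* `akc_H_isOpen` : `ak_H K q g` is open (`K` finite over `ℚ`);
* `akc_loc₁_smooth`, `akc_loc₂_smooth`, `akc_loc₂_isMulCocycle`, `akc_loc₂_isCoc`,
  `akc_loc₂_mul`, `akc_loc_d₁_isCob` : localisation of cochains of level `F`;
* `akc_conj_eq` : the homotopy `u • f (u⁻¹ a u, u⁻¹ b u) = f (a, b) · d(c)(a, b)`,
  `c a = f (u, u⁻¹ a u) / f (a, u)`, for a 2-cocycle `f` and `u ∈ U`;
* `akc_inv_mul_right` : `inv` at `(q, g * u)` = `inv` at `(q, g)` for `u ∈ U`;
* `akc_inv_loc_left` : `inv` at `(q, loc_q τ * g)` = `inv` at `(q, g)`   ((I6)).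
-/
import Mathlib
import Fermat.Agent.S55.Global.AbsDefs
import Fermat.Agent.S55.Global.Supp
import Fermat.Agent.S55.Local.InvBuild

set_option autoImplicit false
set_option linter.style.haveILetI false
set_option linter.unusedSectionVars false

namespace Fermat.Agent.S55

open groupCohomology

noncomputable section

local notation "Qbar" => AlgebraicClosure ℚ

/-! ### A commutative-group identity -/

theorem akc_add_aux {A : Type*} [AddCommGroup A]
    (uf af_ub af_bu f_au_b f_a_u f_a_bu f_ab_u f_ab f_u_a f_u_ab : A)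
    (h1 : f_au_b + f_a_u = af_ub + f_a_bu) (h2 : f_ab_u + f_ab = af_bu + f_a_bu)
    (h3 : f_au_b + f_u_a = uf + f_u_ab) :
    uf = f_ab + (af_ub - af_bu - (f_u_ab - f_ab_u) + (f_u_a - f_a_u)) := by
  have e1 : af_ub = f_au_b + f_a_u - f_a_bu := eq_sub_of_add_eq h1.symm
  have e2 : af_bu = f_ab_u + f_ab - f_a_bu := eq_sub_of_add_eq h2.symm
  have e3 : uf = f_au_b + f_u_a - f_u_ab := eq_sub_of_add_eq h3.symm
  rw [e1, e2, e3]
  abel

theorem akc_mul_aux {B : Type*} [CommGroup B]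
    (uf af_ub af_bu f_au_b f_a_u f_a_bu f_ab_u f_ab f_u_a f_u_ab : B)
    (h1 : f_au_b * f_a_u = af_ub * f_a_bu) (h2 : f_ab_u * f_ab = af_bu * f_a_bu)
    (h3 : f_au_b * f_u_a = uf * f_u_ab) :
    uf = f_ab * (af_ub / af_bu / (f_u_ab / f_ab_u) * (f_u_a / f_a_u)) :=
  akc_add_aux (A := Additive B) uf af_ub af_bu f_au_b f_a_u f_a_bu f_ab_u f_ab f_u_a f_u_ab
    h1 h2 h3

/-! ### The homotopy for inner automorphisms -/

section homotopy

variable {G : Type*} [Group G] {M : Type*} [CommGroup M] [MulDistribMulAction G M]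

/-- The conjugate of a 2-cochain by `u`. -/
def akc_conj (u : G) (f : G × G → M) : G × G → M :=
  fun x => u • f (u⁻¹ * x.1 * u, u⁻¹ * x.2 * u)

/-- The homotopy 1-cochain. -/
def akc_hom (u : G) (f : G × G → M) : G → M :=
  fun a => f (u, u⁻¹ * a * u) / f (a, u)

theorem akc_conj_eq (u : G) (f : G × G → M) (hf : IsMulCocycle₂ f) (a b : G) :
    akc_conj u f (a, b) =
      f (a, b) * (a • akc_hom u f b / akc_hom u f (a * b) * akc_hom u f a) := by
  have h1 := hf a u (u⁻¹ * b * u)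
  have h2 := hf a b u
  have h3 := hf u (u⁻¹ * a * u) (u⁻¹ * b * u)
  have e1 : u * (u⁻¹ * b * u) = b * u := by group
  have e2 : u * (u⁻¹ * a * u) = a * u := by group
  have e3 : u⁻¹ * a * u * (u⁻¹ * b * u) = u⁻¹ * (a * b) * u := by group
  rw [e1] at h1
  rw [e2, e3] at h3
  show u • f (u⁻¹ * a * u, u⁻¹ * b * u) = _
  unfold akc_hom
  rw [smul_div']
  exact akc_mul_aux _ _ _ _ _ _ _ _ _ _ h1 h2 h3

end homotopy

/-! ### The dictionary of the localisation -/

section dict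

variable (K : IntermediateField ℚ Qbar) (q : ℕ) [Fact q.Prime] (g : s55_GQ)

theorem akc_emb_smul (x : ↥(ak_H K q g)) (m : Qbarˣ) :
    ak_emb q g ((ak_r K q g x) • m) = x • ak_emb q g m := by
  apply Units.ext
  show padicEmbedding q (g (((ak_r K q g x : ↥K.fixingSubgroup) : s55_GQ) (m : Qbar))) =
    (x : lcf_Gal q) (padicEmbedding q (g (m : Qbar)))
  rw [ak_r_coe, ← padicEmbedding_localGaloisToGlobal]
  congr 1
  show g (g⁻¹ (localGaloisToGlobal q (x : lcf_Gal q) (g (m : Qbar)))) = _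
  exact AlgEquiv.apply_symm_apply g _

theorem akc_emb_mul_right (u : s55_GQ) (m : Qbarˣ) :
    ak_emb q (g * u) m = ak_emb q g (u • m) := rfl

theorem akc_emb_loc_left (τ : lcf_Gal q) (m : Qbarˣ) :
    ak_emb q (localGaloisToGlobal q τ * g) m = τ • ak_emb q g m := by
  apply Units.ext
  show padicEmbedding q (localGaloisToGlobal q τ (g (m : Qbar))) =
    τ (padicEmbedding q (g (m : Qbar)))
  exact padicEmbedding_localGaloisToGlobal q τ _

/-- If `τ` fixes `ι_q (g L)` pointwise, then `g⁻¹ * loc_q τ * g ∈ G_L`. -/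
theorem akc_conj_mem_fix (L : IntermediateField ℚ Qbar) (τ : lcf_Gal q)
    (h : ∀ x : ↥L, τ (ak_iota q g (x : Qbar)) = ak_iota q g (x : Qbar)) :
    g⁻¹ * localGaloisToGlobal q τ * g ∈ L.fixingSubgroup := by
  rw [IntermediateField.mem_fixingSubgroup_iff]
  intro x hx
  show g⁻¹ (localGaloisToGlobal q τ (g x)) = x
  have h1 : localGaloisToGlobal q τ (g x) = g x := by
    apply (padicEmbedding q).toRingHom.injective
    show padicEmbedding q (localGaloisToGlobal q τ (g x)) = padicEmbedding q (g x)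
    rw [padicEmbedding_localGaloisToGlobal]
    exact h ⟨x, hx⟩
  rw [h1]
  exact AlgEquiv.symm_apply_apply g x

/-- The embedding of the finite level `L` at `(q, g)`. -/
def akc_iotaL (L : IntermediateField ℚ Qbar) : ↥L →ₐ[ℚ] PadicAlgCl q :=
  (ak_iota q g).comp L.val

theorem akc_iotaL_apply (L : IntermediateField ℚ Qbar) (x : ↥L) :
    akc_iotaL q g L x = ak_iota q g (x : Qbar) := rfl

/-- The finite extension `ℚ_q(ι_q (g L))` of `ℚ_q`. -/
def akc_E (L : IntermediateField ℚ Qbar) : IntermediateField ℚ_[q] (PadicAlgCl q) :=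
  IntermediateField.adjoin ℚ_[q] (Set.range (akc_iotaL q g L))

theorem akc_E_finite (L : IntermediateField ℚ Qbar) (hL : FiniteDimensional ℚ L) :
    FiniteDimensional ℚ_[q] ↥(akc_E q g L) :=
  gsup_finite_adjoin q ↥L (akc_iotaL q g L)

theorem akc_fix_of_mem (L : IntermediateField ℚ Qbar) (τ : lcf_Gal q)
    (hτ : τ ∈ (akc_E q g L).fixingSubgroup) (x : ↥L) :
    τ (ak_iota q g (x : Qbar)) = ak_iota q g (x : Qbar) := by
  rw [IntermediateField.mem_fixingSubgroup_iff] at hτ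
  exact hτ _ (IntermediateField.subset_adjoin _ _ ⟨x, rfl⟩)

theorem akc_H_isOpen (hK : FiniteDimensional ℚ K) : lcf_IsOpen (ak_H K q g) := by
  refine ⟨akc_E q g K, akc_E_finite q g K hK, fun τ hτ => ?_⟩
  rw [ak_mem_H_iff]
  exact akc_conj_mem_fix q g K τ (akc_fix_of_mem q g K τ hτ)

theorem akc_r_mem_fix (F : IntermediateField ℚ Qbar) (s : ↥(ak_H K q g))
    (hs : (s : lcf_Gal q) ∈ (akc_E q g F).fixingSubgroup) :
    ((ak_r K q g s : ↥K.fixingSubgroup) : s55_GQ) ∈ F.fixingSubgroup := by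
  rw [ak_r_coe]
  exact akc_conj_mem_fix q g F _ (akc_fix_of_mem q g F _ hs)

theorem akc_loc₁_smooth {X : Type*} (F : IntermediateField ℚ Qbar) (hF : FiniteDimensional ℚ F)
    (b : ↥K.fixingSubgroup → X) (hb : ak_Const₁ K F b) :
    lcf_Smooth₁ (ak_H K q g) (fun x => b (ak_r K q g x)) := by
  refine ⟨akc_E q g F, akc_E_finite q g F hF, fun x s hs => ?_⟩
  show b (ak_r K q g (x * s)) = b (ak_r K q g x)
  rw [map_mul]
  exact hb _ _ (akc_r_mem_fix K q g F s hs)

theorem akc_loc₂_smooth (F : IntermediateField ℚ Qbar) (hF : FiniteDimensional ℚ F)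
    (f : ↥K.fixingSubgroup × ↥K.fixingSubgroup → Qbarˣ) (hf : ak_Const₂ K F f) :
    lcf_Smooth₂ (ak_H K q g) (ak_loc₂ K q g f) := by
  refine ⟨akc_E q g F, akc_E_finite q g F hF, fun x y s s' hs hs' => ?_⟩
  show ak_emb q g (f (ak_r K q g (x * s), ak_r K q g (y * s'))) =
    ak_emb q g (f (ak_r K q g x, ak_r K q g y))
  rw [map_mul, map_mul, hf _ _ _ _ (akc_r_mem_fix K q g F s hs) (akc_r_mem_fix K q g F s' hs')]

theorem akc_loc₂_isMulCocycle (f : ↥K.fixingSubgroup × ↥K.fixingSubgroup → Qbarˣ)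
    (hf : IsMulCocycle₂ f) : IsMulCocycle₂ (ak_loc₂ K q g f) := by
  intro x y z
  have h := hf (ak_r K q g x) (ak_r K q g y) (ak_r K q g z)
  show ak_emb q g (f (ak_r K q g (x * y), ak_r K q g z)) *
      ak_emb q g (f (ak_r K q g x, ak_r K q g y)) =
    x • ak_emb q g (f (ak_r K q g y, ak_r K q g z)) *
      ak_emb q g (f (ak_r K q g x, ak_r K q g (y * z)))
  rw [← akc_emb_smul, ← map_mul, ← map_mul, map_mul (ak_r K q g), map_mul (ak_r K q g), h]

theorem akc_loc₂_isCoc (F : IntermediateField ℚ Qbar) (hF : FiniteDimensional ℚ F)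
    (f : ↥K.fixingSubgroup × ↥K.fixingSubgroup → Qbarˣ) (hf : IsMulCocycle₂ f)
    (hlev : ak_Const₂ K F f) : lcf_IsCoc (ak_H K q g) (ak_loc₂ K q g f) :=
  ⟨akc_loc₂_isMulCocycle K q g f hf, akc_loc₂_smooth K q g F hF f hlev⟩

/-- The localisation of the coboundary of a 1-cochain. -/
def akc_cobFun (c : ↥K.fixingSubgroup → Qbarˣ) :
    ↥(ak_H K q g) × ↥(ak_H K q g) → (PadicAlgCl q)ˣ :=
  fun x => ak_emb q g
    (ak_r K q g x.1 • c (ak_r K q g x.2) / c (ak_r K q g x.1 * ak_r K q g x.2) *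
      c (ak_r K q g x.1))

theorem akc_loc_d₁_isCob (F : IntermediateField ℚ Qbar) (hF : FiniteDimensional ℚ F)
    (c : ↥K.fixingSubgroup → Qbarˣ) (hc : ak_Const₁ K F c) :
    lcf_IsCob (ak_H K q g) (akc_cobFun K q g c) := by
  refine ⟨ak_loc₁ K q g c, ?_, fun x y => ?_⟩
  · obtain ⟨E, hE, h⟩ := akc_loc₁_smooth K q g F hF c hc
    exact ⟨E, hE, fun x s hs => congrArg (ak_emb q g) (h x s hs)⟩
  · show x • ak_emb q g (c (ak_r K q g y)) / ak_emb q g (c (ak_r K q g (x * y))) *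
      ak_emb q g (c (ak_r K q g x)) = _
    rw [← akc_emb_smul, map_mul (ak_r K q g), ← map_div, ← map_mul]
    rfl

end dict

/-! ### Independence of the representative of the place -/

section indep

variable {inv : lcf_InvType} (hinv : lcf_IsInvSystem inv)
  (K F : IntermediateField ℚ Qbar) (hK : FiniteDimensional ℚ K) (hlev : ak_IsLevel K F)
  (q : ℕ) [Fact q.Prime] (g : s55_GQ)
  (f : ↥K.fixingSubgroup × ↥K.fixingSubgroup → Qbarˣ) (hf : IsMulCocycle₂ f)
  (hfl : ak_Lev₂ K F f)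

theorem akc_H_mul_right (u : s55_GQ) (hu : u ∈ K.fixingSubgroup) :
    ak_H K q (g * u) = ak_H K q g := by
  ext τ
  rw [ak_mem_H_iff, ak_mem_H_iff]
  have e : (g * u)⁻¹ * localGaloisToGlobal q τ * (g * u) =
      u⁻¹ * (g⁻¹ * localGaloisToGlobal q τ * g) * u := by group
  rw [e]
  constructor
  · intro h
    have h1 := K.fixingSubgroup.mul_mem (K.fixingSubgroup.mul_mem hu h)
      (K.fixingSubgroup.inv_mem hu)
    have e2 : u * (u⁻¹ * (g⁻¹ * localGaloisToGlobal q τ * g) * u) * u⁻¹ =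
        g⁻¹ * localGaloisToGlobal q τ * g := by group
    rwa [e2] at h1
  · intro h
    exact K.fixingSubgroup.mul_mem (K.fixingSubgroup.mul_mem (K.fixingSubgroup.inv_mem hu) h) hu

include hlev hfl in
theorem akc_hom_const (u : ↥K.fixingSubgroup) : ak_Const₁ K F (akc_hom u f) := by
  intro a s hs
  unfold akc_hom
  have h1 : f (u, u⁻¹ * (a * s) * u) = f (u, u⁻¹ * a * u) := by
    have e : u⁻¹ * (a * s) * u = (u⁻¹ * a * u) * (u⁻¹ * s * u) := by group
    rw [e]
    have hs' : ((u⁻¹ * s * u : ↥K.fixingSubgroup) : s55_GQ) ∈ F.fixingSubgroup :=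
      hlev.normal u u.2 s hs
    have := hfl.1 u (u⁻¹ * a * u) 1 (u⁻¹ * s * u) (F.fixingSubgroup.one_mem) hs'
    rwa [mul_one] at this
  have h2 : f (a * s, u) = f (a, u) := by
    have := hfl.1 a u s 1 hs (F.fixingSubgroup.one_mem)
    rwa [mul_one] at this
  rw [h1, h2]

include hinv hK hlev hf hfl in
/-- The invariant at `(q, g * u)`, `u ∈ U`, equals the invariant at `(q, g)`. -/
theorem akc_inv_mul_right (u : s55_GQ) (hu : u ∈ K.fixingSubgroup) :
    ak_inv K q (g * u) inv f = ak_inv K q g inv f := by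
  have hF : FiniteDimensional ℚ F := hlev.fin
  have hU : lcf_IsOpen (ak_H K q g) := akc_H_isOpen K q g hK
  have hcoc : lcf_IsCoc (ak_H K q g) (ak_loc₂ K q g f) :=
    akc_loc₂_isCoc K q g F hF f hf hfl.1
  have hcob := akc_loc_d₁_isCob K q g F hF (akc_hom (⟨u, hu⟩ : ↥K.fixingSubgroup) f)
    (akc_hom_const K F hlev f hfl ⟨u, hu⟩)
  have hcoc' := linv_isCoc_of_isCob hcob
  have h1 : ak_inv K q (g * u) inv f = inv q (ak_H K q g) (ak_loc₂ K q g f *
      akc_cobFun K q g (akc_hom (⟨u, hu⟩ : ↥K.fixingSubgroup) f)) := by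
    refine ak_inv_congr inv q (akc_H_mul_right K q g u hu) _ _ ?_
    intro x y x' y' hx hy
    have hrx : ak_r K q (g * u) x = (⟨u, hu⟩ : ↥K.fixingSubgroup)⁻¹ * ak_r K q g x' *
        (⟨u, hu⟩ : ↥K.fixingSubgroup) := by
      apply Subtype.ext
      show ((ak_r K q (g * u) x : ↥K.fixingSubgroup) : s55_GQ) =
        u⁻¹ * ((ak_r K q g x' : ↥K.fixingSubgroup) : s55_GQ) * u
      rw [ak_r_coe, ak_r_coe, hx]
      group
    have hry : ak_r K q (g * u) y = (⟨u, hu⟩ : ↥K.fixingSubgroup)⁻¹ * ak_r K q g y' *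
        (⟨u, hu⟩ : ↥K.fixingSubgroup) := by
      apply Subtype.ext
      show ((ak_r K q (g * u) y : ↥K.fixingSubgroup) : s55_GQ) =
        u⁻¹ * ((ak_r K q g y' : ↥K.fixingSubgroup) : s55_GQ) * u
      rw [ak_r_coe, ak_r_coe, hy]
      group
    show ak_emb q (g * u) (f (ak_r K q (g * u) x, ak_r K q (g * u) y)) =
      ak_emb q g (f (ak_r K q g x', ak_r K q g y')) *
        akc_cobFun K q g (akc_hom (⟨u, hu⟩ : ↥K.fixingSubgroup) f) (x', y')
    unfold akc_cobFun
    rw [hrx, hry, akc_emb_mul_right, ← map_mul]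
    congr 1
    exact akc_conj_eq (⟨u, hu⟩ : ↥K.fixingSubgroup) f hf (ak_r K q g x') (ak_r K q g y')
  rw [h1, hinv.add q _ hU _ _ hcoc hcoc', (hinv.eq_zero_iff q _ hU _ hcoc').2 hcob, add_zero]
  rfl

theorem akc_H_loc_left (τ : lcf_Gal q) (γ : lcf_Gal q) :
    γ ∈ ak_H K q (localGaloisToGlobal q τ * g) ↔ τ⁻¹ * γ * τ ∈ ak_H K q g := by
  rw [ak_mem_H_iff, ak_mem_H_iff, map_mul, map_mul, map_inv]
  have e : (localGaloisToGlobal q τ * g)⁻¹ * localGaloisToGlobal q γ *
      (localGaloisToGlobal q τ * g) =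
      g⁻¹ * ((localGaloisToGlobal q τ)⁻¹ * localGaloisToGlobal q γ *
        localGaloisToGlobal q τ) * g := by group
  rw [e]

include hinv hK hlev hf hfl in
/-- The invariant at `(q, loc_q τ * g)` equals the invariant at `(q, g)`  ((I6)). -/
theorem akc_inv_loc_left (τ : lcf_Gal q) :
    ak_inv K q (localGaloisToGlobal q τ * g) inv f = ak_inv K q g inv f := by
  have hF : FiniteDimensional ℚ F := hlev.fin
  have hU : lcf_IsOpen (ak_H K q g) := akc_H_isOpen K q g hK
  have hcoc : lcf_IsCoc (ak_H K q g) (ak_loc₂ K q g f) :=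
    akc_loc₂_isCoc K q g F hF f hf hfl.1
  refine hinv.conj q (ak_H K q g) (ak_H K q (localGaloisToGlobal q τ * g)) τ hU
    (akc_H_loc_left K q g τ) _ _ hcoc ?_
  intro a b a' b' ha hb
  have hra : ak_r K q (localGaloisToGlobal q τ * g) a' = ak_r K q g a := by
    apply Subtype.ext
    rw [ak_r_coe, ak_r_coe, ha, map_mul, map_mul, map_inv]
    group
  have hrb : ak_r K q (localGaloisToGlobal q τ * g) b' = ak_r K q g b := by
    apply Subtype.ext
    rw [ak_r_coe, ak_r_coe, hb, map_mul, map_mul, map_inv]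
    group
  show ak_emb q (localGaloisToGlobal q τ * g)
      (f (ak_r K q (localGaloisToGlobal q τ * g) a', ak_r K q (localGaloisToGlobal q τ * g) b')) =
    τ • ak_emb q g (f (ak_r K q g a, ak_r K q g b))
  rw [hra, hrb, akc_emb_loc_left]

end indep

/-- **[AK-CONJ]** the local invariant of a cocycle of some level depends only on the place. -/
theorem akc_main : ak_ConjStatement := by
  intro inv hinv K F hK hlev f hf hfl w w' hww
  obtain ⟨q, g⟩ := w
  obtain ⟨q', g'⟩ := w'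
  letI : Fact (q : ℕ).Prime := ⟨q.2⟩
  have hww' : q = q' ∧ ∃ (τ : lcf_Gal (q : ℕ)) (u : s55_GQ), u ∈ K.fixingSubgroup ∧
      g' = localGaloisToGlobal (q : ℕ) τ * g * u := hww
  obtain ⟨hq, τ, u, hu, hg'⟩ := hww'
  subst hq
  subst hg'
  show ak_inv K (q : ℕ) g inv f = ak_inv K (q : ℕ) (localGaloisToGlobal (q : ℕ) τ * g * u) inv f
  rw [akc_inv_mul_right hinv K F hK hlev (q : ℕ) (localGaloisToGlobal (q : ℕ) τ * g) f hf hfl
    u hu, akc_inv_loc_left hinv K F hK hlev (q : ℕ) g f hf hfl τ]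

end

end Fermat.Agent.S55
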