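/-
S55 (fifth wave), GLOBAL side, package [K-EX] (helper25): SHARED SETUP of the assemblies.
Prefix `kex_`.

* `kex_b K inv q g θ η = kl_inv K inv q g (θ ∪ η)` : the local pairing at the place `(q, g)`;
  from [KEX-PAIR]: bi-additive, `p`-torsion values (in the image of `ptinv_e p`),
  right non-degenerate;
* `kex_Θ K q` : the smooth characters of `kl_H K q` (a finite `ZMod p`-module);
* `kex_Y S K` : the level-`S` characters of `U = G_K`;
* `kex_locFun K q g y = y ∘ kl_r K q g` and its smoothness.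
-/
import Fermat.Agent.S55.Global.KExDefs
import Fermat.Agent.S55.Global.KExLinAlg
import Fermat.Agent.S55.Global.KShaLocS
import Fermat.Agent.S55.Global.AkConj
import Fermat.Agent.S55.Local.FinKpHom
import Fermat.Agent.S55.Local.PtInv

set_option autoImplicit false
set_option maxHeartbeats 1000000
set_option synthInstance.maxHeartbeats 400000
open CategoryTheory Module groupCohomology ExtCitation

noncomputable section

namespace Fermat.Agent.S55

local notation "Qbar" => AlgebraicClosure ℚ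

/-! ### Smooth characters -/

section smooth

variable {q : ℕ} [Fact q.Prime] (U : Subgroup (lcf_Gal q))

theorem kex_smooth_zero {X : Type*} [Zero X] : lcf_Smooth₁ U (0 : ↥U → X) :=
  ⟨⊥, inferInstance, fun _ _ _ => rfl⟩

theorem kex_smooth_add {X : Type*} [Add X] {θ θ' : ↥U → X} (h : lcf_Smooth₁ U θ)
    (h' : lcf_Smooth₁ U θ') : lcf_Smooth₁ U (θ + θ') := by
  obtain ⟨E, hE, hθ⟩ := h
  obtain ⟨E', hE', hθ'⟩ := h'
  refine ⟨E ⊔ E', IntermediateField.finiteDimensional_sup E E', fun g s hs => ?_⟩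
  rw [IntermediateField.fixingSubgroup_sup] at hs
  show θ (g * s) + θ' (g * s) = θ g + θ' g
  rw [hθ g s hs.1, hθ' g s hs.2]

theorem kex_smooth_comp {X Y : Type*} {θ : ↥U → X} (h : lcf_Smooth₁ U θ) (f : X → Y) :
    lcf_Smooth₁ U (fun x => f (θ x)) := by
  obtain ⟨E, hE, hθ⟩ := h
  exact ⟨E, hE, fun g s hs => by show f (θ (g * s)) = f (θ g); rw [hθ g s hs]⟩

theorem kex_isHom_zero {H : Type*} [Mul H] {X : Type*} [AddZeroClass X] :
    kl_IsHom (0 : H → X) := fun _ _ => (add_zero (0 : X)).symm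

theorem kex_isHom_add {H : Type*} [Mul H] {X : Type*} [AddCommMonoid X] {θ θ' : H → X}
    (h : kl_IsHom θ) (h' : kl_IsHom θ') : kl_IsHom (θ + θ') := by
  intro a b
  show θ (a * b) + θ' (a * b) = θ a + θ' a + (θ b + θ' b)
  rw [h a b, h' a b]
  abel

theorem kex_isHom_smul {H : Type*} [Mul H] {p : ℕ} {θ : H → ZMod p} (c : ZMod p)
    (h : kl_IsHom θ) : kl_IsHom (fun x => c * θ x) := by
  intro a b
  show c * θ (a * b) = c * θ a + c * θ b
  rw [h a b, mul_add]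

end smooth

/-- The smooth characters `U → F_p` of a subgroup `U` of the local Galois group. -/
def kex_Hom {q : ℕ} [Fact q.Prime] (p : ℕ) (U : Subgroup (lcf_Gal q)) :
    Submodule (ZMod p) (↥U → ZMod p) where
  carrier := {θ | kl_IsHom θ ∧ lcf_Smooth₁ U θ}
  zero_mem' := ⟨kex_isHom_zero, kex_smooth_zero U⟩
  add_mem' := fun h h' => ⟨kex_isHom_add h.1 h'.1, kex_smooth_add U h.2 h'.2⟩
  smul_mem' := fun c _ h => ⟨kex_isHom_smul c h.1, kex_smooth_comp U h.2 (fun x => c * x)⟩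

theorem kex_mem_Hom {q : ℕ} [Fact q.Prime] {p : ℕ} {U : Subgroup (lcf_Gal q)}
    (θ : ↥U → ZMod p) : θ ∈ kex_Hom p U ↔ kl_IsHom θ ∧ lcf_Smooth₁ U θ := Iff.rfl

/-- the multiplicative character of a character. -/
def kex_toMul {q : ℕ} [Fact q.Prime] {p : ℕ} {U : Subgroup (lcf_Gal q)} (θ : ↥U → ZMod p)
    (h : kl_IsHom θ) : ↥U →* Multiplicative (ZMod p) :=
  MonoidHom.mk' (fun x => Multiplicative.ofAdd (θ x)) (fun a b => by
    rw [h a b]; rfl)

/-- **finiteness of the smooth characters** (from [FIN-HOM]). -/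
theorem kex_Hom_finite {q : ℕ} [Fact q.Prime] (p : ℕ) [Fact p.Prime] (U : Subgroup (lcf_Gal q))
    (hU : lcf_IsOpen U) : Finite ↥(kex_Hom p U) := by
  have hfin := lfk_finHom q p U hU
  have : Finite ↥{θ : ↥U →* Multiplicative (ZMod p) | lcf_Smooth₁ U θ} := hfin.to_subtype
  let f : ↥(kex_Hom p U) → ↥{θ : ↥U →* Multiplicative (ZMod p) | lcf_Smooth₁ U θ} :=
    fun θ => ⟨kex_toMul θ.1 θ.2.1, by
      obtain ⟨E, hE, hθ⟩ := θ.2.2
      exact ⟨E, hE, fun g s hs => by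
        show Multiplicative.ofAdd (θ.1 (g * s)) = Multiplicative.ofAdd (θ.1 g)
        rw [hθ g s hs]⟩⟩
  apply Finite.of_injective f
  intro θ θ' h
  apply Subtype.ext
  funext x
  have h1 := congrArg (fun φ : ↥{θ : ↥U →* Multiplicative (ZMod p) | lcf_Smooth₁ U θ} =>
    (φ.1 x).toAdd) h
  exact h1

/-! ### The local pairing at a place `(q, g)` -/

section pairing

variable (K : IntermediateField ℚ Qbar) [hK : K.fixingSubgroup.Normal] {p : ℕ} [Fact p.Prime]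
  (inv : lcf_InvType) (q : Nat.Primes) (g : s55_GQ)

/-- The local pairing `b_w (θ, η) = kl_inv K inv q g (θ ∪ η)` at the place `w = (q, g)`. -/
def kex_b (θ η : ↥(kl_H K q) → ZMod p) : lcf_QZ := kl_inv K inv q g (kex_cup θ η)

/-- the twisted character `χ(g) θ`. -/
def kex_tw (θ : ↥(kl_H K q) → ZMod p) : ↥(kl_H K q) → ZMod p :=
  fun x => ((cycloChar p g : (ZMod p)ˣ) : ZMod p) * θ x

theorem kex_b_eq (θ η : ↥(kl_H K q) → ZMod p) :
    kex_b K inv q g θ η = inv (q : ℕ) (kl_H K q)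
      (fun x => ld_zetaLoc p (q : ℕ) ^ (kex_tw K q g θ x.1 * η x.2).val) := by
  unfold kex_b kl_inv kex_cup kex_tw
  congr 1
  funext x
  rw [mul_assoc]

theorem kex_tw_mem {θ : ↥(kl_H K q) → ZMod p} (h : θ ∈ kex_Hom p (kl_H K q)) :
    kex_tw K q g θ ∈ kex_Hom p (kl_H K q) :=
  (kex_Hom p (kl_H K q)).smul_mem ((cycloChar p g : (ZMod p)ˣ) : ZMod p) h

theorem kex_H_isOpen (hKfin : FiniteDimensional ℚ K) : lcf_IsOpen (kl_H K q) := by
  have h := akc_H_isOpen K (q : ℕ) (1 : s55_GQ) hKfin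
  have h2 := kls_H_eq K q 1
  rw [h2] at h
  exact h

theorem kex_zetaLoc_prim : IsPrimitiveRoot (ld_zetaLoc p (q : ℕ)) p := by
  rw [← IsPrimitiveRoot.coe_units_iff]
  exact (ld_zeta_spec p).map_of_injective (padicEmbedding (q : ℕ)).injective

theorem kex_fix_zetaLoc (hχ : ∀ s ∈ K.fixingSubgroup, cycloChar p s = 1) (τ : ↥(kl_H K q)) :
    τ • ld_zetaLoc p (q : ℕ) = ld_zetaLoc p (q : ℕ) := by
  have h := ptinv_zeta_smul p (q : ℕ) (τ : lcf_Gal (q : ℕ))
  rw [hχ _ ((kl_mem_H_iff K q _).1 τ.2), Units.val_one, ZMod.val_one, pow_one] at h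
  exact h

variable (hPair : kex_PairStatement) (hinv : lcf_IsInvSystem inv) (hp2 : p ≠ 2)
  (hKfin : FiniteDimensional ℚ K) (hχ : ∀ s ∈ K.fixingSubgroup, cycloChar p s = 1)

include hPair hinv hp2 hKfin hχ

theorem kex_b_add_left {θ θ' η : ↥(kl_H K q) → ZMod p} (hθ : θ ∈ kex_Hom p (kl_H K q))
    (hθ' : θ' ∈ kex_Hom p (kl_H K q)) (hη : η ∈ kex_Hom p (kl_H K q)) :
    kex_b K inv q g (θ + θ') η = kex_b K inv q g θ η + kex_b K inv q g θ' η := by
  obtain ⟨hl, -, -⟩ := hPair inv hinv (q : ℕ) p hp2 (kl_H K q) (kex_H_isOpen K q hKfin)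
    (ld_zetaLoc p (q : ℕ)) (kex_zetaLoc_prim q) (kex_fix_zetaLoc K q hχ)
  have h1 := kex_tw_mem K q g hθ
  have h2 := kex_tw_mem K q g hθ'
  rw [kex_b_eq, kex_b_eq, kex_b_eq, ← hl _ _ _ h1.1 h1.2 h2.1 h2.2 hη.1 hη.2]
  congr 1
  funext x
  unfold kex_tw
  rw [Pi.add_apply, mul_add]

theorem kex_b_add_right {θ η η' : ↥(kl_H K q) → ZMod p} (hθ : θ ∈ kex_Hom p (kl_H K q))
    (hη : η ∈ kex_Hom p (kl_H K q)) (hη' : η' ∈ kex_Hom p (kl_H K q)) :
    kex_b K inv q g θ (η + η') = kex_b K inv q g θ η + kex_b K inv q g θ η' := by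
  obtain ⟨-, hr, -⟩ := hPair inv hinv (q : ℕ) p hp2 (kl_H K q) (kex_H_isOpen K q hKfin)
    (ld_zetaLoc p (q : ℕ)) (kex_zetaLoc_prim q) (kex_fix_zetaLoc K q hχ)
  have h1 := kex_tw_mem K q g hθ
  rw [kex_b_eq, kex_b_eq, kex_b_eq, ← hr _ _ _ h1.1 h1.2 hη.1 hη.2 hη'.1 hη'.2]
  rfl

theorem kex_b_zero_left {η : ↥(kl_H K q) → ZMod p} (hη : η ∈ kex_Hom p (kl_H K q)) :
    kex_b K inv q g 0 η = 0 := by
  have h := kex_b_add_left K inv q g hPair hinv hp2 hKfin hχ
    (kex_Hom p (kl_H K q)).zero_mem (kex_Hom p (kl_H K q)).zero_mem hη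
  rw [add_zero] at h
  exact left_eq_add.1 h

theorem kex_b_zero_right {θ : ↥(kl_H K q) → ZMod p} (hθ : θ ∈ kex_Hom p (kl_H K q)) :
    kex_b K inv q g θ 0 = 0 := by
  have h := kex_b_add_right K inv q g hPair hinv hp2 hKfin hχ hθ
    (kex_Hom p (kl_H K q)).zero_mem (kex_Hom p (kl_H K q)).zero_mem
  rw [add_zero] at h
  exact left_eq_add.1 h

theorem kex_b_nsmul_left (n : ℕ) {θ η : ↥(kl_H K q) → ZMod p}
    (hθ : θ ∈ kex_Hom p (kl_H K q)) (hη : η ∈ kex_Hom p (kl_H K q)) :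
    kex_b K inv q g (n • θ) η = n • kex_b K inv q g θ η := by
  induction n with
  | zero => rw [zero_smul, zero_smul]; exact kex_b_zero_left K inv q g hPair hinv hp2 hKfin hχ hη
  | succ n ih =>
    rw [succ_nsmul, succ_nsmul, kex_b_add_left K inv q g hPair hinv hp2 hKfin hχ
      ((kex_Hom p (kl_H K q)).smul_of_tower_mem n hθ) hθ hη, ih]

/-- the values of the local pairing are killed by `p`. -/
theorem kex_b_ptors {θ η : ↥(kl_H K q) → ZMod p}
    (hθ : θ ∈ kex_Hom p (kl_H K q)) (hη : η ∈ kex_Hom p (kl_H K q)) :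
    p • kex_b K inv q g θ η = 0 := by
  rw [← kex_b_nsmul_left K inv q g hPair hinv hp2 hKfin hχ p hθ hη]
  have h0 : p • θ = 0 := by
    funext x
    show p • θ x = 0
    rw [nsmul_eq_mul, ZMod.natCast_self, zero_mul]
  rw [h0]
  exact kex_b_zero_left K inv q g hPair hinv hp2 hKfin hχ hη

/-- the values of the local pairing lie in the image of `ptinv_e p`. -/
theorem kex_b_val {θ η : ↥(kl_H K q) → ZMod p}
    (hθ : θ ∈ kex_Hom p (kl_H K q)) (hη : η ∈ kex_Hom p (kl_H K q)) :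
    ∃ c, ptinv_e p c = kex_b K inv q g θ η :=
  ptinv_e_range p _ (kex_b_ptors K inv q g hPair hinv hp2 hKfin hχ hθ hη)

/-- right non-degeneracy of the local pairing. -/
theorem kex_b_nondeg {η : ↥(kl_H K q) → ZMod p} (hη : η ∈ kex_Hom p (kl_H K q))
    (h0 : η ≠ 0) : ∃ θ ∈ kex_Hom p (kl_H K q), kex_b K inv q g θ η ≠ 0 := by
  obtain ⟨-, -, hnd⟩ := hPair inv hinv (q : ℕ) p hp2 (kl_H K q) (kex_H_isOpen K q hKfin)
    (ld_zetaLoc p (q : ℕ)) (kex_zetaLoc_prim q) (kex_fix_zetaLoc K q hχ)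
  obtain ⟨θ₁, hθ₁, hθ₁s, hne⟩ := hnd η hη.1 hη.2 h0
  set c : ZMod p := (((cycloChar p g)⁻¹ : (ZMod p)ˣ) : ZMod p) with hc
  have hmem : (fun x => c * θ₁ x) ∈ kex_Hom p (kl_H K q) :=
    (kex_Hom p (kl_H K q)).smul_mem c ⟨hθ₁, hθ₁s⟩
  refine ⟨fun x => c * θ₁ x, hmem, ?_⟩
  rw [kex_b_eq]
  have : kex_tw K q g (fun x => c * θ₁ x) = θ₁ := by
    funext x
    unfold kex_tw
    rw [← mul_assoc, hc, ← Units.val_mul, mul_inv_cancel, Units.val_one, one_mul]
  rw [this]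
  exact hne

end pairing

/-! ### Global characters and their localisations -/

section global

variable (S : Finset Nat.Primes) (K : IntermediateField ℚ Qbar)

/-- The level-`S` characters `U → F_p` of `U = G_K`. -/
def kex_Y (p : ℕ) : Submodule (ZMod p) (↥K.fixingSubgroup → ZMod p) where
  carrier := {y | kl_IsHom y ∧ kl_LevelS₁ S K y}
  zero_mem' := ⟨kex_isHom_zero, ⊥, IntermediateField.isUnramifiedOutside_bot S,
    fun _ _ _ => rfl⟩
  add_mem' := by
    rintro y y' ⟨hy, F, hF, hyF⟩ ⟨hy', F', hF', hyF'⟩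
    refine ⟨kex_isHom_add hy hy', F ⊔ F', hF.sup hF', fun g s hs => ?_⟩
    rw [IntermediateField.fixingSubgroup_sup] at hs
    show y (g * s) + y' (g * s) = y g + y' g
    rw [hyF g s hs.1, hyF' g s hs.2]
  smul_mem' := by
    rintro c y ⟨hy, F, hF, hyF⟩
    refine ⟨kex_isHom_smul c hy, F, hF, fun g s hs => ?_⟩
    show c * y (g * s) = c * y g
    rw [hyF g s hs]

theorem kex_mem_Y {p : ℕ} (y : ↥K.fixingSubgroup → ZMod p) :
    y ∈ kex_Y S K p ↔ kl_IsHom y ∧ kl_LevelS₁ S K y := Iff.rfl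

variable [hK : K.fixingSubgroup.Normal]

/-- The localisation `y ∘ r_w` of a function on `U` at the place `w = (q, g)`. -/
def kex_locFun {X : Type*} (q : Nat.Primes) (g : s55_GQ) (y : ↥K.fixingSubgroup → X) :
    ↥(kl_H K q) → X := fun τ => y (kl_r K q g τ)

theorem kex_locFun_isHom {p : ℕ} (q : Nat.Primes) (g : s55_GQ)
    {y : ↥K.fixingSubgroup → ZMod p} (hy : kl_IsHom y) : kl_IsHom (kex_locFun K q g y) := by
  intro a b
  show y (kl_r K q g (a * b)) = y (kl_r K q g a) + y (kl_r K q g b)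
  rw [map_mul, hy]

theorem kex_locFun_smooth {X : Type*} (q : Nat.Primes) (g : s55_GQ)
    {y : ↥K.fixingSubgroup → X} (F : IntermediateField ℚ Qbar) (hF : FiniteDimensional ℚ F)
    (hy : ∀ a s : ↥K.fixingSubgroup, (s : s55_GQ) ∈ F.fixingSubgroup → y (a * s) = y a) :
    lcf_Smooth₁ (kl_H K q) (kex_locFun K q g y) := by
  refine ⟨akc_E (q : ℕ) g F, akc_E_finite (q : ℕ) g F hF, fun x s hs => ?_⟩
  show y (kl_r K q g (x * s)) = y (kl_r K q g x)
  rw [map_mul]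
  apply hy
  rw [kl_r_coe]
  exact akc_conj_mem_fix (q : ℕ) g F _ (akc_fix_of_mem (q : ℕ) g F _ hs)

theorem kex_locFun_mem {p : ℕ} (q : Nat.Primes) (g : s55_GQ)
    {y : ↥K.fixingSubgroup → ZMod p} (hy : y ∈ kex_Y S K p) :
    kex_locFun K q g y ∈ kex_Hom p (kl_H K q) := by
  obtain ⟨h1, F, hF, hyF⟩ := hy
  exact ⟨kex_locFun_isHom K q g h1, kex_locFun_smooth K q g F hF.1 hyF⟩

/-- The cup product of two level-`S` characters is a level-`S` 2-cocycle. -/
theorem kex_cup_coc {H : Type*} [Mul H] {p : ℕ} {y y' : H → ZMod p} (hy : kl_IsHom y)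
    (hy' : kl_IsHom y') : kl_IsCoc₂ (kex_cup y y') := by
  intro a b c
  show y (a * b) * y' c + y a * y' b = y b * y' c + y a * y' (b * c)
  rw [hy a b, hy' b c]
  ring

omit hK in
theorem kex_cup_level {p : ℕ} {y y' : ↥K.fixingSubgroup → ZMod p} (hy : y ∈ kex_Y S K p)
    (hy' : y' ∈ kex_Y S K p) : kl_LevelS₂ S K (kex_cup y y') := by
  obtain ⟨-, F, hF, hyF⟩ := hy
  obtain ⟨-, F', hF', hyF'⟩ := hy'
  refine ⟨F ⊔ F', hF.sup hF', fun g g' s s' hs hs' => ?_⟩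
  rw [IntermediateField.fixingSubgroup_sup] at hs hs'
  show y (g * s) * y' (g' * s') = y g * y' g'
  rw [hyF g s hs.1, hyF' g' s' hs'.2]

end global

end Fermat.Agent.S55
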