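/-
S55 (fifth wave), GLOBAL side, package [K-EX] (helper25): the assembly [KEX-LARGE-OF]
  `kex_large_of : kex_PairStatement → kex_RecKStatement → kex_LocCountStatement →
     kex_DegStatement → kex_GlobCountStatement → kex_ExLargeStatement`.
Prefix `kex_`.
-/
import Fermat.Agent.S55.Global.KExBasic

set_option autoImplicit false
set_option maxHeartbeats 1000000
set_option synthInstance.maxHeartbeats 400000
open CategoryTheory Module groupCohomology ExtCitation

noncomputable section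

namespace Fermat.Agent.S55

local notation "Qbar" => AlgebraicClosure ℚ

section setup

variable (S : Finset Nat.Primes) (K : IntermediateField ℚ Qbar) [hK : K.fixingSubgroup.Normal]
  (p : ℕ) [Fact p.Prime] (R : ↥S → Finset s55_GQ)

/-- The places above `S`: pairs `(q, g)`, `q ∈ S`, `g ∈ R q`. -/
abbrev kex_W : Type := Σ q : ↥S, ↥(R q)

/-- The product `P = ∏_w Hom_sm (kl_H K q, F_p)`. -/
abbrev kex_P : Type := (w : kex_W S R) → ↥(kex_Hom p (kl_H K (w.1 : Nat.Primes)))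

variable {p}

/-- The global pairing `B (θ, η) = ∑_w b_w (θ_w, η_w)`. -/
def kex_B (inv : lcf_InvType) (θ η : kex_P S K p R) : lcf_QZ :=
  ∑ w : kex_W S R, kex_b K inv (w.1 : Nat.Primes) (w.2 : s55_GQ) (θ w).1 (η w).1

/-- The localisation map `Y_S → P`. -/
def kex_locP : ↥(kex_Y S K p) →ₗ[ZMod p] kex_P S K p R where
  toFun y := fun w => ⟨kex_locFun K (w.1 : Nat.Primes) (w.2 : s55_GQ) y.1,
    kex_locFun_mem S K (w.1 : Nat.Primes) (w.2 : s55_GQ) y.2⟩
  map_add' _ _ := rfl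
  map_smul' _ _ := rfl

theorem kex_locP_apply (y : ↥(kex_Y S K p)) (w : kex_W S R)
    (τ : ↥(kl_H K (w.1 : Nat.Primes))) :
    ((kex_locP S K R y w : ↥(kex_Hom p (kl_H K (w.1 : Nat.Primes)))) :
      ↥(kl_H K (w.1 : Nat.Primes)) → ZMod p) τ =
      y.1 (kl_r K (w.1 : Nat.Primes) (w.2 : s55_GQ) τ) := rfl

theorem kex_sum_W {A : Type*} [AddCommMonoid A] (f : ∀ q : ↥S, s55_GQ → A) :
    ∑ w : kex_W S R, f w.1 (w.2 : s55_GQ) = ∑ q : ↥S, ∑ g ∈ R q, f q g := by
  rw [Fintype.sum_sigma]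
  refine Finset.sum_congr rfl fun q _ => ?_
  exact Finset.sum_coe_sort (R q) (fun g => f q g)

variable (inv : lcf_InvType) (hPair : kex_PairStatement) (hinv : lcf_IsInvSystem inv)
  (hp2 : p ≠ 2) (hKfin : FiniteDimensional ℚ K)
  (hχ : ∀ s ∈ K.fixingSubgroup, cycloChar p s = 1)

include hPair hinv hp2 hKfin hχ

theorem kex_B_add_left (t t' y : kex_P S K p R) :
    kex_B S K R inv (t + t') y = kex_B S K R inv t y + kex_B S K R inv t' y := by
  unfold kex_B
  rw [← Finset.sum_add_distrib]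
  refine Finset.sum_congr rfl fun w _ => ?_
  exact kex_b_add_left K inv _ _ hPair hinv hp2 hKfin hχ (t w).2 (t' w).2 (y w).2

theorem kex_B_add_right (t y y' : kex_P S K p R) :
    kex_B S K R inv t (y + y') = kex_B S K R inv t y + kex_B S K R inv t y' := by
  unfold kex_B
  rw [← Finset.sum_add_distrib]
  refine Finset.sum_congr rfl fun w _ => ?_
  exact kex_b_add_right K inv _ _ hPair hinv hp2 hKfin hχ (t w).2 (y w).2 (y' w).2

theorem kex_B_val (t y : kex_P S K p R) : ∃ c, ptinv_e p c = kex_B S K R inv t y := by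
  unfold kex_B
  choose c hc using fun w : kex_W S R =>
    kex_b_val K inv (w.1 : Nat.Primes) (w.2 : s55_GQ) hPair hinv hp2 hKfin hχ (t w).2 (y w).2
  refine ⟨∑ w, c w, ?_⟩
  rw [map_sum]
  exact Finset.sum_congr rfl fun w _ => hc w

theorem kex_B_nondeg (i : kex_P S K p R) (hi : i ≠ 0) : ∃ θ, kex_B S K R inv θ i ≠ 0 := by
  classical
  obtain ⟨w, hw⟩ : ∃ w, i w ≠ 0 := by
    by_contra h
    exact hi (funext fun w => not_not.1 fun hw => h ⟨w, hw⟩)
  have hw' : ((i w : ↥(kex_Hom p (kl_H K (w.1 : Nat.Primes)))) :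
      ↥(kl_H K (w.1 : Nat.Primes)) → ZMod p) ≠ 0 := fun h => hw (Subtype.ext h)
  obtain ⟨θw, hθw, hne⟩ := kex_b_nondeg K inv (w.1 : Nat.Primes) (w.2 : s55_GQ) hPair hinv hp2
    hKfin hχ (i w).2 hw'
  refine ⟨Pi.single w ⟨θw, hθw⟩, ?_⟩
  unfold kex_B
  rw [Finset.sum_eq_single w]
  · rw [Pi.single_eq_same]
    exact hne
  · intro w' _ hww
    rw [Pi.single_eq_of_ne hww]
    exact kex_b_zero_left K inv _ _ hPair hinv hp2 hKfin hχ (i w').2
  · intro h
    exact absurd (Finset.mem_univ w) h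

end setup

/-! ### The counting -/

section count

variable (S : Finset Nat.Primes) (K : IntermediateField ℚ Qbar) [hK : K.fixingSubgroup.Normal]
  (p : ℕ) [Fact p.Prime] (R : ↥S → Finset s55_GQ)

theorem kex_P_finite (hKfin : FiniteDimensional ℚ K) : Finite (kex_P S K p R) := by
  have : ∀ w : kex_W S R, Finite ↥(kex_Hom p (kl_H K (w.1 : Nat.Primes))) :=
    fun w => kex_Hom_finite p _ (kex_H_isOpen K _ hKfin)
  exact Pi.finite

/-- the exponent bookkeeping. -/
theorem kex_exp_sum (hDeg : kex_DegStatement) (hKfin : FiniteDimensional ℚ K)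
    (hpS : pPrime p ∈ S) (hR : kl_IsReps S K R) :
    ∑ w : kex_W S R, (2 + if (((w.1 : ↥S) : Nat.Primes) : ℕ) = p then
        (kl_H K (w.1 : Nat.Primes)).index else 0) =
      2 * (∑ q : ↥S, (R q).card) + K.fixingSubgroup.index := by
  have h1 := kex_sum_W S R (fun (q : ↥S) (_ : s55_GQ) =>
    (2 + if ((q : Nat.Primes) : ℕ) = p then (kl_H K (q : Nat.Primes)).index else 0))
  rw [h1]
  have h2 : ∀ q : ↥S, ∑ _g ∈ R q, (2 + if ((q : Nat.Primes) : ℕ) = p then
      (kl_H K (q : Nat.Primes)).index else 0) =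
      2 * (R q).card + (if ((q : Nat.Primes) : ℕ) = p then K.fixingSubgroup.index else 0) := by
    intro q
    rw [Finset.sum_const, smul_eq_mul, mul_add, mul_comm]
    congr 1
    split_ifs with h
    · exact hDeg S K hKfin R hR q
    · rw [mul_zero]
  rw [Finset.sum_congr rfl fun q _ => h2 q, Finset.sum_add_distrib, ← Finset.mul_sum]
  congr 1
  rw [Finset.sum_eq_single (⟨pPrime p, hpS⟩ : ↥S)]
  · exact if_pos rfl
  · intro q _ hq
    rw [if_neg]
    intro h
    apply hq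
    apply Subtype.ext
    apply Subtype.ext
    exact h
  · intro h
    exact absurd (Finset.mem_univ _) h

theorem kex_card_P (hLoc : kex_LocCountStatement) (hDeg : kex_DegStatement) (hp2 : p ≠ 2)
    (hKfin : FiniteDimensional ℚ K) (hχ : ∀ s ∈ K.fixingSubgroup, cycloChar p s = 1)
    (hpS : pPrime p ∈ S) (hR : kl_IsReps S K R) :
    Nat.card (kex_P S K p R) ≤ p ^ (2 * (∑ q : ↥S, (R q).card) + K.fixingSubgroup.index) := by
  rw [← kex_exp_sum S K p R hDeg hKfin hpS hR, ← Finset.prod_pow_eq_pow_sum, Nat.card_pi]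
  refine Finset.prod_le_prod (fun _ _ => Nat.zero_le _) fun w _ => ?_
  exact hLoc ((w.1 : Nat.Primes) : ℕ) p hp2 (kl_H K (w.1 : Nat.Primes))
    (kex_H_isOpen K _ hKfin) (ld_zetaLoc p ((w.1 : Nat.Primes) : ℕ)) (kex_zetaLoc_prim _)
    (kex_fix_zetaLoc K _ hχ)

end count

/-! ### The assembly -/

section assembly

variable (S : Finset Nat.Primes) (K : IntermediateField ℚ Qbar) [hK : K.fixingSubgroup.Normal]
  {p : ℕ} [Fact p.Prime] (R : ↥S → Finset s55_GQ) (inv : lcf_InvType)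

theorem kex_B_locP (y y' : ↥(kex_Y S K p)) :
    kex_B S K R inv (kex_locP S K R y) (kex_locP S K R y') =
      ksha_sumS K inv S R (kex_cup y.1 y'.1) := by
  unfold ksha_sumS
  rw [← kex_sum_W S R (fun (q : ↥S) (g : s55_GQ) => kl_inv K inv (q : Nat.Primes) g
      (fun x => kex_cup y.1 y'.1 (kl_r K (q : Nat.Primes) g x.1, kl_r K (q : Nat.Primes) g x.2)))]
  rfl

theorem kex_B_fam (θ : ∀ q : ↥S, s55_GQ → ↥(kl_H K (q : Nat.Primes)) → ZMod p)
    (hθ : ∀ (q : ↥S), ∀ g ∈ R q,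
      kl_IsHom (θ q g) ∧ lcf_Smooth₁ (kl_H K (q : Nat.Primes)) (θ q g))
    (y : ↥(kex_Y S K p)) :
    kex_B S K R inv (fun w => ⟨θ w.1 (w.2 : s55_GQ), hθ w.1 (w.2 : s55_GQ) w.2.2⟩)
        (kex_locP S K R y) =
      ∑ q : ↥S, ∑ g ∈ R q, kl_inv K inv (q : Nat.Primes) g
        (fun x => θ q g x.1 * y.1 (kl_r K (q : Nat.Primes) g x.2)) := by
  rw [← kex_sum_W S R (fun (q : ↥S) (g : s55_GQ) => kl_inv K inv (q : Nat.Primes) g
      (fun x => θ q g x.1 * y.1 (kl_r K (q : Nat.Primes) g x.2)))]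
  rfl

/-- the localisations of `Y₀` inject into the range. -/
theorem kex_card_range (Y₀ : Finset (↥K.fixingSubgroup → ZMod p))
    (hY₀ : ∀ y ∈ Y₀, kl_IsHom y ∧ kl_LevelS₁ S K y)
    (hsep : ∀ y ∈ Y₀, ∀ y' ∈ Y₀,
      (∀ (q : ↥S), ∀ g ∈ R q, ∀ τ : ↥(kl_H K (q : Nat.Primes)),
        y (kl_r K (q : Nat.Primes) g τ) = y' (kl_r K (q : Nat.Primes) g τ)) → y = y')
    (hfin : Finite (kex_P S K p R)) :
    Y₀.card ≤ Nat.card ↥(LinearMap.range (kex_locP (p := p) S K R)) := by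
  classical
  let f : ↥Y₀ → ↥(LinearMap.range (kex_locP (p := p) S K R)) := fun y =>
    ⟨kex_locP S K R ⟨y.1, hY₀ y.1 y.2⟩, LinearMap.mem_range_self _ _⟩
  have hf : Function.Injective f := by
    intro y y' h
    apply Subtype.ext
    apply hsep y.1 y.2 y'.1 y'.2
    intro q g hg τ
    have h1 : kex_locP S K R ⟨y.1, hY₀ y.1 y.2⟩ = kex_locP S K R ⟨y'.1, hY₀ y'.1 y'.2⟩ :=
      congrArg Subtype.val h
    have h2 := congrArg (fun F : kex_P S K p R => (F ⟨q, ⟨g, hg⟩⟩).1 τ) h1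
    exact h2
  have h3 := Nat.card_le_card_of_injective f hf
  rwa [Nat.card_eq_fintype_card, Fintype.card_coe] at h3

end assembly

/-- **[KEX-LARGE-OF]** [K-EX] for large `S` from the pairing, reciprocity and the two
counts (the Lagrangian argument). -/
theorem kex_large_of (hPair : kex_PairStatement) (hRec : kex_RecKStatement)
    (hLoc : kex_LocCountStatement) (hDeg : kex_DegStatement)
    (hGlob : kex_GlobCountStatement) : kex_ExLargeStatement := by
  classical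
  intro inv hinv p _ hp2 K _ hKfin hχ
  obtain ⟨S₀, hS₀⟩ := hGlob p hp2 K hKfin hχ
  refine ⟨S₀, fun S hS hpS hKunr R hR θ hθ horth => ?_⟩
  obtain ⟨Y₀, hY₀, hcardY, hsep⟩ := hS₀ S hS hpS hKunr R hR
  have hfinP : Finite (kex_P S K p R) := kex_P_finite S K p R hKfin
  have hcardI := kex_card_range S K R Y₀ hY₀ hsep hfinP
  have hcard : Nat.card (kex_P S K p R) ≤
      Nat.card ↥(LinearMap.range (kex_locP (p := p) S K R)) ^ 2 :=
    ((kex_card_P S K p R hLoc hDeg hp2 hKfin hχ hpS hR).trans hcardY).trans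
      (Nat.pow_le_pow_left hcardI 2)
  -- isotropy
  have hctx : ksha_Ctx K inv p S R := ⟨hinv, hp2, hpS, hKunr, hχ, hR⟩
  have hiso : ∀ i ∈ LinearMap.range (kex_locP (p := p) S K R),
      ∀ i' ∈ LinearMap.range (kex_locP (p := p) S K R), kex_B S K R inv i i' = 0 := by
    rintro _ ⟨y, rfl⟩ _ ⟨y', rfl⟩
    rw [kex_B_locP]
    exact hRec inv p S K R hctx (kex_cup y.1 y'.1) (kex_cup_coc y.2.1 y'.2.1)
      (kex_cup_level S K y.2 y'.2)
  -- the family θ
  have hθI : ∀ i ∈ LinearMap.range (kex_locP (p := p) S K R),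
      kex_B S K R inv (fun w => ⟨θ w.1 (w.2 : s55_GQ), hθ w.1 (w.2 : s55_GQ) w.2.2⟩) i = 0 := by
    rintro _ ⟨y, rfl⟩
    rw [kex_B_fam]
    exact horth y.1 y.2.1 y.2.2
  have hl : ∀ t t' y : kex_P S K p R,
      kex_B S K R inv (t + t') y = kex_B S K R inv t y + kex_B S K R inv t' y :=
    kex_B_add_left S K R inv hPair hinv hp2 hKfin hχ
  have hr : ∀ t y y' : kex_P S K p R,
      kex_B S K R inv t (y + y') = kex_B S K R inv t y + kex_B S K R inv t y' :=
    kex_B_add_right S K R inv hPair hinv hp2 hKfin hχ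
  have hv : ∀ t y : kex_P S K p R, ∃ c, ptinv_e p c = kex_B S K R inv t y :=
    kex_B_val S K R inv hPair hinv hp2 hKfin hχ
  have hnd : ∀ i ∈ LinearMap.range (kex_locP (p := p) S K R), i ≠ 0 →
      ∃ θ, kex_B S K R inv θ i ≠ 0 :=
    fun i _ hi => kex_B_nondeg S K R inv hPair hinv hp2 hKfin hχ i hi
  have hmem : (fun w => ⟨θ w.1 (w.2 : s55_GQ), hθ w.1 (w.2 : s55_GQ) w.2.2⟩ : kex_P S K p R) ∈
      LinearMap.range (kex_locP (p := p) S K R) :=
    @kex_la_lagrangian_raw p _ lcf_QZ _ (ptinv_e p) (ptinv_e_injective p) (kex_P S K p R) _ _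
      hfinP (kex_B S K R inv) hl hr hv (LinearMap.range (kex_locP (p := p) S K R))
      hnd hiso hcard _ hθI
  obtain ⟨y, hy⟩ := hmem
  refine ⟨y.1, y.2.1, y.2.2, fun q g hg τ => ?_⟩
  have h2 := congrArg (fun F : kex_P S K p R => (F ⟨q, ⟨g, hg⟩⟩).1 τ) hy
  exact h2

end Fermat.Agent.S55
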