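/-
S55 (fifth wave), GLOBAL side, package [IDL-CLASS] (helper23): finiteness of the class group in
idelic form, `J_F = Fˣ · J_T` for every finite `T` containing a suitable finite `T₀`.

Route: the dictionary of `Global/Places.lean` attaches to every idele `x` the exponents
`icl_exp x v` (`v` a prime of `𝓞 F`), almost all zero, hence a fractional ideal
`icl_ideal x = ∏ v ^ icl_exp x v`.  By finiteness of `ClassGroup (𝓞 F)` there are finitely many
representatives `icl_rep c`; `T₀` is the set of rational primes below the primes in their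
supports.  Then `icl_ideal x = (a) · icl_rep c`, and `x / diag(a)` is a unit outside `T₀`.
-/
import Mathlib
import Fermat.Agent.S55.Global.Places
import Fermat.Agent.S55.Global.Diag

set_option autoImplicit false

namespace Fermat.Agent.S55

open IsDedekindDomain NumberField FractionalIdeal nonZeroDivisors

noncomputable section

section count

variable {F : Type} [Field F] [NumberField F]

/-- The count of a principal fractional ideal is the order of its generator. -/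
theorem icl_count_span (v : HeightOneSpectrum (𝓞 F)) (a : F) (ha : a ≠ 0) :
    FractionalIdeal.count F v (spanSingleton (𝓞 F)⁰ a) = -(WithZero.log (v.valuation F a)) := by
  obtain ⟨n, d, hd, rfl⟩ := IsFractionRing.div_surjective (A := 𝓞 F) a
  have hd0 : (d : 𝓞 F) ≠ 0 := nonZeroDivisors.ne_zero hd
  have hn0 : n ≠ 0 := by
    rintro rfl
    simp at ha
  have hI : spanSingleton (𝓞 F)⁰ (algebraMap (𝓞 F) F n / algebraMap (𝓞 F) F d) ≠ 0 := by
    rw [ne_eq, spanSingleton_eq_zero_iff]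
    exact ha
  have h1 : spanSingleton (𝓞 F)⁰ (algebraMap (𝓞 F) F n / algebraMap (𝓞 F) F d) =
      spanSingleton (𝓞 F)⁰ ((algebraMap (𝓞 F) F d))⁻¹ * ((Ideal.span {n} : Ideal (𝓞 F)) :
        FractionalIdeal (𝓞 F)⁰ F) := by
    rw [coeIdeal_span_singleton, spanSingleton_mul_spanSingleton, div_eq_inv_mul]
  rw [count_well_defined F v hI h1]
  rw [map_div₀, HeightOneSpectrum.valuation_of_algebraMap, HeightOneSpectrum.valuation_of_algebraMap,
    HeightOneSpectrum.intValuation_if_neg v hn0, HeightOneSpectrum.intValuation_if_neg v hd0]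
  rw [← WithZero.exp_sub, WithZero.log_exp]
  ring

end count

/-- The primality instance of an element of `Nat.Primes` (as in `Global/IdeleDefs.lean`). -/
local instance icl_fact (q : Nat.Primes) : Fact (q : ℕ).Prime := ⟨q.2⟩

section prime

variable {F : Type} [Field F] [NumberField F]

/-- The rational prime below the prime of an embedding is unique. -/
theorem icl_prime_unique (q q' : Nat.Primes) (ι : F →ₐ[ℚ] PadicAlgCl (q : ℕ))
    (ι' : F →ₐ[ℚ] PadicAlgCl (q' : ℕ))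
    (h : plc_prime (q : ℕ) ι = plc_prime (q' : ℕ) ι') : q = q' := by
  have h1 : (((q' : ℕ) : ℕ) : 𝓞 F) ∈ (plc_prime (q' : ℕ) ι').asIdeal := plc_q_mem_prime _ ι'
  rw [← h] at h1
  have h2 : ‖(((q' : ℕ) : ℕ) : PadicAlgCl (q : ℕ))‖ < 1 :=
    (plc_natCast_mem_iff (q : ℕ) ι (q' : ℕ)).mp h1
  have h3 : (((q' : ℕ) : ℕ) : PadicAlgCl (q : ℕ)) =
      algebraMap ℚ_[(q : ℕ)] (PadicAlgCl (q : ℕ)) (((q' : ℕ) : ℕ) : ℚ_[(q : ℕ)]) := by
    simp
  rw [h3, PadicAlgCl.norm_extends, Padic.norm_natCast_lt_one_iff] at h2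
  have h4 : (q : ℕ) = (q' : ℕ) := (Nat.prime_dvd_prime_iff_eq q.2 q'.2).mp h2
  exact Subtype.ext h4

end prime

section exponent

variable {F : Type} [Field F] [NumberField F]

/-- The exponent of the prime `v` in the ideal of the idele `x`. -/
def icl_exp (x : gl_J F) (v : HeightOneSpectrum (𝓞 F)) : ℤ :=
  open Classical in
  if h : (∃ (q : Nat.Primes) (ι : F →ₐ[ℚ] PadicAlgCl (q : ℕ)), plc_prime (q : ℕ) ι = v) ∧
      (∃ n : ℤ, ∀ (q : Nat.Primes) (ι : F →ₐ[ℚ] PadicAlgCl (q : ℕ)), plc_prime (q : ℕ) ι = v →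
        ‖(((x.1 q).1 ι : (PadicAlgCl (q : ℕ))ˣ) : PadicAlgCl (q : ℕ))‖ = plc_c (q : ℕ) ι ^ n)
  then Classical.choose h.2 else 0

theorem icl_norm_twist (x : gl_J F) (q : Nat.Primes) (ι : F →ₐ[ℚ] PadicAlgCl (q : ℕ))
    (τ : gl_GQq (q : ℕ)) :
    ‖(((x.1 q).1 (gl_twist (q : ℕ) F τ ι) : (PadicAlgCl (q : ℕ))ˣ) : PadicAlgCl (q : ℕ))‖ =
      ‖(((x.1 q).1 ι : (PadicAlgCl (q : ℕ))ˣ) : PadicAlgCl (q : ℕ))‖ := by
  have h := (gl_mem_Jq_iff (q : ℕ) F (x.1 q).1).mp (x.1 q).2 τ ι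
  rw [h, plc_norm_aut]

theorem icl_exp_spec (x : gl_J F) (q : Nat.Primes) (ι : F →ₐ[ℚ] PadicAlgCl (q : ℕ)) :
    ‖(((x.1 q).1 ι : (PadicAlgCl (q : ℕ))ˣ) : PadicAlgCl (q : ℕ))‖ =
      plc_c (q : ℕ) ι ^ (icl_exp x (plc_prime (q : ℕ) ι)) := by
  have hcond : (∃ (q' : Nat.Primes) (ι' : F →ₐ[ℚ] PadicAlgCl (q' : ℕ)),
      plc_prime (q' : ℕ) ι' = plc_prime (q : ℕ) ι) ∧
      (∃ n : ℤ, ∀ (q' : Nat.Primes) (ι' : F →ₐ[ℚ] PadicAlgCl (q' : ℕ)),
        plc_prime (q' : ℕ) ι' = plc_prime (q : ℕ) ι →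
        ‖(((x.1 q').1 ι' : (PadicAlgCl (q' : ℕ))ˣ) : PadicAlgCl (q' : ℕ))‖ =
          plc_c (q' : ℕ) ι' ^ n) := by
    refine ⟨⟨q, ι, rfl⟩, ?_⟩
    obtain ⟨n, hn⟩ := plc_value_zpow (q : ℕ) (x.1 q) ι
    refine ⟨n, ?_⟩
    intro q' ι' h'
    obtain rfl : q' = q := icl_prime_unique q' q ι' ι h'
    obtain ⟨τ, rfl⟩ := plc_conj (q' : ℕ) ι ι' h'.symm
    rw [icl_norm_twist, plc_c_twist]
    exact hn
  unfold icl_exp
  rw [dif_pos hcond]
  exact Classical.choose_spec hcond.2 q ι rfl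

theorem icl_exp_ne_zero (x : gl_J F) (v : HeightOneSpectrum (𝓞 F)) (h : icl_exp x v ≠ 0) :
    ∃ (q : Nat.Primes) (ι : F →ₐ[ℚ] PadicAlgCl (q : ℕ)), plc_prime (q : ℕ) ι = v ∧
      x.1 q ∉ gl_UP F q := by
  by_cases hcond : (∃ (q : Nat.Primes) (ι : F →ₐ[ℚ] PadicAlgCl (q : ℕ)),
      plc_prime (q : ℕ) ι = v) ∧
      (∃ n : ℤ, ∀ (q : Nat.Primes) (ι : F →ₐ[ℚ] PadicAlgCl (q : ℕ)), plc_prime (q : ℕ) ι = v →
        ‖(((x.1 q).1 ι : (PadicAlgCl (q : ℕ))ˣ) : PadicAlgCl (q : ℕ))‖ = plc_c (q : ℕ) ι ^ n)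
  · obtain ⟨q, ι, hv⟩ := hcond.1
    refine ⟨q, ι, hv, ?_⟩
    intro hU
    have h1 : ‖(((x.1 q).1 ι : (PadicAlgCl (q : ℕ))ˣ) : PadicAlgCl (q : ℕ))‖ = 1 := hU ι
    have h2 := icl_exp_spec x q ι
    rw [hv, h1] at h2
    have hc := plc_c_pos (q : ℕ) ι
    have hc1 := plc_c_lt_one (q : ℕ) ι
    have h3 : icl_exp x v = 0 := by
      apply zpow_right_injective₀ hc hc1.ne
      show plc_c (q : ℕ) ι ^ _ = plc_c (q : ℕ) ι ^ (0 : ℤ)
      rw [← h2, zpow_zero]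
    exact h h3
  · exfalso
    apply h
    unfold icl_exp
    rw [dif_neg hcond]

theorem icl_exp_finite (x : gl_J F) :
    ∀ᶠ v : HeightOneSpectrum (𝓞 F) in Filter.cofinite, icl_exp x v = 0 := by
  rw [Filter.eventually_cofinite]
  have hB : {q : Nat.Primes | x.1 q ∉ gl_UP F q}.Finite := x.2
  have hfin : (⋃ q ∈ {q : Nat.Primes | x.1 q ∉ gl_UP F q},
      Set.range (fun ι : F →ₐ[ℚ] PadicAlgCl (q : ℕ) => plc_prime (q : ℕ) ι)).Finite :=
    Set.Finite.biUnion hB (fun q _ => Set.finite_range _)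
  refine hfin.subset ?_
  intro v hv
  obtain ⟨q, ι, hqv, hq⟩ := icl_exp_ne_zero x v hv
  rw [Set.mem_iUnion₂]
  exact ⟨q, hq, ι, hqv⟩

end exponent

section ideal

variable {F : Type} [Field F] [NumberField F]

/-- The fractional ideal of an idele. -/
def icl_ideal (x : gl_J F) : FractionalIdeal (𝓞 F)⁰ F :=
  ∏ᶠ v : HeightOneSpectrum (𝓞 F), (v.asIdeal : FractionalIdeal (𝓞 F)⁰ F) ^ icl_exp x v

theorem icl_ideal_ne_zero (x : gl_J F) : icl_ideal x ≠ 0 := by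
  apply finprod_ne_zero
  intro v
  apply zpow_ne_zero
  rw [ne_eq, FractionalIdeal.coeIdeal_eq_zero]
  exact v.ne_bot

theorem icl_count_ideal (x : gl_J F) (v : HeightOneSpectrum (𝓞 F)) :
    count F v (icl_ideal x) = icl_exp x v :=
  count_finprod F v _ (icl_exp_finite x)

theorem icl_exists_rep (c : ClassGroup (𝓞 F)) :
    ∃ I : (FractionalIdeal (𝓞 F)⁰ F)ˣ, ClassGroup.mk F I = c :=
  ClassGroup.induction F (P := fun c => ∃ I : (FractionalIdeal (𝓞 F)⁰ F)ˣ, ClassGroup.mk F I = c)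
    (fun I => ⟨I, rfl⟩) c

/-- A representative of an ideal class. -/
def icl_rep (c : ClassGroup (𝓞 F)) : (FractionalIdeal (𝓞 F)⁰ F)ˣ :=
  Classical.choose (icl_exists_rep c)

theorem icl_rep_spec (c : ClassGroup (𝓞 F)) : ClassGroup.mk F (icl_rep c) = c :=
  Classical.choose_spec (icl_exists_rep c)

variable (F) in
/-- The rational primes below the supports of the class representatives. -/
def icl_bad : Set Nat.Primes :=
  {q | ∃ (c : ClassGroup (𝓞 F)) (ι : F →ₐ[ℚ] PadicAlgCl (q : ℕ)),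
    count F (plc_prime (q : ℕ) ι) ((icl_rep c : (FractionalIdeal (𝓞 F)⁰ F)ˣ) :
      FractionalIdeal (𝓞 F)⁰ F) ≠ 0}

variable (F) in
theorem icl_bad_finite : (icl_bad F).Finite := by
  have hfin : (⋃ c : ClassGroup (𝓞 F),
      ⋃ v ∈ {v : HeightOneSpectrum (𝓞 F) | count F v ((icl_rep c :
        (FractionalIdeal (𝓞 F)⁰ F)ˣ) : FractionalIdeal (𝓞 F)⁰ F) ≠ 0},
        {q : Nat.Primes | ∃ ι : F →ₐ[ℚ] PadicAlgCl (q : ℕ), plc_prime (q : ℕ) ι = v}).Finite := by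
    apply Set.finite_iUnion
    intro c
    apply Set.Finite.biUnion
    · exact Filter.eventually_cofinite.mp (FractionalIdeal.finite_factors _)
    · intro v _
      apply Set.Subsingleton.finite
      rintro q ⟨ι, hι⟩ q' ⟨ι', hι'⟩
      exact icl_prime_unique q q' ι ι' (hι.trans hι'.symm)
  refine hfin.subset ?_
  rintro q ⟨c, ι, h⟩
  rw [Set.mem_iUnion]
  refine ⟨c, ?_⟩
  rw [Set.mem_iUnion₂]
  exact ⟨plc_prime (q : ℕ) ι, h, ι, rfl⟩

end ideal

section main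

/-- **[IDL-CLASS]** `J_F = Fˣ · J_T` for all sufficiently large finite `T`. -/
theorem icl_main : gl_ClassStatement := by
  intro F _ _
  refine ⟨(icl_bad_finite F).toFinset, ?_⟩
  intro T hT
  rw [eq_top_iff]
  intro x _
  have hI := icl_ideal_ne_zero x
  obtain ⟨Iu, hIu⟩ : ∃ Iu : (FractionalIdeal (𝓞 F)⁰ F)ˣ,
      (Iu : FractionalIdeal (𝓞 F)⁰ F) = icl_ideal x := ⟨Units.mk0 _ hI, rfl⟩
  set c := ClassGroup.mk F Iu with hc
  have h1 : ClassGroup.mk F (Iu * (icl_rep c)⁻¹) = 1 := by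
    rw [map_mul, map_inv, icl_rep_spec]
    exact mul_inv_cancel _
  rw [ClassGroup.mk_eq_one_iff] at h1
  obtain ⟨a, ha⟩ := (FractionalIdeal.isPrincipal_iff _).mp h1
  have ha0 : a ≠ 0 := by
    rintro rfl
    rw [spanSingleton_zero] at ha
    exact (Units.ne_zero _) ha
  have hsp : spanSingleton (𝓞 F)⁰ a ≠ 0 := by
    rw [ne_eq, spanSingleton_eq_zero_iff]
    exact ha0
  have hIeq : icl_ideal x = spanSingleton (𝓞 F)⁰ a *
      ((icl_rep c : (FractionalIdeal (𝓞 F)⁰ F)ˣ) : FractionalIdeal (𝓞 F)⁰ F) := by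
    rw [← ha, ← Units.val_mul, inv_mul_cancel_right, hIu]
  have hcount : ∀ v : HeightOneSpectrum (𝓞 F), icl_exp x v =
      -(WithZero.log (v.valuation F a)) + count F v ((icl_rep c :
        (FractionalIdeal (𝓞 F)⁰ F)ˣ) : FractionalIdeal (𝓞 F)⁰ F) := by
    intro v
    rw [← icl_count_ideal x v, ← icl_count_span v a ha0, hIeq,
      count_mul F v hsp (Units.ne_zero _)]
  refine Subgroup.mem_sup.mpr ⟨gdiag_hom F (Units.mk0 a ha0), gdiag_hom_mem_P F _,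
    (gdiag_hom F (Units.mk0 a ha0))⁻¹ * x, ?_, mul_inv_cancel_left _ _⟩
  intro q hq
  have hqb : q ∉ icl_bad F := fun h => hq (hT ((icl_bad_finite F).mem_toFinset.mpr h))
  intro ι
  have hz : count F (plc_prime (q : ℕ) ι) ((icl_rep c :
      (FractionalIdeal (𝓞 F)⁰ F)ˣ) : FractionalIdeal (𝓞 F)⁰ F) = 0 := by
    by_contra h
    exact hqb ⟨c, ι, h⟩
  have hx := icl_exp_spec x q ι
  rw [hcount, hz, add_zero, ← plc_norm_eq (q : ℕ) ι a ha0] at hx
  have hne : ‖ι a‖ ≠ 0 := plc_norm_ne_zero (q : ℕ) ι a ha0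
  show ‖((((((gdiag_hom F (Units.mk0 a ha0))⁻¹ * x : gl_J F) : (q : Nat.Primes) → gl_JP F q) q :
    gl_JP F q).1 ι : (PadicAlgCl (q : ℕ))ˣ) : PadicAlgCl (q : ℕ))‖ = 1
  have hval : ((((((gdiag_hom F (Units.mk0 a ha0))⁻¹ * x : gl_J F) :
      (q : Nat.Primes) → gl_JP F q) q : gl_JP F q).1 ι : (PadicAlgCl (q : ℕ))ˣ) :
        PadicAlgCl (q : ℕ)) =
      (ι a)⁻¹ * (((x.1 q).1 ι : (PadicAlgCl (q : ℕ))ˣ) : PadicAlgCl (q : ℕ)) := by
    have h2 : (((((gdiag_hom F (Units.mk0 a ha0))⁻¹ * x : gl_J F) :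
        (q : Nat.Primes) → gl_JP F q) q : gl_JP F q).1 ι : (PadicAlgCl (q : ℕ))ˣ) =
        ((gl_diagq (q : ℕ) F (Units.mk0 a ha0)).1 ι)⁻¹ * (x.1 q).1 ι := rfl
    rw [h2, Units.val_mul, Units.val_inv_eq_inv_val, gl_diagq_apply]
    rfl
  rw [hval, norm_mul, norm_inv, hx]
  exact inv_mul_cancel₀ hne

end main

end

end Fermat.Agent.S55
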