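/-
S55 (fifth wave), GLOBAL side, package [FINLEVEL-K] (helper23): THE PLACES HALF OF THE
DICTIONARY `flk_DictStatement` of `Global/FinLevelKDefs.lean`.  Prefixes `flk_`, `flkp_`.

  flk_emb       every embedding `E → Ω_q` is `flk_iota j q g = ι_q ∘ g ∘ j`
  flk_locU      `gl_locU q E H (flk_iota j q g) = ak_H K q g`
  flk_locSigma  `gl_locSigma τ = flk_resH (ak_r τ')`
  flk_inv       `gl_invAtF q E H (flk_iota j q g) inv c = ak_inv K q g inv (flk_infl₂ c)`
  flk_place     `gl_placeKSetoid`-equivalence of `flk_iota g`, `flk_iota g'` ↔ `ak_SamePlace`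
  flk_sum       the sum of all local invariants = the sum over a place set `T` outside of which
                the invariants vanish  (uses helper16's `gic_main`)
+ tools: flkp_exists_extension, flkp_mem_range (elements of `Ω_q` integral over `ℚ` lie in
  `ι_q(ℚ̄)`), flkp_exists_g (every embedding `ℚ̄ → Ω_q` is `ι_q ∘ g`), flkp_twist_eq,
  flkp_place, flkp_sum_q, flkp_sumP.
-/
import Mathlib
import Fermat.Agent.S55.Global.FinLevelKAlg
import Fermat.Agent.S55.Global.InvConj

set_option autoImplicit false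
set_option linter.style.haveILetI false

namespace Fermat.Agent.S55

open groupCohomology

noncomputable section

local notation "Qbar" => AlgebraicClosure ℚ

local instance flkp_isAlgebraicQbar : Algebra.IsAlgebraic ℚ (AlgebraicClosure ℚ) :=
  AlgebraicClosure.isAlgebraic ℚ

section emb

variable {E : Type} [Field E] [NumberField E] (j : E →ₐ[ℚ] Qbar) (q : ℕ) [Fact q.Prime]

/-- every embedding of `E` into `Ω_q` extends to `ℚ̄` along `j`. -/
theorem flkp_exists_extension (ι : E →ₐ[ℚ] PadicAlgCl q) :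
    ∃ ι' : Qbar →ₐ[ℚ] PadicAlgCl q, ι'.comp j = ι := by
  letI : Algebra E Qbar := (j : E →+* Qbar).toAlgebra
  letI : Algebra E (PadicAlgCl q) := (ι : E →+* PadicAlgCl q).toAlgebra
  haveI : IsScalarTower ℚ E Qbar := IsScalarTower.of_algebraMap_eq (fun r => (j.commutes r).symm)
  haveI : Algebra.IsAlgebraic E Qbar := Algebra.IsAlgebraic.tower_top (K := ℚ) E
  let φ : Qbar →ₐ[E] PadicAlgCl q := IsAlgClosed.lift
  refine ⟨(φ : Qbar →+* PadicAlgCl q).toRatAlgHom, ?_⟩
  ext x
  exact φ.commutes x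

/-- every element of `Ω_q` which is integral over `ℚ` lies in the image of `ι_q`. -/
theorem flkp_mem_range (y : PadicAlgCl q) (hy : IsIntegral ℚ y) :
    ∃ x : Qbar, padicEmbedding q x = y := by
  letI : Algebra Qbar (PadicAlgCl q) := (padicEmbedding q).toRingHom.toAlgebra
  haveI : IsScalarTower ℚ Qbar (PadicAlgCl q) :=
    IsScalarTower.of_algebraMap_eq' (Subsingleton.elim _ _)
  have hy' : IsIntegral Qbar y := hy.tower_top
  have hirr := minpoly.irreducible hy'
  have hdeg := IsAlgClosed.degree_eq_one_of_irreducible Qbar hirr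
  have h := minpoly.mem_range_of_degree_eq_one Qbar y hdeg
  obtain ⟨x, hx⟩ := h
  exact ⟨x, hx⟩

/-- every embedding of `ℚ̄` into `Ω_q` is `ι_q ∘ g`. -/
theorem flkp_exists_g (ι' : Qbar →ₐ[ℚ] PadicAlgCl q) :
    ∃ g : s55_GQ, ∀ x, ι' x = padicEmbedding q (g x) := by
  have h : ∀ x : Qbar, ∃ y : Qbar, padicEmbedding q y = ι' x := fun x =>
    flkp_mem_range q (ι' x) ((Algebra.IsIntegral.isIntegral (R := ℚ) x).map ι')
  choose f hf using h
  have hinj : Function.Injective (padicEmbedding q) := (padicEmbedding q).toRingHom.injective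
  let g₀ : Qbar →ₐ[ℚ] Qbar :=
    { toFun := f
      map_one' := by
        apply hinj
        rw [hf, map_one, map_one]
      map_mul' := fun x y => by
        apply hinj
        rw [hf, map_mul, map_mul, hf, hf]
      map_zero' := by
        apply hinj
        rw [hf, map_zero, map_zero]
      map_add' := fun x y => by
        apply hinj
        rw [hf, map_add, map_add, hf, hf]
      commutes' := fun r => by
        apply hinj
        rw [hf, AlgHom.commutes, AlgHom.commutes] }
  have hbij : Function.Bijective g₀ := Algebra.IsAlgebraic.algHom_bijective g₀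
  refine ⟨AlgEquiv.ofBijective g₀ hbij, fun x => ?_⟩
  exact (hf x).symm

/-- (P3) -/
theorem flk_emb (ι : E →ₐ[ℚ] PadicAlgCl q) : ∃ g : s55_GQ, ι = flk_iota j q g := by
  obtain ⟨ι', hι'⟩ := flkp_exists_extension j q ι
  obtain ⟨g, hg⟩ := flkp_exists_g q ι'
  refine ⟨g, ?_⟩
  ext x
  rw [← hι']
  exact hg (j x)

end emb

section loc

variable (K : IntermediateField ℚ Qbar) {E : Type} [Field E] [NumberField E]
  (j : E →ₐ[ℚ] Qbar) (hn : flk_Stable K j) (q : ℕ) [Fact q.Prime] (g : s55_GQ)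

theorem flkp_iota_injective : Function.Injective (flk_iota j q g) :=
  (flk_iota j q g).toRingHom.injective

/-- `ι_g ∘ res u = ι_q ∘ g ∘ u ∘ j`. -/
theorem flkp_iota_res (u : ↥K.fixingSubgroup) (x : E) :
    flk_iota j q g (flk_res hn u x) = padicEmbedding q (g ((u : s55_GQ) (j x))) := by
  rw [flk_iota_apply, flk_res_spec]

theorem flkp_conj_apply (τ : lcf_Gal q) (y : Qbar) :
    padicEmbedding q (g ((g⁻¹ * localGaloisToGlobal q τ * g) y)) =
      τ (padicEmbedding q (g y)) := by
  have h1 : (g⁻¹ * localGaloisToGlobal q τ * g) y = g⁻¹ (localGaloisToGlobal q τ (g y)) := rfl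
  rw [h1, show g (g⁻¹ (localGaloisToGlobal q τ (g y))) = localGaloisToGlobal q τ (g y) from
    AlgEquiv.apply_symm_apply g _, padicEmbedding_localGaloisToGlobal]

/-- the twist by `τ ∈ ak_H` is the composition with the restriction of `ak_r τ`. -/
theorem flkp_twist_eq (τ : ↥(ak_H K q g)) :
    gl_twist q E (τ : lcf_Gal q) (flk_iota j q g) =
      (flk_iota j q g).comp ((flk_res hn (ak_r K q g τ) : E ≃ₐ[ℚ] E) : E →ₐ[ℚ] E) := by
  ext x
  show (τ : lcf_Gal q) (flk_iota j q g x) = flk_iota j q g (flk_res hn (ak_r K q g τ) x)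
  rw [flkp_iota_res, ak_r_coe, flkp_conj_apply]
  rfl

/-- (P1) -/
theorem flk_locU (hK : K ≤ j.fieldRange) :
    gl_locU q E (flk_H K j hn) (flk_iota j q g) = ak_H K q g := by
  ext τ
  rw [gl_mem_locU_iff, ak_mem_H_iff]
  constructor
  · rintro ⟨σ, ⟨u, rfl⟩, h⟩
    rw [IntermediateField.mem_fixingSubgroup_iff]
    intro k hk
    obtain ⟨x, hx⟩ := hK hk
    have hx' : j x = k := hx
    subst hx'
    have h1 := congrArg (fun f : E →ₐ[ℚ] PadicAlgCl q => f x) h
    have h2 : τ (flk_iota j q g x) = flk_iota j q g (flk_res hn u x) := h1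
    rw [flkp_iota_res, (IntermediateField.mem_fixingSubgroup_iff K _).1 u.2 _ hk] at h2
    have h3 : (g⁻¹ * localGaloisToGlobal q τ * g) (j x) =
        g⁻¹ (localGaloisToGlobal q τ (g (j x))) := rfl
    rw [h3]
    have h4 : localGaloisToGlobal q τ (g (j x)) = g (j x) := by
      apply (padicEmbedding q).toRingHom.injective
      show padicEmbedding q (localGaloisToGlobal q τ (g (j x))) = padicEmbedding q (g (j x))
      rw [padicEmbedding_localGaloisToGlobal]
      exact h2
    rw [h4]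
    exact AlgEquiv.symm_apply_apply g _
  · intro h
    exact ⟨flk_res hn ⟨_, h⟩, ⟨⟨_, h⟩, rfl⟩, flkp_twist_eq K j hn q g ⟨τ, (ak_mem_H_iff K q g τ).2 h⟩⟩

/-- (P1') -/
theorem flk_locSigma (τ : ↥(gl_locU q E (flk_H K j hn) (flk_iota j q g)))
    (τ' : ↥(ak_H K q g)) (h : (τ : lcf_Gal q) = τ') :
    gl_locSigma q E (flk_H K j hn) (flk_iota j q g) τ = flk_resH K j hn (ak_r K q g τ') := by
  apply Subtype.ext
  apply AlgEquiv.ext
  intro x
  apply flkp_iota_injective j q g
  rw [← gl_locSigma_apply, h]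
  have h1 := congrArg (fun f : E →ₐ[ℚ] PadicAlgCl q => f x) (flkp_twist_eq K j hn q g τ')
  exact h1

theorem flkp_units_map (x : Eˣ) :
    Units.map (flk_iota j q g : E →* PadicAlgCl q) x =
      ak_emb q g (Units.map (j : E →* Qbar) x) := by
  apply Units.ext
  rfl

/-- (P2) -/
theorem flk_inv (hK : K ≤ j.fieldRange) (inv : lcf_InvType)
    (c : ↥(flk_H K j hn) × ↥(flk_H K j hn) → Additive Eˣ) :
    gl_invAtF q E (flk_H K j hn) (flk_iota j q g) inv c =
      ak_inv K q g inv (flk_infl₂ K j hn c) := by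
  unfold gl_invAtF ak_inv
  apply ak_inv_congr inv q (flk_locU K j hn q g hK)
  intro x y x' y' hx hy
  show Units.map (flk_iota j q g : E →* PadicAlgCl q)
      (c (gl_locSigma q E (flk_H K j hn) (flk_iota j q g) x,
        gl_locSigma q E (flk_H K j hn) (flk_iota j q g) y)).toMul =
    ak_emb q g (Units.map (j : E →* Qbar)
      (c (flk_resH K j hn (ak_r K q g x'), flk_resH K j hn (ak_r K q g y'))).toMul)
  rw [flk_locSigma K j hn q g x x' hx, flk_locSigma K j hn q g y y' hy, flkp_units_map]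

theorem flkp_place (hK : K ≤ j.fieldRange) (g' : s55_GQ) :
    (gl_placeKSetoid q E (flk_H K j hn)).r (flk_iota j q g) (flk_iota j q g') ↔
      ∃ (τ : lcf_Gal q) (u : s55_GQ), u ∈ K.fixingSubgroup ∧
        g' = localGaloisToGlobal q τ * g * u := by
  constructor
  · rintro ⟨σ, ⟨u₀, rfl⟩, τ, h⟩
    have key : ∀ x : E, g' (j x) = (localGaloisToGlobal q τ * g * (u₀ : s55_GQ)) (j x) := by
      intro x
      have h1 := congrArg (fun f : E →ₐ[ℚ] PadicAlgCl q => f x) h
      have h2 : flk_iota j q g' x = τ (flk_iota j q g (flk_res hn u₀ x)) := h1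
      rw [flkp_iota_res, ← padicEmbedding_localGaloisToGlobal] at h2
      exact (padicEmbedding q).toRingHom.injective h2
    have hv : (localGaloisToGlobal q τ * g * (u₀ : s55_GQ))⁻¹ * g' ∈
        j.fieldRange.fixingSubgroup := by
      rw [IntermediateField.mem_fixingSubgroup_iff]
      rintro y ⟨x, hx⟩
      have hx' : j x = y := hx
      subst hx'
      show (localGaloisToGlobal q τ * g * (u₀ : s55_GQ))⁻¹ (g' (j x)) = j x
      rw [key x]
      exact AlgEquiv.symm_apply_apply _ _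
    refine ⟨τ, (u₀ : s55_GQ) * ((localGaloisToGlobal q τ * g * (u₀ : s55_GQ))⁻¹ * g'),
      K.fixingSubgroup.mul_mem u₀.2 (IntermediateField.fixingSubgroup_antitone hK hv), ?_⟩
    group
  · rintro ⟨τ, u, hu, rfl⟩
    refine ⟨flk_res hn ⟨u, hu⟩, ⟨⟨u, hu⟩, rfl⟩, τ, ?_⟩
    ext x
    show padicEmbedding q ((localGaloisToGlobal q τ * g * u) (j x)) =
      τ (flk_iota j q g (flk_res hn ⟨u, hu⟩ x))
    rw [flkp_iota_res, ← padicEmbedding_localGaloisToGlobal]
    rfl

end loc

/-- (P4) -/
theorem flk_place (K : IntermediateField ℚ Qbar) {E : Type} [Field E] [NumberField E]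
    (j : E →ₐ[ℚ] Qbar) (hn : flk_Stable K j) (hK : K ≤ j.fieldRange)
    (q : Nat.Primes) (g g' : s55_GQ) :
    letI : Fact (q : ℕ).Prime := ⟨q.2⟩
    ((gl_placeKSetoid (q : ℕ) E (flk_H K j hn)).r (flk_iota j (q : ℕ) g)
      (flk_iota j (q : ℕ) g') ↔ ak_SamePlace K (q, g) (q, g')) := by
  letI : Fact (q : ℕ).Prime := ⟨q.2⟩
  rw [flkp_place K j hn (q : ℕ) g hK g']
  constructor
  · rintro ⟨τ, u, hu, h⟩
    exact ⟨rfl, τ, u, hu, h⟩
  · rintro ⟨-, τ, u, hu, h⟩
    exact ⟨τ, u, hu, h⟩

section sum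

variable (inv : lcf_InvType) (hinv : lcf_IsInvSystem inv)
  (K : IntermediateField ℚ Qbar) {E : Type} [Field E] [NumberField E]
  (j : E →ₐ[ℚ] Qbar) (hn : flk_Stable K j) (hK : K ≤ j.fieldRange)
  (c : ↥(flk_H K j hn) × ↥(flk_H K j hn) → Additive Eˣ) (hc : IsCocycle₂ c)

include hinv hK hc in
/-- the sum over the places above one prime. -/
theorem flkp_sum_q (q : ℕ) [Fact q.Prime] (G₀ : Finset s55_GQ)
    (hG : ∀ g ∈ G₀, ∀ g' ∈ G₀, (∃ (τ : lcf_Gal q) (u : s55_GQ), u ∈ K.fixingSubgroup ∧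
      g' = localGaloisToGlobal q τ * g * u) → g = g')
    (hout : ∀ g', (∀ g ∈ G₀, ¬ ∃ (τ : lcf_Gal q) (u : s55_GQ), u ∈ K.fixingSubgroup ∧
      g' = localGaloisToGlobal q τ * g * u) → ak_inv K q g' inv (flk_infl₂ K j hn c) = 0) :
    ∑ᶠ v : gl_PlaceK q E (flk_H K j hn),
        gl_invAtF q E (flk_H K j hn) (Quotient.out v) inv c =
      ∑ g ∈ G₀, ak_inv K q g inv (flk_infl₂ K j hn c) := by
  classical
  let ψ : s55_GQ → gl_PlaceK q E (flk_H K j hn) := fun g =>
    Quotient.mk (gl_placeKSetoid q E (flk_H K j hn)) (flk_iota j q g)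
  have hterm : ∀ g, gl_invAtF q E (flk_H K j hn) (Quotient.out (ψ g)) inv c =
      ak_inv K q g inv (flk_infl₂ K j hn c) := by
    intro g
    have hr : (gl_placeKSetoid q E (flk_H K j hn)).r (flk_iota j q g) (Quotient.out (ψ g)) := by
      apply Quotient.exact (s := gl_placeKSetoid q E (flk_H K j hn))
      exact (Quotient.out_eq (ψ g)).symm
    rw [(gic_main inv hinv E (flk_H K j hn) q (flk_iota j q g) (Quotient.out (ψ g)) hr).1 c hc,
      flk_inv K j hn q g hK]
  have hsupp : Function.support (fun v : gl_PlaceK q E (flk_H K j hn) =>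
      gl_invAtF q E (flk_H K j hn) (Quotient.out v) inv c) ⊆ ↑(G₀.image ψ) := by
    intro v hv
    obtain ⟨g₀, hg₀⟩ := flk_emb j q (Quotient.out v)
    have hv' : ψ g₀ = v := by
      show Quotient.mk _ (flk_iota j q g₀) = v
      rw [← hg₀]
      exact Quotient.out_eq v
    by_contra hnot
    apply hv
    show gl_invAtF q E (flk_H K j hn) (Quotient.out v) inv c = 0
    rw [← hv', hterm g₀]
    apply hout
    intro g hg hsame
    apply hnot
    rw [Finset.mem_coe, Finset.mem_image]
    refine ⟨g, hg, ?_⟩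
    rw [← hv']
    exact Quotient.sound ((flkp_place K j hn q g hK g₀).2 hsame)
  rw [finsum_eq_sum_of_support_subset _ hsupp, Finset.sum_image]
  · exact Finset.sum_congr rfl (fun g _ => hterm g)
  · intro g hg g' hg' h
    exact hG g hg g' hg' ((flkp_place K j hn q g hK g').1 (Quotient.exact h))

include hinv hK hc in
/-- the sum over the places above `q : Nat.Primes`. -/
theorem flkp_sumP (T : Finset (Nat.Primes × s55_GQ)) (hT : ak_IsPlaceSet K T)
    (hout : ∀ w', ak_Outside K T w' → ak_invP K inv w' (flk_infl₂ K j hn c) = 0)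
    (q : Nat.Primes) :
    gl_sumPF inv E (flk_H K j hn) c q =
      ∑ w ∈ T.filter (fun w => w.1 = q), ak_invP K inv w (flk_infl₂ K j hn c) := by
  classical
  letI : Fact (q : ℕ).Prime := ⟨q.2⟩
  have h1 := flkp_sum_q inv hinv K j hn hK c hc (q : ℕ)
    ((T.filter (fun w => w.1 = q)).image Prod.snd) ?_ ?_
  · unfold gl_sumPF
    rw [h1, Finset.sum_image]
    · apply Finset.sum_congr rfl
      rintro ⟨q', g⟩ hw
      have e : q' = q := (Finset.mem_filter.1 hw).2
      subst e
      rfl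
    · rintro ⟨q1, g1⟩ h1 ⟨q2, g2⟩ h2 h
      have e1 : q1 = q := (Finset.mem_filter.1 h1).2
      have e2 : q2 = q := (Finset.mem_filter.1 h2).2
      have e3 : g1 = g2 := h
      rw [e1, e2, e3]
  · intro g hg g' hg' hsame
    obtain ⟨w, hw, rfl⟩ := Finset.mem_image.1 hg
    obtain ⟨w', hw', rfl⟩ := Finset.mem_image.1 hg'
    have hw1 := Finset.mem_filter.1 hw
    have hw1' := Finset.mem_filter.1 hw'
    have hs : ak_SamePlace K w w' := by
      obtain ⟨q1, g1⟩ := w
      obtain ⟨q2, g2⟩ := w'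
      have e1 : q1 = q := hw1.2
      have e2 : q2 = q := hw1'.2
      subst e1
      subst e2
      exact ⟨rfl, hsame⟩
    rw [hT w hw1.1 w' hw1'.1 hs]
  · intro g' hg'
    have h2 := hout (q, g') ?_
    · exact h2
    · intro w hw hsame
      obtain ⟨q1, g1⟩ := w
      obtain ⟨e, τ, u, hu, h⟩ := hsame
      have e' : q1 = q := e
      subst e'
      exact hg' g1 (Finset.mem_image.2 ⟨(q1, g1), Finset.mem_filter.2 ⟨hw, rfl⟩, rfl⟩)
        ⟨τ, u, hu, h⟩

include hinv hK hc in
/-- (S1) -/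
theorem flk_sum (T : Finset (Nat.Primes × s55_GQ)) (hT : ak_IsPlaceSet K T)
    (hout : ∀ w', ak_Outside K T w' → ak_invP K inv w' (flk_infl₂ K j hn c) = 0) :
    (Function.support (gl_sumPF inv E (flk_H K j hn) c)).Finite ∧
      gl_sumF inv E (flk_H K j hn) c = ∑ w ∈ T, ak_invP K inv w (flk_infl₂ K j hn c) := by
  classical
  have hA := flkp_sumP inv hinv K j hn hK c hc T hT hout
  have hsupp : Function.support (gl_sumPF inv E (flk_H K j hn) c) ⊆ ↑(T.image Prod.fst) := by
    intro q hq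
    by_contra hnot
    apply hq
    rw [hA q]
    apply Finset.sum_eq_zero
    intro w hw
    exfalso
    apply hnot
    rw [Finset.mem_coe, Finset.mem_image]
    exact ⟨w, (Finset.mem_filter.1 hw).1, (Finset.mem_filter.1 hw).2⟩
  refine ⟨(Finset.finite_toSet _).subset hsupp, ?_⟩
  unfold gl_sumF
  rw [finsum_eq_sum_of_support_subset _ hsupp]
  rw [Finset.sum_congr rfl (fun q _ => hA q)]
  exact Finset.sum_fiberwise_of_maps_to (fun w hw => Finset.mem_image_of_mem Prod.fst hw) _

end sum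

end

end Fermat.Agent.S55
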