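/-
S55 (fifth wave), GLOBAL side, package [SECOND] (helper17): INTERFACE FILE.

Target: `gl_SecondStatement` of `Global/Defs.lean` (the second inequality in the Kummer case):
for a number field `F` containing `μ_p` (`p` odd) and `σ ∈ Aut(F/ℚ)` of order `p`,
`[C_F^σ : N C_F]` divides `p`.

ROUTE (Cassels-Froehlich VII.9, Neukirch VI.4.4), in the idele model of `Global/IdeleDefs.lean`.
`K := F^σ` is the TYPE `↥(IntermediateField.fixedField (Subgroup.zpowers σ))` with its own ideles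
`gl_J K`; by [DESCENT] `C_K = C_F^σ`.  For a finite set `S` of rational primes (= all places of
`K` above them) and finitely many further places `T = {[κ q] : q ∈ T}` of `K` (ONE place above
each `q ∈ T`, given by an embedding `κ q : K → Ω_q`; `S` and `T` disjoint) put
  `J(S,T)` = ideles which are units outside `S ∪ T`,
  `E(S,T)` = `∏_{v ∈ S} K_vˣᵖ × ∏_{v ∈ T} K_vˣ × ∏_{v ∉ S ∪ T} U_v`,
  `D(S,T)` = `∏_{v ∈ S} K_vˣ × ∏_{v ∈ T} K_vˣᵖ × ∏_{v ∉ S ∪ T} U_v`.
Then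
* `E(S,T) ⊆ N_{F/K} J_F` if `S ⊇ ram F` and the places of `T` split in `F`
  ([SEC-UNR] + elementary);
* `[J(S,T) : E(S,T)] = ∏_{q ∈ S} [J_q : J_qᵖ] = p ^ (2 n)`, `n = #{places above S} + [K:ℚ]/2`
  ([SEC-LOCIDX], `p ∈ S`);
* `[K_{S,T} : K_{S,T}ᵖ] = p ^ (n + #T)`  ([SEC-SUNIT]);
* `K_{S,T} ∩ E(S,T) = K_{S,T}ᵖ`  ([SEC-KEY], the only place where [FIRST] is used);
* `T` with `#T = n - 1`, split in `F`, with `K_S → ∏_{v ∈ T} K_vˣ/K_vˣᵖ` "onto on units"
  exists ([SEC-AUX]; the primes come from the analytic block `anF_exists_prime`);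
hence `[J_K : Kˣ E(S,T)] = p ^ (2 n) / p ^ (2 n - 1) = p` and `[C_K : N C_F]` divides `p`.

Everything below is a DEFINITION or a `Prop`; the packages prove the `Prop`s, the file
`Global/SecondOf.lean` proves `gl_SecondStatement` from them.
-/
import Mathlib
import Fermat.Agent.S55.Global.Defs

set_option autoImplicit false

namespace Fermat.Agent.S55

open IntermediateField

noncomputable section

/-- The elements of `Nat.Primes` are prime (as a `Fact`; use it as a local instance). -/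
theorem sec_fact (q : Nat.Primes) : Fact (q : ℕ).Prime := ⟨q.2⟩

attribute [local instance] sec_fact

/-! ### Places -/

section local_defs

variable (q : ℕ) [Fact q.Prime] (K : Type) [Field K] [Algebra ℚ K]

/-- Two embeddings `K → Ω_q` define the same place. -/
def sec_Conj (κ κ' : K →ₐ[ℚ] PadicAlgCl q) : Prop :=
  ∃ τ : gl_GQq q, κ' = gl_twist q K τ κ

/-- The semi-local idele `f` is trivial outside the place of `κ`. -/
def sec_SuppAt (κ : K →ₐ[ℚ] PadicAlgCl q) (f : gl_Jq q K) : Prop :=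
  ∀ κ' : K →ₐ[ℚ] PadicAlgCl q, ¬ sec_Conj q K κ κ' → f.1 κ' = 1

/-- The semi-local idele `f` is a unit at all places above `q` different from the place of
`κ`. -/
def sec_UnitOff (κ : K →ₐ[ℚ] PadicAlgCl q) (f : gl_Jq q K) : Prop :=
  ∀ κ' : K →ₐ[ℚ] PadicAlgCl q, ¬ sec_Conj q K κ κ' →
    ‖((f.1 κ' : (PadicAlgCl q)ˣ) : PadicAlgCl q)‖ = 1

/-- The component of `f` at the place of `κ` is a `p`-th power in the local field `K_κ`
(the components at `κ` of the semi-local ideles are exactly the elements of `K_κˣ`). -/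
def sec_PowAt (p : ℕ) (κ : K →ₐ[ℚ] PadicAlgCl q) (f : gl_Jq q K) : Prop :=
  ∃ g : gl_Jq q K, g.1 κ ^ p = f.1 κ

end local_defs

section split

variable (q : ℕ) [Fact q.Prime] (F : Type) [Field F] [NumberField F] (σ : F ≃ₐ[ℚ] F)

/-- The place of `K = F^σ` given by `κ` splits in `F`: `σ` is not in the decomposition group of
any embedding of `F` above `κ`. -/
def sec_SplitAt (κ : ↥(fixedField (Subgroup.zpowers σ)) →ₐ[ℚ] PadicAlgCl q) : Prop :=
  ∀ ι : F →ₐ[ℚ] PadicAlgCl q, ι.comp (fixedField (Subgroup.zpowers σ)).val = κ →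
    σ ∉ gl_decomp q F ι

/-- `F / F^σ` is unramified at the place of `F^σ` given by `κ`: the value group does not grow. -/
def sec_UnramAt (κ : ↥(fixedField (Subgroup.zpowers σ)) →ₐ[ℚ] PadicAlgCl q) : Prop :=
  ∀ ι : F →ₐ[ℚ] PadicAlgCl q, ι.comp (fixedField (Subgroup.zpowers σ)).val = κ →
    ∀ a : F, a ≠ 0 → ∃ b : ↥(fixedField (Subgroup.zpowers σ)), b ≠ 0 ∧ ‖ι a‖ = ‖κ b‖

/-- The norm `1 + σ + ... + σ^(p-1)` on the semi-local ideles of `F`. -/
def sec_normq (p : ℕ) : gl_Jq q F →* gl_Jq q F where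
  toFun w := ∏ i ∈ Finset.range p, σ ^ i • w
  map_one' := by simp
  map_mul' x y := by
    rw [← Finset.prod_mul_distrib]
    exact Finset.prod_congr rfl fun i _ => smul_mul' _ _ _

/-- The norm `1 + σ + ... + σ^(p-1)` on the ideles of `F`. -/
def sec_normJ (p : ℕ) : gl_J F →* gl_J F where
  toFun w := ∏ i ∈ Finset.range p, σ ^ i • w
  map_one' := by simp
  map_mul' x y := by
    rw [← Finset.prod_mul_distrib]
    exact Finset.prod_congr rfl fun i _ => smul_mul' _ _ _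

end split

/-! ### The groups `J(S,T)`, `E(S,T)`, `D(S,T)` and the `(S,T)`-units -/

section groups

variable (K : Type) [Field K] [Algebra ℚ K]

/-- `x` is a unit outside `S ∪ T`: at the primes outside `S ∪ T` it is a unit, at the primes
`q ∈ T` it is a unit outside the place of `κ q`. -/
def sec_InJST (S T : Finset Nat.Primes) (κ : ∀ q : Nat.Primes, K →ₐ[ℚ] PadicAlgCl (q : ℕ))
    (x : (q : Nat.Primes) → gl_JP K q) : Prop :=
  ∀ q : Nat.Primes, q ∉ S →
    (q ∉ T → x q ∈ gl_UP K q) ∧ (q ∈ T → sec_UnitOff (q : ℕ) K (κ q) (x q))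

/-- `x ∈ E(S,T)`: a unit outside `S ∪ T` and a `p`-th power at every `q ∈ S`. -/
def sec_InE (p : ℕ) (S T : Finset Nat.Primes)
    (κ : ∀ q : Nat.Primes, K →ₐ[ℚ] PadicAlgCl (q : ℕ))
    (x : (q : Nat.Primes) → gl_JP K q) : Prop :=
  sec_InJST K S T κ x ∧ ∀ q ∈ S, ∃ y : gl_JP K q, y ^ p = x q

/-- `x ∈ D(S,T)`: a unit outside `S` and a `p`-th power at the places of `T`. -/
def sec_InD (p : ℕ) (S T : Finset Nat.Primes)
    (κ : ∀ q : Nat.Primes, K →ₐ[ℚ] PadicAlgCl (q : ℕ))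
    (x : (q : Nat.Primes) → gl_JP K q) : Prop :=
  (∀ q : Nat.Primes, q ∉ S → x q ∈ gl_UP K q) ∧
    ∀ q ∈ T, sec_PowAt (q : ℕ) K p (κ q) (x q)

/-- The principal family of `a ∈ Kˣ`. -/
def sec_diag (a : Kˣ) : (q : Nat.Primes) → gl_JP K q := fun q => gl_diagP K q a

/-- The `(S,T)`-units of `K`. -/
def sec_units (S T : Finset Nat.Primes) (κ : ∀ q : Nat.Primes, K →ₐ[ℚ] PadicAlgCl (q : ℕ)) :
    Subgroup Kˣ where
  carrier := {a | sec_InJST K S T κ (sec_diag K a)}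
  one_mem' := by
    intro q _
    refine ⟨fun _ => ?_, fun _ κ' _ => ?_⟩
    · show gl_diagP K q 1 ∈ gl_UP K q
      rw [map_one]
      exact (gl_UP K q).one_mem
    · show ‖(((gl_diagP K q 1).1 κ' : (PadicAlgCl (q : ℕ))ˣ) : PadicAlgCl (q : ℕ))‖ = 1
      rw [map_one]
      simp
  mul_mem' := by
    intro a b ha hb q hq
    refine ⟨fun hT => ?_, fun hT κ' hκ' => ?_⟩
    · show gl_diagP K q (a * b) ∈ gl_UP K q
      rw [map_mul]
      exact (gl_UP K q).mul_mem ((ha q hq).1 hT) ((hb q hq).1 hT)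
    · have h1 := (ha q hq).2 hT κ' hκ'
      have h2 := (hb q hq).2 hT κ' hκ'
      show ‖(((gl_diagP K q (a * b)).1 κ' : (PadicAlgCl (q : ℕ))ˣ) : PadicAlgCl (q : ℕ))‖ = 1
      rw [map_mul]
      change ‖(((gl_diagP K q a).1 κ' : (PadicAlgCl (q : ℕ))ˣ) : PadicAlgCl (q : ℕ))‖ = 1 at h1
      change ‖(((gl_diagP K q b).1 κ' : (PadicAlgCl (q : ℕ))ˣ) : PadicAlgCl (q : ℕ))‖ = 1 at h2
      simp only [Subgroup.coe_mul, Pi.mul_apply, Units.val_mul, norm_mul]
      rw [h1, h2, mul_one]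
  inv_mem' := by
    intro a ha q hq
    refine ⟨fun hT => ?_, fun hT κ' hκ' => ?_⟩
    · show gl_diagP K q a⁻¹ ∈ gl_UP K q
      rw [map_inv]
      exact (gl_UP K q).inv_mem ((ha q hq).1 hT)
    · have h1 := (ha q hq).2 hT κ' hκ'
      show ‖(((gl_diagP K q a⁻¹).1 κ' : (PadicAlgCl (q : ℕ))ˣ) : PadicAlgCl (q : ℕ))‖ = 1
      rw [map_inv]
      change ‖(((gl_diagP K q a).1 κ' : (PadicAlgCl (q : ℕ))ˣ) : PadicAlgCl (q : ℕ))‖ = 1 at h1
      simp only [Subgroup.coe_inv, Pi.inv_apply, Units.val_inv_eq_inv_val, norm_inv]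
      rw [h1, inv_one]

/-- The `S`-units of `K` map onto `∏_{v ∈ T} U_v / U_vᵖ`: every idele which is a unit outside
`S` is congruent, at the places of `T` and modulo `p`-th powers, to an `S`-unit. -/
def sec_Onto (p : ℕ) (S T : Finset Nat.Primes)
    (κ : ∀ q : Nat.Primes, K →ₐ[ℚ] PadicAlgCl (q : ℕ)) : Prop :=
  ∀ x : (q : Nat.Primes) → gl_JP K q, (∀ q : Nat.Primes, q ∉ S → x q ∈ gl_UP K q) →
    ∃ b : Kˣ, b ∈ sec_units K S ∅ κ ∧
      ∀ q ∈ T, sec_PowAt (q : ℕ) K p (κ q) (x q / gl_diagP K q b)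

/-- The number `n = #{places of K above S} + [K : ℚ] / 2`. -/
def sec_n (S : Finset Nat.Primes) : ℕ :=
  ∑ q ∈ S, Nat.card (gl_Place (q : ℕ) K) + Module.finrank ℚ K / 2

end groups

/-! ### The leaves -/

/-- **[SEC-LOCIDX]** the semi-local index of the `p`-th powers: for a number field `K ∋ ζ_p`
(`p` odd) and a prime `q`,
`[J_q : J_qᵖ] = ∏_{v ∣ q} [K_vˣ : K_vˣᵖ] = p ^ (2 · #{v ∣ q} + [K : ℚ] · [q = p])`
(`[K_vˣ : K_vˣᵖ] = p² / |p|_v`; CF VII.9 / N II.5.8). -/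
def sec_LocIdxStatement : Prop :=
  ∀ (K : Type) [Field K] [NumberField K] (p : ℕ), p.Prime → p ≠ 2 →
    (∃ ζ : K, IsPrimitiveRoot ζ p) →
    ∀ (q : ℕ) [Fact q.Prime],
      (powMonoidHom p : gl_Jq q K →* gl_Jq q K).range.index =
        p ^ (2 * Nat.card (gl_Place q K) + if q = p then Module.finrank ℚ K else 0)

/-- **[SEC-SUNIT]** the unit theorem for `(S,T)`-units modulo `p`-th powers: for a number field
`K ∋ ζ_p` (`p` odd; so `K` is totally complex with `[K : ℚ] / 2` archimedean places),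
`[K_{S,T} : K_{S,T}ᵖ] = p ^ (#{places above S} + #T + [K : ℚ] / 2)`
(Dirichlet: `K_Σ ≅ μ(K) × ℤ ^ (#Σ + r₂ - 1)`, and `p ∣ #μ(K)`). -/
def sec_SUnitStatement : Prop :=
  ∀ (K : Type) [Field K] [NumberField K] (p : ℕ), p.Prime → p ≠ 2 →
    (∃ ζ : K, IsPrimitiveRoot ζ p) →
    ∀ (S T : Finset Nat.Primes) (κ : ∀ q : Nat.Primes, K →ₐ[ℚ] PadicAlgCl (q : ℕ)),
      Disjoint S T →
      ((sec_units K S T κ).map (powMonoidHom p : Kˣ →* Kˣ)).relIndex (sec_units K S T κ) =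
        p ^ (sec_n K S + T.card)

/-- **[SEC-UNR]** local norms at an unramified place: if `F / F^σ` is unramified at the place
`κ` of `K = F^σ`, every semi-local unit of `K` supported at this place is the norm of a
semi-local unit of `F`  (inert case: surjectivity of the norm on the units of an unramified
extension of local fields, helper29's `unr_lf_norm_surj`; split case: elementary). -/
def sec_UnrNormStatement : Prop :=
  ∀ (F : Type) [Field F] [NumberField F] (p : ℕ), p.Prime → p ≠ 2 →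
    ∀ σ : F ≃ₐ[ℚ] F, orderOf σ = p →
    ∀ (q : ℕ) [Fact q.Prime] (κ : ↥(fixedField (Subgroup.zpowers σ)) →ₐ[ℚ] PadicAlgCl q),
      sec_UnramAt q F σ κ →
      ∀ x : gl_Jq q ↥(fixedField (Subgroup.zpowers σ)),
        x ∈ gl_Uq q ↥(fixedField (Subgroup.zpowers σ)) →
        sec_SuppAt q ↥(fixedField (Subgroup.zpowers σ)) κ x →
        ∃ w : gl_Jq q F, w ∈ gl_Uq q F ∧
          sec_normq q F σ p w = gl_resq F (fixedField (Subgroup.zpowers σ)) q x

/-- **[SEC-AUX]** the auxiliary places: for `S ⊇ ram F ∪ {p}` with `J_K = Kˣ J_{K,S}` there are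
`n - 1` places `T` of `K = F^σ` outside `S` (above distinct primes), split in `F`, such that the
`S`-units of `K` map onto `∏_{v ∈ T} U_v / U_vᵖ`.
(Inductively: `x ∈ K_S`, not a `p`-th power in `F` ⟹ `anF_exists_prime` gives a prime of degree
one of `F` modulo which `x` is not a `p`-th power; Kummer: `K_S ∩ Fˣᵖ = ⟨a⟩ K_Sᵖ`; count with
[SEC-SUNIT].) -/
def sec_AuxStatement : Prop :=
  ∀ (F : Type) [Field F] [NumberField F] (p : ℕ) (hp : p.Prime), p ≠ 2 →
    (∃ ζ : F, IsPrimitiveRoot ζ p) →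
    ∀ σ : F ≃ₐ[ℚ] F, orderOf σ = p →
    ∀ S : Finset Nat.Primes, gl_ram F ⊆ (S : Set Nat.Primes) → (⟨p, hp⟩ : Nat.Primes) ∈ S →
      gl_P ↥(fixedField (Subgroup.zpowers σ)) ⊔
        gl_JT ↥(fixedField (Subgroup.zpowers σ)) (S : Set Nat.Primes) = ⊤ →
      ∃ (T : Finset Nat.Primes)
        (κ : ∀ q : Nat.Primes, ↥(fixedField (Subgroup.zpowers σ)) →ₐ[ℚ] PadicAlgCl (q : ℕ)),
        Disjoint S T ∧ T.card + 1 = sec_n ↥(fixedField (Subgroup.zpowers σ)) S ∧
          (∀ q ∈ T, sec_SplitAt (q : ℕ) F σ (κ q)) ∧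
          sec_Onto ↥(fixedField (Subgroup.zpowers σ)) p S T κ

/-- **[SEC-KEY]** the key lemma: if the `S`-units map onto `∏_{v ∈ T} U_v / U_vᵖ`, then every
`y ∈ Kˣ ∩ E(S,T)` is a `p`-th power in `K`.
(Otherwise `F' = K(y^(1/p))` is cyclic of degree `p`, split at `S`, unramified outside `S ∪ T`,
so `D(S,T) ⊆ N J_{F'}`; but `J_K = Kˣ D(S,T)`, contradicting [FIRST] for `F'/K`.) -/
def sec_KeyStatement : Prop :=
  ∀ (K : Type) [Field K] [NumberField K] (p : ℕ) (hp : p.Prime), p ≠ 2 →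
    (∃ ζ : K, IsPrimitiveRoot ζ p) →
    ∀ (S T : Finset Nat.Primes) (κ : ∀ q : Nat.Primes, K →ₐ[ℚ] PadicAlgCl (q : ℕ)),
      gl_ram K ⊆ (S : Set Nat.Primes) → (⟨p, hp⟩ : Nat.Primes) ∈ S →
      gl_P K ⊔ gl_JT K (S : Set Nat.Primes) = ⊤ → Disjoint S T → sec_Onto K p S T κ →
      ∀ y : Kˣ, sec_InE K p S T κ (sec_diag K y) → ∃ z : Kˣ, z ^ p = y

end

end Fermat.Agent.S55
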