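import Mathlib
import Fermat.Agent.S55.Global.Defs
import Fermat.Agent.S55.Global.SecondDefs
import Fermat.Agent.S55.Global.AbsDefs
import Fermat.Agent.S55.Bridge.KDefs
import Fermat.Agent.S55.Global.FinLevelKDefs
import Fermat.Agent.S55.Global.FinLevelKPlace
import Fermat.Agent.S55.Global.KExDefs

/-!
# S55, global side, package [KEX-UNITS], part 2: places `(q, g)` and embeddings of `↥K`

For `K ⊆ ℚ̄` finite and normal over `ℚ`, with representatives `R q` of the double cosets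
`loc_q(Γ_q) \\ G_ℚ / G_K`: every embedding `↥K → Ω_q` is conjugate to the embedding of a
representative (`kxu_emb_rep`), different representatives give different places
(`kxu_placeOf_injOn`, `kxu_card_reps`), the stabiliser of an embedding lies in `kl_H K q`
(`kxu_stab_mem`), and the local hypothesis of [KEX-UNITS] at the representatives propagates to
all embeddings (`kxu_local_all`).
-/

set_option autoImplicit false

namespace Fermat.Agent.S55

noncomputable section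

local notation "Qbar" => AlgebraicClosure ℚ

attribute [local instance] sec_fact

/-! ### The dictionary: places `(q, g)` and embeddings of the number field `↥K` -/

section dict

variable (K : IntermediateField ℚ Qbar)

theorem kxu_smul_coe (q : Nat.Primes) (τ : ↥(kl_H K q)) (β : (PadicAlgCl (q : ℕ))ˣ) :
    ((τ • β : (PadicAlgCl (q : ℕ))ˣ) : PadicAlgCl (q : ℕ)) =
      (τ : lcf_Gal (q : ℕ)) (β : PadicAlgCl (q : ℕ)) := rfl

/-- The embedding of `↥K` belonging to `(q, g)`. -/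
def kxu_iota (q : ℕ) [Fact q.Prime] (g : s55_GQ) : ↥K →ₐ[ℚ] PadicAlgCl q :=
  (ak_iota q g).comp K.val

@[simp] theorem kxu_iota_apply (q : ℕ) [Fact q.Prime] (g : s55_GQ) (x : ↥K) :
    kxu_iota K q g x = padicEmbedding q (g (x : Qbar)) := rfl

theorem kxu_fix (u : s55_GQ) (hu : u ∈ K.fixingSubgroup) (x : ↥K) : u (x : Qbar) = x :=
  (IntermediateField.mem_fixingSubgroup_iff K u).mp hu x x.2

theorem kxu_mem_fixing (u : s55_GQ) (hu : ∀ x : ↥K, u (x : Qbar) = x) :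
    u ∈ K.fixingSubgroup :=
  (IntermediateField.mem_fixingSubgroup_iff K u).mpr fun x hx => hu ⟨x, hx⟩

theorem kxu_padicEmbedding_injective (q : ℕ) [Fact q.Prime] :
    Function.Injective (padicEmbedding q) := (padicEmbedding q).toRingHom.injective

/-- Embeddings in the same double coset are conjugate. -/
theorem kxu_iota_coset (q : ℕ) [Fact q.Prime] (g g₀ u : s55_GQ) (τ : lcf_Gal q)
    (hu : u ∈ K.fixingSubgroup) (hg : g = localGaloisToGlobal q τ * g₀ * u) :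
    kxu_iota K q g = gl_twist q ↥K τ (kxu_iota K q g₀) := by
  ext x
  rw [gl_twist_apply, kxu_iota_apply, kxu_iota_apply, hg]
  show padicEmbedding q (localGaloisToGlobal q τ (g₀ (u (x : Qbar)))) = _
  rw [kxu_fix K u hu x, padicEmbedding_localGaloisToGlobal]

/-- Conjugate embeddings lie in the same double coset. -/
theorem kxu_coset_of_twist (q : ℕ) [Fact q.Prime] (g g' : s55_GQ) (τ : lcf_Gal q)
    (h : kxu_iota K q g' = gl_twist q ↥K τ (kxu_iota K q g)) :
    ∃ u : s55_GQ, u ∈ K.fixingSubgroup ∧ g' = localGaloisToGlobal q τ * g * u := by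
  refine ⟨g⁻¹ * (localGaloisToGlobal q τ)⁻¹ * g', kxu_mem_fixing K _ fun x => ?_, by group⟩
  have h1 := congrArg (fun f : ↥K →ₐ[ℚ] PadicAlgCl q => f x) h
  simp only [gl_twist_apply, kxu_iota_apply] at h1
  rw [← padicEmbedding_localGaloisToGlobal] at h1
  have h2 := kxu_padicEmbedding_injective q h1
  show g⁻¹ ((localGaloisToGlobal q τ)⁻¹ (g' (x : Qbar))) = x
  rw [h2]
  show g⁻¹ ((localGaloisToGlobal q τ)⁻¹ ((localGaloisToGlobal q τ) (g (x : Qbar)))) = x
  rw [show (localGaloisToGlobal q τ)⁻¹ ((localGaloisToGlobal q τ) (g (x : Qbar))) = g (x : Qbar)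
    from AlgEquiv.symm_apply_apply _ _]
  exact AlgEquiv.symm_apply_apply g _

section reps

variable {S : Finset Nat.Primes} [hKn : K.fixingSubgroup.Normal] [NumberField ↥K]
  (R : ↥S → Finset s55_GQ) (hR : kl_IsReps S K R)

omit hKn in
include hR in
/-- Every embedding of `↥K` is conjugate to the embedding of a representative. -/
theorem kxu_emb_rep (q : ↥S) (ι : ↥K →ₐ[ℚ] PadicAlgCl ((q : Nat.Primes) : ℕ)) :
    ∃ g₀ ∈ R q, ∃ τ : lcf_Gal ((q : Nat.Primes) : ℕ),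
      ι = gl_twist ((q : Nat.Primes) : ℕ) ↥K τ (kxu_iota K ((q : Nat.Primes) : ℕ) g₀) := by
  obtain ⟨g, hg⟩ := flk_emb K.val ((q : Nat.Primes) : ℕ) ι
  obtain ⟨g₀, ⟨hg₀R, τ, u, hu, hgu⟩, -⟩ := hR q g
  refine ⟨g₀, hg₀R, τ, ?_⟩
  rw [hg]
  exact kxu_iota_coset K ((q : Nat.Primes) : ℕ) g g₀ u τ hu hgu

omit hKn [NumberField ↥K] in
include hR in
/-- Different representatives give different places. -/
theorem kxu_placeOf_injOn (q : ↥S) (g g' : s55_GQ) (hg : g ∈ R q) (hg' : g' ∈ R q)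
    (h : gl_placeOf ((q : Nat.Primes) : ℕ) ↥K (kxu_iota K ((q : Nat.Primes) : ℕ) g) =
      gl_placeOf ((q : Nat.Primes) : ℕ) ↥K (kxu_iota K ((q : Nat.Primes) : ℕ) g')) :
    g = g' := by
  obtain ⟨τ, hτ⟩ := Quotient.exact h
  obtain ⟨u, hu, hgu⟩ := kxu_coset_of_twist K ((q : Nat.Primes) : ℕ) g g' τ hτ
  obtain ⟨g₀, -, huniq⟩ := hR q g'
  have h1 : g = g₀ := huniq g ⟨hg, τ, u, hu, hgu⟩
  have h2 : g' = g₀ := huniq g' ⟨hg', 1, 1, Subgroup.one_mem _, by simp⟩
  rw [h1, h2]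

omit hKn in
include hR in
/-- There are at least `#R q` places above `q`. -/
theorem kxu_card_reps (q : ↥S) :
    (R q).card ≤ Nat.card (gl_Place ((q : Nat.Primes) : ℕ) ↥K) := by
  haveI : Finite (↥K →ₐ[ℚ] PadicAlgCl ((q : Nat.Primes) : ℕ)) := inferInstance
  haveI : Finite (gl_Place ((q : Nat.Primes) : ℕ) ↥K) := Quotient.finite _
  have hinj : Function.Injective (fun g : ↥(R q) =>
      gl_placeOf ((q : Nat.Primes) : ℕ) ↥K (kxu_iota K ((q : Nat.Primes) : ℕ) (g : s55_GQ))) := by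
    intro g g' h
    exact Subtype.ext (kxu_placeOf_injOn K R hR q g g' g.2 g'.2 h)
  have := Nat.card_le_card_of_injective _ hinj
  rwa [Nat.card_eq_fintype_card, Fintype.card_coe] at this

omit [NumberField ↥K] in
/-- The stabiliser of an embedding lies in the local group `kl_H K q`. -/
theorem kxu_stab_mem (q : Nat.Primes) (g₀ : s55_GQ) (τ : lcf_Gal (q : ℕ))
    (h : gl_twist (q : ℕ) ↥K τ (kxu_iota K (q : ℕ) g₀) = kxu_iota K (q : ℕ) g₀) :
    τ ∈ kl_H K q := by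
  rw [kl_mem_H_iff]
  have h1 : g₀⁻¹ * localGaloisToGlobal (q : ℕ) τ * g₀ ∈ K.fixingSubgroup := by
    apply kxu_mem_fixing
    intro x
    have h2 := congrArg (fun f : ↥K →ₐ[ℚ] PadicAlgCl (q : ℕ) => f x) h
    simp only [gl_twist_apply, kxu_iota_apply] at h2
    rw [← padicEmbedding_localGaloisToGlobal] at h2
    have h3 := kxu_padicEmbedding_injective (q : ℕ) h2
    show g₀⁻¹ (localGaloisToGlobal (q : ℕ) τ (g₀ (x : Qbar))) = x
    rw [h3]
    exact AlgEquiv.symm_apply_apply g₀ _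
  have h4 := hKn.conj_mem _ h1 g₀
  have h5 : g₀ * (g₀⁻¹ * localGaloisToGlobal (q : ℕ) τ * g₀) * g₀⁻¹ =
      localGaloisToGlobal (q : ℕ) τ := by group
  rw [h5] at h4
  exact h4

include hR in
/-- The local hypothesis of [KEX-UNITS] at the representatives gives the hypothesis of
`kxu_root` at all embeddings. -/
theorem kxu_local_all (p : ℕ) (q : ↥S) (y : (↥K)ˣ)
    (h : ∀ g ∈ R q, ∃ β : (PadicAlgCl ((q : Nat.Primes) : ℕ))ˣ,
      (∀ τ : ↥(kl_H K (q : Nat.Primes)), τ • β = β) ∧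
        β ^ p = ak_emb ((q : Nat.Primes) : ℕ) g (Units.map (K.val : ↥K →* Qbar) y))
    (ι : ↥K →ₐ[ℚ] PadicAlgCl ((q : Nat.Primes) : ℕ)) :
    ∃ β : (PadicAlgCl ((q : Nat.Primes) : ℕ))ˣ,
      (β : PadicAlgCl ((q : Nat.Primes) : ℕ)) ^ p = ι (y : ↥K) ∧
        ∀ τ : gl_GQq ((q : Nat.Primes) : ℕ), gl_twist ((q : Nat.Primes) : ℕ) ↥K τ ι = ι →
          τ (β : PadicAlgCl ((q : Nat.Primes) : ℕ)) = β := by
  obtain ⟨g₀, hg₀, σ, hσ⟩ := kxu_emb_rep K R hR q ι
  obtain ⟨β, hβfix, hβp⟩ := h g₀ hg₀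
  refine ⟨Units.map ((σ : lcf_Gal ((q : Nat.Primes) : ℕ)) :
    PadicAlgCl ((q : Nat.Primes) : ℕ) →* PadicAlgCl ((q : Nat.Primes) : ℕ)) β, ?_, ?_⟩
  · show (σ (β : PadicAlgCl ((q : Nat.Primes) : ℕ))) ^ p = ι (y : ↥K)
    have h1 := congrArg (fun z : (PadicAlgCl ((q : Nat.Primes) : ℕ))ˣ =>
      (z : PadicAlgCl ((q : Nat.Primes) : ℕ))) hβp
    simp only [Units.val_pow_eq_pow_val, ak_emb_coe] at h1
    rw [← map_pow, h1, hσ]
    rfl
  · intro τ hτ
    show τ (σ (β : PadicAlgCl ((q : Nat.Primes) : ℕ))) = σ (β : PadicAlgCl ((q : Nat.Primes) : ℕ))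
    have h2 : gl_twist ((q : Nat.Primes) : ℕ) ↥K (σ⁻¹ * τ * σ)
        (kxu_iota K ((q : Nat.Primes) : ℕ) g₀) = kxu_iota K ((q : Nat.Primes) : ℕ) g₀ := by
      rw [gl_twist_mul, ← hσ, gl_twist_mul, hτ, hσ, ← gl_twist_mul, inv_mul_cancel, gl_twist_one]
    have h3 := kxu_stab_mem K (q : Nat.Primes) g₀ _ h2
    have h4 := hβfix ⟨_, h3⟩
    have h5 := congrArg (fun z : (PadicAlgCl ((q : Nat.Primes) : ℕ))ˣ =>
      (z : PadicAlgCl ((q : Nat.Primes) : ℕ))) h4
    simp only [kxu_smul_coe] at h5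
    have h6 : (σ⁻¹ * τ * σ) (β : PadicAlgCl ((q : Nat.Primes) : ℕ)) =
        σ⁻¹ (τ (σ (β : PadicAlgCl ((q : Nat.Primes) : ℕ)))) := rfl
    rw [h6] at h5
    have h7 := congrArg σ h5
    rw [show σ (σ⁻¹ (τ (σ (β : PadicAlgCl ((q : Nat.Primes) : ℕ))))) =
      τ (σ (β : PadicAlgCl ((q : Nat.Primes) : ℕ))) from AlgEquiv.apply_symm_apply σ _] at h7
    exact h7

end reps

end dict

end

end Fermat.Agent.S55
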