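import Mathlib
import Fermat.Agent.S55.Global.Defs
import Fermat.Agent.S55.Global.SecondDefs

/-!
# S55, global side, package [KEX-UNITS], part 1: equivariant choice of local roots

`kxu_root`: if for every embedding `ι : E → Ω_q` the element `ι y` has a `p`-th root fixed by
the stabiliser of `ι` in `Gal(Ω_q/ℚ_q)`, the principal semi-local idele of `y` is a `p`-th
power in `gl_Jq q E`.
-/

set_option autoImplicit false

namespace Fermat.Agent.S55

noncomputable section

/-! ### Equivariant choice of local roots -/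

section root

variable (q : ℕ) [Fact q.Prime] (E : Type) [Field E] [Algebra ℚ E]

/-- If for every embedding `ι : E → Ω_q` the element `ι y` has a `p`-th root fixed by the
stabiliser of `ι`, then the principal semi-local idele of `y` is a `p`-th power. -/
theorem kxu_root (p : ℕ) (y : Eˣ)
    (h : ∀ ι : E →ₐ[ℚ] PadicAlgCl q, ∃ β : (PadicAlgCl q)ˣ,
      (β : PadicAlgCl q) ^ p = ι (y : E) ∧
        ∀ τ : gl_GQq q, gl_twist q E τ ι = ι → τ (β : PadicAlgCl q) = β) :
    ∃ f : gl_Jq q E, f ^ p = gl_diagq q E y := by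
  classical
  choose β hβ1 hβ2 using h
  -- representatives of the places
  have hrep : ∀ ι : E →ₐ[ℚ] PadicAlgCl q, ∃ τ : gl_GQq q,
      ι = gl_twist q E τ (Quotient.out (gl_placeOf q E ι)) := by
    intro ι
    have h1 : gl_placeOf q E (Quotient.out (gl_placeOf q E ι)) = gl_placeOf q E ι :=
      Quotient.out_eq _
    exact Quotient.exact h1
  choose t ht using hrep
  set r : (E →ₐ[ℚ] PadicAlgCl q) → (E →ₐ[ℚ] PadicAlgCl q) :=
    fun ι => Quotient.out (gl_placeOf q E ι) with hr
  have hr_twist : ∀ (σ : gl_GQq q) (ι : E →ₐ[ℚ] PadicAlgCl q), r (gl_twist q E σ ι) = r ι := by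
    intro σ ι
    have h1 : gl_placeOf q E (gl_twist q E σ ι) = gl_placeOf q E ι :=
      (Quotient.sound (⟨σ, rfl⟩ : (gl_placeSetoid q E).r ι (gl_twist q E σ ι))).symm
    rw [hr]
    beta_reduce
    rw [h1]
  set fval : (E →ₐ[ℚ] PadicAlgCl q) → (PadicAlgCl q)ˣ :=
    fun ι => Units.map ((t ι : gl_GQq q) : PadicAlgCl q →* PadicAlgCl q) (β (r ι)) with hfval
  have hfcoe : ∀ ι, ((fval ι : (PadicAlgCl q)ˣ) : PadicAlgCl q) = t ι (β (r ι) : PadicAlgCl q) :=
    fun ι => rfl
  have hmem : fval ∈ gl_Jq q E := by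
    rw [gl_mem_Jq_iff]
    intro σ ι
    rw [hfcoe, hfcoe, hr_twist]
    -- `twist (t (σ ι)) r = twist (σ * t ι) r`
    have e1 : gl_twist q E σ ι = gl_twist q E (t (gl_twist q E σ ι)) (r ι) := by
      have := ht (gl_twist q E σ ι)
      rw [show Quotient.out (gl_placeOf q E (gl_twist q E σ ι)) = r (gl_twist q E σ ι) from rfl,
        hr_twist] at this
      exact this
    generalize t (gl_twist q E σ ι) = s at e1 ⊢
    have e2 : gl_twist q E (σ * t ι) (r ι) = gl_twist q E σ ι := by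
      rw [gl_twist_mul]
      congr 1
      exact (ht ι).symm
    have e3 : gl_twist q E (s⁻¹ * (σ * t ι)) (r ι) = r ι := by
      rw [gl_twist_mul, e2, e1, ← gl_twist_mul, inv_mul_cancel, gl_twist_one]
    have e4 := hβ2 (r ι) _ e3
    have e5 : s ((s⁻¹ * (σ * t ι)) (β (r ι) : PadicAlgCl q)) =
        σ (t ι (β (r ι) : PadicAlgCl q)) := by
      show s (s⁻¹ ((σ * t ι) (β (r ι) : PadicAlgCl q))) = _
      rw [show s (s⁻¹ ((σ * t ι) (β (r ι) : PadicAlgCl q))) =
        (σ * t ι) (β (r ι) : PadicAlgCl q) from AlgEquiv.apply_symm_apply _ _]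
      rfl
    rw [e4] at e5
    exact e5
  refine ⟨⟨fval, hmem⟩, ?_⟩
  apply Subtype.ext
  funext ι
  apply Units.ext
  show ((fval ι ^ p : (PadicAlgCl q)ˣ) : PadicAlgCl q) = ι (y : E)
  rw [Units.val_pow_eq_pow_val, hfcoe, ← map_pow, hβ1]
  have := ht ι
  conv_rhs => rw [this]
  rfl

end root

end

end Fermat.Agent.S55
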