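/-
S55 (fifth wave), GLOBAL side, package [SEC-KEY] (helper4), part 1: the Kummer extension.

For a number field `K ∋ ζ_p` and `y ∈ K` which is not a `p`-th power, the field
`F' = K(y^(1/p))` is a number field with an automorphism `σ'` (over `ℚ`) of order `p` whose
fixed field is (isomorphic to) `K`:  `skey_exists_ext`.
-/
import Mathlib

set_option autoImplicit false
set_option linter.style.haveILetI false

namespace Fermat.Agent.S55

open Polynomial IntermediateField

noncomputable section

theorem skey_charZero (K L : Type) [Field K] [NumberField K] [Field L] [Algebra K L] :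
    CharZero L :=
  charZero_of_injective_algebraMap (algebraMap K L).injective

theorem skey_numberField (K L : Type) [Field K] [NumberField K] [Field L] [Algebra K L]
    [FiniteDimensional K L] : NumberField L :=
  haveI := skey_charZero K L
  { to_charZero := inferInstance
    to_finiteDimensional := Module.Finite.trans (R := ℚ) K L }

/-- A Galois extension `L/K` of prime degree `p` of a number field, as a number field with an
automorphism of order `p` over `ℚ` whose fixed field is the image of `K`. -/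
theorem skey_ext_of (K L : Type) [Field K] [NumberField K] [Field L] [NumberField L]
    [Algebra K L] [FiniteDimensional K L] [IsGalois K L] (p : ℕ) (hp : p.Prime)
    (hdeg : Module.finrank K L = p) :
    ∃ σ' : L ≃ₐ[ℚ] L, orderOf σ' = p ∧
      ∀ x : L, σ' x = x ↔ x ∈ (algebraMap K L).range := by
  haveI : Fact p.Prime := ⟨hp⟩
  have hcard : Nat.card (L ≃ₐ[K] L) = p := by
    rw [IsGalois.card_aut_eq_finrank, hdeg]
  haveI : Finite (L ≃ₐ[K] L) := Nat.finite_of_card_ne_zero (by rw [hcard]; exact hp.ne_zero)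
  obtain ⟨g, hg⟩ : ∃ g : L ≃ₐ[K] L, g ≠ 1 := by
    by_contra h
    have h : ∀ g : L ≃ₐ[K] L, g = 1 := fun g => by
      by_contra hg
      exact h ⟨g, hg⟩
    haveI : Subsingleton (L ≃ₐ[K] L) := ⟨fun a b => (h a).trans (h b).symm⟩
    have : Nat.card (L ≃ₐ[K] L) = 1 := Nat.card_unique
    rw [hcard] at this
    exact hp.one_lt.ne' this
  have htop : Subgroup.zpowers g = ⊤ := zpowers_eq_top_of_prime_card hcard hg
  have hord : orderOf g = p := by
    rw [← Nat.card_zpowers, htop, Nat.card_congr (Subgroup.topEquiv (G := L ≃ₐ[K] L)).toEquiv,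
      hcard]
  refine ⟨g.restrictScalars ℚ, ?_, ?_⟩
  · -- order
    have hinj : Function.Injective
        (fun h : L ≃ₐ[K] L => (h.restrictScalars ℚ : L ≃ₐ[ℚ] L)) := by
      intro a b hab
      ext x
      exact DFunLike.congr_fun hab x
    let φ : (L ≃ₐ[K] L) →* (L ≃ₐ[ℚ] L) :=
      { toFun := fun h => h.restrictScalars ℚ
        map_one' := rfl
        map_mul' := fun _ _ => rfl }
    have : orderOf (φ g) = orderOf g := orderOf_injective φ hinj g
    show orderOf (φ g) = p
    rw [this, hord]
  · intro x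
    constructor
    · intro hx
      have hfix : ∀ h : L ≃ₐ[K] L, h x = x := by
        intro h
        have hh : h ∈ Subgroup.zpowers g := by rw [htop]; exact Subgroup.mem_top _
        obtain ⟨k, rfl⟩ := Subgroup.mem_zpowers_iff.1 hh
        have hgx : g x = x := hx
        have hgx' : g • x = x := hgx
        have : (g ^ k) • x = x := by
          have hmem : g ∈ MulAction.stabilizer (L ≃ₐ[K] L) x := hgx'
          exact (MulAction.stabilizer (L ≃ₐ[K] L) x).zpow_mem hmem k
        exact this
      have hbot : x ∈ (⊥ : IntermediateField K L) :=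
        (IsGalois.mem_bot_iff_fixed x).2 hfix
      rw [IntermediateField.mem_bot] at hbot
      obtain ⟨a, ha⟩ := hbot
      exact ⟨a, ha⟩
    · rintro ⟨a, rfl⟩
      exact g.commutes a

/-- **The Kummer extension.** For `y ∈ K` not a `p`-th power (`K ∋ ζ_p` a number field) there
are a number field `F'`, an automorphism `σ'` of `F'` of order `p`, an isomorphism `e` of `K`
onto the fixed field of `σ'` and `β ∈ F'` with `β ^ p = e y`, `σ' β ≠ β`. -/
theorem skey_exists_ext (K : Type) [Field K] [NumberField K] (p : ℕ) (hp : p.Prime)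
    (ζ : K) (hζ : IsPrimitiveRoot ζ p) (y : K) (hy : ∀ z : K, z ^ p ≠ y) :
    ∃ (F' : Type) (_ : Field F') (_ : NumberField F') (σ' : F' ≃ₐ[ℚ] F')
      (e : K ≃ₐ[ℚ] ↥(fixedField (Subgroup.zpowers σ'))) (β : F'),
      orderOf σ' = p ∧ β ^ p = ((e y : ↥(fixedField (Subgroup.zpowers σ'))) : F') ∧
        σ' β ≠ β := by
  have H : Irreducible (X ^ p - C y : K[X]) := X_pow_sub_C_irreducible_of_prime hp hy
  have hζ' : (primitiveRoots p K).Nonempty := ⟨ζ, (mem_primitiveRoots hp.pos).2 hζ⟩
  haveI : NeZero p := ⟨hp.ne_zero⟩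
  let L : Type := (X ^ p - C y : K[X]).SplittingField
  haveI : IsGalois K L := isGalois_of_isSplittingField_X_pow_sub_C hζ' H L
  haveI : FiniteDimensional K L := IsSplittingField.finiteDimensional L (X ^ p - C y : K[X])
  have hdeg : Module.finrank K L = p := finrank_of_isSplittingField_X_pow_sub_C hζ' H L
  haveI hNF : NumberField L := skey_numberField K L
  obtain ⟨σ', hσ', hfix⟩ := skey_ext_of K L p hp hdeg
  let j₀ : K →ₐ[ℚ] L := (algebraMap K L).toRatAlgHom
  have hj₀ : ∀ x : K, j₀ x = algebraMap K L x := fun _ => rfl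
  have hEq : j₀.fieldRange = fixedField (Subgroup.zpowers σ') := by
    ext x
    rw [AlgHom.mem_fieldRange, IntermediateField.mem_fixedField_iff]
    constructor
    · rintro ⟨a, rfl⟩ g hg
      obtain ⟨k, rfl⟩ := Subgroup.mem_zpowers_iff.1 hg
      have h1 : σ' (j₀ a) = j₀ a := (hfix _).2 ⟨a, rfl⟩
      have h1' : σ' • (j₀ a) = j₀ a := h1
      have hmem : σ' ∈ MulAction.stabilizer (L ≃ₐ[ℚ] L) (j₀ a) := h1'
      exact (MulAction.stabilizer (L ≃ₐ[ℚ] L) (j₀ a)).zpow_mem hmem k
    · intro hx
      obtain ⟨a, ha⟩ := (hfix x).1 (hx σ' (Subgroup.mem_zpowers σ'))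
      exact ⟨a, ha⟩
  let e : K ≃ₐ[ℚ] ↥(fixedField (Subgroup.zpowers σ')) :=
    (AlgEquiv.ofInjectiveField j₀).trans (IntermediateField.equivOfEq hEq)
  have he : ∀ x : K, ((e x : ↥(fixedField (Subgroup.zpowers σ'))) : L) = algebraMap K L x :=
    fun _ => rfl
  refine ⟨L, inferInstance, hNF, σ', e, rootOfSplitsXPowSubC hp.pos y L, hσ', ?_, ?_⟩
  · rw [he]
    exact rootOfSplitsXPowSubC_pow y L
  · intro h
    obtain ⟨z, hz⟩ := (hfix _).1 h
    have h1 : algebraMap K L (z ^ p) = algebraMap K L y := by
      rw [map_pow, hz]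
      exact rootOfSplitsXPowSubC_pow y L
    exact hy z ((algebraMap K L).injective h1)

end

end Fermat.Agent.S55
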