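/-
S55 (fifth wave), GLOBAL side, package [SECOND] (helper17): the NORM part of the assembly.

For `σ ∈ Aut(F/ℚ)` of prime order `p`, `K = F^σ` (the type `↥(fixedField (zpowers σ))`):
* `sec_cut` : the restriction of a semi-local idele to one place;
* `sec_norm_res_pow` : `N (res y) = res (y ^ p)`  (`p`-th powers are norms);
* `sec_norm_split` : at a place of `K` which splits in `F` every semi-local idele supported at
  this place is a norm;
* `sec_norm_unr` : (from the leaf [SEC-UNR]) a semi-local unit of `K` which is trivial at all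
  places where `F/K` ramifies is the norm of a semi-local unit of `F`;
* `sec_unramAt_of_unram` : `F/ℚ` unramified at `q` ⟹ `F/K` unramified at all places above `q`;
* `sec_norm_of` : every element of `E(S,T)` is a norm from the ideles of `F`
  (`S ⊇ ram F`, the places of `T` split in `F`).
-/
import Mathlib
import Fermat.Agent.S55.Global.SecondDefs
import Fermat.Agent.S55.Global.GalDescent

set_option autoImplicit false
set_option linter.style.haveILetI false

namespace Fermat.Agent.S55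

open IntermediateField

attribute [local instance] sec_fact

noncomputable section

/-! ### Places and cuts -/

section cut

variable (q : ℕ) [Fact q.Prime] (K : Type) [Field K] [Algebra ℚ K]

theorem sec_conj_refl (κ : K →ₐ[ℚ] PadicAlgCl q) : sec_Conj q K κ κ :=
  ⟨1, (gl_twist_one q K κ).symm⟩

theorem sec_conj_symm {κ κ' : K →ₐ[ℚ] PadicAlgCl q} (h : sec_Conj q K κ κ') :
    sec_Conj q K κ' κ := by
  obtain ⟨τ, rfl⟩ := h
  exact ⟨τ⁻¹, by rw [← gl_twist_mul, inv_mul_cancel, gl_twist_one]⟩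

theorem sec_conj_trans {κ κ' κ'' : K →ₐ[ℚ] PadicAlgCl q} (h : sec_Conj q K κ κ')
    (h' : sec_Conj q K κ' κ'') : sec_Conj q K κ κ'' := by
  obtain ⟨τ, rfl⟩ := h
  obtain ⟨τ', rfl⟩ := h'
  exact ⟨τ' * τ, by rw [gl_twist_mul]⟩

theorem sec_conj_twist (κ : K →ₐ[ℚ] PadicAlgCl q) (τ : gl_GQq q) :
    sec_Conj q K κ (gl_twist q K τ κ) := ⟨τ, rfl⟩

theorem sec_conj_twist_iff (κ κ' : K →ₐ[ℚ] PadicAlgCl q) (τ : gl_GQq q) :
    sec_Conj q K κ (gl_twist q K τ κ') ↔ sec_Conj q K κ κ' := by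
  constructor
  · intro h
    exact sec_conj_trans q K h (sec_conj_symm q K (sec_conj_twist q K κ' τ))
  · intro h
    exact sec_conj_trans q K h (sec_conj_twist q K κ' τ)

open Classical in
/-- The restriction of the semi-local idele `f` to the place of `κ` (`1` at the other
places). -/
def sec_cut (κ : K →ₐ[ℚ] PadicAlgCl q) (f : gl_Jq q K) : gl_Jq q K :=
  ⟨fun κ' => if sec_Conj q K κ κ' then f.1 κ' else 1, by
    intro τ κ'
    by_cases h : sec_Conj q K κ κ'
    · have h' : sec_Conj q K κ (gl_twist q K τ κ') := (sec_conj_twist_iff q K κ κ' τ).2 h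
      simp only [h, h', if_true]
      exact f.2 τ κ'
    · have h' : ¬ sec_Conj q K κ (gl_twist q K τ κ') := fun h'' =>
        h ((sec_conj_twist_iff q K κ κ' τ).1 h'')
      simp only [h, h', if_false, map_one]⟩

open Classical in
theorem sec_cut_apply_conj (κ κ' : K →ₐ[ℚ] PadicAlgCl q) (f : gl_Jq q K)
    (h : sec_Conj q K κ κ') : (sec_cut q K κ f).1 κ' = f.1 κ' := by
  show (if sec_Conj q K κ κ' then f.1 κ' else 1) = _
  rw [if_pos h]

open Classical in
theorem sec_cut_apply_not_conj (κ κ' : K →ₐ[ℚ] PadicAlgCl q) (f : gl_Jq q K)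
    (h : ¬ sec_Conj q K κ κ') : (sec_cut q K κ f).1 κ' = 1 := by
  show (if sec_Conj q K κ κ' then f.1 κ' else 1) = _
  rw [if_neg h]

theorem sec_cut_suppAt (κ : K →ₐ[ℚ] PadicAlgCl q) (f : gl_Jq q K) :
    sec_SuppAt q K κ (sec_cut q K κ f) :=
  fun κ' h => sec_cut_apply_not_conj q K κ κ' f h

theorem sec_cut_mem_Uq (κ : K →ₐ[ℚ] PadicAlgCl q) (f : gl_Jq q K) (hf : f ∈ gl_Uq q K) :
    sec_cut q K κ f ∈ gl_Uq q K := by
  intro κ'
  by_cases h : sec_Conj q K κ κ'
  · rw [sec_cut_apply_conj q K κ κ' f h]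
    exact hf κ'
  · rw [sec_cut_apply_not_conj q K κ κ' f h]
    simp

/-- The complement of the cut: `f / cut f` is trivial at the place of `κ`. -/
theorem sec_div_cut_apply_conj (κ κ' : K →ₐ[ℚ] PadicAlgCl q) (f : gl_Jq q K)
    (h : sec_Conj q K κ κ') : (f / sec_cut q K κ f).1 κ' = 1 := by
  show f.1 κ' / (sec_cut q K κ f).1 κ' = 1
  rw [sec_cut_apply_conj q K κ κ' f h, div_self']

theorem sec_div_cut_apply_not_conj (κ κ' : K →ₐ[ℚ] PadicAlgCl q) (f : gl_Jq q K)
    (h : ¬ sec_Conj q K κ κ') : (f / sec_cut q K κ f).1 κ' = f.1 κ' := by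
  show f.1 κ' / (sec_cut q K κ f).1 κ' = _
  rw [sec_cut_apply_not_conj q K κ κ' f h, div_one]

/-- If `f` is a unit off the place of `κ`, then `f / cut f` is a unit. -/
theorem sec_div_cut_mem_Uq (κ : K →ₐ[ℚ] PadicAlgCl q) (f : gl_Jq q K)
    (hf : sec_UnitOff q K κ f) : f / sec_cut q K κ f ∈ gl_Uq q K := by
  intro κ'
  by_cases h : sec_Conj q K κ κ'
  · rw [sec_div_cut_apply_conj q K κ κ' f h]
    simp
  · rw [sec_div_cut_apply_not_conj q K κ κ' f h]
    exact hf κ' h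

end cut

/-! ### The semi-local norm -/

section norm

variable (q : ℕ) [Fact q.Prime] (F : Type) [Field F] [NumberField F] (σ : F ≃ₐ[ℚ] F)

theorem sec_normq_def (p : ℕ) (w : gl_Jq q F) :
    sec_normq q F σ p w = ∏ i ∈ Finset.range p, σ ^ i • w := rfl

theorem sec_normq_apply (p : ℕ) (w : gl_Jq q F) (ι : F →ₐ[ℚ] PadicAlgCl q) :
    (sec_normq q F σ p w).1 ι =
      ∏ i ∈ Finset.range p, w.1 (ι.comp ((σ ^ i : F ≃ₐ[ℚ] F) : F →ₐ[ℚ] F)) := by
  rw [sec_normq_def]
  have h1 : ((∏ i ∈ Finset.range p, σ ^ i • w : gl_Jq q F) :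
      (F →ₐ[ℚ] PadicAlgCl q) → (PadicAlgCl q)ˣ) =
      ∏ i ∈ Finset.range p, ((σ ^ i • w : gl_Jq q F) :
        (F →ₐ[ℚ] PadicAlgCl q) → (PadicAlgCl q)ˣ) :=
    Subgroup.val_finsetProd _ _ _
  show ((∏ i ∈ Finset.range p, σ ^ i • w : gl_Jq q F) :
      (F →ₐ[ℚ] PadicAlgCl q) → (PadicAlgCl q)ˣ) ι = _
  rw [h1, Finset.prod_apply]
  rfl

theorem sec_normq_mem_Uq (p : ℕ) (w : gl_Jq q F) (hw : w ∈ gl_Uq q F) :
    sec_normq q F σ p w ∈ gl_Uq q F := by
  rw [sec_normq_def]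
  exact Subgroup.prod_mem _ fun i _ => gl_smul_mem_Uq q F (σ ^ i) w hw

/-- `p`-th powers are norms: `N (res y) = res (y ^ p)`. -/
theorem sec_norm_res_pow (p : ℕ) (y : gl_Jq q ↥(fixedField (Subgroup.zpowers σ))) :
    sec_normq q F σ p (gl_resq F (fixedField (Subgroup.zpowers σ)) q y) =
      gl_resq F (fixedField (Subgroup.zpowers σ)) q (y ^ p) := by
  rw [sec_normq_def]
  have h : ∀ i ∈ Finset.range p,
      σ ^ i • gl_resq F (fixedField (Subgroup.zpowers σ)) q y =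
        gl_resq F (fixedField (Subgroup.zpowers σ)) q y := fun i _ =>
    gdsc_smul_resq F (Subgroup.zpowers σ) q (σ ^ i)
      (Subgroup.pow_mem _ (Subgroup.mem_zpowers σ) i) y
  rw [Finset.prod_congr rfl h, Finset.prod_const, Finset.card_range, map_pow]

/-- Restriction to the fixed field of an embedding composed with a power of `σ`. -/
theorem sec_comp_pow_val (ι : F →ₐ[ℚ] PadicAlgCl q) (i : ℕ) :
    ((ι.comp ((σ ^ i : F ≃ₐ[ℚ] F) : F →ₐ[ℚ] F)).comp (fixedField (Subgroup.zpowers σ)).val :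
        ↥(fixedField (Subgroup.zpowers σ)) →ₐ[ℚ] PadicAlgCl q) =
      ι.comp (fixedField (Subgroup.zpowers σ)).val :=
  gdsc_comp_val F (Subgroup.zpowers σ) ι (σ ^ i)
    (Subgroup.pow_mem _ (Subgroup.mem_zpowers σ) i)

/-- Conjugate embeddings of `F` have conjugate restrictions to `K`. -/
theorem sec_conj_val {ι ι' : F →ₐ[ℚ] PadicAlgCl q} (h : sec_Conj q F ι ι') :
    sec_Conj q ↥(fixedField (Subgroup.zpowers σ))
      (ι.comp (fixedField (Subgroup.zpowers σ)).val)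
      (ι'.comp (fixedField (Subgroup.zpowers σ)).val) := by
  obtain ⟨τ, rfl⟩ := h
  exact ⟨τ, rfl⟩

/-- A nontrivial element of `⟨σ⟩` in a subgroup `D` forces `σ ∈ D` (`σ` of prime order). -/
theorem sec_mem_of_pow_mem (p : ℕ) (hp : p.Prime) (hσ : orderOf σ = p)
    (D : Subgroup (F ≃ₐ[ℚ] F)) (g : F ≃ₐ[ℚ] F) (hg : g ∈ Subgroup.zpowers σ) (hg1 : g ≠ 1)
    (hgD : g ∈ D) : σ ∈ D := by
  haveI : Fact p.Prime := ⟨hp⟩
  have hcard : Nat.card ↥(Subgroup.zpowers σ) = p := by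
    rw [Nat.card_zpowers, hσ]
  have hg' : (⟨g, hg⟩ : ↥(Subgroup.zpowers σ)) ≠ 1 := by
    intro h
    exact hg1 (congrArg Subtype.val h)
  have htop := zpowers_eq_top_of_prime_card hcard hg'
  have hmem : (⟨σ, Subgroup.mem_zpowers σ⟩ : ↥(Subgroup.zpowers σ)) ∈
      Subgroup.zpowers (⟨g, hg⟩ : ↥(Subgroup.zpowers σ)) := by
    rw [htop]; exact Subgroup.mem_top _
  obtain ⟨k, hk⟩ := Subgroup.mem_zpowers_iff.1 hmem
  have hk' : g ^ k = σ := by
    have := congrArg Subtype.val hk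
    simpa using this
  rw [← hk']
  exact Subgroup.zpow_mem D hgD k

/-- **Split places.** If the place of `K = F^σ` given by `κ` splits in `F`, every semi-local
idele of `K` supported at this place is the norm of a semi-local idele of `F` (a unit if the
given idele is a unit). -/
theorem sec_norm_split (p : ℕ) (hp : p.Prime) (hσ : orderOf σ = p)
    (κ : ↥(fixedField (Subgroup.zpowers σ)) →ₐ[ℚ] PadicAlgCl q)
    (hsplit : sec_SplitAt q F σ κ)
    (a : gl_Jq q ↥(fixedField (Subgroup.zpowers σ)))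
    (ha : sec_SuppAt q ↥(fixedField (Subgroup.zpowers σ)) κ a) :
    ∃ w : gl_Jq q F,
      sec_normq q F σ p w = gl_resq F (fixedField (Subgroup.zpowers σ)) q a ∧
        (a ∈ gl_Uq q ↥(fixedField (Subgroup.zpowers σ)) → w ∈ gl_Uq q F) := by
  set ι₀ : F →ₐ[ℚ] PadicAlgCl q := gdsc_ext F q (fixedField (Subgroup.zpowers σ)) κ with hι₀def
  have hι₀ : (ι₀.comp (fixedField (Subgroup.zpowers σ)).val :
      ↥(fixedField (Subgroup.zpowers σ)) →ₐ[ℚ] PadicAlgCl q) = κ :=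
    gdsc_ext_comp F q (fixedField (Subgroup.zpowers σ)) κ
  refine ⟨sec_cut q F ι₀ (gl_resq F (fixedField (Subgroup.zpowers σ)) q a), ?_, ?_⟩
  · apply Subtype.ext
    funext ι
    rw [sec_normq_apply, gl_resq_apply]
    by_cases hc : sec_Conj q ↥(fixedField (Subgroup.zpowers σ)) κ
        (ι.comp (fixedField (Subgroup.zpowers σ)).val)
    · obtain ⟨τ, hτ⟩ := hc
      have hagree : (ι.comp (fixedField (Subgroup.zpowers σ)).val :
          ↥(fixedField (Subgroup.zpowers σ)) →ₐ[ℚ] PadicAlgCl q) =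
          (gl_twist q F τ ι₀).comp (fixedField (Subgroup.zpowers σ)).val := by
        rw [hτ, ← hι₀]
        rfl
      obtain ⟨ρ, hρ, hρ'⟩ := gdsc_ext_conj F (Subgroup.zpowers σ) ι (gl_twist q F τ ι₀) hagree
      obtain ⟨j, hj, hjρ⟩ : ∃ j, j < p ∧ σ ^ j = ρ := by
        have h1 : ρ ∈ Submonoid.powers σ := by
          have hfin : IsOfFinOrder σ := by
            rw [← orderOf_pos_iff, hσ]; exact hp.pos
          exact hfin.mem_powers_iff_mem_zpowers.2 hρ
        obtain ⟨j, hj⟩ := h1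
        refine ⟨j % p, Nat.mod_lt _ hp.pos, ?_⟩
        rw [← hj, ← hσ, pow_mod_orderOf]
      subst hjρ
      rw [Finset.prod_eq_single j]
      · rw [← hρ', sec_cut_apply_conj q F ι₀ _ _ (sec_conj_twist q F ι₀ τ), gl_resq_apply]
        exact congrArg a.1 hagree.symm
      · intro i hi hij
        apply sec_cut_apply_not_conj
        rintro ⟨τ', hτ'⟩
        -- `g = (σ^j)⁻¹ σ^i` lies in the decomposition group of `ι₀`
        have hgD : (σ ^ j)⁻¹ * σ ^ i ∈ gl_decomp q F ι₀ := by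
          refine ⟨τ⁻¹ * τ', ?_⟩
          ext x
          show ι₀ ((σ ^ j)⁻¹ ((σ ^ i) x)) = τ⁻¹ (τ' (ι₀ x))
          have h1 : τ (ι₀ ((σ ^ j)⁻¹ ((σ ^ i) x))) = ι ((σ ^ j) ((σ ^ j)⁻¹ ((σ ^ i) x))) :=
            DFunLike.congr_fun hρ' ((σ ^ j)⁻¹ ((σ ^ i) x))
          have h2 : (σ ^ j) ((σ ^ j)⁻¹ ((σ ^ i) x)) = (σ ^ i) x :=
            (σ ^ j).apply_symm_apply _
          have h3 : ι ((σ ^ i) x) = τ' (ι₀ x) := DFunLike.congr_fun hτ' x
          rw [h2, h3] at h1
          rw [← h1]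
          exact (τ.symm_apply_apply _).symm
        have hg1 : (σ ^ j)⁻¹ * σ ^ i ≠ 1 := by
          intro h
          have h1 : σ ^ i = σ ^ j := by
            have := congrArg (fun g => σ ^ j * g) h
            simpa using this
          have hi' : i < orderOf σ := by rw [hσ]; exact Finset.mem_range.1 hi
          have hj' : j < orderOf σ := by rw [hσ]; exact hj
          exact hij (pow_injOn_Iio_orderOf hi' hj' h1)
        have hgz : (σ ^ j)⁻¹ * σ ^ i ∈ Subgroup.zpowers σ :=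
          Subgroup.mul_mem _ (Subgroup.inv_mem _ (Subgroup.pow_mem _ (Subgroup.mem_zpowers σ) j))
            (Subgroup.pow_mem _ (Subgroup.mem_zpowers σ) i)
        exact hsplit ι₀ hι₀ (sec_mem_of_pow_mem F σ p hp hσ _ _ hgz hg1 hgD)
      · intro hj'
        exact absurd (Finset.mem_range.2 hj) hj'
    · rw [ha _ hc]
      apply Finset.prod_eq_one
      intro i _
      apply sec_cut_apply_not_conj
      intro hconj
      apply hc
      obtain ⟨τ, hτ⟩ := hconj
      refine ⟨τ, ?_⟩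
      ext x
      have h1 : ι ((σ ^ i) (x : F)) = τ (ι₀ (x : F)) := DFunLike.congr_fun hτ (x : F)
      have h2 : (σ ^ i) (x : F) = (x : F) :=
        (IntermediateField.mem_fixedField_iff (Subgroup.zpowers σ) (x : F)).1 x.2 (σ ^ i)
          (Subgroup.pow_mem _ (Subgroup.mem_zpowers σ) i)
      have h3 : ι₀ (x : F) = κ x := DFunLike.congr_fun hι₀ x
      rw [h2, h3] at h1
      exact h1
  · intro hau
    exact sec_cut_mem_Uq q F ι₀ _ (gl_resq_mem_Uq F _ q a hau)

/-- The norm of the prime `q` in `Ω_q`. -/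
theorem sec_norm_q : ‖((q : ℕ) : PadicAlgCl q)‖ = (q : ℝ)⁻¹ := by
  have h1 : ((q : ℕ) : PadicAlgCl q) = algebraMap ℚ_[q] (PadicAlgCl q) ((q : ℕ) : ℚ_[q]) :=
    (map_natCast (algebraMap ℚ_[q] (PadicAlgCl q)) q).symm
  rw [h1]
  have h2 : ‖algebraMap ℚ_[q] (PadicAlgCl q) ((q : ℕ) : ℚ_[q])‖ = ‖((q : ℕ) : ℚ_[q])‖ :=
    PadicAlgCl.norm_extends q _
  rw [h2, Padic.norm_p]

/-- If `F/ℚ` is unramified at `q`, then `F/K` is unramified at every place of `K` above `q`. -/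
theorem sec_unramAt_of_unram (h : gl_UnramAt q F)
    (κ : ↥(fixedField (Subgroup.zpowers σ)) →ₐ[ℚ] PadicAlgCl q) : sec_UnramAt q F σ κ := by
  intro ι _ a ha
  obtain ⟨n, hn⟩ := h ι a ha
  have hq0 : ((q : ℕ) : ↥(fixedField (Subgroup.zpowers σ))) ≠ 0 :=
    Nat.cast_ne_zero.2 (Fact.out : q.Prime).ne_zero
  refine ⟨((q : ℕ) : ↥(fixedField (Subgroup.zpowers σ))) ^ (-n), zpow_ne_zero _ hq0, ?_⟩
  rw [hn, map_zpow₀, map_natCast, norm_zpow, sec_norm_q, inv_zpow, zpow_neg, inv_inv]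

/-- **Unramified places** (from the leaf [SEC-UNR]): a semi-local unit of `K = F^σ` which is
trivial at all places where `F/K` is ramified is the norm of a semi-local unit of `F`. -/
theorem sec_norm_unr (hUnr : sec_UnrNormStatement) (p : ℕ) (hp : p.Prime) (hp2 : p ≠ 2)
    (hσ : orderOf σ = p)
    (x : gl_Jq q ↥(fixedField (Subgroup.zpowers σ)))
    (hx : x ∈ gl_Uq q ↥(fixedField (Subgroup.zpowers σ)))
    (hur : ∀ κ : ↥(fixedField (Subgroup.zpowers σ)) →ₐ[ℚ] PadicAlgCl q,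
      x.1 κ ≠ 1 → sec_UnramAt q F σ κ) :
    ∃ w : gl_Jq q F, w ∈ gl_Uq q F ∧
      sec_normq q F σ p w = gl_resq F (fixedField (Subgroup.zpowers σ)) q x := by
  classical
  have key : ∀ s : Finset (↥(fixedField (Subgroup.zpowers σ)) →ₐ[ℚ] PadicAlgCl q),
      (∀ κ₀ ∈ s, sec_UnramAt q F σ κ₀) →
      ∀ x : gl_Jq q ↥(fixedField (Subgroup.zpowers σ)),
        x ∈ gl_Uq q ↥(fixedField (Subgroup.zpowers σ)) →
        (∀ κ, x.1 κ ≠ 1 → ∃ κ₀ ∈ s, sec_Conj q ↥(fixedField (Subgroup.zpowers σ)) κ₀ κ) →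
        ∃ w : gl_Jq q F, w ∈ gl_Uq q F ∧
          sec_normq q F σ p w = gl_resq F (fixedField (Subgroup.zpowers σ)) q x := by
    intro s
    induction s using Finset.induction_on with
    | empty =>
      intro _ x _ hcov
      have hx1 : x = 1 := by
        apply Subtype.ext
        funext κ
        by_contra h
        obtain ⟨κ₀, hκ₀, _⟩ := hcov κ h
        simp at hκ₀
      refine ⟨1, (gl_Uq q F).one_mem, ?_⟩
      rw [hx1, map_one, map_one]
    | insert κ₀ s hκ₀ ih =>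
      intro hs x hx hcov
      obtain ⟨w₁, hw₁u, hw₁⟩ := hUnr F p hp hp2 σ hσ q κ₀ (hs κ₀ (Finset.mem_insert_self _ _))
        (sec_cut q _ κ₀ x) (sec_cut_mem_Uq q _ κ₀ x hx) (sec_cut_suppAt q _ κ₀ x)
      obtain ⟨w₂, hw₂u, hw₂⟩ := ih (fun κ hκ => hs κ (Finset.mem_insert_of_mem hκ))
        (x / sec_cut q _ κ₀ x)
        ((gl_Uq q _).div_mem hx (sec_cut_mem_Uq q _ κ₀ x hx)) (by
          intro κ hκ
          by_cases hc : sec_Conj q ↥(fixedField (Subgroup.zpowers σ)) κ₀ κ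
          · exact absurd (sec_div_cut_apply_conj q _ κ₀ κ x hc) hκ
          · rw [sec_div_cut_apply_not_conj q _ κ₀ κ x hc] at hκ
            obtain ⟨κ₁, hκ₁, hκ₁c⟩ := hcov κ hκ
            rcases Finset.mem_insert.1 hκ₁ with h | h
            · rw [h] at hκ₁c
              exact absurd hκ₁c hc
            · exact ⟨κ₁, h, hκ₁c⟩)
      refine ⟨w₁ * w₂, (gl_Uq q F).mul_mem hw₁u hw₂u, ?_⟩
      rw [map_mul, hw₁, hw₂, ← map_mul, mul_div_cancel]
  haveI : Fintype (↥(fixedField (Subgroup.zpowers σ)) →ₐ[ℚ] PadicAlgCl q) := Fintype.ofFinite _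
  refine key (Finset.univ.filter fun κ => x.1 κ ≠ 1) ?_ x hx ?_
  · intro κ₀ hκ₀
    exact hur κ₀ (Finset.mem_filter.1 hκ₀).2
  · intro κ hκ
    exact ⟨κ, Finset.mem_filter.2 ⟨Finset.mem_univ _, hκ⟩, sec_conj_refl q _ κ⟩

end norm

/-! ### The ideles: `E(S,T)` consists of norms -/

section global

variable (F : Type) [Field F] [NumberField F] (σ : F ≃ₐ[ℚ] F)

theorem sec_normJ_def (p : ℕ) (w : gl_J F) :
    sec_normJ F σ p w = ∏ i ∈ Finset.range p, σ ^ i • w := rfl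

theorem sec_normJ_apply (p : ℕ) (w : gl_J F) (q : Nat.Primes) :
    (sec_normJ F σ p w).1 q = sec_normq (q : ℕ) F σ p (w.1 q) := by
  rw [sec_normJ_def, sec_normq_def]
  have h1 : ((∏ i ∈ Finset.range p, σ ^ i • w : gl_J F) : (q : Nat.Primes) → gl_JP F q) =
      ∏ i ∈ Finset.range p, ((σ ^ i • w : gl_J F) : (q : Nat.Primes) → gl_JP F q) :=
    Subgroup.val_finsetProd _ _ _
  show ((∏ i ∈ Finset.range p, σ ^ i • w : gl_J F) : (q : Nat.Primes) → gl_JP F q) q = _
  rw [h1, Finset.prod_apply]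
  rfl

/-- **Norms.** If `S` contains the primes which ramify in `F` and the places of `T` split in
`F`, then every idele of `K = F^σ` in `E(S,T)` is the norm of an idele of `F`. -/
theorem sec_norm_of (hUnr : sec_UnrNormStatement) (p : ℕ) (hp : p.Prime) (hp2 : p ≠ 2)
    (hσ : orderOf σ = p) (S T : Finset Nat.Primes)
    (κ : ∀ q : Nat.Primes, ↥(fixedField (Subgroup.zpowers σ)) →ₐ[ℚ] PadicAlgCl (q : ℕ))
    (hS : gl_ram F ⊆ (S : Set Nat.Primes))
    (hsplit : ∀ q ∈ T, sec_SplitAt (q : ℕ) F σ (κ q))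
    (x : gl_J ↥(fixedField (Subgroup.zpowers σ)))
    (hx : sec_InE ↥(fixedField (Subgroup.zpowers σ)) p S T κ x.1) :
    ∃ w : gl_J F, sec_normJ F σ p w = gl_resJ F (fixedField (Subgroup.zpowers σ)) x := by
  have hq : ∀ q : Nat.Primes, ∃ w : gl_Jq (q : ℕ) F,
      sec_normq (q : ℕ) F σ p w =
        gl_resq F (fixedField (Subgroup.zpowers σ)) (q : ℕ) (x.1 q) ∧
      (q ∉ S → q ∉ T → w ∈ gl_Uq (q : ℕ) F) := by
    intro q
    by_cases hqS : q ∈ S
    · obtain ⟨y, hy⟩ := hx.2 q hqS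
      refine ⟨gl_resq F (fixedField (Subgroup.zpowers σ)) (q : ℕ) y, ?_, fun h => absurd hqS h⟩
      rw [← hy]
      exact sec_norm_res_pow (q : ℕ) F σ p y
    · have hun : gl_UnramAt (q : ℕ) F := by
        by_contra h
        exact hqS (hS h)
      by_cases hqT : q ∈ T
      · obtain ⟨w₁, hw₁, _⟩ := sec_norm_split (q : ℕ) F σ p hp hσ (κ q) (hsplit q hqT)
          (sec_cut (q : ℕ) _ (κ q) (x.1 q)) (sec_cut_suppAt (q : ℕ) _ (κ q) (x.1 q))
        obtain ⟨w₂, _, hw₂⟩ := sec_norm_unr (q : ℕ) F σ hUnr p hp hp2 hσ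
          (x.1 q / sec_cut (q : ℕ) _ (κ q) (x.1 q))
          (sec_div_cut_mem_Uq (q : ℕ) _ (κ q) (x.1 q) ((hx.1 q hqS).2 hqT))
          (fun κ' _ => sec_unramAt_of_unram (q : ℕ) F σ hun κ')
        refine ⟨w₁ * w₂, ?_, fun _ h => absurd hqT h⟩
        rw [map_mul, hw₁, hw₂, ← map_mul, mul_div_cancel]
      · obtain ⟨w, hwu, hw⟩ := sec_norm_unr (q : ℕ) F σ hUnr p hp hp2 hσ (x.1 q)
          ((hx.1 q hqS).1 hqT) (fun κ' _ => sec_unramAt_of_unram (q : ℕ) F σ hun κ')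
        exact ⟨w, hw, fun _ _ => hwu⟩
  choose w hw hwu using hq
  refine ⟨⟨w, ?_⟩, ?_⟩
  · refine ((S ∪ T : Finset Nat.Primes).finite_toSet).subset ?_
    intro q hq
    by_contra h
    rw [Finset.mem_coe, Finset.mem_union, not_or] at h
    exact hq (hwu q h.1 h.2)
  · apply Subtype.ext
    funext q
    rw [sec_normJ_apply, gl_resJ_apply]
    exact hw q

end global

end

end Fermat.Agent.S55
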