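/-
S55 (fifth wave), GLOBAL side, package [SEC-KEY] (helper4), part 2: local behaviour of a Kummer
extension `F = K(β)`, `β ^ p = y ∈ K = F^σ` (`σ` of order `p`, `σ β ≠ β`, `ζ_p ∈ K`):

* `skey_split` : a place of `K` at which `y` is a `p`-th power splits in `F`;
* `skey_unram` : a place of `K` not above `p` at which `y` is a unit is unramified in `F`;
* `skey_norm_allsplit` : if all places of `K` above `q` split in `F`, every semi-local idele of
  `K` at `q` is a norm from `F`.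
-/
import Mathlib
import Fermat.Agent.S55.Global.SecondNorm
import Fermat.Agent.S55.Global.Places

set_option autoImplicit false
set_option linter.style.haveILetI false

namespace Fermat.Agent.S55

open IntermediateField

attribute [local instance] sec_fact

noncomputable section

/-! ### Eigen-components -/

/-- The eigen-components of `a` for an automorphism `σ` with `σ ^ p = 1` fixing a primitive `p`-th
root of unity `η`. -/
noncomputable def skey_eig {F : Type} [Field F] [Algebra ℚ F] (σ : F ≃ₐ[ℚ] F) (p : ℕ) (η a : F)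
    (i : ℕ) : F :=
  ∑ k ∈ Finset.range p, η ^ (k * i) * (σ ^ k) a

theorem skey_eig_sum {F : Type} [Field F] [Algebra ℚ F] (σ : F ≃ₐ[ℚ] F) (p : ℕ) (hp : p.Prime)
    (η : F) (hη : IsPrimitiveRoot η p) (a : F) :
    ∑ i ∈ Finset.range p, skey_eig σ p η a i = p * a := by
  unfold skey_eig
  rw [Finset.sum_comm]
  have h1 : ∀ k ∈ Finset.range p, ∑ i ∈ Finset.range p, η ^ (k * i) * (σ ^ k) a =
      (∑ i ∈ Finset.range p, (η ^ k) ^ i) * (σ ^ k) a := by
    intro k _
    rw [Finset.sum_mul]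
    refine Finset.sum_congr rfl fun i _ => ?_
    rw [pow_mul]
  rw [Finset.sum_congr rfl h1, Finset.sum_eq_single 0]
  · simp
  · intro k hk hk0
    have hkp : k < p := Finset.mem_range.1 hk
    have hcop : k.Coprime p :=
      Nat.Coprime.symm ((Nat.Prime.coprime_iff_not_dvd hp).2
        (Nat.not_dvd_of_pos_of_lt (Nat.pos_of_ne_zero hk0) hkp))
    have hprim : IsPrimitiveRoot (η ^ k) p := hη.pow_of_coprime k hcop
    rw [hprim.geom_sum_eq_zero hp.one_lt, zero_mul]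
  · intro h
    exact absurd (Finset.mem_range.2 hp.pos) h

theorem skey_eig_smul {F : Type} [Field F] [Algebra ℚ F] (σ : F ≃ₐ[ℚ] F) (p : ℕ)
    (hσp : σ ^ p = 1) (η : F) (hηp : η ^ p = 1) (hση : σ η = η) (a : F) (i : ℕ) :
    η ^ i * σ (skey_eig σ p η a i) = skey_eig σ p η a i := by
  unfold skey_eig
  rw [map_sum, Finset.mul_sum]
  have h1 : ∀ k ∈ Finset.range p, η ^ i * σ (η ^ (k * i) * (σ ^ k) a) =
      η ^ ((k + 1) * i) * (σ ^ (k + 1)) a := by
    intro k _
    rw [map_mul, map_pow, hση, ← mul_assoc, ← pow_add, pow_succ' σ k]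
    congr 2
    ring
  rw [Finset.sum_congr rfl h1]
  have h2 := Finset.sum_range_succ' (fun k => η ^ (k * i) * (σ ^ k) a) p
  have h3 := Finset.sum_range_succ (fun k => η ^ (k * i) * (σ ^ k) a) p
  rw [h3] at h2
  have h4 : η ^ (p * i) * (σ ^ p) a = η ^ (0 * i) * (σ ^ 0) a := by
    rw [hσp, pow_mul, hηp, one_pow, zero_mul, pow_zero, pow_zero]
  rw [h4] at h2
  exact (add_right_cancel h2).symm


/-- A norm `∏_{i<n} g^i • b` with `g ^ n = 1` is fixed by `g`. -/
theorem skey_smul_prod {M B : Type*} [Monoid M] [CommGroup B] [MulDistribMulAction M B]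
    (g : M) (n : ℕ) (hg : g ^ n = 1) (b : B) :
    g • ∏ i ∈ Finset.range n, g ^ i • b = ∏ i ∈ Finset.range n, g ^ i • b := by
  rw [Finset.smul_prod']
  have h1 : ∀ i ∈ Finset.range n, g • g ^ i • b = g ^ (i + 1) • b := by
    intro i _
    rw [← mul_smul, ← pow_succ']
  rw [Finset.prod_congr rfl h1]
  have h2 := Finset.prod_range_succ' (fun i => g ^ i • b) n
  have h3 := Finset.prod_range_succ (fun i => g ^ i • b) n
  rw [h3] at h2
  have h4 : g ^ n • b = g ^ 0 • b := by rw [hg, pow_zero]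
  rw [h4] at h2
  exact (mul_right_cancel h2).symm

theorem skey_norm_natCast (q : ℕ) [Fact q.Prime] (p : ℕ) (hp : p.Prime) (hqp : q ≠ p) :
    ‖((p : ℕ) : PadicAlgCl q)‖ = 1 := by
  have h1 : ((p : ℕ) : PadicAlgCl q) = algebraMap ℚ_[q] (PadicAlgCl q) ((p : ℕ) : ℚ_[q]) :=
    (map_natCast (algebraMap ℚ_[q] (PadicAlgCl q)) p).symm
  rw [h1]
  have h2 : ‖algebraMap ℚ_[q] (PadicAlgCl q) ((p : ℕ) : ℚ_[q])‖ = ‖((p : ℕ) : ℚ_[q])‖ :=
    PadicAlgCl.norm_extends q _
  rw [h2, Padic.norm_natCast_eq_one_iff]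
  exact (Nat.coprime_primes (Fact.out : q.Prime) hp).2 hqp

theorem skey_norm_root_of_unity (q : ℕ) [Fact q.Prime] (p : ℕ) (hp : p ≠ 0) (x : PadicAlgCl q)
    (hx : x ^ p = 1) : ‖x‖ = 1 := by
  have h := congrArg norm hx
  rw [norm_pow, norm_one] at h
  exact (pow_eq_one_iff_of_nonneg (norm_nonneg x) hp).1 h

section loc

variable (q : ℕ) [Fact q.Prime] (F : Type) [Field F] [NumberField F] (σ : F ≃ₐ[ℚ] F)

/-- If `σ` is in the decomposition group of `ι`, witnessed by `τ`, then `τ` fixes the restriction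
of `ι` to the fixed field. -/
theorem skey_twist_val (ι : F →ₐ[ℚ] PadicAlgCl q) (τ : gl_GQq q)
    (hτ : ι.comp (σ : F →ₐ[ℚ] F) = gl_twist q F τ ι) :
    gl_twist q ↥(fixedField (Subgroup.zpowers σ)) τ (ι.comp (fixedField (Subgroup.zpowers σ)).val)
      = ι.comp (fixedField (Subgroup.zpowers σ)).val := by
  ext x
  have h1 : ι (σ (x : F)) = τ (ι (x : F)) := DFunLike.congr_fun hτ (x : F)
  have h2 : σ (x : F) = (x : F) :=
    (IntermediateField.mem_fixedField_iff (Subgroup.zpowers σ) (x : F)).1 x.2 σ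
      (Subgroup.mem_zpowers σ)
  rw [h2] at h1
  exact h1.symm

/-- **Split places.** If `y = β ^ p` is a `p`-th power in the completion of `K` at the place of
`κ`, then this place splits in `F = K(β)`. -/
theorem skey_split (p : ℕ) (hp : p.Prime)
    (ζ : ↥(fixedField (Subgroup.zpowers σ))) (hζ : IsPrimitiveRoot ζ p)
    (y : ↥(fixedField (Subgroup.zpowers σ))) (β : F) (hβ : β ^ p = (y : F)) (hσβ : σ β ≠ β)
    (κ : ↥(fixedField (Subgroup.zpowers σ)) →ₐ[ℚ] PadicAlgCl q)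
    (g : gl_Jq q ↥(fixedField (Subgroup.zpowers σ)))
    (hg : ((g.1 κ : (PadicAlgCl q)ˣ) : PadicAlgCl q) ^ p = κ y) :
    sec_SplitAt q F σ κ := by
  intro ι hι hD
  haveI : NeZero p := ⟨hp.ne_zero⟩
  obtain ⟨τ, hτ⟩ := hD
  apply hσβ
  have hκ : gl_twist q ↥(fixedField (Subgroup.zpowers σ)) τ κ = κ := by
    rw [← hι]
    exact skey_twist_val q F σ ι τ hτ
  -- `τ` fixes `g κ`
  have hgτ : τ ((g.1 κ : (PadicAlgCl q)ˣ) : PadicAlgCl q) =
      ((g.1 κ : (PadicAlgCl q)ˣ) : PadicAlgCl q) := by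
    have h := (gl_mem_Jq_iff q _ g.1).1 g.2 τ κ
    rw [hκ] at h
    exact h.symm
  -- `τ` fixes the image of `K`
  have hτK : ∀ x : ↥(fixedField (Subgroup.zpowers σ)), τ (κ x) = κ x := by
    intro x
    have := DFunLike.congr_fun hκ x
    exact this
  set b : PadicAlgCl q := ι β with hb
  set c : PadicAlgCl q := ((g.1 κ : (PadicAlgCl q)ˣ) : PadicAlgCl q) with hc
  have hc0 : c ≠ 0 := Units.ne_zero _
  have hbp : b ^ p = c ^ p := by
    rw [hg, hb, ← map_pow, hβ, ← hι]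
    rfl
  have hω : (b / c) ^ p = 1 := by
    rw [div_pow, hbp, div_self (pow_ne_zero _ hc0)]
  have hζ' : IsPrimitiveRoot (κ ζ) p := hζ.map_of_injective κ.injective
  obtain ⟨i, -, hi⟩ := hζ'.eq_pow_of_pow_eq_one hω
  have hbc : b = κ (ζ ^ i) * c := by
    rw [map_pow, hi, div_mul_cancel₀ _ hc0]
  have hτb : τ b = b := by
    rw [hbc, map_mul, hτK, hgτ]
  have h1 : ι (σ β) = τ (ι β) := DFunLike.congr_fun hτ β
  rw [← hb, hτb] at h1
  exact ι.injective h1

/-- If all places of `K = F^σ` above `q` split in `F`, every semi-local idele of `K` is the norm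
of a semi-local idele of `F`. -/
theorem skey_norm_allsplit (p : ℕ) (hp : p.Prime) (hσ : orderOf σ = p)
    (hsplit : ∀ κ : ↥(fixedField (Subgroup.zpowers σ)) →ₐ[ℚ] PadicAlgCl q,
      sec_SplitAt q F σ κ)
    (x : gl_Jq q ↥(fixedField (Subgroup.zpowers σ))) :
    ∃ w : gl_Jq q F,
      sec_normq q F σ p w = gl_resq F (fixedField (Subgroup.zpowers σ)) q x := by
  classical
  have key : ∀ s : Finset (↥(fixedField (Subgroup.zpowers σ)) →ₐ[ℚ] PadicAlgCl q),
      ∀ x : gl_Jq q ↥(fixedField (Subgroup.zpowers σ)),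
        (∀ κ, x.1 κ ≠ 1 → ∃ κ₀ ∈ s, sec_Conj q ↥(fixedField (Subgroup.zpowers σ)) κ₀ κ) →
        ∃ w : gl_Jq q F,
          sec_normq q F σ p w = gl_resq F (fixedField (Subgroup.zpowers σ)) q x := by
    intro s
    induction s using Finset.induction_on with
    | empty =>
      intro x hcov
      have hx1 : x = 1 := by
        apply Subtype.ext
        funext κ
        by_contra h
        obtain ⟨κ₀, hκ₀, _⟩ := hcov κ h
        simp at hκ₀
      refine ⟨1, ?_⟩
      rw [hx1, map_one, map_one]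
    | insert κ₀ s hκ₀ ih =>
      intro x hcov
      obtain ⟨w₁, hw₁, -⟩ := sec_norm_split q F σ p hp hσ κ₀ (hsplit κ₀)
        (sec_cut q _ κ₀ x) (sec_cut_suppAt q _ κ₀ x)
      obtain ⟨w₂, hw₂⟩ := ih (x / sec_cut q _ κ₀ x) (by
          intro κ hκ
          by_cases hc : sec_Conj q ↥(fixedField (Subgroup.zpowers σ)) κ₀ κ
          · exact absurd (sec_div_cut_apply_conj q _ κ₀ κ x hc) hκ
          · rw [sec_div_cut_apply_not_conj q _ κ₀ κ x hc] at hκ
            obtain ⟨κ₁, hκ₁, hκ₁c⟩ := hcov κ hκ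
            rcases Finset.mem_insert.1 hκ₁ with h | h
            · rw [h] at hκ₁c
              exact absurd hκ₁c hc
            · exact ⟨κ₁, h, hκ₁c⟩)
      refine ⟨w₁ * w₂, ?_⟩
      rw [map_mul, hw₁, hw₂, ← map_mul, mul_div_cancel]
  haveI : Fintype (↥(fixedField (Subgroup.zpowers σ)) →ₐ[ℚ] PadicAlgCl q) := Fintype.ofFinite _
  refine key (Finset.univ.filter fun κ => x.1 κ ≠ 1) x ?_
  intro κ hκ
  exact ⟨κ, Finset.mem_filter.2 ⟨Finset.mem_univ _, hκ⟩, sec_conj_refl q _ κ⟩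

/-- **Value group at a split place.** If `σ` is not in the decomposition group of `ι`, the
value of every `a ∈ Fˣ` at `ι` is the value of an element of `K = F^σ`. -/
theorem skey_value_split (p : ℕ) (hp : p.Prime) (hσ : orderOf σ = p)
    (ι : F →ₐ[ℚ] PadicAlgCl q) (hD : σ ∉ gl_decomp q F ι) (a : F) (ha : a ≠ 0) :
    ∃ b : ↥(fixedField (Subgroup.zpowers σ)), b ≠ 0 ∧
      ‖ι a‖ = ‖(ι.comp (fixedField (Subgroup.zpowers σ)).val) b‖ := by
  set f : gl_Jq q F := sec_cut q F ι (gl_diagq q F (Units.mk0 a ha)) with hf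
  have hσp : σ ^ p = 1 := by rw [← hσ]; exact pow_orderOf_eq_one σ
  have hN1 : σ • sec_normq q F σ p f = sec_normq q F σ p f := by
    rw [sec_normq_def]
    exact skey_smul_prod σ p hσp f
  have hN : ∀ τ ∈ Subgroup.zpowers σ, τ • sec_normq q F σ p f = sec_normq q F σ p f := by
    intro τ hτ
    obtain ⟨k, rfl⟩ := Subgroup.mem_zpowers_iff.1 hτ
    have hmem : σ ∈ MulAction.stabilizer (F ≃ₐ[ℚ] F) (sec_normq q F σ p f) := hN1
    exact (MulAction.stabilizer (F ≃ₐ[ℚ] F) (sec_normq q F σ p f)).zpow_mem hmem k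
  obtain ⟨g, hg⟩ := gdsc_exists_resq F (Subgroup.zpowers σ) q (sec_normq q F σ p f) hN
  have h1 : g.1 (ι.comp (fixedField (Subgroup.zpowers σ)).val) = (sec_normq q F σ p f).1 ι := by
    rw [← hg]
    rfl
  have h2 : (sec_normq q F σ p f).1 ι = f.1 ι := by
    rw [sec_normq_apply, Finset.prod_eq_single 0]
    · have : ι.comp ((σ ^ 0 : F ≃ₐ[ℚ] F) : F →ₐ[ℚ] F) = ι := by
        ext x; simp
      rw [this]
    · intro i hi hi0
      apply sec_cut_apply_not_conj
      rintro ⟨τ, hτ⟩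
      have hiD : σ ^ i ∈ gl_decomp q F ι := ⟨τ, hτ⟩
      have hi1 : σ ^ i ≠ 1 := by
        intro h
        have hdvd : orderOf σ ∣ i := orderOf_dvd_of_pow_eq_one h
        rw [hσ] at hdvd
        exact absurd (Nat.le_of_dvd (Nat.pos_of_ne_zero hi0) hdvd)
          (not_le.2 (Finset.mem_range.1 hi))
      exact hD (sec_mem_of_pow_mem F σ p hp hσ _ _
        (Subgroup.pow_mem _ (Subgroup.mem_zpowers σ) i) hi1 hiD)
    · intro h
      exact absurd (Finset.mem_range.2 hp.pos) h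
  have h3 : ((f.1 ι : (PadicAlgCl q)ˣ) : PadicAlgCl q) = ι a := by
    rw [hf, sec_cut_apply_conj q F ι ι _ (sec_conj_refl q F ι)]
    rfl
  obtain ⟨b, hb0, hb⟩ := plc_value q g (ι.comp (fixedField (Subgroup.zpowers σ)).val)
  rw [h1, h2, h3] at hb
  exact ⟨b, hb0, hb⟩

theorem skey_mem_fixedField_of_fixed (c : F) (hc : σ c = c) :
    c ∈ fixedField (Subgroup.zpowers σ) := by
  rw [IntermediateField.mem_fixedField_iff]
  intro g hg
  obtain ⟨k, rfl⟩ := Subgroup.mem_zpowers_iff.1 hg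
  have hc' : σ • c = c := hc
  have hmem : σ ∈ MulAction.stabilizer (F ≃ₐ[ℚ] F) c := hc'
  exact (MulAction.stabilizer (F ≃ₐ[ℚ] F) c).zpow_mem hmem k

/-- **Value group at a non-split place.** If `σ` is in the decomposition group of `ι`, `q ≠ p`
and `y = β ^ p` is a unit at `ι`, the value of every `a ∈ Fˣ` at `ι` is the value of an element
of `K = F^σ`  (eigen-decomposition `p a = ∑ A_i`, `A_i / β ^ i ∈ K`, `‖A_i‖ ≤ ‖a‖`). -/
theorem skey_value_inert (p : ℕ) (hp : p.Prime) (hσ : orderOf σ = p) (hqp : q ≠ p)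
    (ζ : ↥(fixedField (Subgroup.zpowers σ))) (hζ : IsPrimitiveRoot ζ p)
    (y : ↥(fixedField (Subgroup.zpowers σ))) (β : F) (hβ : β ^ p = (y : F)) (hσβ : σ β ≠ β)
    (ι : F →ₐ[ℚ] PadicAlgCl q) (hD : σ ∈ gl_decomp q F ι) (hy : ‖ι (y : F)‖ = 1)
    (a : F) (ha : a ≠ 0) :
    ∃ b : ↥(fixedField (Subgroup.zpowers σ)), b ≠ 0 ∧
      ‖ι a‖ = ‖(ι.comp (fixedField (Subgroup.zpowers σ)).val) b‖ := by
  haveI : Fact p.Prime := ⟨hp⟩
  haveI : NeZero p := ⟨hp.ne_zero⟩
  obtain ⟨τ, hτ⟩ := hD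
  have h1 : ∀ x : F, ι (σ x) = τ (ι x) := fun x => DFunLike.congr_fun hτ x
  have hnσ : ∀ (k : ℕ) (x : F), ‖ι ((σ ^ k) x)‖ = ‖ι x‖ := by
    intro k
    induction k with
    | zero => intro x; simp
    | succ k ih =>
      intro x
      have : (σ ^ (k + 1)) x = σ ((σ ^ k) x) := by
        rw [pow_succ']; rfl
      rw [this, h1, plc_norm_aut, ih]
  have hσp : σ ^ p = 1 := by rw [← hσ]; exact pow_orderOf_eq_one σ
  have hy0 : (y : F) ≠ 0 := by
    intro h
    rw [h, map_zero, norm_zero] at hy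
    exact zero_ne_one hy
  have hβ0 : β ≠ 0 := by
    intro h
    rw [h, zero_pow hp.ne_zero] at hβ
    exact hy0 hβ.symm
  have hσy : σ (y : F) = (y : F) :=
    (IntermediateField.mem_fixedField_iff (Subgroup.zpowers σ) (y : F)).1 y.2 σ
      (Subgroup.mem_zpowers σ)
  set ζ₁ : F := σ β / β with hζ₁
  have hζ₁p : ζ₁ ^ p = 1 := by
    rw [hζ₁, div_pow, ← map_pow, hβ, hσy, div_self hy0]
  have hζ₁ne : ζ₁ ≠ 1 := by
    intro h
    apply hσβ
    rw [hζ₁, div_eq_one_iff_eq hβ0] at h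
    exact h
  have hσβ' : σ β = ζ₁ * β := by
    rw [hζ₁, div_mul_cancel₀ _ hβ0]
  have hζF : IsPrimitiveRoot ((ζ : ↥(fixedField (Subgroup.zpowers σ))) : F) p :=
    hζ.map_of_injective (f := (fixedField (Subgroup.zpowers σ)).val) Subtype.val_injective
  have hσζ : σ ((ζ : ↥(fixedField (Subgroup.zpowers σ))) : F) = (ζ : F) :=
    (IntermediateField.mem_fixedField_iff (Subgroup.zpowers σ) (ζ : F)).1 ζ.2 σ
      (Subgroup.mem_zpowers σ)
  obtain ⟨j, -, hj⟩ := hζF.eq_pow_of_pow_eq_one hζ₁p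
  have hσζ₁ : σ ζ₁ = ζ₁ := by
    rw [← hj, map_pow, hσζ]
  have hζ₁prim : IsPrimitiveRoot ζ₁ p := by
    have h := IsPrimitiveRoot.orderOf ζ₁
    rwa [orderOf_eq_prime hζ₁p hζ₁ne] at h
  have hζ₁0 : ζ₁ ≠ 0 := hζ₁prim.ne_zero hp.ne_zero
  set η : F := ζ₁⁻¹ with hη
  have hηprim : IsPrimitiveRoot η p := hζ₁prim.inv
  have hηp : η ^ p = 1 := hηprim.pow_eq_one
  have hση : σ η = η := by rw [hη, map_inv₀, hσζ₁]
  have hsum := skey_eig_sum σ p hp η hηprim a
  have heig := skey_eig_smul σ p hσp η hηp hση a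
  have hnη : ‖ι η‖ = 1 := by
    apply skey_norm_root_of_unity q p hp.ne_zero
    rw [← map_pow, hηp, map_one]
  -- the bound
  have hbound : ∀ i : ℕ, ‖ι (skey_eig σ p η a i)‖ ≤ ‖ι a‖ := by
    intro i
    unfold skey_eig
    rw [map_sum]
    apply IsUltrametricDist.norm_sum_le_of_forall_le_of_nonneg (norm_nonneg _)
    intro k _
    rw [map_mul, map_pow, norm_mul, norm_pow, hnη, one_pow, one_mul, hnσ]
  -- one component is as large as `a`
  have hpa : ‖ι ((p : F) * a)‖ = ‖ι a‖ := by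
    rw [map_mul, map_natCast, norm_mul, skey_norm_natCast q p hp hqp, one_mul]
  obtain ⟨i, -, hi⟩ := IsUltrametricDist.exists_norm_finsetSum_le_of_nonempty
    (t := Finset.range p) ⟨0, Finset.mem_range.2 hp.pos⟩ (fun i => ι (skey_eig σ p η a i))
  rw [← map_sum, hsum, hpa] at hi
  have hAi : ‖ι (skey_eig σ p η a i)‖ = ‖ι a‖ := le_antisymm (hbound i) hi
  -- the element of `K`
  have hσA : σ (skey_eig σ p η a i) = ζ₁ ^ i * skey_eig σ p η a i := by
    have h := heig i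
    have hη0 : η ^ i ≠ 0 := pow_ne_zero _ (hηprim.ne_zero hp.ne_zero)
    have : ζ₁ ^ i * η ^ i = 1 := by
      rw [← mul_pow, hη, mul_inv_cancel₀ hζ₁0, one_pow]
    calc σ (skey_eig σ p η a i) = (ζ₁ ^ i * η ^ i) * σ (skey_eig σ p η a i) := by
          rw [this, one_mul]
      _ = ζ₁ ^ i * (η ^ i * σ (skey_eig σ p η a i)) := by ring
      _ = ζ₁ ^ i * skey_eig σ p η a i := by rw [h]
  set c : F := skey_eig σ p η a i / β ^ i with hc
  have hσc : σ c = c := by
    rw [hc, map_div₀, map_pow, hσA, hσβ', mul_pow,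
      mul_div_mul_left _ _ (pow_ne_zero _ hζ₁0)]
  have hnβ : ‖ι β‖ = 1 := by
    have h := congrArg (fun x => ‖ι x‖) hβ
    simp only [map_pow, norm_pow] at h
    rw [hy] at h
    exact (pow_eq_one_iff_of_nonneg (norm_nonneg _) hp.ne_zero).1 h
  have hnc : ‖ι c‖ = ‖ι a‖ := by
    rw [hc, map_div₀, map_pow, norm_div, norm_pow, hnβ, one_pow, div_one, hAi]
  have hc0 : c ≠ 0 := by
    intro h
    rw [h, map_zero, norm_zero] at hnc
    exact (norm_ne_zero_iff.2 ((map_ne_zero ι).2 ha)) hnc.symm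
  refine ⟨⟨c, skey_mem_fixedField_of_fixed F σ c hσc⟩, ?_, ?_⟩
  · intro h
    exact hc0 (congrArg Subtype.val h)
  · exact hnc.symm

/-- **Unramified places.** A place of `K = F^σ` not above `p` at which `y = β ^ p` is a unit is
unramified in `F = K(β)`. -/
theorem skey_unram (p : ℕ) (hp : p.Prime) (hσ : orderOf σ = p) (hqp : q ≠ p)
    (ζ : ↥(fixedField (Subgroup.zpowers σ))) (hζ : IsPrimitiveRoot ζ p)
    (y : ↥(fixedField (Subgroup.zpowers σ))) (β : F) (hβ : β ^ p = (y : F)) (hσβ : σ β ≠ β)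
    (κ : ↥(fixedField (Subgroup.zpowers σ)) →ₐ[ℚ] PadicAlgCl q) (hy : ‖κ y‖ = 1) :
    sec_UnramAt q F σ κ := by
  intro ι hι a ha
  have hy' : ‖ι (y : F)‖ = 1 := by
    rw [← hy, ← hι]
    rfl
  by_cases hD : σ ∈ gl_decomp q F ι
  · obtain ⟨b, hb0, hb⟩ := skey_value_inert q F σ p hp hσ hqp ζ hζ y β hβ hσβ ι hD hy' a ha
    rw [hι] at hb
    exact ⟨b, hb0, hb⟩
  · obtain ⟨b, hb0, hb⟩ := skey_value_split q F σ p hp hσ ι hD a ha
    rw [hι] at hb
    exact ⟨b, hb0, hb⟩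

end loc

end

end Fermat.Agent.S55
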