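/-
S55 (fifth wave), GLOBAL side, package [SEC-KEY] (helper4), part 3: TRANSPORT of the data of
`sec_KeyStatement` along an isomorphism `e : K ≃ₐ[ℚ] K'` of number fields, and the decomposition
`J_K = Kˣ · D(S,T)`.

* `skey_tr e q : gl_Jq q K →* gl_Jq q K'`, `skey_trJ e : gl_J K →* gl_J K'`;
* `skey_decomp` : class number hypothesis + `sec_Onto` ⟹ every idele is `diag a · x₂`, `x₂ ∈ D`;
* `skey_tr_InE`, `skey_tr_decomp` : `sec_InE (diag y)` and the decomposition for `K'`.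
-/
import Mathlib
import Fermat.Agent.S55.Global.SecondDefs
import Fermat.Agent.S55.Global.Diag

set_option autoImplicit false
set_option linter.style.haveILetI false

namespace Fermat.Agent.S55

attribute [local instance] sec_fact

noncomputable section

section tr

variable {K K' : Type} [Field K] [Field K'] [Algebra ℚ K] [Algebra ℚ K'] (e : K ≃ₐ[ℚ] K')

/-- Transport of semi-local ideles along an isomorphism: `f ↦ (κ' ↦ f (κ' ∘ e))`. -/
def skey_tr (q : ℕ) [Fact q.Prime] : gl_Jq q K →* gl_Jq q K' where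
  toFun f := ⟨fun κ' => f.1 (κ'.comp (e : K →ₐ[ℚ] K')),
    fun τ κ' => f.2 τ (κ'.comp (e : K →ₐ[ℚ] K'))⟩
  map_one' := rfl
  map_mul' _ _ := rfl

@[simp] theorem skey_tr_apply (q : ℕ) [Fact q.Prime] (f : gl_Jq q K)
    (κ' : K' →ₐ[ℚ] PadicAlgCl q) :
    (skey_tr e q f).1 κ' = f.1 (κ'.comp (e : K →ₐ[ℚ] K')) := rfl

theorem skey_comp_symm_comp (q : ℕ) [Fact q.Prime] (κ : K →ₐ[ℚ] PadicAlgCl q) :
    (κ.comp (e.symm : K' →ₐ[ℚ] K)).comp (e : K →ₐ[ℚ] K') = κ := by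
  ext x
  show κ (e.symm (e x)) = κ x
  rw [e.symm_apply_apply]

theorem skey_comp_comp_symm (q : ℕ) [Fact q.Prime] (κ' : K' →ₐ[ℚ] PadicAlgCl q) :
    (κ'.comp (e : K →ₐ[ℚ] K')).comp (e.symm : K' →ₐ[ℚ] K) = κ' := by
  ext x
  show κ' (e (e.symm x)) = κ' x
  rw [e.apply_symm_apply]

theorem skey_tr_tr_symm (q : ℕ) [Fact q.Prime] (f' : gl_Jq q K') :
    skey_tr e q (skey_tr e.symm q f') = f' := by
  apply Subtype.ext
  funext κ'
  show f'.1 ((κ'.comp (e : K →ₐ[ℚ] K')).comp (e.symm : K' →ₐ[ℚ] K)) = f'.1 κ'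
  rw [skey_comp_comp_symm]

theorem skey_tr_mem_Uq (q : ℕ) [Fact q.Prime] (f : gl_Jq q K) (hf : f ∈ gl_Uq q K) :
    skey_tr e q f ∈ gl_Uq q K' := fun κ' => hf (κ'.comp (e : K →ₐ[ℚ] K'))

theorem skey_tr_diagq (q : ℕ) [Fact q.Prime] (a : Kˣ) :
    skey_tr e q (gl_diagq q K a) = gl_diagq q K' (Units.map (e : K →* K') a) := by
  apply Subtype.ext; funext κ'; apply Units.ext; rfl

/-- Conjugacy of embeddings is compatible with transport. -/
theorem skey_conj_comp (q : ℕ) [Fact q.Prime] (κ : K →ₐ[ℚ] PadicAlgCl q)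
    (κ' : K' →ₐ[ℚ] PadicAlgCl q)
    (h : sec_Conj q K κ (κ'.comp (e : K →ₐ[ℚ] K'))) :
    sec_Conj q K' (κ.comp (e.symm : K' →ₐ[ℚ] K)) κ' := by
  obtain ⟨τ, hτ⟩ := h
  refine ⟨τ, ?_⟩
  ext x
  have h1 := DFunLike.congr_fun hτ (e.symm x)
  have h2 : (κ'.comp (e : K →ₐ[ℚ] K')) (e.symm x) = κ' x := by
    show κ' (e (e.symm x)) = κ' x
    rw [e.apply_symm_apply]
  rw [h2] at h1
  exact h1

/-- Transport of families. -/
def skey_trF (x : (q : Nat.Primes) → gl_JP K q) : (q : Nat.Primes) → gl_JP K' q :=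
  fun q => skey_tr e (q : ℕ) (x q)

theorem skey_trF_mem_UP (x : (q : Nat.Primes) → gl_JP K q) (q : Nat.Primes)
    (h : x q ∈ gl_UP K q) : skey_trF e x q ∈ gl_UP K' q :=
  skey_tr_mem_Uq e (q : ℕ) (x q) h

/-- Transport of ideles. -/
def skey_trJ : gl_J K →* gl_J K' where
  toFun x := ⟨skey_trF e x.1, by
    refine x.2.subset ?_
    intro q hq h
    exact hq (skey_trF_mem_UP e x.1 q h)⟩
  map_one' := by
    apply Subtype.ext; funext q; exact map_one _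
  map_mul' x y := by
    apply Subtype.ext; funext q; exact map_mul _ _ _

@[simp] theorem skey_trJ_val (x : gl_J K) : (skey_trJ e x).1 = skey_trF e x.1 := rfl

theorem skey_trJ_trJ_symm (x' : gl_J K') : skey_trJ e (skey_trJ e.symm x') = x' := by
  apply Subtype.ext
  funext q
  exact skey_tr_tr_symm e (q : ℕ) (x'.1 q)

theorem skey_trF_diag (a : Kˣ) :
    skey_trF e (sec_diag K a) = sec_diag K' (Units.map (e : K →* K') a) := by
  funext q
  exact skey_tr_diagq e (q : ℕ) a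

/-- Transport of `E(S,T)`. -/
theorem skey_tr_InE (p : ℕ) (S T : Finset Nat.Primes)
    (κ : ∀ q : Nat.Primes, K →ₐ[ℚ] PadicAlgCl (q : ℕ))
    (x : (q : Nat.Primes) → gl_JP K q) (hx : sec_InE K p S T κ x) :
    sec_InE K' p S T (fun q => (κ q).comp (e.symm : K' →ₐ[ℚ] K)) (skey_trF e x) := by
  refine ⟨fun q hq => ⟨fun hT => skey_trF_mem_UP e x q ((hx.1 q hq).1 hT), fun hT κ' hκ' => ?_⟩,
    fun q hq => ?_⟩
  · have h := (hx.1 q hq).2 hT (κ'.comp (e : K →ₐ[ℚ] K')) (fun hc =>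
      hκ' (skey_conj_comp e (q : ℕ) (κ q) κ' hc))
    exact h
  · obtain ⟨g, hg⟩ := hx.2 q hq
    refine ⟨skey_tr e (q : ℕ) g, ?_⟩
    show skey_tr e (q : ℕ) g ^ p = skey_tr e (q : ℕ) (x q)
    rw [← map_pow, hg]

/-- Transport of `D(S,T)`. -/
theorem skey_tr_InD (p : ℕ) (S T : Finset Nat.Primes)
    (κ : ∀ q : Nat.Primes, K →ₐ[ℚ] PadicAlgCl (q : ℕ))
    (x : (q : Nat.Primes) → gl_JP K q) (hx : sec_InD K p S T κ x) :
    sec_InD K' p S T (fun q => (κ q).comp (e.symm : K' →ₐ[ℚ] K)) (skey_trF e x) := by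
  refine ⟨fun q hq => skey_trF_mem_UP e x q (hx.1 q hq), fun q hq => ?_⟩
  obtain ⟨g, hg⟩ := hx.2 q hq
  refine ⟨skey_tr e (q : ℕ) g, ?_⟩
  show (skey_tr e (q : ℕ) g).1 ((κ q).comp (e.symm : K' →ₐ[ℚ] K)) ^ p =
    (skey_tr e (q : ℕ) (x q)).1 ((κ q).comp (e.symm : K' →ₐ[ℚ] K))
  rw [skey_tr_apply, skey_tr_apply, skey_comp_symm_comp]
  exact hg

end tr

/-! ### The decomposition `J_K = Kˣ · D(S,T)` -/

/-- The conclusion of `skey_decomp`: every idele is a principal idele times an element of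
`D(S,T)`. -/
def skey_Decomp (K : Type) [Field K] [NumberField K] (p : ℕ) (S T : Finset Nat.Primes)
    (κ : ∀ q : Nat.Primes, K →ₐ[ℚ] PadicAlgCl (q : ℕ)) : Prop :=
  ∀ x : gl_J K, ∃ (a : Kˣ) (x₂ : gl_J K), x = gdiag_hom K a * x₂ ∧ sec_InD K p S T κ x₂.1

theorem skey_decomp (K : Type) [Field K] [NumberField K] (p : ℕ) (S T : Finset Nat.Primes)
    (κ : ∀ q : Nat.Primes, K →ₐ[ℚ] PadicAlgCl (q : ℕ))
    (hcls : gl_P K ⊔ gl_JT K (S : Set Nat.Primes) = ⊤) (hOnto : sec_Onto K p S T κ) :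
    skey_Decomp K p S T κ := by
  intro x
  have hx : x ∈ gl_P K ⊔ gl_JT K (S : Set Nat.Primes) := by
    rw [hcls]; exact Subgroup.mem_top x
  obtain ⟨y, hy, z, hz, hyz⟩ := Subgroup.mem_sup.1 hx
  obtain ⟨a₀, rfl⟩ := (gdiag_mem_P_iff K y).1 hy
  obtain ⟨b, hb, hbT⟩ := hOnto z.1 (fun q hq => hz q (by simpa using hq))
  refine ⟨a₀ * b, z / gdiag_hom K b, ?_, ?_, ?_⟩
  · rw [← hyz, map_mul]
    rw [mul_assoc, mul_div_cancel]
  · intro q hq
    have h1 : z.1 q ∈ gl_UP K q := hz q (by simpa using hq)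
    have h2 : gl_diagP K q b ∈ gl_UP K q := (hb q hq).1 (Finset.notMem_empty q)
    exact (gl_UP K q).div_mem h1 h2
  · intro q hq
    exact hbT q hq

/-- Transport of the decomposition. -/
theorem skey_tr_decomp {K K' : Type} [Field K] [Field K'] [NumberField K] [NumberField K']
    (e : K ≃ₐ[ℚ] K') (p : ℕ) (S T : Finset Nat.Primes)
    (κ : ∀ q : Nat.Primes, K →ₐ[ℚ] PadicAlgCl (q : ℕ)) (h : skey_Decomp K p S T κ) :
    skey_Decomp K' p S T (fun q => (κ q).comp (e.symm : K' →ₐ[ℚ] K)) := by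
  intro x'
  obtain ⟨a, x₂, hx, hD⟩ := h (skey_trJ e.symm x')
  refine ⟨Units.map (e : K →* K') a, skey_trJ e x₂, ?_, skey_tr_InD e p S T κ x₂.1 hD⟩
  have h1 := congrArg (skey_trJ e) hx
  rw [skey_trJ_trJ_symm, map_mul] at h1
  rw [h1]
  congr 1

end

end Fermat.Agent.S55
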