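/-
S55 (fifth wave), GLOBAL side, package [SEC-KEY] (helper4), part 4: the key lemma
`skey_main : gl_FirstStatement → sec_UnrNormStatement → sec_KeyStatement`.

For `y ∈ Kˣ ∩ E(S,T)` which is not a `p`-th power let `F = K(β)`, `β ^ p = y`, with `σ` of order
`p` and fixed field `K` (`SecKeyExt`).  Then `D(S,T) ⊆ N J_F` (`skey_norm_of_D`: the places above
`S` split, `p`-th powers are norms at the places of `T`, and all other places are unramified
with `y` a unit), and `J_K = Kˣ · D(S,T)` (`skey_decomp`); hence every `σ`-invariant idele class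
of `F` is a norm (`[DESCENT]`), i.e. `[C_F^σ : N C_F] = 1`, contradicting the first inequality.
-/
import Mathlib
import Fermat.Agent.S55.Global.SecKeyExt
import Fermat.Agent.S55.Global.SecKeyLoc
import Fermat.Agent.S55.Global.SecKeyTr

set_option autoImplicit false
set_option linter.style.haveILetI false

namespace Fermat.Agent.S55

open IntermediateField

attribute [local instance] sec_fact

noncomputable section

section core

variable (F : Type) [Field F] [NumberField F] (σ : F ≃ₐ[ℚ] F)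

/-- The cut of a semi-local idele which is a `p`-th power at the place of `κ` is a `p`-th
power. -/
theorem skey_cut_pow (q : ℕ) [Fact q.Prime] (K : Type) [Field K] [Algebra ℚ K] (p : ℕ)
    (κ : K →ₐ[ℚ] PadicAlgCl q) (x g : gl_Jq q K) (hg : g.1 κ ^ p = x.1 κ) :
    sec_cut q K κ g ^ p = sec_cut q K κ x := by
  apply Subtype.ext
  funext κ₁
  show (sec_cut q K κ g).1 κ₁ ^ p = (sec_cut q K κ x).1 κ₁
  by_cases hc : sec_Conj q K κ κ₁
  · rw [sec_cut_apply_conj q K κ κ₁ g hc, sec_cut_apply_conj q K κ κ₁ x hc]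
    obtain ⟨τ, rfl⟩ := hc
    rw [g.2 τ κ, x.2 τ κ, ← map_pow, hg]
  · rw [sec_cut_apply_not_conj q K κ κ₁ g hc, sec_cut_apply_not_conj q K κ κ₁ x hc, one_pow]

/-- **`D(S,T)` consists of norms** from `F = K(β)`, `β ^ p = y ∈ E(S,T)`. -/
theorem skey_norm_of_D (hUnr : sec_UnrNormStatement) (p : ℕ) (hp : p.Prime) (hp2 : p ≠ 2)
    (hσ : orderOf σ = p)
    (ζ : ↥(fixedField (Subgroup.zpowers σ))) (hζ : IsPrimitiveRoot ζ p)
    (y : (↥(fixedField (Subgroup.zpowers σ)))ˣ) (β : F)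
    (hβ : β ^ p = (((y : (↥(fixedField (Subgroup.zpowers σ)))ˣ) :
      ↥(fixedField (Subgroup.zpowers σ))) : F))
    (hσβ : σ β ≠ β)
    (S T : Finset Nat.Primes)
    (κ : ∀ q : Nat.Primes, ↥(fixedField (Subgroup.zpowers σ)) →ₐ[ℚ] PadicAlgCl (q : ℕ))
    (hpS : (⟨p, hp⟩ : Nat.Primes) ∈ S)
    (hE : sec_InE ↥(fixedField (Subgroup.zpowers σ)) p S T κ
      (sec_diag ↥(fixedField (Subgroup.zpowers σ)) y))
    (x : gl_J ↥(fixedField (Subgroup.zpowers σ)))
    (hx : sec_InD ↥(fixedField (Subgroup.zpowers σ)) p S T κ x.1) :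
    ∃ w : gl_J F, sec_normJ F σ p w = gl_resJ F (fixedField (Subgroup.zpowers σ)) x := by
  -- `y` is a unit at `κ₁` ⟹ unramified
  have hunr : ∀ (q : Nat.Primes), q ∉ S →
      ∀ κ₁ : ↥(fixedField (Subgroup.zpowers σ)) →ₐ[ℚ] PadicAlgCl (q : ℕ),
        ‖κ₁ ((y : (↥(fixedField (Subgroup.zpowers σ)))ˣ) :
          ↥(fixedField (Subgroup.zpowers σ)))‖ = 1 → sec_UnramAt (q : ℕ) F σ κ₁ := by
    intro q hqS κ₁ h1
    have hqp : (q : ℕ) ≠ p := by
      intro h
      apply hqS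
      have : q = ⟨p, hp⟩ := Subtype.ext h
      rw [this]
      exact hpS
    exact skey_unram (q : ℕ) F σ p hp hσ hqp ζ hζ _ β hβ hσβ κ₁ h1
  have hq : ∀ q : Nat.Primes, ∃ w : gl_Jq (q : ℕ) F,
      sec_normq (q : ℕ) F σ p w =
        gl_resq F (fixedField (Subgroup.zpowers σ)) (q : ℕ) (x.1 q) ∧
      (q ∉ S → q ∉ T → w ∈ gl_Uq (q : ℕ) F) := by
    intro q
    by_cases hqS : q ∈ S
    · obtain ⟨g, hg⟩ := hE.2 q hqS
      have hsplit : ∀ κ₁ : ↥(fixedField (Subgroup.zpowers σ)) →ₐ[ℚ] PadicAlgCl (q : ℕ),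
          sec_SplitAt (q : ℕ) F σ κ₁ := by
        intro κ₁
        refine skey_split (q : ℕ) F σ p hp ζ hζ _ β hβ hσβ κ₁ g ?_
        have h1 := congrArg (fun z : gl_Jq (q : ℕ) ↥(fixedField (Subgroup.zpowers σ)) =>
          ((z.1 κ₁ : (PadicAlgCl (q : ℕ))ˣ) : PadicAlgCl (q : ℕ))) hg
        exact h1
      obtain ⟨w, hw⟩ := skey_norm_allsplit (q : ℕ) F σ p hp hσ hsplit (x.1 q)
      exact ⟨w, hw, fun h => absurd hqS h⟩
    · have hxu : x.1 q ∈ gl_Uq (q : ℕ) ↥(fixedField (Subgroup.zpowers σ)) := hx.1 q hqS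
      by_cases hqT : q ∈ T
      · obtain ⟨g, hg⟩ := hx.2 q hqT
        have hcut := skey_cut_pow (q : ℕ) ↥(fixedField (Subgroup.zpowers σ)) p (κ q) (x.1 q) g hg
        have hw₁ := sec_norm_res_pow (q : ℕ) F σ p (sec_cut (q : ℕ) _ (κ q) g)
        rw [hcut] at hw₁
        obtain ⟨w₂, _, hw₂⟩ := sec_norm_unr (q : ℕ) F σ hUnr p hp hp2 hσ
          (x.1 q / sec_cut (q : ℕ) _ (κ q) (x.1 q))
          ((gl_Uq (q : ℕ) _).div_mem hxu (sec_cut_mem_Uq (q : ℕ) _ (κ q) (x.1 q) hxu))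
          (by
            intro κ₁ hκ₁
            by_cases hc : sec_Conj (q : ℕ) ↥(fixedField (Subgroup.zpowers σ)) (κ q) κ₁
            · exact absurd (sec_div_cut_apply_conj (q : ℕ) _ (κ q) κ₁ (x.1 q) hc) hκ₁
            · exact hunr q hqS κ₁ ((hE.1 q hqS).2 hqT κ₁ hc))
        refine ⟨gl_resq F (fixedField (Subgroup.zpowers σ)) (q : ℕ)
          (sec_cut (q : ℕ) _ (κ q) g) * w₂, ?_, fun _ h => absurd hqT h⟩
        rw [map_mul, hw₁, hw₂, ← map_mul, mul_div_cancel]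
      · obtain ⟨w, hwu, hw⟩ := sec_norm_unr (q : ℕ) F σ hUnr p hp hp2 hσ (x.1 q) hxu
          (fun κ₁ _ => hunr q hqS κ₁ ((hE.1 q hqS).1 hqT κ₁))
        exact ⟨w, hw, fun _ _ => hwu⟩
  choose w hw hwu using hq
  refine ⟨⟨w, ?_⟩, ?_⟩
  · refine ((S ∪ T : Finset Nat.Primes).finite_toSet).subset ?_
    intro q hq
    by_contra h
    rw [Finset.mem_coe, Finset.mem_union, not_or] at h
    exact hq (hwu q h.1 h.2)
  · apply Subtype.ext
    funext q
    rw [sec_normJ_apply, gl_resJ_apply]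
    exact hw q

/-- The norm of the class of an idele. -/
theorem skey_nrm_mk (p : ℕ) (w : gl_J F) :
    herb_nrm (A := Additive (gl_C F)) σ p (Additive.ofMul (QuotientGroup.mk w : gl_C F)) =
      Additive.ofMul (QuotientGroup.mk (sec_normJ F σ p w) : gl_C F) := by
  rw [herb_nrm_apply, sec_normJ_def]
  have h1 : (QuotientGroup.mk (∏ i ∈ Finset.range p, σ ^ i • w) : gl_C F) =
      ∏ i ∈ Finset.range p, (QuotientGroup.mk (σ ^ i • w) : gl_C F) :=
    map_prod (QuotientGroup.mk' (gl_P F)) _ _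
  rw [h1, ofMul_prod]
  rfl

/-- **The core.** A Kummer extension `F = K(β)`, `β ^ p = y ∈ E(S,T)`, with `J_K = Kˣ D(S,T)`
contradicts the first inequality. -/
theorem skey_core (hFirst : gl_FirstStatement) (hUnr : sec_UnrNormStatement)
    (p : ℕ) (hp : p.Prime) (hp2 : p ≠ 2) (hσ : orderOf σ = p)
    (ζ : ↥(fixedField (Subgroup.zpowers σ))) (hζ : IsPrimitiveRoot ζ p)
    (y : (↥(fixedField (Subgroup.zpowers σ)))ˣ) (β : F)
    (hβ : β ^ p = (((y : (↥(fixedField (Subgroup.zpowers σ)))ˣ) :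
      ↥(fixedField (Subgroup.zpowers σ))) : F))
    (hσβ : σ β ≠ β)
    (S T : Finset Nat.Primes)
    (κ : ∀ q : Nat.Primes, ↥(fixedField (Subgroup.zpowers σ)) →ₐ[ℚ] PadicAlgCl (q : ℕ))
    (hpS : (⟨p, hp⟩ : Nat.Primes) ∈ S)
    (hE : sec_InE ↥(fixedField (Subgroup.zpowers σ)) p S T κ
      (sec_diag ↥(fixedField (Subgroup.zpowers σ)) y))
    (hdec : skey_Decomp ↥(fixedField (Subgroup.zpowers σ)) p S T κ) : False := by
  obtain ⟨-, hidx⟩ := hFirst F p hp hp2 σ hσ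
  have hone : herb_idx (A := Additive (gl_C F)) (herb_del σ) (herb_nrm σ p) = 1 := by
    unfold herb_idx
    rw [AddSubgroup.relIndex_eq_one]
    intro c hc
    rw [herb_mem_ker_del_iff] at hc
    have hc' : σ • (Additive.toMul c : gl_C F) = Additive.toMul c := by
      have := congrArg Additive.toMul hc
      exact this
    have hinv : ∀ τ ∈ Subgroup.zpowers σ, τ • (Additive.toMul c : gl_C F) = Additive.toMul c := by
      intro τ hτ
      obtain ⟨k, rfl⟩ := Subgroup.mem_zpowers_iff.1 hτ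
      have hmem : σ ∈ MulAction.stabilizer (F ≃ₐ[ℚ] F) (Additive.toMul c : gl_C F) := hc'
      exact (MulAction.stabilizer (F ≃ₐ[ℚ] F) (Additive.toMul c : gl_C F)).zpow_mem hmem k
    obtain ⟨d, hd⟩ := ((gdsc_main F (Subgroup.zpowers σ)).2 (Additive.toMul c)).1 hinv
    obtain ⟨x, rfl⟩ := QuotientGroup.mk_surjective d
    obtain ⟨a, x₂, hx, hD⟩ := hdec x
    obtain ⟨w, hw⟩ := skey_norm_of_D F σ hUnr p hp hp2 hσ ζ hζ y β hβ hσβ S T κ hpS hE x₂ hD
    refine ⟨Additive.ofMul (QuotientGroup.mk w : gl_C F), ?_⟩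
    rw [skey_nrm_mk, hw]
    have h2 : (QuotientGroup.mk (gl_resJ F (fixedField (Subgroup.zpowers σ)) x₂) : gl_C F) =
        Additive.toMul c := by
      rw [← hd, gl_resC_mk, hx, map_mul]
      symm
      rw [QuotientGroup.eq, mul_inv_rev]
      rw [mul_comm, ← mul_assoc, mul_inv_cancel, one_mul]
      exact (gl_P F).inv_mem (gl_resJ_mem_P F _ _ (gdiag_hom_mem_P _ a))
    rw [h2]
    rfl
  rw [hone] at hidx
  have hdvd : p ∣ 1 := ⟨_, hidx⟩
  exact hp.one_lt.ne' (Nat.dvd_one.1 hdvd)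

end core

/-- **[SEC-KEY]** the key lemma of the second inequality. -/
theorem skey_main (hFirst : gl_FirstStatement) (hUnr : sec_UnrNormStatement) :
    sec_KeyStatement := by
  intro K _ _ p hp hp2 hζ S T κ _ hpS hcls _ hOnto y hE
  obtain ⟨ζ, hζ⟩ := hζ
  by_contra hno
  have hy : ∀ z : K, z ^ p ≠ (y : K) := by
    intro z hz
    have hz0 : z ≠ 0 := by
      intro h
      rw [h, zero_pow hp.ne_zero] at hz
      exact y.ne_zero hz.symm
    exact hno ⟨Units.mk0 z hz0, Units.ext hz⟩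
  obtain ⟨F, instF, instNF, σ, e, β, hσ, hβ, hσβ⟩ := skey_exists_ext K p hp ζ hζ (y : K) hy
  have hdec := skey_tr_decomp e p S T κ (skey_decomp K p S T κ hcls hOnto)
  have hE' := skey_tr_InE e p S T κ _ hE
  rw [skey_trF_diag] at hE'
  exact skey_core F σ hFirst hUnr p hp hp2 hσ (e ζ) (hζ.map_of_injective e.injective)
    (Units.map (e : K →* ↥(fixedField (Subgroup.zpowers σ))) y) β hβ hσβ S T _ hpS hE' hdec

end

end Fermat.Agent.S55
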