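/-
S55 (fifth wave), GLOBAL side, package [J-COH] part 7 (helper21): the finite level of a local
cyclic layer `(U, τ)`: `L = fixedField U` (a finite extension of `ℚ_q`), the restriction
`τ_L : L ≃ₐ[ℚ_q] L` of `τ`, which has order exactly `p`, and products over the cyclic group
generated by `τ_L`.
-/
import Fermat.Agent.S55.Global.JCohLayer

set_option autoImplicit false

namespace Fermat.Agent.S55

open Finset

noncomputable section

section restr

variable {q : ℕ} [Fact q.Prime]

/-- The restriction to `L = fixedField U` of an automorphism normalising `U`. -/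
def jcoh_restr (U : Subgroup (lcf_Gal q)) (γ : lcf_Gal q)
    (h1 : ∀ g : lcf_Gal q, g ∈ U → γ * g * γ⁻¹ ∈ U)
    (h2 : ∀ g : lcf_Gal q, g ∈ U → γ⁻¹ * g * γ ∈ U) :
    ↥(IntermediateField.fixedField U) ≃ₐ[ℚ_[q]] ↥(IntermediateField.fixedField U) where
  toFun x := ⟨γ x, by
    rw [IntermediateField.mem_fixedField_iff]
    intro g hg
    have hx := (IntermediateField.mem_fixedField_iff U _).1 x.2 _ (h2 g hg)
    have e : (γ⁻¹ * g * γ) (x : PadicAlgCl q) = γ⁻¹ (g (γ x)) := rfl
    rw [e] at hx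
    have := congrArg γ hx
    rwa [show γ (γ⁻¹ (g (γ (x : PadicAlgCl q)))) = g (γ x) from γ.apply_symm_apply _] at this⟩
  invFun x := ⟨γ⁻¹ x, by
    rw [IntermediateField.mem_fixedField_iff]
    intro g hg
    have hx := (IntermediateField.mem_fixedField_iff U _).1 x.2 _ (h1 g hg)
    have e : (γ * g * γ⁻¹) (x : PadicAlgCl q) = γ (g (γ⁻¹ x)) := rfl
    rw [e] at hx
    have := congrArg γ.symm hx
    rw [γ.symm_apply_apply] at this
    exact this⟩
  left_inv x := Subtype.ext (γ.symm_apply_apply _)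
  right_inv x := Subtype.ext (γ.apply_symm_apply _)
  map_mul' x y := Subtype.ext (map_mul γ _ _)
  map_add' x y := Subtype.ext (map_add γ _ _)
  commutes' r := Subtype.ext (γ.commutes r)

@[simp] theorem jcoh_restr_apply (U : Subgroup (lcf_Gal q)) (γ : lcf_Gal q)
    (h1 : ∀ g : lcf_Gal q, g ∈ U → γ * g * γ⁻¹ ∈ U)
    (h2 : ∀ g : lcf_Gal q, g ∈ U → γ⁻¹ * g * γ ∈ U)
    (x : ↥(IntermediateField.fixedField U)) :
    ((jcoh_restr U γ h1 h2 x : ↥(IntermediateField.fixedField U)) : PadicAlgCl q) = γ x := rfl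

variable {p : ℕ} {U : Subgroup (lcf_Gal q)} {τ : lcf_Gal q}

/-- The restriction of `τ` to the fixed field of `U`. -/
def jcoh_IsLayer.tauL (h : jcoh_IsLayer p U τ) (hp : 0 < p) :
    ↥(IntermediateField.fixedField U) ≃ₐ[ℚ_[q]] ↥(IntermediateField.fixedField U) :=
  jcoh_restr U τ h.conj_mem (h.conj_mem' hp)

theorem jcoh_IsLayer.tauL_apply (h : jcoh_IsLayer p U τ) (hp : 0 < p)
    (x : ↥(IntermediateField.fixedField U)) :
    ((h.tauL hp x : ↥(IntermediateField.fixedField U)) : PadicAlgCl q) = τ x := rfl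

theorem jcoh_IsLayer.tauL_pow_apply (h : jcoh_IsLayer p U τ) (hp : 0 < p) (k : ℕ)
    (x : ↥(IntermediateField.fixedField U)) :
    (((h.tauL hp ^ k) x : ↥(IntermediateField.fixedField U)) : PadicAlgCl q) = (τ ^ k) x := by
  induction k generalizing x with
  | zero => rfl
  | succ k ih =>
    rw [pow_succ, pow_succ]
    show ((h.tauL hp ^ k) (h.tauL hp x) : PadicAlgCl q) = (τ ^ k) (τ x)
    rw [ih]
    rfl

theorem jcoh_IsLayer.tauL_pow (h : jcoh_IsLayer p U τ) (hp : 0 < p) : h.tauL hp ^ p = 1 := by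
  ext x
  rw [h.tauL_pow_apply hp p x]
  exact (IntermediateField.mem_fixedField_iff U _).1 x.2 _ h.pow_mem

theorem jcoh_IsLayer.tauL_ne_one (h : jcoh_IsLayer p U τ) (hp : 0 < p) : h.tauL hp ≠ 1 := by
  intro h1
  apply h.not_mem
  rw [← jcoh_fixing_fixed U h.isOpen, IntermediateField.mem_fixingSubgroup_iff]
  intro x hx
  have := congrArg (fun σ : ↥(IntermediateField.fixedField U) ≃ₐ[ℚ_[q]]
    ↥(IntermediateField.fixedField U) => ((σ ⟨x, hx⟩ : ↥(IntermediateField.fixedField U)) :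
      PadicAlgCl q)) h1
  exact this

theorem jcoh_IsLayer.orderOf_tauL (h : jcoh_IsLayer p U τ) (hp : p.Prime) :
    orderOf (h.tauL hp.pos) = p :=
  haveI : Fact p.Prime := ⟨hp⟩
  orderOf_eq_prime (h.tauL_pow hp.pos) (h.tauL_ne_one hp.pos)

end restr

/-- A product over the cyclic group generated by an element of order `p`. -/
theorem jcoh_prod_zpowers {G M : Type*} [Group G] [CommMonoid M] (x : G) (p : ℕ) (hp : 0 < p)
    (hx : orderOf x = p) [Fintype ↥(Subgroup.zpowers x)] (f : G → M) :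
    ∏ g : ↥(Subgroup.zpowers x), f g = ∏ k ∈ range p, f (x ^ k) := by
  have hfin : IsOfFinOrder x := by
    rw [← orderOf_pos_iff, hx]
    exact hp
  rw [← hx, ← Fin.prod_univ_eq_prod_range (fun k => f (x ^ k)) (orderOf x)]
  exact (Fintype.prod_equiv (finEquivZPowers hfin) (fun k => f (x ^ (k : ℕ)))
    (fun g => f g) (fun k => by rw [finEquivZPowers_apply])).symm

end

end Fermat.Agent.S55
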