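/-
S55 (fifth wave), GLOBAL side, package [J-COH] part 1 (helper21): the ABSTRACT semi-local
calculus (Mathlib only).

Setting (`jcoh_Hyp`): a group `Γ` acting on a set `X` (`tw`), a map `s : X → X` commuting with
the action with `s^[p] = id`, `p` prime; `r` is the orbit relation of `Γ` on `X`
(`Quotient r` = "places"), `m` the map induced by `s` on the places.
`A` is a commutative group with an action of `Γ`; the semi-local module is the group of
equivariant functions `f : X → A`, on which `σ` acts by `f ↦ f ∘ s`.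

A place `w` is FIXED if `m w = w`; then `s x = tw τ x` for `x` in the place, and evaluation at
`x` identifies the component of `f` at `w` with the `Stab x`-invariants of `A`, `σ` acting as `τ`.
A place which is not fixed lies in a free orbit of `p` places, and that part of the module is
induced: its `Ĥ⁰` and `Ĥ⁻¹` vanish (explicit homotopies with the orbit indicator `ind`).
-/
import Mathlib

set_option autoImplicit false
set_option linter.unusedSectionVars false

namespace Fermat.Agent.S55

open Finset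

noncomputable section

/-- The abstract semi-local setting. -/
structure jcoh_Hyp {Γ X : Type*} [Group Γ] (tw : Γ → X → X) (s : X → X) (p : ℕ)
    (r : Setoid X) (m : Quotient r → Quotient r) : Prop where
  tw_one : ∀ x, tw 1 x = x
  tw_mul : ∀ γ γ' x, tw (γ * γ') x = tw γ (tw γ' x)
  s_tw : ∀ γ x, s (tw γ x) = tw γ (s x)
  s_pow : ∀ x, s^[p] x = x
  prime : p.Prime
  r_iff : ∀ x y, r.r x y ↔ ∃ γ, y = tw γ x
  m_mk : ∀ x, m (Quotient.mk r x) = Quotient.mk r (s x)

namespace jcoh_Hyp

variable {Γ X : Type*} [Group Γ] {tw : Γ → X → X} {s : X → X} {p : ℕ}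
    {r : Setoid X} {m : Quotient r → Quotient r}

section basic

variable (H : jcoh_Hyp tw s p r m)

include H

theorem mk_tw (γ : Γ) (x : X) : Quotient.mk r (tw γ x) = Quotient.mk r x :=
  (Quotient.sound (s := r) ((H.r_iff x (tw γ x)).2 ⟨γ, rfl⟩)).symm

theorem exists_tw {x y : X} (h : Quotient.mk r x = Quotient.mk r y) : ∃ γ, y = tw γ x :=
  (H.r_iff x y).1 (Quotient.exact (s := r) h)

theorem s_iter_tw (k : ℕ) (γ : Γ) (x : X) : s^[k] (tw γ x) = tw γ (s^[k] x) := by
  induction k with
  | zero => rfl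
  | succ k ih => rw [Function.iterate_succ_apply', Function.iterate_succ_apply', ih, H.s_tw]

theorem m_iter (k : ℕ) (x : X) : m^[k] (Quotient.mk r x) = Quotient.mk r (s^[k] x) := by
  induction k with
  | zero => rfl
  | succ k ih => rw [Function.iterate_succ_apply', Function.iterate_succ_apply', ih, H.m_mk]

theorem m_pow (w : Quotient r) : m^[p] w = w := by
  induction w using Quotient.inductionOn with
  | _ x => rw [H.m_iter, H.s_pow]

theorem s_pow_mul (j : ℕ) (x : X) : s^[p * j] x = x := by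
  induction j with
  | zero => rfl
  | succ j ih => rw [Nat.mul_succ, Function.iterate_add_apply, H.s_pow, ih]

theorem s_mod (k : ℕ) (x : X) : s^[k % p] x = s^[k] x := by
  conv_rhs => rw [← Nat.mod_add_div k p, Function.iterate_add_apply, H.s_pow_mul]

theorem m_pow_mul (j : ℕ) (w : Quotient r) : m^[p * j] w = w := by
  induction j with
  | zero => rfl
  | succ j ih => rw [Nat.mul_succ, Function.iterate_add_apply, H.m_pow, ih]

theorem m_mod (k : ℕ) (w : Quotient r) : m^[k % p] w = m^[k] w := by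
  conv_rhs => rw [← Nat.mod_add_div k p, Function.iterate_add_apply, H.m_pow_mul]

theorem m_iter_injective (k : ℕ) : Function.Injective (m^[k]) := by
  intro w w' h
  have h1 : m^[p * k] w = m^[p * k] w' := by
    have e : p * k = (p * k - k) + k := by
      have : k ≤ p * k := Nat.le_mul_of_pos_left k H.prime.pos
      omega
    rw [e, Function.iterate_add_apply, Function.iterate_add_apply, h]
  rwa [H.m_pow_mul, H.m_pow_mul] at h1

theorem m_injective : Function.Injective m := by
  have := H.m_iter_injective 1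
  simpa using this

theorem fix_iff (x : X) : m (Quotient.mk r x) = Quotient.mk r x ↔ ∃ τ : Γ, s x = tw τ x := by
  rw [H.m_mk]
  constructor
  · intro h
    obtain ⟨γ, hγ⟩ := H.exists_tw h.symm
    exact ⟨γ, hγ⟩
  · rintro ⟨τ, hτ⟩
    rw [hτ, H.mk_tw]

theorem fix_iter_iff (k : ℕ) (w : Quotient r) : m (m^[k] w) = m^[k] w ↔ m w = w := by
  have e : m (m^[k] w) = m^[k] (m w) :=
    (Function.iterate_succ_apply' m k w).symm.trans (Function.iterate_succ_apply m k w)
  constructor
  · intro h
    apply H.m_iter_injective k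
    rw [← e]
    exact h
  · intro h
    rw [e, h]

theorem fix_m_iff (w : Quotient r) : m (m w) = m w ↔ m w = w :=
  H.fix_iter_iff 1 w

/-- On a place which is not fixed, the `p` translates are pairwise distinct. -/
theorem iter_inj_of_not_fix {w : Quotient r} (hw : m w ≠ w) {j k : ℕ} (hj : j < p) (hk : k < p)
    (h : m^[j] w = m^[k] w) : j = k := by
  by_contra hne
  wlog hlt : j < k generalizing j k
  · exact this hk hj h.symm (Ne.symm hne) (by omega)
  -- `m^[j] w` has period `k - j` and period `p`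
  have h1 : Function.IsPeriodicPt m (k - j) (m^[j] w) := by
    show m^[k - j] (m^[j] w) = m^[j] w
    rw [← Function.iterate_add_apply, Nat.sub_add_cancel hlt.le, h]
  have h2 : Function.IsPeriodicPt m p (m^[j] w) := H.m_pow _
  have h3 := h1.gcd h2
  have hcop : Nat.gcd (k - j) p = 1 := by
    have : Nat.Coprime p (k - j) := by
      rw [Nat.Prime.coprime_iff_not_dvd H.prime]
      intro hd
      have := Nat.le_of_dvd (by omega) hd
      omega
    exact Nat.Coprime.symm this
  rw [hcop] at h3
  have h4 : m (m^[j] w) = m^[j] w := h3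
  exact hw ((H.fix_iter_iff j w).1 h4)

end basic

/-! ### The orbit indicator -/

/-- The `m`-orbit of a place. -/
def orb (m : Quotient r → Quotient r) (w : Quotient r) : Set (Quotient r) :=
  {w' | ∃ k : ℕ, m^[k] w = w'}

theorem orb_nonempty (m : Quotient r → Quotient r) (w : Quotient r) : (orb m w).Nonempty :=
  ⟨w, 0, rfl⟩

/-- A chosen representative of the `m`-orbit of a place. -/
def rep (m : Quotient r → Quotient r) (w : Quotient r) : Quotient r :=
  (orb_nonempty m w).some

theorem rep_mem (m : Quotient r → Quotient r) (w : Quotient r) : ∃ k : ℕ, m^[k] w = rep m w :=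
  (orb_nonempty m w).some_mem

section basic2

variable (H : jcoh_Hyp tw s p r m)

include H

theorem orb_m (w : Quotient r) : orb m (m w) = orb m w := by
  ext w'
  constructor
  · rintro ⟨k, hk⟩
    exact ⟨k + 1, by rw [Function.iterate_succ_apply]; exact hk⟩
  · rintro ⟨k, hk⟩
    refine ⟨k + (p - 1), ?_⟩
    rw [← Function.iterate_succ_apply, ← hk]
    have e : (k + (p - 1)).succ = k + p := by
      have := H.prime.pos
      omega
    rw [e, Function.iterate_add_apply, H.m_pow]

theorem rep_m (w : Quotient r) : rep m (m w) = rep m w := by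
  unfold rep
  have h := H.orb_m w
  congr 1

theorem rep_iter (k : ℕ) (w : Quotient r) : rep m (m^[k] w) = rep m w := by
  induction k with
  | zero => rfl
  | succ k ih => rw [Function.iterate_succ_apply', H.rep_m, ih]

theorem rep_mem_lt (w : Quotient r) : ∃ k : ℕ, k < p ∧ m^[k] w = rep m w := by
  obtain ⟨k, hk⟩ := rep_mem m w
  exact ⟨k % p, Nat.mod_lt _ H.prime.pos, by rw [H.m_mod, hk]⟩

end basic2

open Classical in
/-- The orbit indicator: `1` on the places of the chosen representatives of the free orbits,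
`0` elsewhere. -/
def ind (m : Quotient r → Quotient r) (x : X) : ℕ :=
  if m (Quotient.mk r x) ≠ Quotient.mk r x ∧ rep m (Quotient.mk r x) = Quotient.mk r x
  then 1 else 0

section indicator

variable (H : jcoh_Hyp tw s p r m)

include H

theorem ind_tw (γ : Γ) (x : X) : ind m (tw γ x) = ind m x := by
  unfold ind
  rw [H.mk_tw]

theorem ind_of_fix {x : X} (hx : m (Quotient.mk r x) = Quotient.mk r x) : ind m x = 0 := by
  unfold ind
  rw [if_neg]
  exact fun h => h.1 hx

theorem ind_iter_of_fix {x : X} (hx : m (Quotient.mk r x) = Quotient.mk r x) (k : ℕ) :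
    ind m (s^[k] x) = 0 := by
  apply H.ind_of_fix
  rw [← H.m_iter, H.fix_iter_iff]
  exact hx

theorem sum_ind {x : X} (hx : m (Quotient.mk r x) ≠ Quotient.mk r x) :
    ∑ k ∈ range p, ind m (s^[k] x) = 1 := by
  classical
  obtain ⟨k₀, hk₀, hrep⟩ := H.rep_mem_lt (Quotient.mk r x)
  have hval : ∀ k ∈ range p, ind m (s^[k] x) = if k = k₀ then 1 else 0 := by
    intro k hk
    have hk' : k < p := mem_range.1 hk
    unfold ind
    rw [← H.m_iter, H.rep_iter, ← hrep]
    have hnf : m (m^[k] (Quotient.mk r x)) ≠ m^[k] (Quotient.mk r x) := fun h =>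
      hx ((H.fix_iter_iff k _).1 h)
    by_cases hkk : k = k₀
    · subst hkk
      rw [if_pos ⟨hnf, rfl⟩, if_pos rfl]
    · rw [if_neg, if_neg hkk]
      rintro ⟨-, h⟩
      exact hkk (H.iter_inj_of_not_fix hx hk' hk₀ h.symm)
  rw [sum_congr rfl hval, sum_ite_eq' (range p) k₀ (fun _ => 1), if_pos (mem_range.2 hk₀)]

theorem sum_ind_succ {x : X} (hx : m (Quotient.mk r x) ≠ Quotient.mk r x) :
    ∑ k ∈ range p, ind m (s^[k + 1] x) = 1 := by
  have h := H.sum_ind (x := s x) (by
    rw [← H.m_mk]
    exact fun h => hx ((H.fix_m_iff _).1 h))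
  refine Eq.trans (sum_congr rfl fun k _ => ?_) h
  rw [Function.iterate_succ_apply]

end indicator

/-! ### Points of fixed places -/

section fixed

variable (H : jcoh_Hyp tw s p r m)

include H

theorem s_iter_of_fix {x : X} {τ : Γ} (hτ : s x = tw τ x) (k : ℕ) : s^[k] x = tw (τ ^ k) x := by
  induction k with
  | zero => rw [pow_zero, H.tw_one]; rfl
  | succ k ih =>
    rw [Function.iterate_succ_apply', ih, H.s_tw, hτ, ← H.tw_mul, ← pow_succ]

theorem exists_gam (x : X) : ∃ γ : Γ, x = tw γ (Quotient.out (Quotient.mk r x)) :=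
  H.exists_tw (Quotient.out_eq (Quotient.mk r x))

theorem exists_tau (w : Quotient r) (hw : m w = w) :
    ∃ τ : Γ, s (Quotient.out w) = tw τ (Quotient.out w) := by
  apply (H.fix_iff _).1
  rw [Quotient.out_eq]
  exact hw

end fixed

/-- A chosen element moving the representative of the place of `x` to `x`. -/
def gam (tw : Γ → X → X) (r : Setoid X) (x : X) : Γ :=
  open Classical in
  if h : ∃ γ : Γ, x = tw γ (Quotient.out (Quotient.mk r x)) then h.choose else 1

open Classical in
/-- A chosen `τ` with `s x = τ x` at the representative `x` of a fixed place. -/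
def tau (tw : Γ → X → X) (s : X → X) (r : Setoid X) (w : Quotient r) : Γ :=
  if h : ∃ τ : Γ, s (Quotient.out w) = tw τ (Quotient.out w) then h.choose else 1

section fixed2

variable (H : jcoh_Hyp tw s p r m)

include H

theorem gam_spec (x : X) : x = tw (gam tw r x) (Quotient.out (Quotient.mk r x)) := by
  unfold gam
  rw [dif_pos (H.exists_gam x)]
  exact (H.exists_gam x).choose_spec

theorem tau_spec (w : Quotient r) (hw : m w = w) :
    s (Quotient.out w) = tw (tau tw s r w) (Quotient.out w) := by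
  unfold tau
  rw [dif_pos (H.exists_tau w hw)]
  exact (H.exists_tau w hw).choose_spec

end fixed2

/-! ### Equivariant functions -/

variable {A : Type*} [CommGroup A] [MulDistribMulAction Γ A]

/-- Equivariant functions. -/
def IsEqv (tw : Γ → X → X) (f : X → A) : Prop := ∀ (γ : Γ) (x : X), f (tw γ x) = γ • f x

/-- The invariants of the stabiliser of `x`. -/
def IsInv (tw : Γ → X → X) (x : X) (a : A) : Prop := ∀ γ : Γ, tw γ x = x → γ • a = a

omit [MulDistribMulAction Γ A] in
theorem isEqv_iff (tw : Γ → X → X) [MulDistribMulAction Γ A] (f : X → A) :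
    IsEqv tw f ↔ ∀ (γ : Γ) (x : X), f (tw γ x) = γ • f x := Iff.rfl

theorem IsEqv.isInv {f : X → A} (hf : IsEqv tw f) (x : X) : IsInv tw x (f x) := by
  intro γ hγ
  rw [← hf, hγ]

theorem IsEqv.mul {f g : X → A} (hf : IsEqv tw f) (hg : IsEqv tw g) :
    IsEqv tw (fun x => f x * g x) := by
  intro γ x
  show f (tw γ x) * g (tw γ x) = γ • (f x * g x)
  rw [hf, hg, smul_mul']

open Classical in
/-- Extension of a family of local elements (one for each place) to a function supported on
the fixed places. -/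
def ext (tw : Γ → X → X) (r : Setoid X) (m : Quotient r → Quotient r) (b : Quotient r → A)
    (x : X) : A :=
  if m (Quotient.mk r x) = Quotient.mk r x then gam tw r x • b (Quotient.mk r x) else 1

section ext

variable (H : jcoh_Hyp tw s p r m)

include H

theorem ext_of_not_fix (b : Quotient r → A) {x : X}
    (hx : m (Quotient.mk r x) ≠ Quotient.mk r x) : ext tw r m b x = 1 := by
  unfold ext
  rw [if_neg hx]

/-- The value of the extension at `γ • (representative of w)`. -/
theorem ext_apply (b : Quotient r → A) (w : Quotient r) (hw : m w = w)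
    (hb : IsInv tw (Quotient.out w) (b w)) (γ : Γ) :
    ext tw r m b (tw γ (Quotient.out w)) = γ • b w := by
  have hmk : Quotient.mk r (tw γ (Quotient.out w)) = w := by
    rw [H.mk_tw, Quotient.out_eq]
  unfold ext
  rw [hmk, if_pos hw]
  have h1 := H.gam_spec (tw γ (Quotient.out w))
  rw [hmk] at h1
  -- `γ⁻¹ * gam` stabilises the representative
  have h2 : tw (γ⁻¹ * gam tw r (tw γ (Quotient.out w))) (Quotient.out w) = Quotient.out w := by
    rw [H.tw_mul, ← h1, ← H.tw_mul, inv_mul_cancel, H.tw_one]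
  have h3 := hb _ h2
  rw [mul_smul, inv_smul_eq_iff] at h3
  exact h3

theorem ext_isEqv (b : Quotient r → A)
    (hb : ∀ w, m w = w → IsInv tw (Quotient.out w) (b w)) : IsEqv tw (ext tw r m b) := by
  intro γ x
  by_cases hx : m (Quotient.mk r x) = Quotient.mk r x
  · have hx1 := H.gam_spec x
    set w := Quotient.mk r x with hw
    have e1 : tw γ x = tw (γ * gam tw r x) (Quotient.out w) := by
      rw [H.tw_mul, ← hx1]
    have e2 : ext tw r m b x = gam tw r x • b w := by
      conv_lhs => rw [hx1]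
      exact H.ext_apply b w hx (hb w hx) _
    rw [e1, H.ext_apply b w hx (hb w hx), e2, mul_smul]
  · rw [H.ext_of_not_fix b hx, H.ext_of_not_fix b (x := tw γ x) (by rw [H.mk_tw]; exact hx),
      smul_one]

theorem ext_mem (V : Subgroup A) (hV : ∀ (γ : Γ) (a : A), a ∈ V → γ • a ∈ V)
    (b : Quotient r → A) (hb : ∀ w, m w = w → b w ∈ V) (x : X) : ext tw r m b x ∈ V := by
  unfold ext
  split_ifs with h
  · exact hV _ _ (hb _ h)
  · exact V.one_mem

/-- The value of the extension at the translates of a point of a fixed place. -/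
theorem ext_iter (b : Quotient r → A)
    (hb : ∀ w, m w = w → IsInv tw (Quotient.out w) (b w))
    {x : X} (hx : m (Quotient.mk r x) = Quotient.mk r x) (k : ℕ) :
    ext tw r m b (s^[k] x) =
      gam tw r x • (tau tw s r (Quotient.mk r x) ^ k • b (Quotient.mk r x)) := by
  have hx1 := H.gam_spec x
  set w := Quotient.mk r x with hw
  have e1 : s^[k] x = tw (gam tw r x * tau tw s r w ^ k) (Quotient.out w) := by
    conv_lhs => rw [hx1]
    rw [H.s_iter_tw, H.s_iter_of_fix (H.tau_spec w hx), ← H.tw_mul]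
  rw [e1, H.ext_apply b w hx (hb w hx), mul_smul]

end ext

/-! ### The two constructions -/

section constructions

variable (H : jcoh_Hyp tw s p r m)

include H

theorem eqv_iter_of_fix {f : X → A} (hf : IsEqv tw f) {x : X} {τ : Γ} (hτ : s x = tw τ x)
    (k : ℕ) : f (s^[k] x) = τ ^ k • f x := by
  rw [H.s_iter_of_fix hτ, hf]

theorem eqv_iter_gam {f : X → A} (hf : IsEqv tw f)
    {x : X} (hx : m (Quotient.mk r x) = Quotient.mk r x) (k : ℕ) :
    f (s^[k] x) = gam tw r x •
      (tau tw s r (Quotient.mk r x) ^ k • f (Quotient.out (Quotient.mk r x))) := by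
  have hx1 := H.gam_spec x
  set w := Quotient.mk r x with hw
  conv_lhs => rw [hx1]
  rw [H.s_iter_tw, H.s_iter_of_fix (H.tau_spec w hx), ← H.tw_mul, hf, mul_smul]

/-- **Norm construction.**  If `f` is equivariant and `s`-invariant and its values at the
representatives of the fixed places are local norms `∏ τ^k • b w`, then `f` is a norm. -/
theorem exists_norm (V : Subgroup A) (hV : ∀ (γ : Γ) (a : A), a ∈ V → γ • a ∈ V)
    (f : X → A) (hf : IsEqv tw f) (hfV : ∀ x, f x ∈ V) (hfs : ∀ x, f (s x) = f x)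
    (b : Quotient r → A) (hbV : ∀ w, m w = w → b w ∈ V)
    (hb : ∀ w, m w = w → IsInv tw (Quotient.out w) (b w))
    (hbf : ∀ w, m w = w →
      f (Quotient.out w) = ∏ k ∈ range p, tau tw s r w ^ k • b w) :
    ∃ g : X → A, IsEqv tw g ∧ (∀ x, g x ∈ V) ∧ ∀ x, f x = ∏ k ∈ range p, g (s^[k] x) := by
  have hfk : ∀ (k : ℕ) (x : X), f (s^[k] x) = f x := by
    intro k x
    induction k with
    | zero => rfl
    | succ k ih => rw [Function.iterate_succ_apply', hfs, ih]
  refine ⟨fun x => ext tw r m b x * f x ^ ind m x, ?_, ?_, ?_⟩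
  · intro γ x
    show ext tw r m b (tw γ x) * f (tw γ x) ^ ind m (tw γ x) = γ • (ext tw r m b x * f x ^ ind m x)
    rw [H.ext_isEqv b hb, hf, H.ind_tw, smul_mul', smul_pow']
  · intro x
    exact V.mul_mem (H.ext_mem V hV b hbV x) (V.pow_mem (hfV x) _)
  · intro x
    show f x = ∏ k ∈ range p, (ext tw r m b (s^[k] x) * f (s^[k] x) ^ ind m (s^[k] x))
    rw [prod_mul_distrib]
    by_cases hx : m (Quotient.mk r x) = Quotient.mk r x
    · -- fixed place
      have h2 : ∏ k ∈ range p, f (s^[k] x) ^ ind m (s^[k] x) = 1 := by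
        refine prod_eq_one fun k _ => ?_
        rw [H.ind_iter_of_fix hx, pow_zero]
      have h1 : ∏ k ∈ range p, ext tw r m b (s^[k] x) = f x := by
        rw [prod_congr rfl fun k _ => H.ext_iter b hb hx k]
        rw [← smul_prod', ← hbf _ hx]
        have := H.eqv_iter_gam hf hx 0
        rw [pow_zero, one_smul] at this
        exact this.symm
      rw [h1, h2, mul_one]
    · -- free orbit
      have h1 : ∏ k ∈ range p, ext tw r m b (s^[k] x) = 1 := by
        refine prod_eq_one fun k _ => ?_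
        apply H.ext_of_not_fix
        rw [← H.m_iter]
        exact fun h => hx ((H.fix_iter_iff k _).1 h)
      have h2 : ∏ k ∈ range p, f (s^[k] x) ^ ind m (s^[k] x) = f x := by
        rw [prod_congr rfl fun k _ => by rw [hfk k x], prod_pow_eq_pow_sum, H.sum_ind hx, pow_one]
      rw [h1, h2, one_mul]

/-- The homotopy for `Ĥ⁻¹` on the free orbits. -/
def hom (s : X → X) (p : ℕ) (m : Quotient r → Quotient r) (f : X → A) (x : X) : A :=
  ∏ k ∈ range p, (∏ j ∈ Ico k p, f (s^[j] x)) ^ ind m (s^[k] x)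

theorem hom_isEqv {f : X → A} (hf : IsEqv tw f) : IsEqv tw (hom s p m f) := by
  intro γ x
  unfold hom
  rw [smul_prod']
  refine prod_congr rfl fun k _ => ?_
  rw [H.s_iter_tw, H.ind_tw, smul_pow', smul_prod']
  congr 1
  refine prod_congr rfl fun j _ => ?_
  rw [H.s_iter_tw, hf]

theorem hom_mem (V : Subgroup A) {f : X → A} (hfV : ∀ x, f x ∈ V) (x : X) :
    hom s p m f x ∈ V :=
  V.prod_mem fun _ _ => V.pow_mem (V.prod_mem fun _ _ => hfV _) _

theorem hom_of_fix (f : X → A) {x : X} (hx : m (Quotient.mk r x) = Quotient.mk r x) :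
    hom s p m f x = 1 := by
  unfold hom
  refine prod_eq_one fun k _ => ?_
  rw [H.ind_iter_of_fix hx, pow_zero]

theorem hom_s (f : X → A) (hN : ∀ x, ∏ k ∈ range p, f (s^[k] x) = 1) {x : X}
    (hx : m (Quotient.mk r x) ≠ Quotient.mk r x) :
    hom s p m f (s x) = f x * hom s p m f x := by
  have hp := H.prime.pos
  -- `Q k = ∏_{j ∈ [k, p)} f (s^j x)`
  set Q : ℕ → A := fun k => ∏ j ∈ Ico k p, f (s^[j] x) with hQ
  have hQ0 : Q 0 = 1 := by
    show ∏ j ∈ Ico 0 p, f (s^[j] x) = 1
    rw [← hN x, Nat.Ico_zero_eq_range]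
  have hQp : Q p = 1 := by
    show ∏ j ∈ Ico p p, f (s^[j] x) = 1
    rw [Ico_self, prod_empty]
  have hshift : ∀ k, k < p → ∏ j ∈ Ico k p, f (s^[j] (s x)) = Q (k + 1) * f x := by
    intro k hk
    have e1 : ∏ j ∈ Ico k p, f (s^[j] (s x)) = ∏ j ∈ Ico (k + 1) (p + 1), f (s^[j] x) := by
      rw [← prod_Ico_add' (fun j => f (s^[j] x)) k p 1]
      refine prod_congr rfl fun j _ => ?_
      rw [Function.iterate_succ_apply]
    rw [e1, prod_Ico_succ_top (by omega), H.s_pow]
  have e2 : hom s p m f (s x) = ∏ k ∈ range p, (Q (k + 1) * f x) ^ ind m (s^[k + 1] x) := by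
    unfold hom
    refine prod_congr rfl fun k hk => ?_
    rw [hshift k (mem_range.1 hk), Function.iterate_succ_apply]
  rw [e2]
  simp only [mul_pow]
  rw [prod_mul_distrib, prod_pow_eq_pow_sum, H.sum_ind_succ hx, pow_one, mul_comm]
  congr 1
  -- reindex
  have e3 : (∏ k ∈ range p, Q (k + 1) ^ ind m (s^[k + 1] x)) * Q 0 ^ ind m (s^[0] x) =
      ∏ k ∈ range (p + 1), Q k ^ ind m (s^[k] x) :=
    (prod_range_succ' (fun k => Q k ^ ind m (s^[k] x)) p).symm
  have e4 : ∏ k ∈ range (p + 1), Q k ^ ind m (s^[k] x) =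
      (∏ k ∈ range p, Q k ^ ind m (s^[k] x)) * Q p ^ ind m (s^[p] x) :=
    prod_range_succ _ p
  rw [hQ0, one_pow, mul_one] at e3
  rw [hQp, one_pow, mul_one] at e4
  rw [e3, e4]
  rfl

/-- **Hilbert 90 construction.**  If `f` is equivariant of norm `1` and its values at the
representatives of the fixed places are local coboundaries `τ • b w / b w`, then
`f = (g ∘ s) / g`. -/
theorem exists_del (V : Subgroup A) (hV : ∀ (γ : Γ) (a : A), a ∈ V → γ • a ∈ V)
    (f : X → A) (hf : IsEqv tw f) (hfV : ∀ x, f x ∈ V)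
    (hN : ∀ x, ∏ k ∈ range p, f (s^[k] x) = 1)
    (b : Quotient r → A) (hbV : ∀ w, m w = w → b w ∈ V)
    (hb : ∀ w, m w = w → IsInv tw (Quotient.out w) (b w))
    (hbf : ∀ w, m w = w → f (Quotient.out w) = tau tw s r w • b w / b w) :
    ∃ g : X → A, IsEqv tw g ∧ (∀ x, g x ∈ V) ∧ ∀ x, f x = g (s x) / g x := by
  refine ⟨fun x => ext tw r m b x * hom s p m f x, ?_, ?_, ?_⟩
  · intro γ x
    show ext tw r m b (tw γ x) * hom s p m f (tw γ x) = γ • (ext tw r m b x * hom s p m f x)
    rw [H.ext_isEqv b hb, H.hom_isEqv hf, smul_mul']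
  · intro x
    exact V.mul_mem (H.ext_mem V hV b hbV x) (H.hom_mem V hfV x)
  · intro x
    show f x = ext tw r m b (s x) * hom s p m f (s x) / (ext tw r m b x * hom s p m f x)
    by_cases hx : m (Quotient.mk r x) = Quotient.mk r x
    · have hsx : m (Quotient.mk r (s x)) = Quotient.mk r (s x) := by
        rw [← H.m_mk]; exact (H.fix_m_iff _).2 hx
      rw [H.hom_of_fix f hx, H.hom_of_fix f hsx, mul_one, mul_one]
      have h1 := H.ext_iter b hb hx 1
      have h0 := H.ext_iter b hb hx 0
      rw [Function.iterate_one, pow_one] at h1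
      rw [Function.iterate_zero, id, pow_zero, one_smul] at h0
      rw [h1, h0, ← smul_div', ← hbf _ hx]
      have := H.eqv_iter_gam hf hx 0
      rw [pow_zero, one_smul] at this
      exact this
    · have hsx : m (Quotient.mk r (s x)) ≠ Quotient.mk r (s x) := by
        rw [← H.m_mk]; exact fun h => hx ((H.fix_m_iff _).1 h)
      rw [H.ext_of_not_fix b hx, H.ext_of_not_fix b hsx, one_mul, one_mul, H.hom_s f hN hx,
        mul_div_assoc, div_self', mul_one]

/-- **Hilbert 90, semi-local form**: from the local statement at the fixed places. -/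
theorem exists_del' (V : Subgroup A) (hV : ∀ (γ : Γ) (a : A), a ∈ V → γ • a ∈ V)
    (hloc : ∀ (x : X) (τ : Γ), s x = tw τ x → ∀ a ∈ V, IsInv tw x a →
      ∏ k ∈ range p, τ ^ k • a = 1 → ∃ b ∈ V, IsInv tw x b ∧ a = τ • b / b)
    (f : X → A) (hf : IsEqv tw f) (hfV : ∀ x, f x ∈ V)
    (hN : ∀ x, ∏ k ∈ range p, f (s^[k] x) = 1) :
    ∃ g : X → A, IsEqv tw g ∧ (∀ x, g x ∈ V) ∧ ∀ x, f x = g (s x) / g x := by
  classical
  have hex : ∀ w : Quotient r, ∃ b : A, m w = w →
      (b ∈ V ∧ IsInv tw (Quotient.out w) b ∧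
        f (Quotient.out w) = tau tw s r w • b / b) := by
    intro w
    by_cases hw : m w = w
    · have hτ := H.tau_spec w hw
      obtain ⟨b, hbV, hb, hab⟩ := hloc _ _ hτ (f (Quotient.out w)) (hfV _) (hf.isInv _) (by
        rw [← hN (Quotient.out w)]
        exact prod_congr rfl fun k _ => (H.eqv_iter_of_fix hf hτ k).symm)
      exact ⟨b, fun _ => ⟨hbV, hb, hab⟩⟩
    · exact ⟨1, fun h => absurd h hw⟩
  choose b hb using hex
  exact H.exists_del V hV f hf hfV hN b (fun w hw => (hb w hw).1) (fun w hw => (hb w hw).2.1)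
    (fun w hw => (hb w hw).2.2)

/-- **Norm surjectivity, semi-local form**: from the local statement at the fixed places. -/
theorem exists_norm' (V : Subgroup A) (hV : ∀ (γ : Γ) (a : A), a ∈ V → γ • a ∈ V)
    (hloc : ∀ (x : X) (τ : Γ), s x = tw τ x → ∀ a ∈ V, IsInv tw x a → τ • a = a →
      ∃ b ∈ V, IsInv tw x b ∧ a = ∏ k ∈ range p, τ ^ k • b)
    (f : X → A) (hf : IsEqv tw f) (hfV : ∀ x, f x ∈ V) (hfs : ∀ x, f (s x) = f x) :
    ∃ g : X → A, IsEqv tw g ∧ (∀ x, g x ∈ V) ∧ ∀ x, f x = ∏ k ∈ range p, g (s^[k] x) := by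
  classical
  have hex : ∀ w : Quotient r, ∃ b : A, m w = w →
      (b ∈ V ∧ IsInv tw (Quotient.out w) b ∧
        f (Quotient.out w) = ∏ k ∈ range p, tau tw s r w ^ k • b) := by
    intro w
    by_cases hw : m w = w
    · have hτ := H.tau_spec w hw
      obtain ⟨b, hbV, hb, hab⟩ := hloc _ _ hτ (f (Quotient.out w)) (hfV _) (hf.isInv _) (by
        rw [← hf, ← hτ, hfs])
      exact ⟨b, fun _ => ⟨hbV, hb, hab⟩⟩
    · exact ⟨1, fun h => absurd h hw⟩
  choose b hb using hex
  exact H.exists_norm V hV f hf hfV hfs b (fun w hw => (hb w hw).1) (fun w hw => (hb w hw).2.1)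
    (fun w hw => (hb w hw).2.2)

/-- **The semi-local norm residue map**: from local characters at the fixed places. -/
theorem exists_phi
    (hloc : ∀ (x : X) (τ : Γ), s x = tw τ x → ∃ φ : A → ZMod p,
      (∀ a b, IsInv tw x a → IsInv tw x b → τ • a = a → τ • b = b → φ (a * b) = φ a + φ b) ∧
      (∀ t : ZMod p, ∃ a, IsInv tw x a ∧ τ • a = a ∧ φ a = t) ∧
      (∀ a, IsInv tw x a → τ • a = a →
        (φ a = 0 ↔ ∃ b, IsInv tw x b ∧ a = ∏ k ∈ range p, τ ^ k • b))) :
    ∃ Φ : (X → A) → ({w : Quotient r // m w = w} → ZMod p),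
      (∀ f g, IsEqv tw f → IsEqv tw g → (∀ x, f (s x) = f x) → (∀ x, g (s x) = g x) →
        Φ (fun x => f x * g x) = Φ f + Φ g) ∧
      (∀ t, ∃ f, IsEqv tw f ∧ (∀ x, f (s x) = f x) ∧ Φ f = t) ∧
      (∀ f, IsEqv tw f → (∀ x, f (s x) = f x) →
        (Φ f = 0 ↔ ∃ g, IsEqv tw g ∧ ∀ x, f x = ∏ k ∈ range p, g (s^[k] x))) := by
  classical
  have hex : ∀ w : {w : Quotient r // m w = w}, ∃ φ : A → ZMod p,
      (∀ a b, IsInv tw (Quotient.out w.1) a → IsInv tw (Quotient.out w.1) b →
        tau tw s r w.1 • a = a → tau tw s r w.1 • b = b → φ (a * b) = φ a + φ b) ∧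
      (∀ t : ZMod p, ∃ a, IsInv tw (Quotient.out w.1) a ∧ tau tw s r w.1 • a = a ∧ φ a = t) ∧
      (∀ a, IsInv tw (Quotient.out w.1) a → tau tw s r w.1 • a = a →
        (φ a = 0 ↔ ∃ b, IsInv tw (Quotient.out w.1) b ∧
          a = ∏ k ∈ range p, tau tw s r w.1 ^ k • b)) :=
    fun w => hloc _ _ (H.tau_spec w.1 w.2)
  choose φ hφ using hex
  -- the value at the representative of a fixed place is `τ`-invariant
  have hfix : ∀ (f : X → A), IsEqv tw f → (∀ x, f (s x) = f x) →
      ∀ w : {w : Quotient r // m w = w},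
        tau tw s r w.1 • f (Quotient.out w.1) = f (Quotient.out w.1) := by
    intro f hf hfs w
    rw [← hf, ← H.tau_spec w.1 w.2, hfs]
  refine ⟨fun f w => φ w (f (Quotient.out w.1)), ?_, ?_, ?_⟩
  · intro f g hf hg hfs hgs
    funext w
    exact (hφ w).1 _ _ (hf.isInv _) (hg.isInv _) (hfix f hf hfs w) (hfix g hg hgs w)
  · intro t
    have hex2 : ∀ w : Quotient r, ∃ a : A, ∀ hw : m w = w,
        (IsInv tw (Quotient.out w) a ∧ tau tw s r w • a = a ∧ φ ⟨w, hw⟩ a = t ⟨w, hw⟩) := by
      intro w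
      by_cases hw : m w = w
      · obtain ⟨a, ha1, ha2, ha3⟩ := (hφ ⟨w, hw⟩).2.1 (t ⟨w, hw⟩)
        exact ⟨a, fun _ => ⟨ha1, ha2, ha3⟩⟩
      · exact ⟨1, fun h => absurd h hw⟩
    choose a ha using hex2
    have haI : ∀ w, m w = w → IsInv tw (Quotient.out w) (a w) := fun w hw => (ha w hw).1
    refine ⟨ext tw r m a, H.ext_isEqv a haI, ?_, ?_⟩
    · intro x
      by_cases hx : m (Quotient.mk r x) = Quotient.mk r x
      · have h1 := H.ext_iter a haI hx 1
        have h0 := H.ext_iter a haI hx 0
        rw [Function.iterate_one, pow_one] at h1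
        rw [Function.iterate_zero, id, pow_zero, one_smul] at h0
        rw [h1, h0, (ha _ hx).2.1]
      · have hsx : m (Quotient.mk r (s x)) ≠ Quotient.mk r (s x) := by
          rw [← H.m_mk]; exact fun h => hx ((H.fix_m_iff _).1 h)
        rw [H.ext_of_not_fix a hx, H.ext_of_not_fix a hsx]
    · funext w
      show φ w (ext tw r m a (Quotient.out w.1)) = t w
      have h1 := H.ext_apply a w.1 w.2 (haI w.1 w.2) 1
      rw [H.tw_one, one_smul] at h1
      rw [h1]
      exact (ha w.1 w.2).2.2
  · intro f hf hfs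
    constructor
    · intro h0
      have hex2 : ∀ w : Quotient r, ∃ b : A, m w = w →
          (b ∈ (⊤ : Subgroup A) ∧ IsInv tw (Quotient.out w) b ∧
            f (Quotient.out w) = ∏ k ∈ range p, tau tw s r w ^ k • b) := by
        intro w
        by_cases hw : m w = w
        · have h1 : φ ⟨w, hw⟩ (f (Quotient.out w)) = 0 := congrFun h0 ⟨w, hw⟩
          obtain ⟨b, hb1, hb2⟩ :=
            ((hφ ⟨w, hw⟩).2.2 _ (hf.isInv _) (hfix f hf hfs ⟨w, hw⟩)).1 h1
          exact ⟨b, fun _ => ⟨Subgroup.mem_top _, hb1, hb2⟩⟩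
        · exact ⟨1, fun h => absurd h hw⟩
      choose b hb using hex2
      obtain ⟨g, hg, -, hfg⟩ := H.exists_norm (⊤ : Subgroup A) (fun _ _ _ => Subgroup.mem_top _)
        f hf (fun _ => Subgroup.mem_top _) hfs b (fun w hw => (hb w hw).1)
        (fun w hw => (hb w hw).2.1) (fun w hw => (hb w hw).2.2)
      exact ⟨g, hg, hfg⟩
    · rintro ⟨g, hg, hfg⟩
      funext w
      show φ w (f (Quotient.out w.1)) = 0
      refine ((hφ w).2.2 _ (hf.isInv _) (hfix f hf hfs w)).2 ⟨g (Quotient.out w.1), hg.isInv _, ?_⟩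
      rw [hfg]
      exact prod_congr rfl fun k _ => H.eqv_iter_of_fix hg (H.tau_spec w.1 w.2) k

end constructions

end jcoh_Hyp

end

end Fermat.Agent.S55
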