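/-
S55 (fifth wave), GLOBAL side, package [J-COH] part 3 (helper21): the semi-local component
`gl_Jq q F` as an instance of the abstract calculus of `JCohAbs.lean`, the stabiliser of an
embedding (an open subgroup of the local Galois group), and the local layer attached to an
embedding whose place is fixed by `σ`.
-/
import Fermat.Agent.S55.Global.JCohDefs
import Fermat.Agent.S55.Global.JCohAbs

set_option autoImplicit false

namespace Fermat.Agent.S55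

open Finset

noncomputable section

section setting

variable (q : ℕ) [Fact q.Prime] (F : Type) [Field F] [Algebra ℚ F]

/-- The shift of the embeddings by `σ`. -/
def jcoh_sh (σ : F ≃ₐ[ℚ] F) (ι : F →ₐ[ℚ] PadicAlgCl q) : F →ₐ[ℚ] PadicAlgCl q :=
  ι.comp (σ : F →ₐ[ℚ] F)

@[simp] theorem jcoh_sh_apply (σ : F ≃ₐ[ℚ] F) (ι : F →ₐ[ℚ] PadicAlgCl q) (x : F) :
    jcoh_sh q F σ ι x = ι (σ x) := rfl

theorem jcoh_sh_iter (σ : F ≃ₐ[ℚ] F) (k : ℕ) (ι : F →ₐ[ℚ] PadicAlgCl q) :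
    (jcoh_sh q F σ)^[k] ι = ι.comp ((σ ^ k : F ≃ₐ[ℚ] F) : F →ₐ[ℚ] F) := by
  induction k generalizing ι with
  | zero =>
    ext x
    show ι x = ι ((σ ^ 0) x)
    rw [pow_zero]; rfl
  | succ k ih =>
    rw [Function.iterate_succ_apply, ih]
    ext x
    show ι (σ ((σ ^ k) x)) = ι ((σ ^ (k + 1)) x)
    rw [pow_succ']; rfl

/-- The semi-local component at `q` is an instance of the abstract setting. -/
theorem jcoh_hyp (σ : F ≃ₐ[ℚ] F) (p : ℕ) (hp : p.Prime) (hσ : σ ^ p = 1) :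
    jcoh_Hyp (gl_twist q F) (jcoh_sh q F σ) p (gl_placeSetoid q F) (gl_placeMap q F σ) where
  tw_one := gl_twist_one q F
  tw_mul := gl_twist_mul q F
  s_tw := fun _ _ => rfl
  s_pow := fun ι => by
    rw [jcoh_sh_iter, hσ]
    ext x; rfl
  prime := hp
  r_iff := fun _ _ => Iff.rfl
  m_mk := fun _ => rfl

/-- The elements of `gl_Jq` are the equivariant functions. -/
theorem jcoh_isEqv (f : gl_Jq q F) : jcoh_Hyp.IsEqv (gl_twist q F) f.1 :=
  fun γ ι => f.2 γ ι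

/-- An equivariant function as an element of `gl_Jq`. -/
def jcoh_mk (g : (F →ₐ[ℚ] PadicAlgCl q) → (PadicAlgCl q)ˣ)
    (hg : jcoh_Hyp.IsEqv (gl_twist q F) g) : gl_Jq q F :=
  ⟨g, fun γ ι => hg γ ι⟩

@[simp] theorem jcoh_mk_apply (g : (F →ₐ[ℚ] PadicAlgCl q) → (PadicAlgCl q)ˣ)
    (hg : jcoh_Hyp.IsEqv (gl_twist q F) g) (ι : F →ₐ[ℚ] PadicAlgCl q) :
    (jcoh_mk q F g hg).1 ι = g ι := rfl

theorem jcoh_pow_smul_apply (σ : F ≃ₐ[ℚ] F) (k : ℕ) (f : gl_Jq q F)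
    (ι : F →ₐ[ℚ] PadicAlgCl q) : (σ ^ k • f).1 ι = f.1 ((jcoh_sh q F σ)^[k] ι) := by
  rw [jcoh_sh_iter]; rfl

theorem jcoh_nrm_apply (σ : F ≃ₐ[ℚ] F) (p : ℕ) (f : gl_Jq q F) (ι : F →ₐ[ℚ] PadicAlgCl q) :
    (∏ k ∈ range p, σ ^ k • f).1 ι = ∏ k ∈ range p, f.1 ((jcoh_sh q F σ)^[k] ι) := by
  rw [Subgroup.val_finsetProd, Finset.prod_apply]
  exact prod_congr rfl fun k _ => jcoh_pow_smul_apply q F σ k f ι

/-- The norm on `Ω_q` is invariant under the local Galois group. -/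
theorem jcoh_norm_aut (γ : gl_GQq q) (x : PadicAlgCl q) : ‖γ x‖ = ‖x‖ := by
  rw [← PadicAlgCl.spectralNorm_eq, ← PadicAlgCl.spectralNorm_eq]
  exact (spectralNorm_eq_of_equiv γ x).symm

/-- The units of norm `1` of `Ω_q`. -/
def jcoh_units : Subgroup (PadicAlgCl q)ˣ where
  carrier := {a | ‖(a : PadicAlgCl q)‖ = 1}
  one_mem' := by simp
  mul_mem' := fun {a b} ha hb => by
    have h1 : ‖(a : PadicAlgCl q)‖ = 1 := ha
    have h2 : ‖(b : PadicAlgCl q)‖ = 1 := hb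
    show ‖((a * b : (PadicAlgCl q)ˣ) : PadicAlgCl q)‖ = 1
    rw [Units.val_mul, norm_mul, h1, h2, mul_one]
  inv_mem' := fun {a} ha => by
    have h1 : ‖(a : PadicAlgCl q)‖ = 1 := ha
    show ‖((a⁻¹ : (PadicAlgCl q)ˣ) : PadicAlgCl q)‖ = 1
    rw [Units.val_inv_eq_inv_val, norm_inv, h1, inv_one]

theorem jcoh_mem_units_iff (a : (PadicAlgCl q)ˣ) :
    a ∈ jcoh_units q ↔ ‖(a : PadicAlgCl q)‖ = 1 := Iff.rfl

theorem jcoh_smul_mem_units (γ : gl_GQq q) (a : (PadicAlgCl q)ˣ) (ha : a ∈ jcoh_units q) :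
    γ • a ∈ jcoh_units q := by
  show ‖γ (a : PadicAlgCl q)‖ = 1
  rw [jcoh_norm_aut]
  exact ha

theorem jcoh_mem_Uq_iff (f : gl_Jq q F) :
    f ∈ gl_Uq q F ↔ ∀ ι, f.1 ι ∈ jcoh_units q := Iff.rfl

/-- The stabiliser of an embedding: `Gal(Ω_q / ℚ_q · ι(F))`. -/
def jcoh_stab (ι : F →ₐ[ℚ] PadicAlgCl q) : Subgroup (lcf_Gal q) where
  carrier := {γ | gl_twist q F γ ι = ι}
  one_mem' := gl_twist_one q F ι
  mul_mem' := fun {a b} ha hb => by
    show gl_twist q F (a * b) ι = ι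
    rw [gl_twist_mul]
    have hb' : gl_twist q F b ι = ι := hb
    rw [hb']
    exact ha
  inv_mem' := fun {a} ha => by
    show gl_twist q F a⁻¹ ι = ι
    have ha' : gl_twist q F a ι = ι := ha
    conv_lhs => rw [← ha']
    rw [← gl_twist_mul, inv_mul_cancel, gl_twist_one]

theorem jcoh_mem_stab_iff (ι : F →ₐ[ℚ] PadicAlgCl q) (γ : lcf_Gal q) :
    γ ∈ jcoh_stab q F ι ↔ gl_twist q F γ ι = ι := Iff.rfl

theorem jcoh_isInv_iff (ι : F →ₐ[ℚ] PadicAlgCl q) (a : (PadicAlgCl q)ˣ) :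
    jcoh_Hyp.IsInv (gl_twist q F) ι a ↔ a ∈ jcoh_fix (jcoh_stab q F ι) := Iff.rfl

end setting

section numberfield

variable (q : ℕ) [Fact q.Prime] (F : Type) [Field F] [NumberField F]

/-- A finite set generating the image of `ι`. -/
def jcoh_gens (ι : F →ₐ[ℚ] PadicAlgCl q) : Set (PadicAlgCl q) :=
  Set.range fun i : Fin (Module.finrank ℚ F) => ι (Module.finBasis ℚ F i)

instance jcoh_gens_finite (ι : F →ₐ[ℚ] PadicAlgCl q) : Finite (jcoh_gens q F ι) :=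
  Set.finite_range _

/-- The field `ℚ_q · ι(F)`. -/
def jcoh_field (ι : F →ₐ[ℚ] PadicAlgCl q) : IntermediateField ℚ_[q] (PadicAlgCl q) :=
  IntermediateField.adjoin ℚ_[q] (jcoh_gens q F ι)

theorem jcoh_field_finite (ι : F →ₐ[ℚ] PadicAlgCl q) :
    FiniteDimensional ℚ_[q] (jcoh_field q F ι) :=
  IntermediateField.finiteDimensional_adjoin fun x _ =>
    (Algebra.IsAlgebraic.isAlgebraic x).isIntegral

theorem jcoh_fixing_le_stab (ι : F →ₐ[ℚ] PadicAlgCl q) :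
    (jcoh_field q F ι).fixingSubgroup ≤ jcoh_stab q F ι := by
  intro g hg
  rw [IntermediateField.mem_fixingSubgroup_iff] at hg
  show gl_twist q F g ι = ι
  apply AlgHom.toLinearMap_injective
  refine (Module.finBasis ℚ F).ext fun i => ?_
  show g (ι (Module.finBasis ℚ F i)) = ι (Module.finBasis ℚ F i)
  exact hg _ (IntermediateField.subset_adjoin _ _ ⟨i, rfl⟩)

/-- The stabiliser of an embedding of a number field is open. -/
theorem jcoh_stab_isOpen (ι : F →ₐ[ℚ] PadicAlgCl q) : lcf_IsOpen (jcoh_stab q F ι) :=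
  ⟨jcoh_field q F ι, jcoh_field_finite q F ι, jcoh_fixing_le_stab q F ι⟩

/-- An element fixed by the stabiliser lies in `ℚ_q · ι(F)`. -/
theorem jcoh_mem_field_of_fix (ι : F →ₐ[ℚ] PadicAlgCl q) (a : (PadicAlgCl q)ˣ)
    (ha : a ∈ jcoh_fix (jcoh_stab q F ι)) : (a : PadicAlgCl q) ∈ jcoh_field q F ι := by
  rw [← InfiniteGalois.fixedField_fixingSubgroup (jcoh_field q F ι),
    IntermediateField.mem_fixedField_iff]
  intro g hg
  exact congrArg Units.val (ha g (jcoh_fixing_le_stab q F ι hg))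

/-- `ι(F)` is dense in `ℚ_q · ι(F)`. -/
theorem jcoh_dense (ι : F →ₐ[ℚ] PadicAlgCl q) (x : PadicAlgCl q) (hx : x ∈ jcoh_field q F ι)
    (ε : ℝ) (hε : 0 < ε) : ∃ y : F, ‖x - ι y‖ < ε := by
  have h1 : x ∈ Algebra.adjoin ℚ_[q] (jcoh_gens q F ι) := by
    have := IntermediateField.adjoin_toSubalgebra (F := ℚ_[q]) (jcoh_gens q F ι)
    rw [← this]
    exact hx
  have h2 : x ∈ Algebra.adjoin ℚ_[q] (Set.range ι) := by
    refine Algebra.adjoin_mono ?_ h1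
    rintro _ ⟨i, rfl⟩
    exact ⟨_, rfl⟩
  have h3 : x ∈ Submodule.span ℚ_[q] (Set.range ι) := by
    have h4 : (Submonoid.closure (Set.range ι) : Set (PadicAlgCl q)) = Set.range ι := by
      have : Set.range ι = (MonoidHom.mrange (ι : F →* PadicAlgCl q) : Set (PadicAlgCl q)) := rfl
      rw [this, Submonoid.closure_eq]
    have h5 := Algebra.adjoin_eq_span ℚ_[q] (Set.range ι)
    rw [h4] at h5
    rw [← h5]
    exact h2
  clear h1 h2 hx
  revert ε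
  induction h3 using Submodule.span_induction with
  | mem x hx =>
    intro ε hε
    obtain ⟨y, rfl⟩ := hx
    exact ⟨y, by rw [sub_self, norm_zero]; exact hε⟩
  | zero =>
    intro ε hε
    exact ⟨0, by rw [map_zero, sub_self, norm_zero]; exact hε⟩
  | add x₁ x₂ _ _ ih₁ ih₂ =>
    intro ε hε
    obtain ⟨y₁, hy₁⟩ := ih₁ ε hε
    obtain ⟨y₂, hy₂⟩ := ih₂ ε hε
    refine ⟨y₁ + y₂, ?_⟩
    have e : x₁ + x₂ - ι (y₁ + y₂) = (x₁ - ι y₁) + (x₂ - ι y₂) := by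
      rw [map_add]; ring
    rw [e]
    exact lt_of_le_of_lt (IsUltrametricDist.norm_add_le_max _ _) (max_lt hy₁ hy₂)
  | smul c x _ ih =>
    intro ε hε
    have hc : 0 < ‖c‖ + 1 := by positivity
    obtain ⟨y, hy⟩ := ih (ε / (‖c‖ + 1)) (div_pos hε hc)
    have hy0 : 0 < ‖ι y‖ + 1 := by positivity
    obtain ⟨r, hr⟩ := Padic.rat_dense q c (div_pos hε hy0)
    refine ⟨algebraMap ℚ F r * y, ?_⟩
    have e1 : ι (algebraMap ℚ F r * y) = algebraMap ℚ_[q] (PadicAlgCl q) (r : ℚ_[q]) * ι y := by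
      rw [map_mul, AlgHom.commutes, eq_ratCast, map_ratCast]
    have e : c • x - ι (algebraMap ℚ F r * y) =
        algebraMap ℚ_[q] (PadicAlgCl q) c * (x - ι y) +
          algebraMap ℚ_[q] (PadicAlgCl q) (c - r) * ι y := by
      rw [e1, Algebra.smul_def, map_sub]; ring
    rw [e]
    refine lt_of_le_of_lt (IsUltrametricDist.norm_add_le_max _ _) (max_lt ?_ ?_)
    · rw [norm_mul, PadicAlgCl.norm_extends]
      calc ‖c‖ * ‖x - ι y‖ ≤ ‖c‖ * (ε / (‖c‖ + 1)) :=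
            mul_le_mul_of_nonneg_left hy.le (norm_nonneg _)
        _ < (‖c‖ + 1) * (ε / (‖c‖ + 1)) :=
            mul_lt_mul_of_pos_right (by linarith) (div_pos hε hc)
        _ = ε := by field_simp
    · rw [norm_mul, PadicAlgCl.norm_extends]
      calc ‖c - r‖ * ‖ι y‖ ≤ (ε / (‖ι y‖ + 1)) * ‖ι y‖ :=
            mul_le_mul_of_nonneg_right hr.le (norm_nonneg _)
        _ < (ε / (‖ι y‖ + 1)) * (‖ι y‖ + 1) :=
            mul_lt_mul_of_pos_left (by linarith) (div_pos hε hy0)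
        _ = ε := by field_simp

/-- In an unramified field the value group of `ℚ_q · ι(F)` is `q^ℤ`. -/
theorem jcoh_val (hun : gl_UnramAt q F) (ι : F →ₐ[ℚ] PadicAlgCl q) (a : (PadicAlgCl q)ˣ)
    (ha : a ∈ jcoh_fix (jcoh_stab q F ι)) : ∃ n : ℤ, ‖(a : PadicAlgCl q)‖ = (q : ℝ) ^ n := by
  have hx := jcoh_mem_field_of_fix q F ι a ha
  have ha0 : 0 < ‖(a : PadicAlgCl q)‖ := norm_pos_iff.2 a.ne_zero
  obtain ⟨y, hy⟩ := jcoh_dense q F ι a hx _ ha0
  have hnorm : ‖ι y‖ = ‖(a : PadicAlgCl q)‖ := by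
    have h1 : ‖ι y‖ ≤ max ‖(a : PadicAlgCl q) - ι y‖ ‖(a : PadicAlgCl q)‖ := by
      have e : ι y = -((a : PadicAlgCl q) - ι y) + a := by ring
      calc ‖ι y‖ = ‖-((a : PadicAlgCl q) - ι y) + a‖ := by rw [← e]
        _ ≤ max ‖-((a : PadicAlgCl q) - ι y)‖ ‖(a : PadicAlgCl q)‖ :=
            IsUltrametricDist.norm_add_le_max _ _
        _ = _ := by rw [norm_neg]
    have h2 : ‖(a : PadicAlgCl q)‖ ≤ max ‖(a : PadicAlgCl q) - ι y‖ ‖ι y‖ := by
      have e : (a : PadicAlgCl q) = ((a : PadicAlgCl q) - ι y) + ι y := by ring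
      calc ‖(a : PadicAlgCl q)‖ = ‖((a : PadicAlgCl q) - ι y) + ι y‖ := by rw [← e]
        _ ≤ _ := IsUltrametricDist.norm_add_le_max _ _
    apply le_antisymm
    · exact h1.trans (max_le hy.le le_rfl)
    · rcases le_max_iff.1 h2 with h | h
      · exact absurd h (not_le.2 hy)
      · exact h
  have hy0 : y ≠ 0 := by
    rintro rfl
    rw [map_zero, norm_zero] at hnorm
    exact ha0.ne hnorm
  obtain ⟨n, hn⟩ := hun ι y hy0
  exact ⟨n, by rw [← hnorm, hn]⟩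

/-- The local layer attached to an embedding whose place is fixed by `σ`. -/
theorem jcoh_isLayer (σ : F ≃ₐ[ℚ] F) (p : ℕ) (hp : p.Prime) (hσ : orderOf σ = p)
    (ι : F →ₐ[ℚ] PadicAlgCl q) (τ : lcf_Gal q) (h : jcoh_sh q F σ ι = gl_twist q F τ ι) :
    jcoh_IsLayer p (jcoh_stab q F ι) τ where
  isOpen := jcoh_stab_isOpen q F ι
  conj_mem := by
    intro g hg
    have hτ : ∀ x, τ (ι x) = ι (σ x) := fun x => (DFunLike.congr_fun h x).symm
    have hτinv : ∀ x, τ⁻¹ (ι x) = ι (σ⁻¹ x) := by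
      intro x
      have h1 := hτ (σ⁻¹ x)
      rw [show σ (σ⁻¹ x) = x from σ.apply_symm_apply x] at h1
      rw [← h1]
      exact τ.symm_apply_apply _
    have hg' : ∀ x, g (ι x) = ι x := fun x => DFunLike.congr_fun hg x
    show gl_twist q F (τ * g * τ⁻¹) ι = ι
    ext x
    show τ (g (τ⁻¹ (ι x))) = ι x
    rw [hτinv, hg', hτ]
    exact congrArg ι (σ.apply_symm_apply x)
  pow_mem := by
    show gl_twist q F (τ ^ p) ι = ι
    have H := jcoh_hyp q F σ p hp (hσ ▸ pow_orderOf_eq_one σ)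
    rw [← H.s_iter_of_fix h p, H.s_pow]
  not_mem := by
    intro hmem
    have h1 : gl_twist q F τ ι = ι := hmem
    rw [← h] at h1
    have h2 : σ = 1 := by
      ext x
      apply ι.injective
      exact DFunLike.congr_fun h1 x
    rw [h2, orderOf_one] at hσ
    exact hp.one_lt.ne hσ

/-- The prime `q` as a unit of `Ω_q`. -/
def jcoh_qU : (PadicAlgCl q)ˣ :=
  Units.mk0 (algebraMap ℚ_[q] (PadicAlgCl q) (q : ℚ_[q])) (by
    rw [Ne, map_eq_zero]
    exact_mod_cast (Fact.out : q.Prime).ne_zero)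

theorem jcoh_smul_qU (γ : lcf_Gal q) : γ • jcoh_qU q = jcoh_qU q :=
  Units.ext (γ.commutes _)

theorem jcoh_norm_qU : ‖(jcoh_qU q : PadicAlgCl q)‖ = ((q : ℝ))⁻¹ := by
  show ‖algebraMap ℚ_[q] (PadicAlgCl q) (q : ℚ_[q])‖ = _
  rw [PadicAlgCl.norm_extends, Padic.norm_p]

theorem jcoh_qU_mem_fix (U : Subgroup (lcf_Gal q)) : jcoh_qU q ∈ jcoh_fix U :=
  fun g _ => jcoh_smul_qU q g

/-- Scaling an element whose norm is a power of `q` to a unit. -/
theorem jcoh_exists_scale (b : (PadicAlgCl q)ˣ) (n : ℤ)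
    (hn : ‖(b : PadicAlgCl q)‖ = (q : ℝ) ^ n) :
    ‖((b * jcoh_qU q ^ n : (PadicAlgCl q)ˣ) : PadicAlgCl q)‖ = 1 := by
  have hq : (q : ℝ) ≠ 0 := by exact_mod_cast (Fact.out : q.Prime).ne_zero
  rw [Units.val_mul, norm_mul, Units.val_zpow_eq_zpow_val, norm_zpow, jcoh_norm_qU, hn,
    inv_zpow, mul_inv_cancel₀ (zpow_ne_zero n hq)]

/-! ### The semi-local statements -/

section semilocal

variable (σ : F ≃ₐ[ℚ] F) (p : ℕ) (hp : p.Prime) (hσ : orderOf σ = p)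

include hp hσ

/-- **Semi-local Hilbert 90.** -/
theorem jcoh_semi_del (hH : jcoh_LocH90Statement) (f : gl_Jq q F)
    (hN : ∏ k ∈ range p, σ ^ k • f = 1) : ∃ g : gl_Jq q F, f = σ • g / g := by
  have H := jcoh_hyp q F σ p hp (hσ ▸ pow_orderOf_eq_one σ)
  obtain ⟨g, hg, -, hfg⟩ := H.exists_del' (⊤ : Subgroup (PadicAlgCl q)ˣ)
    (fun _ _ _ => Subgroup.mem_top _)
    (fun x τ hτ a _ ha hNa => by
      obtain ⟨b, hb, hab⟩ := hH q p hp (jcoh_stab q F x) τ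
        (jcoh_isLayer q F σ p hp hσ x τ hτ) a ha hNa
      exact ⟨b, Subgroup.mem_top _, hb, hab⟩)
    f.1 (jcoh_isEqv q F f) (fun _ => Subgroup.mem_top _)
    (fun ι => by rw [← jcoh_nrm_apply, hN]; rfl)
  refine ⟨jcoh_mk q F g hg, ?_⟩
  apply Subtype.ext
  funext ι
  exact hfg ι

/-- **Semi-local Hilbert 90 for units** at an unramified prime. -/
theorem jcoh_semi_del_unit (hH : jcoh_LocH90Statement) (hun : gl_UnramAt q F) (f : gl_Jq q F)
    (hf : f ∈ gl_Uq q F) (hN : ∏ k ∈ range p, σ ^ k • f = 1) :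
    ∃ g : gl_Jq q F, g ∈ gl_Uq q F ∧ f = σ • g / g := by
  have H := jcoh_hyp q F σ p hp (hσ ▸ pow_orderOf_eq_one σ)
  obtain ⟨g, hg, hgV, hfg⟩ := H.exists_del' (jcoh_units q) (jcoh_smul_mem_units q)
    (fun x τ hτ a _ ha hNa => by
      obtain ⟨b, hb, hab⟩ := hH q p hp (jcoh_stab q F x) τ
        (jcoh_isLayer q F σ p hp hσ x τ hτ) a ha hNa
      obtain ⟨n, hn⟩ := jcoh_val q F hun x b hb
      refine ⟨b * jcoh_qU q ^ n, jcoh_exists_scale q b n hn,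
        (jcoh_fix (jcoh_stab q F x)).mul_mem hb
          ((jcoh_fix (jcoh_stab q F x)).zpow_mem (jcoh_qU_mem_fix q _) n), ?_⟩
      rw [smul_mul', smul_zpow', jcoh_smul_qU, mul_div_mul_right_eq_div]
      exact hab)
    f.1 (jcoh_isEqv q F f) hf
    (fun ι => by rw [← jcoh_nrm_apply, hN]; rfl)
  refine ⟨jcoh_mk q F g hg, hgV, ?_⟩
  apply Subtype.ext
  funext ι
  exact hfg ι

/-- **Semi-local norm surjectivity for units** at an unramified prime. -/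
theorem jcoh_semi_nrm_unit (hU : jcoh_LocUnrStatement) (hun : gl_UnramAt q F) (f : gl_Jq q F)
    (hf : f ∈ gl_Uq q F) (hfs : σ • f = f) :
    ∃ g : gl_Jq q F, g ∈ gl_Uq q F ∧ f = ∏ k ∈ range p, σ ^ k • g := by
  have H := jcoh_hyp q F σ p hp (hσ ▸ pow_orderOf_eq_one σ)
  obtain ⟨g, hg, hgV, hfg⟩ := H.exists_norm' (jcoh_units q) (jcoh_smul_mem_units q)
    (fun x τ hτ a haV ha hτa => by
      obtain ⟨b, hb, hb1, hab⟩ := hU q p hp (jcoh_stab q F x) τ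
        (jcoh_isLayer q F σ p hp hσ x τ hτ) (jcoh_val q F hun x) a ha hτa haV
      exact ⟨b, hb1, hb, hab⟩)
    f.1 (jcoh_isEqv q F f) hf
    (fun ι => by
      conv_rhs => rw [← hfs]
      rfl)
  refine ⟨jcoh_mk q F g hg, hgV, ?_⟩
  apply Subtype.ext
  funext ι
  rw [jcoh_nrm_apply]
  exact hfg ι

/-- **The semi-local norm residue map.** -/
theorem jcoh_semi_phi (hI : jcoh_LocIdxStatement) :
    ∃ Φ : gl_Jq q F → ({w : gl_Place q F // gl_placeMap q F σ w = w} → ZMod p),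
      (∀ f g, σ • f = f → σ • g = g → Φ (f * g) = Φ f + Φ g) ∧
      (∀ t, ∃ f, σ • f = f ∧ Φ f = t) ∧
      (∀ f, σ • f = f → (Φ f = 0 ↔ ∃ g : gl_Jq q F, f = ∏ k ∈ range p, σ ^ k • g)) := by
  have H := jcoh_hyp q F σ p hp (hσ ▸ pow_orderOf_eq_one σ)
  obtain ⟨Φ, h1, h2, h3⟩ := H.exists_phi (A := (PadicAlgCl q)ˣ)
    (fun x τ hτ => by
      obtain ⟨φ, hφ1, hφ2, hφ3⟩ := hI q p hp (jcoh_stab q F x) τ
        (jcoh_isLayer q F σ p hp hσ x τ hτ)
      exact ⟨φ, hφ1, hφ2, hφ3⟩)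
  have hinv : ∀ f : gl_Jq q F, σ • f = f → ∀ ι, f.1 (jcoh_sh q F σ ι) = f.1 ι := by
    intro f hf ι
    conv_rhs => rw [← hf]
    rfl
  refine ⟨fun f => Φ f.1, ?_, ?_, ?_⟩
  · intro f g hf hg
    exact h1 f.1 g.1 (jcoh_isEqv q F f) (jcoh_isEqv q F g) (hinv f hf) (hinv g hg)
  · intro t
    obtain ⟨f, hf, hfs, hft⟩ := h2 t
    refine ⟨jcoh_mk q F f hf, ?_, hft⟩
    apply Subtype.ext
    funext ι
    exact hfs ι
  · intro f hf
    refine Iff.trans (h3 f.1 (jcoh_isEqv q F f) (hinv f hf)) ?_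
    constructor
    · rintro ⟨g, hg, hfg⟩
      refine ⟨jcoh_mk q F g hg, ?_⟩
      apply Subtype.ext
      funext ι
      rw [jcoh_nrm_apply]
      exact hfg ι
    · rintro ⟨g, hfg⟩
      refine ⟨g.1, jcoh_isEqv q F g, fun ι => ?_⟩
      rw [hfg, jcoh_nrm_apply]

end semilocal

end numberfield

end

end Fermat.Agent.S55
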