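/-
S55 (fifth wave), GLOBAL side, package [SECOND], leaf [SEC-UNR] (helper21):
  `secu_main : sec_UnrNormStatement`.

If `F / K`, `K = F^σ`, is unramified at the place `[κ]` of `K`, every semi-local unit of `K`
supported at `[κ]` is the norm of a semi-local unit of `F`.  The semi-local unit
`f = res x` of `F` is `σ`-invariant; on the free orbits of places it is a norm by the orbit
indicator, at a fixed place above `[κ]` by the surjectivity of the norm on the units of an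
unramified cyclic extension of local fields (helper29's `unr_normed_norm_surj`, with a
uniformizer coming from `K`), and at the other fixed places it is `1`.
-/
import Fermat.Agent.S55.Global.SecondDefs
import Fermat.Agent.S55.Global.GalDescent
import Fermat.Agent.S55.Global.JCohSemi
import Fermat.Agent.S55.Global.JCohFin
import Fermat.Agent.S55.UnrNormed

set_option autoImplicit false

namespace Fermat.Agent.S55

open Finset IntermediateField

noncomputable section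

/-- Norm surjectivity on units for a local cyclic layer which is unramified in the relative
sense: there is a uniformizer of `L = Ω^U` fixed by `τ`. -/
theorem secu_loc {q : ℕ} [Fact q.Prime] {p : ℕ} (hp : p.Prime) {U : Subgroup (lcf_Gal q)}
    {τ : lcf_Gal q} (h : jcoh_IsLayer p U τ) (ϖ₀ : (PadicAlgCl q)ˣ) (hϖU : ϖ₀ ∈ jcoh_fix U)
    (hϖτ : τ • ϖ₀ = ϖ₀) (hϖ1 : ‖(ϖ₀ : PadicAlgCl q)‖ < 1)
    (hval : ∀ a ∈ jcoh_fix U, ∃ n : ℤ, ‖(a : PadicAlgCl q)‖ = ‖(ϖ₀ : PadicAlgCl q)‖ ^ n)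
    (a : (PadicAlgCl q)ˣ) (ha : a ∈ jcoh_fix U) (hτa : τ • a = a)
    (ha1 : ‖(a : PadicAlgCl q)‖ = 1) :
    ∃ b ∈ jcoh_fix U, ‖(b : PadicAlgCl q)‖ = 1 ∧ a = ∏ k ∈ range p, τ ^ k • b := by
  classical
  have hp0 : 0 < p := hp.pos
  have hfin : FiniteDimensional ℚ_[q] ↥(IntermediateField.fixedField U) :=
    jcoh_fixed_finite U h.isOpen
  have hloc : lf_IsLocal ↥(IntermediateField.fixedField U) := lf_isLocal_intermediate _
  set τL := h.tauL hp0 with hτL
  let _ : Fintype ↥(Subgroup.zpowers τL) := Fintype.ofFinite _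
  set ϖ : ↥(IntermediateField.fixedField U) :=
    ⟨(ϖ₀ : PadicAlgCl q), (jcoh_mem_fixedField_iff U ϖ₀).2 hϖU⟩ with hϖ
  have hϖne : ϖ ≠ 0 := fun h0 => ϖ₀.ne_zero (congrArg Subtype.val h0)
  have hτϖ : τL ϖ = ϖ := Subtype.ext (congrArg Units.val hϖτ)
  obtain ⟨S, hS⟩ := lf_IsLocal.finite_residue (K := ↥(IntermediateField.fixedField U))
  set u : ↥(IntermediateField.fixedField U) :=
    ⟨(a : PadicAlgCl q), (jcoh_mem_fixedField_iff U a).2 ha⟩ with hu
  have hτu : τL u = u := Subtype.ext (congrArg Units.val hτa)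
  have hstab : ∀ (y : ↥(IntermediateField.fixedField U)), τL y = y →
      ∀ g : ↥(Subgroup.zpowers τL), g • y = y := by
    intro y hy g
    have hle : Subgroup.zpowers τL ≤ MulAction.stabilizer
        (↥(IntermediateField.fixedField U) ≃ₐ[ℚ_[q]] ↥(IntermediateField.fixedField U)) y := by
      rw [Subgroup.zpowers_le]
      exact hy
    exact hle g.2
  obtain ⟨x, hx1, hxu⟩ := unr_normed_norm_surj (G := ↥(Subgroup.zpowers τL))
    (L := ↥(IntermediateField.fixedField U)) ϖ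
    (fun g y => lf_norm_algEquiv (K := ℚ_[q]) (g : ↥(IntermediateField.fixedField U) ≃ₐ[ℚ_[q]]
      ↥(IntermediateField.fixedField U)) y)
    (hstab ϖ hτϖ) hϖ1 hϖne
    (fun y hy => by
      have hy0 : (y : PadicAlgCl q) ≠ 0 := fun h0 => hy (Subtype.ext h0)
      exact hval (Units.mk0 (y : PadicAlgCl q) hy0) ((jcoh_mem_fixedField_iff U _).1 y.2))
    S hS u (hstab u hτu) ha1
  have hx0 : (x : PadicAlgCl q) ≠ 0 := by
    intro h0
    have : ‖(x : PadicAlgCl q)‖ = 1 := hx1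
    rw [h0, norm_zero] at this
    exact zero_ne_one this
  refine ⟨Units.mk0 (x : PadicAlgCl q) hx0, (jcoh_mem_fixedField_iff U _).1 x.2, hx1, ?_⟩
  apply Units.ext
  rw [Units.coe_prod]
  have e1 : ∏ g : ↥(Subgroup.zpowers τL), g • x = ∏ k ∈ range p, (τL ^ k) x :=
    jcoh_prod_zpowers τL p hp0 (h.orderOf_tauL hp)
      (fun g : ↥(IntermediateField.fixedField U) ≃ₐ[ℚ_[q]] ↥(IntermediateField.fixedField U) =>
        g x)
  rw [e1] at hxu
  have e2 := congrArg (fun y : ↥(IntermediateField.fixedField U) => (y : PadicAlgCl q)) hxu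
  rw [show ((u : ↥(IntermediateField.fixedField U)) : PadicAlgCl q) = (a : PadicAlgCl q) from rfl]
    at e2
  rw [← e2]
  have e3 : ((∏ k ∈ range p, (τL ^ k) x : ↥(IntermediateField.fixedField U)) : PadicAlgCl q) =
      ∏ k ∈ range p, (((τL ^ k) x : ↥(IntermediateField.fixedField U)) : PadicAlgCl q) :=
    map_prod (IntermediateField.fixedField U).val _ _
  rw [e3]
  refine prod_congr rfl fun k _ => ?_
  rw [h.tauL_pow_apply hp0 k x]
  rfl

section semilocal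

variable (q : ℕ) [Fact q.Prime] (F : Type) [Field F] [NumberField F]

/-- The norm of an element of `ℚ_q · ι(F)` is the norm of an element of `ι(F)`. -/
theorem secu_norm_eq_emb (ι : F →ₐ[ℚ] PadicAlgCl q) (a : (PadicAlgCl q)ˣ)
    (ha : a ∈ jcoh_fix (jcoh_stab q F ι)) : ∃ y : F, y ≠ 0 ∧ ‖ι y‖ = ‖(a : PadicAlgCl q)‖ := by
  have hx := jcoh_mem_field_of_fix q F ι a ha
  have ha0 : 0 < ‖(a : PadicAlgCl q)‖ := norm_pos_iff.2 a.ne_zero
  obtain ⟨y, hy⟩ := jcoh_dense q F ι a hx _ ha0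
  have hnorm : ‖ι y‖ = ‖(a : PadicAlgCl q)‖ := by
    have h1 : ‖ι y‖ ≤ max ‖(a : PadicAlgCl q) - ι y‖ ‖(a : PadicAlgCl q)‖ := by
      have e : ι y = -((a : PadicAlgCl q) - ι y) + a := by ring
      calc ‖ι y‖ = ‖-((a : PadicAlgCl q) - ι y) + a‖ := by rw [← e]
        _ ≤ max ‖-((a : PadicAlgCl q) - ι y)‖ ‖(a : PadicAlgCl q)‖ :=
            IsUltrametricDist.norm_add_le_max _ _
        _ = _ := by rw [norm_neg]
    have h2 : ‖(a : PadicAlgCl q)‖ ≤ max ‖(a : PadicAlgCl q) - ι y‖ ‖ι y‖ := by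
      have e : (a : PadicAlgCl q) = ((a : PadicAlgCl q) - ι y) + ι y := by ring
      calc ‖(a : PadicAlgCl q)‖ = ‖((a : PadicAlgCl q) - ι y) + ι y‖ := by rw [← e]
        _ ≤ _ := IsUltrametricDist.norm_add_le_max _ _
    apply le_antisymm
    · exact h1.trans (max_le hy.le le_rfl)
    · rcases le_max_iff.1 h2 with h | h
      · exact absurd h (not_le.2 hy)
      · exact h
  refine ⟨y, ?_, hnorm⟩
  rintro rfl
  rw [map_zero, norm_zero] at hnorm
  exact ha0.ne hnorm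

variable (σ : F ≃ₐ[ℚ] F)

/-- The elements of the fixed field are fixed by `σ`. -/
theorem secu_sigma_fix (b : ↥(fixedField (Subgroup.zpowers σ))) : σ (b : F) = b :=
  (IntermediateField.mem_fixedField_iff _ _).1 b.2 σ (Subgroup.mem_zpowers σ)

/-- A `τ`-fixed uniformizer at a fixed place above an unramified place of `K = F^σ`. -/
theorem secu_exists_unif (κ : ↥(fixedField (Subgroup.zpowers σ)) →ₐ[ℚ] PadicAlgCl q)
    (hunr : sec_UnramAt q F σ κ) (ι : F →ₐ[ℚ] PadicAlgCl q) (τ : lcf_Gal q)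
    (hτ : jcoh_sh q F σ ι = gl_twist q F τ ι)
    (hκ : sec_Conj q ↥(fixedField (Subgroup.zpowers σ)) κ
      (ι.comp (fixedField (Subgroup.zpowers σ)).val)) :
    ∃ ϖ₀ : (PadicAlgCl q)ˣ, ϖ₀ ∈ jcoh_fix (jcoh_stab q F ι) ∧ τ • ϖ₀ = ϖ₀ ∧
      ‖(ϖ₀ : PadicAlgCl q)‖ < 1 ∧
      ∀ a ∈ jcoh_fix (jcoh_stab q F ι), ∃ n : ℤ,
        ‖(a : PadicAlgCl q)‖ = ‖(ϖ₀ : PadicAlgCl q)‖ ^ n := by
  obtain ⟨γ, hγ⟩ := hκ
  -- every value of `ι` on `F` is a value of `ι` on `K`
  have hFK : ∀ y : F, y ≠ 0 → ∃ b : ↥(fixedField (Subgroup.zpowers σ)), b ≠ 0 ∧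
      ‖ι y‖ = ‖ι (b : F)‖ := by
    intro y hy
    have h1 : (gl_twist q F γ⁻¹ ι).comp (fixedField (Subgroup.zpowers σ)).val = κ := by
      ext b
      have h2 := DFunLike.congr_fun hγ b
      show γ⁻¹ (ι (b : F)) = κ b
      have h3 : ι (b : F) = γ (κ b) := h2
      rw [h3]
      exact γ.symm_apply_apply _
    obtain ⟨b, hb0, hb⟩ := hunr _ h1 y hy
    refine ⟨b, hb0, ?_⟩
    have h4 : ‖(gl_twist q F γ⁻¹ ι) y‖ = ‖ι y‖ := jcoh_norm_aut q γ⁻¹ (ι y)
    have h5 : ‖κ b‖ = ‖ι (b : F)‖ := by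
      have h2 : ι (b : F) = γ (κ b) := DFunLike.congr_fun hγ b
      rw [h2, jcoh_norm_aut]
    rw [← h4, hb, h5]
  -- a uniformizer of the local field `L`
  have hopen := jcoh_stab_isOpen q F ι
  have hfin : FiniteDimensional ℚ_[q] ↥(IntermediateField.fixedField (jcoh_stab q F ι)) :=
    jcoh_fixed_finite _ hopen
  have hloc : lf_IsLocal ↥(IntermediateField.fixedField (jcoh_stab q F ι)) :=
    lf_isLocal_intermediate _
  obtain ⟨ϖL, hϖL0, hϖL1, hϖL⟩ :=
    lf_IsLocal.exists_uniformizer (K := ↥(IntermediateField.fixedField (jcoh_stab q F ι)))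
  have hϖL0' : (ϖL : PadicAlgCl q) ≠ 0 := fun h0 => hϖL0 (Subtype.ext h0)
  obtain ⟨y, hy0, hy⟩ := secu_norm_eq_emb q F ι (Units.mk0 (ϖL : PadicAlgCl q) hϖL0')
    ((jcoh_mem_fixedField_iff _ _).1 ϖL.2)
  obtain ⟨b₀, hb₀, hb⟩ := hFK y hy0
  have hιb : ι (b₀ : F) ≠ 0 := by
    rw [Ne, map_eq_zero]
    exact fun h0 => hb₀ (Subtype.ext h0)
  have hnorm : ‖ι (b₀ : F)‖ = ‖ϖL‖ := by
    rw [← hb, hy]
    rfl
  refine ⟨Units.mk0 (ι (b₀ : F)) hιb, ?_, ?_, ?_, ?_⟩
  · intro g hg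
    apply Units.ext
    exact DFunLike.congr_fun (show gl_twist q F g ι = ι from hg) (b₀ : F)
  · apply Units.ext
    show τ (ι (b₀ : F)) = ι (b₀ : F)
    have h1 := DFunLike.congr_fun hτ (b₀ : F)
    have h2 : ι (σ (b₀ : F)) = τ (ι (b₀ : F)) := h1
    rw [← h2, secu_sigma_fix]
  · show ‖ι (b₀ : F)‖ < 1
    rw [hnorm]
    exact hϖL1
  · intro a ha
    have ha0 : (⟨(a : PadicAlgCl q), (jcoh_mem_fixedField_iff _ a).2 ha⟩ :
        ↥(IntermediateField.fixedField (jcoh_stab q F ι))) ≠ 0 := fun h0 =>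
      a.ne_zero (congrArg Subtype.val h0)
    obtain ⟨n, hn⟩ := hϖL _ ha0
    refine ⟨n, ?_⟩
    show ‖(a : PadicAlgCl q)‖ = ‖ι (b₀ : F)‖ ^ n
    rw [hnorm]
    exact hn

end semilocal

/-- **[SEC-UNR]** local norms at an unramified place. -/
theorem secu_main : sec_UnrNormStatement := by
  intro F _ _ p hp _ σ hσ q _ κ hunr x hxU hxS
  classical
  have hσp : σ ^ p = 1 := hσ ▸ pow_orderOf_eq_one σ
  have H := jcoh_hyp q F σ p hp hσp
  set f : gl_Jq q F := gl_resq F (fixedField (Subgroup.zpowers σ)) q x with hf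
  have hfU : ∀ ι, f.1 ι ∈ jcoh_units q := fun ι => hxU _
  have hfs : ∀ ι, f.1 (jcoh_sh q F σ ι) = f.1 ι := by
    intro ι
    have h := gdsc_smul_resq F (Subgroup.zpowers σ) q σ (Subgroup.mem_zpowers σ) x
    exact congrArg (fun g : gl_Jq q F => g.1 ι) h
  -- the local elements at the fixed places
  have hex : ∀ w : gl_Place q F, ∃ b : (PadicAlgCl q)ˣ, gl_placeMap q F σ w = w →
      (b ∈ jcoh_units q ∧ jcoh_Hyp.IsInv (gl_twist q F) (Quotient.out w) b ∧
        f.1 (Quotient.out w) = ∏ k ∈ range p,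
          jcoh_Hyp.tau (gl_twist q F) (jcoh_sh q F σ) (gl_placeSetoid q F) w ^ k • b) := by
    intro w
    by_cases hw : gl_placeMap q F σ w = w
    · have hτ := H.tau_spec w hw
      by_cases hκ : sec_Conj q ↥(fixedField (Subgroup.zpowers σ)) κ
          ((Quotient.out w).comp (fixedField (Subgroup.zpowers σ)).val)
      · obtain ⟨ϖ₀, h1, h2, h3, h4⟩ := secu_exists_unif q F σ κ hunr _ _ hτ hκ
        obtain ⟨b, hb, hb1, hab⟩ := secu_loc hp
          (jcoh_isLayer q F σ p hp hσ _ _ hτ) ϖ₀ h1 h2 h3 h4 (f.1 (Quotient.out w))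
          ((jcoh_isEqv q F f).isInv _)
          (by rw [← jcoh_isEqv q F f, ← hτ, hfs])
          (hfU _)
        exact ⟨b, fun _ => ⟨hb1, hb, hab⟩⟩
      · refine ⟨1, fun _ => ⟨(jcoh_units q).one_mem, fun γ _ => smul_one γ, ?_⟩⟩
        have h1 : f.1 (Quotient.out w) = 1 := hxS _ hκ
        rw [h1]
        simp
    · exact ⟨1, fun h => absurd h hw⟩
  choose b hb using hex
  obtain ⟨g, hg, hgV, hfg⟩ := H.exists_norm (jcoh_units q) (jcoh_smul_mem_units q)
    f.1 (jcoh_isEqv q F f) hfU hfs b (fun w hw => (hb w hw).1) (fun w hw => (hb w hw).2.1)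
    (fun w hw => (hb w hw).2.2)
  refine ⟨jcoh_mk q F g hg, hgV, ?_⟩
  apply Subtype.ext
  funext ι
  show (∏ k ∈ range p, σ ^ k • jcoh_mk q F g hg).1 ι = f.1 ι
  rw [jcoh_nrm_apply]
  exact (hfg ι).symm

end

end Fermat.Agent.S55
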