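/-
S55 (fifth wave), GLOBAL side, assembly [FIRST-OF] (helper21):
  `gfo_main : [IDL-DIAG] → [RAM-FIN] → [IDL-CLASS] → [J-COH] → [T-UNIT] → [FIRST]`.

For `T ⊇ T₀ ∪ ram F` the sequence `1 → E_T → J_T → C_F → 1` is exact and equivariant
(`E_T = Fˣ ∩ J_T` by definition, `J = Fˣ · J_T` by [IDL-CLASS]); the multiplicativity of the
Herbrand quotient gives `q(C_F) = q(J_T) / q(E_T) = p^N / (p^N / p) = p`.
-/
import Fermat.Agent.S55.Global.GalDescent

set_option autoImplicit false

namespace Fermat.Agent.S55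

open Finset

noncomputable section

section generic

variable {G : Type*} [Monoid G] {A B : Type*} [AddCommGroup A] [AddCommGroup B]
  [DistribMulAction G A] [DistribMulAction G B]

theorem gfo_map_del (φ : A →+ B) (g : G) (hφ : ∀ a, φ (g • a) = g • φ a) (a : A) :
    φ (herb_del g a) = herb_del g (φ a) := by
  rw [herb_del_apply, herb_del_apply, map_sub, hφ]

theorem gfo_map_pow (φ : A →+ B) (g : G) (hφ : ∀ a, φ (g • a) = g • φ a) (k : ℕ) (a : A) :
    φ (g ^ k • a) = g ^ k • φ a := by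
  induction k generalizing a with
  | zero => simp
  | succ k ih => rw [pow_succ, mul_smul, ih, hφ, ← mul_smul]

theorem gfo_map_nrm (φ : A →+ B) (g : G) (hφ : ∀ a, φ (g • a) = g • φ a) (n : ℕ) (a : A) :
    φ (herb_nrm g n a) = herb_nrm g n (φ a) := by
  rw [herb_nrm_apply, herb_nrm_apply, map_sum]
  exact sum_congr rfl fun k _ => gfo_map_pow φ g hφ k a

end generic

section maps

variable (F : Type) [Field F] [NumberField F] (T : Set Nat.Primes)

/-- The diagonal embedding of the `T`-units into the `T`-ideles. -/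
def gfo_i : ↥(gl_ET F T) →* ↥(gl_JT F T) where
  toFun a := ⟨gdiag_hom F a.1, fun q hq => a.2 q hq⟩
  map_one' := Subtype.ext (map_one (gdiag_hom F))
  map_mul' a b := Subtype.ext (map_mul (gdiag_hom F) a.1 b.1)

@[simp] theorem gfo_i_coe (a : ↥(gl_ET F T)) : ((gfo_i F T a : ↥(gl_JT F T)) : gl_J F) =
    gdiag_hom F a.1 := rfl

/-- The projection of the `T`-ideles to the idele class group. -/
def gfo_pi : ↥(gl_JT F T) →* gl_C F :=
  (QuotientGroup.mk' (gl_P F)).comp (gl_JT F T).subtype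

@[simp] theorem gfo_pi_apply (y : ↥(gl_JT F T)) :
    gfo_pi F T y = (QuotientGroup.mk (y : gl_J F) : gl_C F) := rfl

theorem gfo_i_injective : Function.Injective (gfo_i F T) := by
  intro a b hab
  apply Subtype.ext
  apply gdsc_diag_injective F
  exact congrArg (fun y : ↥(gl_JT F T) => (y : gl_J F)) hab

theorem gfo_pi_surjective (h : gl_P F ⊔ gl_JT F T = ⊤) : Function.Surjective (gfo_pi F T) := by
  intro c
  induction c using QuotientGroup.induction_on with
  | H x =>
    have hx : x ∈ gl_P F ⊔ gl_JT F T := by rw [h]; exact Subgroup.mem_top x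
    rw [Subgroup.mem_sup] at hx
    obtain ⟨a, ha, y, hy, rfl⟩ := hx
    refine ⟨⟨y, hy⟩, ?_⟩
    rw [gfo_pi_apply]
    apply QuotientGroup.eq.2
    show (y : gl_J F)⁻¹ * (a * y) ∈ gl_P F
    have e : (y : gl_J F)⁻¹ * (a * y) = a := by
      rw [mul_comm a y, inv_mul_cancel_left]
    rw [e]
    exact ha

theorem gfo_ker_pi : (gfo_pi F T).ker = (gfo_i F T).range := by
  ext y
  rw [MonoidHom.mem_ker, MonoidHom.mem_range, gfo_pi_apply, QuotientGroup.eq_one_iff,
    gdiag_mem_P_iff]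
  constructor
  · rintro ⟨a, ha⟩
    refine ⟨⟨a, fun q hq => ?_⟩, Subtype.ext ha.symm⟩
    have := y.2 q hq
    rw [ha] at this
    exact this
  · rintro ⟨a, rfl⟩
    exact ⟨a.1, rfl⟩

theorem gfo_i_smul (σ : F ≃ₐ[ℚ] F) (a : ↥(gl_ET F T)) :
    gfo_i F T (σ • a) = σ • gfo_i F T a := by
  apply Subtype.ext
  show gdiag_hom F (σ • a.1) = σ • gdiag_hom F a.1
  apply Subtype.ext
  funext q
  exact (gl_smul_diagP F σ q a.1).symm

theorem gfo_pi_smul (σ : F ≃ₐ[ℚ] F) (y : ↥(gl_JT F T)) :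
    gfo_pi F T (σ • y) = σ • gfo_pi F T y := rfl

end maps

/-- **[FIRST-OF]** the first inequality from the Herbrand quotients of the `T`-ideles and the
`T`-units. -/
theorem gfo_main : gl_DiagStatement → gl_RamFiniteStatement → gl_ClassStatement →
    gl_JTHerbStatement → gl_UnitHerbStatement → gl_FirstStatement := by
  intro _ hram hcl hJ hE F _ _ p hp hp2 σ hσ
  classical
  obtain ⟨T₀, hT₀⟩ := hcl F
  set T : Finset Nat.Primes := T₀ ∪ (hram F).toFinset with hT
  have hTram : gl_ram F ⊆ (T : Set Nat.Primes) := by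
    intro q hq
    rw [Finset.mem_coe, hT, Finset.mem_union]
    exact Or.inr ((hram F).mem_toFinset.2 hq)
  have hTcl := hT₀ T Finset.subset_union_left
  obtain ⟨hJ0, hJ1⟩ := hJ F p hp hp2 σ hσ T hTram
  obtain ⟨hEfin, hEeq⟩ := hE F p hp hp2 σ hσ T
  have hσp : σ ^ p = 1 := hσ ▸ pow_orderOf_eq_one σ
  set i' : Additive ↥(gl_ET F (T : Set Nat.Primes)) →+ Additive ↥(gl_JT F (T : Set Nat.Primes)) :=
    MonoidHom.toAdditive (gfo_i F (T : Set Nat.Primes)) with hi'
  set π' : Additive ↥(gl_JT F (T : Set Nat.Primes)) →+ Additive (gl_C F) :=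
    MonoidHom.toAdditive (gfo_pi F (T : Set Nat.Primes)) with hπ'
  have hi : Function.Injective i' := gfo_i_injective F (T : Set Nat.Primes)
  have hπ : Function.Surjective π' := gfo_pi_surjective F (T : Set Nat.Primes) hTcl
  have hex : π'.ker = i'.range := by
    ext y
    have := SetLike.ext_iff.1 (gfo_ker_pi F (T : Set Nat.Primes)) (Additive.toMul y)
    exact this
  have hiσ : ∀ a, i' (σ • a) = σ • i' a := fun a =>
    gfo_i_smul F (T : Set Nat.Primes) σ (Additive.toMul a)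
  have hπσ : ∀ y, π' (σ • y) = σ • π' y := fun y =>
    gfo_pi_smul F (T : Set Nat.Primes) σ (Additive.toMul y)
  have hfi := gfo_map_del i' σ hiσ
  have hgi := fun a => gfo_map_nrm i' σ hiσ p a
  have hfπ : ∀ a, π' (herb_del σ a) = herb_del σ (π' a) :=
    gfo_map_del (A := Additive ↥(gl_JT F (T : Set Nat.Primes))) (B := Additive (gl_C F)) π' σ hπσ
  have hgπ : ∀ a, π' (herb_nrm σ p a) = herb_nrm σ p (π' a) := fun a =>
    gfo_map_nrm (A := Additive ↥(gl_JT F (T : Set Nat.Primes))) (B := Additive (gl_C F)) π' σ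
      hπσ p a
  have hfg : ∀ a : Additive ↥(gl_JT F (T : Set Nat.Primes)),
      herb_del σ (herb_nrm σ p a) = 0 := herb_del_nrm σ p hσp
  have hgf : ∀ a : Additive ↥(gl_JT F (T : Set Nat.Primes)),
      herb_nrm σ p (herb_del σ a) = 0 := herb_nrm_del σ p hσp
  have hmul := herb_idx_mul (A := Additive ↥(gl_JT F (T : Set Nat.Primes)))
    (A' := Additive ↥(gl_ET F (T : Set Nat.Primes))) (A'' := Additive (gl_C F))
    i' π' hi hπ hex (herb_del σ) (herb_nrm σ p) (herb_del σ)
    (herb_nrm σ p) (herb_del σ) (herb_nrm σ p) hfi hgi hfπ hgπ hfg hgf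
  have hJfin : herb_Fin (X := Additive ↥(gl_JT F (T : Set Nat.Primes))) (herb_del σ)
      (herb_nrm σ p) :=
    ⟨by rw [hJ0]; exact pow_ne_zero _ hp.ne_zero, by rw [hJ1]; exact one_ne_zero⟩
  have hCfin := herb_fin_quot (A := Additive ↥(gl_JT F (T : Set Nat.Primes)))
    (A' := Additive ↥(gl_ET F (T : Set Nat.Primes))) (A'' := Additive (gl_C F))
    i' π' hi hπ hex (herb_del σ) (herb_nrm σ p) (herb_del σ)
    (herb_nrm σ p) (herb_del σ) (herb_nrm σ p) hfi hgi hfπ hgπ hfg hgf hEfin hJfin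
  refine ⟨hCfin, ?_⟩
  rw [hJ0, hJ1, one_mul] at hmul
  have h1 : herb_idx (A := Additive ↥(gl_ET F (T : Set Nat.Primes))) (herb_del σ) (herb_nrm σ p) *
      herb_idx (A := Additive (gl_C F)) (herb_del σ) (herb_nrm σ p) =
      herb_idx (A := Additive ↥(gl_ET F (T : Set Nat.Primes))) (herb_del σ) (herb_nrm σ p) *
        (p * herb_idx (A := Additive (gl_C F)) (herb_nrm σ p) (herb_del σ)) := by
    rw [← hmul, ← mul_assoc, ← hEeq]
    ring
  exact Nat.eq_of_mul_eq_mul_left (Nat.pos_of_ne_zero hEfin.1) h1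

end

end Fermat.Agent.S55
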