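/-
S55 (Poitou-Tate), GLOBAL side, package [T-UNIT](b) (helper13), part 1.  Prefix `tun_`.

`tun_equivariant_choice`: equivariant choice along a permutation of prime order `p`: if `s` is a
permutation of `X` with `s ^ p = 1`, `τ` an automorphism of a commutative group `U` with
`τ ^ p = 1`, and `Good x ⊆ U` are nonempty, closed under products and `τ (Good x) ⊆ Good (s x)`,
then there is `u : X → U` with `u x ∈ Good x` and `u (s x) = τ (u x)`.
-/
import Mathlib

set_option autoImplicit false
set_option linter.style.haveILetI false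
set_option linter.unusedVariables false

namespace Fermat.Agent.S55

section choice

variable {X U : Type*} [CommGroup U]

/-- If `s ^ k` fixes `r` and `s` does not, then `p ∣ k` (for `s ^ p = 1`, `p` prime). -/
theorem tun_dvd_of_zpow_fix {p : ℕ} (hp : p.Prime) (s : Equiv.Perm X) (hs : s ^ p = 1) (r : X)
    (hr : s r ≠ r) (k : ℤ) (hk : (s ^ k) r = r) : (p : ℤ) ∣ k := by
  by_contra hnd
  have hcop : IsCoprime (p : ℤ) k := by
    rw [Int.isCoprime_iff_gcd_eq_one]
    have := (Nat.Prime.coprime_iff_not_dvd hp).2 (fun h => hnd (Int.natCast_dvd.2 h))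
    simpa [Int.gcd] using this
  obtain ⟨a, b, hab⟩ := hcop
  apply hr
  have h1 : s = s ^ (a * p + b * k) := by rw [hab, zpow_one]
  have hsp : (s ^ (p : ℤ)) = 1 := by rw [zpow_natCast]; exact hs
  have h2 : s ^ (a * p + b * k) = (s ^ k) ^ b := by
    rw [zpow_add, mul_comm a, zpow_mul, hsp, one_zpow, one_mul, mul_comm b, zpow_mul]
  have h3 : ∀ n : ℕ, ((s ^ k) ^ n) r = r := by
    intro n
    induction n with
    | zero => simp
    | succ n ih => rw [pow_succ, Equiv.Perm.mul_apply, hk, ih]
  have h4 : ((s ^ k) ^ b) r = r := by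
    rcases Int.eq_nat_or_neg b with ⟨n, rfl | rfl⟩
    · rw [zpow_natCast]; exact h3 n
    · rw [zpow_neg, zpow_natCast, Equiv.Perm.inv_eq_iff_eq]
      exact (h3 n).symm
  conv_lhs => rw [h1, h2]
  exact h4

/-- **Equivariant choice** along a permutation of prime order. -/
theorem tun_equivariant_choice {p : ℕ} (hp : p.Prime) (s : Equiv.Perm X) (hs : s ^ p = 1)
    (τ : MulAut U) (hτ : τ ^ p = 1) (Good : X → Set U) (hne : ∀ x, (Good x).Nonempty)
    (hmap : ∀ x a, a ∈ Good x → τ a ∈ Good (s x))
    (hmul : ∀ x a b, a ∈ Good x → b ∈ Good x → a * b ∈ Good x) :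
    ∃ u : X → U, (∀ x, u x ∈ Good x) ∧ ∀ x, u (s x) = τ (u x) := by
  classical
  have hτp : τ ^ (p : ℤ) = 1 := by rw [zpow_natCast]; exact hτ
  have hsp : s ^ (p : ℤ) = 1 := by rw [zpow_natCast]; exact hs
  -- iterates
  have hmapn : ∀ (n : ℕ) x a, a ∈ Good x → (τ ^ n) a ∈ Good ((s ^ n) x) := by
    intro n
    induction n with
    | zero => intro x a ha; simpa using ha
    | succ n ih =>
      intro x a ha
      rw [pow_succ', pow_succ', MulAut.mul_apply, Equiv.Perm.mul_apply]
      exact hmap _ _ (ih x a ha)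
  have hmapz : ∀ (k : ℤ) x a, a ∈ Good x → (τ ^ k) a ∈ Good ((s ^ k) x) := by
    intro k x a ha
    have h1 : k = (k % p).toNat + p * (k / p) := by
      have hpos : (0 : ℤ) < p := by exact_mod_cast hp.pos
      have := Int.emod_add_mul_ediv k p
      have h2 := Int.emod_nonneg k hpos.ne'
      rw [Int.toNat_of_nonneg h2]
      linarith
    have h2 : τ ^ k = τ ^ (k % p).toNat := by
      conv_lhs => rw [h1, zpow_add, zpow_mul, hτp, one_zpow, mul_one, zpow_natCast]
    have h3 : s ^ k = s ^ (k % p).toNat := by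
      conv_lhs => rw [h1, zpow_add, zpow_mul, hsp, one_zpow, mul_one, zpow_natCast]
    rw [h2, h3]
    exact hmapn _ x a ha
  -- the good elements at the fixed points can be taken invariant
  have hprod : ∀ x, ∀ a ∈ Good x, ∀ (f : ℕ → U), (∀ i, f i ∈ Good x) → ∀ n : ℕ,
      a * ∏ i ∈ Finset.range n, f i ∈ Good x := by
    intro x a ha f hf n
    induction n with
    | zero => simpa using ha
    | succ n ih =>
      rw [Finset.prod_range_succ, ← mul_assoc]
      exact hmul x _ _ ih (hf n)
  have hfix : ∀ x, s x = x → ∃ b ∈ Good x, τ b = b := by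
    intro x hx
    obtain ⟨a, ha⟩ := hne x
    have hsn : ∀ n : ℕ, (s ^ n) x = x := by
      intro n
      induction n with
      | zero => simp
      | succ n ih => rw [pow_succ, Equiv.Perm.mul_apply, hx, ih]
    have hG : ∀ i : ℕ, (τ ^ (i + 1)) a ∈ Good x := by
      intro i
      have := hmapn (i + 1) x a ha
      rwa [hsn] at this
    refine ⟨∏ i ∈ Finset.range p, (τ ^ i) a, ?_, ?_⟩
    · obtain ⟨m, hm⟩ : ∃ m, p = m + 1 := ⟨p - 1, by have := hp.pos; omega⟩
      rw [hm, Finset.prod_range_succ']
      simp only [pow_zero, MulAut.one_apply]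
      rw [mul_comm]
      exact hprod x a ha (fun i => (τ ^ (i + 1)) a) hG m
    · rw [map_prod]
      have h1 : ∀ i ∈ Finset.range p, τ ((τ ^ i) a) = (τ ^ (i + 1)) a := by
        intro i _
        rw [pow_succ', MulAut.mul_apply]
      rw [Finset.prod_congr rfl h1]
      have h2 := Finset.prod_range_succ' (fun i => (τ ^ i) a) p
      have h3 := Finset.prod_range_succ (fun i => (τ ^ i) a) p
      rw [h3] at h2
      simp only [pow_zero, MulAut.one_apply, hτ] at h2
      exact (mul_right_cancel h2).symm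
  -- the choice at the representatives
  have hb : ∀ r : X, ∃ b ∈ Good r, s r = r → τ b = b := by
    intro r
    by_cases h : s r = r
    · obtain ⟨b, hb, hb'⟩ := hfix r h
      exact ⟨b, hb, fun _ => hb'⟩
    · obtain ⟨a, ha⟩ := hne r
      exact ⟨a, ha, fun h' => absurd h' h⟩
  choose b hbG hbfix using hb
  -- orbits
  let R : Setoid X := MulAction.orbitRel (Subgroup.zpowers s) X
  let rep : X → X := fun x => (Quotient.out (Quotient.mk R x))
  have hrep : ∀ x, ∃ k : ℤ, (s ^ k) (rep x) = x := by
    intro x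
    have h1 : R.r (rep x) x := Quotient.exact (Quotient.out_eq (Quotient.mk R x))
    have h2 : rep x ∈ MulAction.orbit (Subgroup.zpowers s) x := h1
    obtain ⟨⟨g, hg⟩, hgx⟩ := h2
    obtain ⟨k, rfl⟩ := Subgroup.mem_zpowers_iff.1 hg
    refine ⟨-k, ?_⟩
    have h3 : (s ^ k) x = rep x := hgx
    rw [← h3, ← Equiv.Perm.mul_apply, ← zpow_add]
    simp
  have hrep_s : ∀ x, rep (s x) = rep x := by
    intro x
    have : Quotient.mk R (s x) = Quotient.mk R x := by
      apply Quotient.sound
      show s x ∈ MulAction.orbit (Subgroup.zpowers s) x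
      exact ⟨⟨s, Subgroup.mem_zpowers s⟩, rfl⟩
    show Quotient.out (Quotient.mk R (s x)) = Quotient.out (Quotient.mk R x)
    rw [this]
  choose k hk using hrep
  -- independence of the exponent
  have hind : ∀ (r : X) (i j : ℤ), (s ^ i) r = (s ^ j) r → (τ ^ i) (b r) = (τ ^ j) (b r) := by
    intro r i j hij
    have h1 : (s ^ (i - j)) r = r := by
      rw [sub_eq_neg_add, zpow_add, Equiv.Perm.mul_apply, hij, ← Equiv.Perm.mul_apply,
        ← zpow_add]
      simp
    have hτfix : ∀ n : ℕ, τ (b r) = b r → (τ ^ n) (b r) = b r := by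
      intro n h
      induction n with
      | zero => simp
      | succ n ih => rw [pow_succ, MulAut.mul_apply, h, ih]
    have h2 : (τ ^ (i - j)) (b r) = b r := by
      by_cases hr : s r = r
      · have h3 := hbfix r hr
        rcases Int.eq_nat_or_neg (i - j) with ⟨n, hn | hn⟩
        · rw [hn, zpow_natCast]; exact hτfix n h3
        · rw [hn, zpow_neg, zpow_natCast, MulAut.inv_apply, MulEquiv.symm_apply_eq]
          exact (hτfix n h3).symm
      · obtain ⟨c, hc⟩ := tun_dvd_of_zpow_fix hp s hs r hr (i - j) h1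
        rw [hc, zpow_mul, hτp, one_zpow, MulAut.one_apply]
    have h3 : τ ^ i = τ ^ j * τ ^ (i - j) := by rw [← zpow_add]; congr 1; ring
    rw [h3, MulAut.mul_apply, h2]
  refine ⟨fun x => (τ ^ (k x)) (b (rep x)), fun x => ?_, fun x => ?_⟩
  · have := hmapz (k x) (rep x) (b (rep x)) (hbG _)
    rwa [hk] at this
  · show (τ ^ (k (s x))) (b (rep (s x))) = τ ((τ ^ (k x)) (b (rep x)))
    rw [hrep_s, ← MulAut.mul_apply, ← zpow_one_add]
    apply hind
    have h2 := hk (s x)
    rw [hrep_s] at h2
    rw [h2, zpow_one_add, Equiv.Perm.mul_apply, hk]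

end choice

end Fermat.Agent.S55
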