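/-
S55 (Poitou-Tate), GLOBAL side, package [T-UNIT](b) (helper13), part 2.  Prefix `tun_`.

Artin's units at the archimedean places (Mathlib only):
* `tun_artin_linIndep`, `tun_artin_index`: a family of units `v w` (`w` an infinite place) with
  `log |v w|_w' < 0` for `w' ≠ w` generates a subgroup of finite index of the unit group;
* `tun_psi_ker_inj`, `tun_psi_ker_ne`: the relations between them form a group of rank one;
* `tun_OU`, `tun_tau`, `tun_sInf`: integral units inside `Kˣ`, the action of an automorphism on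
  `Kˣ` and on the infinite places; `tun_sInf_free`: an automorphism of odd prime order fixes no
  infinite place.
-/
import Mathlib

set_option autoImplicit false
set_option linter.style.haveILetI false
set_option linter.unusedVariables false
set_option linter.unusedSectionVars false
set_option maxHeartbeats 1000000
set_option maxSynthPendingDepth 3

open NumberField NumberField.InfinitePlace NumberField.Units NumberField.Units.dirichletUnitTheorem
open Module

namespace Fermat.Agent.S55


section artin

variable {K : Type} [Field K] [NumberField K]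

set_option backward.isDefEq.respectTransparency.types false in
/-- Artin's units: a family of units which are small at all places but one have
`ℝ`-linearly independent logarithms (outside `w₀`). -/
theorem tun_artin_linIndep (v : InfinitePlace K → (𝓞 K)ˣ)
    (hv : ∀ w w' : InfinitePlace K, w' ≠ w → Real.log (w' (v w)) < 0) :
    LinearIndependent ℝ (fun w : {w : InfinitePlace K // w ≠ w₀} =>
      logEmbedding K (Additive.ofMul (v w.1))) := by
  classical
  let B := Pi.basisFun ℝ {w : InfinitePlace K // w ≠ w₀}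
  let L := fun w : {w : InfinitePlace K // w ≠ w₀} => logEmbedding K (Additive.ofMul (v w.1))
  suffices B.det L ≠ 0 by
    rw [← isUnit_iff_ne_zero, ← Basis.is_basis_iff_det] at this
    exact this.1
  rw [Basis.det_apply]
  refine det_ne_zero_of_sum_col_lt_diag (fun w => ?_)
  simp_rw [Real.norm_eq_abs, B, Basis.coePiBasisFun.toMatrix_eq_transpose, Matrix.transpose_apply]
  rw [← sub_pos, Finset.sum_congr rfl (fun x hx => abs_of_neg ?_), Finset.sum_neg_distrib,
    sub_neg_eq_add, Finset.sum_erase_eq_sub (Finset.mem_univ _), ← add_comm_sub]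
  · refine add_pos_of_nonneg_of_pos ?_ ?_
    · rw [sub_nonneg]
      exact le_abs_self _
    · rw [sum_logEmbedding_component (v w.1)]
      refine mul_pos_of_neg_of_neg ?_ (hv w.1 _ w.prop.symm)
      rw [mult]; split_ifs <;> norm_num
  · refine mul_neg_of_pos_of_neg ?_ (hv w.1 x.1 ?_)
    · rw [mult]; split_ifs <;> norm_num
    · exact Subtype.ext_iff.not.mp (Finset.ne_of_mem_erase hx)

end artin




section index

/-- A subgroup whose image has finite index and which has finite relative index in the kernel
has finite index. -/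
theorem tun_index_ne_zero_of_map {G G' : Type*} [Group G] [Group G'] (f : G →* G')
    (H : Subgroup G) [H.Normal] (h1 : (H.map f).relIndex f.range ≠ 0) (h2 : H.relIndex f.ker ≠ 0) :
    H.index ≠ 0 := by
  have h3 : (H ⊔ f.ker).index ≠ 0 := by
    have := (H.map f).index_comap f
    rw [Subgroup.comap_map_eq] at this
    rw [this]
    exact h1
  have h4 : H.relIndex (H ⊔ f.ker) * (H ⊔ f.ker).index = H.index :=
    Subgroup.relIndex_mul_index le_sup_left
  rw [Subgroup.relIndex_sup_left] at h4
  rw [← h4]
  exact mul_ne_zero h2 h3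

end index

section artin

variable {K : Type} [Field K] [NumberField K]

/-- Artin's units generate a subgroup of finite index of the unit group. -/
theorem tun_artin_index (v : InfinitePlace K → (𝓞 K)ˣ)
    (hv : ∀ w w' : InfinitePlace K, w' ≠ w → Real.log (w' (v w)) < 0) :
    (Subgroup.closure (Set.range v)).index ≠ 0 := by
  classical
  set C := Subgroup.closure (Set.range v) with hC
  let f : (𝓞 K)ˣ →* (𝓞 K)ˣ ⧸ torsion K := QuotientGroup.mk' (torsion K)
  have hfs : Function.Surjective f := QuotientGroup.mk'_surjective _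
  apply tun_index_ne_zero_of_map f C
  · -- the image has finite index
    rw [MonoidHom.range_eq_top.2 hfs, Subgroup.relIndex_top_right]
    let m : {w : InfinitePlace K // w ≠ w₀} → Additive ((𝓞 K)ˣ ⧸ torsion K) :=
      fun w => Additive.ofMul (f (v w.1))
    have hR := tun_artin_linIndep v hv
    have hZ : LinearIndependent ℤ (fun w : {w : InfinitePlace K // w ≠ w₀} =>
        logEmbedding K (Additive.ofMul (v w.1))) := hR.restrict_scalars' ℤ
    have hm : LinearIndependent ℤ m := by
      apply LinearIndependent.of_comp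
        ((unitLattice K).subtype ∘ₗ (logEmbeddingEquiv K).toLinearMap)
      exact hZ
    let N : Submodule ℤ (Additive ((𝓞 K)ˣ ⧸ torsion K)) := Submodule.span ℤ (Set.range m)
    have hrk : Module.finrank ℤ N = Module.finrank ℤ (Additive ((𝓞 K)ˣ ⧸ torsion K)) := by
      rw [finrank_span_eq_card hm, finrank_modTorsion, Units.rank, Fintype.card_subtype_compl,
        Fintype.card_subtype_eq]
    have hfin : Finite (Additive ((𝓞 K)ˣ ⧸ torsion K) ⧸ N) :=
      Submodule.finiteQuotientOfFreeOfRankEq N hrk
    have hN : N.toAddSubgroup.index ≠ 0 := by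
      haveI : Finite (Additive ((𝓞 K)ˣ ⧸ torsion K) ⧸ N.toAddSubgroup) := hfin
      exact AddSubgroup.index_ne_zero_of_finite
    have hle : N.toAddSubgroup ≤ Subgroup.toAddSubgroup (C.map f) := by
      rw [Submodule.span_int_eq_addSubgroupClosure, AddSubgroup.closure_le]
      rintro _ ⟨w, rfl⟩
      show f (v w.1) ∈ C.map f
      exact Subgroup.mem_map_of_mem f (Subgroup.subset_closure ⟨w.1, rfl⟩)
    have h1 := AddSubgroup.index_dvd_of_le hle
    rw [Subgroup.index_toAddSubgroup] at h1
    intro h0
    rw [h0, zero_dvd_iff] at h1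
    exact hN h1
  · -- the torsion is finite
    have hk : f.ker = torsion K := QuotientGroup.ker_mk' _
    rw [hk]
    have h1 : C.relIndex (torsion K) ∣ Nat.card (torsion K) := Subgroup.relIndex_dvd_card _ _
    intro h0
    rw [h0, zero_dvd_iff] at h1
    have : 0 < Nat.card (torsion K) := Nat.card_pos
    omega

end artin



section kernel

variable {K : Type} [Field K] [NumberField K]

/-- The linear combination map of a family of units. -/
noncomputable def tun_psi (v : InfinitePlace K → (𝓞 K)ˣ) :
    (InfinitePlace K → ℤ) →ₗ[ℤ] Additive (𝓞 K)ˣ :=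
  Fintype.linearCombination ℤ (fun w => Additive.ofMul (v w))

theorem tun_psi_apply (v : InfinitePlace K → (𝓞 K)ˣ) (n : InfinitePlace K → ℤ) :
    tun_psi v n = ∑ w, n w • Additive.ofMul (v w) := by
  unfold tun_psi
  rw [Fintype.linearCombination_apply]

theorem tun_psi_toMul (v : InfinitePlace K → (𝓞 K)ˣ) (n : InfinitePlace K → ℤ) :
    (tun_psi v n).toMul = ∏ w, v w ^ n w := by
  rw [tun_psi_apply, toMul_sum]
  rfl

/-- The projection to the coordinate `w₀` is injective on the kernel. -/
theorem tun_psi_ker_inj (v : InfinitePlace K → (𝓞 K)ˣ)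
    (hv : ∀ w w' : InfinitePlace K, w' ≠ w → Real.log (w' (v w)) < 0)
    (n : InfinitePlace K → ℤ) (hn : tun_psi v n = 0) (h0 : n w₀ = 0) : n = 0 := by
  classical
  have hZ : LinearIndependent ℤ (fun w : {w : InfinitePlace K // w ≠ w₀} =>
      logEmbedding K (Additive.ofMul (v w.1))) := (tun_artin_linIndep v hv).restrict_scalars' ℤ
  rw [Fintype.linearIndependent_iff] at hZ
  have h1 : logEmbedding K (tun_psi v n) = 0 := by rw [hn, map_zero]
  rw [tun_psi_apply, map_sum] at h1
  have h2 : ∀ w, logEmbedding K (n w • Additive.ofMul (v w)) =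
      n w • logEmbedding K (Additive.ofMul (v w)) := fun w => map_zsmul _ _ _
  simp only [h2] at h1
  rw [Fintype.sum_eq_add_sum_subtype_ne _ w₀, h0, zero_smul, zero_add] at h1
  have h3 := hZ (fun w => n w.1) h1
  funext w
  by_cases hw : w = w₀
  · rw [hw, h0]; rfl
  · exact h3 ⟨w, hw⟩

/-- The kernel is nonzero. -/
theorem tun_psi_ker_ne (v : InfinitePlace K → (𝓞 K)ˣ) :
    ∃ n : InfinitePlace K → ℤ, n ≠ 0 ∧ tun_psi v n = 0 := by
  classical
  by_contra hcon
  have hinj : Function.Injective (tun_psi v) := by
    rw [injective_iff_map_eq_zero]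
    intro n hn
    by_contra h
    exact hcon ⟨n, h, hn⟩
  have h1 := LinearMap.finrank_le_finrank_of_injective hinj
  rw [Module.finrank_fintype_fun_eq_card, Units.finrank_eq, Units.rank] at h1
  have h2 : 0 < Fintype.card (InfinitePlace K) := Fintype.card_pos
  omega

end kernel



section basics

variable (K : Type) [Field K] [NumberField K]

/-- The inclusion of the units of the ring of integers into `Kˣ`. -/
noncomputable def tun_iota : (𝓞 K)ˣ →* Kˣ := Units.map (algebraMap (𝓞 K) K : 𝓞 K →* K)

theorem tun_iota_coe (o : (𝓞 K)ˣ) : ((tun_iota K o : Kˣ) : K) = ((o : 𝓞 K) : K) := rfl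

theorem tun_iota_injective : Function.Injective (tun_iota K) := by
  intro a b h
  have h1 := congrArg (fun x : Kˣ => (x : K)) h
  simp only [tun_iota_coe] at h1
  exact Units.ext (RingOfIntegers.ext h1)

/-- The integral units as a subgroup of `Kˣ`. -/
noncomputable def tun_OU : Subgroup Kˣ := (tun_iota K).range

/-- The automorphism of `Kˣ` induced by an automorphism of `K`. -/
noncomputable def tun_tau : (K ≃ₐ[ℚ] K) →* MulAut Kˣ where
  toFun σ := Units.mapEquiv (σ : K ≃* K)
  map_one' := by
    ext a; rfl
  map_mul' σ ρ := by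
    ext a; rfl

variable {K}

@[simp] theorem tun_tau_coe (σ : K ≃ₐ[ℚ] K) (a : Kˣ) : ((tun_tau K σ a : Kˣ) : K) = σ (a : K) :=
  rfl

theorem tun_tau_iota (σ : K ≃ₐ[ℚ] K) (o : (𝓞 K)ˣ) :
    tun_tau K σ (tun_iota K o) =
      tun_iota K (Units.map (RingOfIntegers.mapRingEquiv σ.toRingEquiv : 𝓞 K →* 𝓞 K) o) := by
  apply Units.ext
  rfl

theorem tun_tau_mem_OU (σ : K ≃ₐ[ℚ] K) {a : Kˣ} (ha : a ∈ tun_OU K) :
    tun_tau K σ a ∈ tun_OU K := by
  obtain ⟨o, rfl⟩ := ha
  exact ⟨_, (tun_tau_iota σ o).symm⟩

theorem tun_tau_pow (σ : K ≃ₐ[ℚ] K) (n : ℕ) (h : σ ^ n = 1) : tun_tau K σ ^ n = 1 := by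
  rw [← map_pow, h, map_one]

/-- The permutation of the infinite places induced by an automorphism. -/
noncomputable def tun_sInf (σ : K ≃ₐ[ℚ] K) : Equiv.Perm (InfinitePlace K) :=
  MulAction.toPermHom (K ≃ₐ[ℚ] K) (InfinitePlace K) σ

@[simp] theorem tun_sInf_apply (σ : K ≃ₐ[ℚ] K) (w : InfinitePlace K) :
    tun_sInf σ w = σ • w := rfl

theorem tun_sInf_pow (σ : K ≃ₐ[ℚ] K) (n : ℕ) (h : σ ^ n = 1) : tun_sInf σ ^ n = 1 := by
  unfold tun_sInf
  rw [← map_pow, h, map_one]

/-- An automorphism of odd prime order has no fixed infinite place. -/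
theorem tun_sInf_free {p : ℕ} (hp : p.Prime) (hp2 : p ≠ 2) (σ : K ≃ₐ[ℚ] K)
    (hσ : orderOf σ = p) (w : InfinitePlace K) : σ • w ≠ w := by
  intro h
  have h1 : σ ∈ MulAction.stabilizer (K ≃ₐ[ℚ] K) w := h
  rw [← mk_embedding w, mem_stabilizer_mk_iff] at h1
  rcases h1 with h1 | h1
  · rw [h1, orderOf_one] at hσ
    exact hp.one_lt.ne hσ
  · by_cases h2 : σ = 1
    · rw [h2, orderOf_one] at hσ
      exact hp.one_lt.ne hσ
    · have := ComplexEmbedding.orderOf_isConj_two_of_ne_one h1 h2
      rw [hσ] at this
      exact hp2 this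

theorem tun_place_tau (σ : K ≃ₐ[ℚ] K) (w : InfinitePlace K) (a : Kˣ) :
    (σ • w) ((tun_tau K σ a : Kˣ) : K) = w (a : K) := by
  rw [tun_tau_coe, InfinitePlace.smul_apply]
  congr 1
  exact σ.symm_apply_apply _

end basics


end Fermat.Agent.S55
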