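/-
S55 (Poitou-Tate), GLOBAL side, package [T-UNIT](b) (helper13), part 3.  Prefix `tun_`.

`tun_abstract`: the ABSTRACT STRUCTURE THEOREM (Artin's equivariant units, Lang ANT IX §4).
`K` a number field, `σ` an automorphism of odd prime order `p`, `E ≤ Kˣ` a `σ`-stable subgroup
containing the integral units, `Y` a finite set with a permutation `t`, `ord y : Kˣ → ℤ`
homomorphisms (`y ∈ Y`) with `ord (t y) (σ a) = ord y a`, such that the integral units are
exactly the elements of `E` with all `ord y = 0` and every `y` carries an element of `E` with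
`ord y > 0` and `ord y' = 0` for `y' ≠ y`.  Then for `X := Y ⊕ InfinitePlace K` there is an
equivariant `φ : ℤ^X → E` with image of finite index and kernel `ℤ n₀`, `n₀ ≠ 0` invariant.
-/
import Mathlib
import Fermat.Agent.S55.Global.TUnitChoice
import Fermat.Agent.S55.Global.TUnitInf

set_option autoImplicit false
set_option linter.style.haveILetI false
set_option linter.unusedVariables false
set_option linter.unusedSectionVars false
set_option linter.unusedSimpArgs false
set_option maxHeartbeats 1000000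
set_option maxSynthPendingDepth 3

open NumberField NumberField.InfinitePlace NumberField.Units NumberField.Units.dirichletUnitTheorem
open Module

namespace Fermat.Agent.S55

section product

variable {G : Type} [CommGroup G] {X : Type} [Fintype X]

/-- The product map `n ↦ ∏ x, u x ^ n x`. -/
noncomputable def tun_P (u : X → G) (n : X → ℤ) : G := ∏ x, u x ^ n x

theorem tun_P_zero (u : X → G) : tun_P u 0 = 1 := by
  simp [tun_P]

theorem tun_P_add (u : X → G) (n m : X → ℤ) : tun_P u (n + m) = tun_P u n * tun_P u m := by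
  simp [tun_P, zpow_add, Finset.prod_mul_distrib]

theorem tun_P_neg (u : X → G) (n : X → ℤ) : tun_P u (-n) = (tun_P u n)⁻¹ := by
  simp [tun_P, zpow_neg, Finset.prod_inv_distrib]

theorem tun_P_sub (u : X → G) (n m : X → ℤ) : tun_P u (n - m) = tun_P u n / tun_P u m := by
  rw [sub_eq_add_neg, tun_P_add, tun_P_neg, div_eq_mul_inv]

theorem tun_P_zsmul (u : X → G) (k : ℤ) (n : X → ℤ) : tun_P u (k • n) = tun_P u n ^ k := by
  simp only [tun_P, Pi.smul_apply, smul_eq_mul]
  rw [← Finset.prod_zpow]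
  refine Finset.prod_congr rfl fun x _ => ?_
  rw [mul_comm, zpow_mul]

theorem tun_P_single [DecidableEq X] (u : X → G) (x : X) : tun_P u (Pi.single x 1) = u x := by
  unfold tun_P
  rw [Fintype.prod_eq_single x]
  · simp
  · intro y hy
    simp [Pi.single_apply, hy]

theorem tun_P_mem (u : X → G) (E : Subgroup G) (hu : ∀ x, u x ∈ E) (n : X → ℤ) :
    tun_P u n ∈ E :=
  Subgroup.prod_mem _ fun x _ => Subgroup.zpow_mem _ (hu x) _

theorem tun_P_map {G' : Type} [CommGroup G'] (f : G →* G') (u : X → G) (n : X → ℤ) :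
    f (tun_P u n) = tun_P (fun x => f (u x)) n := by
  simp [tun_P, map_prod, map_zpow]

theorem tun_P_perm (u : X → G) (s : Equiv.Perm X) (n : X → ℤ) :
    tun_P u (fun x => n (s.symm x)) = tun_P (fun x => u (s x)) n := by
  unfold tun_P
  rw [← Equiv.prod_comp s]
  simp

theorem tun_P_sum {Y W : Type} [Fintype Y] [Fintype W] (u : Y ⊕ W → G) (n : Y ⊕ W → ℤ) :
    tun_P u n = tun_P (fun y => u (Sum.inl y)) (fun y => n (Sum.inl y)) *
      tun_P (fun w => u (Sum.inr w)) (fun w => n (Sum.inr w)) := by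
  unfold tun_P
  rw [Fintype.prod_sum_type]

theorem tun_P_eq_of_support (u : X → G) (n : X → ℤ) (x : X)
    (h : ∀ y, y ≠ x → u y ^ n y = 1) : tun_P u n = u x ^ n x := by
  unfold tun_P
  exact Fintype.prod_eq_single x h

end product

end Fermat.Agent.S55

namespace Fermat.Agent.S55

section abstract

variable {K : Type} [Field K] [NumberField K]

/-- Finite index of the subgroup generated by the equivariant units, relative to `E`. -/
theorem tun_relIndex_ne_zero (E : Subgroup Kˣ) (hOE : tun_OU K ≤ E)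
    (Y : Type) [Fintype Y] (ord : Y → Kˣ →* Multiplicative ℤ)
    (hker : ∀ a ∈ E, (∀ y, ord y a = 1) → a ∈ tun_OU K)
    (u : Y ⊕ InfinitePlace K → Kˣ)
    (huY : ∀ y, 0 < (ord y (u (Sum.inl y))).toAdd ∧ ∀ y', y' ≠ y → ord y' (u (Sum.inl y)) = 1)
    (v : InfinitePlace K → (𝓞 K)ˣ) (hvu : ∀ w, tun_iota K (v w) = u (Sum.inr w))
    (hv : ∀ w w' : InfinitePlace K, w' ≠ w → Real.log (w' (v w)) < 0)
    (huE : ∀ x, u x ∈ E)
    (H : Subgroup Kˣ) (hH : ∀ x, u x ∈ H) : H.relIndex E ≠ 0 := by
  classical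
  -- a common multiple of the `c y`
  let c : Y → ℤ := fun y => (ord y (u (Sum.inl y))).toAdd
  have hc : ∀ y, 0 < c y := fun y => (huY y).1
  let C : ℕ := ∏ y, (c y).toNat
  have hCpos : 0 < C := Finset.prod_pos fun y _ => by
    have := hc y
    omega
  haveI : NeZero C := ⟨hCpos.ne'⟩
  have hcC : ∀ y, c y ∣ (C : ℤ) := by
    intro y
    have h1 : (c y).toNat ∣ C := Finset.dvd_prod_of_mem _ (Finset.mem_univ y)
    have h2 : ((c y).toNat : ℤ) = c y := Int.toNat_of_nonneg (hc y).le
    rw [← h2]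
    exact Int.natCast_dvd_natCast.2 h1
  -- the reduction map
  let g : Kˣ →* Multiplicative (Y → ZMod C) :=
    { toFun := fun a => Multiplicative.ofAdd (fun y => (((ord y a).toAdd : ℤ) : ZMod C))
      map_one' := by
        apply congrArg Multiplicative.ofAdd
        funext y
        simp
      map_mul' := fun a b => by
        rw [← ofAdd_add]
        apply congrArg Multiplicative.ofAdd
        funext y
        simp }
  have hgker : ∀ a, a ∈ g.ker ↔ ∀ y, (C : ℤ) ∣ (ord y a).toAdd := by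
    intro a
    rw [MonoidHom.mem_ker]
    constructor
    · intro h y
      have h1 : (fun y => (((ord y a).toAdd : ℤ) : ZMod C)) = 0 := by
        have := congrArg Multiplicative.toAdd h
        exact this
      have h2 := congrFun h1 y
      exact (ZMod.intCast_zmod_eq_zero_iff_dvd _ _).1 h2
    · intro h
      apply congrArg Multiplicative.ofAdd
      funext y
      exact (ZMod.intCast_zmod_eq_zero_iff_dvd _ _).2 (h y)
  -- (i) the kernel has finite relative index
  have h1 : g.ker.relIndex E ≠ 0 := by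
    rw [Subgroup.relIndex_ker]
    exact Nat.card_pos.ne'
  -- (ii) `H` has finite relative index in the integral units
  have h2 : H.relIndex (tun_OU K) ≠ 0 := by
    have h3 := tun_artin_index v hv
    have h4 : ((Subgroup.closure (Set.range v)).map (tun_iota K)).relIndex
        ((⊤ : Subgroup (𝓞 K)ˣ).map (tun_iota K)) =
        (Subgroup.closure (Set.range v)).relIndex ⊤ :=
      Subgroup.relIndex_map_map_of_injective _ _ (tun_iota_injective K)
    rw [Subgroup.relIndex_top_right, ← MonoidHom.range_eq_map] at h4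
    have h5 : (Subgroup.closure (Set.range v)).map (tun_iota K) ≤ H := by
      rw [Subgroup.map_le_iff_le_comap, Subgroup.closure_le]
      rintro _ ⟨w, rfl⟩
      show tun_iota K (v w) ∈ H
      rw [hvu]
      exact hH _
    have h6 := Subgroup.relIndex_dvd_of_le_left (tun_OU K) h5
    intro h0
    rw [h0, zero_dvd_iff] at h6
    change ((Subgroup.closure (Set.range v)).map (tun_iota K)).relIndex (tun_iota K).range = 0
      at h6
    rw [h4] at h6
    exact h3 h6
  -- (iii) the kernel inside `E` is contained in `H ⊔ O`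
  have h3 : g.ker ⊓ E ≤ H ⊔ tun_OU K := by
    intro a ha
    obtain ⟨ha1, ha2⟩ := Subgroup.mem_inf.1 ha
    rw [hgker] at ha1
    -- exponents
    have hk : ∀ y, ∃ k : ℤ, (ord y a).toAdd = c y * k := by
      intro y
      obtain ⟨k1, hk1⟩ := ha1 y
      obtain ⟨k2, hk2⟩ := hcC y
      exact ⟨k2 * k1, by rw [hk1, hk2]; ring⟩
    choose k hk using hk
    let b : Kˣ := tun_P (fun y => u (Sum.inl y)) k
    have hbH : b ∈ H := tun_P_mem _ H (fun y => hH _) k
    have hbE : b ∈ E := tun_P_mem _ E (fun y => huE _) k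
    have hord : ∀ y, ord y b = ord y a := by
      intro y
      show ord y (tun_P (fun y => u (Sum.inl y)) k) = _
      rw [tun_P_map, tun_P_eq_of_support _ _ y]
      · apply Multiplicative.toAdd.injective
        rw [toAdd_zpow, hk y, smul_eq_mul, mul_comm]
      · intro y' hy'
        rw [(huY y').2 y hy'.symm, one_zpow]
    have h4 : a * b⁻¹ ∈ tun_OU K := by
      apply hker
      · exact E.mul_mem ha2 (E.inv_mem hbE)
      · intro y
        rw [map_mul, map_inv, hord, mul_inv_cancel]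
    have h5 : a = b * (a * b⁻¹) := by
      rw [mul_comm a, mul_inv_cancel_left]
    rw [h5]
    exact Subgroup.mul_mem_sup hbH h4
  -- conclusion
  have h4 : H.relIndex (H ⊔ tun_OU K) ≠ 0 := by
    rw [Subgroup.relIndex_sup_left]
    exact h2
  have h5 : H.relIndex (g.ker ⊓ E) ≠ 0 := by
    intro h0
    exact h4 (Subgroup.relIndex_eq_zero_of_le_right h3 h0)
  have h6 : (g.ker ⊓ E).relIndex E ≠ 0 := by
    rw [Subgroup.inf_relIndex_right]
    exact h1
  exact Subgroup.relIndex_ne_zero_trans h5 h6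

end abstract

end Fermat.Agent.S55

namespace Fermat.Agent.S55

section kernel2

variable {K : Type} [Field K] [NumberField K]

theorem tun_psi_eq_zero_iff (v : InfinitePlace K → (𝓞 K)ˣ) (m : InfinitePlace K → ℤ) :
    tun_psi v m = 0 ↔ tun_P v m = 1 := by
  have h := tun_psi_toMul v m
  constructor
  · intro h0
    rw [h0] at h
    exact h.symm
  · intro h1
    have : (tun_psi v m).toMul = 1 := by rw [h]; exact h1
    exact this

/-- The relations between the equivariant units. -/
theorem tun_ker_aux (Y : Type) [Fintype Y] (ord : Y → Kˣ →* Multiplicative ℤ)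
    (hO : ∀ a ∈ tun_OU K, ∀ y, ord y a = 1)
    (u : Y ⊕ InfinitePlace K → Kˣ)
    (huY : ∀ y, 0 < (ord y (u (Sum.inl y))).toAdd ∧ ∀ y', y' ≠ y → ord y' (u (Sum.inl y)) = 1)
    (v : InfinitePlace K → (𝓞 K)ˣ) (hvu : ∀ w, tun_iota K (v w) = u (Sum.inr w))
    (n : Y ⊕ InfinitePlace K → ℤ) :
    tun_P u n = 1 ↔ (∀ y, n (Sum.inl y) = 0) ∧ tun_P v (fun w => n (Sum.inr w)) = 1 := by
  classical
  have hinr : tun_P (fun w => u (Sum.inr w)) (fun w => n (Sum.inr w)) =
      tun_iota K (tun_P v (fun w => n (Sum.inr w))) := by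
    rw [tun_P_map]
    simp only [hvu]
  constructor
  · intro h
    have h1 : ∀ y, n (Sum.inl y) = 0 := by
      intro y
      have h2 : ord y (tun_P u n) = 1 := by rw [h, map_one]
      rw [tun_P_map, tun_P_eq_of_support _ _ (Sum.inl y)] at h2
      · have h3 := congrArg Multiplicative.toAdd h2
        rw [toAdd_zpow, toAdd_one, smul_eq_mul] at h3
        rcases mul_eq_zero.1 h3 with h4 | h4
        · exact h4
        · exact absurd h4 (huY y).1.ne'
      · rintro (y' | w) hx
        · have hy' : y' ≠ y := fun e => hx (by rw [e])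
          rw [(huY y').2 y hy'.symm, one_zpow]
        · rw [← hvu, hO _ ⟨v w, rfl⟩, one_zpow]
    refine ⟨h1, ?_⟩
    rw [tun_P_sum, hinr] at h
    have h5 : tun_P (fun y => u (Sum.inl y)) (fun y => n (Sum.inl y)) = 1 := by
      unfold tun_P
      apply Finset.prod_eq_one
      intro y _
      show u (Sum.inl y) ^ n (Sum.inl y) = 1
      rw [h1 y, zpow_zero]
    rw [h5, one_mul] at h
    apply tun_iota_injective K
    rw [h, map_one]
  · rintro ⟨h1, h2⟩
    rw [tun_P_sum, hinr, h2, map_one, mul_one]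
    unfold tun_P
    apply Finset.prod_eq_one
    intro y _
    show u (Sum.inl y) ^ n (Sum.inl y) = 1
    rw [h1 y, zpow_zero]

/-- The group of relations is infinite cyclic. -/
theorem tun_ker (Y : Type) [Fintype Y] (ord : Y → Kˣ →* Multiplicative ℤ)
    (hO : ∀ a ∈ tun_OU K, ∀ y, ord y a = 1)
    (u : Y ⊕ InfinitePlace K → Kˣ)
    (huY : ∀ y, 0 < (ord y (u (Sum.inl y))).toAdd ∧ ∀ y', y' ≠ y → ord y' (u (Sum.inl y)) = 1)
    (v : InfinitePlace K → (𝓞 K)ˣ) (hvu : ∀ w, tun_iota K (v w) = u (Sum.inr w))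
    (hv : ∀ w w' : InfinitePlace K, w' ≠ w → Real.log (w' (v w)) < 0) :
    ∃ n₀ : Y ⊕ InfinitePlace K → ℤ, n₀ ≠ 0 ∧ ∀ n, tun_P u n = 1 ↔ ∃ k : ℤ, n = k • n₀ := by
  classical
  have haux := tun_ker_aux Y ord hO u huY v hvu
  let Ker : AddSubgroup (Y ⊕ InfinitePlace K → ℤ) :=
    { carrier := {n | tun_P u n = 1}
      zero_mem' := tun_P_zero u
      add_mem' := fun {a b} ha hb => by
        show tun_P u (a + b) = 1
        rw [tun_P_add, ha, hb, one_mul]
      neg_mem' := fun {a} ha => by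
        show tun_P u (-a) = 1
        rw [tun_P_neg, ha, inv_one] }
  have hKer : ∀ n, n ∈ Ker ↔ tun_P u n = 1 := fun n => Iff.rfl
  let ev : (Y ⊕ InfinitePlace K → ℤ) →+ ℤ :=
    Pi.evalAddMonoidHom (fun _ => ℤ) (Sum.inr w₀)
  obtain ⟨d, hd⟩ := Int.subgroup_cyclic (Ker.map ev)
  have hdA : d ∈ Ker.map ev := by
    rw [hd]
    exact AddSubgroup.subset_closure rfl
  obtain ⟨n₀, hn₀K, hn₀d⟩ := hdA
  have hn₀d' : n₀ (Sum.inr w₀) = d := hn₀d
  -- injectivity of the evaluation on the kernel
  have hinj : ∀ n, tun_P u n = 1 → n (Sum.inr w₀) = 0 → n = 0 := by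
    intro n hn h0
    obtain ⟨h1, h2⟩ := (haux n).1 hn
    have h3 := tun_psi_ker_inj v hv (fun w => n (Sum.inr w)) ((tun_psi_eq_zero_iff v _).2 h2) h0
    funext x
    rcases x with y | w
    · exact h1 y
    · exact congrFun h3 w
  have hspan : ∀ n, tun_P u n = 1 → ∃ k : ℤ, n = k • n₀ := by
    intro n hn
    have h1 : ev n ∈ Ker.map ev := ⟨n, hn, rfl⟩
    rw [hd, AddSubgroup.mem_closure_singleton] at h1
    obtain ⟨k, hk⟩ := h1
    refine ⟨k, ?_⟩
    have h2 : tun_P u (n - k • n₀) = 1 := by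
      rw [tun_P_sub, tun_P_zsmul, hn, (hKer n₀).1 hn₀K, one_zpow, div_one]
    have h3 : (n - k • n₀) (Sum.inr w₀) = 0 := by
      show n (Sum.inr w₀) - k • n₀ (Sum.inr w₀) = 0
      rw [hn₀d', hk]
      exact sub_self _
    have h4 := hinj _ h2 h3
    exact sub_eq_zero.1 h4
  refine ⟨n₀, ?_, fun n => ⟨hspan n, ?_⟩⟩
  · intro h0
    obtain ⟨m, hm0, hm⟩ := tun_psi_ker_ne v
    let m' : Y ⊕ InfinitePlace K → ℤ := Sum.elim 0 m
    have h1 : tun_P u m' = 1 := by
      rw [haux]
      refine ⟨fun y => rfl, ?_⟩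
      exact (tun_psi_eq_zero_iff v m).1 hm
    obtain ⟨k, hk⟩ := hspan m' h1
    rw [h0, smul_zero] at hk
    apply hm0
    funext w
    exact congrFun hk (Sum.inr w)
  · rintro ⟨k, rfl⟩
    rw [tun_P_zsmul, (hKer n₀).1 hn₀K, one_zpow]

end kernel2

end Fermat.Agent.S55

namespace Fermat.Agent.S55

section main

variable {K : Type} [Field K] [NumberField K]

/-- An integer whose odd power is `1` is `1`. -/
theorem tun_int_eq_one_of_pow {p : ℕ} (hp : p.Prime) (hp2 : p ≠ 2) (k : ℤ) (hk : k ^ p = 1) :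
    k = 1 := by
  have hodd : Odd p := hp.odd_of_ne_two hp2
  have h1 : IsUnit k := by
    have : IsUnit (k ^ p) := by rw [hk]; exact isUnit_one
    exact (isUnit_pow_iff hp.ne_zero).1 this
  rcases Int.isUnit_iff.1 h1 with h | h
  · exact h
  · rw [h, hodd.neg_one_pow] at hk
    norm_num at hk

/-- **The abstract structure theorem** for the units of a number field with an automorphism of
odd prime order, relative to finitely many additional discrete valuations. -/
theorem tun_abstract {p : ℕ} (hp : p.Prime) (hp2 : p ≠ 2)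
    (σ : K ≃ₐ[ℚ] K) (hσ : orderOf σ = p)
    (E : Subgroup Kˣ) (hOE : tun_OU K ≤ E) (hEσ : ∀ a ∈ E, tun_tau K σ a ∈ E)
    (Y : Type) [Fintype Y] (t : Equiv.Perm Y) (ht : t ^ p = 1)
    (ord : Y → Kˣ →* Multiplicative ℤ)
    (hord : ∀ y a, ord (t y) (tun_tau K σ a) = ord y a)
    (hO : ∀ a ∈ tun_OU K, ∀ y, ord y a = 1)
    (hker : ∀ a ∈ E, (∀ y, ord y a = 1) → a ∈ tun_OU K)
    (hex : ∀ y, ∃ a ∈ E, 0 < (ord y a).toAdd ∧ ∀ y', y' ≠ y → ord y' a = 1) :
    ∃ (X : Type) (_ : Fintype X) (s : Equiv.Perm X) (φ : (X → ℤ) →+ Additive ↥E) (n₀ : X → ℤ),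
      s ^ p = 1 ∧ Nat.card {x // s x = x} = Nat.card {y // t y = y} ∧
      (∀ n : X → ℤ, (((φ (fun x => n (s.symm x))).toMul : ↥E) : Kˣ) =
        tun_tau K σ (((φ n).toMul : ↥E) : Kˣ)) ∧
      φ.range.index ≠ 0 ∧ n₀ ≠ 0 ∧ (∀ x, n₀ (s x) = n₀ x) ∧
      φ.ker = AddSubgroup.zmultiples n₀ := by
  classical
  have hσp : σ ^ p = 1 := by rw [← hσ]; exact pow_orderOf_eq_one σ
  have hτp : tun_tau K σ ^ p = 1 := tun_tau_pow σ p hσp
  have hsI : tun_sInf σ ^ p = 1 := tun_sInf_pow σ p hσp
  let s : Equiv.Perm (Y ⊕ InfinitePlace K) :=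
    Equiv.Perm.sumCongrHom Y (InfinitePlace K) (t, tun_sInf σ)
  have hs : s ^ p = 1 := by
    show (Equiv.Perm.sumCongrHom Y (InfinitePlace K) (t, tun_sInf σ)) ^ p = 1
    rw [← map_pow, Prod.pow_mk, ht, hsI]
    exact map_one _
  have hsl : ∀ y, s (Sum.inl y) = Sum.inl (t y) := fun y => rfl
  have hsr : ∀ w, s (Sum.inr w) = Sum.inr (σ • w) := fun w => rfl
  -- the good sets
  let Good : Y ⊕ InfinitePlace K → Set Kˣ := fun x =>
    Sum.elim (fun y => {a | a ∈ E ∧ 0 < (ord y a).toAdd ∧ ∀ y', y' ≠ y → ord y' a = 1})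
      (fun w => {a | a ∈ tun_OU K ∧ ∀ w' : InfinitePlace K, w' ≠ w → w' (a : K) < 1}) x
  have hne : ∀ x, (Good x).Nonempty := by
    rintro (y | w)
    · obtain ⟨a, ha⟩ := hex y
      exact ⟨a, ha⟩
    · obtain ⟨o, ho⟩ := exists_unit K w
      refine ⟨tun_iota K o, ⟨o, rfl⟩, fun w' hw' => ?_⟩
      have h1 := ho w' hw'
      rw [tun_iota_coe]
      exact (Real.log_neg_iff (pos_at_place o w')).1 h1
  have hmap : ∀ x a, a ∈ Good x → tun_tau K σ a ∈ Good (s x) := by
    rintro (y | w) a ha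
    · obtain ⟨ha1, ha2, ha3⟩ := ha
      refine ⟨hEσ a ha1, ?_, fun y' hy' => ?_⟩
      · rw [hord]; exact ha2
      · have h1 : y' = t (t.symm y') := (t.apply_symm_apply y').symm
        rw [h1, hord]
        apply ha3
        intro h2
        apply hy'
        rw [← h2, Equiv.apply_symm_apply]
    · obtain ⟨ha1, ha2⟩ := ha
      refine ⟨tun_tau_mem_OU σ ha1, fun w' hw' => ?_⟩
      have h1 : w' = σ • (σ⁻¹ • w') := (smul_inv_smul σ w').symm
      rw [h1, tun_place_tau]
      apply ha2
      intro h2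
      apply hw'
      show w' = σ • w
      rw [← h2, smul_inv_smul]
  have hmul : ∀ x a b, a ∈ Good x → b ∈ Good x → a * b ∈ Good x := by
    rintro (y | w) a b ha hb
    · obtain ⟨ha1, ha2, ha3⟩ := ha
      obtain ⟨hb1, hb2, hb3⟩ := hb
      refine ⟨E.mul_mem ha1 hb1, ?_, fun y' hy' => ?_⟩
      · rw [map_mul, toAdd_mul]
        exact add_pos ha2 hb2
      · rw [map_mul, ha3 y' hy', hb3 y' hy', one_mul]
    · obtain ⟨ha1, ha2⟩ := ha
      obtain ⟨hb1, hb2⟩ := hb
      refine ⟨(tun_OU K).mul_mem ha1 hb1, fun w' hw' => ?_⟩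
      rw [Units.val_mul, map_mul]
      have h1 := ha2 w' hw'
      have h2 := hb2 w' hw'
      have h3 : 0 ≤ w' (a : K) := apply_nonneg _ _
      have h4 : 0 ≤ w' (b : K) := apply_nonneg _ _
      nlinarith
  obtain ⟨u, huG, hus⟩ := tun_equivariant_choice hp s hs (tun_tau K σ) hτp Good hne hmap hmul
  have huY : ∀ y, 0 < (ord y (u (Sum.inl y))).toAdd ∧
      ∀ y', y' ≠ y → ord y' (u (Sum.inl y)) = 1 := fun y => (huG (Sum.inl y)).2
  have huO : ∀ w, u (Sum.inr w) ∈ tun_OU K := fun w => (huG (Sum.inr w)).1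
  have huE : ∀ x, u x ∈ E := by
    rintro (y | w)
    · exact (huG (Sum.inl y)).1
    · exact hOE (huO w)
  choose v hvu using huO
  have hv : ∀ w w' : InfinitePlace K, w' ≠ w → Real.log (w' (v w)) < 0 := by
    intro w w' hw'
    have h1 := (huG (Sum.inr w)).2 w' hw'
    rw [← hvu, tun_iota_coe] at h1
    exact Real.log_neg (pos_at_place (v w) w') h1
  -- the map
  let φ : (Y ⊕ InfinitePlace K → ℤ) →+ Additive ↥E :=
    { toFun := fun n => Additive.ofMul ⟨tun_P u n, tun_P_mem u E huE n⟩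
      map_zero' := by
        apply congrArg Additive.ofMul
        exact Subtype.ext (tun_P_zero u)
      map_add' := fun n m => by
        rw [← ofMul_mul]
        apply congrArg Additive.ofMul
        exact Subtype.ext (tun_P_add u n m) }
  have hφ : ∀ n, (((φ n).toMul : ↥E) : Kˣ) = tun_P u n := fun n => rfl
  have hφ0 : ∀ n, φ n = 0 ↔ tun_P u n = 1 := by
    intro n
    constructor
    · intro h
      rw [← hφ, h]
      rfl
    · intro h
      apply congrArg Additive.ofMul
      exact Subtype.ext h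
  -- equivariance
  have heq : ∀ n : Y ⊕ InfinitePlace K → ℤ, tun_P u (fun x => n (s.symm x)) =
      tun_tau K σ (tun_P u n) := by
    intro n
    rw [tun_P_perm]
    have h1 : tun_tau K σ (tun_P u n) = tun_P (fun x => tun_tau K σ (u x)) n :=
      tun_P_map ((tun_tau K σ : Kˣ ≃* Kˣ) : Kˣ →* Kˣ) u n
    rw [h1]
    congr 1
    funext x
    exact hus x
  -- kernel
  obtain ⟨n₀, hn₀, hn₀k⟩ := tun_ker Y ord hO u huY v hvu hv
  have hkerφ : φ.ker = AddSubgroup.zmultiples n₀ := by
    ext n
    rw [AddMonoidHom.mem_ker, hφ0, hn₀k, AddSubgroup.mem_zmultiples_iff]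
    constructor
    · rintro ⟨k, rfl⟩; exact ⟨k, rfl⟩
    · rintro ⟨k, rfl⟩; exact ⟨k, rfl⟩
  -- invariance of `n₀`
  have hinv : ∀ x, n₀ (s x) = n₀ x := by
    have h1 : tun_P u n₀ = 1 := (hn₀k n₀).2 ⟨1, (one_smul _ _).symm⟩
    have h2 : tun_P u (fun x => n₀ (s.symm x)) = 1 := by rw [heq, h1, map_one]
    obtain ⟨k, hk⟩ := (hn₀k _).1 h2
    have h3 : ∀ i : ℕ, (fun x => n₀ ((s.symm ^ i) x)) = k ^ i • n₀ := by
      intro i
      induction i with
      | zero => simp
      | succ i ih =>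
        funext x
        have h4 := congrFun ih (s.symm x)
        have h5 := congrFun hk x
        simp only [Pi.smul_apply, smul_eq_mul] at h4 h5 ⊢
        rw [pow_succ, Equiv.Perm.mul_apply, h4, h5]
        ring
    have h4 : s.symm ^ p = 1 := by
      have : s.symm = s⁻¹ := rfl
      rw [this, inv_pow, hs, inv_one]
    have h5 := h3 p
    rw [h4] at h5
    have h6 : k ^ p = 1 := by
      obtain ⟨x, hx⟩ : ∃ x, n₀ x ≠ 0 := by
        by_contra hcon
        apply hn₀
        funext x
        by_contra hx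
        exact hcon ⟨x, hx⟩
      have h7 := congrFun h5 x
      simp only [Equiv.Perm.one_apply, Pi.smul_apply, smul_eq_mul] at h7
      have h8 : (k ^ p - 1) * n₀ x = 0 := by rw [sub_mul, one_mul, ← h7, sub_self]
      rcases mul_eq_zero.1 h8 with h9 | h9
      · exact sub_eq_zero.1 h9
      · exact absurd h9 hx
    have h7 := tun_int_eq_one_of_pow hp hp2 k h6
    rw [h7, one_smul] at hk
    intro x
    have h8 := congrFun hk (s x)
    simp only [Equiv.symm_apply_apply] at h8
    exact h8.symm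
  -- finite index
  let HP : Subgroup Kˣ :=
    { carrier := {a | ∃ n, tun_P u n = a}
      one_mem' := ⟨0, tun_P_zero u⟩
      mul_mem' := by
        rintro _ _ ⟨n, rfl⟩ ⟨m, rfl⟩
        exact ⟨n + m, tun_P_add u n m⟩
      inv_mem' := by
        rintro _ ⟨n, rfl⟩
        exact ⟨-n, tun_P_neg u n⟩ }
  have hHP : ∀ x, u x ∈ HP := fun x => ⟨Pi.single x 1, tun_P_single u x⟩
  have hrel := tun_relIndex_ne_zero E hOE Y ord hker u huY v hvu hv huE HP hHP
  have hidx : φ.range.index ≠ 0 := by
    have h1 : Subgroup.toAddSubgroup (HP.subgroupOf E) ≤ φ.range := by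
      intro e he
      have he' : ((e.toMul : ↥E) : Kˣ) ∈ HP := he
      obtain ⟨n, hn⟩ := he'
      exact ⟨n, congrArg Additive.ofMul (Subtype.ext hn)⟩
    have h2 := AddSubgroup.index_dvd_of_le h1
    rw [Subgroup.index_toAddSubgroup] at h2
    intro h0
    rw [h0, zero_dvd_iff] at h2
    exact hrel h2
  -- fixed points
  have hfix : Nat.card {x // s x = x} = Nat.card {y // t y = y} := by
    apply Nat.card_congr
    refine
      { toFun := fun x => ?_
        invFun := fun y => ⟨Sum.inl y.1, by rw [hsl, y.2]⟩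
        left_inv := ?_
        right_inv := ?_ }
    · rcases x with ⟨y | w, hx⟩
      · exact ⟨y, Sum.inl_injective hx⟩
      · exact absurd (Sum.inr_injective hx) (tun_sInf_free hp hp2 σ hσ w)
    · rintro ⟨y | w, hx⟩
      · rfl
      · exact absurd (Sum.inr_injective hx) (tun_sInf_free hp hp2 σ hσ w)
    · rintro ⟨y, hy⟩
      rfl
  exact ⟨Y ⊕ InfinitePlace K, inferInstance, s, φ, n₀, hs, hfix, fun n => heq n, hidx, hn₀, hinv,
    hkerφ⟩

end main

end Fermat.Agent.S55
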