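/-
S55 (fifth wave), GLOBAL side (helper26): interface between [T-UNIT](b) (structure of the
`T`-units, helper13) and [T-UNIT](a) (Herbrand calculus, helper26).

`gl_UnitStructStatement` is helper13's structure theorem (Artin's equivariant units, board #800):
for `σ` of odd prime order `p` and a finite set `T` of primes there are a finite set `X`
(the places of `F` above `T` together with the archimedean places) with a permutation `s`,
`s ^ p = 1`, whose fixed points are the places above `T` fixed by `σ`, and an equivariant
homomorphism `φ : ℤ^X → E_T` with image of finite index and kernel `ℤ n₀`, `n₀ ≠ 0` invariant.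
Then `q(E_T) = q(ℤ^X) / q(ℤ) = p ^ #Fix / p`, which is `gl_UnitHerbStatement`.
-/
import Mathlib
import Fermat.Agent.S55.Global.Defs

set_option autoImplicit false

namespace Fermat.Agent.S55

noncomputable section

/-- **[T-UNIT](b)** structure of the `T`-units as a module over `⟨σ⟩` (Lang ANT IX §4,
CF IV.8): a permutation lattice maps equivariantly onto a subgroup of finite index of `E_T`,
with kernel of rank one on which `σ` acts trivially. -/
def gl_UnitStructStatement : Prop :=
  ∀ (F : Type) [Field F] [NumberField F] (p : ℕ), p.Prime → p ≠ 2 →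
    ∀ σ : F ≃ₐ[ℚ] F, orderOf σ = p → ∀ T : Finset Nat.Primes,
      ∃ (X : Type) (_ : Fintype X) (s : Equiv.Perm X)
        (φ : (X → ℤ) →+ Additive ↥(gl_ET F (T : Set Nat.Primes))) (n₀ : X → ℤ),
        s ^ p = 1 ∧ Nat.card {x // s x = x} = gl_fixTotal F σ T ∧
          (∀ n : X → ℤ, φ (fun x => n (s.symm x)) = σ • φ n) ∧ φ.range.index ≠ 0 ∧
          n₀ ≠ 0 ∧ (∀ x, n₀ (s x) = n₀ x) ∧ φ.ker = AddSubgroup.zmultiples n₀

end

end Fermat.Agent.S55
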