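/-
S55 (Poitou-Tate), GLOBAL side, package [T-UNIT](b) (helper13), part 4.  Prefix `tun_`.

`tun_main : gl_UnitStructStatement` (hypothesis-free): the structure theorem for the `T`-units
`gl_ET F T` of helper26's model, from the abstract theorem `tun_abstract` and the dictionary
[PLACES] (helper23's `plc_`, helper18's `gpl_`):
* `tun_val`, `tun_ord`  : valuation / order at a prime as homomorphisms `Fˣ → Multiplicative ℤ`;
* `tun_norm_eq`         : `‖ι a‖ = c ^ ord_P a`;  `tun_c_comp`, `tun_ord_comp` (equivariance);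
* `tun_Y F T`           : the places of `F` above `T`, with the action of `Aut(F/ℚ)`;
* `tun_card_fix`        : the number of fixed places is `gl_fixTotal F σ T`;
* `tun_exists_gen`      : a generator of a power of a prime (finiteness of the class group).
-/
import Mathlib
import Fermat.Agent.S55.Global.UnitDefs
import Fermat.Agent.S55.Global.PlacesSurj
import Fermat.Agent.S55.Global.TUnitAbs

set_option autoImplicit false
set_option linter.style.haveILetI false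
set_option linter.unusedVariables false
set_option linter.unusedSectionVars false
set_option linter.unusedSimpArgs false
set_option maxHeartbeats 1000000
set_option synthInstance.maxHeartbeats 400000
set_option maxSynthPendingDepth 3

open NumberField IsDedekindDomain
open scoped nonZeroDivisors

namespace Fermat.Agent.S55

noncomputable section

section ord

variable {F : Type} [Field F] [NumberField F]

/-- The (multiplicative) valuation of a prime on `Fˣ`, as a homomorphism to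
`Multiplicative ℤ`. -/
def tun_val (P : HeightOneSpectrum (𝓞 F)) : Fˣ →* Multiplicative ℤ :=
  (WithZero.unitsWithZeroEquiv : (WithZero (Multiplicative ℤ))ˣ ≃* Multiplicative ℤ).toMonoidHom.comp
    (Units.map ((P.valuation F).toMonoidWithZeroHom : F →* WithZero (Multiplicative ℤ)))

theorem tun_val_coe (P : HeightOneSpectrum (𝓞 F)) (a : Fˣ) :
    ((tun_val P a : Multiplicative ℤ) : WithZero (Multiplicative ℤ)) = P.valuation F (a : F) := by
  unfold tun_val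
  simp [WithZero.unitsWithZeroEquiv]

theorem tun_val_eq_one_iff (P : HeightOneSpectrum (𝓞 F)) (a : Fˣ) :
    tun_val P a = 1 ↔ P.valuation F (a : F) = 1 := by
  rw [← tun_val_coe]
  constructor
  · intro h; rw [h]; rfl
  · intro h
    exact WithZero.coe_injective h

/-- The order at a prime: the inverse of the valuation, so that it is positive on the prime. -/
def tun_ord (P : HeightOneSpectrum (𝓞 F)) : Fˣ →* Multiplicative ℤ := (tun_val P)⁻¹

theorem tun_ord_eq_one_iff (P : HeightOneSpectrum (𝓞 F)) (a : Fˣ) :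
    tun_ord P a = 1 ↔ P.valuation F (a : F) = 1 := by
  unfold tun_ord
  rw [MonoidHom.inv_apply, inv_eq_one, tun_val_eq_one_iff]

theorem tun_ord_pos_iff (P : HeightOneSpectrum (𝓞 F)) (a : Fˣ) :
    0 < (tun_ord P a).toAdd ↔ P.valuation F (a : F) < 1 := by
  unfold tun_ord
  rw [MonoidHom.inv_apply, toAdd_inv, neg_pos, ← tun_val_coe]
  rw [← WithZero.coe_one, WithZero.coe_lt_coe]
  exact Iff.rfl

end ord

section norm

variable (q : ℕ) [Fact q.Prime] {F : Type} [Field F] [NumberField F]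
  (ι : F →ₐ[ℚ] PadicAlgCl q)

theorem tun_zpow_inj {c : ℝ} (hc0 : 0 < c) (hc1 : c < 1) {m n : ℤ} (h : c ^ m = c ^ n) :
    m = n := by
  exact zpow_right_injective₀ hc0 hc1.ne h

/-- (P2) in terms of `tun_ord`. -/
theorem tun_norm_eq (a : Fˣ) :
    ‖ι (a : F)‖ = plc_c q ι ^ (tun_ord (plc_prime q ι) a).toAdd := by
  rw [plc_norm_eq q ι (a : F) a.ne_zero]
  congr 1
  unfold tun_ord
  rw [MonoidHom.inv_apply, toAdd_inv, ← tun_val_coe]
  rfl

theorem tun_norm_eq_one_iff (a : Fˣ) :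
    ‖ι (a : F)‖ = 1 ↔ tun_ord (plc_prime q ι) a = 1 := by
  rw [tun_norm_eq]
  constructor
  · intro h
    have h1 : plc_c q ι ^ (tun_ord (plc_prime q ι) a).toAdd = plc_c q ι ^ (0 : ℤ) := by
      rw [h, zpow_zero]
    have h2 := tun_zpow_inj (plc_c_pos q ι) (plc_c_lt_one q ι) h1
    exact Multiplicative.toAdd.injective h2
  · intro h
    rw [h, toAdd_one, zpow_zero]

/-- The constant `c` is invariant under automorphisms of `F`. -/
theorem tun_c_comp (σ : F ≃ₐ[ℚ] F) :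
    plc_c q (ι.comp (σ : F →ₐ[ℚ] F)) = plc_c q ι := by
  -- `c' = c ^ m` and `c = c' ^ m'`
  have key : ∀ (ι₁ ι₂ : F →ₐ[ℚ] PadicAlgCl q) (ρ : F ≃ₐ[ℚ] F),
      (∀ x : F, ι₂ x = ι₁ (ρ x)) → ∃ m : ℤ, plc_c q ι₂ = plc_c q ι₁ ^ m := by
    intro ι₁ ι₂ ρ h
    have h1 : plc_c q ι₂ = ‖ι₁ (ρ (plc_unif q ι₂))‖ := by
      unfold plc_c
      rw [h]
    have hne : ρ (plc_unif q ι₂) ≠ 0 := by
      intro h0
      exact plc_unif_ne_zero q ι₂ ((map_eq_zero_iff ρ ρ.injective).1 h0)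
    rw [plc_norm_eq q ι₁ _ hne] at h1
    exact ⟨_, h1⟩
  obtain ⟨m, hm⟩ := key ι (ι.comp (σ : F →ₐ[ℚ] F)) σ (fun x => rfl)
  obtain ⟨m', hm'⟩ := key (ι.comp (σ : F →ₐ[ℚ] F)) ι σ.symm (fun x => by
    show ι x = ι (σ (σ.symm x))
    rw [σ.apply_symm_apply])
  have hc := plc_c_pos q ι
  have hc1 := plc_c_lt_one q ι
  have hc' := plc_c_pos q (ι.comp (σ : F →ₐ[ℚ] F))
  have hc1' := plc_c_lt_one q (ι.comp (σ : F →ₐ[ℚ] F))
  have h1 : plc_c q ι ^ (m * m') = plc_c q ι ^ (1 : ℤ) := by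
    rw [zpow_mul, ← hm, ← hm', zpow_one]
  have h2 : m * m' = 1 := tun_zpow_inj hc hc1 h1
  rcases Int.eq_one_or_neg_one_of_mul_eq_one h2 with h3 | h3
  · rw [hm, h3, zpow_one]
  · exfalso
    rw [h3, zpow_neg, zpow_one] at hm
    have h4 : 1 < (plc_c q ι)⁻¹ := (one_lt_inv₀ hc).2 hc1
    rw [← hm] at h4
    linarith

/-- Equivariance of the order. -/
theorem tun_ord_comp (σ : F ≃ₐ[ℚ] F) (a : Fˣ) :
    tun_ord (plc_prime q (ι.comp (σ.symm : F →ₐ[ℚ] F))) (tun_tau F σ a) =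
      tun_ord (plc_prime q ι) a := by
  have h1 := tun_norm_eq q (ι.comp (σ.symm : F →ₐ[ℚ] F)) (tun_tau F σ a)
  have h2 := tun_norm_eq q ι a
  have h3 : (ι.comp (σ.symm : F →ₐ[ℚ] F)) ((tun_tau F σ a : Fˣ) : F) = ι (a : F) := by
    show ι (σ.symm (σ (a : F))) = ι (a : F)
    rw [σ.symm_apply_apply]
  rw [h3, h2, tun_c_comp] at h1
  have h4 := tun_zpow_inj (plc_c_pos q ι) (plc_c_lt_one q ι) h1
  exact (Multiplicative.toAdd.injective h4).symm

end norm

section places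

variable (F : Type) [Field F] [NumberField F] (T : Finset Nat.Primes)

theorem tun_placeMap_one (q : ℕ) [Fact q.Prime] (w : gl_Place q F) :
    gl_placeMap q F 1 w = w := by
  obtain ⟨ι, rfl⟩ := gpl_placeOf_surjective q F w
  rfl

theorem tun_placeMap_mul (q : ℕ) [Fact q.Prime] (σ ρ : F ≃ₐ[ℚ] F) (w : gl_Place q F) :
    gl_placeMap q F σ (gl_placeMap q F ρ w) = gl_placeMap q F (ρ * σ) w := by
  obtain ⟨ι, rfl⟩ := gpl_placeOf_surjective q F w
  rfl

/-- The places of `F` above the primes of `T`. -/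
def tun_Y : Type :=
  Σ q : ↥T, @gl_Place ((q : Nat.Primes) : ℕ) ⟨(q : Nat.Primes).2⟩ F _ _

instance tun_Y_fintype : Fintype (tun_Y F T) := by
  classical
  haveI : ∀ q : ↥T, Fintype (@gl_Place ((q : Nat.Primes) : ℕ) ⟨(q : Nat.Primes).2⟩ F _ _) :=
    fun q =>
      haveI : Fact ((q : Nat.Primes) : ℕ).Prime := ⟨(q : Nat.Primes).2⟩
      haveI := gpl_finite_place ((q : Nat.Primes) : ℕ) F
      Fintype.ofFinite _
  unfold tun_Y
  infer_instance

variable {F T}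

/-- The prime of a place above `T`. -/
def tun_prime (y : tun_Y F T) : HeightOneSpectrum (𝓞 F) :=
  @gpl_placePrime ((y.1 : Nat.Primes) : ℕ) ⟨(y.1 : Nat.Primes).2⟩ F _ _ y.2

theorem tun_prime_mem (y : tun_Y F T) :
    ((((y.1 : Nat.Primes) : ℕ) : ℕ) : 𝓞 F) ∈ (tun_prime y).asIdeal :=
  @gpl_q_mem_placePrime ((y.1 : Nat.Primes) : ℕ) ⟨(y.1 : Nat.Primes).2⟩ F _ _ y.2

theorem tun_prime_injective : Function.Injective (tun_prime (F := F) (T := T)) := by
  rintro ⟨q, w⟩ ⟨q', w'⟩ h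
  have h1 : (q : Nat.Primes) = (q' : Nat.Primes) :=
    gpl_prime_over_unique F (tun_prime ⟨q, w⟩) q q' (tun_prime_mem ⟨q, w⟩)
      (by rw [h]; exact tun_prime_mem ⟨q', w'⟩)
  have h2 : q = q' := Subtype.ext h1
  subst h2
  haveI : Fact ((q : Nat.Primes) : ℕ).Prime := ⟨(q : Nat.Primes).2⟩
  have h3 : w = w' := gpl_placePrime_injective ((q : Nat.Primes) : ℕ) F h
  rw [h3]

/-- The action of the automorphisms on the places above `T`. -/
instance tun_Y_action : MulAction (F ≃ₐ[ℚ] F) (tun_Y F T) where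
  smul ρ y := ⟨y.1, @gl_placeMap ((y.1 : Nat.Primes) : ℕ) ⟨(y.1 : Nat.Primes).2⟩ F _ _ ρ⁻¹ y.2⟩
  one_smul y := by
    rcases y with ⟨q, w⟩
    haveI : Fact ((q : Nat.Primes) : ℕ).Prime := ⟨(q : Nat.Primes).2⟩
    show (⟨q, gl_placeMap ((q : Nat.Primes) : ℕ) F (1 : F ≃ₐ[ℚ] F)⁻¹ w⟩ : tun_Y F T) = ⟨q, w⟩
    rw [inv_one, tun_placeMap_one]
  mul_smul ρ ρ' y := by
    rcases y with ⟨q, w⟩
    haveI : Fact ((q : Nat.Primes) : ℕ).Prime := ⟨(q : Nat.Primes).2⟩
    show (⟨q, gl_placeMap ((q : Nat.Primes) : ℕ) F (ρ * ρ')⁻¹ w⟩ : tun_Y F T) =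
      ⟨q, gl_placeMap ((q : Nat.Primes) : ℕ) F ρ⁻¹ (gl_placeMap ((q : Nat.Primes) : ℕ) F ρ'⁻¹ w)⟩
    rw [tun_placeMap_mul, mul_inv_rev]

theorem tun_smul_def (ρ : F ≃ₐ[ℚ] F) (y : tun_Y F T) :
    ρ • y = ⟨y.1, @gl_placeMap ((y.1 : Nat.Primes) : ℕ) ⟨(y.1 : Nat.Primes).2⟩ F _ _ ρ⁻¹ y.2⟩ :=
  rfl

/-- The permutation of the places above `T` induced by `σ`. -/
def tun_t (σ : F ≃ₐ[ℚ] F) : Equiv.Perm (tun_Y F T) :=
  MulAction.toPermHom (F ≃ₐ[ℚ] F) (tun_Y F T) σ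

theorem tun_t_apply (σ : F ≃ₐ[ℚ] F) (y : tun_Y F T) : tun_t σ y = σ • y := rfl

theorem tun_t_pow (σ : F ≃ₐ[ℚ] F) (n : ℕ) (h : σ ^ n = 1) :
    (tun_t σ : Equiv.Perm (tun_Y F T)) ^ n = 1 := by
  unfold tun_t
  rw [← map_pow, h, map_one]

theorem tun_ord_t (σ : F ≃ₐ[ℚ] F) (y : tun_Y F T) (a : Fˣ) :
    tun_ord (tun_prime (tun_t σ y)) (tun_tau F σ a) = tun_ord (tun_prime y) a := by
  rcases y with ⟨q, w⟩
  haveI : Fact ((q : Nat.Primes) : ℕ).Prime := ⟨(q : Nat.Primes).2⟩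
  obtain ⟨ι, rfl⟩ := gpl_placeOf_surjective ((q : Nat.Primes) : ℕ) F w
  exact tun_ord_comp ((q : Nat.Primes) : ℕ) ι σ a

theorem tun_t_fix_iff (σ : F ≃ₐ[ℚ] F) (y : tun_Y F T) :
    tun_t σ y = y ↔
      @gl_placeMap ((y.1 : Nat.Primes) : ℕ) ⟨(y.1 : Nat.Primes).2⟩ F _ _ σ y.2 = y.2 := by
  rcases y with ⟨q, w⟩
  haveI : Fact ((q : Nat.Primes) : ℕ).Prime := ⟨(q : Nat.Primes).2⟩
  show (⟨q, gl_placeMap ((q : Nat.Primes) : ℕ) F σ⁻¹ w⟩ : tun_Y F T) = ⟨q, w⟩ ↔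
    gl_placeMap ((q : Nat.Primes) : ℕ) F σ w = w
  constructor
  · intro h
    have h1 : gl_placeMap ((q : Nat.Primes) : ℕ) F σ⁻¹ w = w := by
      have := Sigma.mk.inj_iff.1 h
      exact eq_of_heq this.2
    have h2 := congrArg (gl_placeMap ((q : Nat.Primes) : ℕ) F σ) h1
    rw [tun_placeMap_mul, inv_mul_cancel, tun_placeMap_one] at h2
    exact h2.symm
  · intro h
    have h2 := congrArg (gl_placeMap ((q : Nat.Primes) : ℕ) F σ⁻¹) h
    rw [tun_placeMap_mul, mul_inv_cancel, tun_placeMap_one] at h2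
    rw [← h2]

end places

section count

variable {F : Type} [Field F] [NumberField F] {T : Finset Nat.Primes}

theorem tun_card_fix (σ : F ≃ₐ[ℚ] F) :
    Nat.card {y : tun_Y F T // tun_t σ y = y} = gl_fixTotal F σ T := by
  classical
  let A : ↥T → Type := fun q =>
    {w : @gl_Place ((q : Nat.Primes) : ℕ) ⟨(q : Nat.Primes).2⟩ F _ _ //
      @gl_placeMap ((q : Nat.Primes) : ℕ) ⟨(q : Nat.Primes).2⟩ F _ _ σ w = w}
  have hfin : ∀ q : ↥T, Finite (A q) := fun q =>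
    haveI : Fact ((q : Nat.Primes) : ℕ).Prime := ⟨(q : Nat.Primes).2⟩
    haveI := gpl_finite_place ((q : Nat.Primes) : ℕ) F
    Subtype.finite
  let e : {y : tun_Y F T // tun_t σ y = y} ≃ Σ q : ↥T, A q :=
    { toFun := fun y => ⟨y.1.1, ⟨y.1.2, (tun_t_fix_iff σ y.1).1 y.2⟩⟩
      invFun := fun z => ⟨⟨z.1, z.2.1⟩, (tun_t_fix_iff σ ⟨z.1, z.2.1⟩).2 z.2.2⟩
      left_inv := fun y => rfl
      right_inv := fun z => rfl }
  rw [Nat.card_congr e, Nat.card_sigma]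
  unfold gl_fixTotal
  rw [← Finset.sum_coe_sort T (fun q => gl_fixCount F σ q)]
  rfl

end count

section hyps

variable {F : Type} [Field F] [NumberField F]

theorem tun_smul_eq_tau (σ : F ≃ₐ[ℚ] F) (a : Fˣ) : σ • a = tun_tau F σ a := by
  apply Units.ext
  rfl

theorem tun_val_unit (P : HeightOneSpectrum (𝓞 F)) (o : (𝓞 F)ˣ) :
    P.valuation F ((tun_iota F o : Fˣ) : F) = 1 := by
  have h1 : P.valuation F (algebraMap (𝓞 F) F (o : 𝓞 F)) ≤ 1 := P.valuation_le_one _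
  have h2 : P.valuation F (algebraMap (𝓞 F) F ((o⁻¹ : (𝓞 F)ˣ) : 𝓞 F)) ≤ 1 :=
    P.valuation_le_one _
  have h3 : algebraMap (𝓞 F) F (o : 𝓞 F) * algebraMap (𝓞 F) F ((o⁻¹ : (𝓞 F)ˣ) : 𝓞 F) = 1 := by
    rw [← map_mul, Units.mul_inv, map_one]
  have h4 := congrArg (P.valuation F) h3
  rw [map_mul, map_one] at h4
  rw [tun_iota_coe]
  apply le_antisymm h1
  by_contra hlt
  rw [not_le] at hlt
  have h5 : P.valuation F (algebraMap (𝓞 F) F (o : 𝓞 F)) *
      P.valuation F (algebraMap (𝓞 F) F ((o⁻¹ : (𝓞 F)ˣ) : 𝓞 F)) < 1 := by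
    calc _ ≤ P.valuation F (algebraMap (𝓞 F) F (o : 𝓞 F)) * 1 := by
            exact mul_le_mul_right h2 _
      _ = P.valuation F (algebraMap (𝓞 F) F (o : 𝓞 F)) := mul_one _
      _ < 1 := hlt
  rw [h4] at h5
  exact lt_irrefl _ h5

theorem tun_ord_unit (P : HeightOneSpectrum (𝓞 F)) {a : Fˣ} (ha : a ∈ tun_OU F) :
    tun_ord P a = 1 := by
  obtain ⟨o, rfl⟩ := ha
  rw [tun_ord_eq_one_iff]
  exact tun_val_unit P o

theorem tun_norm_unit (q : ℕ) [Fact q.Prime] (ι : F →ₐ[ℚ] PadicAlgCl q) {a : Fˣ}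
    (ha : a ∈ tun_OU F) : ‖ι (a : F)‖ = 1 := by
  rw [tun_norm_eq_one_iff]
  exact tun_ord_unit _ ha

/-- An element with trivial valuation at all primes is an integral unit. -/
theorem tun_mem_OU_of_val (a : Fˣ) (h : ∀ P : HeightOneSpectrum (𝓞 F), P.valuation F (a : F) = 1) :
    a ∈ tun_OU F := by
  have h1 : (a : F) ∈ (algebraMap (𝓞 F) F).range :=
    HeightOneSpectrum.mem_integers_of_valuation_le_one F (a : F) (fun P => (h P).le)
  have h2 : ((a⁻¹ : Fˣ) : F) ∈ (algebraMap (𝓞 F) F).range := by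
    apply HeightOneSpectrum.mem_integers_of_valuation_le_one F
    intro P
    rw [Units.val_inv_eq_inv_val, map_inv₀, h P, inv_one]
  obtain ⟨x, hx⟩ := h1
  obtain ⟨y, hy⟩ := h2
  have hxy : x * y = 1 := by
    apply RingOfIntegers.ext
    have : algebraMap (𝓞 F) F (x * y) = 1 := by
      rw [map_mul, hx, hy, Units.mul_inv]
    exact this
  have hyx : y * x = 1 := by rw [mul_comm]; exact hxy
  refine ⟨⟨x, y, hxy, hyx⟩, ?_⟩
  apply Units.ext
  exact hx

/-- A generator of a power of a prime. -/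
theorem tun_exists_gen (P : HeightOneSpectrum (𝓞 F)) :
    ∃ α : 𝓞 F, α ≠ 0 ∧ α ∈ P.asIdeal ∧
      ∀ P' : HeightOneSpectrum (𝓞 F), P' ≠ P → α ∉ P'.asIdeal := by
  classical
  let h := Fintype.card (ClassGroup (𝓞 F))
  have hpos : 0 < h := Fintype.card_pos
  have hP0 : P.asIdeal ∈ (Ideal (𝓞 F))⁰ := mem_nonZeroDivisors_of_ne_zero P.ne_bot
  have hI0 : P.asIdeal ^ h ∈ (Ideal (𝓞 F))⁰ :=
    mem_nonZeroDivisors_of_ne_zero (pow_ne_zero _ P.ne_bot)
  have h1 : ClassGroup.mk0 ⟨P.asIdeal ^ h, hI0⟩ = 1 := by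
    have h2 : (⟨P.asIdeal ^ h, hI0⟩ : (Ideal (𝓞 F))⁰) = ⟨P.asIdeal, hP0⟩ ^ h := by
      apply Subtype.ext
      rfl
    rw [h2, map_pow]
    exact pow_card_eq_one
  rw [ClassGroup.mk0_eq_one_iff] at h1
  obtain ⟨α, hα⟩ := h1.principal
  have hα' : P.asIdeal ^ h = Ideal.span {α} := hα
  refine ⟨α, ?_, ?_, ?_⟩
  · intro h0
    rw [h0, Ideal.span_singleton_eq_bot.2 rfl] at hα'
    exact pow_ne_zero _ P.ne_bot hα'
  · have h3 : α ∈ P.asIdeal ^ h := by
      rw [hα']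
      exact Ideal.mem_span_singleton_self α
    exact Ideal.pow_le_self hpos.ne' h3
  · intro P' hP' hmem
    apply hP'
    have h3 : P.asIdeal ^ h ≤ P'.asIdeal := by
      rw [hα', Ideal.span_singleton_le_iff_mem]
      exact hmem
    have h4 : P.asIdeal ≤ P'.asIdeal := P'.isPrime.le_of_pow_le h3
    have h5 : P.asIdeal = P'.asIdeal := P.isMaximal.eq_of_le P'.isPrime.ne_top h4
    exact (HeightOneSpectrum.ext h5).symm

end hyps

section final

variable {F : Type} [Field F] [NumberField F]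

theorem tun_mem_ET_norm {T : Finset Nat.Primes} {a : Fˣ}
    (ha : a ∈ gl_ET F (T : Set Nat.Primes)) (q : ℕ) [hq : Fact q.Prime]
    (hqT : (⟨q, hq.out⟩ : Nat.Primes) ∉ T) (ι : F →ₐ[ℚ] PadicAlgCl q) : ‖ι (a : F)‖ = 1 := by
  have h1 := ha ⟨q, hq.out⟩ (fun h => hqT (Finset.mem_coe.1 h))
  exact h1 ι

theorem tun_mem_ET_of_norm {T : Finset Nat.Primes} {a : Fˣ}
    (h : ∀ (q : ℕ) [hq : Fact q.Prime], (⟨q, hq.out⟩ : Nat.Primes) ∉ T →
      ∀ ι : F →ₐ[ℚ] PadicAlgCl q, ‖ι (a : F)‖ = 1) :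
    a ∈ gl_ET F (T : Set Nat.Primes) := by
  intro q hq
  haveI : Fact (q : ℕ).Prime := ⟨q.2⟩
  have hq' : (⟨(q : ℕ), (Fact.out : (q : ℕ).Prime)⟩ : Nat.Primes) ∉ T :=
    fun h => hq (Finset.mem_coe.2 h)
  intro ι
  exact h (q : ℕ) hq' ι

/-- **[T-UNIT](b)**: the structure theorem for the `T`-units. -/
theorem tun_main : gl_UnitStructStatement := by
  intro F _ _ p hp hp2 σ hσ T
  classical
  have hσp : σ ^ p = 1 := by rw [← hσ]; exact pow_orderOf_eq_one σ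
  -- the hypotheses of the abstract theorem
  have hOE : tun_OU F ≤ gl_ET F (T : Set Nat.Primes) := by
    intro a ha
    apply tun_mem_ET_of_norm
    intro q hq _ ι
    exact tun_norm_unit q ι ha
  have hEσ : ∀ a ∈ gl_ET F (T : Set Nat.Primes), tun_tau F σ a ∈ gl_ET F (T : Set Nat.Primes) := by
    intro a ha
    have := gl_smul_mem_ET F (T : Set Nat.Primes) σ a ha
    rwa [tun_smul_eq_tau] at this
  have hord : ∀ (y : tun_Y F T) (a : Fˣ),
      tun_ord (tun_prime (tun_t σ y)) (tun_tau F σ a) = tun_ord (tun_prime y) a :=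
    fun y a => tun_ord_t σ y a
  have hO : ∀ a ∈ tun_OU F, ∀ y : tun_Y F T, tun_ord (tun_prime y) a = 1 :=
    fun a ha y => tun_ord_unit _ ha
  have hker : ∀ a ∈ gl_ET F (T : Set Nat.Primes),
      (∀ y : tun_Y F T, tun_ord (tun_prime y) a = 1) → a ∈ tun_OU F := by
    intro a ha h
    apply tun_mem_OU_of_val
    intro P
    obtain ⟨q, hq⟩ := gpl_exists_prime_over F P
    haveI hqF : Fact (q : ℕ).Prime := ⟨q.2⟩
    obtain ⟨ι, hι⟩ := gpl_exists_embedding (q : ℕ) F P hq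
    rw [← tun_ord_eq_one_iff, ← hι]
    by_cases hqT : q ∈ T
    · exact h ⟨⟨q, hqT⟩, gl_placeOf (q : ℕ) F ι⟩
    · rw [← tun_norm_eq_one_iff]
      exact tun_mem_ET_norm ha (q : ℕ) hqT ι
  have hex : ∀ y : tun_Y F T, ∃ a ∈ gl_ET F (T : Set Nat.Primes),
      0 < (tun_ord (tun_prime y) a).toAdd ∧
        ∀ y' : tun_Y F T, y' ≠ y → tun_ord (tun_prime y') a = 1 := by
    intro y
    obtain ⟨α, hα0, hαP, hα⟩ := tun_exists_gen (tun_prime y)
    have hαF : (α : F) ≠ 0 := RingOfIntegers.coe_ne_zero_iff.mpr hα0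
    refine ⟨Units.mk0 (α : F) hαF, ?_, ?_, ?_⟩
    · apply tun_mem_ET_of_norm
      intro q hq hqT ι
      show ‖ι (α : F)‖ = 1
      apply plc_norm_eq_one_of_notMem
      apply hα
      intro hP
      apply hqT
      have h1 : (((⟨q, hq.out⟩ : Nat.Primes) : ℕ) : 𝓞 F) ∈ (tun_prime y).asIdeal := by
        rw [← hP]
        exact plc_q_mem_prime q ι
      have h2 := gpl_prime_over_unique F (tun_prime y) ⟨q, hq.out⟩ (y.1 : Nat.Primes) h1
        (tun_prime_mem y)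
      rw [h2]
      exact y.1.2
    · rw [tun_ord_pos_iff]
      show (tun_prime y).valuation F (algebraMap (𝓞 F) F α) < 1
      rw [HeightOneSpectrum.valuation_lt_one_iff_mem]
      exact hαP
    · intro y' hy'
      rw [tun_ord_eq_one_iff]
      show (tun_prime y').valuation F (algebraMap (𝓞 F) F α) = 1
      rw [HeightOneSpectrum.valuation_eq_one_iff_notMem]
      apply hα
      intro h
      exact hy' (tun_prime_injective h)
  obtain ⟨X, hX, s, φ, n₀, h1, h2, h3, h4, h5, h6, h7⟩ :=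
    tun_abstract hp hp2 σ hσ (gl_ET F (T : Set Nat.Primes)) hOE hEσ (tun_Y F T) (tun_t σ)
      (tun_t_pow σ p hσp) (fun y => tun_ord (tun_prime y)) hord hO hker hex
  refine ⟨X, hX, s, φ, n₀, h1, ?_, ?_, h4, h5, h6, h7⟩
  · rw [h2, tun_card_fix]
  · intro n
    apply Additive.toMul.injective
    apply Subtype.ext
    rw [h3 n]
    rfl

end final

end

end Fermat.Agent.S55
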