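/-
S55 (fifth wave), GLOBAL side, package [UNIT-HERB] (helper2), part 1: the Herbrand quotient of a
PERMUTATION LATTICE.

`X` a type, `s : Equiv.Perm X` with `s ^ p = 1`, `p` prime, acting on `M = (X → ℤ)` by
`(s • n) x = n (s⁻¹ x)` (`uherb_act`, a LOCAL instance). Then
* `uherb_perm_idx_nrm_del` : `[ker nrm : im del] = 1`   (`H¹ = 0`);
* `uherb_perm_idx_del_nrm` : `[ker del : im nrm] = p ^ #{x | s x = x}`  (`Ĥ⁰ = (ℤ/p)^Fix`).
Tool: an indicator `uherb_e` of a set of orbit representatives, with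
`∑_{k < p} e ((s ^ k)⁻¹ x) = 1` at every non-fixed point (`uherb_sum_e`).
Mathlib + HerbCyc only.
-/
import Mathlib
import Fermat.Agent.S55.Global.HerbCyc

set_option autoImplicit false
set_option linter.style.haveILetI false
set_option linter.unusedSectionVars false

namespace Fermat.Agent.S55

noncomputable section

/-- The permutation action of `Equiv.Perm X` on `X → ℤ`: `(g • n) x = n (g⁻¹ x)`. -/
@[reducible] def uherb_act (X : Type*) : DistribMulAction (Equiv.Perm X) (X → ℤ) where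
  smul g n := fun x => n (g⁻¹ x)
  one_smul _ := rfl
  mul_smul g h n := by
    funext x
    show n ((g * h)⁻¹ x) = n (h⁻¹ (g⁻¹ x))
    rw [mul_inv_rev]
    rfl
  smul_zero _ := rfl
  smul_add _ _ _ := rfl

attribute [local instance] uherb_act

section perm

variable {X : Type*} (s : Equiv.Perm X) {p : ℕ}

theorem uherb_smul_apply (g : Equiv.Perm X) (n : X → ℤ) (x : X) : (g • n) x = n (g⁻¹ x) := rfl

theorem uherb_nrm_eval (n : X → ℤ) (x : X) :
    herb_nrm s p n x = ∑ k ∈ Finset.range p, n ((s ^ k)⁻¹ x) := by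
  rw [herb_nrm_apply, Finset.sum_apply]
  rfl

theorem uherb_del_eval (n : X → ℤ) (x : X) : herb_del s n x = n (s⁻¹ x) - n x := rfl

/-! ### fixed points and periodic points -/

theorem uherb_apply_inv (g : Equiv.Perm X) (x : X) : g (g⁻¹ x) = x := g.apply_symm_apply x

theorem uherb_pow_fixed {x : X} (hx : s x = x) (k : ℕ) : (s ^ k) x = x := by
  induction k with
  | zero => rfl
  | succ k ih =>
    rw [pow_succ]
    show (s ^ k) (s x) = x
    rw [hx, ih]

theorem uherb_inv_pow_fixed {x : X} (hx : s x = x) (k : ℕ) : (s ^ k)⁻¹ x = x := by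
  rw [Equiv.Perm.inv_eq_iff_eq]
  exact (uherb_pow_fixed s hx k).symm

theorem uherb_inv_pow_not_fixed {x : X} (hx : s x ≠ x) (k : ℕ) : s ((s ^ k)⁻¹ x) ≠ (s ^ k)⁻¹ x := by
  intro h
  apply hx
  have h1 : (s ^ k) ((s ^ k)⁻¹ x) = x := uherb_apply_inv _ _
  have h2 : s ((s ^ k) ((s ^ k)⁻¹ x)) = (s ^ k) (s ((s ^ k)⁻¹ x)) := by
    show (s * s ^ k) ((s ^ k)⁻¹ x) = (s ^ k * s) ((s ^ k)⁻¹ x)
    rw [← pow_succ, ← pow_succ']
  rw [h1] at h2
  rw [h2, h, h1]

theorem uherb_fixed_of_pow (hp : p.Prime) (hs : s ^ p = 1) {d : ℕ} (hd0 : 0 < d) (hdp : d < p)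
    {x : X} (h : (s ^ d) x = x) : s x = x := by
  have h1 : Function.IsPeriodicPt s d x := by
    show (⇑s)^[d] x = x
    rw [Equiv.Perm.iterate_eq_pow]
    exact h
  have h2 : Function.IsPeriodicPt s p x := by
    show (⇑s)^[p] x = x
    rw [Equiv.Perm.iterate_eq_pow, hs]
    rfl
  have h3 := h1.gcd h2
  have h4 : Nat.gcd d p = 1 :=
    Nat.Coprime.symm ((Nat.Prime.coprime_iff_not_dvd hp).2 (Nat.not_dvd_of_pos_of_lt hd0 hdp))
  rw [h4] at h3
  exact h3

/-- Reindexing the sum over an orbit. -/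
theorem uherb_sum_inv (hs : s ^ p = 1) (f : X → ℤ) (x : X) :
    ∑ k ∈ Finset.range p, f ((s ^ k)⁻¹ x) = ∑ k ∈ Finset.range p, f ((s ^ k) x) := by
  have h1 : ∀ k ∈ Finset.range p, f ((s ^ k)⁻¹ x) = f ((s ^ (p - 1 - k + 1)) x) := by
    intro k hk
    have hk' : k < p := Finset.mem_range.1 hk
    have e1 : (s ^ k)⁻¹ = s ^ (p - 1 - k + 1) := by
      rw [inv_eq_iff_mul_eq_one, ← pow_add]
      have : k + (p - 1 - k + 1) = p := by omega
      rw [this, hs]
    rw [e1]
  rw [Finset.sum_congr rfl h1, Finset.sum_range_reflect (fun j => f ((s ^ (j + 1)) x)) p]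
  have h2 : ∑ k ∈ Finset.range (p + 1), f ((s ^ k) x) =
      ∑ k ∈ Finset.range p, f ((s ^ (k + 1)) x) + f ((s ^ 0) x) :=
    Finset.sum_range_succ' (fun j => f ((s ^ j) x)) p
  have h3 : ∑ k ∈ Finset.range (p + 1), f ((s ^ k) x) =
      ∑ k ∈ Finset.range p, f ((s ^ k) x) + f ((s ^ p) x) :=
    Finset.sum_range_succ (fun j => f ((s ^ j) x)) p
  have h4 : f ((s ^ p) x) = f ((s ^ 0) x) := by rw [hs, pow_zero]
  linarith

/-! ### orbit representatives -/

/-- A representative of the `s`-orbit of `x`. -/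
def uherb_rep (x : X) : X :=
  @Quotient.out _ (Equiv.Perm.SameCycle.setoid s) (@Quotient.mk _ (Equiv.Perm.SameCycle.setoid s) x)

theorem uherb_rep_sameCycle (x : X) : s.SameCycle (uherb_rep s x) x :=
  @Quotient.mk_out _ (Equiv.Perm.SameCycle.setoid s) x

theorem uherb_rep_apply (x : X) : uherb_rep s (s x) = uherb_rep s x := by
  unfold uherb_rep
  congr 1
  apply Quotient.sound
  show s.SameCycle (s x) x
  exact Equiv.Perm.sameCycle_apply_left.2 (Equiv.Perm.SameCycle.refl s x)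

theorem uherb_rep_pow (k : ℕ) (x : X) : uherb_rep s ((s ^ k) x) = uherb_rep s x := by
  induction k with
  | zero => rfl
  | succ k ih =>
    rw [pow_succ']
    show uherb_rep s (s ((s ^ k) x)) = uherb_rep s x
    rw [uherb_rep_apply, ih]

theorem uherb_rep_inv_pow (k : ℕ) (x : X) : uherb_rep s ((s ^ k)⁻¹ x) = uherb_rep s x := by
  have h := uherb_rep_pow s k ((s ^ k)⁻¹ x)
  rw [uherb_apply_inv] at h
  exact h.symm

theorem uherb_rep_exists (hp : p.Prime) (hs : s ^ p = 1) (x : X) :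
    ∃ k, k < p ∧ (s ^ k) (uherb_rep s x) = x := by
  obtain ⟨i, hi⟩ := uherb_rep_sameCycle s x
  have hp0 : ((p : ℕ) : ℤ) ≠ 0 := Nat.cast_ne_zero.2 hp.ne_zero
  have hpp : (0 : ℤ) < ((p : ℕ) : ℤ) := Nat.cast_pos.2 hp.pos
  have h1 : s ^ i = s ^ (i % (p : ℤ)).toNat := by
    rw [zpow_eq_zpow_emod (x := s) i (n := (p : ℤ)) (by rw [zpow_natCast, hs]),
      ← zpow_natCast, Int.toNat_of_nonneg (Int.emod_nonneg i hp0)]
  refine ⟨(i % (p : ℤ)).toNat, ?_, ?_⟩
  · have h2 := Int.emod_lt_of_pos i hpp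
    have h3 := Int.toNat_of_nonneg (Int.emod_nonneg i hp0)
    omega
  · rw [← h1]
    exact hi

open Classical in
/-- The indicator function of the set of orbit representatives. -/
def uherb_e (x : X) : ℤ := if uherb_rep s x = x then 1 else 0

/-- At a non-fixed point exactly one of the `(s ^ k)⁻¹ x`, `k < p`, is a representative. -/
theorem uherb_sum_e (hp : p.Prime) (hs : s ^ p = 1) {x : X} (hx : s x ≠ x) :
    ∑ k ∈ Finset.range p, uherb_e s ((s ^ k)⁻¹ x) = 1 := by
  classical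
  obtain ⟨k₀, hk₀, hk₀x⟩ := uherb_rep_exists s hp hs x
  have h1 : ∀ k ∈ Finset.range p, uherb_e s ((s ^ k)⁻¹ x) = if k = k₀ then 1 else 0 := by
    intro k hk
    have hk' : k < p := Finset.mem_range.1 hk
    unfold uherb_e
    rw [uherb_rep_inv_pow]
    by_cases hkk : k = k₀
    · rw [if_pos hkk, if_pos]
      rw [hkk, eq_comm, Equiv.Perm.inv_eq_iff_eq]
      exact hk₀x.symm
    · rw [if_neg hkk, if_neg]
      intro h
      have h2 : (s ^ k) (uherb_rep s x) = x := by
        rw [eq_comm, Equiv.Perm.inv_eq_iff_eq] at h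
        exact h.symm
      -- `s ^ k y = x = s ^ k₀ y`
      apply hx
      rcases Nat.lt_or_gt_of_ne hkk with hlt | hlt
      · -- k < k₀
        refine uherb_fixed_of_pow s hp hs (d := k₀ - k) (by omega) (by omega) ?_
        have e1 : s ^ k₀ = s ^ (k₀ - k) * s ^ k := by
          rw [← pow_add]
          congr 1
          omega
        have e2 : (s ^ k₀) (uherb_rep s x) = (s ^ (k₀ - k)) ((s ^ k) (uherb_rep s x)) := by
          rw [e1]
          rfl
        rw [h2, hk₀x] at e2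
        exact e2.symm
      · refine uherb_fixed_of_pow s hp hs (d := k - k₀) (by omega) (by omega) ?_
        have e1 : s ^ k = s ^ (k - k₀) * s ^ k₀ := by
          rw [← pow_add]
          congr 1
          omega
        have e2 : (s ^ k) (uherb_rep s x) = (s ^ (k - k₀)) ((s ^ k₀) (uherb_rep s x)) := by
          rw [e1]
          rfl
        rw [h2, hk₀x] at e2
        exact e2.symm
  rw [Finset.sum_congr rfl h1, Finset.sum_ite_eq' (Finset.range p) k₀ (fun _ => (1 : ℤ)),
    if_pos (Finset.mem_range.2 hk₀)]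

/-! ### invariant functions -/

theorem uherb_inv_of_mem_ker {n : X → ℤ} (hn : n ∈ (herb_del s : (X → ℤ) →+ (X → ℤ)).ker)
    (x : X) : n (s⁻¹ x) = n x := by
  have h1 : herb_del s n = 0 := hn
  have h2 := congrFun h1 x
  rw [uherb_del_eval] at h2
  exact sub_eq_zero.1 h2

theorem uherb_inv_pow_of_mem_ker {n : X → ℤ}
    (hn : n ∈ (herb_del s : (X → ℤ) →+ (X → ℤ)).ker) (k : ℕ) (x : X) :
    n ((s ^ k)⁻¹ x) = n x := by
  induction k generalizing x with
  | zero => rfl
  | succ k ih =>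
    have e1 : (s ^ (k + 1))⁻¹ x = s⁻¹ ((s ^ k)⁻¹ x) := by
      rw [pow_succ, mul_inv_rev]
      rfl
    rw [e1, uherb_inv_of_mem_ker s hn, ih]

/-! ### `H¹ = 0` -/

/-- `[ker nrm : im del] = 1` for a permutation lattice. -/
theorem uherb_perm_idx_nrm_del (hp : p.Prime) (hs : s ^ p = 1) :
    herb_idx (herb_nrm s p : (X → ℤ) →+ (X → ℤ)) (herb_del s) = 1 := by
  unfold herb_idx
  rw [AddSubgroup.relIndex_eq_one]
  intro n hn
  have hn0 : herb_nrm s p n = 0 := hn
  have hnx : ∀ x, ∑ k ∈ Finset.range p, n ((s ^ k)⁻¹ x) = 0 := by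
    intro x
    rw [← uherb_nrm_eval, hn0]
    rfl
  refine ⟨∑ k ∈ Finset.range p, herb_nrm s k (fun y => uherb_e s y * n ((s ^ k) y)), ?_⟩
  rw [map_sum]
  have h1 : ∀ k ∈ Finset.range p,
      herb_del s (herb_nrm s k (fun y => uherb_e s y * n ((s ^ k) y))) =
        (s ^ k) • (fun y => uherb_e s y * n ((s ^ k) y)) -
          (fun y => uherb_e s y * n ((s ^ k) y)) :=
    fun k _ => herb_del_nrm_eq s k _
  rw [Finset.sum_congr rfl h1, Finset.sum_sub_distrib]
  funext x
  rw [Pi.sub_apply, Finset.sum_apply, Finset.sum_apply]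
  have h2 : ∀ k ∈ Finset.range p,
      ((s ^ k) • (fun y => uherb_e s y * n ((s ^ k) y))) x = uherb_e s ((s ^ k)⁻¹ x) * n x := by
    intro k _
    show uherb_e s ((s ^ k)⁻¹ x) * n ((s ^ k) ((s ^ k)⁻¹ x)) = _
    rw [uherb_apply_inv]
  rw [Finset.sum_congr rfl h2, ← Finset.sum_mul, ← Finset.mul_sum,
    ← uherb_sum_inv s hs n x, hnx x, mul_zero, sub_zero]
  by_cases hx : s x = x
  · have h3 := hnx x
    have h4 : ∀ k ∈ Finset.range p, n ((s ^ k)⁻¹ x) = n x := by
      intro k _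
      rw [uherb_inv_pow_fixed s hx k]
    rw [Finset.sum_congr rfl h4, Finset.sum_const, Finset.card_range, nsmul_eq_mul] at h3
    have h5 : n x = 0 := by
      rcases mul_eq_zero.1 h3 with h | h
      · exact absurd (by exact_mod_cast h) hp.ne_zero
      · exact h
    rw [h5, mul_zero]
  · rw [uherb_sum_e s hp hs hx, one_mul]

/-! ### `Ĥ⁰ = (ℤ/p)^Fix` -/

/-- Reduction mod `p` of the values of an invariant function at the fixed points. -/
def uherb_psi (p : ℕ) : ↥(herb_del s : (X → ℤ) →+ (X → ℤ)).ker →+ ({x : X // s x = x} → ZMod p) :=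
  AddMonoidHom.mk' (fun n x => (((n : X → ℤ) (x : X) : ℤ) : ZMod p)) (by
    intro n m
    funext x
    show ((((n : X → ℤ) + (m : X → ℤ)) (x : X) : ℤ) : ZMod p) = _
    rw [Pi.add_apply, Int.cast_add]
    rfl)

theorem uherb_psi_apply (n : ↥(herb_del s : (X → ℤ) →+ (X → ℤ)).ker) (x : {x : X // s x = x}) :
    uherb_psi s p n x = (((n : X → ℤ) (x : X) : ℤ) : ZMod p) := rfl

theorem uherb_psi_surjective : Function.Surjective (uherb_psi s p) := by
  classical
  intro t
  have hmem : (fun x : X => if h : s x = x then ((t ⟨x, h⟩).cast : ℤ) else 0) ∈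
      (herb_del s : (X → ℤ) →+ (X → ℤ)).ker := by
    show herb_del s _ = 0
    funext x
    rw [uherb_del_eval]
    show _ - _ = (0 : ℤ)
    rw [sub_eq_zero]
    by_cases hx : s x = x
    · have hx' : s⁻¹ x = x := by
        rw [Equiv.Perm.inv_eq_iff_eq]
        exact hx.symm
      simp only [hx']
    · have hx' : s (s⁻¹ x) ≠ s⁻¹ x := by
        have := uherb_inv_pow_not_fixed s hx 1
        rwa [pow_one] at this
      rw [dif_neg hx', dif_neg hx]
  refine ⟨⟨_, hmem⟩, ?_⟩
  funext x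
  rw [uherb_psi_apply]
  show (((if h : s (x : X) = (x : X) then ((t ⟨x, h⟩).cast : ℤ) else 0 : ℤ)) : ZMod p) = t x
  rw [dif_pos x.2]
  exact ZMod.intCast_zmod_cast (t x)

theorem uherb_psi_ker (hp : p.Prime) (hs : s ^ p = 1) :
    (uherb_psi s p).ker = (herb_nrm s p : (X → ℤ) →+ (X → ℤ)).range.addSubgroupOf
      (herb_del s : (X → ℤ) →+ (X → ℤ)).ker := by
  classical
  ext n
  rw [AddMonoidHom.mem_ker, AddSubgroup.mem_addSubgroupOf]
  constructor
  · intro h
    have hdvd : ∀ x : X, s x = x → ((p : ℕ) : ℤ) ∣ (n : X → ℤ) x := by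
      intro x hx
      have h1 := congrFun h ⟨x, hx⟩
      rw [uherb_psi_apply] at h1
      exact (ZMod.intCast_zmod_eq_zero_iff_dvd _ p).1 h1
    refine ⟨fun x => if s x = x then (n : X → ℤ) x / (p : ℤ) else uherb_e s x * (n : X → ℤ) x, ?_⟩
    funext x
    rw [uherb_nrm_eval]
    by_cases hx : s x = x
    · have h2 : ∀ k ∈ Finset.range p,
          (fun x => if s x = x then (n : X → ℤ) x / (p : ℤ) else uherb_e s x * (n : X → ℤ) x)
            ((s ^ k)⁻¹ x) = (n : X → ℤ) x / (p : ℤ) := by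
        intro k _
        show (if s ((s ^ k)⁻¹ x) = (s ^ k)⁻¹ x then _ else _) = _
        rw [uherb_inv_pow_fixed s hx k, if_pos hx]
      rw [Finset.sum_congr rfl h2, Finset.sum_const, Finset.card_range, nsmul_eq_mul]
      exact Int.mul_ediv_cancel' (hdvd x hx)
    · have h2 : ∀ k ∈ Finset.range p,
          (fun x => if s x = x then (n : X → ℤ) x / (p : ℤ) else uherb_e s x * (n : X → ℤ) x)
            ((s ^ k)⁻¹ x) = uherb_e s ((s ^ k)⁻¹ x) * (n : X → ℤ) x := by
        intro k _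
        show (if s ((s ^ k)⁻¹ x) = (s ^ k)⁻¹ x then _ else _) = _
        rw [if_neg (uherb_inv_pow_not_fixed s hx k), uherb_inv_pow_of_mem_ker s n.2 k x]
      rw [Finset.sum_congr rfl h2, ← Finset.sum_mul, uherb_sum_e s hp hs hx, one_mul]
  · rintro ⟨m, hm⟩
    funext x
    rw [uherb_psi_apply, ← hm, uherb_nrm_eval]
    have h2 : ∀ k ∈ Finset.range p, m ((s ^ k)⁻¹ (x : X)) = m (x : X) := by
      intro k _
      rw [uherb_inv_pow_fixed s x.2 k]
    rw [Finset.sum_congr rfl h2, Finset.sum_const, Finset.card_range, nsmul_eq_mul]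
    show (((p : ℤ) * m (x : X) : ℤ) : ZMod p) = 0
    rw [Int.cast_mul, Int.cast_natCast, ZMod.natCast_self, zero_mul]

/-- `[ker del : im nrm] = p ^ #Fix` for a permutation lattice. -/
theorem uherb_perm_idx_del_nrm [Finite X] (hp : p.Prime) (hs : s ^ p = 1) :
    herb_idx (herb_del s : (X → ℤ) →+ (X → ℤ)) (herb_nrm s p) =
      p ^ Nat.card {x : X // s x = x} := by
  unfold herb_idx AddSubgroup.relIndex
  have hr : (uherb_psi s p).range = ⊤ := AddMonoidHom.range_eq_top.2 (uherb_psi_surjective s)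
  rw [← uherb_psi_ker s hp hs, AddSubgroup.index_ker, hr]
  have h1 : Nat.card ↥(⊤ : AddSubgroup ({x : X // s x = x} → ZMod p)) =
      Nat.card ({x : X // s x = x} → ZMod p) :=
    Nat.card_congr AddSubgroup.topEquiv.toEquiv
  rw [h1, Nat.card_fun, Nat.card_zmod]

end perm

end

end Fermat.Agent.S55
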