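/-
S55 (fifth wave), GLOBAL side, package [UNIT-HERB] (helper2), part 2:
`uherb_main : gl_UnitStructStatement → gl_UnitHerbStatement`.

ABSTRACT form `uherb_abstract`: `A` an abelian group with an automorphism `σ`, `σ ^ p = 1`,
`φ : ℤ^X → A` equivariant for a permutation `s` of `X` with `s ^ p = 1`, image of finite index,
kernel `ℤ n₀` with `n₀ ≠ 0` invariant. Then the Herbrand indices of `A` are finite and
`p · [ker del : im nrm] = p ^ #Fix(s) · [ker nrm : im del]`.
Proof: `q(ℤ^X) = p ^ #Fix` (`UnitHerbPerm.lean`), `q(ℤ n₀) = p`, multiplicativity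
(`herb_idx_mul`) for `0 → ℤ → ℤ^X → im φ → 0` and for `0 → im φ → A → A / im φ → 0`.
-/
import Mathlib
import Fermat.Agent.S55.Global.UnitDefs
import Fermat.Agent.S55.Global.UnitHerbPerm

set_option autoImplicit false
set_option linter.style.haveILetI false
set_option linter.unusedSectionVars false

namespace Fermat.Agent.S55

noncomputable section

attribute [local instance] uherb_act

section restr

variable {A : Type*} [AddCommGroup A]

/-- Restriction of an endomorphism to a stable subgroup. -/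
def uherb_restr (R : AddSubgroup A) (f : A →+ A) (h : ∀ a ∈ R, f a ∈ R) : ↥R →+ ↥R :=
  (f.comp R.subtype).codRestrict R (fun a => h a a.2)

@[simp] theorem uherb_restr_coe (R : AddSubgroup A) (f : A →+ A) (h : ∀ a ∈ R, f a ∈ R)
    (a : ↥R) : ((uherb_restr R f h a : ↥R) : A) = f a := rfl

/-- The endomorphism induced on the quotient by a stable subgroup. -/
def uherb_quot (R : AddSubgroup A) (f : A →+ A) (h : ∀ a ∈ R, f a ∈ R) : A ⧸ R →+ A ⧸ R :=
  QuotientAddGroup.map R R f (fun a ha => h a ha)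

@[simp] theorem uherb_quot_mk (R : AddSubgroup A) (f : A →+ A) (h : ∀ a ∈ R, f a ∈ R) (a : A) :
    uherb_quot R f h (QuotientAddGroup.mk' R a) = QuotientAddGroup.mk' R (f a) := rfl

/-- A stable subgroup of finite index has the same Herbrand quotient (identity in `ℕ`). -/
theorem uherb_finite_index (R : AddSubgroup A) (hR : R.index ≠ 0) (f g : A →+ A)
    (hf : ∀ a ∈ R, f a ∈ R) (hg : ∀ a ∈ R, g a ∈ R)
    (hfg : ∀ a, f (g a) = 0) (hgf : ∀ a, g (f a) = 0)
    (hfin : herb_Fin (uherb_restr R f hf) (uherb_restr R g hg)) :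
    herb_Fin f g ∧
      herb_idx f g * herb_idx (uherb_restr R g hg) (uherb_restr R f hf) =
        herb_idx g f * herb_idx (uherb_restr R f hf) (uherb_restr R g hg) := by
  haveI : R.FiniteIndex := AddSubgroup.finiteIndex_iff.2 hR
  haveI : Finite (A ⧸ R) := AddSubgroup.finite_quotient_of_finiteIndex
  have hi : Function.Injective R.subtype := Subtype.val_injective
  have hπ : Function.Surjective (QuotientAddGroup.mk' R) := QuotientAddGroup.mk'_surjective R
  have hex : (QuotientAddGroup.mk' R).ker = R.subtype.range := by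
    rw [QuotientAddGroup.ker_mk', AddSubgroup.range_subtype]
  have hfg'' : ∀ a, uherb_quot R f hf (uherb_quot R g hg a) = 0 := by
    intro a
    obtain ⟨b, rfl⟩ := hπ a
    rw [uherb_quot_mk, uherb_quot_mk, hfg, map_zero]
  have hgf'' : ∀ a, uherb_quot R g hg (uherb_quot R f hf a) = 0 := by
    intro a
    obtain ⟨b, rfl⟩ := hπ a
    rw [uherb_quot_mk, uherb_quot_mk, hgf, map_zero]
  have hfinQ : herb_Fin (uherb_quot R f hf) (uherb_quot R g hg) := herb_fin_of_finite _ _
  have hfinA : herb_Fin f g :=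
    herb_fin_mid R.subtype (QuotientAddGroup.mk' R) hi hπ hex
      (uherb_restr R f hf) (uherb_restr R g hg) f g (uherb_quot R f hf) (uherb_quot R g hg)
      (fun _ => rfl) (fun _ => rfl) (fun _ => rfl) (fun _ => rfl) hfg hgf hfin hfinQ
  refine ⟨hfinA, ?_⟩
  have key := herb_idx_mul R.subtype (QuotientAddGroup.mk' R) hi hπ hex
    (uherb_restr R f hf) (uherb_restr R g hg) f g (uherb_quot R f hf) (uherb_quot R g hg)
    (fun _ => rfl) (fun _ => rfl) (fun _ => rfl) (fun _ => rfl) hfg hgf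
  have hQ : herb_idx (uherb_quot R f hf) (uherb_quot R g hg) =
      herb_idx (uherb_quot R g hg) (uherb_quot R f hf) :=
    herb_idx_finite _ _ hfg'' hgf''
  have hQ0 : 0 < herb_idx (uherb_quot R g hg) (uherb_quot R f hf) :=
    Nat.pos_of_ne_zero hfinQ.2
  rw [hQ] at key
  apply Nat.eq_of_mul_eq_mul_right hQ0
  calc herb_idx f g * herb_idx (uherb_restr R g hg) (uherb_restr R f hf) *
        herb_idx (uherb_quot R g hg) (uherb_quot R f hf)
      = herb_idx f g * (herb_idx (uherb_restr R g hg) (uherb_restr R f hf) *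
          herb_idx (uherb_quot R g hg) (uherb_quot R f hf)) := by ring
    _ = herb_idx g f * (herb_idx (uherb_restr R f hf) (uherb_restr R g hg) *
          herb_idx (uherb_quot R g hg) (uherb_quot R f hf)) := key
    _ = herb_idx g f * herb_idx (uherb_restr R f hf) (uherb_restr R g hg) *
          herb_idx (uherb_quot R g hg) (uherb_quot R f hf) := by ring

end restr

section abstract

variable {X : Type*} (s : Equiv.Perm X) {p : ℕ}
  {G : Type*} [Group G] {A : Type*} [AddCommGroup A] [DistribMulAction G A] (σ : G)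
  (φ : (X → ℤ) →+ A) (n₀ : X → ℤ)

theorem uherb_phi_pow (hφ : ∀ n : X → ℤ, φ (s • n) = σ • φ n) (k : ℕ) (n : X → ℤ) :
    φ (s ^ k • n) = σ ^ k • φ n := by
  induction k generalizing n with
  | zero => rw [pow_zero, pow_zero, one_smul, one_smul]
  | succ k ih => rw [pow_succ, mul_smul, ih, hφ, ← mul_smul, ← pow_succ]

theorem uherb_phi_del (hφ : ∀ n : X → ℤ, φ (s • n) = σ • φ n) (n : X → ℤ) :
    φ (herb_del s n) = herb_del σ (φ n) := by
  rw [herb_del_apply, herb_del_apply, map_sub, hφ]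

theorem uherb_phi_nrm (hφ : ∀ n : X → ℤ, φ (s • n) = σ • φ n) (n : X → ℤ) :
    φ (herb_nrm s p n) = herb_nrm σ p (φ n) := by
  rw [herb_nrm_apply, herb_nrm_apply, map_sum]
  exact Finset.sum_congr rfl (fun k _ => uherb_phi_pow s σ φ hφ k n)

theorem uherb_del_mem_range (hφ : ∀ n : X → ℤ, φ (s • n) = σ • φ n) :
    ∀ a ∈ φ.range, herb_del σ a ∈ φ.range := by
  rintro _ ⟨n, rfl⟩
  exact ⟨herb_del s n, uherb_phi_del s σ φ hφ n⟩

theorem uherb_nrm_mem_range (hφ : ∀ n : X → ℤ, φ (s • n) = σ • φ n) :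
    ∀ a ∈ φ.range, herb_nrm σ p a ∈ φ.range := by
  rintro _ ⟨n, rfl⟩
  exact ⟨herb_nrm s p n, uherb_phi_nrm s σ φ hφ n⟩

theorem uherb_smul_n₀ (hinv : ∀ x, n₀ (s x) = n₀ x) : s • n₀ = n₀ := by
  funext x
  show n₀ (s⁻¹ x) = n₀ x
  have h := hinv (s⁻¹ x)
  rw [uherb_apply_inv] at h
  exact h.symm

theorem uherb_pow_smul_n₀ (hinv : ∀ x, n₀ (s x) = n₀ x) (k : ℕ) : s ^ k • n₀ = n₀ := by
  induction k with
  | zero => rw [pow_zero, one_smul]
  | succ k ih => rw [pow_succ, mul_smul, uherb_smul_n₀ s n₀ hinv, ih]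

/-- The Herbrand indices of the image of `φ`. -/
theorem uherb_range [Finite X] (hp : p.Prime) (hs : s ^ p = 1)
    (hφ : ∀ n : X → ℤ, φ (s • n) = σ • φ n) (hn₀ : n₀ ≠ 0) (hinv : ∀ x, n₀ (s x) = n₀ x)
    (hker : φ.ker = AddSubgroup.zmultiples n₀) :
    herb_Fin (uherb_restr φ.range (herb_del σ) (uherb_del_mem_range s σ φ hφ))
        (uherb_restr φ.range (herb_nrm σ p) (uherb_nrm_mem_range s σ φ hφ)) ∧
      p ^ Nat.card {x : X // s x = x} *
          herb_idx (uherb_restr φ.range (herb_nrm σ p) (uherb_nrm_mem_range s σ φ hφ))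
            (uherb_restr φ.range (herb_del σ) (uherb_del_mem_range s σ φ hφ)) =
        p * herb_idx (uherb_restr φ.range (herb_del σ) (uherb_del_mem_range s σ φ hφ))
            (uherb_restr φ.range (herb_nrm σ p) (uherb_nrm_mem_range s σ φ hφ)) := by
  have hi : Function.Injective (zmultiplesHom (X → ℤ) n₀) := by
    intro a b hab
    have h1 : (a - b) • n₀ = 0 := by
      have h2 : a • n₀ = b • n₀ := hab
      rw [sub_smul, h2, sub_self]
    rcases smul_eq_zero.1 h1 with h | h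
    · exact sub_eq_zero.1 h
    · exact absurd h hn₀
  have hπ : Function.Surjective φ.rangeRestrict := φ.rangeRestrict_surjective
  have hex : φ.rangeRestrict.ker = (zmultiplesHom (X → ℤ) n₀).range := by
    rw [AddMonoidHom.ker_rangeRestrict, hker, AddSubgroup.range_zmultiplesHom]
  have hfi : ∀ a : ℤ, zmultiplesHom (X → ℤ) n₀ ((0 : ℤ →+ ℤ) a) =
      herb_del s (zmultiplesHom (X → ℤ) n₀ a) := by
    intro a
    show (0 : ℤ) • n₀ = herb_del s (a • n₀)
    rw [herb_del_apply, smul_comm, uherb_smul_n₀ s n₀ hinv, sub_self, zero_smul]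
  have hgi : ∀ a : ℤ, zmultiplesHom (X → ℤ) n₀ (AddMonoidHom.mulLeft ((p : ℕ) : ℤ) a) =
      herb_nrm s p (zmultiplesHom (X → ℤ) n₀ a) := by
    intro a
    show (((p : ℕ) : ℤ) * a) • n₀ = herb_nrm s p (a • n₀)
    rw [herb_nrm_apply]
    have h1 : ∀ k ∈ Finset.range p, s ^ k • a • n₀ = a • n₀ := by
      intro k _
      rw [smul_comm, uherb_pow_smul_n₀ s n₀ hinv]
    rw [Finset.sum_congr rfl h1, Finset.sum_const, Finset.card_range, mul_smul,
      natCast_zsmul]
  have hfπ : ∀ n : X → ℤ, φ.rangeRestrict (herb_del s n) =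
      uherb_restr φ.range (herb_del σ) (uherb_del_mem_range s σ φ hφ) (φ.rangeRestrict n) := by
    intro n
    apply Subtype.ext
    exact uherb_phi_del s σ φ hφ n
  have hgπ : ∀ n : X → ℤ, φ.rangeRestrict (herb_nrm s p n) =
      uherb_restr φ.range (herb_nrm σ p) (uherb_nrm_mem_range s σ φ hφ) (φ.rangeRestrict n) := by
    intro n
    apply Subtype.ext
    exact uherb_phi_nrm s σ φ hφ n
  have hfg : ∀ n : X → ℤ, herb_del s (herb_nrm s p n) = 0 := herb_del_nrm s p hs
  have hgf : ∀ n : X → ℤ, herb_nrm s p (herb_del s n) = 0 := herb_nrm_del s p hs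
  have hZ1 : herb_idx (0 : ℤ →+ ℤ) (AddMonoidHom.mulLeft ((p : ℕ) : ℤ)) = p :=
    herb_idx_int_zero_mul p
  have hZ2 : herb_idx (AddMonoidHom.mulLeft ((p : ℕ) : ℤ)) (0 : ℤ →+ ℤ) = 1 :=
    herb_idx_int_mul_zero p hp.ne_zero
  have hM1 := uherb_perm_idx_del_nrm s hp hs
  have hM2 := uherb_perm_idx_nrm_del s hp hs
  have hfinZ : herb_Fin (0 : ℤ →+ ℤ) (AddMonoidHom.mulLeft ((p : ℕ) : ℤ)) := by
    constructor
    · rw [hZ1]
      exact hp.ne_zero
    · rw [hZ2]
      exact one_ne_zero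
  have hfinM : herb_Fin (herb_del s : (X → ℤ) →+ (X → ℤ)) (herb_nrm s p) := by
    constructor
    · rw [hM1]
      exact pow_ne_zero _ hp.ne_zero
    · rw [hM2]
      exact one_ne_zero
  refine ⟨herb_fin_quot (zmultiplesHom (X → ℤ) n₀) φ.rangeRestrict hi hπ hex
    (0 : ℤ →+ ℤ) (AddMonoidHom.mulLeft ((p : ℕ) : ℤ)) (herb_del s) (herb_nrm s p) _ _
    hfi hgi hfπ hgπ hfg hgf hfinZ hfinM, ?_⟩
  have key := herb_idx_mul (zmultiplesHom (X → ℤ) n₀) φ.rangeRestrict hi hπ hex
    (0 : ℤ →+ ℤ) (AddMonoidHom.mulLeft ((p : ℕ) : ℤ)) (herb_del s) (herb_nrm s p) _ _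
    hfi hgi hfπ hgπ hfg hgf
  rw [hZ1, hZ2, hM1, hM2, one_mul, one_mul] at key
  exact key

/-- **[UNIT-HERB]**, abstract form. -/
theorem uherb_abstract [Finite X] (hp : p.Prime) (hs : s ^ p = 1) (hσ : σ ^ p = 1)
    (hφ : ∀ n : X → ℤ, φ (s • n) = σ • φ n) (hidx : φ.range.index ≠ 0)
    (hn₀ : n₀ ≠ 0) (hinv : ∀ x, n₀ (s x) = n₀ x)
    (hker : φ.ker = AddSubgroup.zmultiples n₀) :
    herb_Fin (herb_del σ : A →+ A) (herb_nrm σ p) ∧
      p * herb_idx (herb_del σ : A →+ A) (herb_nrm σ p) =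
        p ^ Nat.card {x : X // s x = x} * herb_idx (herb_nrm σ p) (herb_del σ : A →+ A) := by
  obtain ⟨hfinR, hR⟩ := uherb_range s σ φ n₀ hp hs hφ hn₀ hinv hker
  obtain ⟨hfinA, hA⟩ := uherb_finite_index φ.range hidx (herb_del σ) (herb_nrm σ p)
    (uherb_del_mem_range s σ φ hφ) (uherb_nrm_mem_range s σ φ hφ)
    (herb_del_nrm σ p hσ) (herb_nrm_del σ p hσ) hfinR
  refine ⟨hfinA, ?_⟩
  have hb : 0 < herb_idx (uherb_restr φ.range (herb_nrm σ p) (uherb_nrm_mem_range s σ φ hφ))
      (uherb_restr φ.range (herb_del σ) (uherb_del_mem_range s σ φ hφ)) :=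
    Nat.pos_of_ne_zero hfinR.2
  apply Nat.eq_of_mul_eq_mul_right hb
  generalize herb_idx (uherb_restr φ.range (herb_nrm σ p) (uherb_nrm_mem_range s σ φ hφ))
      (uherb_restr φ.range (herb_del σ) (uherb_del_mem_range s σ φ hφ)) = b at hR hA hb ⊢
  generalize herb_idx (uherb_restr φ.range (herb_del σ) (uherb_del_mem_range s σ φ hφ))
      (uherb_restr φ.range (herb_nrm σ p) (uherb_nrm_mem_range s σ φ hφ)) = a at hR hA ⊢
  generalize herb_idx (herb_del σ : A →+ A) (herb_nrm σ p) = α at hA ⊢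
  generalize herb_idx (herb_nrm σ p) (herb_del σ : A →+ A) = β at hA ⊢
  generalize p ^ Nat.card {x : X // s x = x} = P at hR ⊢
  -- hR : P * b = p * a,  hA : α * b = β * a
  calc p * α * b = p * (α * b) := by ring
    _ = p * (β * a) := by rw [hA]
    _ = β * (p * a) := by ring
    _ = β * (P * b) := by rw [hR]
    _ = P * β * b := by ring

end abstract

/-- **[UNIT-HERB]** the Herbrand quotient of the `T`-units, from the structure theorem. -/
theorem uherb_main : gl_UnitStructStatement → gl_UnitHerbStatement := by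
  intro hstruct F _ _ p hp hp2 σ hσ T
  obtain ⟨X, hX, s, φ, n₀, hs, hfix, hφ, hidx, hn₀, hinv, hker⟩ := hstruct F p hp hp2 σ hσ T
  have hσp : σ ^ p = 1 := by
    rw [← hσ]
    exact pow_orderOf_eq_one σ
  have h := uherb_abstract s σ φ n₀ hp hs hσp (fun n => hφ n) hidx hn₀ hinv hker
  rw [hfix] at h
  exact h

end

end Fermat.Agent.S55
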