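/-
S55 (fifth wave), GLOBAL side, package [UNIT-HERB] (helper2), part 3: the hypothesis-free
Herbrand quotient of the `T`-units,
`uherb_fin : gl_UnitHerbStatement := uherb_main tun_main`
(`tun_main : gl_UnitStructStatement` is helper13's structure theorem, [T-UNIT](b)).
-/
import Mathlib
import Fermat.Agent.S55.Global.UnitHerb
import Fermat.Agent.S55.Global.TUnitMain

set_option autoImplicit false

namespace Fermat.Agent.S55

/-- **[T-UNIT]** the Herbrand quotient of the `T`-units, hypothesis-free. -/
theorem uherb_fin : gl_UnitHerbStatement := uherb_main tun_main

end Fermat.Agent.S55
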