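/-
S55 (fifth wave), GLOBAL side (helper2): the FIRST INEQUALITY, hypothesis-free,
`uherb_first : gl_FirstStatement`
  `= gfo_main gdiag_main ramf_main icl_main jcoh_main uherb_fin`
(assembly `gfo_main` by helper21, [IDL-DIAG] `gdiag_main`, [RAM-FIN] `ramf_main`,
[IDL-CLASS] `icl_main`, [J-COH] `jcoh_main`, [UNIT-HERB] `uherb_fin`).
-/
import Mathlib
import Fermat.Agent.S55.Global.FirstOf
import Fermat.Agent.S55.Global.Diag
import Fermat.Agent.S55.Global.RamFin
import Fermat.Agent.S55.Global.IdeleClass
import Fermat.Agent.S55.Global.JCohFinal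
import Fermat.Agent.S55.Global.UnitHerbFin

set_option autoImplicit false

namespace Fermat.Agent.S55

/-- **[FIRST]** the first inequality, hypothesis-free. -/
theorem uherb_first : gl_FirstStatement :=
  gfo_main gdiag_main ramf_main icl_main jcoh_main uherb_fin

end Fermat.Agent.S55
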