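/-
S55 (fifth wave), GLOBAL side, package [SEC-KEY] (helper4): the hypothesis-free form
`skey_fin : sec_KeyStatement`, with [FIRST] `uherb_first` (helper2) and [SEC-UNR] `secu_main`
plugged in.
-/
import Mathlib
import Fermat.Agent.S55.Global.SecKey
import Fermat.Agent.S55.Global.UnitHerbFirst
import Fermat.Agent.S55.Global.SecUnr

set_option autoImplicit false

namespace Fermat.Agent.S55

/-- **[SEC-KEY]**, hypothesis-free. -/
theorem skey_fin : sec_KeyStatement := skey_main uherb_first secu_main

end Fermat.Agent.S55
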