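/-
S55 (fifth wave), GLOBAL side, package [SEC-SUNIT] (helper18), part 3: the statement.

`ssu_main : sec_SUnitStatement` (`Global/SecondDefs.lean`): for a number field `K ∋ ζ_p`
(`p` odd), disjoint finite sets `S`, `T` of primes and places `[κ q]`, `q ∈ T`,
`[K_{S,T} : K_{S,T}ᵖ] = p ^ (#{places above S} + #T + [K : ℚ] / 2)`.

The `(S,T)`-units `sec_units K S T κ` are the `Σ`-units `ssu_E K Σ` for
`Σ = {primes above S} ∪ {plc_prime q (κ q) : q ∈ T}` (dictionary [PLACES]: `plc_`, `gpl_`), and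
`Σ` is the range of the injective family `ssu_pr` on
`ssu_I = (Σ q ∈ S, gl_Place q K) ⊕ T`; then `ssu_index_E` (`Global/SecSUnitNF.lean`).
-/
import Mathlib
import Fermat.Agent.S55.Global.SecondDefs
import Fermat.Agent.S55.Global.PlacesSurj
import Fermat.Agent.S55.Global.SecSUnitNF

set_option autoImplicit false

namespace Fermat.Agent.S55

open IsDedekindDomain NumberField

noncomputable section

attribute [local instance] sec_fact

section bridge

variable (K : Type) [Field K] [NumberField K]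

/-- `‖ι a‖ = 1` iff `a` is a unit at the prime of `ι`. -/
theorem ssu_norm_eq_one_iff (q : ℕ) [Fact q.Prime] (ι : K →ₐ[ℚ] PadicAlgCl q) (a : K)
    (ha : a ≠ 0) : ‖ι a‖ = 1 ↔ (plc_prime q ι).valuation K a = 1 := by
  constructor
  · intro h
    have h1 := plc_norm_eq q ι a ha
    rw [h] at h1
    have hc := plc_c_pos q ι
    have hc1 := plc_c_lt_one q ι
    have h2 : -(WithZero.log ((plc_prime q ι).valuation K a)) = 0 :=
      (zpow_eq_one_iff_right₀ hc.le hc1.ne).1 h1.symm
    have h0 : (plc_prime q ι).valuation K a ≠ 0 := (Valuation.ne_zero_iff _).2 ha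
    rw [neg_eq_zero] at h2
    rw [← WithZero.exp_log h0, h2, WithZero.exp_zero]
  · exact plc_norm_eq_one_of_valuation q ι a

variable (S T : Finset Nat.Primes) (κ : ∀ q : Nat.Primes, K →ₐ[ℚ] PadicAlgCl (q : ℕ))

/-- The index set of `Σ`: the places above `S` and one place for each `q ∈ T`. -/
abbrev ssu_I : Type :=
  (Σ q : {q : Nat.Primes // q ∈ S}, gl_Place ((q : Nat.Primes) : ℕ) K) ⊕
    {q : Nat.Primes // q ∈ T}

/-- The prime of `𝓞 K` of an index. -/
def ssu_pr : ssu_I K S T → HeightOneSpectrum (𝓞 K)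
  | Sum.inl x => gpl_placePrime ((x.1 : Nat.Primes) : ℕ) K x.2
  | Sum.inr q => plc_prime ((q : Nat.Primes) : ℕ) (κ q)

/-- The rational prime of an index. -/
def ssu_below : ssu_I K S T → Nat.Primes
  | Sum.inl x => x.1
  | Sum.inr q => q

theorem ssu_below_mem (x : ssu_I K S T) :
    (((ssu_below K S T x : Nat.Primes) : ℕ) : 𝓞 K) ∈ (ssu_pr K S T κ x).asIdeal := by
  rcases x with x | q
  · exact gpl_q_mem_placePrime ((x.1 : Nat.Primes) : ℕ) K x.2
  · exact plc_q_mem_prime ((q : Nat.Primes) : ℕ) (κ q)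

theorem ssu_below_eq (x : ssu_I K S T) (q : Nat.Primes)
    (hq : ((q : ℕ) : 𝓞 K) ∈ (ssu_pr K S T κ x).asIdeal) : ssu_below K S T x = q :=
  gpl_prime_over_unique K _ _ _ (ssu_below_mem K S T κ x) hq

theorem ssu_pr_injective (hST : Disjoint S T) : Function.Injective (ssu_pr K S T κ) := by
  intro x y h
  have hb : ssu_below K S T x = ssu_below K S T y :=
    ssu_below_eq K S T κ x _ (by rw [h]; exact ssu_below_mem K S T κ y)
  rcases x with ⟨q, w⟩ | q <;> rcases y with ⟨q', w'⟩ | q'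
  · have hq : q = q' := Subtype.ext hb
    subst hq
    have hw : w = w' := gpl_placePrime_injective ((q : Nat.Primes) : ℕ) K h
    rw [hw]
  · exfalso
    have h1 : (q : Nat.Primes) = q' := hb
    exact Finset.disjoint_left.1 hST q.2 (h1 ▸ q'.2)
  · exfalso
    have h1 : (q : Nat.Primes) = q' := hb
    exact Finset.disjoint_left.1 hST q'.2 (h1 ▸ q.2)
  · have hq : q = q' := Subtype.ext hb
    rw [hq]

theorem ssu_finite_I : Finite (ssu_I K S T) := by
  have : ∀ q : {q : Nat.Primes // q ∈ S}, Finite (gl_Place ((q : Nat.Primes) : ℕ) K) :=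
    fun q => gpl_finite_place _ K
  infer_instance

theorem ssu_card_I :
    Nat.card (ssu_I K S T) = ∑ q ∈ S, Nat.card (gl_Place (q : ℕ) K) + T.card := by
  have : ∀ q : {q : Nat.Primes // q ∈ S}, Finite (gl_Place ((q : Nat.Primes) : ℕ) K) :=
    fun q => gpl_finite_place _ K
  rw [Nat.card_sum, Nat.card_sigma, Nat.card_eq_fintype_card, Fintype.card_coe,
    Finset.sum_coe_sort S (fun q => Nat.card (gl_Place (q : ℕ) K))]

/-- The `(S,T)`-units are the `Σ`-units. -/
theorem ssu_units_eq : sec_units K S T κ = ssu_E K (Set.range (ssu_pr K S T κ)) := by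
  ext a
  constructor
  · intro ha v hv
    obtain ⟨q, hq⟩ := gpl_exists_prime_over K v
    obtain ⟨ι, hι⟩ := gpl_exists_embedding (q : ℕ) K v hq
    have hqS : q ∉ S := by
      intro hqS
      obtain ⟨w, hw⟩ := (gpl_mem_range_placePrime_iff (q : ℕ) K v).2 hq
      exact hv ⟨Sum.inl ⟨⟨q, hqS⟩, w⟩, hw⟩
    have h1 := ha q hqS
    rw [← hι, ← ssu_norm_eq_one_iff K (q : ℕ) ι _ (Units.ne_zero a)]
    by_cases hqT : q ∈ T
    · refine h1.2 hqT ι ?_
      rintro ⟨τ, hτ⟩
      apply hv
      refine ⟨Sum.inr ⟨q, hqT⟩, ?_⟩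
      show plc_prime (q : ℕ) (κ q) = v
      rw [← hι, hτ, plc_prime_twist]
    · exact h1.1 hqT ι
  · intro ha q hqS
    refine ⟨fun hqT ι => ?_, fun hqT κ' hκ' => ?_⟩
    · show ‖ι (a : K)‖ = 1
      rw [ssu_norm_eq_one_iff K (q : ℕ) ι _ (Units.ne_zero a)]
      apply ha
      rintro ⟨x, hx⟩
      have hb : ssu_below K S T x = q :=
        ssu_below_eq K S T κ x q (by rw [hx]; exact plc_q_mem_prime (q : ℕ) ι)
      rcases x with x | x
      · exact hqS (hb ▸ x.1.2)
      · exact hqT (hb ▸ x.2)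
    · show ‖κ' (a : K)‖ = 1
      rw [ssu_norm_eq_one_iff K (q : ℕ) κ' _ (Units.ne_zero a)]
      apply ha
      rintro ⟨x, hx⟩
      have hb : ssu_below K S T x = q :=
        ssu_below_eq K S T κ x q (by rw [hx]; exact plc_q_mem_prime (q : ℕ) κ')
      rcases x with x | x
      · exact hqS (hb ▸ x.1.2)
      · have hxq : (x : Nat.Primes) = q := hb
        have hx' : plc_prime ((x : Nat.Primes) : ℕ) (κ x) = plc_prime (q : ℕ) κ' := hx
        obtain ⟨x, hxT⟩ := x
        change x = q at hxq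
        subst hxq
        exact hκ' (plc_conj (x : ℕ) (κ x) κ' hx')

end bridge

/-- **[SEC-SUNIT]** the unit theorem for `(S,T)`-units modulo `p`-th powers. -/
theorem ssu_main : sec_SUnitStatement := by
  intro K _ _ p hp hp2 hζ S T κ hST
  have := ssu_finite_I K S T
  let _i : Fintype (ssu_I K S T) := Fintype.ofFinite _
  rw [ssu_units_eq K S T κ, ssu_index_E K (ssu_pr_injective K S T κ hST) p hp hp2 hζ,
    ← Nat.card_eq_fintype_card, ssu_card_I]
  unfold sec_n
  congr 1
  ring

end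

end Fermat.Agent.S55
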