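/-
S55 (fifth wave), GLOBAL side, package [SECOND] (helper17): the INDEX part of the assembly.

For a number field `K ∋ ζ_p` (`p` odd), `S ∋ p` with `J_K = Kˣ J_{K,S}`, `T` disjoint from `S`
with `#T + 1 = n = #{places above S} + [K:ℚ]/2`:
* `sec_J1`, `sec_E` : the subgroups `J(S,T)` and `E(S,T)` of the ideles of `K`;
* `sec_relIndex_E_J1` : `[J(S,T) : E(S,T)] = p ^ (2 n)`   (from [SEC-LOCIDX]);
* `sec_relIndex_E_P` : `[Kˣ ∩ J(S,T) : Kˣ ∩ E(S,T)] = p ^ (2 n - 1)`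
  (from [SEC-SUNIT] and the conclusion of [SEC-KEY]);
* `sec_index` : `[J_K : Kˣ E(S,T)] = p`.
-/
import Mathlib
import Fermat.Agent.S55.Global.SecondDefs
import Fermat.Agent.S55.Global.GalDescent

set_option autoImplicit false
set_option linter.style.haveILetI false

namespace Fermat.Agent.S55

open IntermediateField

attribute [local instance] sec_fact

noncomputable section

/-! ### The subgroups `J(S,T)` and `E(S,T)` -/

section subgroups

variable (K : Type) [Field K] [Algebra ℚ K]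

theorem sec_unitOff_one (q : ℕ) [Fact q.Prime] (κ : K →ₐ[ℚ] PadicAlgCl q) :
    sec_UnitOff q K κ 1 := by
  intro κ' _
  simp

theorem sec_unitOff_mul (q : ℕ) [Fact q.Prime] (κ : K →ₐ[ℚ] PadicAlgCl q)
    {f g : gl_Jq q K} (hf : sec_UnitOff q K κ f) (hg : sec_UnitOff q K κ g) :
    sec_UnitOff q K κ (f * g) := by
  intro κ' h
  have h1 := hf κ' h
  have h2 := hg κ' h
  simp only [Subgroup.coe_mul, Pi.mul_apply, Units.val_mul, norm_mul]
  rw [h1, h2, mul_one]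

theorem sec_unitOff_inv (q : ℕ) [Fact q.Prime] (κ : K →ₐ[ℚ] PadicAlgCl q)
    {f : gl_Jq q K} (hf : sec_UnitOff q K κ f) : sec_UnitOff q K κ f⁻¹ := by
  intro κ' h
  have h1 := hf κ' h
  simp only [Subgroup.coe_inv, Pi.inv_apply, Units.val_inv_eq_inv_val, norm_inv]
  rw [h1, inv_one]

theorem sec_unitOff_of_mem_Uq (q : ℕ) [Fact q.Prime] (κ : K →ₐ[ℚ] PadicAlgCl q)
    {f : gl_Jq q K} (hf : f ∈ gl_Uq q K) : sec_UnitOff q K κ f :=
  fun κ' _ => hf κ'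

variable (S T : Finset Nat.Primes) (κ : ∀ q : Nat.Primes, K →ₐ[ℚ] PadicAlgCl (q : ℕ))

/-- `J(S,T)`: the ideles which are units outside `S ∪ T`. -/
def sec_J1 : Subgroup (gl_J K) where
  carrier := {x | sec_InJST K S T κ x.1}
  one_mem' := fun q _ =>
    ⟨fun _ => (gl_UP K q).one_mem, fun _ => sec_unitOff_one K (q : ℕ) (κ q)⟩
  mul_mem' := fun {_ _} hx hy q hq =>
    ⟨fun hT => (gl_UP K q).mul_mem ((hx q hq).1 hT) ((hy q hq).1 hT),
      fun hT => sec_unitOff_mul K (q : ℕ) (κ q) ((hx q hq).2 hT) ((hy q hq).2 hT)⟩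
  inv_mem' := fun {_} hx q hq =>
    ⟨fun hT => (gl_UP K q).inv_mem ((hx q hq).1 hT),
      fun hT => sec_unitOff_inv K (q : ℕ) (κ q) ((hx q hq).2 hT)⟩

theorem sec_mem_J1_iff (x : gl_J K) : x ∈ sec_J1 K S T κ ↔ sec_InJST K S T κ x.1 := Iff.rfl

/-- `E(S,T)`: the ideles which are units outside `S ∪ T` and `p`-th powers at `S`. -/
def sec_E (p : ℕ) : Subgroup (gl_J K) where
  carrier := {x | sec_InE K p S T κ x.1}
  one_mem' := ⟨(sec_J1 K S T κ).one_mem, fun q _ => ⟨1, one_pow p⟩⟩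
  mul_mem' := by
    rintro x y ⟨hx, hx'⟩ ⟨hy, hy'⟩
    refine ⟨(sec_J1 K S T κ).mul_mem hx hy, fun q hq => ?_⟩
    obtain ⟨a, ha⟩ := hx' q hq
    obtain ⟨b, hb⟩ := hy' q hq
    exact ⟨a * b, by rw [mul_pow, ha, hb]; rfl⟩
  inv_mem' := by
    rintro x ⟨hx, hx'⟩
    refine ⟨(sec_J1 K S T κ).inv_mem hx, fun q hq => ?_⟩
    obtain ⟨a, ha⟩ := hx' q hq
    exact ⟨a⁻¹, by rw [inv_pow, ha]; rfl⟩

theorem sec_mem_E_iff (p : ℕ) (x : gl_J K) :
    x ∈ sec_E K S T κ p ↔ sec_InE K p S T κ x.1 := Iff.rfl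

theorem sec_E_le_J1 (p : ℕ) : sec_E K S T κ p ≤ sec_J1 K S T κ := fun _ hx => hx.1

theorem sec_JT_le_J1 : gl_JT K (S : Set Nat.Primes) ≤ sec_J1 K S T κ := by
  intro x hx q hq
  have h : x.1 q ∈ gl_UP K q := hx q (by simpa using hq)
  exact ⟨fun _ => h, fun _ => sec_unitOff_of_mem_Uq K (q : ℕ) (κ q) h⟩

end subgroups

/-! ### `[J(S,T) : E(S,T)] = p ^ (2 n)` -/

section idx1

variable (K : Type) [Field K] [Algebra ℚ K]
  (S T : Finset Nat.Primes) (κ : ∀ q : Nat.Primes, K →ₐ[ℚ] PadicAlgCl (q : ℕ)) (p : ℕ)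

/-- The semi-local `p`-th powers at `q`. -/
def sec_Pq (q : Nat.Primes) : Subgroup (gl_JP K q) :=
  (powMonoidHom p : gl_JP K q →* gl_JP K q).range

theorem sec_mem_Pq_iff (q : Nat.Primes) (x : gl_JP K q) :
    x ∈ sec_Pq K p q ↔ ∃ y : gl_JP K q, y ^ p = x := Iff.rfl

/-- The group `∏_{q ∈ S} J_q / J_qᵖ`. -/
def sec_Tgt : Type := (q : ↥S) → gl_JP K q.1 ⧸ sec_Pq K p q.1

instance sec_Tgt_commGroup : CommGroup (sec_Tgt K S p) :=
  inferInstanceAs (CommGroup ((q : ↥S) → gl_JP K q.1 ⧸ sec_Pq K p q.1))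

theorem sec_Tgt_one_apply (q : ↥S) : (1 : sec_Tgt K S p) q = 1 := rfl

/-- The map `J(S,T) → ∏_{q ∈ S} J_q / J_qᵖ`. -/
def sec_psi : ↥(sec_J1 K S T κ) →* sec_Tgt K S p where
  toFun x := fun q => QuotientGroup.mk (x.1.1 q.1)
  map_one' := rfl
  map_mul' _ _ := rfl

theorem sec_psi_apply (x : ↥(sec_J1 K S T κ)) (q : ↥S) :
    sec_psi K S T κ p x q = QuotientGroup.mk (x.1.1 q.1) := rfl

theorem sec_psi_ker :
    (sec_psi K S T κ p).ker = (sec_E K S T κ p).subgroupOf (sec_J1 K S T κ) := by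
  ext x
  rw [MonoidHom.mem_ker, Subgroup.mem_subgroupOf, sec_mem_E_iff]
  constructor
  · intro h
    refine ⟨x.2, fun q hq => ?_⟩
    have h1 : (QuotientGroup.mk (x.1.1 q) : gl_JP K q ⧸ sec_Pq K p q) = 1 :=
      congrFun h ⟨q, hq⟩
    rw [QuotientGroup.eq_one_iff] at h1
    exact h1
  · intro h
    funext q
    show (QuotientGroup.mk (x.1.1 q.1) : gl_JP K q.1 ⧸ sec_Pq K p q.1) = 1
    rw [QuotientGroup.eq_one_iff]
    exact h.2 q.1 q.2

theorem sec_psi_surjective : Function.Surjective (sec_psi K S T κ p) := by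
  classical
  intro c
  choose y hy using fun q : ↥S =>
    QuotientGroup.mk_surjective (s := sec_Pq K p q.1) (c q)
  let x : (q : Nat.Primes) → gl_JP K q := fun q => if h : q ∈ S then y ⟨q, h⟩ else 1
  have hxS : ∀ q, q ∉ S → x q = 1 := fun q hq => dif_neg hq
  have hxJ : x ∈ gl_J K := by
    refine (S.finite_toSet).subset ?_
    intro q hq
    by_contra h
    apply hq
    rw [hxS q h]
    exact (gl_UP K q).one_mem
  have hx1 : (⟨x, hxJ⟩ : gl_J K) ∈ sec_J1 K S T κ := by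
    intro q hq
    have h1 : x q = 1 := hxS q hq
    refine ⟨fun _ => ?_, fun _ => ?_⟩
    · show x q ∈ gl_UP K q
      rw [h1]; exact (gl_UP K q).one_mem
    · show sec_UnitOff (q : ℕ) K (κ q) (x q)
      rw [h1]; exact sec_unitOff_one K (q : ℕ) (κ q)
  refine ⟨⟨⟨x, hxJ⟩, hx1⟩, ?_⟩
  funext q
  show (QuotientGroup.mk (x q.1) : gl_JP K q.1 ⧸ sec_Pq K p q.1) = c q
  rw [← hy q]
  have h2 : x q.1 = y q := by
    show (if h : q.1 ∈ S then y ⟨q.1, h⟩ else 1) = y q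
    rw [dif_pos q.2]
  rw [h2]

/-- `[J(S,T) : E(S,T)]` is the product of the semi-local indices of the `p`-th powers. -/
theorem sec_relIndex_E_J1_eq_prod :
    (sec_E K S T κ p).relIndex (sec_J1 K S T κ) = ∏ q ∈ S, (sec_Pq K p q).index := by
  have h1 : (sec_psi K S T κ p).ker.index = Nat.card (sec_psi K S T κ p).range :=
    Subgroup.index_ker (sec_psi K S T κ p)
  have h2 : Nat.card (sec_psi K S T κ p).range = Nat.card (sec_Tgt K S p) := by
    rw [MonoidHom.range_eq_top.2 (sec_psi_surjective K S T κ p), Subgroup.card_top]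
  have h3 : Nat.card (sec_Tgt K S p) =
      ∏ q : ↥S, Nat.card (gl_JP K q.1 ⧸ sec_Pq K p q.1) := by
    show Nat.card ((q : ↥S) → gl_JP K q.1 ⧸ sec_Pq K p q.1) = _
    exact Nat.card_pi
  have h4 : ∏ q : ↥S, Nat.card (gl_JP K q.1 ⧸ sec_Pq K p q.1) =
      ∏ q ∈ S, (sec_Pq K p q).index :=
    Finset.prod_coe_sort S (fun q => (sec_Pq K p q).index)
  rw [Subgroup.relIndex, ← sec_psi_ker, h1, h2, h3, h4]

end idx1

/-! ### The exponent -/

section exponent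

variable (K : Type) [Field K] [NumberField K]

/-- A number field containing a primitive `p`-th root of unity (`p` odd) has even degree. -/
theorem sec_two_dvd_finrank (p : ℕ) (hp : p.Prime) (hp2 : p ≠ 2)
    (hζ : ∃ ζ : K, IsPrimitiveRoot ζ p) : 2 ∣ Module.finrank ℚ K := by
  obtain ⟨ζ, hζ⟩ := hζ
  have h0 : Polynomial.cyclotomic p ℚ = minpoly ℚ ζ :=
    Polynomial.cyclotomic_eq_minpoly_rat hζ hp.pos
  have h1 : (minpoly ℚ ζ).natDegree ∣ Module.finrank ℚ K :=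
    minpoly.degree_dvd (Algebra.IsIntegral.isIntegral ζ)
  rw [← h0, Polynomial.natDegree_cyclotomic, Nat.totient_prime hp] at h1
  have hodd : Odd p := hp.odd_of_ne_two hp2
  obtain ⟨k, hk⟩ := hodd
  have h3 : 2 ∣ p - 1 := ⟨k, by omega⟩
  exact h3.trans h1

/-- The exponent of `[J(S,T) : E(S,T)]`. -/
theorem sec_exponent (p : ℕ) (hp : p.Prime) (hp2 : p ≠ 2)
    (hζ : ∃ ζ : K, IsPrimitiveRoot ζ p) (S : Finset Nat.Primes)
    (hpS : (⟨p, hp⟩ : Nat.Primes) ∈ S) :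
    ∑ q ∈ S, (2 * Nat.card (gl_Place (q : ℕ) K) +
        if (q : ℕ) = p then Module.finrank ℚ K else 0) = 2 * sec_n K S := by
  classical
  obtain ⟨d, hd⟩ := sec_two_dvd_finrank K p hp hp2 hζ
  have h1 : ∑ q ∈ S, (if (q : ℕ) = p then Module.finrank ℚ K else 0) =
      Module.finrank ℚ K := by
    refine (Finset.sum_eq_single_of_mem (⟨p, hp⟩ : Nat.Primes) hpS ?_).trans ?_
    · intro q _ hq
      have : (q : ℕ) ≠ p := fun h => hq (Subtype.ext h)
      simp [this]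
    · simp
  rw [Finset.sum_add_distrib, h1, ← Finset.mul_sum]
  unfold sec_n
  rw [hd]
  have : 2 * d / 2 = d := by omega
  rw [this]
  ring

end exponent

/-! ### The index `[J_K : Kˣ E(S,T)] = p` -/

section index

variable (K : Type) [Field K] [NumberField K]
  (S T : Finset Nat.Primes) (κ : ∀ q : Nat.Primes, K →ₐ[ℚ] PadicAlgCl (q : ℕ)) (p : ℕ)

/-- `[J(S,T) : E(S,T)] = p ^ (2 n)`  (from [SEC-LOCIDX]). -/
theorem sec_relIndex_E_J1 (hLoc : sec_LocIdxStatement) (hp : p.Prime) (hp2 : p ≠ 2)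
    (hζ : ∃ ζ : K, IsPrimitiveRoot ζ p) (hpS : (⟨p, hp⟩ : Nat.Primes) ∈ S) :
    (sec_E K S T κ p).relIndex (sec_J1 K S T κ) = p ^ (2 * sec_n K S) := by
  rw [sec_relIndex_E_J1_eq_prod, ← sec_exponent K p hp hp2 hζ S hpS,
    ← Finset.prod_pow_eq_pow_sum]
  refine Finset.prod_congr rfl fun q _ => ?_
  exact hLoc K p hp hp2 hζ (q : ℕ)

/-- The `(S,T)`-units are the principal ideles in `J(S,T)`. -/
theorem sec_units_map_diag :
    (sec_units K S T κ).map (gdiag_hom K) = gl_P K ⊓ sec_J1 K S T κ := by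
  ext x
  constructor
  · rintro ⟨a, ha, rfl⟩
    exact ⟨gdiag_hom_mem_P K a, ha⟩
  · rintro ⟨hP, hJ⟩
    obtain ⟨a, rfl⟩ := (gdiag_mem_P_iff K x).1 hP
    exact ⟨a, hJ, rfl⟩

/-- A `p`-th root of an `(S,T)`-unit is an `(S,T)`-unit. -/
theorem sec_mem_units_of_pow (hp0 : p ≠ 0) (z : Kˣ) (hz : z ^ p ∈ sec_units K S T κ) :
    z ∈ sec_units K S T κ := by
  have key : ∀ (q : Nat.Primes) (ι : K →ₐ[ℚ] PadicAlgCl (q : ℕ)),
      ‖ι ((z ^ p : Kˣ) : K)‖ = 1 → ‖ι (z : K)‖ = 1 := by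
    intro q ι h
    rw [Units.val_pow_eq_pow_val, map_pow, norm_pow] at h
    exact (pow_eq_one_iff_of_nonneg (norm_nonneg _) hp0).1 h
  intro q hq
  refine ⟨fun hT => ?_, fun hT κ' hκ' => ?_⟩
  · intro ι
    exact key q ι ((hz q hq).1 hT ι)
  · exact key q κ' ((hz q hq).2 hT κ' hκ')

/-- The `p`-th powers of the `(S,T)`-units are the principal ideles in `E(S,T)`
(from the conclusion of [SEC-KEY]). -/
theorem sec_pow_units_map_diag (hp0 : p ≠ 0)
    (hKey : ∀ y : Kˣ, sec_InE K p S T κ (sec_diag K y) → ∃ z : Kˣ, z ^ p = y) :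
    ((sec_units K S T κ).map (powMonoidHom p : Kˣ →* Kˣ)).map (gdiag_hom K) =
      sec_E K S T κ p ⊓ (gl_P K ⊓ sec_J1 K S T κ) := by
  ext x
  constructor
  · rintro ⟨_, ⟨z, hz, rfl⟩, rfl⟩
    have hzp : z ^ p ∈ sec_units K S T κ := (sec_units K S T κ).pow_mem hz p
    refine ⟨⟨hzp, fun q _ => ⟨gl_diagP K q z, ?_⟩⟩, gdiag_hom_mem_P K _, hzp⟩
    show gl_diagP K q z ^ p = gl_diagP K q (z ^ p)
    rw [map_pow]
  · rintro ⟨hE, hP, _⟩
    obtain ⟨a, rfl⟩ := (gdiag_mem_P_iff K x).1 hP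
    obtain ⟨z, hz⟩ := hKey a hE
    have hzU : z ∈ sec_units K S T κ := by
      apply sec_mem_units_of_pow K S T κ p hp0
      rw [hz]
      exact hE.1
    exact ⟨z ^ p, ⟨z, hzU, rfl⟩, by rw [hz]⟩

/-- `[Kˣ ∩ J(S,T) : Kˣ ∩ E(S,T)] = p ^ (n + #T)`  (from [SEC-SUNIT] and the conclusion of
[SEC-KEY]). -/
theorem sec_relIndex_E_P (hUnit : sec_SUnitStatement) (hp : p.Prime) (hp2 : p ≠ 2)
    (hζ : ∃ ζ : K, IsPrimitiveRoot ζ p) (hdisj : Disjoint S T)
    (hKey : ∀ y : Kˣ, sec_InE K p S T κ (sec_diag K y) → ∃ z : Kˣ, z ^ p = y) :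
    (sec_E K S T κ p).relIndex (gl_P K ⊓ sec_J1 K S T κ) = p ^ (sec_n K S + T.card) := by
  rw [← Subgroup.inf_relIndex_right, ← sec_pow_units_map_diag K S T κ p hp.ne_zero hKey,
    ← sec_units_map_diag, Subgroup.relIndex_map_map_of_injective _ _ (gdsc_diag_injective K)]
  exact hUnit K p hp hp2 hζ S T κ hdisj

/-- **The index.** `[J_K : Kˣ E(S,T)] = p`. -/
theorem sec_index (hLoc : sec_LocIdxStatement) (hUnit : sec_SUnitStatement)
    (hp : p.Prime) (hp2 : p ≠ 2) (hζ : ∃ ζ : K, IsPrimitiveRoot ζ p)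
    (hpS : (⟨p, hp⟩ : Nat.Primes) ∈ S)
    (hclass : gl_P K ⊔ gl_JT K (S : Set Nat.Primes) = ⊤)
    (hdisj : Disjoint S T) (hcard : T.card + 1 = sec_n K S)
    (hKey : ∀ y : Kˣ, sec_InE K p S T κ (sec_diag K y) → ∃ z : Kˣ, z ^ p = y) :
    (gl_P K ⊔ sec_E K S T κ p).index = p := by
  set P := gl_P K with hP
  set E := sec_E K S T κ p with hE
  set J₁ := sec_J1 K S T κ with hJ₁
  have hEJ : E ≤ J₁ := sec_E_le_J1 K S T κ p
  have htop : (P ⊔ E) ⊔ J₁ = ⊤ := by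
    apply top_le_iff.1
    rw [← hclass]
    exact sup_le (le_sup_left.trans le_sup_left)
      ((sec_JT_le_J1 K S T κ).trans le_sup_right)
  -- `[J : P E] = [J₁ : (P E) ∩ J₁]`
  have h1 : (P ⊔ E).index = (P ⊔ E).relIndex J₁ := by
    rw [← Subgroup.relIndex_top_right, ← htop, Subgroup.relIndex_sup_left]
  -- modular law
  have h2 : (P ⊔ E) ⊓ J₁ = E ⊔ P ⊓ J₁ := by
    rw [sup_comm P E]
    exact sup_inf_assoc_of_le P hEJ
  have h3 : E.relIndex ((P ⊔ E) ⊓ J₁) = p ^ (sec_n K S + T.card) := by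
    rw [h2, sup_comm, Subgroup.relIndex_sup_right]
    exact sec_relIndex_E_P K S T κ p hUnit hp hp2 hζ hdisj hKey
  have h4 : E.relIndex ((P ⊔ E) ⊓ J₁) * ((P ⊔ E) ⊓ J₁).relIndex J₁ = E.relIndex J₁ :=
    Subgroup.relIndex_mul_relIndex _ _ _ (le_inf le_sup_right hEJ) inf_le_right
  rw [Subgroup.inf_relIndex_right, h3, ← h1,
    sec_relIndex_E_J1 K S T κ p hLoc hp hp2 hζ hpS] at h4
  have h5 : 2 * sec_n K S = (sec_n K S + T.card) + 1 := by omega
  rw [h5, pow_succ] at h4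
  exact Nat.eq_of_mul_eq_mul_left (pow_pos hp.pos _) h4

end index

end

end Fermat.Agent.S55
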