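import Mathlib
import Fermat.Agent.S55.Global.Defs
import Fermat.Agent.S55.Global.SecondDefs
import Fermat.Agent.S55.Global.AbsDefs
import Fermat.Agent.S55.Bridge.KDefs
import Fermat.Agent.S55.Global.KExDefs
import Fermat.Agent.S55.Global.KShaBasic
import Fermat.Agent.S55.Global.IdeleClass
import Fermat.Agent.S55.Global.RamFin
import Fermat.Agent.S55.Global.SecSUnit
import Fermat.Agent.S55.Global.SecKeyFin
import Fermat.Agent.S55.Global.SecondIndex
import Fermat.Agent.S55.Global.SecAuxBasic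
import Fermat.Agent.S55.Global.KExUnitsLoc
import Fermat.Agent.S55.Global.KExUnitsDict

/-!
# S55, global side, package [KEX-UNITS]

`kxu_main : kex_UnitsStatement`: for `S` large the `S`-units of `K` modulo `p`-th powers are
detected locally above `S`.  `S₀ := T₀ ∪ ram` (`icl_main`, `ramf_main`), `E₀` := representatives
of `E_S / E_Sᵖ` ([SEC-SUNIT], `T = ∅`), separation by [SEC-KEY] (`T = ∅`).
-/

set_option autoImplicit false

namespace Fermat.Agent.S55

noncomputable section

local notation "Qbar" => AlgebraicClosure ℚ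

attribute [local instance] sec_fact

/-- Representatives of a quotient of finite index. -/
theorem kxu_exists_reps {G : Type*} [CommGroup G] (V U : Subgroup G) (n : ℕ) (hn : n ≠ 0)
    (h : V.relIndex U = n) :
    ∃ E : Finset G, E.card = n ∧ (∀ x ∈ E, x ∈ U) ∧
      ∀ x ∈ E, ∀ x' ∈ E, x / x' ∈ V → x = x' := by
  classical
  have hcard : Nat.card (↥U ⧸ V.subgroupOf U) = n := h
  haveI : Finite (↥U ⧸ V.subgroupOf U) := Nat.finite_of_card_ne_zero (by rw [hcard]; exact hn)
  letI : Fintype (↥U ⧸ V.subgroupOf U) := Fintype.ofFinite _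
  set f : ↥U ⧸ V.subgroupOf U → G := fun c => ((Quotient.out c : ↥U) : G) with hf
  have hfinj : Function.Injective f := by
    intro c c' hcc
    have h1 : (Quotient.out c : ↥U) = Quotient.out c' := Subtype.ext hcc
    have h2 := congrArg (fun a : ↥U => (QuotientGroup.mk a : ↥U ⧸ V.subgroupOf U)) h1
    simpa using h2
  refine ⟨Finset.univ.image f, ?_, ?_, ?_⟩
  · rw [Finset.card_image_of_injective _ hfinj, Finset.card_univ, ← Nat.card_eq_fintype_card,
      hcard]
  · intro x hx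
    obtain ⟨c, -, rfl⟩ := Finset.mem_image.mp hx
    exact (Quotient.out c : ↥U).2
  · intro x hx x' hx' hxx
    obtain ⟨c, -, rfl⟩ := Finset.mem_image.mp hx
    obtain ⟨c', -, rfl⟩ := Finset.mem_image.mp hx'
    have h1 : (QuotientGroup.mk (Quotient.out c) : ↥U ⧸ V.subgroupOf U) =
        QuotientGroup.mk (Quotient.out c') := by
      rw [QuotientGroup.eq, Subgroup.mem_subgroupOf]
      have h2 : (((Quotient.out c : ↥U)⁻¹ * Quotient.out c' : ↥U) : G) = (f c / f c')⁻¹ := by
        simp only [hf, Subgroup.coe_mul, Subgroup.coe_inv]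
        rw [inv_div, div_eq_inv_mul]
      rw [h2]
      exact V.inv_mem hxx
    have h3 : c = c' := by
      have e1 : (QuotientGroup.mk (Quotient.out c) : ↥U ⧸ V.subgroupOf U) = c :=
        Quotient.out_eq c
      have e2 : (QuotientGroup.mk (Quotient.out c') : ↥U ⧸ V.subgroupOf U) = c' :=
        Quotient.out_eq c'
      rw [← e1, ← e2, h1]
    rw [h3]

/-- **[KEX-UNITS]**. -/
theorem kxu_main : kex_UnitsStatement := by
  classical
  intro p _ hp2 K hKn hfd hcyc
  have hp : p.Prime := Fact.out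
  haveI : NumberField ↥K := { to_charZero := inferInstance, to_finiteDimensional := hfd }
  obtain ⟨ζ, hζ, hζK⟩ := ksha_exists_zeta K hcyc
  have hζ' : ∃ ζ' : ↥K, IsPrimitiveRoot ζ' p :=
    ⟨⟨ζ, hζK⟩, IsPrimitiveRoot.of_map_of_injective (f := algebraMap ↥K Qbar) hζ
      (algebraMap ↥K Qbar).injective⟩
  obtain ⟨T₀, hT₀⟩ := icl_main ↥K
  have hram := ramf_main ↥K
  refine ⟨T₀ ∪ hram.toFinset, ?_⟩
  intro S hS₀ hpS hKS R hR
  have hT₀S : T₀ ⊆ S := fun q hq => hS₀ (Finset.mem_union_left _ hq)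
  have hramS : gl_ram ↥K ⊆ (S : Set Nat.Primes) := fun q hq =>
    hS₀ (Finset.mem_union_right _ (hram.mem_toFinset.mpr hq))
  have hcl := hT₀ S hT₀S
  obtain ⟨κ⟩ : Nonempty (∀ q : Nat.Primes, ↥K →ₐ[ℚ] PadicAlgCl (q : ℕ)) :=
    ⟨fun q => IsAlgClosed.lift⟩
  have hidx := ssu_main ↥K p hp hp2 hζ' S ∅ κ (Finset.disjoint_empty_right S)
  rw [Finset.card_empty, add_zero] at hidx
  obtain ⟨E, hEcard, hEU, hEsep⟩ := kxu_exists_reps _ _ _ (pow_ne_zero _ hp.ne_zero) hidx
  have hjinj : Function.Injective (Units.map (K.val : ↥K →* Qbar)) :=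
    Units.map_injective K.val.toRingHom.injective
  refine ⟨E.image (Units.map (K.val : ↥K →* Qbar)), ?_, ?_, ?_⟩
  · -- `S`-units of `K`
    intro x hx
    obtain ⟨a, ha, rfl⟩ := Finset.mem_image.mp hx
    refine ⟨(a : ↥K).2, ?_⟩
    intro q hq g
    exact (saux_mem_units ↥K S κ a).mp (hEU a ha) q hq (kxu_iota K (q : ℕ) g)
  · -- the count
    rw [Finset.card_image_of_injective _ hjinj, hEcard, ← pow_mul]
    apply Nat.pow_le_pow_right hp.pos
    have h1 : ∑ q : ↥S, (R q).card ≤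
        ∑ q ∈ S, Nat.card (gl_Place (q : ℕ) ↥K) := by
      rw [← Finset.sum_coe_sort S (fun q : Nat.Primes => Nat.card (gl_Place (q : ℕ) ↥K))]
      exact Finset.sum_le_sum fun q _ => kxu_card_reps K R hR q
    have h2 : K.fixingSubgroup.index = Module.finrank ℚ ↥K := by
      haveI : IsGalois ℚ Qbar := ksha_isGalois
      exact (IntermediateField.finrank_eq_fixingSubgroup_index Qbar K).symm
    have h3 : 2 ∣ Module.finrank ℚ ↥K := sec_two_dvd_finrank ↥K p hp hp2 hζ'
    have h4 : sec_n ↥K S = ∑ q ∈ S, Nat.card (gl_Place (q : ℕ) ↥K) +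
        Module.finrank ℚ ↥K / 2 := rfl
    rw [h4, h2]
    omega
  · -- separation
    intro x hx x' hx' hloc
    obtain ⟨a, ha, rfl⟩ := Finset.mem_image.mp hx
    obtain ⟨a', ha', rfl⟩ := Finset.mem_image.mp hx'
    have hyU : a / a' ∈ sec_units ↥K S ∅ κ := Subgroup.div_mem _ (hEU a ha) (hEU a' ha')
    have hInE : sec_InE ↥K p S ∅ κ (sec_diag ↥K (a / a')) := by
      refine ⟨hyU, fun q hq => ?_⟩
      have h1 := hloc ⟨q, hq⟩
      rw [← map_div] at h1
      exact kxu_root (q : ℕ) ↥K p (a / a') (kxu_local_all K R hR p ⟨q, hq⟩ (a / a') h1)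
    have honto : sec_Onto ↥K p S ∅ κ := fun y _ =>
      ⟨1, Subgroup.one_mem _, fun q hq => absurd hq (Finset.notMem_empty q)⟩
    obtain ⟨z, hz⟩ := skey_fin ↥K p hp hp2 hζ' S ∅ κ hramS hpS hcl
      (Finset.disjoint_empty_right S) honto (a / a') hInE
    have hzU : z ∈ sec_units ↥K S ∅ κ :=
      saux_units_sat ↥K S κ p hp.ne_zero z (by rw [hz]; exact hyU)
    have hV : a / a' ∈ (sec_units ↥K S ∅ κ).map (powMonoidHom p) := ⟨z, hzU, hz⟩
    rw [hEsep a ha a' ha' hV]

end

end Fermat.Agent.S55
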