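/-
S55 (Poitou-Tate), GLOBAL side, part 3: **[K-REC]** reciprocity over `ℚ` for level-`S` classes in
`H²(G_ℚ, F_p(1))`, from the absolute sum formula [AK-RECIP].  Owner: helper9.  Prefix `krec_`.

ROUTE: `K = ⊥` (so `U = G_ℚ`), `F(g, h) = ζ ^ f(g, h)` (`ζ = ld_zeta p`), a `p`-primary cocycle
(`F ^ p = 1`) of a normal level `L ∋ ζ` unramified outside `S`; `T = {(q, 1) : q ∈ S}`;
outside `S` the invariants vanish by [AK-UNR] (`aku_main`).
-/
import Mathlib
import Fermat.Agent.S55.Bridge.KDefs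
import Fermat.Agent.S55.Bridge.FinLevelG
import Fermat.Agent.S55.Global.AbsDefs
import Fermat.Agent.S55.Global.AkUnr
import Fermat.Agent.S55.MuT
import Fermat.Agent.S55.Adm
import Fermat.Agent.S55.Dev.Tools

set_option autoImplicit false
set_option maxHeartbeats 1000000
set_option synthInstance.maxHeartbeats 400000
open CategoryTheory Module groupCohomology ExtCitation

namespace Fermat.Agent.S55

local notation "Qbar" => AlgebraicClosure ℚ

section

variable (p : ℕ) [Fact p.Prime]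

/-- `ld_zeta p` as a unit. -/
noncomputable def krec_zetaU : Qbarˣ :=
  ((ld_zeta_spec p).isUnit (Fact.out : p.Prime).ne_zero).unit

@[simp] theorem krec_zetaU_coe : ((krec_zetaU p : Qbarˣ) : Qbar) = ld_zeta p := rfl

theorem krec_zetaU_pow : krec_zetaU p ^ p = 1 := by
  apply Units.ext
  rw [Units.val_pow_eq_pow_val, krec_zetaU_coe, (ld_zeta_spec p).pow_eq_one, Units.val_one]

/-- `a ↦ ζ ^ a`. -/
noncomputable def krec_exp (a : pt_T p) : Qbarˣ :=
  mut_pow (krec_zetaU p) (show ZMod p from a)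

theorem krec_exp_add (a b : pt_T p) : krec_exp p (a + b) = krec_exp p a * krec_exp p b :=
  mut_pow_add (krec_zetaU_pow p) _ _

theorem krec_exp_pow (a : pt_T p) : krec_exp p a ^ p = 1 := mut_pow_pow (krec_zetaU_pow p) _

theorem krec_exp_mem (a : pt_T p) : krec_exp p a ∈ rootsOfUnity p Qbar :=
  (mem_rootsOfUnity _ _).2 (krec_exp_pow p a)

theorem krec_exp_rho (g : s55_GQ) (a : pt_T p) :
    g • krec_exp p a = krec_exp p ((pt_T p).ρ g a) := by
  apply Units.ext
  have h1 : ((g • krec_exp p a : Qbarˣ) : Qbar) = g ((krec_exp p a : Qbarˣ) : Qbar) := rfl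
  rw [h1, adm_cyclo_spec p g (krec_exp_mem p a), adm_T_ρ]
  change _ = ((mut_pow (krec_zetaU p)
    (((cycloChar p g : (ZMod p)ˣ) : ZMod p) * (show ZMod p from a)) : Qbarˣ) : Qbar)
  rw [mut_pow_mul (krec_zetaU_pow p), Units.val_pow_eq_pow_val]
  rfl

/-- the norm of the image of a root of unity is `1`. -/
theorem krec_norm_one (q : ℕ) [Fact q.Prime] (g : s55_GQ) (a : pt_T p) :
    ‖padicEmbedding q (g ((krec_exp p a : Qbarˣ) : Qbar))‖ = 1 := by
  have hp : p ≠ 0 := (Fact.out : p.Prime).ne_zero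
  have h1 : ((krec_exp p a : Qbarˣ) : Qbar) ^ p = 1 := by
    have := congrArg (fun u : Qbarˣ => (u : Qbar)) (krec_exp_pow p a)
    simpa using this
  have h2 : (padicEmbedding q (g ((krec_exp p a : Qbarˣ) : Qbar))) ^ p = 1 := by
    rw [← map_pow, ← map_pow, h1, map_one, map_one]
  have h3 := congrArg norm h2
  rw [norm_pow, norm_one] at h3
  exact (pow_eq_one_iff_of_nonneg (norm_nonneg _) hp).1 h3

end

section Main

variable {p : ℕ} [Fact p.Prime]

/-- the `ℚ̄ˣ`-valued cochain `ζ ^ f` on `U = G_ℚ = (⊥).fixingSubgroup`. -/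
noncomputable def krec_F (f : s55_GQ × s55_GQ → pt_T p) :
    ↥(⊥ : IntermediateField ℚ Qbar).fixingSubgroup ×
      ↥(⊥ : IntermediateField ℚ Qbar).fixingSubgroup → Qbarˣ :=
  fun x => krec_exp p (f ((x.1 : s55_GQ), (x.2 : s55_GQ)))

theorem krec_F_coc (f : s55_GQ × s55_GQ → pt_T p) (hf : f ∈ cocycles₂ (pt_T p)) :
    IsMulCocycle₂ (krec_F f) := by
  intro g h j
  have h1 := (mem_cocycles₂_iff f).1 hf (g : s55_GQ) (h : s55_GQ) (j : s55_GQ)
  change krec_exp p (f ((g : s55_GQ) * h, j)) * krec_exp p (f (g, h)) =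
    (g : s55_GQ) • krec_exp p (f (h, j)) * krec_exp p (f (g, (h : s55_GQ) * j))
  rw [krec_exp_rho, ← krec_exp_add, ← krec_exp_add, h1]

theorem krec_bot_fix : (⊥ : IntermediateField ℚ Qbar).fixingSubgroup = ⊤ := by
  ext s
  simp only [Subgroup.mem_top, iff_true]
  rw [IntermediateField.mem_fixingSubgroup_iff]
  intro x hx
  obtain ⟨r, rfl⟩ := IntermediateField.mem_bot.1 hx
  exact s.commutes r

theorem krec_isGalois : IsGalois ℚ Qbar := by
  have halg : Algebra.IsAlgebraic ℚ (AlgebraicClosure ℚ) := AlgebraicClosure.isAlgebraic ℚ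
  have hclos : IsAlgClosure ℚ (AlgebraicClosure ℚ) := AlgebraicClosure.instIsAlgClosure ℚ
  exact inferInstance

theorem krec_normal (L : IntermediateField ℚ Qbar) (hn : Normal ℚ L) :
    L.fixingSubgroup.Normal := by
  haveI := krec_isGalois
  have hN : @Normal ℚ L _ _ (IntermediateField.algebra' L) := hn
  have hg : @IsGalois ℚ _ L _ (IntermediateField.algebra' L) :=
    @IsGalois.mk ℚ _ L _ (IntermediateField.algebra' L) inferInstance hN
  exact @IsGalois.fixingSubgroup_normal_of_isGalois ℚ Qbar _ _ _ L _ hg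

/-- `ζ ∈ L` if `χ` is trivial on `G_L` (`L` finite). -/
theorem krec_zeta_mem (L : IntermediateField ℚ Qbar) [FiniteDimensional ℚ L]
    (hL : ∀ s ∈ L.fixingSubgroup, cycloChar p s = 1) (a : pt_T p) :
    ((krec_exp p a : Qbarˣ) : Qbar) ∈ L := by
  have hgal : IsGalois ℚ Qbar := krec_isGalois
  have h1 : IntermediateField.fixedField L.fixingSubgroup = L :=
    InfiniteGalois.fixedField_fixingSubgroup L
  rw [← h1, IntermediateField.mem_fixedField_iff]
  intro s hs
  rw [adm_cyclo_spec p s (krec_exp_mem p a), hL s hs]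
  have h2 : ZMod.val (((1 : (ZMod p)ˣ) : ZMod p)) = 1 := by
    haveI : Fact (1 < p) := ⟨(Fact.out : p.Prime).one_lt⟩
    rw [Units.val_one, ZMod.val_one]
  rw [h2, pow_one]

/-- **[K-REC]** from [AK-RECIP]. -/
theorem krec_main (hR : ak_RecipStatement) : kl_RecQStatement := by
  intro inv hinv p _ hp2 S hpS f hf
  classical
  have hp : p.Prime := Fact.out
  obtain ⟨hfc, F₀, hF₀, hconst⟩ := hf
  -- a normal level containing `ζ`
  have hadm : dev_Adm S (pt_T p) := adm_tAdm hp2 S hpS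
  obtain ⟨F₁, hF₁, hfix⟩ := devt_level S (pt_T p) hadm
  obtain ⟨L, hLn, hF₀L, hF₁L, hLS⟩ := brg_common_level hF₀ hF₁
  haveI : FiniteDimensional ℚ L := hLS.1
  have hLχ : ∀ s ∈ L.fixingSubgroup, cycloChar p s = 1 := by
    intro s hs
    have h1 := hfix s (IntermediateField.fixingSubgroup_antitone hF₁L hs) (1 : ZMod p)
    rw [adm_T_ρ] at h1
    have h2 : ((cycloChar p s : (ZMod p)ˣ) : ZMod p) = 1 := by
      have : ((cycloChar p s : (ZMod p)ˣ) : ZMod p) • (1 : ZMod p) = 1 := h1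
      simpa using this
    exact Units.ext h2
  have hLnorm : L.fixingSubgroup.Normal := krec_normal L hLn
  -- the data for [AK-RECIP]
  have hKfin : FiniteDimensional ℚ (⊥ : IntermediateField ℚ Qbar) := inferInstance
  have hlevel : ak_IsLevel ⊥ L :=
    ⟨bot_le, hLS.1, fun u _ s hs => by
      have := hLnorm.conj_mem s hs u⁻¹
      rwa [inv_inv] at this⟩
  have hcoc : IsMulCocycle₂ (krec_F f) := krec_F_coc f hfc
  have hlev : ak_Lev₂ ⊥ L (krec_F f) := by
    refine ⟨fun g g' s s' hs hs' => ?_, fun x => krec_zeta_mem L hLχ _⟩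
    change krec_exp p (f ((g : s55_GQ) * s, (g' : s55_GQ) * s')) = krec_exp p (f (g, g'))
    rw [hconst _ _ _ _ (IntermediateField.fixingSubgroup_antitone hF₀L hs)
      (IntermediateField.fixingSubgroup_antitone hF₀L hs')]
  have hpp : ak_PPrim ⊥ p (krec_F f) := by
    refine ⟨1, L, fun _ => 1, hlevel, ⟨fun _ _ _ => rfl, fun _ => ?_⟩, fun x => ?_⟩
    · rw [Units.val_one]; exact one_mem L
    · change krec_exp p _ ^ (p ^ 1) = _
      rw [pow_one, krec_exp_pow]
      simp [ak_d₁]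
  -- the places
  let T : Finset (Nat.Primes × s55_GQ) := S.image (fun q => (q, (1 : s55_GQ)))
  have hT : ak_IsPlaceSet ⊥ T := by
    intro w hw w' hw' hsame
    obtain ⟨q, hq, rfl⟩ := Finset.mem_image.1 hw
    obtain ⟨q', hq', rfl⟩ := Finset.mem_image.1 hw'
    have : q = q' := hsame.1
    rw [this]
  have hout : ∀ w', ak_Outside ⊥ T w' → ak_invP ⊥ inv w' (krec_F f) = 0 := by
    intro w' hw'
    have hq : w'.1 ∉ S := by
      intro hmem
      refine hw' (w'.1, 1) (Finset.mem_image.2 ⟨w'.1, hmem, rfl⟩) ⟨rfl, 1, w'.2, ?_, ?_⟩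
      · rw [krec_bot_fix]; exact Subgroup.mem_top _
      · simp
    exact aku_main inv hinv ⊥ L hKfin hlevel (w'.1 : ℕ) (ak_unramAt_of_outside hLS w'.1 hq)
      (krec_F f) hcoc hlev (fun x g => krec_norm_one p _ g _) w'.2
  have hsum := hR inv hinv p hp hp2 ⊥ L hKfin hlevel (krec_F f) hcoc hlev hpp T hT hout
  rw [Finset.sum_image (by intro a _ b _ h; exact (Prod.mk.inj h).1)] at hsum
  rw [← Finset.sum_coe_sort] at hsum
  rw [← hsum]
  refine Finset.sum_congr rfl fun q _ => ?_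
  symm
  have hH : ak_H ⊥ ((q : Nat.Primes) : ℕ) 1 = ⊤ := by
    ext τ
    simp only [Subgroup.mem_top, iff_true]
    rw [ak_mem_H_iff, krec_bot_fix]
    exact Subgroup.mem_top _
  refine ak_inv_congr inv ((q : Nat.Primes) : ℕ) hH _ _ ?_
  intro x y x' y' hx hy
  have hx1 : ((ak_r ⊥ ((q : Nat.Primes) : ℕ) 1 x : ↥(⊥ : IntermediateField ℚ Qbar).fixingSubgroup) :
      s55_GQ) = localGaloisToGlobal ((q : Nat.Primes) : ℕ) (x' : lcf_Gal ((q : Nat.Primes) : ℕ)) := by
    rw [ak_r_coe, hx]; simp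
  have hy1 : ((ak_r ⊥ ((q : Nat.Primes) : ℕ) 1 y : ↥(⊥ : IntermediateField ℚ Qbar).fixingSubgroup) :
      s55_GQ) = localGaloisToGlobal ((q : Nat.Primes) : ℕ) (y' : lcf_Gal ((q : Nat.Primes) : ℕ)) := by
    rw [ak_r_coe, hy]; simp
  change ak_emb ((q : Nat.Primes) : ℕ) 1 (krec_exp p (f (_, _))) =
    ld_zetaLoc p ((q : Nat.Primes) : ℕ) ^ ZMod.val (f (_, _))
  rw [hx1, hy1]
  apply Units.ext
  rw [ak_emb_coe, Units.val_pow_eq_pow_val]
  change padicEmbedding _ ((1 : s55_GQ) ((mut_pow (krec_zetaU p) _ : Qbarˣ) : Qbar)) =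
    (padicEmbedding _ (ld_zeta p)) ^ _
  rw [mut_pow, Units.val_pow_eq_pow_val, krec_zetaU_coe, AlgEquiv.one_apply, map_pow]
  rfl

end Main

end Fermat.Agent.S55
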