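/-
S55 (fifth wave), GLOBAL side, package [HASSE] (helper10), part 1: the LOCAL step.

`F` a number field, `H ≤ Aut(F/ℚ)`, `ι : F → Ω_q` an embedding, `U = gl_locU q F H ι`,
`σ_• = gl_locSigma : U → H` (a homomorphism onto the decomposition group of `ι`).
If the localisation at `ι` of a 2-cocycle `c` of `H` with values in `Fˣ` is a smooth coboundary,
then it is the coboundary of a cochain of the form `β ∘ σ_•`, `β : H → Ω_qˣ`
(injectivity of inflation, from Hilbert 90 for the kernel of `σ_•`).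
-/
import Fermat.Agent.S55.Global.RecDefs
import Fermat.Agent.S55.Local.H90
import Fermat.Agent.S55.Global.HasseAbs

set_option autoImplicit false

namespace Fermat.Agent.S55

open groupCohomology

noncomputable section

section hss_local

variable {q : ℕ} [Fact q.Prime] {F : Type} [Field F] [Algebra ℚ F]
  {H : Subgroup (F ≃ₐ[ℚ] F)} {ι : F →ₐ[ℚ] PadicAlgCl q}

theorem hss_comp_inj {σ σ' : F ≃ₐ[ℚ] F}
    (h : ι.comp (σ : F →ₐ[ℚ] F) = ι.comp (σ' : F →ₐ[ℚ] F)) : σ = σ' := by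
  ext x
  have h1 : ι (σ x) = ι (σ' x) := DFunLike.congr_fun h x
  exact ι.toRingHom.injective h1

theorem hss_sigma_eq (g : ↥(gl_locU q F H ι)) (σ : ↥H)
    (h : gl_twist q F (g : lcf_Gal q) ι = ι.comp ((σ : F ≃ₐ[ℚ] F) : F →ₐ[ℚ] F)) :
    gl_locSigma q F H ι g = σ := by
  apply Subtype.ext
  apply hss_comp_inj (ι := ι)
  rw [← gl_locSigma_spec, h]

theorem hss_sigma_one : gl_locSigma q F H ι 1 = 1 := by
  apply hss_sigma_eq
  rw [show ((1 : ↥(gl_locU q F H ι)) : lcf_Gal q) = 1 from rfl, gl_twist_one]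
  rfl

theorem hss_sigma_mul (g h : ↥(gl_locU q F H ι)) :
    gl_locSigma q F H ι (g * h) = gl_locSigma q F H ι g * gl_locSigma q F H ι h := by
  apply hss_sigma_eq
  rw [Subgroup.coe_mul, gl_twist_mul, gl_locSigma_spec q F H ι h, gl_twist_comp,
    gl_locSigma_spec q F H ι g]
  rfl

/-- `σ_g = 1` iff `g` fixes `ι`. -/
theorem hss_sigma_eq_one_iff (g : ↥(gl_locU q F H ι)) :
    gl_locSigma q F H ι g = 1 ↔ gl_twist q F (g : lcf_Gal q) ι = ι := by
  constructor
  · intro h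
    rw [gl_locSigma_spec q F H ι g, h]
    rfl
  · intro h
    apply hss_sigma_eq
    rw [h]
    rfl

/-- The image of `a ∈ Fˣ` (written additively) in `Ω_qˣ`. -/
def hss_e (ι : F →ₐ[ℚ] PadicAlgCl q) (a : Additive Fˣ) : (PadicAlgCl q)ˣ :=
  Units.map (ι : F →* PadicAlgCl q) a.toMul

theorem hss_e_add (a b : Additive Fˣ) : hss_e ι (a + b) = hss_e ι a * hss_e ι b :=
  map_mul (Units.map (ι : F →* PadicAlgCl q)) a.toMul b.toMul

theorem hss_e_zero : hss_e ι 0 = 1 := map_one (Units.map (ι : F →* PadicAlgCl q))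

theorem hss_e_neg (a : Additive Fˣ) : hss_e ι (-a) = (hss_e ι a)⁻¹ :=
  map_inv (Units.map (ι : F →* PadicAlgCl q)) a.toMul

theorem hss_e_sub (a b : Additive Fˣ) : hss_e ι (a - b) = hss_e ι a / hss_e ι b :=
  map_div (Units.map (ι : F →* PadicAlgCl q)) a.toMul b.toMul

theorem hss_e_val (a : Additive Fˣ) :
    ((hss_e ι a : (PadicAlgCl q)ˣ) : PadicAlgCl q) = ι ((a.toMul : Fˣ) : F) := rfl

theorem hss_e_smul (g : ↥(gl_locU q F H ι)) (a : Additive Fˣ) :
    g • hss_e ι a = hss_e ι (gl_locSigma q F H ι g • a) := by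
  apply Units.ext
  show (g : lcf_Gal q) (ι ((a.toMul : Fˣ) : F)) = _
  rw [gl_locSigma_apply]
  rfl

theorem hss_e_comp (σ : F ≃ₐ[ℚ] F) (a : Additive Fˣ) :
    hss_e (ι.comp (σ : F →ₐ[ℚ] F)) a = hss_e ι (σ • a) := by
  apply Units.ext
  rfl

theorem hss_e_twist (g : lcf_Gal q) (a : Additive Fˣ) :
    hss_e (gl_twist q F g ι) a = g • hss_e ι a := by
  apply Units.ext
  rfl

theorem hss_locF_apply (c : ↥H × ↥H → Additive Fˣ) (g h : ↥(gl_locU q F H ι)) :
    gl_locF q F H ι c (g, h) = hss_e ι (c (gl_locSigma q F H ι g, gl_locSigma q F H ι h)) :=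
  rfl

/-- The stabiliser of `ι`. -/
theorem hss_mem_N_iff (g : lcf_Gal q) :
    g ∈ gl_locU q F (⊥ : Subgroup (F ≃ₐ[ℚ] F)) ι ↔ gl_twist q F g ι = ι := by
  rw [gl_mem_locU_iff]
  constructor
  · rintro ⟨σ, hσ, h⟩
    rw [Subgroup.mem_bot] at hσ
    rw [h, hσ]
    rfl
  · intro h
    exact ⟨1, Subgroup.one_mem _, by rw [h]; rfl⟩

theorem hss_N_le : gl_locU q F (⊥ : Subgroup (F ≃ₐ[ℚ] F)) ι ≤ gl_locU q F H ι := by
  intro g hg
  rw [hss_mem_N_iff] at hg
  exact ⟨1, H.one_mem, by rw [hg]; rfl⟩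

end hss_local

section hss_open

variable {q : ℕ} [Fact q.Prime] {F : Type} [Field F] [NumberField F]
  {H : Subgroup (F ≃ₐ[ℚ] F)} {ι : F →ₐ[ℚ] PadicAlgCl q}

/-- A finite level fixing `ι`. -/
theorem hss_exists_level (ι : F →ₐ[ℚ] PadicAlgCl q) :
    ∃ E : IntermediateField ℚ_[q] (PadicAlgCl q), FiniteDimensional ℚ_[q] E ∧
      ∀ g : lcf_Gal q, g ∈ E.fixingSubgroup → gl_twist q F g ι = ι := by
  obtain ⟨θ, hθ⟩ := Field.exists_primitive_element ℚ F
  have hint : IsIntegral ℚ θ := Algebra.IsIntegral.isIntegral θ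
  have hadj : Algebra.adjoin ℚ ({θ} : Set F) = ⊤ := by
    rw [← IntermediateField.adjoin_simple_toSubalgebra_of_isAlgebraic hint.isAlgebraic, hθ]
    rfl
  refine ⟨IntermediateField.adjoin ℚ_[q] {ι θ},
    IntermediateField.adjoin.finiteDimensional (Algebra.IsIntegral.isIntegral (ι θ)), ?_⟩
  intro g hg
  rw [IntermediateField.mem_fixingSubgroup_iff] at hg
  have h1 : g (ι θ) = ι θ := hg _ (IntermediateField.mem_adjoin_simple_self ℚ_[q] (ι θ))
  refine AlgHom.ext_of_adjoin_eq_top hadj ?_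
  intro x hx
  rw [Set.mem_singleton_iff] at hx
  subst hx
  exact h1

theorem hss_isOpen (H : Subgroup (F ≃ₐ[ℚ] F)) (ι : F →ₐ[ℚ] PadicAlgCl q) :
    lcf_IsOpen (gl_locU q F H ι) := by
  obtain ⟨E, hE, h⟩ := hss_exists_level ι
  refine ⟨E, hE, fun g hg => ?_⟩
  exact ⟨1, H.one_mem, by rw [h g hg]; rfl⟩

/-- The localisation of a 2-cocycle is a smooth 2-cocycle. -/
theorem hss_isCoc (c : ↥H × ↥H → Additive Fˣ) (hc : IsCocycle₂ c) :
    lcf_IsCoc (gl_locU q F H ι) (gl_locF q F H ι c) := by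
  constructor
  · intro g h j
    rw [hss_locF_apply, hss_locF_apply, hss_locF_apply, hss_locF_apply, hss_sigma_mul,
      hss_sigma_mul, ← hss_e_add, hc, hss_e_add, hss_e_smul]
  · obtain ⟨E, hE, h⟩ := hss_exists_level ι
    refine ⟨E, hE, fun g g' s s' hs hs' => ?_⟩
    have h1 : gl_locSigma q F H ι s = 1 := (hss_sigma_eq_one_iff s).mpr (h _ hs)
    have h2 : gl_locSigma q F H ι s' = 1 := (hss_sigma_eq_one_iff s').mpr (h _ hs')
    rw [hss_locF_apply, hss_locF_apply, hss_sigma_mul, hss_sigma_mul, h1, h2, mul_one, mul_one]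

/-- **Injectivity of inflation, local form**: if the localisation at `ι` of a 2-cocycle `c` of
`H` is a smooth coboundary, then it is the coboundary of a cochain `β ∘ σ_•`, `β : H → Ω_qˣ`. -/
theorem hss_descent (c : ↥H × ↥H → Additive Fˣ) (hc : IsCocycle₂ c)
    (hcob : lcf_IsCob (gl_locU q F H ι) (gl_locF q F H ι c)) :
    ∃ β : ↥H → (PadicAlgCl q)ˣ, ∀ g h : ↥(gl_locU q F H ι),
      g • β (gl_locSigma q F H ι h) / β (gl_locSigma q F H ι g * gl_locSigma q F H ι h) *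
        β (gl_locSigma q F H ι g) =
          hss_e ι (c (gl_locSigma q F H ι g, gl_locSigma q F H ι h)) := by
  obtain ⟨b, ⟨E, hE, hbs⟩, hb⟩ := hcob
  let actM : DistribMulAction ↥(gl_locU q F H ι) (Additive (PadicAlgCl q)ˣ) :=
    gl_addAct ↥(gl_locU q F H ι) (PadicAlgCl q)ˣ
  let s : ↥(gl_locU q F H ι) →* ↥H := MonoidHom.mk' (gl_locSigma q F H ι) hss_sigma_mul
  let e₀ : Additive Fˣ →+ Additive (PadicAlgCl q)ˣ :=
    MonoidHom.toAdditive (Units.map (ι : F →* PadicAlgCl q))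
  have he : ∀ (u : ↥(gl_locU q F H ι)) (a : Additive Fˣ), u • e₀ a = e₀ (s u • a) :=
    fun u a => congrArg Additive.ofMul (hss_e_smul u a)
  have hb' : ∀ g h : ↥(gl_locU q F H ι),
      g • (Additive.ofMul (b h)) - Additive.ofMul (b (g * h)) + Additive.ofMul (b g) =
        e₀ (c (s g, s h)) := fun g h => congrArg Additive.ofMul (hb g h)
  have hsN : ∀ n : ↥(gl_locU q F (⊥ : Subgroup (F ≃ₐ[ℚ] F)) ι),
      s (Subgroup.inclusion hss_N_le n) = 1 := fun n =>
    (hss_sigma_eq_one_iff _).mpr ((hss_mem_N_iff _).mp n.2)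
  have hx : ∃ x : (PadicAlgCl q)ˣ, ∀ n : ↥(gl_locU q F (⊥ : Subgroup (F ≃ₐ[ℚ] F)) ι),
      b (Subgroup.inclusion hss_N_le n) / hss_e ι (c (1, 1)) = n • x / x := by
    refine lh90_main q _ (hss_isOpen ⊥ ι) _ ?_ ?_
    · intro n m
      have h1 := hss_desc_coc (s := s) (e₀ := e₀) (c := c) (b := fun g => Additive.ofMul (b g))
        he hb' (Subgroup.inclusion hss_N_le n) (Subgroup.inclusion hss_N_le m) (hsN n) (hsN m)
      exact congrArg Additive.toMul h1
    · refine ⟨E, hE, fun g t ht => ?_⟩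
      show b (Subgroup.inclusion hss_N_le (g * t)) / _ = b (Subgroup.inclusion hss_N_le g) / _
      rw [map_mul, hbs (Subgroup.inclusion hss_N_le g) (Subgroup.inclusion hss_N_le t) ht]
  obtain ⟨x, hx⟩ := hx
  obtain ⟨β, hβ⟩ := hss_desc_main (s := s) (e₀ := e₀) (b := fun g => Additive.ofMul (b g))
    hc he hb' (Additive.ofMul x) (fun n hn => by
      have hnN : (n : lcf_Gal q) ∈ gl_locU q F (⊥ : Subgroup (F ≃ₐ[ℚ] F)) ι :=
        (hss_mem_N_iff _).mpr ((hss_sigma_eq_one_iff n).mp hn)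
      exact congrArg Additive.ofMul (hx ⟨n, hnN⟩))
  exact ⟨fun δ => (β δ).toMul, fun g h => congrArg Additive.toMul (hβ g h)⟩

end hss_open

end

end Fermat.Agent.S55
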