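/-
S55 (fifth wave), GLOBAL side, package [AK-HASSE] (helper10), part 3: the DICTIONARY between the
absolute level (`Global/AbsDefs.lean`) and the finite level (`Global/RecDefs.lean`).

`K ⊆ F ⊆ ℚ̄`, `F` a level over `K` (finite over `ℚ`, `G_F` normal in `U = G_K`).
* `akh_rho : U →* Aut(F/ℚ)`, restriction (`F` is stable under `U`); `akh_H = Gal(F/K)` its range,
  `akh_s : U →* akh_H` (surjective, kernel `G_F`);
* a 2-cochain `f` of level `F` is `akh_e ∘ akh_c ∘ (akh_s × akh_s)` for a 2-cochain `akh_c` of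
  `akh_H` with values in `Fˣ`;
* the embeddings `F → Ω_q` are the `akh_iota q g = ι_q ∘ g|_F`, the local groups agree
  (`gl_locU = ak_H`), and so do the local invariants (`akh_inv_eq`).
-/
import Fermat.Agent.S55.Global.AbsDefs
import Fermat.Agent.S55.Global.HasseLocal

set_option autoImplicit false
set_option linter.style.haveILetI false

namespace Fermat.Agent.S55

open groupCohomology

noncomputable section

local notation "Qbar" => AlgebraicClosure ℚ

theorem akh_isGalois : IsGalois ℚ Qbar := by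
  have halg : Algebra.IsAlgebraic ℚ (AlgebraicClosure ℚ) := AlgebraicClosure.isAlgebraic ℚ
  have hclos : IsAlgClosure ℚ (AlgebraicClosure ℚ) := AlgebraicClosure.instIsAlgClosure ℚ
  exact inferInstance

section akh_restriction

variable {K F : IntermediateField ℚ Qbar}

/-- An element of `ℚ̄` fixed by `G_F` lies in `F`. -/
theorem akh_mem_of_fixed (x : Qbar) (hx : ∀ s ∈ F.fixingSubgroup, s x = x) : x ∈ F := by
  haveI := akh_isGalois
  rw [← InfiniteGalois.fixedField_fixingSubgroup F, IntermediateField.mem_fixedField_iff]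
  exact hx

/-- A level `F` over `K` is stable under `U = G_K`. -/
theorem akh_map_mem (hL : ak_IsLevel K F) (u : s55_GQ) (hu : u ∈ K.fixingSubgroup)
    (x : Qbar) (hx : x ∈ F) : u x ∈ F := by
  apply akh_mem_of_fixed
  intro s hs
  have h1 : u⁻¹ * s * u ∈ F.fixingSubgroup := hL.normal u hu s hs
  have h2 : (u⁻¹ * s * u) x = x :=
    (IntermediateField.mem_fixingSubgroup_iff F _).mp h1 x hx
  have h3 : u ((u⁻¹ * s * u) x) = s (u x) := by
    show u (u⁻¹ (s (u x))) = s (u x)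
    exact u.apply_symm_apply _
  rw [← h3, h2]

/-- Restriction of `u ∈ G_K` to the level `F`. -/
def akh_rhoFun (hL : ak_IsLevel K F) (u : ↥K.fixingSubgroup) : ↥F ≃ₐ[ℚ] ↥F where
  toFun x := ⟨(u : s55_GQ) (x : Qbar), akh_map_mem hL u u.2 x x.2⟩
  invFun x := ⟨((u : s55_GQ)⁻¹) (x : Qbar),
    akh_map_mem hL _ (K.fixingSubgroup.inv_mem u.2) x x.2⟩
  left_inv x := Subtype.ext ((u : s55_GQ).symm_apply_apply (x : Qbar))
  right_inv x := Subtype.ext ((u : s55_GQ).apply_symm_apply (x : Qbar))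
  map_mul' x y := Subtype.ext (map_mul (u : s55_GQ) (x : Qbar) (y : Qbar))
  map_add' x y := Subtype.ext (map_add (u : s55_GQ) (x : Qbar) (y : Qbar))
  commutes' r := Subtype.ext ((u : s55_GQ).commutes r)

@[simp] theorem akh_rhoFun_apply (hL : ak_IsLevel K F) (u : ↥K.fixingSubgroup) (x : ↥F) :
    ((akh_rhoFun hL u x : ↥F) : Qbar) = (u : s55_GQ) (x : Qbar) := rfl

/-- The restriction homomorphism `G_K → Aut(F/ℚ)`. -/
def akh_rho (hL : ak_IsLevel K F) : ↥K.fixingSubgroup →* (↥F ≃ₐ[ℚ] ↥F) where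
  toFun := akh_rhoFun hL
  map_one' := by
    ext x
    rfl
  map_mul' u v := by
    ext x
    rfl

@[simp] theorem akh_rho_apply (hL : ak_IsLevel K F) (u : ↥K.fixingSubgroup) (x : ↥F) :
    ((akh_rho hL u x : ↥F) : Qbar) = (u : s55_GQ) (x : Qbar) := rfl

theorem akh_rho_eq_one_iff (hL : ak_IsLevel K F) (u : ↥K.fixingSubgroup) :
    akh_rho hL u = 1 ↔ (u : s55_GQ) ∈ F.fixingSubgroup := by
  rw [IntermediateField.mem_fixingSubgroup_iff]
  constructor
  · intro h x hx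
    have h1 := congrArg (fun σ : ↥F ≃ₐ[ℚ] ↥F => ((σ ⟨x, hx⟩ : ↥F) : Qbar)) h
    exact h1
  · intro h
    ext x
    exact h x x.2

/-- `Gal(F/K)` as a subgroup of `Aut(F/ℚ)`. -/
def akh_H (hL : ak_IsLevel K F) : Subgroup (↥F ≃ₐ[ℚ] ↥F) := (akh_rho hL).range

/-- The restriction `G_K → Gal(F/K)`. -/
def akh_s (hL : ak_IsLevel K F) : ↥K.fixingSubgroup →* ↥(akh_H hL) := (akh_rho hL).rangeRestrict

theorem akh_s_coe (hL : ak_IsLevel K F) (u : ↥K.fixingSubgroup) :
    ((akh_s hL u : ↥(akh_H hL)) : ↥F ≃ₐ[ℚ] ↥F) = akh_rho hL u := rfl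

theorem akh_s_surjective (hL : ak_IsLevel K F) : Function.Surjective (akh_s hL) :=
  (akh_rho hL).rangeRestrict_surjective

theorem akh_s_eq_one_iff (hL : ak_IsLevel K F) (u : ↥K.fixingSubgroup) :
    akh_s hL u = 1 ↔ (u : s55_GQ) ∈ F.fixingSubgroup := by
  rw [← akh_rho_eq_one_iff hL]
  constructor
  · intro h
    have := congrArg Subtype.val h
    exact this
  · intro h
    exact Subtype.ext h

theorem akh_fix_le (hL : ak_IsLevel K F) : F.fixingSubgroup ≤ K.fixingSubgroup :=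
  IntermediateField.fixingSubgroup_antitone hL.le

/-- Elements of `U` with the same restriction differ by an element of `G_F`. -/
theorem akh_s_eq_iff (hL : ak_IsLevel K F) (u v : ↥K.fixingSubgroup) :
    akh_s hL u = akh_s hL v ↔ ((u⁻¹ * v : ↥K.fixingSubgroup) : s55_GQ) ∈ F.fixingSubgroup := by
  rw [← akh_s_eq_one_iff hL, map_mul, map_inv, inv_mul_eq_one]

end akh_restriction

/-! ### Cochains -/

/-- The additive Galois module `ℚ̄ˣ` of `U = G_K`. -/
abbrev akh_actM (K : IntermediateField ℚ Qbar) :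
    DistribMulAction ↥K.fixingSubgroup (Additive Qbarˣ) :=
  gl_addAct ↥K.fixingSubgroup Qbarˣ

attribute [local instance] akh_actM

section akh_cochains

variable {K F : IntermediateField ℚ Qbar}

/-- The inclusion `Fˣ → ℚ̄ˣ`. -/
def akh_eps (F : IntermediateField ℚ Qbar) : (↥F)ˣ →* Qbarˣ := Units.map (F.val : ↥F →* Qbar)

@[simp] theorem akh_eps_coe (a : (↥F)ˣ) : ((akh_eps F a : Qbarˣ) : Qbar) = ((a : ↥F) : Qbar) := rfl

theorem akh_eps_injective : Function.Injective (akh_eps F) := by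
  intro a b h
  apply Units.ext
  apply Subtype.ext
  exact congrArg (fun y : Qbarˣ => (y : Qbar)) h

/-- A unit of `ℚ̄` lying in `F`, as a unit of `F`. -/
def akh_toL (y : Qbarˣ) (hy : (y : Qbar) ∈ F) : (↥F)ˣ :=
  Units.mk0 ⟨(y : Qbar), hy⟩ (fun h => y.ne_zero (congrArg Subtype.val h))

@[simp] theorem akh_eps_toL (y : Qbarˣ) (hy : (y : Qbar) ∈ F) : akh_eps F (akh_toL y hy) = y :=
  Units.ext rfl

/-- The inclusion `Fˣ → ℚ̄ˣ`, additively. -/
def akh_e (F : IntermediateField ℚ Qbar) : Additive (↥F)ˣ →+ Additive Qbarˣ :=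
  MonoidHom.toAdditive (akh_eps F)

theorem akh_e_apply (a : Additive (↥F)ˣ) : akh_e F a = Additive.ofMul (akh_eps F a.toMul) := rfl

theorem akh_e_injective : Function.Injective (akh_e F) := by
  intro a b h
  exact congrArg Additive.ofMul (akh_eps_injective (congrArg Additive.toMul h))

/-- The inclusion is equivariant. -/
theorem akh_e_smul (hL : ak_IsLevel K F) (u : ↥K.fixingSubgroup) (a : Additive (↥F)ˣ) :
    u • akh_e F a = akh_e F (akh_s hL u • a) := by
  apply congrArg Additive.ofMul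
  apply Units.ext
  rfl

/-- The image of `Fˣ` consists of the elements fixed by `G_F`. -/
theorem akh_e_surj_fixed (hL : ak_IsLevel K F) (m : Additive Qbarˣ)
    (hm : ∀ n : ↥K.fixingSubgroup, akh_s hL n = 1 → n • m = m) :
    ∃ a : Additive (↥F)ˣ, akh_e F a = m := by
  have h1 : ((m.toMul : Qbarˣ) : Qbar) ∈ F := by
    apply akh_mem_of_fixed
    intro s hs
    have h2 := hm ⟨s, akh_fix_le hL hs⟩ ((akh_s_eq_one_iff hL _).mpr hs)
    exact congrArg (fun y : Additive Qbarˣ => ((y.toMul : Qbarˣ) : Qbar)) h2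
  exact ⟨Additive.ofMul (akh_toL m.toMul h1), congrArg Additive.ofMul (akh_eps_toL _ h1)⟩

/-- A chosen lift of `σ ∈ Gal(F/K)` to `G_K`. -/
def akh_lift (hL : ak_IsLevel K F) (σ : ↥(akh_H hL)) : ↥K.fixingSubgroup :=
  Function.surjInv (akh_s_surjective hL) σ

@[simp] theorem akh_s_lift (hL : ak_IsLevel K F) (σ : ↥(akh_H hL)) :
    akh_s hL (akh_lift hL σ) = σ :=
  Function.surjInv_eq (akh_s_surjective hL) σ

/-- The finite-level 2-cochain of a 2-cochain of level `F`. -/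
def akh_c (hL : ak_IsLevel K F) (f : ↥K.fixingSubgroup × ↥K.fixingSubgroup → Qbarˣ)
    (hf : ∀ x, ((f x : Qbarˣ) : Qbar) ∈ F) : ↥(akh_H hL) × ↥(akh_H hL) → Additive (↥F)ˣ :=
  fun x => Additive.ofMul (akh_toL (f (akh_lift hL x.1, akh_lift hL x.2)) (hf _))

theorem akh_c_spec (hL : ak_IsLevel K F) (f : ↥K.fixingSubgroup × ↥K.fixingSubgroup → Qbarˣ)
    (hlev : ak_Lev₂ K F f) (g h : ↥K.fixingSubgroup) :
    akh_e F (akh_c hL f hlev.2 (akh_s hL g, akh_s hL h)) = Additive.ofMul (f (g, h)) := by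
  apply congrArg Additive.ofMul
  show akh_eps F (akh_toL _ _) = _
  rw [akh_eps_toL]
  have hg := (akh_s_eq_iff hL (akh_lift hL (akh_s hL g)) g).mp (akh_s_lift hL _)
  have hh := (akh_s_eq_iff hL (akh_lift hL (akh_s hL h)) h).mp (akh_s_lift hL _)
  have h1 := hlev.1 (akh_lift hL (akh_s hL g)) (akh_lift hL (akh_s hL h)) _ _ hg hh
  rw [mul_inv_cancel_left, mul_inv_cancel_left] at h1
  exact h1.symm

theorem akh_c_isCocycle (hL : ak_IsLevel K F)
    (f : ↥K.fixingSubgroup × ↥K.fixingSubgroup → Qbarˣ) (hf : IsMulCocycle₂ f)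
    (hlev : ak_Lev₂ K F f) : IsCocycle₂ (akh_c hL f hlev.2) := by
  intro σ τ υ
  obtain ⟨g, rfl⟩ := akh_s_surjective hL σ
  obtain ⟨h, rfl⟩ := akh_s_surjective hL τ
  obtain ⟨j, rfl⟩ := akh_s_surjective hL υ
  apply akh_e_injective (F := F)
  rw [map_add, map_add, ← akh_e_smul hL, ← map_mul, ← map_mul, akh_c_spec hL f hlev,
    akh_c_spec hL f hlev, akh_c_spec hL f hlev, akh_c_spec hL f hlev]
  exact congrArg Additive.ofMul (hf g h j)

end akh_cochains

/-! ### Places and local invariants -/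

section akh_places

variable {K F : IntermediateField ℚ Qbar} (q : ℕ) [Fact q.Prime]

/-- The embedding `ι_q ∘ g|_F : F → Ω_q`. -/
def akh_iota (F : IntermediateField ℚ Qbar) (g₀ : s55_GQ) : ↥F →ₐ[ℚ] PadicAlgCl q :=
  (ak_iota q g₀).comp F.val

@[simp] theorem akh_iota_apply (g₀ : s55_GQ) (x : ↥F) :
    akh_iota q F g₀ x = padicEmbedding q (g₀ (x : Qbar)) := rfl

/-- The basic computation: `τ ∘ ι_q ∘ g₀ = ι_q ∘ g₀ ∘ (g₀⁻¹ loc_q(τ) g₀)`. -/
theorem akh_twist_eq (g₀ : s55_GQ) (τ : lcf_Gal q) (x : Qbar) :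
    τ (padicEmbedding q (g₀ x)) =
      padicEmbedding q (g₀ ((g₀⁻¹ * localGaloisToGlobal q τ * g₀) x)) := by
  rw [← padicEmbedding_localGaloisToGlobal]
  congr 1
  show _ = g₀ (g₀⁻¹ (localGaloisToGlobal q τ (g₀ x)))
  exact (g₀.apply_symm_apply _).symm

/-- The local groups of the two models agree. -/
theorem akh_locU_eq (hL : ak_IsLevel K F) (g₀ : s55_GQ) :
    gl_locU q ↥F (akh_H hL) (akh_iota q F g₀) = ak_H K q g₀ := by
  ext τ
  rw [gl_mem_locU_iff, ak_mem_H_iff]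
  constructor
  · rintro ⟨σ, ⟨u, rfl⟩, h⟩
    rw [IntermediateField.mem_fixingSubgroup_iff]
    intro x hx
    have hxF : x ∈ F := hL.le hx
    have h1 : τ (padicEmbedding q (g₀ x)) = padicEmbedding q (g₀ ((u : s55_GQ) x)) :=
      DFunLike.congr_fun h ⟨x, hxF⟩
    rw [akh_twist_eq] at h1
    have h2 := g₀.injective ((padicEmbedding q).toRingHom.injective h1)
    rw [h2]
    exact (IntermediateField.mem_fixingSubgroup_iff K _).mp u.2 x hx
  · intro h
    refine ⟨akh_rho hL ⟨_, h⟩, ⟨⟨_, h⟩, rfl⟩, ?_⟩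
    ext x
    exact akh_twist_eq q g₀ τ (x : Qbar)

/-- The two localisation maps agree. -/
theorem akh_sigma_eq (hL : ak_IsLevel K F) (g₀ : s55_GQ)
    (τ : ↥(gl_locU q ↥F (akh_H hL) (akh_iota q F g₀))) (τ' : ↥(ak_H K q g₀))
    (h : (τ : lcf_Gal q) = (τ' : lcf_Gal q)) :
    gl_locSigma q ↥F (akh_H hL) (akh_iota q F g₀) τ = akh_s hL (ak_r K q g₀ τ') := by
  apply hss_sigma_eq
  ext x
  show (τ : lcf_Gal q) (padicEmbedding q (g₀ (x : Qbar))) =
    padicEmbedding q (g₀ (((ak_r K q g₀ τ' : ↥K.fixingSubgroup) : s55_GQ) (x : Qbar)))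
  rw [ak_r_coe, h]
  exact akh_twist_eq q g₀ (τ' : lcf_Gal q) (x : Qbar)

/-- The local invariants of the two models agree. -/
theorem akh_inv_eq (hL : ak_IsLevel K F) (inv : lcf_InvType) (g₀ : s55_GQ)
    (f : ↥K.fixingSubgroup × ↥K.fixingSubgroup → Qbarˣ) (hlev : ak_Lev₂ K F f) :
    gl_invAtF q ↥F (akh_H hL) (akh_iota q F g₀) inv (akh_c hL f hlev.2) =
      ak_inv K q g₀ inv f := by
  refine ak_inv_congr inv q (akh_locU_eq q hL g₀) _ _ ?_
  intro x y x' y' hx hy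
  rw [hss_locF_apply, akh_sigma_eq q hL g₀ x x' hx, akh_sigma_eq q hL g₀ y y' hy]
  have h1 := congrArg Additive.toMul (akh_c_spec hL f hlev (ak_r K q g₀ x') (ak_r K q g₀ y'))
  show _ = ak_emb q g₀ (f (ak_r K q g₀ x', ak_r K q g₀ y'))
  rw [← show akh_eps F (akh_c hL f hlev.2 (akh_s hL (ak_r K q g₀ x'),
    akh_s hL (ak_r K q g₀ y'))).toMul = f (ak_r K q g₀ x', ak_r K q g₀ y') from h1]
  apply Units.ext
  rfl

/-- Every embedding of `F` into `Ω_q` is of the form `ι_q ∘ g|_F`. -/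
theorem akh_exists_g (F : IntermediateField ℚ Qbar) (ι : ↥F →ₐ[ℚ] PadicAlgCl q) :
    ∃ g₀ : s55_GQ, ι = akh_iota q F g₀ := by
  haveI halg : Algebra.IsAlgebraic ℚ Qbar := AlgebraicClosure.isAlgebraic ℚ
  haveI hnorm : Normal ℚ Qbar := akh_isGalois.to_normal
  obtain ⟨φ, hφ⟩ := IntermediateField.exists_algHom_of_splits (F := ℚ) (E := Qbar)
    (K := PadicAlgCl q) (L := F)
    (fun s => ⟨(Algebra.IsAlgebraic.isAlgebraic s).isIntegral, IsAlgClosed.splits _⟩) ι
  letI : Algebra Qbar (PadicAlgCl q) := (padicEmbedding q).toRingHom.toAlgebra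
  haveI : IsScalarTower ℚ Qbar (PadicAlgCl q) :=
    IsScalarTower.of_algebraMap_eq' (Subsingleton.elim _ _)
  let g₁ : Qbar →ₐ[ℚ] Qbar := φ.restrictNormal Qbar
  have hg₁ : ∀ x : Qbar, padicEmbedding q (g₁ x) = φ x := fun x =>
    AlgHom.restrictNormal_commutes φ Qbar x
  refine ⟨AlgEquiv.ofBijective g₁ (Algebra.IsAlgebraic.algHom_bijective g₁), ?_⟩
  ext x
  show ι x = padicEmbedding q (g₁ (x : Qbar))
  rw [hg₁, ← hφ]
  rfl

end akh_places

end

end Fermat.Agent.S55
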