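/-
S55 (fifth wave), GLOBAL side, package [HASSE] (helper10), part 3: the SEMI-LOCAL cochain.

If all localisations at the embeddings `ι : F → Ω_q` of a 2-cocycle `c` of `H` with values in `Fˣ`
are smooth coboundaries, then the image of `c` in the semi-local ideles `gl_Jq q F` is the
coboundary of a cochain `B : H → gl_Jq q F`, which is unit-valued if `c` is unit-valued at `q`.
-/
import Fermat.Agent.S55.Global.HasseLocal
import Fermat.Agent.S55.Global.RamFinLocal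

set_option autoImplicit false

namespace Fermat.Agent.S55

open groupCohomology

noncomputable section

section hss_semi

variable (q : ℕ) [Fact q.Prime] (F : Type) [Field F] [NumberField F]
  (H : Subgroup (F ≃ₐ[ℚ] F))

/-- The additive Galois module `Ω_qˣ`. -/
abbrev hss_actM : DistribMulAction (lcf_Gal q) (Additive (PadicAlgCl q)ˣ) :=
  gl_addAct (lcf_Gal q) (PadicAlgCl q)ˣ

attribute [local instance] hss_actM

/-- The abstract system of the embeddings `F → Ω_q`. -/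
def hss_sys : hss_Sys (lcf_Gal q) ↥H (Additive (PadicAlgCl q)ˣ) (Additive Fˣ)
    (F →ₐ[ℚ] PadicAlgCl q) where
  tw := gl_twist q F
  rc ι σ := ι.comp ((σ : F ≃ₐ[ℚ] F) : F →ₐ[ℚ] F)
  e ι := MonoidHom.toAdditive (Units.map (ι : F →* PadicAlgCl q))
  tw_one := gl_twist_one q F
  tw_mul := gl_twist_mul q F
  rc_one ι := by ext x; rfl
  rc_mul ι σ σ' := by ext x; rfl
  tw_rc g ι σ := rfl
  rc_inj ι σ σ' h := Subtype.ext (hss_comp_inj h)
  e_tw g ι a := congrArg Additive.ofMul (hss_e_twist g a)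
  e_rc ι σ a := congrArg Additive.ofMul (hss_e_comp (σ : F ≃ₐ[ℚ] F) a)

variable {q F H}

theorem hss_loc_of_cob (c : ↥H × ↥H → Additive Fˣ) (hc : IsCocycle₂ c)
    (ι : F →ₐ[ℚ] PadicAlgCl q)
    (hcob : lcf_IsCob (gl_locU q F H ι) (gl_locF q F H ι c)) :
    ∃ β : ↥H → Additive (PadicAlgCl q)ˣ, hss_Loc (hss_sys q F H) c ι β := by
  obtain ⟨β, hβ⟩ := hss_descent c hc hcob
  refine ⟨fun δ => Additive.ofMul (β δ), ?_⟩
  intro g h σ τ hg hh
  have hgU : g ∈ gl_locU q F H ι := ⟨σ, σ.2, hg⟩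
  have hhU : h ∈ gl_locU q F H ι := ⟨τ, τ.2, hh⟩
  have e1 : gl_locSigma q F H ι ⟨g, hgU⟩ = σ := hss_sigma_eq _ _ hg
  have e2 : gl_locSigma q F H ι ⟨h, hhU⟩ = τ := hss_sigma_eq _ _ hh
  have h1 := hβ ⟨g, hgU⟩ ⟨h, hhU⟩
  rw [e1, e2] at h1
  exact congrArg Additive.ofMul h1

/-- The logarithm of the norm, as an additive map. -/
def hss_nu (q : ℕ) [Fact q.Prime] : Additive (PadicAlgCl q)ˣ →+ ℝ where
  toFun x := Real.log ‖((x.toMul : (PadicAlgCl q)ˣ) : PadicAlgCl q)‖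
  map_zero' := by
    show Real.log ‖(((1 : (PadicAlgCl q)ˣ)) : PadicAlgCl q)‖ = 0
    rw [Units.val_one, norm_one, Real.log_one]
  map_add' x y := by
    show Real.log ‖(((x.toMul * y.toMul : (PadicAlgCl q)ˣ)) : PadicAlgCl q)‖ = _
    rw [Units.val_mul, norm_mul, Real.log_mul (norm_ne_zero_iff.mpr (Units.ne_zero _))
      (norm_ne_zero_iff.mpr (Units.ne_zero _))]

theorem hss_nu_eq_zero_iff (x : Additive (PadicAlgCl q)ˣ) :
    hss_nu q x = 0 ↔ ‖((x.toMul : (PadicAlgCl q)ˣ) : PadicAlgCl q)‖ = 1 := by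
  constructor
  · intro h
    exact Real.eq_one_of_pos_of_log_eq_zero (norm_pos_iff.mpr (Units.ne_zero _)) h
  · intro h
    show Real.log _ = 0
    rw [h, Real.log_one]

theorem hss_nu_smul (g : lcf_Gal q) (x : Additive (PadicAlgCl q)ˣ) :
    hss_nu q (g • x) = hss_nu q x := by
  show Real.log ‖g ((x.toMul : (PadicAlgCl q)ˣ) : PadicAlgCl q)‖ = Real.log _
  rw [ramf_norm_aut]

/-- **The semi-local cochain.** -/
theorem hss_semilocal (c : ↥H × ↥H → Additive Fˣ) (hc : IsCocycle₂ c)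
    (hloc : ∀ ι : F →ₐ[ℚ] PadicAlgCl q, lcf_IsCob (gl_locU q F H ι) (gl_locF q F H ι c)) :
    ∃ B : ↥H → gl_Jq q F,
      (∀ σ τ : ↥H, (σ : F ≃ₐ[ℚ] F) • B τ / B (σ * τ) * B σ = gl_diagq q F (c (σ, τ)).toMul) ∧
      ((∀ σ τ : ↥H, gl_diagq q F (c (σ, τ)).toMul ∈ gl_Uq q F) → ∀ τ : ↥H, B τ ∈ gl_Uq q F) := by
  obtain ⟨B, hB1, hB2, hB3⟩ := hss_abs_main (S := hss_sys q F H) hc
    (fun ι => hss_loc_of_cob c hc ι (hloc ι))
  refine ⟨fun τ => ⟨fun ι => (B τ ι).toMul, fun g ι => congrArg Additive.toMul (hB1 τ g ι)⟩,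
    fun σ τ => ?_, fun hu τ ι => ?_⟩
  · apply Subtype.ext
    funext ι
    exact congrArg Additive.toMul (hB2 σ τ ι)
  · refine (hss_nu_eq_zero_iff (B τ ι)).mp (hB3 (hss_nu q) hss_nu_smul (fun x σ τ => ?_) τ ι)
    exact (hss_nu_eq_zero_iff _).mpr (hu σ τ x)

end hss_semi

end

end Fermat.Agent.S55
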