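/-
S55 (fifth wave), GLOBAL side, package [HASSE] (helper10), part 4: the HASSE PRINCIPLE.

`hss_main : gl_H1Statement → gl_HasseStatement`.

A 2-cocycle `c` of the `p`-group `H` with values in `Fˣ` all of whose localisations have
invariant zero is, by (I2), locally a smooth coboundary; the local cochains descend to the finite
level (`hss_descent`, Hilbert 90) and are assembled to a cochain `β : H → J_F` with `d β = c`
(`hss_semilocal`; unit-valued at almost all primes because a homomorphism from a finite group to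
`ℝ` is trivial).  The image of `β` in the idele classes is a 1-cocycle, hence a coboundary
(`H¹(H, C_F) = 0`); correcting `β` gives a cochain with values in `Fˣ`.
-/
import Fermat.Agent.S55.Global.HasseSemi
import Fermat.Agent.S55.Global.Diag
import Fermat.Agent.S55.Global.GalDescent

set_option autoImplicit false

namespace Fermat.Agent.S55

open groupCohomology

noncomputable section

section hss_global

variable {F : Type} [Field F] [NumberField F] {H : Subgroup (F ≃ₐ[ℚ] F)}

/-- The idele-valued cochain. -/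
theorem hss_ideles (c : ↥H × ↥H → Additive Fˣ) (hc : IsCocycle₂ c)
    (hloc : ∀ (q : ℕ) [Fact q.Prime] (ι : F →ₐ[ℚ] PadicAlgCl q),
      lcf_IsCob (gl_locU q F H ι) (gl_locF q F H ι c)) :
    ∃ β : ↥H → Additive (gl_J F), ∀ σ τ : ↥H,
      σ • β τ - β (σ * τ) + β σ = Additive.ofMul (gdiag_hom F (c (σ, τ)).toMul) := by
  have h1 : ∀ q : Nat.Primes, ∃ B : ↥H → gl_JP F q,
      (∀ σ τ : ↥H, (σ : F ≃ₐ[ℚ] F) • B τ / B (σ * τ) * B σ = gl_diagP F q (c (σ, τ)).toMul) ∧
      ((∀ σ τ : ↥H, gl_diagP F q (c (σ, τ)).toMul ∈ gl_UP F q) →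
        ∀ τ : ↥H, B τ ∈ gl_UP F q) := by
    intro q
    have : Fact (q : ℕ).Prime := ⟨q.2⟩
    exact hss_semilocal c hc (fun ι => hloc (q : ℕ) ι)
  choose B hB1 hB2 using h1
  have hfin : {q : Nat.Primes | ∃ x : ↥H × ↥H,
      gl_diagP F q (c x).toMul ∉ gl_UP F q}.Finite := by
    have : {q : Nat.Primes | ∃ x : ↥H × ↥H, gl_diagP F q (c x).toMul ∉ gl_UP F q} =
        ⋃ x : ↥H × ↥H, {q : Nat.Primes | gl_diagP F q (c x).toMul ∉ gl_UP F q} := by
      ext q
      simp only [Set.mem_ofPred_eq, Set.mem_iUnion]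
    rw [this]
    exact Set.finite_iUnion (fun x => gdiag_finite (c x).toMul)
  have hJ : ∀ τ : ↥H, (fun q => B q τ) ∈ gl_J F := by
    intro τ
    refine hfin.subset ?_
    intro q hq
    by_contra hcon
    apply hq
    refine hB2 q (fun σ τ' => ?_) τ
    by_contra h
    exact hcon ⟨(σ, τ'), h⟩
  refine ⟨fun τ => Additive.ofMul ⟨fun q => B q τ, hJ τ⟩, fun σ τ => ?_⟩
  apply congrArg Additive.ofMul
  apply Subtype.ext
  funext q
  exact hB1 q σ τ

end hss_global

set_option synthInstance.maxHeartbeats 400000 in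
set_option maxHeartbeats 1000000 in
/-- **[HASSE]** the Hasse principle for `p`-groups, from `H¹(H, C_F) = 0`. -/
theorem hss_main (hH1 : gl_H1Statement) : gl_HasseStatement := by
  intro inv hinv F _ _ p hp hp2 hζ H hH c hc hzero
  have hloc : ∀ (q : ℕ) [Fact q.Prime] (ι : F →ₐ[ℚ] PadicAlgCl q),
      lcf_IsCob (gl_locU q F H ι) (gl_locF q F H ι c) := fun q _ ι =>
    (hinv.eq_zero_iff q _ (hss_isOpen H ι) _ (hss_isCoc c hc)).mp (hzero q ι)
  obtain ⟨β, hβ⟩ := hss_ideles c hc hloc
  refine hss_abs_final (G := ↥H) (MonoidHom.toAdditive (gdiag_hom F)) (gl_mkA F) ?_ ?_ ?_ ?_ ?_ ?_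
    (hH1 F p hp hp2 hζ H hH) c β hβ
  · intro a b hab
    exact congrArg Additive.ofMul (gdsc_diag_injective F (congrArg Additive.toMul hab))
  · intro g a
    exact congrArg Additive.ofMul (gdsc_smul_diag F (g : F ≃ₐ[ℚ] F) a.toMul).symm
  · intro g x
    rfl
  · intro a
    exact congrArg Additive.ofMul
      ((QuotientGroup.eq_one_iff _).mpr (gdiag_hom_mem_P F a.toMul))
  · intro x hx
    have h2 : x.toMul ∈ gl_P F :=
      (QuotientGroup.eq_one_iff _).mp (congrArg Additive.toMul hx)
    obtain ⟨a, ha⟩ := (gdiag_mem_P_iff F _).mp h2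
    exact ⟨Additive.ofMul a, (congrArg Additive.ofMul ha).symm⟩
  · intro xbar
    obtain ⟨x, hx⟩ := QuotientGroup.mk'_surjective (gl_P F) xbar.toMul
    exact ⟨Additive.ofMul x, congrArg Additive.ofMul hx⟩

end

end Fermat.Agent.S55
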