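/-
S55 (fifth wave), GLOBAL side, package [AK-HASSE] (helper10), part 1: the Hasse principle at
finite level WITHOUT the `p`-group hypothesis, for `p`-primary classes.

`F` a number field containing `ζ_p`, `H ≤ Aut(F/ℚ)` ARBITRARY, `c` a 2-cocycle of `H` with values
in `Fˣ` such that `p ^ k • c` is a coboundary and all local invariants of `c` vanish.  Then `c` is
a coboundary: the restriction of `c` to a `p`-Sylow subgroup `P` of `H` has vanishing local
invariants ([RES-SUM], local formula), hence is a coboundary by [HASSE], and restriction to `P`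
is injective on `p`-power torsion classes (helper19's `fgS_H2_of_pow`).
-/
import Fermat.Agent.S55.Global.Hasse
import Fermat.Agent.S55.Global.ResSumMain
import Fermat.Agent.S55.FG.Syl

set_option autoImplicit false

namespace Fermat.Agent.S55

open groupCohomology

/-- Pull-back of a 2-coboundary along a homomorphism compatible with the actions. -/
theorem akh_cob_pull {G₁ G₂ A : Type*} [Group G₁] [Group G₂] [AddCommGroup A]
    [DistribMulAction G₁ A] [DistribMulAction G₂ A] (e : G₁ →* G₂)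
    (he : ∀ (g : G₁) (a : A), e g • a = g • a) {f : G₂ × G₂ → A} (hf : IsCoboundary₂ f) :
    IsCoboundary₂ (fun x : G₁ × G₁ => f (e x.1, e x.2)) := by
  obtain ⟨x, hx⟩ := hf
  refine ⟨fun g => x (e g), fun g h => ?_⟩
  have h1 := hx (e g) (e h)
  rw [he, ← map_mul] at h1
  exact h1

/-- **The Hasse principle for `p`-primary classes of an arbitrary finite level.** -/
theorem akh_fin (hH : gl_HasseStatement) (inv : lcf_InvType) (hinv : lcf_IsInvSystem inv)
    (F : Type) [Field F] [NumberField F] (p : ℕ) (hp : p.Prime) (hp2 : p ≠ 2)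
    (hζ : ∃ ζ : F, IsPrimitiveRoot ζ p) (H : Subgroup (F ≃ₐ[ℚ] F))
    (c : ↥H × ↥H → Additive Fˣ) (hc : IsCocycle₂ c) (k : ℕ)
    (hk : IsCoboundary₂ (fun x => p ^ k • c x))
    (hzero : ∀ (q : ℕ) [Fact q.Prime] (ι : F →ₐ[ℚ] PadicAlgCl q),
      gl_invAtF q F H ι inv c = 0) :
    IsCoboundary₂ c := by
  have : Fact p.Prime := ⟨hp⟩
  obtain ⟨P₀⟩ := (inferInstance : Nonempty (Sylow p ↥H))
  have hPH : (P₀ : Subgroup ↥H).map H.subtype ≤ H := Subgroup.map_subtype_le _
  have hPp : IsPGroup p ↥((P₀ : Subgroup ↥H).map H.subtype) := P₀.isPGroup'.map H.subtype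
  have hres_coc : IsCocycle₂ (gl_res₂ hPH c) := fun g h j =>
    hc (Subgroup.inclusion hPH g) (Subgroup.inclusion hPH h) (Subgroup.inclusion hPH j)
  have hres_zero : ∀ (q : ℕ) [Fact q.Prime] (ι : F →ₐ[ℚ] PadicAlgCl q),
      gl_invAtF q F ((P₀ : Subgroup ↥H).map H.subtype) ι inv (gl_res₂ hPH c) = 0 := by
    intro q _ ι
    rw [((grs_main inv hinv F H _ hPH).1 c hc).1 q ι, hzero q ι, smul_zero]
  have hres := hH inv hinv F p hp hp2 hζ _ hPp (gl_res₂ hPH c) hres_coc hres_zero
  refine fgS_H2_of_pow hp (P₀ : Subgroup ↥H) P₀.not_dvd_index hc k hk ?_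
  let e : ↥(P₀ : Subgroup ↥H) →* ↥((P₀ : Subgroup ↥H).map H.subtype) :=
    { toFun := fun g => ⟨((g : ↥H) : F ≃ₐ[ℚ] F), Subgroup.mem_map_of_mem H.subtype g.2⟩
      map_one' := rfl
      map_mul' := fun _ _ => rfl }
  exact akh_cob_pull e (fun g a => rfl) hres

end Fermat.Agent.S55
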