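/-
S55 (fifth wave), GLOBAL side, package [AK-HASSE] (helper10), part 4: the absolute Hasse
principle at a fixed level.

`akh_main : gl_HasseStatement → ak_HasseStatement`.

`f` a `p`-primary 2-cocycle of `U = G_K` of level `F` with vanishing local invariants, `ζ_p ∈ K`.
The finite-level cochain `c = akh_c f` of `Gal(F/K)` in `Fˣ` is a cocycle with vanishing local
invariants (`akh_inv_eq`, `akh_exists_g`), and `p ^ k • c` is a coboundary AT THE LEVEL `F`:
`f ^ (p ^ k) = d b` with `b` of some level `F'`, the cocycle `b / const` of `G_F` is a coboundary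
by Hilbert 90 (`akh_h90`), and inflation is injective (`hss_desc_main`).  Hence `c` is a
coboundary by `akh_fin`, and `f = d (x ∘ res)`.
-/
import Fermat.Agent.S55.Global.AkHasseDict
import Fermat.Agent.S55.Global.AkHasseFin
import Fermat.Agent.S55.Global.AkHasseH90

set_option autoImplicit false
set_option linter.style.haveILetI false

namespace Fermat.Agent.S55

open groupCohomology

noncomputable section

local notation "Qbar" => AlgebraicClosure ℚ

section akh_abs

variable {U H M A : Type*} [Group U] [Group H] [AddCommGroup M] [DistribMulAction U M]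
  [AddCommGroup A] [DistribMulAction H A]

/-- A multiple of a 2-cocycle is a 2-cocycle. -/
theorem akh_isCocycle_nsmul {c : H × H → A} (hc : IsCocycle₂ c) (n : ℕ) :
    IsCocycle₂ (fun x => n • c x) := by
  intro g h j
  show n • c (g * h, j) + n • c (g, h) = g • (n • c (h, j)) + n • c (g, h * j)
  rw [smul_comm g n, ← smul_add, ← smul_add, hc g h j]

/-- Injectivity of inflation at the same level: `s : U → H` surjective, `e₀ : A → M` injective
onto the invariants of `ker s`; if the inflation of the 2-cocycle `c` of `H` is the coboundary of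
a cochain `b` of `U` whose associated 1-cocycle on `ker s` is a coboundary (Hilbert 90), then
`c` is a coboundary. -/
theorem akh_abs_same (s : U →* H) (hs : Function.Surjective s) (e₀ : A →+ M)
    (he₀ : Function.Injective e₀) (he : ∀ (u : U) (a : A), u • e₀ a = e₀ (s u • a))
    (hfix : ∀ m : M, (∀ n : U, s n = 1 → n • m = m) → ∃ a : A, e₀ a = m)
    (c : H × H → A) (hc : IsCocycle₂ c) (b : U → M)
    (hb : ∀ g h : U, g • b h - b (g * h) + b g = e₀ (c (s g, s h)))
    (x : M) (hx : ∀ n : U, s n = 1 → b n - e₀ (c (1, 1)) = n • x - x) :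
    IsCoboundary₂ c := by
  obtain ⟨β, hβ⟩ := hss_desc_main (s := s) (e₀ := e₀) (c := c) (b := b) hc he hb x hx
  have h11 : β 1 = e₀ (c (1, 1)) := by
    have h1 := hβ 1 1
    rw [map_one, one_smul, one_mul] at h1
    linear_combination (norm := abel) h1
  have hβfix : ∀ (σ : H) (n : U), s n = 1 → n • β σ = β σ := by
    intro σ n hn
    obtain ⟨h, rfl⟩ := hs σ
    have h1 := hβ n h
    rw [hn, one_mul, hss_cocycle_one' hc, h11] at h1
    linear_combination (norm := abel) h1
  choose x₀ hx₀ using fun σ => hfix (β σ) (hβfix σ)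
  refine ⟨x₀, fun σ τ => he₀ ?_⟩
  obtain ⟨g, rfl⟩ := hs σ
  obtain ⟨h, rfl⟩ := hs τ
  rw [map_add, map_sub, ← he, hx₀, hx₀, hx₀]
  exact hβ g h

end akh_abs

attribute [local instance] akh_actM

/-- **[AK-HASSE]** the absolute Hasse principle at a fixed level, from [HASSE]. -/
theorem akh_main (hH : gl_HasseStatement) : ak_HasseStatement := by
  intro inv hinv p hp hp2 K F _ hL hζ f hf hlev hprim hzero
  haveI hFfin : FiniteDimensional ℚ ↥F := hL.fin
  haveI : NumberField ↥F := NumberField.mk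
  have hc := akh_c_isCocycle hL f hf hlev
  obtain ⟨ζ, hζ1, hζK⟩ := hζ
  have hζ' : ∃ ζ' : ↥F, IsPrimitiveRoot ζ' p :=
    ⟨⟨ζ, hL.le hζK⟩, IsPrimitiveRoot.of_map_of_injective (f := F.val)
      hζ1 F.val.toRingHom.injective⟩
  obtain ⟨k, F', b, hL', hb, hfb⟩ := hprim
  have hk : IsCoboundary₂ (fun x => p ^ k • akh_c hL f hlev.2 x) := by
    haveI : FiniteDimensional ℚ ↥F' := hL'.fin
    have hb' : ∀ g h : ↥K.fixingSubgroup,
        g • (Additive.ofMul (b h)) - Additive.ofMul (b (g * h)) + Additive.ofMul (b g) =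
          akh_e F (p ^ k • akh_c hL f hlev.2 (akh_s hL g, akh_s hL h)) := by
      intro g h
      rw [map_nsmul, akh_c_spec hL f hlev]
      exact (congrArg Additive.ofMul (hfb (g, h))).symm
    obtain ⟨x, hx⟩ := akh_h90 (k := ℚ) (Ω := Qbar) F.fixingSubgroup F'
      (fun n => b ⟨n, akh_fix_le hL n.2⟩ /
        (akh_e F (p ^ k • akh_c hL f hlev.2 (1, 1))).toMul)
      (by
        intro n m
        have h1 := hss_desc_coc (s := akh_s hL) (e₀ := akh_e F)
          (c := fun x => p ^ k • akh_c hL f hlev.2 x) (b := fun g => Additive.ofMul (b g))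
          (akh_e_smul hL) hb' ⟨n, akh_fix_le hL n.2⟩ ⟨m, akh_fix_le hL m.2⟩
          ((akh_s_eq_one_iff hL _).mpr n.2) ((akh_s_eq_one_iff hL _).mpr m.2)
        exact congrArg Additive.toMul h1)
      (by
        intro n t ht
        have h1 := hb.1 ⟨n, akh_fix_le hL n.2⟩ ⟨t, akh_fix_le hL t.2⟩ ht
        show b ⟨((n * t : ↥F.fixingSubgroup) : s55_GQ), _⟩ / _ = b ⟨n, _⟩ / _
        rw [← h1]
        rfl)
    refine akh_abs_same (akh_s hL) (akh_s_surjective hL) (akh_e F) akh_e_injective
      (akh_e_smul hL) (akh_e_surj_fixed hL) _ (akh_isCocycle_nsmul hc _)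
      (fun g => Additive.ofMul (b g)) hb' (Additive.ofMul x) ?_
    intro n hn
    have hnF := (akh_s_eq_one_iff hL n).mp hn
    exact congrArg Additive.ofMul (hx ⟨n, hnF⟩)
  have hz : ∀ (q : ℕ) [Fact q.Prime] (ι : ↥F →ₐ[ℚ] PadicAlgCl q),
      gl_invAtF q ↥F (akh_H hL) ι inv (akh_c hL f hlev.2) = 0 := by
    intro q _ ι
    obtain ⟨g₀, rfl⟩ := akh_exists_g q F ι
    rw [akh_inv_eq q hL inv g₀ f hlev]
    exact hzero (⟨q, Fact.out⟩, g₀)
  obtain ⟨x, hx⟩ := akh_fin hH inv hinv ↥F p hp hp2 hζ' (akh_H hL) _ hc k hk hz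
  refine ⟨fun u => akh_eps F (x (akh_s hL u)).toMul, ⟨?_, ?_⟩, ?_⟩
  · intro g t ht
    show akh_eps F (x (akh_s hL (g * t))).toMul = _
    rw [map_mul, (akh_s_eq_one_iff hL t).mpr ht, mul_one]
  · intro g
    exact ((x (akh_s hL g)).toMul : ↥F).2
  · rintro ⟨g, h⟩
    have h1 := congrArg (akh_e F) (hx (akh_s hL g) (akh_s hL h))
    rw [akh_c_spec hL f hlev, map_add, map_sub, ← akh_e_smul hL, ← map_mul] at h1
    exact congrArg Additive.toMul h1

end

end Fermat.Agent.S55
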