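/-
S55 (fifth wave), GLOBAL side, part 3, package [E-COH] (owner: helper29): AVERAGING.
Prefix `ec_`.  Pure algebra (Mathlib only).

`G` a group, `N` a normal subgroup of finite index, `M` a commutative group with an action of `G`,
`f : G × G → M` constant modulo `N` in the second variable.  `ec_avgG N f g = ∏_{c ∈ G/N} f (g, c)`
satisfies
    `g • b₁ h / b₁ (g h) * b₁ g = f (g, h) ^ [G : N] * ∏_{c ∈ G/N} (d f) (g, h, c)`
(`ec_avgG_d`), where `(d f) (g, h, j) = g • f (h, j) / f (g h, j) * f (g, h j) / f (g, h)`.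
-/
import Mathlib

set_option autoImplicit false
set_option linter.style.haveILetI false
set_option linter.unusedSectionVars false

namespace Fermat.Agent.S55

noncomputable section

section avg

variable {G : Type*} [Group G] (N : Subgroup G) {M : Type*} [CommGroup M]

/-- The product of `f (g, -)` over representatives of `G / N`. -/
def ec_avgG (f : G × G → M) (g : G) : M := ∏ᶠ c : G ⧸ N, f (g, Quotient.out c)

/-- The product of `z (g, h, -)` over representatives of `G / N`. -/
def ec_avgG₃ (z : G × G × G → M) (x : G × G) : M := ∏ᶠ c : G ⧸ N, z (x.1, x.2, Quotient.out c)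

variable {N}

theorem ec_avgG_congr_right {f : G × G → M}
    (hf : ∀ g h s : G, s ∈ N → f (g, h * s) = f (g, h)) (g h h' : G)
    (hh : (h : G ⧸ N) = (h' : G ⧸ N)) : f (g, h) = f (g, h') := by
  have h1 : h⁻¹ * h' ∈ N := QuotientGroup.eq.1 hh
  have h2 := hf g h (h⁻¹ * h') h1
  rw [mul_inv_cancel_left] at h2
  exact h2.symm

/-- Translation invariance of the average. -/
theorem ec_avgG_translate [N.Normal] [N.FiniteIndex] {f : G × G → M}
    (hf : ∀ g h s : G, s ∈ N → f (g, h * s) = f (g, h)) (g h : G) :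
    ∏ᶠ c : G ⧸ N, f (g, h * Quotient.out c) = ec_avgG N f g := by
  classical
  haveI : Finite (G ⧸ N) := Subgroup.finite_quotient_of_finiteIndex
  haveI : Fintype (G ⧸ N) := Fintype.ofFinite _
  rw [ec_avgG, finprod_eq_prod_of_fintype, finprod_eq_prod_of_fintype]
  let e : G ⧸ N ≃ G ⧸ N :=
    { toFun := fun c => (h : G ⧸ N) * c
      invFun := fun c => ((h⁻¹ : G) : G ⧸ N) * c
      left_inv := fun c => by
        show ((h⁻¹ : G) : G ⧸ N) * ((h : G ⧸ N) * c) = c
        rw [← mul_assoc, ← QuotientGroup.mk_mul, inv_mul_cancel, QuotientGroup.mk_one, one_mul]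
      right_inv := fun c => by
        show (h : G ⧸ N) * (((h⁻¹ : G) : G ⧸ N) * c) = c
        rw [← mul_assoc, ← QuotientGroup.mk_mul, mul_inv_cancel, QuotientGroup.mk_one, one_mul] }
  rw [← Equiv.prod_comp e (fun c => f (g, Quotient.out c))]
  refine Finset.prod_congr rfl fun c _ => ?_
  apply ec_avgG_congr_right hf
  show ((h * Quotient.out c : G) : G ⧸ N) = ((Quotient.out ((h : G ⧸ N) * c) : G) : G ⧸ N)
  rw [QuotientGroup.mk_mul, QuotientGroup.out_eq', QuotientGroup.out_eq']

variable [MulDistribMulAction G M]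

/-- **The averaging identity.** -/
theorem ec_avgG_d [N.Normal] [N.FiniteIndex] {f : G × G → M}
    (hf : ∀ g h s : G, s ∈ N → f (g, h * s) = f (g, h)) (g h : G) :
    g • ec_avgG N f h / ec_avgG N f (g * h) * ec_avgG N f g =
      f (g, h) ^ N.index *
        ec_avgG₃ N (fun x => x.1 • f (x.2.1, x.2.2) / f (x.1 * x.2.1, x.2.2) *
          f (x.1, x.2.1 * x.2.2) / f (x.1, x.2.1)) (g, h) := by
  classical
  haveI : Finite (G ⧸ N) := Subgroup.finite_quotient_of_finiteIndex
  haveI : Fintype (G ⧸ N) := Fintype.ofFinite _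
  rw [← ec_avgG_translate hf g h]
  rw [ec_avgG, ec_avgG, ec_avgG₃]
  simp only [finprod_eq_prod_of_fintype]
  rw [Finset.smul_prod', ← Finset.prod_div_distrib, ← Finset.prod_mul_distrib]
  have hidx : N.index = Fintype.card (G ⧸ N) := by
    rw [Subgroup.index, Nat.card_eq_fintype_card]
  rw [hidx, ← Finset.card_univ, ← Finset.prod_const, ← Finset.prod_mul_distrib]
  refine Finset.prod_congr rfl fun c _ => ?_
  rw [mul_div_cancel]

theorem ec_avgG_const_left [N.Normal] [N.FiniteIndex] {f : G × G → M}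
    (hf : ∀ g h s s' : G, s ∈ N → s' ∈ N → f (g * s, h * s') = f (g, h)) (g s : G) (hs : s ∈ N) :
    ec_avgG N f (g * s) = ec_avgG N f g := by
  rw [ec_avgG, ec_avgG]
  refine finprod_congr fun c => ?_
  have := hf g (Quotient.out c) s 1 hs N.one_mem
  rwa [mul_one] at this

theorem ec_avgG₃_pow [N.FiniteIndex] {z : G × G × G → M} {p : ℕ} (hz : ∀ x, z x ^ p = 1)
    (x : G × G) : ec_avgG₃ N z x ^ p = 1 := by
  classical
  haveI : Finite (G ⧸ N) := Subgroup.finite_quotient_of_finiteIndex
  haveI : Fintype (G ⧸ N) := Fintype.ofFinite _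
  rw [ec_avgG₃, finprod_eq_prod_of_fintype, ← Finset.prod_pow]
  exact Finset.prod_eq_one fun c _ => hz _

theorem ec_avgG₃_one [N.FiniteIndex] {z : G × G × G → M} (hz : ∀ x, z x = 1) (x : G × G) :
    ec_avgG₃ N z x = 1 := by
  rw [ec_avgG₃]
  simp only [hz]
  exact finprod_one

/-- A property of all values which is stable under products holds for the average. -/
theorem ec_avgG_mem [N.FiniteIndex] (H : Subgroup M) {f : G × G → M} (hf : ∀ x, f x ∈ H)
    (g : G) : ec_avgG N f g ∈ H := by
  classical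
  haveI : Finite (G ⧸ N) := Subgroup.finite_quotient_of_finiteIndex
  haveI : Fintype (G ⧸ N) := Fintype.ofFinite _
  rw [ec_avgG, finprod_eq_prod_of_fintype]
  exact Subgroup.prod_mem H fun c _ => hf _

end avg

end

end Fermat.Agent.S55
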