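/-
S55 (fifth wave), GLOBAL side, part 3, package [E-COH] (owner: helper29): the calculus of
`eco_HasOrdP` (`ord_w x = n` :⟺ `‖ι_q (g x)‖ = q ^ (-n)`, `w = (q, g)`).  Prefix `ec_ord_`.
-/
import Mathlib
import Fermat.Agent.S55.Global.EcohDefs

set_option autoImplicit false
set_option linter.style.haveILetI false
set_option linter.unusedSectionVars false

namespace Fermat.Agent.S55

noncomputable section

local notation "Qbar" => AlgebraicClosure ℚ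

section ord

variable (w : Nat.Primes × s55_GQ)

theorem ec_ord_iff (x : Qbarˣ) (n : ℤ) :
    eco_HasOrdP w x n ↔
      letI : Fact (w.1 : ℕ).Prime := ⟨w.1.2⟩
      ‖padicEmbedding (w.1 : ℕ) (w.2 (x : Qbar))‖ = ((w.1 : ℕ) : ℝ) ^ (-n) := Iff.rfl

theorem ec_ord_q_pos : (0 : ℝ) < ((w.1 : ℕ) : ℝ) := by
  exact_mod_cast w.1.2.pos

theorem ec_ord_q_gt : (1 : ℝ) < ((w.1 : ℕ) : ℝ) := by
  exact_mod_cast w.1.2.one_lt

variable {w}

theorem ec_ord_one : eco_HasOrdP w 1 0 := by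
  rw [ec_ord_iff]
  simp

theorem ec_ord_mul {x y : Qbarˣ} {m n : ℤ} (hx : eco_HasOrdP w x m) (hy : eco_HasOrdP w y n) :
    eco_HasOrdP w (x * y) (m + n) := by
  rw [ec_ord_iff] at hx hy ⊢
  letI : Fact (w.1 : ℕ).Prime := ⟨w.1.2⟩
  rw [Units.val_mul, map_mul, map_mul, norm_mul, hx, hy, neg_add, zpow_add₀ (ec_ord_q_pos w).ne']

theorem ec_ord_inv {x : Qbarˣ} {m : ℤ} (hx : eco_HasOrdP w x m) : eco_HasOrdP w x⁻¹ (-m) := by
  rw [ec_ord_iff] at hx ⊢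
  letI : Fact (w.1 : ℕ).Prime := ⟨w.1.2⟩
  rw [Units.val_inv_eq_inv_val, map_inv₀, map_inv₀, norm_inv, hx, ← zpow_neg]

theorem ec_ord_div {x y : Qbarˣ} {m n : ℤ} (hx : eco_HasOrdP w x m) (hy : eco_HasOrdP w y n) :
    eco_HasOrdP w (x / y) (m - n) := by
  rw [div_eq_mul_inv, sub_eq_add_neg]
  exact ec_ord_mul hx (ec_ord_inv hy)

theorem ec_ord_pow {x : Qbarˣ} {m : ℤ} (hx : eco_HasOrdP w x m) (k : ℕ) :
    eco_HasOrdP w (x ^ k) ((k : ℤ) * m) := by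
  induction k with
  | zero =>
    rw [pow_zero, Nat.cast_zero, zero_mul]
    exact ec_ord_one
  | succ k ih =>
    rw [pow_succ]
    have := ec_ord_mul ih hx
    have e : ((k + 1 : ℕ) : ℤ) * m = (k : ℤ) * m + m := by push_cast; ring
    rw [e]
    exact this

theorem ec_ord_zpow {x : Qbarˣ} {m : ℤ} (hx : eco_HasOrdP w x m) (k : ℤ) :
    eco_HasOrdP w (x ^ k) (k * m) := by
  obtain ⟨j, rfl | rfl⟩ := Int.eq_nat_or_neg k
  · rw [zpow_natCast]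
    exact ec_ord_pow hx j
  · rw [zpow_neg, zpow_natCast, neg_mul]
    exact ec_ord_inv (ec_ord_pow hx j)

theorem ec_ord_unique {x : Qbarˣ} {m n : ℤ} (hx : eco_HasOrdP w x m) (hy : eco_HasOrdP w x n) :
    m = n := by
  rw [ec_ord_iff] at hx hy
  letI : Fact (w.1 : ℕ).Prime := ⟨w.1.2⟩
  rw [hx] at hy
  have := zpow_right_injective₀ (ec_ord_q_pos w) (ec_ord_q_gt w).ne' hy
  exact neg_injective this

theorem ec_ord_congr {x : Qbarˣ} {m n : ℤ} (hx : eco_HasOrdP w x m) (h : m = n) :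
    eco_HasOrdP w x n := h ▸ hx

/-- `ord_w (σ x) = ord_{wσ} x`. -/
theorem ec_ord_smul {K : IntermediateField ℚ Qbar} (σ : ↥K.fixingSubgroup) (x : Qbarˣ) (n : ℤ) :
    eco_HasOrdP w (σ • x) n ↔ eco_HasOrdP (w.1, w.2 * (σ : s55_GQ)) x n := Iff.rfl

theorem ec_ord_of_pow {x : Qbarˣ} {m : ℤ} {k : ℕ} (hk : k ≠ 0)
    (hx : eco_HasOrdP w (x ^ k) ((k : ℤ) * m)) : eco_HasOrdP w x m := by
  rw [ec_ord_iff] at hx ⊢
  letI : Fact (w.1 : ℕ).Prime := ⟨w.1.2⟩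
  rw [Units.val_pow_eq_pow_val, map_pow, map_pow, norm_pow] at hx
  have h2 : (((w.1 : ℕ) : ℝ) ^ (-m)) ^ k = ((w.1 : ℕ) : ℝ) ^ (-((k : ℤ) * m)) := by
    rw [← zpow_natCast, ← zpow_mul]
    congr 1
    ring
  rw [← h2] at hx
  exact (pow_left_inj₀ (norm_nonneg _) (zpow_nonneg (ec_ord_q_pos w).le _) hk).1 hx

theorem ec_ord_of_pow_eq_one {x : Qbarˣ} {k : ℕ} (hk : k ≠ 0) (hx : x ^ k = 1) :
    eco_HasOrdP w x 0 := by
  apply ec_ord_of_pow hk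
  rw [hx, mul_zero]
  exact ec_ord_one

theorem ec_ord_of_isRoot {p : ℕ} (hp : p.Prime) {x : Qbarˣ} (hx : eco_IsRoot p x) :
    eco_HasOrdP w x 0 := by
  obtain ⟨k, hk⟩ := hx
  exact ec_ord_of_pow_eq_one (pow_ne_zero _ hp.ne_zero) hk

theorem ec_ord_of_isSUnit {S : Finset Nat.Primes} {x : Qbarˣ} (hx : ak_IsSUnit S x)
    (hw : w.1 ∉ S) : eco_HasOrdP w x 0 := by
  rw [ec_ord_iff]
  letI : Fact (w.1 : ℕ).Prime := ⟨w.1.2⟩
  rw [neg_zero, zpow_zero]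
  exact hx w.1 hw w.2

theorem ec_isSUnit_of_ord {S : Finset Nat.Primes} {x : Qbarˣ}
    (hx : ∀ w : Nat.Primes × s55_GQ, w.1 ∉ S → eco_HasOrdP w x 0) : ak_IsSUnit S x := by
  intro q hq g
  have := hx (q, g) hq
  rw [ec_ord_iff] at this
  simpa using this

theorem ec_isSUnit_of_isRoot {S : Finset Nat.Primes} {p : ℕ} (hp : p.Prime) {x : Qbarˣ}
    (hx : eco_IsRoot p x) : ak_IsSUnit S x :=
  ec_isSUnit_of_ord fun _ _ => ec_ord_of_isRoot hp hx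

end ord

end

end Fermat.Agent.S55
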