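/-
S55 (fifth wave), GLOBAL side, part 3, package [E-COH] (owner: helper29): THE CORE of
[E-CAP2] and [E3].  Prefix `ec_`.

`ec_core` : for an `S`-level `F` over `K` there is `m₀` prime to `p` such that for every 2-cochain
`f`, every 1-cochain `b₁` of level `F` and every `Z` with `Z ^ p = 1` such that
`d b₁ = f ^ (p^r) · Z` and such that the obstruction of `b₁` vanishes outside `S`
(`p^r ∣ ord_w (b₁ σ)` for all `σ` in the decomposition group of `w`), the cochain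
`f ^ m₀ / d b₂` is root-of-unity valued for a 1-cochain `b₂` of a higher `S`-level.
([E-SHAP]: `ord b₁ ≡ d₀ a`; [E-CLN]: `ord x₀ = h a`, `h = p^k m₀`; `b₁^h / d₀ x₀` has
`ord ∈ p^(r+k) ℤ`; [E-KUM]: `b₂` := its `p^(r+k)`-th root;
`(f^m₀ / d b₂) ^ (p^(r+k)) = f^(p^r h) / (d b₁)^h = Z^(-h)`.)
-/
import Mathlib
import Fermat.Agent.S55.Global.EcohDefs
import Fermat.Agent.S55.Global.ECohAvg
import Fermat.Agent.S55.Global.ECohOrd

set_option autoImplicit false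
set_option linter.style.haveILetI false
set_option linter.unusedSectionVars false
set_option maxHeartbeats 1000000

namespace Fermat.Agent.S55

open groupCohomology

noncomputable section

local notation "Qbar" => AlgebraicClosure ℚ

/-! ### The finite quotient `U / G_F` -/

section quot

variable (K F : IntermediateField ℚ Qbar)

/-- `G_F ∩ U` as a subgroup of `U = G_K`. -/
def ec_NF : Subgroup ↥K.fixingSubgroup := F.fixingSubgroup.subgroupOf K.fixingSubgroup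

variable {K F}

theorem ec_mem_NF (s : ↥K.fixingSubgroup) : s ∈ ec_NF K F ↔ (s : s55_GQ) ∈ F.fixingSubgroup :=
  Subgroup.mem_subgroupOf

theorem ec_NF_normal (hF : ak_IsLevel K F) : (ec_NF K F).Normal := by
  refine ⟨fun n hn g => ?_⟩
  rw [ec_mem_NF] at hn ⊢
  have h := hF.normal (g⁻¹ : ↥K.fixingSubgroup) (g⁻¹).2 _ hn
  simpa using h

theorem ec_fixing_index_ne_zero (hfin : FiniteDimensional ℚ F) : F.fixingSubgroup.index ≠ 0 := by
  haveI : IsGalois ℚ Qbar := by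
    have hclos : IsAlgClosure ℚ (AlgebraicClosure ℚ) := AlgebraicClosure.instIsAlgClosure ℚ
    exact inferInstance
  haveI := hfin
  rw [← IntermediateField.finrank_eq_fixingSubgroup_index]
  exact Module.finrank_pos.ne'

theorem ec_NF_finiteIndex (hF : ak_IsLevel K F) : (ec_NF K F).FiniteIndex := by
  haveI : F.fixingSubgroup.FiniteIndex := ⟨ec_fixing_index_ne_zero hF.fin⟩
  exact inferInstanceAs (F.fixingSubgroup.subgroupOf K.fixingSubgroup).FiniteIndex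

/-- A cochain which is constant modulo `G_F` takes finitely many values. -/
theorem ec_values_finite {X : Type*} (hF : ak_IsLevel K F) (b : ↥K.fixingSubgroup → X)
    (hb : ak_Const₁ K F b) :
    ∃ V : Finset X, (∀ σ, b σ ∈ V) ∧ ∀ x ∈ V, ∃ σ, b σ = x := by
  classical
  haveI := ec_NF_finiteIndex hF
  haveI : Finite (↥K.fixingSubgroup ⧸ ec_NF K F) := Subgroup.finite_quotient_of_finiteIndex
  haveI : Fintype (↥K.fixingSubgroup ⧸ ec_NF K F) := Fintype.ofFinite _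
  refine ⟨Finset.univ.image fun c : ↥K.fixingSubgroup ⧸ ec_NF K F => b (Quotient.out c),
    fun σ => ?_, fun x hx => ?_⟩
  · rw [Finset.mem_image]
    refine ⟨(σ : ↥K.fixingSubgroup ⧸ ec_NF K F), Finset.mem_univ _, ?_⟩
    obtain ⟨n, hn⟩ := QuotientGroup.mk_out_eq_mul (ec_NF K F) σ
    rw [hn]
    exact hb σ n ((ec_mem_NF _).1 n.2)
  · rw [Finset.mem_image] at hx
    obtain ⟨c, -, hc⟩ := hx
    exact ⟨_, hc⟩

end quot

/-! ### Levels -/

section levels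

variable {K F F' : IntermediateField ℚ Qbar}

theorem ec_const₁_mono {X : Type*} (h : F ≤ F') {b : ↥K.fixingSubgroup → X}
    (hb : ak_Const₁ K F b) : ak_Const₁ K F' b :=
  fun g s hs => hb g s (IntermediateField.fixingSubgroup_antitone h hs)

theorem ec_const₂_mono {X : Type*} (h : F ≤ F') {f : ↥K.fixingSubgroup × ↥K.fixingSubgroup → X}
    (hf : ak_Const₂ K F f) : ak_Const₂ K F' f :=
  fun g g' s s' hs hs' => hf g g' s s' (IntermediateField.fixingSubgroup_antitone h hs)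
    (IntermediateField.fixingSubgroup_antitone h hs')

theorem ec_lev₁_mono (h : F ≤ F') {b : ↥K.fixingSubgroup → Qbarˣ} (hb : ak_Lev₁ K F b) :
    ak_Lev₁ K F' b := ⟨ec_const₁_mono h hb.1, fun g => h (hb.2 g)⟩

theorem ec_lev₂_mono (h : F ≤ F') {f : ↥K.fixingSubgroup × ↥K.fixingSubgroup → Qbarˣ}
    (hf : ak_Lev₂ K F f) : ak_Lev₂ K F' f := ⟨ec_const₂_mono h hf.1, fun g => h (hf.2 g)⟩

/-- The units of `ℚ̄` which lie in `F`. -/
def ec_unitsIn (F : IntermediateField ℚ Qbar) : Subgroup Qbarˣ where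
  carrier := {x | (x : Qbar) ∈ F}
  one_mem' := by
    show ((1 : Qbarˣ) : Qbar) ∈ F
    rw [Units.val_one]
    exact one_mem F
  mul_mem' := fun {a b} ha hb => by
    show ((a * b : Qbarˣ) : Qbar) ∈ F
    rw [Units.val_mul]
    exact mul_mem ha hb
  inv_mem' := fun {a} ha => by
    show ((a⁻¹ : Qbarˣ) : Qbar) ∈ F
    rw [Units.val_inv_eq_inv_val]
    exact inv_mem ha

theorem ec_mem_unitsIn (x : Qbarˣ) : x ∈ ec_unitsIn F ↔ (x : Qbar) ∈ F := Iff.rfl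

/-- `σ x ∈ F` for `x ∈ F`, `σ ∈ U`, `F` a level over `K`. -/
theorem ec_smul_mem (hF : ak_IsLevel K F) (σ : ↥K.fixingSubgroup) {x : Qbarˣ}
    (hx : (x : Qbar) ∈ F) : ((σ • x : Qbarˣ) : Qbar) ∈ F := by
  haveI : IsGalois ℚ Qbar := by
    have hclos : IsAlgClosure ℚ (AlgebraicClosure ℚ) := AlgebraicClosure.instIsAlgClosure ℚ
    exact inferInstance
  have h1 : ((σ • x : Qbarˣ) : Qbar) ∈ IntermediateField.fixedField F.fixingSubgroup := by
    rw [IntermediateField.mem_fixedField_iff]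
    intro s hs
    show s ((σ : s55_GQ) (x : Qbar)) = (σ : s55_GQ) (x : Qbar)
    have h2 := hF.normal (σ : s55_GQ) σ.2 s hs
    have h3 := (IntermediateField.mem_fixingSubgroup_iff _ _).1 h2 (x : Qbar) hx
    have h4 : (σ : s55_GQ) (((σ : s55_GQ)⁻¹ * s * (σ : s55_GQ)) (x : Qbar)) =
        s ((σ : s55_GQ) (x : Qbar)) := by
      show (σ : s55_GQ) ((σ : s55_GQ)⁻¹ (s ((σ : s55_GQ) (x : Qbar)))) = _
      exact (σ : s55_GQ).apply_symm_apply _
    rw [← h4]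
    exact congrArg _ h3
  rwa [InfiniteGalois.fixedField_fixingSubgroup] at h1

end levels

/-! ### The coboundary operators -/

section dalg

variable (K : IntermediateField ℚ Qbar)

theorem ec_d₁_apply (b : ↥K.fixingSubgroup → Qbarˣ) (g h : ↥K.fixingSubgroup) :
    ak_d₁ K b (g, h) = g • b h / b (g * h) * b g := rfl

theorem ec_d₂_apply (a : ↥K.fixingSubgroup × ↥K.fixingSubgroup → Qbarˣ)
    (g h j : ↥K.fixingSubgroup) :
    ak_d₂ K a (g, h, j) = g • a (h, j) / a (g * h, j) * a (g, h * j) / a (g, h) := rfl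

theorem ec_d₁_mul (b b' : ↥K.fixingSubgroup → Qbarˣ) (x : ↥K.fixingSubgroup × ↥K.fixingSubgroup) :
    ak_d₁ K (fun σ => b σ * b' σ) x = ak_d₁ K b x * ak_d₁ K b' x := by
  obtain ⟨g, h⟩ := x
  rw [ec_d₁_apply, ec_d₁_apply, ec_d₁_apply, smul_mul', mul_div_mul_comm, mul_mul_mul_comm]

theorem ec_d₁_inv (b : ↥K.fixingSubgroup → Qbarˣ) (x : ↥K.fixingSubgroup × ↥K.fixingSubgroup) :
    ak_d₁ K (fun σ => (b σ)⁻¹) x = (ak_d₁ K b x)⁻¹ := by
  obtain ⟨g, h⟩ := x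
  rw [ec_d₁_apply, ec_d₁_apply, smul_inv', mul_inv, inv_div_inv, inv_div]

theorem ec_d₁_div (b b' : ↥K.fixingSubgroup → Qbarˣ) (x : ↥K.fixingSubgroup × ↥K.fixingSubgroup) :
    ak_d₁ K (fun σ => b σ / b' σ) x = ak_d₁ K b x / ak_d₁ K b' x := by
  have : (fun σ => b σ / b' σ) = fun σ => b σ * (b' σ)⁻¹ := by
    funext σ
    exact div_eq_mul_inv _ _
  rw [this, ec_d₁_mul, ec_d₁_inv, div_eq_mul_inv]

theorem ec_d₁_pow (b : ↥K.fixingSubgroup → Qbarˣ) (k : ℕ)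
    (x : ↥K.fixingSubgroup × ↥K.fixingSubgroup) :
    ak_d₁ K (fun σ => b σ ^ k) x = ak_d₁ K b x ^ k := by
  obtain ⟨g, h⟩ := x
  rw [ec_d₁_apply, ec_d₁_apply, smul_pow', mul_pow, div_pow]

theorem ec_d₁_zpow (b : ↥K.fixingSubgroup → Qbarˣ) (k : ℤ)
    (x : ↥K.fixingSubgroup × ↥K.fixingSubgroup) :
    ak_d₁ K (fun σ => b σ ^ k) x = ak_d₁ K b x ^ k := by
  obtain ⟨j, rfl | rfl⟩ := Int.eq_nat_or_neg k
  · simp only [zpow_natCast]
    exact ec_d₁_pow K b j x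
  · simp only [zpow_neg, zpow_natCast]
    rw [ec_d₁_inv K (fun σ => b σ ^ j), ec_d₁_pow]

theorem ec_aux_add₁ {A : Type*} [AddCommGroup A] (a b c : A) :
    a - b - (a - c) + (b - c) = 0 := by abel

/-- `d (d₀ x) = 1`. -/
theorem ec_d₁_d₀ (x₀ : Qbarˣ) (x : ↥K.fixingSubgroup × ↥K.fixingSubgroup) :
    ak_d₁ K (fun σ => σ • x₀ / x₀) x = 1 := by
  obtain ⟨g, h⟩ := x
  rw [ec_d₁_apply, smul_div', mul_smul]
  exact ec_aux_add₁ (A := Additive Qbarˣ) _ _ _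

end dalg

/-! ### Roots -/

section roots

theorem ec_exists_root (N : ℕ) (hN : 0 < N) (x : Qbarˣ) : ∃ y : Qbarˣ, y ^ N = x := by
  obtain ⟨z, hz⟩ := IsAlgClosed.exists_pow_nat_eq (x : Qbar) hN
  have hz0 : z ≠ 0 := by
    rintro rfl
    rw [zero_pow hN.ne'] at hz
    exact x.ne_zero hz.symm
  refine ⟨Units.mk0 z hz0, ?_⟩
  apply Units.ext
  rw [Units.val_pow_eq_pow_val, Units.val_mk0, hz]

/-- A chosen `N`-th root. -/
def ec_rt (N : ℕ) (x : Qbarˣ) : Qbarˣ :=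
  if h : 0 < N then (ec_exists_root N h x).choose else 1

theorem ec_rt_pow {N : ℕ} (hN : 0 < N) (x : Qbarˣ) : ec_rt N x ^ N = x := by
  rw [ec_rt, dif_pos hN]
  exact (ec_exists_root N hN x).choose_spec

end roots

/-! ### Averaging over `U / G_F` -/

section avgU

variable (K F : IntermediateField ℚ Qbar)

/-- `b₁ σ = ∏_{τ ∈ U / G_F} f (σ, τ)`. -/
def ec_avg (f : ↥K.fixingSubgroup × ↥K.fixingSubgroup → Qbarˣ) : ↥K.fixingSubgroup → Qbarˣ :=
  ec_avgG (ec_NF K F) f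

/-- `Z (σ, ρ) = ∏_{τ ∈ U / G_F} z (σ, ρ, τ)`. -/
def ec_avg₃ (z : ↥K.fixingSubgroup × ↥K.fixingSubgroup × ↥K.fixingSubgroup → Qbarˣ) :
    ↥K.fixingSubgroup × ↥K.fixingSubgroup → Qbarˣ :=
  ec_avgG₃ (ec_NF K F) z

/-- The degree `[F : K]`. -/
def ec_deg : ℕ := (ec_NF K F).index

variable {K F}

theorem ec_deg_pos (hF : ak_IsLevel K F) : 0 < ec_deg K F := by
  haveI := ec_NF_finiteIndex hF
  exact Nat.pos_of_ne_zero (Subgroup.FiniteIndex.index_ne_zero)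

theorem ec_deg_eq_pow {p : ℕ} (hpl : ak_IsPLevel K F p) : ∃ r : ℕ, ec_deg K F = p ^ r := hpl

/-- The averaging identity `d b₁ = f ^ n · Z`. -/
theorem ec_avg_d (hF : ak_IsLevel K F) (f : ↥K.fixingSubgroup × ↥K.fixingSubgroup → Qbarˣ)
    (hf : ak_Const₂ K F f) (x : ↥K.fixingSubgroup × ↥K.fixingSubgroup) :
    ak_d₁ K (ec_avg K F f) x = f x ^ ec_deg K F * ec_avg₃ K F (ak_d₂ K f) x := by
  haveI := ec_NF_normal hF
  haveI := ec_NF_finiteIndex hF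
  obtain ⟨g, h⟩ := x
  have hf' : ∀ g h s : ↥K.fixingSubgroup, s ∈ ec_NF K F → f (g, h * s) = f (g, h) := by
    intro g h s hs
    have := hf g h 1 s (one_mem _) ((ec_mem_NF _).1 hs)
    rwa [mul_one] at this
  exact ec_avgG_d hf' g h

theorem ec_avg_lev (hF : ak_IsLevel K F) {f : ↥K.fixingSubgroup × ↥K.fixingSubgroup → Qbarˣ}
    (hf : ak_Lev₂ K F f) : ak_Lev₁ K F (ec_avg K F f) := by
  haveI := ec_NF_normal hF
  haveI := ec_NF_finiteIndex hF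
  refine ⟨fun g s hs => ?_, fun g => ?_⟩
  · refine ec_avgG_const_left (N := ec_NF K F) (f := f) ?_ g s ((ec_mem_NF _).2 hs)
    intro g h s s' hs hs'
    exact hf.1 g h s s' ((ec_mem_NF _).1 hs) ((ec_mem_NF _).1 hs')
  · exact ec_avgG_mem (N := ec_NF K F) (ec_unitsIn F) (fun x => hf.2 x) g

theorem ec_avg₃_pow (hF : ak_IsLevel K F)
    {z : ↥K.fixingSubgroup × ↥K.fixingSubgroup × ↥K.fixingSubgroup → Qbarˣ} {p : ℕ}
    (hz : ∀ x, z x ^ p = 1) (x : ↥K.fixingSubgroup × ↥K.fixingSubgroup) :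
    ec_avg₃ K F z x ^ p = 1 := by
  haveI := ec_NF_finiteIndex hF
  exact ec_avgG₃_pow hz x

theorem ec_avg₃_one (hF : ak_IsLevel K F)
    {z : ↥K.fixingSubgroup × ↥K.fixingSubgroup × ↥K.fixingSubgroup → Qbarˣ}
    (hz : ∀ x, z x = 1) (x : ↥K.fixingSubgroup × ↥K.fixingSubgroup) :
    ec_avg₃ K F z x = 1 := by
  haveI := ec_NF_finiteIndex hF
  exact ec_avgG₃_one hz x

theorem ec_aux_add₃ {A : Type*} [AddCommGroup A] (a b c d : A) (h : b + d = a + c) :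
    a - b + c - d = 0 := by
  have e : a - b + c - d = (a + c) - (b + d) := by abel
  rw [e, h, sub_self]

/-- For a cocycle: `d b₁ = f ^ n`. -/
theorem ec_avg_d_coc (hF : ak_IsLevel K F) (f : ↥K.fixingSubgroup × ↥K.fixingSubgroup → Qbarˣ)
    (hc : IsMulCocycle₂ f) (hf : ak_Const₂ K F f)
    (x : ↥K.fixingSubgroup × ↥K.fixingSubgroup) :
    ak_d₁ K (ec_avg K F f) x = f x ^ ec_deg K F := by
  rw [ec_avg_d hF f hf, ec_avg₃_one hF, mul_one]
  rintro ⟨g, h, j⟩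
  rw [ec_d₂_apply]
  exact ec_aux_add₃ (A := Additive Qbarˣ) _ _ _ _ (hc g h j)

end avgU

/-! ### The core -/

section core

/-- [E-ORD] in the pair form. -/
theorem ec_ord_exists (hOrd : eco_OrdStatement) {S : Finset Nat.Primes}
    {F : IntermediateField ℚ Qbar} (hF : F.IsUnramifiedOutside S) (w : Nat.Primes × s55_GQ)
    (hw : w.1 ∉ S) (x : Qbarˣ) (hx : (x : Qbar) ∈ F) : ∃ n : ℤ, eco_HasOrdP w x n :=
  @hOrd (w.1 : ℕ) ⟨w.1.2⟩ F hF.1 (ak_unramAt_of_outside hF w.1 hw) x hx w.2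

/-- `ord (x ^ N)` is divisible by `N`. -/
theorem ec_ordDvd_pow (hOrd : eco_OrdStatement) {S : Finset Nat.Primes}
    {F : IntermediateField ℚ Qbar} (hF : F.IsUnramifiedOutside S) (x : Qbarˣ)
    (hx : (x : Qbar) ∈ F) (N : ℕ) : eco_OrdDvd S N (x ^ N) := by
  intro w hw
  obtain ⟨n, hn⟩ := ec_ord_exists hOrd hF w hw x hx
  exact ⟨n, ec_ord_pow hn N⟩

theorem ec_ordDvd_mul_root (hOrd : eco_OrdStatement) {S : Finset Nat.Primes}
    {F : IntermediateField ℚ Qbar} (hF : F.IsUnramifiedOutside S) (x : Qbarˣ)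
    (hx : (x : Qbar) ∈ F) (N : ℕ) {p : ℕ} (hp : p.Prime) (Z : Qbarˣ) (hZ : Z ^ p = 1) :
    eco_OrdDvd S N (x ^ N * Z) := by
  intro w hw
  obtain ⟨n, hn⟩ := ec_ord_exists hOrd hF w hw x hx
  refine ⟨n, ?_⟩
  have := ec_ord_mul (ec_ord_pow hn N) (ec_ord_of_pow_eq_one (w := w) hp.ne_zero hZ)
  rwa [add_zero] at this

/-- **The core of [E-CAP2] and [E3].** -/
theorem ec_core (hShap : eco_ShapStatement) (hCln : eco_ClnStatement) (hKum : eco_KumStatement)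
    (p : ℕ) (S : Finset Nat.Primes) (K F : IntermediateField ℚ Qbar)
    (hset : eco_Setting p S K) (hF : eco_SLevel p S K F) :
    ∃ m₀ : ℕ, 0 < m₀ ∧ ¬ p ∣ m₀ ∧
      ∀ (r : ℕ) (f : ↥K.fixingSubgroup × ↥K.fixingSubgroup → Qbarˣ)
        (b₁ : ↥K.fixingSubgroup → Qbarˣ) (Z : ↥K.fixingSubgroup × ↥K.fixingSubgroup → Qbarˣ),
        ak_Lev₁ K F b₁ → (∀ x, Z x ^ p = 1) → (∀ x, ak_d₁ K b₁ x = f x ^ (p ^ r) * Z x) →
        (∀ x, eco_OrdDvd S (p ^ r) (ak_d₁ K b₁ x)) →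
        (∀ w : Nat.Primes × s55_GQ, w.1 ∉ S → ∀ σ : ↥K.fixingSubgroup, eco_IsDecP K w σ →
          ∃ m : ℤ, eco_HasOrdP w (b₁ σ) (((p ^ r : ℕ) : ℤ) * m)) →
        ∃ (F' : IntermediateField ℚ Qbar) (b₂ : ↥K.fixingSubgroup → Qbarˣ),
          F ≤ F' ∧ eco_SLevel p S K F' ∧ ak_Lev₁ K F' b₂ ∧
            ∀ x, eco_IsRoot p (f x ^ m₀ / ak_d₁ K b₂ x) := by
  classical
  have hp : p.Prime := hset.prime
  obtain ⟨h, hpos, hh⟩ := hCln S F hF.unr
  obtain ⟨k, m₀, hm₀, hhk⟩ := Nat.exists_eq_pow_mul_and_not_dvd hpos.ne' p hp.ne_one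
  have hm₀pos : 0 < m₀ := by
    rcases Nat.eq_zero_or_pos m₀ with h0 | h0
    · exact absurd (h0 ▸ dvd_zero p) hm₀
    · exact h0
  refine ⟨m₀, hm₀pos, hm₀, fun r f b₁ Z hb₁ hZ hd hdvd hob => ?_⟩
  have hprpos : 0 < p ^ r := pow_pos hp.pos r
  obtain ⟨a, hadiv, ha⟩ := hShap S K F hF.lev hF.unr (p ^ r) hprpos b₁ hb₁ hdvd hob
  obtain ⟨x₀, hx₀F, hx₀⟩ := hh a hadiv
  -- the cochain `b₁ ^ h / d₀ x₀`
  set b₂' : ↥K.fixingSubgroup → Qbarˣ := fun σ => b₁ σ ^ h / (σ • x₀ / x₀) with hb₂'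
  have hb₂'lev : ak_Lev₁ K F b₂' := by
    refine ⟨fun g s hs => ?_, fun g => ?_⟩
    · show b₁ (g * s) ^ h / ((g * s) • x₀ / x₀) = b₁ g ^ h / (g • x₀ / x₀)
      rw [hb₁.1 g s hs, mul_smul]
      have : (s : ↥K.fixingSubgroup) • x₀ = x₀ := by
        apply Units.ext
        exact (IntermediateField.mem_fixingSubgroup_iff _ _).1 hs _ hx₀F
      rw [this]
    · show b₁ g ^ h / (g • x₀ / x₀) ∈ ec_unitsIn F
      exact div_mem (pow_mem (hb₁.2 g) _) (div_mem (ec_smul_mem hF.lev g hx₀F) hx₀F)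
  have hord : ∀ σ, eco_OrdDvd S (p ^ (r + k)) (b₂' σ) := by
    intro σ w hw
    obtain ⟨m, hm⟩ := ha w hw σ
    have h1 := ec_ord_pow hm h
    have h2 : eco_HasOrdP w (σ • x₀) ((h : ℤ) * a (w.1, w.2 * (σ : s55_GQ))) :=
      (ec_ord_smul σ x₀ _).2 (hx₀ (w.1, w.2 * (σ : s55_GQ)) hw)
    have h3 := hx₀ w hw
    have h4 := ec_ord_div h1 (ec_ord_div h2 h3)
    refine ⟨(m₀ : ℤ) * m, ec_ord_congr h4 ?_⟩
    rw [hhk]
    push_cast
    ring
  obtain ⟨V, hV, hV'⟩ := ec_values_finite hF.lev b₂' hb₂'lev.1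
  have hVprop : ∀ x ∈ V, (x : Qbar) ∈ F ∧ eco_OrdDvd S (p ^ (r + k)) x := by
    intro x hx
    obtain ⟨σ, rfl⟩ := hV' x hx
    exact ⟨hb₂'lev.2 σ, hord σ⟩
  obtain ⟨F', hFF', hF'lev, hroots⟩ := hKum p S K F hset hF (r + k) V hVprop
  have hNpos : 0 < p ^ (r + k) := pow_pos hp.pos _
  set b₂ : ↥K.fixingSubgroup → Qbarˣ := fun σ => ec_rt (p ^ (r + k)) (b₂' σ) with hb₂
  have hb₂pow : ∀ σ, b₂ σ ^ (p ^ (r + k)) = b₂' σ := fun σ => ec_rt_pow hNpos _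
  refine ⟨F', b₂, hFF', hF'lev, ⟨fun g s hs => ?_, fun g => ?_⟩, fun x => ?_⟩
  · show ec_rt _ (b₂' (g * s)) = ec_rt _ (b₂' g)
    rw [hb₂'lev.1 g s (IntermediateField.fixingSubgroup_antitone hFF' hs)]
  · exact hroots _ (hV g) _ (hb₂pow g)
  · refine ⟨r + k + 1, ?_⟩
    have e1 : ak_d₁ K b₂ x ^ (p ^ (r + k)) = (f x ^ (p ^ r) * Z x) ^ h := by
      rw [← ec_d₁_pow]
      have : (fun σ => b₂ σ ^ p ^ (r + k)) = b₂' := funext hb₂pow
      rw [this, hb₂', ec_d₁_div, ec_d₁_pow, ec_d₁_d₀, div_one, hd]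
    have e2 : m₀ * p ^ (r + k) = p ^ r * h := by
      rw [hhk, pow_add]
      ring
    have e3 : (f x ^ m₀ / ak_d₁ K b₂ x) ^ (p ^ (r + k)) = (Z x ^ h)⁻¹ := by
      rw [div_pow, e1, ← pow_mul, e2, mul_pow, ← pow_mul, div_mul_cancel_left]
    rw [pow_succ, pow_mul, e3, inv_pow, ← pow_mul, mul_comm, pow_mul, hZ, one_pow, inv_one]

end core

end

end Fermat.Agent.S55
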