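/-
S55 (fifth wave), GLOBAL side, part 3, package [E-COH] (owner: helper29): [E-CAP2]

    theorem ec_cap2_main : eco_OrdStatement → eco_LocObStatement → eco_ShapStatement →
        eco_ClnStatement → eco_KumStatement → eco_Cap2Statement

(`eco_Cap2Statement` VERBATIM from `Global/EcohDefs.lean`).  `b₁ := ∏_ρ g₂ (·, ρ)`, `d b₁ = g₂ ^ n`
(`ec_avg_d_coc`), the obstruction vanishes by [E-LOCOB], then `ec_core`.
-/
import Mathlib
import Fermat.Agent.S55.Global.ECohCore

set_option autoImplicit false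
set_option linter.style.haveILetI false
set_option linter.unusedSectionVars false
set_option maxHeartbeats 1000000

namespace Fermat.Agent.S55

open groupCohomology

noncomputable section

local notation "Qbar" => AlgebraicClosure ℚ

/-- **[E-CAP2]** -/
theorem ec_cap2_main (hOrd : eco_OrdStatement) (hLocOb : eco_LocObStatement)
    (hShap : eco_ShapStatement) (hCln : eco_ClnStatement) (hKum : eco_KumStatement) :
    eco_Cap2Statement := by
  intro inv hinv p S K F hset hF
  obtain ⟨m₀, hm₀pos, hm₀, hcore⟩ := ec_core hShap hCln hKum p S K F hset hF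
  refine ⟨m₀, hm₀pos, hm₀, fun g₂ hcoc hlev hinv0 => ?_⟩
  obtain ⟨r, hr⟩ := hF.pl
  have hdeg : ec_deg K F = p ^ r := hr
  have hKfin : FiniteDimensional ℚ K := hset.unr.1
  have hb₁lev : ak_Lev₁ K F (ec_avg K F g₂) := ec_avg_lev hF.lev hlev
  have hd : ∀ x, ak_d₁ K (ec_avg K F g₂) x = g₂ x ^ (p ^ r) := by
    intro x
    rw [ec_avg_d_coc hF.lev g₂ hcoc hlev.1, hdeg]
  refine hcore r g₂ (ec_avg K F g₂) (fun _ => 1) hb₁lev (fun _ => one_pow _)
    (fun x => by rw [hd, mul_one]) (fun x => ?_) (fun w hw σ hσ => ?_)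
  · rw [hd]
    exact ec_ordDvd_pow hOrd hF.unr _ (hlev.2 x) _
  · exact hLocOb inv hinv K F hKfin hF.lev w (ak_unramAt_of_outside hF.unr w.1 hw) (p ^ r) g₂
      (ec_avg K F g₂) hcoc hlev hb₁lev hd (hinv0 w hw) σ hσ

end

end Fermat.Agent.S55
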