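/-
S55 (fifth wave), GLOBAL side, part 3, package [E-COH] (owner: helper29): the calculus of the
coboundary operator `ak_d₂` and levels of coboundaries.  Prefix `ec_`.
-/
import Mathlib
import Fermat.Agent.S55.Global.ECohCore

set_option autoImplicit false
set_option linter.style.haveILetI false
set_option linter.unusedSectionVars false
set_option maxHeartbeats 1000000

namespace Fermat.Agent.S55

open groupCohomology

noncomputable section

local notation "Qbar" => AlgebraicClosure ℚ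

section d2

variable (K : IntermediateField ℚ Qbar)

theorem ec_aux_add₄ {A : Type*} [AddCommGroup A] (a c d e u v : A) :
    (a - c + d) - (a - e + u) + (c - e + v) - (d - u + v) = 0 := by abel

theorem ec_aux_add₅ {A : Type*} [AddCommGroup A] (a b c d a' b' c' d' : A) :
    (a + a') - (b + b') + (c + c') - (d + d') = (a - b + c - d) + (a' - b' + c' - d') := by abel

theorem ec_aux_add₆ {A : Type*} [AddCommGroup A] (a b c d : A) :
    (-a) - (-b) + (-c) - (-d) = -(a - b + c - d) := by abel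

/-- `d (d b) = 1`. -/
theorem ec_d₂_d₁ (b : ↥K.fixingSubgroup → Qbarˣ)
    (x : ↥K.fixingSubgroup × ↥K.fixingSubgroup × ↥K.fixingSubgroup) :
    ak_d₂ K (ak_d₁ K b) x = 1 := by
  obtain ⟨g, h, j⟩ := x
  rw [ec_d₂_apply, ec_d₁_apply, ec_d₁_apply, ec_d₁_apply, ec_d₁_apply, smul_mul', smul_div',
    ← mul_smul, mul_assoc]
  exact ec_aux_add₄ (A := Additive Qbarˣ) _ _ _ _ _ _

theorem ec_d₂_coc {f : ↥K.fixingSubgroup × ↥K.fixingSubgroup → Qbarˣ} (hc : IsMulCocycle₂ f)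
    (x : ↥K.fixingSubgroup × ↥K.fixingSubgroup × ↥K.fixingSubgroup) : ak_d₂ K f x = 1 := by
  obtain ⟨g, h, j⟩ := x
  rw [ec_d₂_apply]
  exact ec_aux_add₃ (A := Additive Qbarˣ) _ _ _ _ (hc g h j)

theorem ec_coc_of_d₂ {f : ↥K.fixingSubgroup × ↥K.fixingSubgroup → Qbarˣ}
    (h : ∀ x, ak_d₂ K f x = 1) : IsMulCocycle₂ f := by
  intro g h' j
  have e := h (g, h', j)
  rw [ec_d₂_apply, div_eq_one] at e
  rw [← e, div_mul_eq_mul_div, mul_div_cancel]

theorem ec_d₂_mul (f f' : ↥K.fixingSubgroup × ↥K.fixingSubgroup → Qbarˣ)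
    (x : ↥K.fixingSubgroup × ↥K.fixingSubgroup × ↥K.fixingSubgroup) :
    ak_d₂ K (fun y => f y * f' y) x = ak_d₂ K f x * ak_d₂ K f' x := by
  obtain ⟨g, h, j⟩ := x
  rw [ec_d₂_apply, ec_d₂_apply, ec_d₂_apply, smul_mul']
  exact ec_aux_add₅ (A := Additive Qbarˣ) _ _ _ _ _ _ _ _

theorem ec_d₂_inv (f : ↥K.fixingSubgroup × ↥K.fixingSubgroup → Qbarˣ)
    (x : ↥K.fixingSubgroup × ↥K.fixingSubgroup × ↥K.fixingSubgroup) :
    ak_d₂ K (fun y => (f y)⁻¹) x = (ak_d₂ K f x)⁻¹ := by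
  obtain ⟨g, h, j⟩ := x
  rw [ec_d₂_apply, ec_d₂_apply, smul_inv']
  exact ec_aux_add₆ (A := Additive Qbarˣ) _ _ _ _

theorem ec_d₂_div (f f' : ↥K.fixingSubgroup × ↥K.fixingSubgroup → Qbarˣ)
    (x : ↥K.fixingSubgroup × ↥K.fixingSubgroup × ↥K.fixingSubgroup) :
    ak_d₂ K (fun y => f y / f' y) x = ak_d₂ K f x / ak_d₂ K f' x := by
  have : (fun y => f y / f' y) = fun y => f y * (f' y)⁻¹ := by
    funext y
    exact div_eq_mul_inv _ _
  rw [this, ec_d₂_mul, ec_d₂_inv, div_eq_mul_inv]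

theorem ec_d₂_pow (f : ↥K.fixingSubgroup × ↥K.fixingSubgroup → Qbarˣ) (k : ℕ)
    (x : ↥K.fixingSubgroup × ↥K.fixingSubgroup × ↥K.fixingSubgroup) :
    ak_d₂ K (fun y => f y ^ k) x = ak_d₂ K f x ^ k := by
  induction k with
  | zero =>
    simp only [pow_zero]
    exact ec_d₂_coc K (f := fun _ => 1) (fun g h j => by simp) x
  | succ k ih =>
    simp only [pow_succ]
    rw [ec_d₂_mul K (fun y => f y ^ k) f, ih]

end d2

section lev

variable {K F : IntermediateField ℚ Qbar}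

/-- elements of `G_F` fix the elements of `F`. -/
theorem ec_smul_fix {s : ↥K.fixingSubgroup} (hs : (s : s55_GQ) ∈ F.fixingSubgroup) {x : Qbarˣ}
    (hx : (x : Qbar) ∈ F) : s • x = x := by
  apply Units.ext
  exact (IntermediateField.mem_fixingSubgroup_iff _ _).1 hs _ hx

/-- The coboundary of a 1-cochain of level `F` is of level `F`. -/
theorem ec_d₁_lev (hF : ak_IsLevel K F) {b : ↥K.fixingSubgroup → Qbarˣ} (hb : ak_Lev₁ K F b) :
    ak_Lev₂ K F (ak_d₁ K b) := by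
  refine ⟨fun g h s s' hs hs' => ?_, fun x => ?_⟩
  · rw [ec_d₁_apply, ec_d₁_apply, hb.1 h s' hs', hb.1 g s hs, mul_smul,
      ec_smul_fix hs (hb.2 h)]
    have e : g * s * (h * s') = g * h * ((h⁻¹ * s * h) * s') := by group
    have hn : (((h⁻¹ * s * h) * s' : ↥K.fixingSubgroup) : s55_GQ) ∈ F.fixingSubgroup := by
      have h1 := hF.normal (h : s55_GQ) h.2 _ hs
      exact mul_mem h1 hs'
    rw [e, hb.1 (g * h) _ hn]
  · obtain ⟨g, h⟩ := x
    rw [ec_d₁_apply]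
    show _ ∈ ec_unitsIn F
    exact mul_mem (div_mem (ec_smul_mem hF g (hb.2 h)) (hb.2 _)) (hb.2 g)

theorem ec_lev₂_mul {f f' : ↥K.fixingSubgroup × ↥K.fixingSubgroup → Qbarˣ}
    (hf : ak_Lev₂ K F f) (hf' : ak_Lev₂ K F f') : ak_Lev₂ K F (fun x => f x * f' x) := by
  refine ⟨fun g h s s' hs hs' => ?_, fun x => ?_⟩
  · show f _ * f' _ = f _ * f' _
    rw [hf.1 g h s s' hs hs', hf'.1 g h s s' hs hs']
  · show _ ∈ ec_unitsIn F
    exact mul_mem (hf.2 x) (hf'.2 x)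

theorem ec_lev₂_div {f f' : ↥K.fixingSubgroup × ↥K.fixingSubgroup → Qbarˣ}
    (hf : ak_Lev₂ K F f) (hf' : ak_Lev₂ K F f') : ak_Lev₂ K F (fun x => f x / f' x) := by
  refine ⟨fun g h s s' hs hs' => ?_, fun x => ?_⟩
  · show f _ / f' _ = f _ / f' _
    rw [hf.1 g h s s' hs hs', hf'.1 g h s s' hs hs']
  · show _ ∈ ec_unitsIn F
    exact div_mem (hf.2 x) (hf'.2 x)

theorem ec_lev₂_pow {f : ↥K.fixingSubgroup × ↥K.fixingSubgroup → Qbarˣ}
    (hf : ak_Lev₂ K F f) (k : ℕ) : ak_Lev₂ K F (fun x => f x ^ k) := by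
  refine ⟨fun g h s s' hs hs' => ?_, fun x => ?_⟩
  · show f _ ^ k = f _ ^ k
    rw [hf.1 g h s s' hs hs']
  · show _ ∈ ec_unitsIn F
    exact pow_mem (hf.2 x) k

theorem ec_lev₁_mul {b b' : ↥K.fixingSubgroup → Qbarˣ}
    (hb : ak_Lev₁ K F b) (hb' : ak_Lev₁ K F b') : ak_Lev₁ K F (fun x => b x * b' x) := by
  refine ⟨fun g s hs => ?_, fun x => ?_⟩
  · show b _ * b' _ = b _ * b' _
    rw [hb.1 g s hs, hb'.1 g s hs]
  · show _ ∈ ec_unitsIn F
    exact mul_mem (hb.2 x) (hb'.2 x)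

theorem ec_lev₁_div {b b' : ↥K.fixingSubgroup → Qbarˣ}
    (hb : ak_Lev₁ K F b) (hb' : ak_Lev₁ K F b') : ak_Lev₁ K F (fun x => b x / b' x) := by
  refine ⟨fun g s hs => ?_, fun x => ?_⟩
  · show b _ / b' _ = b _ / b' _
    rw [hb.1 g s hs, hb'.1 g s hs]
  · show _ ∈ ec_unitsIn F
    exact div_mem (hb.2 x) (hb'.2 x)

theorem ec_lev₁_pow {b : ↥K.fixingSubgroup → Qbarˣ}
    (hb : ak_Lev₁ K F b) (k : ℕ) : ak_Lev₁ K F (fun x => b x ^ k) := by
  refine ⟨fun g s hs => ?_, fun x => ?_⟩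
  · show b _ ^ k = b _ ^ k
    rw [hb.1 g s hs]
  · show _ ∈ ec_unitsIn F
    exact pow_mem (hb.2 x) k

end lev

end

end Fermat.Agent.S55
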