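/-
S55 (fifth wave), GLOBAL side, part 3, package [E-COH] (owner: helper29): [E3]

    theorem ec_e3_main : ak_H3FStatement → ak_ExiStatement → eco_OrdStatement →
        eco_FinStatement → eco_RepsStatement → eco_SupStatement → eco_ObInvStatement →
        eco_GenStatement → eco_ShapStatement → eco_ClnStatement → eco_KumStatement →
        eco_E3Statement

(`eco_E3Statement` VERBATIM from `Global/EcohDefs.lean`).

Route.  [AK-H3F]: `z = d f`, `f` of an `S`-level `F₁`, `n₁ = [F₁ : K]`; `b₁ := ∏_ρ f (·, ρ)`,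
`d b₁ = f ^ n₁ · Z₁`.  `X` := the primes where a value of `b₁` is not a unit, `T₁` :=
representatives of the places above `X \ S`; `φ_w` a Frobenius at `w`, `m_w := ord_w (b₁ φ_w)`,
`t_w := m_w / n₁`, balanced at the place `w₀ = (p, 1)`.  [AK-EXI]: a cocycle `g₀` of an `S`-level
`F₂`, `n₂ = [F₂ : K]`, with these invariants; `G₂ := ∏_ρ g₀ (·, ρ)`, `d G₂ = g₀ ^ n₂`.
`B := b₁ ^ n₂ / G₂ ^ n₁` satisfies `d B = (f / g₀) ^ (n₁ n₂) · Z₁ ^ n₂` and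
`ord_w (B φ_w) = n₂ m_w - n₁ ord_w (G₂ φ_w) ∈ n₁ n₂ ℤ` by [E-OBINV]; [E-GEN]; `ec_core`.
-/
import Mathlib
import Fermat.Agent.S55.Global.ECohD2
import Fermat.Agent.S55.Global.AkUnr
import Fermat.Agent.S55.UnrAbs4

set_option autoImplicit false
set_option linter.style.haveILetI false
set_option linter.unusedSectionVars false
set_option linter.unusedVariables false
set_option maxHeartbeats 2000000

namespace Fermat.Agent.S55

open groupCohomology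

noncomputable section

local notation "Qbar" => AlgebraicClosure ℚ

/-! ### `ℚ/ℤ` -/

section qz

theorem ec_qz_int (m : ℤ) : lcf_qz (m : ℚ) = 0 := by
  rw [lcf_qz, QuotientAddGroup.mk'_apply, QuotientAddGroup.eq_zero_iff]
  exact AddSubgroup.mem_zmultiples_iff.2 ⟨m, by simp⟩

theorem ec_qz_eq {a b : ℚ} (h : lcf_qz a = lcf_qz b) : ∃ j : ℤ, a - b = j := by
  rw [lcf_qz, QuotientAddGroup.mk'_apply, QuotientAddGroup.mk'_apply, QuotientAddGroup.eq] at h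
  obtain ⟨k, hk⟩ := AddSubgroup.mem_zmultiples_iff.1 h
  refine ⟨-k, ?_⟩
  have : (k : ℚ) = -a + b := by simpa using hk
  push_cast
  rw [this]
  ring

theorem ec_qz_eq_zero {a : ℚ} (h : lcf_qz a = 0) : ∃ j : ℤ, a = j := by
  have h' : lcf_qz a = lcf_qz 0 := by rw [h, map_zero]
  obtain ⟨j, hj⟩ := ec_qz_eq h'
  exact ⟨j, by rw [← hj, sub_zero]⟩

theorem ec_qz_tors (m : ℤ) (n : ℕ) (hn : 0 < n) : n • lcf_qz ((m : ℚ) / (n : ℚ)) = 0 := by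
  rw [← map_nsmul, nsmul_eq_mul, mul_div_cancel₀ _ (Nat.cast_pos.2 hn).ne']
  exact ec_qz_int m

end qz

/-! ### Places -/

section places

variable (K : IntermediateField ℚ Qbar)

theorem ec_samePlace_refl (w : Nat.Primes × s55_GQ) : ak_SamePlace K w w := by
  letI : Fact (w.1 : ℕ).Prime := ⟨w.1.2⟩
  exact ⟨rfl, 1, 1, K.fixingSubgroup.one_mem, by simp⟩

theorem ec_exists_frobP (hK : FiniteDimensional ℚ K) (w : Nat.Primes × s55_GQ) :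
    ∃ σ : ↥K.fixingSubgroup, eco_IsFrobP K w σ := by
  letI : Fact (w.1 : ℕ).Prime := ⟨w.1.2⟩
  obtain ⟨φ, hφ⟩ := unr_abs_exists_frob (ak_H K (w.1 : ℕ) w.2) (aku_H_isOpen (w.1 : ℕ) K hK w.2)
  exact ⟨ak_r K (w.1 : ℕ) w.2 φ, φ, hφ, rfl⟩

theorem ec_ord_of_isUnitAt {w : Nat.Primes × s55_GQ} {x : Qbarˣ}
    (h : letI : Fact (w.1 : ℕ).Prime := ⟨w.1.2⟩; ak_IsUnitAt (w.1 : ℕ) x) :
    eco_HasOrdP w x 0 := by
  rw [ec_ord_iff]
  letI : Fact (w.1 : ℕ).Prime := ⟨w.1.2⟩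
  rw [neg_zero, zpow_zero]
  exact h w.2

end places

/-! ### The assembly -/

section main

/-- **[E3]** -/
theorem ec_e3_main (hH3F : ak_H3FStatement) (hExi : ak_ExiStatement) (hOrd : eco_OrdStatement)
    (hFin : eco_FinStatement) (hReps : eco_RepsStatement) (hSup : eco_SupStatement)
    (hObInv : eco_ObInvStatement) (hGen : eco_GenStatement) (hShap : eco_ShapStatement)
    (hCln : eco_ClnStatement) (hKum : eco_KumStatement) : eco_E3Statement := by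
  intro inv hinv p S K F hset hF z hzcoc hzlev hzp
  classical
  have hp : p.Prime := hset.prime
  have hp2 : p ≠ 2 := hset.odd
  have hpS : (⟨p, hp⟩ : Nat.Primes) ∈ S := hset.mem _ rfl
  have hKfin : FiniteDimensional ℚ K := hset.unr.1
  -- Step 1: [AK-H3F]
  obtain ⟨F₁, hFF₁, hF₁lev, hF₁unr, hF₁pl, f, hflev, hfd⟩ :=
    hH3F inv hinv p hp hp2 S hpS K F hF.lev hF.unr hF.pl hset.zeta z hzcoc hzlev
  have hSF₁ : eco_SLevel p S K F₁ := ⟨hF₁lev, hF₁unr, hF₁pl⟩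
  obtain ⟨r₁, hr₁⟩ := hF₁pl
  have hdeg₁ : ec_deg K F₁ = p ^ r₁ := hr₁
  set b₁ : ↥K.fixingSubgroup → Qbarˣ := ec_avg K F₁ f with hb₁
  have hb₁lev : ak_Lev₁ K F₁ b₁ := ec_avg_lev hF₁lev hflev
  set Z₁ : ↥K.fixingSubgroup × ↥K.fixingSubgroup → Qbarˣ := ec_avg₃ K F₁ z with hZ₁
  have hZ₁p : ∀ x, Z₁ x ^ p = 1 := fun x => ec_avg₃_pow hF₁lev hzp x
  have hb₁d : ∀ x, ak_d₁ K b₁ x = f x ^ (p ^ r₁) * Z₁ x := by
    intro x
    rw [hb₁, ec_avg_d hF₁lev f hflev.1, hdeg₁]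
    have : ak_d₂ K f = z := funext hfd
    rw [this]
  -- Step 2: the bad primes
  obtain ⟨V, hV, -⟩ := ec_values_finite hF₁lev b₁ hb₁lev.1
  set X : Finset Nat.Primes := V.biUnion fun x => (hFin x).choose with hX
  have hXunit : ∀ w : Nat.Primes × s55_GQ, w.1 ∉ X → ∀ σ, eco_HasOrdP w (b₁ σ) 0 := by
    intro w hw σ
    apply ec_ord_of_isUnitAt
    apply (hFin (b₁ σ)).choose_spec w.1
    intro hmem
    exact hw (Finset.mem_biUnion.2 ⟨b₁ σ, hV σ, hmem⟩)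
  -- Step 3: the places above `X \ S`, Frobenius elements, the invariants
  obtain ⟨T₁, hT₁ps, hT₁X, hT₁cov⟩ := hReps K hKfin (X \ S)
  choose σF hσF using ec_exists_frobP K hKfin
  have hordb₁ : ∀ w : Nat.Primes × s55_GQ, ∃ m : ℤ, w.1 ∉ S → eco_HasOrdP w (b₁ (σF w)) m := by
    intro w
    by_cases hw : w.1 ∈ S
    · exact ⟨0, fun h => absurd hw h⟩
    · obtain ⟨m, hm⟩ := ec_ord_exists hOrd hF₁unr w hw _ (hb₁lev.2 (σF w))
      exact ⟨m, fun _ => hm⟩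
  choose mF hmF using hordb₁
  set w₀ : Nat.Primes × s55_GQ := (⟨p, hp⟩, 1) with hw₀
  have hw₀T₁ : w₀ ∉ T₁ := by
    intro h
    have := (Finset.mem_sdiff.1 (hT₁X w₀ h)).2
    exact this hpS
  set T : Finset (Nat.Primes × s55_GQ) := insert w₀ T₁ with hT
  set t : Nat.Primes × s55_GQ → lcf_QZ := fun w =>
    if w = w₀ then - ∑ v ∈ T₁, lcf_qz ((mF v : ℚ) / ((p ^ r₁ : ℕ) : ℚ))
    else lcf_qz ((mF w : ℚ) / ((p ^ r₁ : ℕ) : ℚ)) with ht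
  have ht₁ : ∀ w ∈ T₁, t w = lcf_qz ((mF w : ℚ) / ((p ^ r₁ : ℕ) : ℚ)) := by
    intro w hw
    have hne : w ≠ w₀ := fun h => hw₀T₁ (h ▸ hw)
    simp only [ht, if_neg hne]
  have hTps : ak_IsPlaceSet K T := by
    intro w hw w' hw' hsame
    rw [hT, Finset.mem_insert] at hw hw'
    rcases hw with rfl | hw
    · rcases hw' with rfl | hw'
      · rfl
      · exfalso
        have h1 : w'.1 = (⟨p, hp⟩ : Nat.Primes) := hsame.1.symm
        have := (Finset.mem_sdiff.1 (hT₁X w' hw')).2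
        rw [h1] at this
        exact this hpS
    · rcases hw' with rfl | hw'
      · exfalso
        have h1 : w.1 = (⟨p, hp⟩ : Nat.Primes) := hsame.1
        have := (Finset.mem_sdiff.1 (hT₁X w hw)).2
        rw [h1] at this
        exact this hpS
      · exact hT₁ps w hw w' hw' hsame
  have hprpos₁ : 0 < p ^ r₁ := pow_pos hp.pos _
  have httors : ∀ w ∈ T, ∃ k : ℕ, (p ^ k) • t w = 0 := by
    intro w hw
    refine ⟨r₁, ?_⟩
    by_cases hw0 : w = w₀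
    · simp only [ht, if_pos hw0]
      rw [smul_neg, Finset.smul_sum, neg_eq_zero]
      exact Finset.sum_eq_zero fun v _ => ec_qz_tors _ _ hprpos₁
    · simp only [ht, if_neg hw0]
      exact ec_qz_tors _ _ hprpos₁
  have htsum : ∑ w ∈ T, t w = 0 := by
    rw [hT, Finset.sum_insert hw₀T₁, Finset.sum_congr rfl ht₁]
    simp only [ht, if_pos]
    exact neg_add_cancel _
  -- Step 4: [AK-EXI]
  obtain ⟨F₂, hF₂lev, hF₂pl, hF₂unr', g₀, hg₀coc, hg₀lev, hg₀T, hg₀out⟩ :=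
    hExi inv hinv p hp hp2 K hKfin hset.zeta T hTps t httors htsum
  have hF₂unr : F₂.IsUnramifiedOutside S := hF₂unr' S hpS hset.unr
  have hSF₂ : eco_SLevel p S K F₂ := ⟨hF₂lev, hF₂unr, hF₂pl⟩
  obtain ⟨r₂, hr₂⟩ := hF₂pl
  have hdeg₂ : ec_deg K F₂ = p ^ r₂ := hr₂
  have hprpos₂ : 0 < p ^ r₂ := pow_pos hp.pos _
  set G₂ : ↥K.fixingSubgroup → Qbarˣ := ec_avg K F₂ g₀ with hG₂
  have hG₂lev : ak_Lev₁ K F₂ G₂ := ec_avg_lev hF₂lev hg₀lev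
  have hG₂d : ∀ x, ak_d₁ K G₂ x = g₀ x ^ (p ^ r₂) := by
    intro x
    rw [hG₂, ec_avg_d_coc hF₂lev g₀ hg₀coc hg₀lev.1, hdeg₂]
  -- Step 5: the common level
  have hSF₃ : eco_SLevel p S K (F₁ ⊔ F₂) := hSup p S K F₁ F₂ hp hSF₁ hSF₂
  have hF₁F₃ : F₁ ≤ F₁ ⊔ F₂ := le_sup_left
  have hF₂F₃ : F₂ ≤ F₁ ⊔ F₂ := le_sup_right
  set f₁ : ↥K.fixingSubgroup × ↥K.fixingSubgroup → Qbarˣ := fun x => f x / g₀ x with hf₁
  have hf₁lev : ak_Lev₂ K (F₁ ⊔ F₂) f₁ :=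
    ec_lev₂_div (ec_lev₂_mono hF₁F₃ hflev) (ec_lev₂_mono hF₂F₃ hg₀lev)
  set B : ↥K.fixingSubgroup → Qbarˣ := fun σ => b₁ σ ^ (p ^ r₂) / G₂ σ ^ (p ^ r₁) with hB
  have hBlev : ak_Lev₁ K (F₁ ⊔ F₂) B :=
    ec_lev₁_div (ec_lev₁_pow (ec_lev₁_mono hF₁F₃ hb₁lev) _)
      (ec_lev₁_pow (ec_lev₁_mono hF₂F₃ hG₂lev) _)
  set Z : ↥K.fixingSubgroup × ↥K.fixingSubgroup → Qbarˣ := fun x => Z₁ x ^ (p ^ r₂) with hZ
  have hZp : ∀ x, Z x ^ p = 1 := by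
    intro x
    show (Z₁ x ^ (p ^ r₂)) ^ p = 1
    rw [← pow_mul, mul_comm, pow_mul, hZ₁p, one_pow]
  have hBd : ∀ x, ak_d₁ K B x = f₁ x ^ (p ^ (r₁ + r₂)) * Z x := by
    intro x
    rw [hB, ec_d₁_div, ec_d₁_pow, ec_d₁_pow, hb₁d, hG₂d]
    show (f x ^ p ^ r₁ * Z₁ x) ^ p ^ r₂ / (g₀ x ^ p ^ r₂) ^ p ^ r₁ =
      (f x / g₀ x) ^ p ^ (r₁ + r₂) * Z₁ x ^ p ^ r₂
    rw [mul_pow, ← pow_mul, ← pow_mul, div_pow, pow_add, mul_comm (p ^ r₂) (p ^ r₁),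
      mul_div_right_comm]
  have hdvd : ∀ x, eco_OrdDvd S (p ^ (r₁ + r₂)) (ak_d₁ K B x) := by
    intro x
    rw [hBd]
    exact ec_ordDvd_mul_root hOrd hSF₃.unr (f₁ x) (hf₁lev.2 x) _ hp (Z x) (hZp x)
  -- the obstruction at one Frobenius of every place outside `S`
  have hkey : ∀ w : Nat.Primes × s55_GQ, w.1 ∉ S →
      (w ∈ T₁ ∨ w.1 ∉ X) → ∃ m : ℤ, eco_HasOrdP w (B (σF w)) (((p ^ (r₁ + r₂) : ℕ) : ℤ) * m) := by
    intro w hw hcase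
    obtain ⟨m₂, hm₂⟩ := ec_ord_exists hOrd hF₂unr w hw _ (hG₂lev.2 (σF w))
    have hinv₂ := hObInv inv hinv K F₂ hKfin hF₂lev w (ak_unramAt_of_outside hF₂unr w.1 hw)
      (p ^ r₂) hprpos₂ g₀ G₂ hg₀coc hg₀lev hG₂lev hG₂d (σF w) m₂ (hσF w) hm₂
    have hm₁ := hmF w hw
    have hBord := ec_ord_div (ec_ord_pow hm₁ (p ^ r₂)) (ec_ord_pow hm₂ (p ^ r₁))
    have hp₁ : ((p ^ r₁ : ℕ) : ℚ) ≠ 0 := (Nat.cast_pos.2 hprpos₁).ne'
    have hp₂ : ((p ^ r₂ : ℕ) : ℚ) ≠ 0 := (Nat.cast_pos.2 hprpos₂).ne'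
    rcases hcase with hwT | hwX
    · have h1 := hg₀T w (Finset.mem_insert_of_mem hwT)
      rw [hinv₂, ht₁ w hwT] at h1
      obtain ⟨j, hj⟩ := ec_qz_eq h1
      refine ⟨-j, ec_ord_congr hBord ?_⟩
      have hj' : (m₂ : ℚ) * (p ^ r₁ : ℕ) - (mF w : ℚ) * (p ^ r₂ : ℕ) =
          (j : ℚ) * ((p ^ r₁ : ℕ) * (p ^ r₂ : ℕ)) := by
        rw [← hj]
        field_simp
      have hj'' : m₂ * ((p ^ r₁ : ℕ) : ℤ) - mF w * ((p ^ r₂ : ℕ) : ℤ) =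
          j * (((p ^ r₁ : ℕ) : ℤ) * ((p ^ r₂ : ℕ) : ℤ)) := by
        exact_mod_cast hj'
      rw [pow_add]
      push_cast at hj'' ⊢
      linear_combination -hj''
    · have hout : ak_Outside K T w := by
        intro v hv hsame
        rw [hT, Finset.mem_insert] at hv
        rcases hv with rfl | hv
        · exact hw (hsame.1 ▸ hpS)
        · have := (Finset.mem_sdiff.1 (hT₁X v hv)).1
          rw [hsame.1] at this
          exact hwX this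
      have h1 := hg₀out w hout
      rw [hinv₂] at h1
      obtain ⟨j, hj⟩ := ec_qz_eq_zero h1
      have h0 := ec_ord_unique hm₁ (hXunit w hwX (σF w))
      refine ⟨-j, ec_ord_congr hBord ?_⟩
      have hj' : (m₂ : ℚ) = (j : ℚ) * (p ^ r₂ : ℕ) := by
        rw [← hj]
        field_simp
      have hj'' : m₂ = j * ((p ^ r₂ : ℕ) : ℤ) := by
        exact_mod_cast hj'
      rw [h0, hj'', pow_add]
      push_cast
      ring
  have hob : ∀ w : Nat.Primes × s55_GQ, w.1 ∉ S → ∀ σ : ↥K.fixingSubgroup, eco_IsDecP K w σ →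
      ∃ m : ℤ, eco_HasOrdP w (B σ) (((p ^ (r₁ + r₂) : ℕ) : ℤ) * m) := by
    intro w hw σ hσ
    by_cases hwX : w.1 ∈ X
    · obtain ⟨w₁, hw₁T, hsame⟩ := hT₁cov w (Finset.mem_sdiff.2 ⟨hwX, hw⟩)
      have hw₁S : w₁.1 ∉ S := (Finset.mem_sdiff.1 (hT₁X w₁ hw₁T)).2
      exact hGen S K (F₁ ⊔ F₂) hSF₃.lev hSF₃.unr (p ^ (r₁ + r₂)) B hBlev hdvd w w₁ hw hsame
        (σF w₁) (hσF w₁) (hkey w₁ hw₁S (Or.inl hw₁T)) σ hσ
    · exact hGen S K (F₁ ⊔ F₂) hSF₃.lev hSF₃.unr (p ^ (r₁ + r₂)) B hBlev hdvd w w hw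
        (ec_samePlace_refl K w) (σF w) (hσF w) (hkey w hw (Or.inr hwX)) σ hσ
  -- Step 6: the core
  obtain ⟨m₀, hm₀pos, hm₀, hcore⟩ := ec_core hShap hCln hKum p S K (F₁ ⊔ F₂) hset hSF₃
  obtain ⟨F', b₂, hF₃F', hF'lev, hb₂lev, hroot⟩ :=
    hcore (r₁ + r₂) f₁ B Z hBlev hZp hBd hdvd hob
  -- Step 7: the exponent
  have hcop : Nat.Coprime m₀ p := (Nat.Coprime.symm ((Nat.Prime.coprime_iff_not_dvd hp).2 hm₀))
  obtain ⟨m', -, hm'⟩ := Nat.exists_mul_mod_eq_one_of_coprime hcop hp.one_lt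
  set β : ↥K.fixingSubgroup × ↥K.fixingSubgroup → Qbarˣ :=
    fun x => (f₁ x ^ m₀ / ak_d₁ K b₂ x) ^ m' with hβ
  have hβlev : ak_Lev₂ K F' β :=
    ec_lev₂_pow (ec_lev₂_div (ec_lev₂_pow (ec_lev₂_mono hF₃F' hf₁lev) _)
      (ec_d₁_lev hF'lev.lev hb₂lev)) _
  refine ⟨F', β, hFF₁.trans (hF₁F₃.trans hF₃F'), hF'lev, hβlev, fun x => ?_, fun x => ?_⟩
  · obtain ⟨k, hk⟩ := hroot x
    exact ⟨k, by
      show ((f₁ x ^ m₀ / ak_d₁ K b₂ x) ^ m') ^ (p ^ k) = 1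
      rw [← pow_mul, mul_comm, pow_mul, hk, one_pow]⟩
  · have e1 : ak_d₂ K f₁ x = z x := by
      rw [hf₁, ec_d₂_div, hfd, ec_d₂_coc K hg₀coc, div_one]
    rw [hβ, ec_d₂_pow K (fun x => f₁ x ^ m₀ / ak_d₁ K b₂ x), ec_d₂_div K (fun x => f₁ x ^ m₀),
      ec_d₂_pow, ec_d₂_d₁, div_one, e1, ← pow_mul]
    have e2 : m₀ * m' = p * (m₀ * m' / p) + 1 := by
      have := Nat.div_add_mod (m₀ * m') p
      rw [hm'] at this
      exact this.symm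
    rw [e2, pow_add, pow_mul, hzp, one_pow, one_mul, pow_one]

end main

end

end Fermat.Agent.S55
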