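/-
S55 (fifth wave), GLOBAL side, part 3, package [E-COH] (owner: helper29):
the top assembly [K-H3-OF]

    theorem ec_H3_of : eco_AbsH3Statement → ec_TransferStatement → kl_H3Statement

(`kl_H3Statement` VERBATIM from `Bridge/KDefs.lean`, `eco_AbsH3Statement` VERBATIM from
`Global/EcohDefs.lean`, `ec_TransferStatement` = [E-TRANSFER] from `Global/ECohTop.lean`; the
invariant system which `eco_AbsH3Statement` asks for is `spl_inv_fin`).

Route: `z` is constant modulo `G_{F₁}`, `F₁ ⊇ K` normal over `ℚ`, unramified outside `S`;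
`P ≤ U = G_K` the preimage of a `p`-Sylow subgroup of `U / G_{F₁}`, `K₁` its fixed field (not
Galois over `ℚ`); `F₁` is an `S`-level over `K₁`; [AK-H3] over `K₁` for `ζ ^ z`: `ζ ^ z = d β` on
`G_{K₁}`, `β` `μ_p`-valued of an `S`-level `F'`; `a₁ := log_ζ β`; [E-TRANSFER] with
`N = G_{F''}`, `F''` the normal closure of `F'`.
-/
import Mathlib
import Fermat.Agent.S55.Global.ECohExp
import Fermat.Agent.S55.Local.SplitFin
import Fermat.Agent.S55.H3Grp

set_option autoImplicit false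
set_option linter.style.haveILetI false
set_option linter.unusedSectionVars false
set_option maxHeartbeats 1000000

namespace Fermat.Agent.S55

open groupCohomology ExtCitation

noncomputable section

local notation "Qbar" => AlgebraicClosure ℚ

section tools

/-- The fixing subgroup of a normal extension is a normal subgroup. -/
theorem ec_fixing_normal (F : IntermediateField ℚ Qbar) [hn : Normal ℚ F] :
    F.fixingSubgroup.Normal := by
  rw [← @IntermediateField.restrictNormalHom_ker ℚ Qbar _ _ _ F hn]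
  exact MonoidHom.normal_ker _

theorem ec_fixedField_fixing (K : IntermediateField ℚ Qbar) :
    IntermediateField.fixedField K.fixingSubgroup = K := by
  haveI : IsGalois ℚ Qbar := h3g_isGalois
  exact InfiniteGalois.fixedField_fixingSubgroup K

end tools

section main

variable {p : ℕ} [Fact p.Prime]

/-- `ζ ^ a ∈ K`. -/
theorem ec_pw_mem {K : IntermediateField ℚ Qbar}
    (hχ : ∀ s ∈ K.fixingSubgroup, cycloChar p s = 1) (a : ZMod p) :
    ((ec_pw (ec_zeta p) a : Qbarˣ) : Qbar) ∈ K := by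
  rw [ec_pw, Units.val_pow_eq_pow_val, ec_zeta_coe]
  exact pow_mem (ec_zeta_mem hχ) _

/-- **[K-H3-OF]**, with the invariant system as a hypothesis. -/
theorem ec_H3_core (hInv : lcf_InvStatement) (hAbs : eco_AbsH3Statement)
    (hTr : ec_TransferStatement) : kl_H3Statement := by
  intro p _ hp2 S hpS K hKunr hχ z hzlev hzcoc
  classical
  have hp : p.Prime := Fact.out
  obtain ⟨inv, hinv⟩ := hInv
  obtain ⟨F₀, hF₀, hzF₀⟩ := hzlev
  obtain ⟨F₁, hF₁n, hKF₁, hF₀F₁, hF₁unr⟩ := brg_common_level hKunr hF₀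
  haveI := hF₁n
  have hF₁fin : FiniteDimensional ℚ F₁ := hF₁unr.1
  haveI := hF₁fin
  have hN₁n : F₁.fixingSubgroup.Normal := ec_fixing_normal F₁
  have hN₁U : F₁.fixingSubgroup ≤ K.fixingSubgroup := IntermediateField.fixingSubgroup_antitone hKF₁
  -- the Sylow subgroup of `U / G_{F₁}`
  set N₁ : Subgroup ↥K.fixingSubgroup := F₁.fixingSubgroup.subgroupOf K.fixingSubgroup with hN₁
  haveI hN₁n' : N₁.Normal := hN₁n.subgroupOf _
  haveI hF₁fi : F₁.fixingSubgroup.FiniteIndex := ⟨h3g_index_ne_zero F₁⟩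
  haveI hN₁fi : N₁.FiniteIndex := inferInstance
  haveI : Finite (↥K.fixingSubgroup ⧸ N₁) := Subgroup.finite_quotient_of_finiteIndex
  obtain ⟨Q⟩ : Nonempty (Sylow p (↥K.fixingSubgroup ⧸ N₁)) := inferInstance
  set P : Subgroup ↥K.fixingSubgroup :=
    (Q : Subgroup (↥K.fixingSubgroup ⧸ N₁)).comap (QuotientGroup.mk' N₁) with hP
  have hmemP : ∀ g : ↥K.fixingSubgroup, g ∈ P ↔
      (g : ↥K.fixingSubgroup ⧸ N₁) ∈ (Q : Subgroup (↥K.fixingSubgroup ⧸ N₁)) := fun g => Iff.rfl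
  have hN₁P : N₁ ≤ P := by
    intro h hh
    rw [hmemP, (QuotientGroup.eq_one_iff h).2 hh]
    exact one_mem _
  have hPidx : (P.index).Coprime p := by
    have h2 : P.index = (Q : Subgroup (↥K.fixingSubgroup ⧸ N₁)).index :=
      Subgroup.index_comap_of_surjective _ (QuotientGroup.mk'_surjective N₁)
    rw [h2, Nat.coprime_comm, hp.coprime_iff_not_dvd]
    exact Q.not_dvd_index
  have hpowP : ∀ u ∈ P, ∃ n : ℕ, u ^ (p ^ n) ∈ N₁ := by
    intro u hu
    obtain ⟨n, hn⟩ := Q.isPGroup' ⟨(u : ↥K.fixingSubgroup ⧸ N₁), (hmemP u).1 hu⟩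
    refine ⟨n, ?_⟩
    rw [← QuotientGroup.eq_one_iff]
    have := congrArg Subtype.val hn
    simpa using this
  -- the field `K₁`
  set PG : Subgroup s55_GQ := P.map K.fixingSubgroup.subtype with hPG
  have hmemPG : ∀ g : s55_GQ, g ∈ PG ↔ ∃ h : g ∈ K.fixingSubgroup, (⟨g, h⟩ : ↥K.fixingSubgroup) ∈ P := by
    intro g
    rw [hPG, Subgroup.mem_map]
    constructor
    · rintro ⟨x, hx, rfl⟩
      exact ⟨x.2, hx⟩
    · rintro ⟨h, hx⟩
      exact ⟨⟨g, h⟩, hx, rfl⟩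
  have hPGU : PG ≤ K.fixingSubgroup := fun g hg => ((hmemPG g).1 hg).1
  have hF₁PG : F₁.fixingSubgroup ≤ PG := by
    intro s hs
    rw [hmemPG]
    exact ⟨hN₁U hs, hN₁P (Subgroup.mem_subgroupOf.2 hs)⟩
  obtain ⟨hfix, hK₁F₁⟩ := h3g_fix_fixed PG F₁ hF₁PG
  set K₁ : IntermediateField ℚ Qbar := IntermediateField.fixedField PG with hK₁
  have hKK₁ : K ≤ K₁ := by
    have h1 := IntermediateField.fixedField_antitone hPGU
    rwa [ec_fixedField_fixing] at h1
  have hK₁unr : K₁.IsUnramifiedOutside S := hF₁unr.of_le hK₁F₁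
  have hU₁U : K₁.fixingSubgroup ≤ K.fixingSubgroup := by
    rw [hfix]
    exact hPGU
  have hχ₁ : ∀ s ∈ K₁.fixingSubgroup, cycloChar p s = 1 := fun s hs => hχ s (hU₁U hs)
  have hset₁ : eco_Setting p S K₁ := ec_setting hp2 hpS hK₁unr hχ₁
  have hlev₁ : ak_IsLevel K₁ F₁ :=
    ⟨hK₁F₁, hF₁fin, fun u _ s hs => by
      have := hN₁n.conj_mem s hs u⁻¹
      rwa [inv_inv] at this⟩
  have hpl₁ : ak_IsPLevel K₁ F₁ p := by
    set M : Subgroup ↥K₁.fixingSubgroup := F₁.fixingSubgroup.subgroupOf K₁.fixingSubgroup with hM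
    haveI hMn : M.Normal := hN₁n.subgroupOf _
    haveI hMfi : M.FiniteIndex := inferInstance
    haveI : Finite (↥K₁.fixingSubgroup ⧸ M) := Subgroup.finite_quotient_of_finiteIndex
    have hpg : IsPGroup p (↥K₁.fixingSubgroup ⧸ M) := by
      intro x
      obtain ⟨u, rfl⟩ := QuotientGroup.mk_surjective x
      have hu : (u : s55_GQ) ∈ PG := by
        rw [← hfix]
        exact u.2
      obtain ⟨hu1, hu2⟩ := (hmemPG _).1 hu
      obtain ⟨n, hn⟩ := hpowP _ hu2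
      refine ⟨n, ?_⟩
      rw [← QuotientGroup.mk_pow, QuotientGroup.eq_one_iff, hM, Subgroup.mem_subgroupOf]
      have hn' := Subgroup.mem_subgroupOf.1 hn
      simpa using hn'
    obtain ⟨n, hn⟩ := IsPGroup.iff_card.1 hpg
    exact ⟨n, hn⟩
  have hSlev₁ : eco_SLevel p S K₁ F₁ := ⟨hlev₁, hF₁unr, hpl₁⟩
  -- the cocycle `ζ ^ z` on `G_{K₁}`
  set ι : ↥K₁.fixingSubgroup → ↥K.fixingSubgroup := fun u => ⟨u.1, hU₁U u.2⟩ with hι
  have hιmul : ∀ u v : ↥K₁.fixingSubgroup, ι (u * v) = ι u * ι v := fun u v => rfl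
  set z₁ : ↥K₁.fixingSubgroup × ↥K₁.fixingSubgroup × ↥K₁.fixingSubgroup → Qbarˣ :=
    fun x => ec_pw (ec_zeta p) (z (ι x.1, ι x.2.1, ι x.2.2)) with hz₁
  have hz₁coc : ak_IsCoc₃ K₁ z₁ := by
    intro g h j l
    show g • ec_pw (ec_zeta p) (z (ι h, ι j, ι l)) /
        ec_pw (ec_zeta p) (z (ι (g * h), ι j, ι l)) *
        ec_pw (ec_zeta p) (z (ι g, ι (h * j), ι l)) /
        ec_pw (ec_zeta p) (z (ι g, ι h, ι (j * l))) *
        ec_pw (ec_zeta p) (z (ι g, ι h, ι j)) = 1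
    rw [ec_smul_pw hχ₁, ← ec_pw_sub (ec_zeta_pow p), ← ec_pw_add (ec_zeta_pow p),
      ← ec_pw_sub (ec_zeta_pow p), ← ec_pw_add (ec_zeta_pow p), hιmul, hιmul, hιmul,
      hzcoc (ι g) (ι h) (ι j) (ι l), ec_pw_zero]
  have hz₁lev : ak_Lev₃ K₁ F₁ z₁ := by
    refine ⟨fun g g' g'' s s' s'' hs hs' hs'' => ?_, fun x => hKF₁ (ec_pw_mem hχ _)⟩
    show ec_pw (ec_zeta p) (z (ι (g * s), ι (g' * s'), ι (g'' * s''))) =
      ec_pw (ec_zeta p) (z (ι g, ι g', ι g''))
    rw [hιmul, hιmul, hιmul]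
    rw [hzF₀ (ι g) (ι g') (ι g'') (ι s) (ι s') (ι s'')
      (IntermediateField.fixingSubgroup_antitone hF₀F₁ hs)
      (IntermediateField.fixingSubgroup_antitone hF₀F₁ hs')
      (IntermediateField.fixingSubgroup_antitone hF₀F₁ hs'')]
  have hz₁p : ∀ x, z₁ x ^ p = 1 := fun x => ec_pw_pow_p (ec_zeta_pow p) _
  obtain ⟨F', β, hF₁F', hF'lev, hβlev, hβp, hβd⟩ :=
    hAbs inv hinv p S K₁ F₁ hset₁ hSlev₁ z₁ hz₁coc hz₁lev hz₁p
  -- a normal level above `F'`
  obtain ⟨F'', hF''n, hF'F'', -, hF''unr⟩ := brg_common_level hF'lev.unr hF'lev.unr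
  haveI := hF''n
  have hF''fin : FiniteDimensional ℚ F'' := hF''unr.1
  haveI := hF''fin
  have hN''n : F''.fixingSubgroup.Normal := ec_fixing_normal F''
  set N : Subgroup ↥K.fixingSubgroup := F''.fixingSubgroup.subgroupOf K.fixingSubgroup with hN
  haveI hNn : N.Normal := hN''n.subgroupOf _
  haveI hF''fi : F''.fixingSubgroup.FiniteIndex := ⟨h3g_index_ne_zero F''⟩
  haveI hNfi : N.FiniteIndex := inferInstance
  have hF''F' : F''.fixingSubgroup ≤ F'.fixingSubgroup :=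
    IntermediateField.fixingSubgroup_antitone hF'F''
  have hF'K₁ : F'.fixingSubgroup ≤ K₁.fixingSubgroup :=
    IntermediateField.fixingSubgroup_antitone hF'lev.lev.le
  have hF'F₀ : F'.fixingSubgroup ≤ F₀.fixingSubgroup :=
    IntermediateField.fixingSubgroup_antitone (hF₀F₁.trans hF₁F')
  have hNP : N ≤ P := by
    intro s hs
    have h1 : (s : s55_GQ) ∈ PG := by
      rw [← hfix]
      exact hF'K₁ (hF''F' (Subgroup.mem_subgroupOf.1 hs))
    obtain ⟨h2, h3⟩ := (hmemPG _).1 h1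
    exact h3
  have hzN : ∀ g g' g'' s s' s'' : ↥K.fixingSubgroup, s ∈ N → s' ∈ N → s'' ∈ N →
      z (g * s, g' * s', g'' * s'') = z (g, g', g'') := by
    intro g g' g'' s s' s'' hs hs' hs''
    exact hzF₀ g g' g'' s s' s'' (hF'F₀ (hF''F' (Subgroup.mem_subgroupOf.1 hs)))
      (hF'F₀ (hF''F' (Subgroup.mem_subgroupOf.1 hs')))
      (hF'F₀ (hF''F' (Subgroup.mem_subgroupOf.1 hs'')))
  -- the primitive on `P`
  have hκmem : ∀ x : ↥P, ((x : ↥K.fixingSubgroup) : s55_GQ) ∈ K₁.fixingSubgroup := by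
    intro x
    rw [hfix, hmemPG]
    exact ⟨x.1.2, x.2⟩
  set κ : ↥P → ↥K₁.fixingSubgroup := fun x => ⟨((x : ↥K.fixingSubgroup) : s55_GQ), hκmem x⟩
    with hκ
  have hκmul : ∀ x y : ↥P, κ (x * y) = κ x * κ y := fun x y => rfl
  have hικ : ∀ x : ↥P, ι (κ x) = (x : ↥K.fixingSubgroup) := fun x => rfl
  set a₁ : ↥P × ↥P → ZMod p := fun x => ec_log p (β (κ x.1, κ x.2)) with ha₁
  have ha₁spec : ∀ x y : ↥P, ec_pw (ec_zeta p) (a₁ (x, y)) = β (κ x, κ y) :=
    fun x y => ec_log_spec p _ (hβp _)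
  have ha₁N : ∀ g g' s s' : ↥P, ((s : ↥K.fixingSubgroup)) ∈ N → ((s' : ↥K.fixingSubgroup)) ∈ N →
      a₁ (g * s, g' * s') = a₁ (g, g') := by
    intro g g' s s' hs hs'
    show ec_log p (β (κ (g * s), κ (g' * s'))) = ec_log p (β (κ g, κ g'))
    rw [hκmul, hκmul, hβlev.1 (κ g) (κ g') (κ s) (κ s')
      (hF''F' (Subgroup.mem_subgroupOf.1 hs)) (hF''F' (Subgroup.mem_subgroupOf.1 hs'))]
  have ha₁d : ∀ x : ↥P × ↥P × ↥P,
      kl_d₂ a₁ x = z ((x.1 : ↥K.fixingSubgroup), (x.2.1 : ↥K.fixingSubgroup),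
        (x.2.2 : ↥K.fixingSubgroup)) := by
    rintro ⟨g, h, j⟩
    apply ec_pw_inj (ec_zeta_prim p)
    have e := hβd (κ g, κ h, κ j)
    rw [ak_d₂] at e
    simp only at e
    rw [← hκmul, ← hκmul, ← ha₁spec, ← ha₁spec, ← ha₁spec, ← ha₁spec, ec_smul_pw hχ₁,
      ← ec_pw_sub (ec_zeta_pow p), ← ec_pw_add (ec_zeta_pow p), ← ec_pw_sub (ec_zeta_pow p)] at e
    rw [kl_d₂]
    simp only
    rw [e]
  obtain ⟨a, haN, had⟩ := hTr p ↥K.fixingSubgroup P N hNn hNP hNfi.index_ne_zero hPidx z hzcoc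
    hzN a₁ ha₁N ha₁d
  refine ⟨a, ⟨F'', hF''unr, fun g g' s s' hs hs' => ?_⟩, had⟩
  exact haN g g' s s' (Subgroup.mem_subgroupOf.2 hs) (Subgroup.mem_subgroupOf.2 hs')

/-- **[K-H3-OF]** -/
theorem ec_H3_of (hAbs : eco_AbsH3Statement) (hTr : ec_TransferStatement) : kl_H3Statement :=
  ec_H3_core spl_inv_fin hAbs hTr

end main

end

end Fermat.Agent.S55
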