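/-
S55 (fifth wave), GLOBAL side, part 3, package [E-COH], implications [AK-H2], [AK-H3] (helper24).
Prefix `eah_`.  This file: the bookkeeping of LEVELS and COBOUNDARIES for cochains of
`U = G_K` with values in `ℚ̄ˣ` (vocabulary of `Global/AbsDefs.lean`), and the extraction of
`p`-th roots of an `S`-unit valued 1-cochain by [E-KUM].
-/
import Fermat.Agent.S55.Global.EcohDefs
import Fermat.Agent.S55.Global.ECohOrd

set_option autoImplicit false

namespace Fermat.Agent.S55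

open groupCohomology

noncomputable section

local notation "Qbar" => AlgebraicClosure ℚ

section algebra

variable (K : IntermediateField ℚ Qbar)

theorem eah_d₁_apply (b : ↥K.fixingSubgroup → Qbarˣ) (g h : ↥K.fixingSubgroup) :
    ak_d₁ K b (g, h) = g • b h / b (g * h) * b g := rfl

theorem eah_d₂_apply (a : ↥K.fixingSubgroup × ↥K.fixingSubgroup → Qbarˣ)
    (g h j : ↥K.fixingSubgroup) :
    ak_d₂ K a (g, h, j) = g • a (h, j) / a (g * h, j) * a (g, h * j) / a (g, h) := rfl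

theorem eah_d₁_pow (b : ↥K.fixingSubgroup → Qbarˣ) (n : ℕ)
    (x : ↥K.fixingSubgroup × ↥K.fixingSubgroup) :
    ak_d₁ K (fun g => b g ^ n) x = ak_d₁ K b x ^ n := by
  obtain ⟨g, h⟩ := x
  rw [eah_d₁_apply, eah_d₁_apply, smul_pow', mul_pow, div_pow]

theorem eah_d₂_pow (a : ↥K.fixingSubgroup × ↥K.fixingSubgroup → Qbarˣ) (n : ℕ)
    (x : ↥K.fixingSubgroup × ↥K.fixingSubgroup × ↥K.fixingSubgroup) :
    ak_d₂ K (fun y => a y ^ n) x = ak_d₂ K a x ^ n := by
  obtain ⟨g, h, j⟩ := x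
  rw [eah_d₂_apply, eah_d₂_apply, smul_pow', div_pow, mul_pow, div_pow]

theorem eah_d₂_mul (a a' : ↥K.fixingSubgroup × ↥K.fixingSubgroup → Qbarˣ)
    (x : ↥K.fixingSubgroup × ↥K.fixingSubgroup × ↥K.fixingSubgroup) :
    ak_d₂ K (fun y => a y * a' y) x = ak_d₂ K a x * ak_d₂ K a' x := by
  obtain ⟨g, h, j⟩ := x
  rw [eah_d₂_apply, eah_d₂_apply, eah_d₂_apply, smul_mul']
  apply Units.ext
  simp only [Units.val_mul, Units.val_div_eq_div_val]
  field_simp

theorem eah_d₂_div (a a' : ↥K.fixingSubgroup × ↥K.fixingSubgroup → Qbarˣ)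
    (x : ↥K.fixingSubgroup × ↥K.fixingSubgroup × ↥K.fixingSubgroup) :
    ak_d₂ K (fun y => a y / a' y) x = ak_d₂ K a x / ak_d₂ K a' x := by
  obtain ⟨g, h, j⟩ := x
  rw [eah_d₂_apply, eah_d₂_apply, eah_d₂_apply, smul_div']
  apply Units.ext
  simp only [Units.val_mul, Units.val_div_eq_div_val]
  field_simp

theorem eah_d₂_d₁ (b : ↥K.fixingSubgroup → Qbarˣ)
    (x : ↥K.fixingSubgroup × ↥K.fixingSubgroup × ↥K.fixingSubgroup) :
    ak_d₂ K (ak_d₁ K b) x = 1 := by
  obtain ⟨g, h, j⟩ := x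
  rw [eah_d₂_apply, eah_d₁_apply, eah_d₁_apply, eah_d₁_apply, eah_d₁_apply, smul_mul',
    smul_div', ← mul_smul, mul_assoc]
  apply Units.ext
  simp only [Units.val_mul, Units.val_div_eq_div_val, Units.val_one]
  field_simp

theorem eah_isCoc_iff (f : ↥K.fixingSubgroup × ↥K.fixingSubgroup → Qbarˣ) :
    IsMulCocycle₂ f ↔ ∀ x, ak_d₂ K f x = 1 := by
  constructor
  · intro h x
    obtain ⟨g, h', j⟩ := x
    rw [eah_d₂_apply, div_eq_one, div_mul_eq_mul_div, div_eq_iff_eq_mul, mul_comm (f (g, h'))]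
    exact (h g h' j).symm
  · intro h g h' j
    have := h (g, h', j)
    rw [eah_d₂_apply, div_eq_one, div_mul_eq_mul_div, div_eq_iff_eq_mul,
      mul_comm (f (g, h'))] at this
    exact this.symm

end algebra

section levels

variable {K F F' : IntermediateField ℚ Qbar}

theorem eah_fix_mono (h : F ≤ F') : F'.fixingSubgroup ≤ F.fixingSubgroup :=
  IntermediateField.fixingSubgroup_le h

theorem eah_const₁_mono {X : Type*} (h : F ≤ F') {b : ↥K.fixingSubgroup → X}
    (hb : ak_Const₁ K F b) : ak_Const₁ K F' b :=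
  fun g s hs => hb g s (eah_fix_mono h hs)

theorem eah_lev₁_mono (h : F ≤ F') {b : ↥K.fixingSubgroup → Qbarˣ} (hb : ak_Lev₁ K F b) :
    ak_Lev₁ K F' b :=
  ⟨eah_const₁_mono h hb.1, fun g => h (hb.2 g)⟩

theorem eah_lev₂_mono (h : F ≤ F') {f : ↥K.fixingSubgroup × ↥K.fixingSubgroup → Qbarˣ}
    (hf : ak_Lev₂ K F f) : ak_Lev₂ K F' f :=
  ⟨fun g g' s s' hs hs' => hf.1 g g' s s' (eah_fix_mono h hs) (eah_fix_mono h hs'),
    fun x => h (hf.2 x)⟩

theorem eah_lev₂_mul {f f' : ↥K.fixingSubgroup × ↥K.fixingSubgroup → Qbarˣ}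
    (hf : ak_Lev₂ K F f) (hf' : ak_Lev₂ K F f') : ak_Lev₂ K F (fun x => f x * f' x) :=
  ⟨fun g g' s s' hs hs' => by
      show f _ * f' _ = f _ * f' _
      rw [hf.1 g g' s s' hs hs', hf'.1 g g' s s' hs hs'],
    fun x => by
      rw [Units.val_mul]
      exact F.mul_mem (hf.2 x) (hf'.2 x)⟩

theorem eah_lev₂_div {f f' : ↥K.fixingSubgroup × ↥K.fixingSubgroup → Qbarˣ}
    (hf : ak_Lev₂ K F f) (hf' : ak_Lev₂ K F f') : ak_Lev₂ K F (fun x => f x / f' x) :=
  ⟨fun g g' s s' hs hs' => by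
      show f _ / f' _ = f _ / f' _
      rw [hf.1 g g' s s' hs hs', hf'.1 g g' s s' hs hs'],
    fun x => by
      rw [Units.val_div_eq_div_val]
      exact F.div_mem (hf.2 x) (hf'.2 x)⟩

theorem eah_lev₂_pow {f : ↥K.fixingSubgroup × ↥K.fixingSubgroup → Qbarˣ}
    (hf : ak_Lev₂ K F f) (n : ℕ) : ak_Lev₂ K F (fun x => f x ^ n) :=
  ⟨fun g g' s s' hs hs' => by
      show f _ ^ n = f _ ^ n
      rw [hf.1 g g' s s' hs hs'],
    fun x => by
      rw [Units.val_pow_eq_pow_val]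
      exact pow_mem (hf.2 x) n⟩

theorem eah_isGalois : IsGalois ℚ Qbar := by
  have halg : Algebra.IsAlgebraic ℚ (AlgebraicClosure ℚ) := AlgebraicClosure.isAlgebraic ℚ
  have hclos : IsAlgClosure ℚ (AlgebraicClosure ℚ) := AlgebraicClosure.instIsAlgClosure ℚ
  exact inferInstance

/-- An element of `G_F` fixes the elements of `F`. -/
theorem eah_smul_fix (s : ↥K.fixingSubgroup) (hs : (s : s55_GQ) ∈ F.fixingSubgroup)
    (x : Qbarˣ) (hx : (x : Qbar) ∈ F) : s • x = x := by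
  apply Units.ext
  exact (IntermediateField.mem_fixingSubgroup_iff _ _).1 hs _ hx

/-- `U` maps a level into itself. -/
theorem eah_smul_mem (hF : ak_IsLevel K F) (u : ↥K.fixingSubgroup) (x : Qbarˣ)
    (hx : (x : Qbar) ∈ F) : ((u • x : Qbarˣ) : Qbar) ∈ F := by
  have := eah_isGalois
  rw [← InfiniteGalois.fixedField_fixingSubgroup F, IntermediateField.mem_fixedField_iff]
  intro s hs
  have h1 := hF.normal (u : s55_GQ) u.2 s hs
  have h2 := (IntermediateField.mem_fixingSubgroup_iff _ _).1 h1 _ hx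
  show s ((u : s55_GQ) (x : Qbar)) = (u : s55_GQ) (x : Qbar)
  have h3 : ((u : s55_GQ)⁻¹ * s * (u : s55_GQ)) (x : Qbar) =
      (u : s55_GQ)⁻¹ (s ((u : s55_GQ) (x : Qbar))) := rfl
  rw [h3] at h2
  have h4 : (u : s55_GQ) ((u : s55_GQ)⁻¹ (s ((u : s55_GQ) (x : Qbar)))) =
      (u : s55_GQ) (x : Qbar) := congrArg (fun y => (u : s55_GQ) y) h2
  rw [show (u : s55_GQ) ((u : s55_GQ)⁻¹ (s ((u : s55_GQ) (x : Qbar)))) =
    s ((u : s55_GQ) (x : Qbar)) from (u : s55_GQ).apply_symm_apply _] at h4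
  exact h4

/-- The coboundary of a 1-cochain of level `F` is of level `F`. -/
theorem eah_lev₂_d₁ (hF : ak_IsLevel K F) {b : ↥K.fixingSubgroup → Qbarˣ}
    (hb : ak_Lev₁ K F b) : ak_Lev₂ K F (ak_d₁ K b) := by
  constructor
  · intro g h s s' hs hs'
    rw [eah_d₁_apply, eah_d₁_apply, hb.1 h s' hs', hb.1 g s hs, mul_smul,
      eah_smul_fix s hs _ (hb.2 h)]
    have e : g * s * (h * s') = g * h * (h⁻¹ * s * h * s') := by group
    have hmem : ((h⁻¹ * s * h * s' : ↥K.fixingSubgroup) : s55_GQ) ∈ F.fixingSubgroup := by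
      have h1 := hF.normal (h : s55_GQ) h.2 (s : s55_GQ) hs
      exact F.fixingSubgroup.mul_mem h1 hs'
    rw [e, hb.1 (g * h) _ hmem]
  · rintro ⟨g, h⟩
    rw [eah_d₁_apply, Units.val_mul, Units.val_div_eq_div_val]
    exact F.mul_mem (F.div_mem (eah_smul_mem hF g _ (hb.2 h)) (hb.2 _)) (hb.2 _)

end levels

section roots

variable {K F : IntermediateField ℚ Qbar}

/-- A chosen `n`-th root. -/
def eah_root (n : ℕ) (x : Qbarˣ) : Qbarˣ :=
  Classical.epsilon fun y : Qbarˣ => y ^ n = x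

theorem eah_root_pow (n : ℕ) (hn : n ≠ 0) (x : Qbarˣ) : eah_root n x ^ n = x := by
  have h : ∃ y : Qbarˣ, y ^ n = x := by
    obtain ⟨z, hz⟩ := IsAlgClosed.exists_pow_nat_eq (x : Qbar) (Nat.pos_of_ne_zero hn)
    have hz0 : z ≠ 0 := by
      rintro rfl
      rw [zero_pow hn] at hz
      exact x.ne_zero hz.symm
    exact ⟨Units.mk0 z hz0, Units.ext (by rw [Units.val_pow_eq_pow_val, Units.val_mk0, hz])⟩
  exact Classical.epsilon_spec h

/-- A function on `U` which is constant modulo a subgroup of finite index has finitely many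
values. -/
theorem eah_finite_range {X : Type*} (hfin : (F.fixingSubgroup.subgroupOf K.fixingSubgroup).index ≠ 0)
    {b : ↥K.fixingSubgroup → X} (hb : ak_Const₁ K F b) : (Set.range b).Finite := by
  have hfi : (F.fixingSubgroup.subgroupOf K.fixingSubgroup).FiniteIndex := ⟨hfin⟩
  have : Finite (↥K.fixingSubgroup ⧸ F.fixingSubgroup.subgroupOf K.fixingSubgroup) :=
    Subgroup.finite_quotient_of_finiteIndex
  refine (Set.finite_range
    (fun c : ↥K.fixingSubgroup ⧸ F.fixingSubgroup.subgroupOf K.fixingSubgroup =>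
      b (Quotient.out c))).subset ?_
  rintro _ ⟨g, rfl⟩
  refine ⟨QuotientGroup.mk g, ?_⟩
  obtain ⟨s, hs⟩ := QuotientGroup.mk_out_eq_mul
    (F.fixingSubgroup.subgroupOf K.fixingSubgroup) g
  show b (Quotient.out (QuotientGroup.mk g)) = b g
  rw [hs]
  exact hb g s (Subgroup.mem_subgroupOf.1 s.2)

/-- **Extraction of `p`-th roots** ([E-KUM] with `k = 1`): an `S`-unit valued 1-cochain of an
`S`-level is the `p`-th power of a 1-cochain of a higher `S`-level. -/
theorem eah_exists_root (hKum : eco_KumStatement) {p : ℕ} {S : Finset Nat.Primes}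
    (hset : eco_Setting p S K) (hF : eco_SLevel p S K F)
    (e : ↥K.fixingSubgroup → Qbarˣ) (hel : ak_Lev₁ K F e) (heu : ∀ g, ak_IsSUnit S (e g)) :
    ∃ (F' : IntermediateField ℚ Qbar) (e₁ : ↥K.fixingSubgroup → Qbarˣ),
      F ≤ F' ∧ eco_SLevel p S K F' ∧ ak_Lev₁ K F' e₁ ∧ ∀ g, e₁ g ^ p = e g := by
  classical
  have hp0 : p ≠ 0 := hset.prime.ne_zero
  have hidx : (F.fixingSubgroup.subgroupOf K.fixingSubgroup).index ≠ 0 := by
    obtain ⟨n, hn⟩ := hF.pl
    rw [hn]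
    exact pow_ne_zero _ hp0
  have hfin := eah_finite_range hidx hel.1
  obtain ⟨F', hFF', hF', hroots⟩ := hKum p S K F hset hF 1 hfin.toFinset (by
    intro x hx
    rw [Set.Finite.mem_toFinset] at hx
    obtain ⟨g, rfl⟩ := hx
    refine ⟨hel.2 g, fun w hw => ⟨0, ?_⟩⟩
    rw [mul_zero]
    exact ec_ord_of_isSUnit (heu g) hw)
  refine ⟨F', fun g => eah_root p (e g), hFF', hF', ⟨?_, ?_⟩, fun g => eah_root_pow p hp0 _⟩
  · intro g s hs
    show eah_root p (e (g * s)) = eah_root p (e g)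
    rw [hel.1 g s (eah_fix_mono hFF' hs)]
  · intro g
    refine hroots (e g) ?_ _ ?_
    · rw [Set.Finite.mem_toFinset]
      exact ⟨g, rfl⟩
    · rw [pow_one]
      exact eah_root_pow p hp0 _

end roots

end

end Fermat.Agent.S55
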