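/-
S55 (fifth wave), GLOBAL side, part 3, package [E-COH], implication [AK-H2] (helper24).
Prefix `eah_`.

`theorem eah_h2 : eco_E2SurjStatement → eco_E2InjStatement → eco_KumStatement →
    ak_ConjStatement → eco_AbsH2Statement`.

ROUTE (docstring of `eco_AbsH2Statement`).  [E2-SURJ]: a root-of-unity valued cocycle `u` with
the prescribed invariants; `u ^ p` is an `S`-unit valued cocycle all of whose invariants vanish
(`p • t w = 0` at the places of `T` - at EVERY pair defining such a place by [AK-CONJ]), so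
`u ^ p = d e` by [E2-INJ]; `e = e₁ ^ p` by [E-KUM]; `c := u / d e₁`.
-/
import Fermat.Agent.S55.Global.EcoAbsCore
import Fermat.Agent.S55.Global.ECohExp
import Fermat.Agent.S55.Global.AkUnr

set_option autoImplicit false

namespace Fermat.Agent.S55

open groupCohomology

noncomputable section

local notation "Qbar" => AlgebraicClosure ℚ

section inv

variable {inv : lcf_InvType} (hinv : lcf_IsInvSystem inv) {K F : IntermediateField ℚ Qbar}

theorem eah_finite_of_le (hKF : K ≤ F) (hF : FiniteDimensional ℚ F) : FiniteDimensional ℚ K :=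
  FiniteDimensional.of_injective (IntermediateField.inclusion hKF).toLinearMap
    (IntermediateField.inclusion hKF).injective

include hinv in
/-- The invariant of a power. -/
theorem eah_invP_pow (hK : FiniteDimensional ℚ K) (hF : FiniteDimensional ℚ F)
    (f : ↥K.fixingSubgroup × ↥K.fixingSubgroup → Qbarˣ) (hc : IsMulCocycle₂ f)
    (hf : ak_Const₂ K F f) (n : ℕ) (w : Nat.Primes × s55_GQ) :
    ak_invP K inv w (fun x => f x ^ n) = n • ak_invP K inv w f := by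
  have : Fact (w.1 : ℕ).Prime := ⟨w.1.2⟩
  show inv (w.1 : ℕ) (ak_H K (w.1 : ℕ) w.2) (ak_loc₂ K (w.1 : ℕ) w.2 (fun x => f x ^ n)) =
    n • inv (w.1 : ℕ) (ak_H K (w.1 : ℕ) w.2) (ak_loc₂ K (w.1 : ℕ) w.2 f)
  have e : ak_loc₂ K (w.1 : ℕ) w.2 (fun x => f x ^ n) = ak_loc₂ K (w.1 : ℕ) w.2 f ^ n := by
    funext x
    show ak_emb (w.1 : ℕ) w.2 (f _ ^ n) = ak_emb (w.1 : ℕ) w.2 (f _) ^ n
    rw [map_pow]
  rw [e]
  exact ec_inv_pow hinv (aku_H_isOpen (w.1 : ℕ) K hK w.2) (aku_loc₂_isCoc w.2 hF f hc hf) n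

include hinv in
/-- Dividing by a coboundary does not change the invariant. -/
theorem eah_invP_div_d₁ (hK : FiniteDimensional ℚ K) (hF : ak_IsLevel K F)
    (f : ↥K.fixingSubgroup × ↥K.fixingSubgroup → Qbarˣ) (hc : IsMulCocycle₂ f)
    (hf : ak_Const₂ K F f) (b : ↥K.fixingSubgroup → Qbarˣ) (hb : ak_Lev₁ K F b)
    (w : Nat.Primes × s55_GQ) :
    ak_invP K inv w (fun x => f x / ak_d₁ K b x) = ak_invP K inv w f := by
  have : Fact (w.1 : ℕ).Prime := ⟨w.1.2⟩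
  show inv (w.1 : ℕ) (ak_H K (w.1 : ℕ) w.2)
      (ak_loc₂ K (w.1 : ℕ) w.2 (fun x => f x / ak_d₁ K b x)) =
    inv (w.1 : ℕ) (ak_H K (w.1 : ℕ) w.2) (ak_loc₂ K (w.1 : ℕ) w.2 f)
  have hV := aku_H_isOpen (w.1 : ℕ) K hK w.2
  have hcc : IsMulCocycle₂ (fun x => f x / ak_d₁ K b x) := by
    rw [eah_isCoc_iff]
    intro x
    rw [eah_d₂_div, (eah_isCoc_iff K f).1 hc x, eah_d₂_d₁, div_one]
  have hdl := eah_lev₂_d₁ hF hb
  have hcl : ak_Const₂ K F (fun x => f x / ak_d₁ K b x) := by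
    intro g g' s s' hs hs'
    show f _ / ak_d₁ K b _ = f _ / ak_d₁ K b _
    rw [hf g g' s s' hs hs', hdl.1 g g' s s' hs hs']
  have hdc : IsMulCocycle₂ (ak_d₁ K b) := (eah_isCoc_iff K _).2 (eah_d₂_d₁ K b)
  have e : ak_loc₂ K (w.1 : ℕ) w.2 f =
      ak_loc₂ K (w.1 : ℕ) w.2 (fun x => f x / ak_d₁ K b x) *
        ak_loc₂ K (w.1 : ℕ) w.2 (ak_d₁ K b) := by
    funext x
    show ak_emb (w.1 : ℕ) w.2 (f _) =
      ak_emb (w.1 : ℕ) w.2 (f _ / ak_d₁ K b _) * ak_emb (w.1 : ℕ) w.2 (ak_d₁ K b _)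
    rw [← map_mul, div_mul_cancel]
  have h1 := hinv.add (w.1 : ℕ) _ hV _ _ (aku_loc₂_isCoc w.2 hF.fin _ hcc hcl)
    (aku_loc₂_isCoc w.2 hF.fin _ hdc hdl.1)
  have h2 := (hinv.eq_zero_iff (w.1 : ℕ) _ hV _ (aku_loc₂_isCoc w.2 hF.fin _ hdc hdl.1)).2
    (aku_loc₂_isCob w.2 hF.fin b hb.1)
  rw [← e, h2, add_zero] at h1
  exact h1.symm

end inv

/-- **[AK-H2]** -/
theorem eah_h2 (hSurj : eco_E2SurjStatement) (hInj : eco_E2InjStatement)
    (hKum : eco_KumStatement) (hConj : ak_ConjStatement) : eco_AbsH2Statement := by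
  intro inv hinv p S K hset T hT hTS t ht hsum
  classical
  have hp := hset.prime
  obtain ⟨F₀, u, hF₀, huc, hul, hur, huT, huO⟩ := hSurj inv hinv p S K hset T hT hTS t
    (fun w hw => ⟨1, by rw [pow_one]; exact ht w hw⟩) hsum
  have hK : FiniteDimensional ℚ K := eah_finite_of_le hF₀.lev.le hF₀.lev.fin
  -- the cocycle `κ = u ^ p`
  have hκc : IsMulCocycle₂ (fun x => u x ^ p) := by
    rw [eah_isCoc_iff]
    intro x
    rw [eah_d₂_pow, (eah_isCoc_iff K u).1 huc x, one_pow]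
  have hκu : ∀ x, ak_IsSUnit S (u x ^ p) := by
    intro x
    obtain ⟨k, hk⟩ := hur x
    exact ec_isSUnit_of_isRoot hp ⟨k, by rw [← pow_mul, mul_comm, pow_mul, hk, one_pow]⟩
  have hκi : ∀ w : Nat.Primes × s55_GQ, ak_invP K inv w (fun x => u x ^ p) = 0 := by
    intro w
    rw [eah_invP_pow hinv hK hF₀.lev.fin u huc hul.1 p w]
    by_cases hw : ak_Outside K T w
    · rw [huO w hw, smul_zero]
    · have hw' : ∃ w₀ ∈ T, ak_SamePlace K w₀ w := by
        by_contra hcon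
        exact hw fun w₀ hw₀ hs => hcon ⟨w₀, hw₀, hs⟩
      obtain ⟨w₀, hw₀, hsame⟩ := hw'
      rw [← hConj inv hinv K F₀ hK hF₀.lev u huc hul w₀ w hsame, huT w₀ hw₀]
      exact ht w₀ hw₀
  obtain ⟨F₁, e, hF₀F₁, hF₁, hel, heu, hed⟩ :=
    hInj inv hinv p S K F₀ hset hF₀ (fun x => u x ^ p) hκc (eah_lev₂_pow hul p) hκu hκi
  obtain ⟨F₂, e₁, hF₁F₂, hF₂, he₁l, he₁⟩ := eah_exists_root hKum hset hF₁ e hel heu
  have hul₂ : ak_Lev₂ K F₂ u := eah_lev₂_mono (hF₀F₁.trans hF₁F₂) hul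
  have hinvc : ∀ w, ak_invP K inv w (fun x => u x / ak_d₁ K e₁ x) = ak_invP K inv w u :=
    fun w => eah_invP_div_d₁ hinv hK hF₂.lev u huc hul₂.1 e₁ he₁l w
  refine ⟨F₂, fun x => u x / ak_d₁ K e₁ x, hF₂, ?_, ?_, ?_, ?_, ?_⟩
  · rw [eah_isCoc_iff]
    intro x
    rw [eah_d₂_div, (eah_isCoc_iff K u).1 huc x, eah_d₂_d₁, div_one]
  · exact eah_lev₂_div hul₂ (eah_lev₂_d₁ hF₂.lev he₁l)
  · intro x
    have h1 : ak_d₁ K e₁ x ^ p = ak_d₁ K e x := by
      rw [← eah_d₁_pow]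
      congr 1
      funext g
      exact he₁ g
    rw [div_pow, h1, hed x, div_self']
  · intro w hw
    rw [hinvc w, huT w hw]
  · intro w hw
    rw [hinvc w, huO w hw]

end

end Fermat.Agent.S55
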