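/-
S55 (fifth wave), GLOBAL side, part 3, package [E-COH], implication [CAP-1]
(capitulation for 1-cochains).

`ecap1_main : eco_OrdStatement → eco_FinStatement → eco_ClnStatement → eco_KumStatement →
    eco_Cap1Statement`.

Route (docstring of `eco_Cap1Statement`): `n = [F : K]`, `A := ∏_τ b τ`, `a := A⁻¹`:
`b g ^ n = (g a / a) · u_g`, `u_g` an `S`-unit; `ord_w a mod n` is a divisor `c` of `K`;
[E-CLN] for `K` (`h = p ^ k m₀`): `k₀ ∈ Kˣ` with `ord_w k₀ = h c w`; `N := n p ^ k`,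
`s m₀ = 1 + N t`; `e := a ^ (s h) / k₀ ^ s` has `ord ∈ N ℤ`; `Y ^ N = e`, `Y` in an `S`-level by
[E-KUM]; `y := Y / a ^ (p ^ k t)`; then `(b g / (g y / y)) ^ N = u_g ^ (p ^ k)`.
Owner: helper7.  Prefix `ecap1_`.
-/
import Mathlib
import Fermat.Agent.S55.Global.EcohDefs
import Fermat.Agent.S55.Global.ECohOrd
import Fermat.Agent.S55.Global.ECohAvg
import Fermat.Agent.S55.UnrAbs1

set_option autoImplicit false
set_option linter.style.haveILetI false
set_option linter.unusedSectionVars false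

namespace Fermat.Agent.S55

noncomputable section

local notation "Qbar" => AlgebraicClosure ℚ

/-! ### `S`-units -/

section SUnits

variable (S : Finset Nat.Primes)

theorem ecap1_isSUnit_iff (x : Qbarˣ) :
    ak_IsSUnit S x ↔ ∀ w : Nat.Primes × s55_GQ, w.1 ∉ S → eco_HasOrdP w x 0 :=
  ⟨fun h _ hw => ec_ord_of_isSUnit h hw, fun h => ec_isSUnit_of_ord h⟩

/-- The group of `S`-units of `ℚ̄`. -/
def ecap1_SU : Subgroup Qbarˣ where
  carrier := {x | ak_IsSUnit S x}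
  one_mem' := (ecap1_isSUnit_iff S 1).2 fun _ _ => ec_ord_one
  mul_mem' := by
    intro x y hx hy
    rw [Set.mem_ofPred_eq, ecap1_isSUnit_iff] at hx hy ⊢
    intro w hw
    exact ec_ord_congr (ec_ord_mul (hx w hw) (hy w hw)) (by ring)
  inv_mem' := by
    intro x hx
    rw [Set.mem_ofPred_eq, ecap1_isSUnit_iff] at hx ⊢
    intro w hw
    exact ec_ord_congr (ec_ord_inv (hx w hw)) (by ring)

theorem ecap1_mem_SU (x : Qbarˣ) : x ∈ ecap1_SU S ↔ ak_IsSUnit S x := Iff.rfl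

/-- A root of an `S`-unit is an `S`-unit. -/
theorem ecap1_isSUnit_of_pow {x : Qbarˣ} {N : ℕ} (hN : N ≠ 0) (h : ak_IsSUnit S (x ^ N)) :
    ak_IsSUnit S x := by
  rw [ecap1_isSUnit_iff] at h ⊢
  intro w hw
  apply ec_ord_of_pow hN
  exact ec_ord_congr (h w hw) (by ring)

end SUnits

/-! ### Averaging a 1-cochain -/

section Avg

variable {G : Type*} [Group G] (N : Subgroup G) {M : Type*} [CommGroup M]
  [MulDistribMulAction G M]

/-- `∏_c d b (g, c) = (g A / A) · b g ^ [G : N]` for `A = ∏_c b c`. -/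
theorem ecap1_avg [N.Normal] [N.FiniteIndex] (b : G → M)
    (hb : ∀ g s : G, s ∈ N → b (g * s) = b g) (g : G) :
    ∏ᶠ c : G ⧸ N, (g • b (Quotient.out c) / b (g * Quotient.out c) * b g)
      = g • (∏ᶠ c : G ⧸ N, b (Quotient.out c)) / (∏ᶠ c : G ⧸ N, b (Quotient.out c))
        * b g ^ N.index := by
  classical
  haveI : Finite (G ⧸ N) := Subgroup.finite_quotient_of_finiteIndex
  haveI : Fintype (G ⧸ N) := Fintype.ofFinite _
  have htr := ec_avgG_translate (N := N) (f := fun x : G × G => b x.2)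
    (fun _ h s hs => hb h s hs) g g
  rw [ec_avgG] at htr
  simp only [finprod_eq_prod_of_fintype] at htr ⊢
  have hidx : N.index = Fintype.card (G ⧸ N) := by
    rw [Subgroup.index, Nat.card_eq_fintype_card]
  rw [Finset.prod_mul_distrib, Finset.prod_div_distrib, htr, ← Finset.smul_prod',
    Finset.prod_const, Finset.card_univ, hidx]

end Avg

/-! ### The exponent bookkeeping -/

section Algebra

/-- `s m₀ = 1 + N t` for `m₀` prime to `N`. -/
theorem ecap1_exists_st {m₀ N : ℕ} (hm₀ : 0 < m₀) (hN : 0 < N) (h : Nat.Coprime m₀ N) :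
    ∃ s t : ℕ, s * m₀ = 1 + N * t := by
  rcases Nat.lt_or_ge 1 N with h1 | h1
  · obtain ⟨s, -, hs⟩ := Nat.exists_mul_mod_eq_one_of_coprime h h1
    refine ⟨s, m₀ * s / N, ?_⟩
    have := Nat.div_add_mod (m₀ * s) N
    rw [hs] at this
    rw [mul_comm s m₀]
    omega
  · have hN1 : N = 1 := by omega
    subst hN1
    exact ⟨1, m₀ - 1, by omega⟩

variable {G : Type*} [Group G] {M : Type*} [CommGroup M] [MulDistribMulAction G M]

/-- The final computation of [CAP-1]. -/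
theorem ecap1_algebra (g : G) (bg u a k₀ Y : M) (n P m₀ s t : ℕ)
    (hbn : bg ^ n = u * (g • a / a)) (hst : s * m₀ = 1 + n * P * t)
    (hY : Y ^ (n * P) = a ^ (s * (P * m₀)) / k₀ ^ s) (hk₀ : g • k₀ = k₀) :
    (bg / (g • (Y / a ^ (P * t)) / (Y / a ^ (P * t)))) ^ (n * P) = u ^ P := by
  have hy : (Y / a ^ (P * t)) ^ (n * P) = a ^ P / k₀ ^ s := by
    rw [div_pow, hY, ← pow_mul]
    have e1 : s * (P * m₀) = P + P * t * (n * P) := by
      calc s * (P * m₀) = P * (s * m₀) := by ring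
        _ = P * (1 + n * P * t) := by rw [hst]
        _ = P + P * t * (n * P) := by ring
    rw [e1, pow_add, div_div, mul_comm (k₀ ^ s), ← div_div, mul_div_cancel_right]
  have hgy : (g • (Y / a ^ (P * t))) ^ (n * P) = (g • a) ^ P / k₀ ^ s := by
    rw [← smul_pow', hy, smul_div', smul_pow', smul_pow', hk₀]
  rw [div_pow, div_pow, hgy, hy, div_div_div_cancel_right, pow_mul, hbn, mul_pow, div_pow,
    mul_div_assoc, div_self', mul_one]

end Algebra

/-! ### The level -/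

section Level

variable {p : ℕ} {K F : IntermediateField ℚ Qbar}

/-- The subgroup `G_F` of `U = G_K`. -/
abbrev ecap1_N (K F : IntermediateField ℚ Qbar) : Subgroup ↥K.fixingSubgroup :=
  F.fixingSubgroup.subgroupOf K.fixingSubgroup

theorem ecap1_normal (hF : ak_IsLevel K F) : (ecap1_N K F).Normal := by
  refine ⟨fun s hs g => ?_⟩
  rw [Subgroup.mem_subgroupOf] at hs ⊢
  have := hF.normal (g⁻¹ : ↥K.fixingSubgroup) (g⁻¹).2 s hs
  simpa using this

theorem ecap1_finiteIndex (hp : p.Prime) (hF : ak_IsPLevel K F p) :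
    (ecap1_N K F).FiniteIndex := by
  obtain ⟨n, hn⟩ := hF
  exact ⟨by rw [hn]; exact pow_ne_zero _ hp.ne_zero⟩

/-- `ord` at `(q, loc τ * g * u)` is `ord` at `(q, g * u)`. -/
theorem ecap1_ord_loc (q : Nat.Primes) (g : s55_GQ)
    (τ : letI : Fact (q : ℕ).Prime := ⟨q.2⟩; lcf_Gal (q : ℕ)) (x : Qbarˣ) (m : ℤ) :
    letI : Fact (q : ℕ).Prime := ⟨q.2⟩
    eco_HasOrdP (q, localGaloisToGlobal (q : ℕ) τ * g) x m ↔ eco_HasOrdP (q, g) x m := by
  letI : Fact (q : ℕ).Prime := ⟨q.2⟩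
  rw [ec_ord_iff, ec_ord_iff]
  have h1 : padicEmbedding (q : ℕ) ((localGaloisToGlobal (q : ℕ) τ * g) (x : Qbar))
      = τ (padicEmbedding (q : ℕ) (g (x : Qbar))) := by
    rw [AlgEquiv.mul_apply, padicEmbedding_localGaloisToGlobal]
  show ‖padicEmbedding (q : ℕ) ((localGaloisToGlobal (q : ℕ) τ * g) (x : Qbar))‖ = _ ↔
    ‖padicEmbedding (q : ℕ) (g (x : Qbar))‖ = _
  rw [h1, unr_abs_norm_map]

/-- The units of `ℚ̄` lying in `F`. -/
def ecap1_FU (F : IntermediateField ℚ Qbar) : Subgroup Qbarˣ where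
  carrier := {x | (x : Qbar) ∈ F}
  one_mem' := by
    show ((1 : Qbarˣ) : Qbar) ∈ F
    rw [Units.val_one]
    exact F.one_mem
  mul_mem' := by
    intro x y hx hy
    show ((x * y : Qbarˣ) : Qbar) ∈ F
    rw [Units.val_mul]
    exact F.mul_mem hx hy
  inv_mem' := by
    intro x hx
    show ((x⁻¹ : Qbarˣ) : Qbar) ∈ F
    rw [Units.val_inv_eq_inv_val]
    exact F.inv_mem hx

theorem ecap1_mem_FU (F : IntermediateField ℚ Qbar) (x : Qbarˣ) :
    x ∈ ecap1_FU F ↔ (x : Qbar) ∈ F := Iff.rfl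

theorem ecap1_smul_eq_of_mem (x : Qbarˣ) (hx : (x : Qbar) ∈ K) (g : ↥K.fixingSubgroup) :
    g • x = x := by
  apply Units.ext
  exact (IntermediateField.mem_fixingSubgroup_iff K (g : s55_GQ)).1 g.2 _ hx

end Level

/-! ### The main steps -/

section Main

variable {p : ℕ} {S : Finset Nat.Primes} {K F : IntermediateField ℚ Qbar}

/-- Step 1: `b g ^ n = u_g · (g a / a)` with `u_g` an `S`-unit, `a = (∏_τ b τ)⁻¹ ∈ F`. -/
theorem ecap1_step1 (hp : p.Prime) (hF : eco_SLevel p S K F)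
    (b : ↥K.fixingSubgroup → Qbarˣ) (hb : ak_Lev₁ K F b)
    (hd : ∀ x, ak_IsSUnit S (ak_d₁ K b x)) :
    ∃ a : Qbarˣ, (a : Qbar) ∈ F ∧ ∀ g : ↥K.fixingSubgroup, ∃ u : Qbarˣ, ak_IsSUnit S u ∧
      b g ^ (ecap1_N K F).index = u * (g • a / a) := by
  classical
  haveI := ecap1_normal hF.lev
  haveI := ecap1_finiteIndex hp hF.pl
  refine ⟨(∏ᶠ c : ↥K.fixingSubgroup ⧸ ecap1_N K F, b (Quotient.out c))⁻¹, ?_, fun g => ?_⟩
  · have h1 : (∏ᶠ c : ↥K.fixingSubgroup ⧸ ecap1_N K F, b (Quotient.out c)) ∈ ecap1_FU F :=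
      finprod_induction (fun x => x ∈ ecap1_FU F) (ecap1_FU F).one_mem
        (fun x y hx hy => (ecap1_FU F).mul_mem hx hy) (fun c => hb.2 _)
    exact (ecap1_FU F).inv_mem h1
  · refine ⟨∏ᶠ c : ↥K.fixingSubgroup ⧸ ecap1_N K F, ak_d₁ K b (g, Quotient.out c), ?_, ?_⟩
    · exact finprod_induction (fun x => x ∈ ecap1_SU S) (ecap1_SU S).one_mem
        (fun x y hx hy => (ecap1_SU S).mul_mem hx hy) (fun c => hd _)
    · have h1 := ecap1_avg (ecap1_N K F) b
        (fun g s hs => hb.1 g s (Subgroup.mem_subgroupOf.1 hs)) g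
      have h2 : (∏ᶠ c : ↥K.fixingSubgroup ⧸ ecap1_N K F, ak_d₁ K b (g, Quotient.out c))
          = ∏ᶠ c : ↥K.fixingSubgroup ⧸ ecap1_N K F,
            (g • b (Quotient.out c) / b (g * Quotient.out c) * b g) := rfl
      rw [h2, h1, smul_inv', inv_div_inv, mul_comm, ← mul_assoc, div_mul_div_cancel, div_self',
        one_mul]

/-- Existence of `ord` on `F` at the places outside `S`. -/
theorem ecap1_exists_ord (hord : eco_OrdStatement) (hF : eco_SLevel p S K F)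
    (w : Nat.Primes × s55_GQ) (hw : w.1 ∉ S) (x : Qbarˣ) (hx : (x : Qbar) ∈ F) :
    ∃ m : ℤ, eco_HasOrdP w x m :=
  @hord (w.1 : ℕ) ⟨w.1.2⟩ F hF.lev.fin (ak_unramAt_of_outside hF.unr w.1 hw) x hx w.2

/-- Step 2: the divisor `c = ord a mod n` of `K`. -/
theorem ecap1_step2 (hord : eco_OrdStatement) (hfin : eco_FinStatement)
    (hF : eco_SLevel p S K F) (b : ↥K.fixingSubgroup → Qbarˣ) (hb : ak_Lev₁ K F b)
    (n : ℕ) (a : Qbarˣ) (haF : (a : Qbar) ∈ F)
    (hbn : ∀ g : ↥K.fixingSubgroup, ∃ u : Qbarˣ, ak_IsSUnit S u ∧ b g ^ n = u * (g • a / a)) :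
    ∃ c : Nat.Primes × s55_GQ → ℤ, eco_IsDiv K c ∧
      ∀ w : Nat.Primes × s55_GQ, w.1 ∉ S → ∃ j : ℤ, eco_HasOrdP w a (c w + (n : ℤ) * j) := by
  classical
  choose! oa hoa using fun (w : Nat.Primes × s55_GQ) (hw : w.1 ∉ S) =>
    ecap1_exists_ord hord hF w hw a haF
  refine ⟨fun w => if w.1 ∈ S then 0 else oa w % (n : ℤ), ⟨?_, ?_⟩, ?_⟩
  · -- constant on the places of `K`
    rintro ⟨q, g⟩ ⟨q', g'⟩ ⟨hqq, τ, u, hu, hg'⟩
    simp only at hqq hg' τ
    subst hqq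
    by_cases hq : q ∈ S
    · simp only [hq, if_true]
    · simp only [hq, if_false]
      have h1 := hoa (q, g') hq
      rw [hg', mul_assoc] at h1
      have h2 : eco_HasOrdP (q, g) ((⟨u, hu⟩ : ↥K.fixingSubgroup) • a) (oa (q, g')) := by
        rw [hg']
        exact (ecap1_ord_loc q (g * u) τ a _).1 h1
      obtain ⟨U, hU, hUb⟩ := hbn ⟨u, hu⟩
      obtain ⟨β, hβ⟩ := ecap1_exists_ord hord hF (q, g) hq (b ⟨u, hu⟩) (hb.2 _)
      have h3 : (⟨u, hu⟩ : ↥K.fixingSubgroup) • a = b ⟨u, hu⟩ ^ n / U * a := by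
        rw [hUb, mul_div_cancel_left, div_mul_cancel]
      have h4 := ec_ord_mul (ec_ord_div (ec_ord_pow hβ n) (ec_ord_of_isSUnit hU hq))
        (hoa (q, g) hq)
      rw [← h3] at h4
      have h5 := ec_ord_unique h2 h4
      rw [h5, sub_zero, add_comm, Int.add_mul_emod_self_left]
  · -- finite support
    obtain ⟨X, hX⟩ := hfin a
    refine ⟨X, fun w hw => ?_⟩
    by_cases hq : w.1 ∈ S
    · simp only [hq, if_true]
    · simp only [hq, if_false]
      have h1 : eco_HasOrdP w a 0 := by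
        rw [ec_ord_iff]
        simpa using hX w.1 hw w.2
      rw [ec_ord_unique (hoa w hq) h1, Int.zero_emod]
  · intro w hw
    refine ⟨oa w / (n : ℤ), ?_⟩
    simp only [hw, if_false]
    rw [Int.emod_add_mul_ediv]
    exact hoa w hw

/-- **[CAP-1]** -/
theorem ecap1_main (hord : eco_OrdStatement) (hfin : eco_FinStatement)
    (hcln : eco_ClnStatement) (hkum : eco_KumStatement) : eco_Cap1Statement := by
  classical
  intro p S K F hset hF b hb hd
  have hp := hset.prime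
  obtain ⟨n₀, hn₀⟩ := hF.pl
  have hn₀' : (ecap1_N K F).index = p ^ n₀ := hn₀
  obtain ⟨a, haF, hbn⟩ := ecap1_step1 hp hF b hb hd
  rw [hn₀'] at hbn
  obtain ⟨c, hcdiv, hc⟩ := ecap1_step2 hord hfin hF b hb (p ^ n₀) a haF hbn
  obtain ⟨h, hh, hcl⟩ := hcln S K hset.unr
  obtain ⟨k₀, hk₀K, hk₀⟩ := hcl c hcdiv
  obtain ⟨k, m₀, hm₀, hhk⟩ := Nat.exists_eq_pow_mul_and_not_dvd hh.ne' p hp.ne_one
  have hm₀pos : 0 < m₀ := by
    rcases Nat.eq_zero_or_pos m₀ with h0 | h0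
    · rw [h0, mul_zero] at hhk
      omega
    · exact h0
  have hNpos : 0 < p ^ n₀ * p ^ k := Nat.mul_pos (pow_pos hp.pos _) (pow_pos hp.pos _)
  have hcop : Nat.Coprime m₀ (p ^ n₀ * p ^ k) := by
    rw [← pow_add]
    exact (Nat.Coprime.pow_left _ ((Nat.Prime.coprime_iff_not_dvd hp).2 hm₀)).symm
  obtain ⟨s, t, hst⟩ := ecap1_exists_st hm₀pos hNpos hcop
  -- the element `e`
  set e : Qbarˣ := a ^ (s * (p ^ k * m₀)) / k₀ ^ s with he
  have hKF : K ≤ F := hF.lev.le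
  have heF : (e : Qbar) ∈ F :=
    (ecap1_FU F).div_mem ((ecap1_FU F).pow_mem haF _) ((ecap1_FU F).pow_mem (hKF hk₀K) _)
  have heord : eco_OrdDvd S (p ^ (n₀ + k)) e := by
    intro w hw
    obtain ⟨j, hj⟩ := hc w hw
    refine ⟨(s : ℤ) * (m₀ : ℤ) * j, ?_⟩
    have h1 := ec_ord_div (ec_ord_pow hj (s * (p ^ k * m₀))) (ec_ord_pow (hk₀ w hw) s)
    refine ec_ord_congr h1 ?_
    rw [hhk]
    push_cast
    ring
  obtain ⟨F', hFF', hF', hroots⟩ := hkum p S K F hset hF (n₀ + k) {e} (by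
    intro x hx
    rw [Finset.mem_singleton] at hx
    subst hx
    exact ⟨heF, heord⟩)
  -- the root
  obtain ⟨Y₀, hY₀⟩ := IsAlgClosed.exists_pow_nat_eq (e : Qbar) hNpos
  have hY₀0 : Y₀ ≠ 0 := by
    rintro rfl
    rw [zero_pow hNpos.ne'] at hY₀
    exact e.ne_zero hY₀.symm
  set Y : Qbarˣ := Units.mk0 Y₀ hY₀0 with hY
  have hYe : Y ^ (p ^ n₀ * p ^ k) = e := by
    apply Units.ext
    rw [Units.val_pow_eq_pow_val, hY, Units.val_mk0, hY₀]
  have hYF' : (Y : Qbar) ∈ F' :=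
    hroots e (Finset.mem_singleton_self e) Y (by rw [pow_add]; exact hYe)
  refine ⟨F', hFF', hF', Y / a ^ (p ^ k * t), ?_, fun g => ?_⟩
  · exact (ecap1_FU F').div_mem hYF' ((ecap1_FU F').pow_mem (hFF' haF) _)
  · obtain ⟨u, hu, hub⟩ := hbn g
    apply ecap1_isSUnit_of_pow S hNpos.ne'
    rw [ecap1_algebra g (b g) u a k₀ Y (p ^ n₀) (p ^ k) m₀ s t hub hst hYe
      (ecap1_smul_eq_of_mem k₀ hk₀K g)]
    exact (ecap1_SU S).pow_mem hu _

end Main

end

end Fermat.Agent.S55
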