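/-
S55 (fifth wave), GLOBAL side, part 3, package [E-COH], implication [CAP-1] with the closed leaves
[E-ORD] (`eord_main`), [E-FIN] (`efin_main`), [E-CLN] (`ecln_main`) plugged in: only [E-KUM] is
left as a hypothesis.
Owner: helper7.  Prefix `ecap1_`.
-/
import Mathlib
import Fermat.Agent.S55.Global.EcoCap1
import Fermat.Agent.S55.Global.EcoOrd
import Fermat.Agent.S55.Global.EcoFin
import Fermat.Agent.S55.Global.EcoCln

set_option autoImplicit false

namespace Fermat.Agent.S55

/-- **[CAP-1]** against [E-KUM] alone. -/
theorem ecap1_of_kum (hkum : eco_KumStatement) : eco_Cap1Statement :=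
  ecap1_main eord_main efin_main (ecln_main eord_main) hkum

end Fermat.Agent.S55
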