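/-
S55 (fifth wave), GLOBAL side, package [FINLEVEL-K] (helper23): THE DICTIONARY.

  theorem flk_dict : flk_DictStatement          (hypothesis-free)
-/
import Mathlib
import Fermat.Agent.S55.Global.FinLevelKAlg
import Fermat.Agent.S55.Global.FinLevelKPlace

set_option autoImplicit false

namespace Fermat.Agent.S55

open groupCohomology

/-- **[FLK-DICT]** the dictionary between the absolute level and the finite level. -/
theorem flk_dict : flk_DictStatement where
  model := flk_model
  stable := fun K F hL _ _ _ j hj => flk_stable K j F hL hj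
  ker := fun _ _ _ _ _ hn u => flk_ker hn u
  card := fun _ _ _ _ _ hn => flk_card hn
  fixed := fun _ _ _ _ _ hn x => flk_fixed hn x
  sup := flk_sup
  tower := fun _ _ _ _ _ _ _ _ _ hn hn' hK hle => flk_tower hn hn' hK hle
  const₁ := fun _ _ _ _ _ hn X y hy => flk_const₁ hn X y hy
  const₂ := fun _ _ _ _ _ hn X y hy => flk_const₂ hn X y hy
  const₃ := fun _ _ _ _ _ hn X y hy => flk_const₃ hn X y hy
  descent₁ := fun _ _ _ _ _ hn b hb => flk_descent₁ hn b hb
  descent₂ := fun _ _ _ _ _ hn f hf => flk_descent₂ hn f hf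
  descent₃ := fun _ _ _ _ _ hn z hz => flk_descent₃ hn z hz
  lev₁ := fun _ _ _ _ _ hn b => flk_lev₁ hn b
  lev₂ := fun _ _ _ _ _ hn c => flk_lev₂ hn c
  lev₃ := fun _ _ _ _ _ hn c => flk_lev₃ hn c
  coc₂ := fun _ _ _ _ _ hn c => flk_coc₂ hn c
  cob₂ := fun _ _ _ _ _ hn c => flk_cob₂ hn c
  locU := fun K _ _ _ j hn hK q _ g => flk_locU K j hn q g hK
  locSigma := fun K _ _ _ j hn _ q _ g τ τ' h => flk_locSigma K j hn q g τ τ' h
  inv := fun K _ _ _ j hn hK q _ g inv c => flk_inv K j hn q g hK inv c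
  emb := fun _ _ _ j q _ ι => flk_emb j q ι
  place := fun K _ _ _ j hn hK q g g' => flk_place K j hn hK q g g'
  sum := fun inv hinv K _ _ _ j hn hK c hc T hT hout => flk_sum inv hinv K j hn hK c hc T hT hout

end Fermat.Agent.S55
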