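/-
S55 (fifth wave), GLOBAL side, [E-COH] implication [E2-INJ] (helper23).  Prefix `e2i_`.

  theorem e2i_main : ak_HasseStatement → eco_Cap1Statement → eco_E2InjStatement

Reusable: `e2i_pprim` (a cocycle of a `p`-level is `p`-primary: `#Gal(F/K)` kills `H²`),
`e2i_stable` (a level is `U`-stable), `e2i_d₁_div` (`d (b / d₀ y) = d b`), `e2i_lev_div`.
-/
import Mathlib
import Fermat.Agent.S55.Global.EcohDefs
import Fermat.Agent.S55.Global.FinLevelKDict
import Fermat.Agent.S55.FG.Syl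

set_option autoImplicit false
set_option linter.style.haveILetI false

namespace Fermat.Agent.S55

open groupCohomology

noncomputable section

local notation "Qbar" => AlgebraicClosure ℚ

section pprim

variable (K : IntermediateField ℚ Qbar)

/-- a level over `K` is stable under `U = G_K`. -/
theorem e2i_stable (F : IntermediateField ℚ Qbar) (hL : ak_IsLevel K F) (u : s55_GQ)
    (hu : u ∈ K.fixingSubgroup) (x : Qbar) (hx : x ∈ F) : u x ∈ F := by
  apply flk_mem_of_fixed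
  intro s hs
  have h2 := hL.normal u hu s hs
  have h3 := (IntermediateField.mem_fixingSubgroup_iff F _).1 h2 x hx
  have h4 : (u⁻¹ * s * u) x = u⁻¹ (s (u x)) := rfl
  rw [h4] at h3
  have h5 := congrArg u h3
  rw [show u (u⁻¹ (s (u x))) = s (u x) from AlgEquiv.apply_symm_apply u _] at h5
  exact h5

theorem e2i_infl₂_nsmul {E : Type} [Field E] [NumberField E] (j : E →ₐ[ℚ] Qbar)
    (hn : flk_Stable K j) (c : ↥(flk_H K j hn) × ↥(flk_H K j hn) → Additive Eˣ) (n : ℕ)
    (x : ↥K.fixingSubgroup × ↥K.fixingSubgroup) :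
    flk_infl₂ K j hn (fun y => n • c y) x = flk_infl₂ K j hn c x ^ n := by
  show Units.map (j : E →* Qbar) (n • c _).toMul = (Units.map (j : E →* Qbar) (c _).toMul) ^ n
  rw [toMul_nsmul, map_pow]

/-- a cocycle of a `p`-level is `p`-primary (`#Gal(F/K)` kills `H²`). -/
theorem e2i_pprim (F : IntermediateField ℚ Qbar) (hL : ak_IsLevel K F) (p : ℕ)
    (hpl : ak_IsPLevel K F p) (u : ↥K.fixingSubgroup × ↥K.fixingSubgroup → Qbarˣ)
    (hu : IsMulCocycle₂ u) (hlev : ak_Lev₂ K F u) : ak_PPrim K p u := by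
  obtain ⟨E, _, _, j, hj⟩ := flk_model F hL.fin
  subst hj
  have hn : flk_Stable K j := flk_stable K j _ hL rfl
  obtain ⟨c, rfl⟩ := flk_descent₂ hn u hlev
  have hc : IsCocycle₂ c := (flk_coc₂ hn c).1 hu
  obtain ⟨a, ha⟩ := hpl
  have hcard : Nat.card ↥(flk_H K j hn) = p ^ a := (flk_card hn).trans ha
  haveI : Finite ↥(flk_H K j hn) := inferInstance
  have h1 := fgS_card_smul_H2 hc
  rw [hcard] at h1
  obtain ⟨b, hb, hd⟩ := (flk_cob₂ hn (fun x => p ^ a • c x)).1 h1
  exact ⟨a, j.fieldRange, b, hL, hb, fun x => by rw [hd x, e2i_infl₂_nsmul]⟩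

end pprim

theorem e2i_comm_aux {G : Type*} [CommGroup G] (A B C P Q Y : G) :
    A / (P / Q) / (B / (P / Y)) * (C / (Q / Y)) = A / B * C := by
  have h : ∀ (A B C P Q Y : Additive G),
      A - (P - Q) - (B - (P - Y)) + (C - (Q - Y)) = A - B + C := by
    intro A B C P Q Y
    abel
  exact h A B C P Q Y

section cob

variable (K : IntermediateField ℚ Qbar)

/-- the 1-cochain `g ↦ g • y / y`. -/
def e2i_d₀ (y : Qbarˣ) : ↥K.fixingSubgroup → Qbarˣ := fun g => g • y / y

theorem e2i_smul_val (g : ↥K.fixingSubgroup) (y : Qbarˣ) :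
    ((g • y : Qbarˣ) : Qbar) = (g : s55_GQ) (y : Qbar) := rfl

theorem e2i_smul_fixed (F' : IntermediateField ℚ Qbar) (y : Qbarˣ) (hy : (y : Qbar) ∈ F')
    (s : ↥K.fixingSubgroup) (hs : (s : s55_GQ) ∈ F'.fixingSubgroup) : s • y = y := by
  apply Units.ext
  rw [e2i_smul_val]
  exact (IntermediateField.mem_fixingSubgroup_iff F' _).1 hs _ hy

/-- dividing a 1-cochain by `d₀ y` does not change its coboundary. -/
theorem e2i_d₁_div (b : ↥K.fixingSubgroup → Qbarˣ) (y : Qbarˣ)
    (x : ↥K.fixingSubgroup × ↥K.fixingSubgroup) :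
    ak_d₁ K (fun g => b g / (g • y / y)) x = ak_d₁ K b x := by
  show x.1 • (b x.2 / (x.2 • y / y)) / (b (x.1 * x.2) / ((x.1 * x.2) • y / y)) *
      (b x.1 / (x.1 • y / y)) = x.1 • b x.2 / b (x.1 * x.2) * b x.1
  rw [smul_div', smul_div', mul_smul]
  exact e2i_comm_aux _ _ _ _ _ _

/-- `b / d₀ y` has level `F'` if `b` has level `F ≤ F'` and `y ∈ F'`. -/
theorem e2i_lev_div (F F' : IntermediateField ℚ Qbar) (hFF' : F ≤ F') (hL' : ak_IsLevel K F')
    (b : ↥K.fixingSubgroup → Qbarˣ) (hb : ak_Lev₁ K F b) (y : Qbarˣ) (hy : (y : Qbar) ∈ F') :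
    ak_Lev₁ K F' (fun g => b g / (g • y / y)) := by
  refine ⟨fun g s hs => ?_, fun g => ?_⟩
  · show b (g * s) / ((g * s) • y / y) = b g / (g • y / y)
    rw [hb.1 g s (IntermediateField.fixingSubgroup_antitone hFF' hs), mul_smul,
      e2i_smul_fixed K F' y hy s hs]
  · have h1 : ((b g : Qbarˣ) : Qbar) ∈ F' := hFF' (hb.2 g)
    have h2 : ((g • y : Qbarˣ) : Qbar) ∈ F' := e2i_stable K F' hL' g g.2 _ hy
    have h3 : ((b g / (g • y / y) : Qbarˣ) : Qbar) =
        (b g : Qbar) / (((g • y : Qbarˣ) : Qbar) / (y : Qbar)) := by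
      rw [Units.val_div_eq_div_val, Units.val_div_eq_div_val]
    rw [h3]
    exact F'.div_mem h1 (F'.div_mem h2 hy)

end cob

/-- **[E2-INJ]** -/
theorem e2i_main : ak_HasseStatement → eco_Cap1Statement → eco_E2InjStatement := by
  intro hH hC inv hinv p S K F hset hF u hu hlev hunit hinv0
  have hK : FiniteDimensional ℚ K := hset.unr.1
  have hpp := e2i_pprim K F hF.lev p hF.pl u hu hlev
  obtain ⟨b, hb, hdb⟩ := hH inv hinv p hset.prime hset.odd K F hK hF.lev hset.zeta u hu hlev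
    hpp hinv0
  obtain ⟨F', hFF', hF', y, hy, hye⟩ := hC p S K F hset hF b hb
    (fun x => by rw [hdb x]; exact hunit x)
  refine ⟨F', fun g => b g / (g • y / y), hFF', hF', e2i_lev_div K F F' hFF' hF'.lev b hb y hy,
    hye, fun x => ?_⟩
  rw [e2i_d₁_div, hdb x]

end

end Fermat.Agent.S55
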