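/-
S55 (fifth wave), GLOBAL side, package [FINLEVEL-K], import [AK-RECIP] (helper23).
Prefix `flkr_`.

  theorem flkr_main : gl_RecipStatement → ak_RecipStatement

Route: model `(E, j)` of the level, `f = flk_infl₂ c`; `Σ_{w ∈ T} inv_w f = gl_sumF inv E H c`
(`flk_sum`); for a Sylow `p`-subgroup `P ≤ H`: `[H : P] • gl_sumF = gl_sumF (res c) = 0`
([RES-SUM] `grs_main` + [RECIP] for the `p`-group `P`); `p`-primary ⟹ `p^k • inv_w f = 0`.
Reusable: `flkr_ppow` (invariants of a `p`-primary cocycle are killed by `p^k`),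
`flkr_index_smul`, `flkr_loc₂_pow`, `flkr_eq_zero_of_coprime`.
-/
import Mathlib
import Fermat.Agent.S55.Global.FinLevelKDict
import Fermat.Agent.S55.Global.AkUnr
import Fermat.Agent.S55.Global.ECohExp
import Fermat.Agent.S55.Global.ResSumMain

set_option autoImplicit false
set_option linter.style.haveILetI false

namespace Fermat.Agent.S55

open groupCohomology

noncomputable section

local notation "Qbar" => AlgebraicClosure ℚ

section ppow

variable {inv : lcf_InvType} (hinv : lcf_IsInvSystem inv) (K : IntermediateField ℚ Qbar)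

theorem flkr_loc₂_pow (q : ℕ) [Fact q.Prime] (g : s55_GQ)
    (f : ↥K.fixingSubgroup × ↥K.fixingSubgroup → Qbarˣ) (n : ℕ) :
    ak_loc₂ K q g (fun x => f x ^ n) = ak_loc₂ K q g f ^ n := by
  funext x
  show ak_emb q g (f _ ^ n) = (ak_emb q g (f _)) ^ n
  rw [map_pow]

include hinv in
/-- the invariants of a `p`-primary cocycle are killed by a power of `p`. -/
theorem flkr_ppow (hK : FiniteDimensional ℚ K) (F : IntermediateField ℚ Qbar)
    (hL : ak_IsLevel K F) (f : ↥K.fixingSubgroup × ↥K.fixingSubgroup → Qbarˣ)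
    (hf : IsMulCocycle₂ f) (hlev : ak_Lev₂ K F f) (p : ℕ) (hpp : ak_PPrim K p f) :
    ∃ k : ℕ, ∀ w : Nat.Primes × s55_GQ, (p ^ k) • ak_invP K inv w f = 0 := by
  obtain ⟨k, Fb, b, hLb, hb, hfb⟩ := hpp
  refine ⟨k, fun w => ?_⟩
  letI : Fact (w.1 : ℕ).Prime := ⟨w.1.2⟩
  show (p ^ k) • inv (w.1 : ℕ) (ak_H K (w.1 : ℕ) w.2) (ak_loc₂ K (w.1 : ℕ) w.2 f) = 0
  have hV := aku_H_isOpen (w.1 : ℕ) K hK w.2
  have hcoc := aku_loc₂_isCoc (q := (w.1 : ℕ)) (K := K) w.2 hL.fin f hf hlev.1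
  rw [← ec_inv_pow hinv hV hcoc (p ^ k)]
  have hcob := aku_loc₂_isCob (q := (w.1 : ℕ)) (K := K) w.2 hLb.fin b hb.1
  have e : ak_loc₂ K (w.1 : ℕ) w.2 f ^ (p ^ k) = ak_loc₂ K (w.1 : ℕ) w.2 (ak_d₁ K b) := by
    rw [← flkr_loc₂_pow]
    congr 1
    funext x
    exact hfb x
  rw [e]
  have hcoc' : lcf_IsCoc (ak_H K (w.1 : ℕ) w.2) (ak_loc₂ K (w.1 : ℕ) w.2 (ak_d₁ K b)) := by
    rw [← e]
    exact ec_isCoc_pow hcoc _
  exact (hinv.eq_zero_iff (w.1 : ℕ) _ hV _ hcoc').2 hcob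

end ppow

section sylow

variable {inv : lcf_InvType} (hinv : lcf_IsInvSystem inv)
  {E : Type} [Field E] [NumberField E] (H : Subgroup (E ≃ₐ[ℚ] E))

include hinv in
/-- [RECIP] for `p`-groups gives `m • Σ = 0` with `m = [H : P]` prime to `p`, for ANY
subgroup `H`. -/
theorem flkr_index_smul (hR : gl_RecipStatement) (p : ℕ) (hp : p.Prime) (hp2 : p ≠ 2)
    (c : ↥H × ↥H → Additive Eˣ) (hc : IsCocycle₂ c)
    (hfin : (Function.support (gl_sumPF inv E H c)).Finite) :
    ∃ m : ℕ, ¬ p ∣ m ∧ m • gl_sumF inv E H c = 0 := by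
  haveI : Fact p.Prime := ⟨hp⟩
  haveI : Finite ↥H := inferInstance
  let P₀ : Sylow p ↥H := default
  let P : Subgroup (E ≃ₐ[ℚ] E) := (P₀ : Subgroup ↥H).map H.subtype
  have hPH : P ≤ H := Subgroup.map_subtype_le _
  have hPp : IsPGroup p ↥P := P₀.isPGroup'.map H.subtype
  have hres : IsCocycle₂ (gl_res₂ hPH c) := by
    intro g h j
    have h3 := hc (Subgroup.inclusion hPH g) (Subgroup.inclusion hPH h)
      (Subgroup.inclusion hPH j)
    show c (Subgroup.inclusion hPH (g * h), Subgroup.inclusion hPH j) +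
        c (Subgroup.inclusion hPH g, Subgroup.inclusion hPH h) =
      (g : E ≃ₐ[ℚ] E) • c (Subgroup.inclusion hPH h, Subgroup.inclusion hPH j) +
        c (Subgroup.inclusion hPH g, Subgroup.inclusion hPH (h * j))
    rw [map_mul, map_mul]
    exact h3
  obtain ⟨-, h0⟩ := hR inv hinv E p hp hp2 P hPp (gl_res₂ hPH c) hres
  have h1 := ((grs_main inv hinv E H P hPH).1 c hc).2
  refine ⟨P.relIndex H, ?_, ?_⟩
  · have e : P.subgroupOf H = (P₀ : Subgroup ↥H) :=
      Subgroup.comap_map_eq_self_of_injective (Subgroup.subtype_injective H) _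
    have e2 : P.relIndex H = (P₀ : Subgroup ↥H).index := by
      unfold Subgroup.relIndex
      rw [e]
    rw [e2]
    exact Sylow.not_dvd_index P₀
  · unfold gl_sumF at h0 ⊢
    rw [smul_finsum' _ hfin, ← h0]
    exact finsum_congr (fun q => (h1 q).symm)

end sylow

/-- an element of an additive group killed by `p ^ k` and by `m` prime to `p` is zero. -/
theorem flkr_eq_zero_of_coprime {A : Type*} [AddCommGroup A] (s : A) (p k m : ℕ) (hp : p.Prime)
    (hm : ¬ p ∣ m) (h1 : (p ^ k) • s = 0) (h2 : m • s = 0) : s = 0 := by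
  have hc : Nat.Coprime (p ^ k) m := Nat.Coprime.pow_left k ((Nat.Prime.coprime_iff_not_dvd hp).2 hm)
  have d1 : addOrderOf s ∣ p ^ k := addOrderOf_dvd_of_nsmul_eq_zero h1
  have d2 : addOrderOf s ∣ m := addOrderOf_dvd_of_nsmul_eq_zero h2
  have d3 : addOrderOf s ∣ 1 := by
    have := Nat.dvd_gcd d1 d2
    rwa [hc.gcd_eq_one] at this
  exact AddMonoid.addOrderOf_eq_one_iff.1 (Nat.dvd_one.1 d3)

/-- **[AK-RECIP]** the sum formula at the absolute level, from [RECIP] for `p`-groups. -/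
theorem flkr_main : gl_RecipStatement → ak_RecipStatement := by
  intro hR inv hinv p hp hp2 K F hK hL f hf hlev hpp T hT hout
  obtain ⟨E, _, _, j, hj⟩ := flk_model F hL.fin
  subst hj
  have hn : flk_Stable K j := flk_stable K j _ hL rfl
  have hKF : K ≤ j.fieldRange := hL.le
  obtain ⟨c, rfl⟩ := flk_descent₂ hn f hlev
  have hc : IsCocycle₂ c := (flk_coc₂ hn c).1 hf
  obtain ⟨hfin, hsum⟩ := flk_sum inv hinv K j hn hKF c hc T hT hout
  obtain ⟨m, hm, hms⟩ := flkr_index_smul hinv (flk_H K j hn) hR p hp hp2 c hc hfin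
  obtain ⟨k, hk⟩ := flkr_ppow hinv K hK j.fieldRange hL (flk_infl₂ K j hn c) hf hlev p hpp
  rw [hsum] at hms
  refine flkr_eq_zero_of_coprime _ p k m hp hm ?_ hms
  rw [Finset.smul_sum]
  exact Finset.sum_eq_zero (fun w _ => hk w)

end

end Fermat.Agent.S55
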