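/-
S55 (fifth wave), GLOBAL side, [E-COH]: tools for the implications [E-DIV] and [E2-SURJ]
(helper23).  Prefix `e2t_`.

Closure properties: `e2t_coc_one/mul/inv/pow` (`IsMulCocycle₂`), `e2t_lev₁_mono`,
`e2t_lev₂_mono/mul/inv/pow` (levels), `e2t_root_unitAt`, `e2t_root_sunit` (roots of unity are
units), `e2t_unitAt_*`, `e2t_sunit_*`; invariants: `e2t_loc₂_mul`, `e2t_inv_mul`, `e2t_inv_pow`;
division in `ℚ/ℤ`: `e2t_exists_div`, `e2t_exists_div_family`.
-/
import Mathlib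
import Fermat.Agent.S55.Global.EcohDefs
import Fermat.Agent.S55.Global.AkUnr
import Fermat.Agent.S55.Global.ECohExp
import Fermat.Agent.S55.Global.FinLevelKRecip

set_option autoImplicit false
set_option linter.style.haveILetI false

namespace Fermat.Agent.S55

open groupCohomology

noncomputable section

local notation "Qbar" => AlgebraicClosure ℚ

/-! ### Cocycles -/

section coc

variable {G : Type*} [Group G] {M : Type*} [CommGroup M] [MulDistribMulAction G M]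

theorem e2t_coc_one : IsMulCocycle₂ (fun _ : G × G => (1 : M)) := by
  intro g h j
  simp

theorem e2t_coc_mul {f f' : G × G → M} (hf : IsMulCocycle₂ f) (hf' : IsMulCocycle₂ f') :
    IsMulCocycle₂ (fun x => f x * f' x) := by
  intro g h j
  show f (g * h, j) * f' (g * h, j) * (f (g, h) * f' (g, h)) =
    g • (f (h, j) * f' (h, j)) * (f (g, h * j) * f' (g, h * j))
  rw [smul_mul', mul_mul_mul_comm, hf g h j, hf' g h j, mul_mul_mul_comm]

theorem e2t_coc_inv {f : G × G → M} (hf : IsMulCocycle₂ f) :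
    IsMulCocycle₂ (fun x => (f x)⁻¹) := by
  intro g h j
  show (f (g * h, j))⁻¹ * (f (g, h))⁻¹ = g • (f (h, j))⁻¹ * (f (g, h * j))⁻¹
  rw [smul_inv', ← mul_inv, ← mul_inv, hf g h j]

theorem e2t_coc_pow {f : G × G → M} (hf : IsMulCocycle₂ f) (n : ℕ) :
    IsMulCocycle₂ (fun x => f x ^ n) := by
  intro g h j
  show f (g * h, j) ^ n * f (g, h) ^ n = g • (f (h, j) ^ n) * f (g, h * j) ^ n
  rw [smul_pow', ← mul_pow, ← mul_pow, hf g h j]

end coc

/-! ### Levels -/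

section lev

variable (K : IntermediateField ℚ Qbar) {F F' : IntermediateField ℚ Qbar}

theorem e2t_lev₁_mono (h : F ≤ F') {b : ↥K.fixingSubgroup → Qbarˣ} (hb : ak_Lev₁ K F b) :
    ak_Lev₁ K F' b :=
  ⟨fun g s hs => hb.1 g s (IntermediateField.fixingSubgroup_antitone h hs),
    fun g => h (hb.2 g)⟩

theorem e2t_lev₂_mono (h : F ≤ F') {f : ↥K.fixingSubgroup × ↥K.fixingSubgroup → Qbarˣ}
    (hf : ak_Lev₂ K F f) : ak_Lev₂ K F' f :=
  ⟨fun g g' s s' hs hs' => hf.1 g g' s s' (IntermediateField.fixingSubgroup_antitone h hs)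
    (IntermediateField.fixingSubgroup_antitone h hs'), fun x => h (hf.2 x)⟩

theorem e2t_lev₂_mul {f f' : ↥K.fixingSubgroup × ↥K.fixingSubgroup → Qbarˣ}
    (hf : ak_Lev₂ K F f) (hf' : ak_Lev₂ K F f') : ak_Lev₂ K F (fun x => f x * f' x) := by
  refine ⟨fun g g' s s' hs hs' => ?_, fun x => ?_⟩
  · show f (g * s, g' * s') * f' (g * s, g' * s') = f (g, g') * f' (g, g')
    rw [hf.1 g g' s s' hs hs', hf'.1 g g' s s' hs hs']
  · rw [Units.val_mul]
    exact F.mul_mem (hf.2 x) (hf'.2 x)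

theorem e2t_lev₂_inv {f : ↥K.fixingSubgroup × ↥K.fixingSubgroup → Qbarˣ}
    (hf : ak_Lev₂ K F f) : ak_Lev₂ K F (fun x => (f x)⁻¹) := by
  refine ⟨fun g g' s s' hs hs' => ?_, fun x => ?_⟩
  · show (f (g * s, g' * s'))⁻¹ = (f (g, g'))⁻¹
    rw [hf.1 g g' s s' hs hs']
  · rw [Units.val_inv_eq_inv_val]
    exact F.inv_mem (hf.2 x)

theorem e2t_lev₂_pow {f : ↥K.fixingSubgroup × ↥K.fixingSubgroup → Qbarˣ}
    (hf : ak_Lev₂ K F f) (n : ℕ) : ak_Lev₂ K F (fun x => f x ^ n) := by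
  refine ⟨fun g g' s s' hs hs' => ?_, fun x => ?_⟩
  · show f (g * s, g' * s') ^ n = f (g, g') ^ n
    rw [hf.1 g g' s s' hs hs']
  · rw [Units.val_pow_eq_pow_val]
    exact pow_mem (hf.2 x) n

end lev

/-! ### Units -/

section units

theorem e2t_root_unitAt (p : ℕ) (hp : p.Prime) (x : Qbarˣ) (hx : eco_IsRoot p x) (q : ℕ)
    [Fact q.Prime] : ak_IsUnitAt q x := by
  intro g
  obtain ⟨k, hk⟩ := hx
  have h1 : (padicEmbedding q (g (x : Qbar))) ^ (p ^ k) = 1 := by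
    rw [← map_pow, ← map_pow, ← Units.val_pow_eq_pow_val, hk, Units.val_one, map_one, map_one]
  have h2 : ‖padicEmbedding q (g (x : Qbar))‖ ^ (p ^ k) = 1 := by
    rw [← norm_pow, h1, norm_one]
  exact (pow_eq_one_iff_of_nonneg (norm_nonneg _) (pow_ne_zero k hp.ne_zero)).1 h2

theorem e2t_root_sunit (p : ℕ) (hp : p.Prime) (S : Finset Nat.Primes) (x : Qbarˣ)
    (hx : eco_IsRoot p x) : ak_IsSUnit S x := by
  intro q _
  exact e2t_root_unitAt p hp x hx (q : ℕ)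

theorem e2t_unitAt_mul (q : ℕ) [Fact q.Prime] {x y : Qbarˣ} (hx : ak_IsUnitAt q x)
    (hy : ak_IsUnitAt q y) : ak_IsUnitAt q (x * y) := by
  intro g
  rw [Units.val_mul, map_mul, map_mul, norm_mul, hx g, hy g, one_mul]

theorem e2t_unitAt_inv (q : ℕ) [Fact q.Prime] {x : Qbarˣ} (hx : ak_IsUnitAt q x) :
    ak_IsUnitAt q x⁻¹ := by
  intro g
  rw [Units.val_inv_eq_inv_val, map_inv₀, map_inv₀, norm_inv, hx g, inv_one]

theorem e2t_unitAt_pow (q : ℕ) [Fact q.Prime] {x : Qbarˣ} (hx : ak_IsUnitAt q x) (n : ℕ) :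
    ak_IsUnitAt q (x ^ n) := by
  intro g
  rw [Units.val_pow_eq_pow_val, map_pow, map_pow, norm_pow, hx g, one_pow]

theorem e2t_sunit_mul (S : Finset Nat.Primes) {x y : Qbarˣ} (hx : ak_IsSUnit S x)
    (hy : ak_IsSUnit S y) : ak_IsSUnit S (x * y) := by
  intro q hq
  exact e2t_unitAt_mul (q : ℕ) (hx q hq) (hy q hq)

theorem e2t_sunit_inv (S : Finset Nat.Primes) {x : Qbarˣ} (hx : ak_IsSUnit S x) :
    ak_IsSUnit S x⁻¹ := by
  intro q hq
  exact e2t_unitAt_inv (q : ℕ) (hx q hq)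

theorem e2t_sunit_pow (S : Finset Nat.Primes) {x : Qbarˣ} (hx : ak_IsSUnit S x) (n : ℕ) :
    ak_IsSUnit S (x ^ n) := by
  intro q hq
  exact e2t_unitAt_pow (q : ℕ) (hx q hq) n

end units

/-! ### Invariants -/

section inv

variable {inv : lcf_InvType} (hinv : lcf_IsInvSystem inv) (K : IntermediateField ℚ Qbar)
  (hK : FiniteDimensional ℚ K)

theorem e2t_loc₂_mul (q : ℕ) [Fact q.Prime] (g : s55_GQ)
    (f f' : ↥K.fixingSubgroup × ↥K.fixingSubgroup → Qbarˣ) :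
    ak_loc₂ K q g (fun x => f x * f' x) = ak_loc₂ K q g f * ak_loc₂ K q g f' := by
  funext x
  show ak_emb q g (f _ * f' _) = ak_emb q g (f _) * ak_emb q g (f' _)
  rw [map_mul]

include hinv hK in
/-- additivity of the invariant at the absolute level. -/
theorem e2t_inv_mul {F F' : IntermediateField ℚ Qbar} (hF : FiniteDimensional ℚ F)
    (hF' : FiniteDimensional ℚ F')
    (f f' : ↥K.fixingSubgroup × ↥K.fixingSubgroup → Qbarˣ) (hf : IsMulCocycle₂ f)
    (hf' : IsMulCocycle₂ f') (hl : ak_Const₂ K F f) (hl' : ak_Const₂ K F' f')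
    (w : Nat.Primes × s55_GQ) :
    ak_invP K inv w (fun x => f x * f' x) = ak_invP K inv w f + ak_invP K inv w f' := by
  letI : Fact (w.1 : ℕ).Prime := ⟨w.1.2⟩
  show inv (w.1 : ℕ) _ (ak_loc₂ K (w.1 : ℕ) w.2 (fun x => f x * f' x)) = _
  rw [e2t_loc₂_mul]
  exact hinv.add (w.1 : ℕ) _ (aku_H_isOpen (w.1 : ℕ) K hK w.2) _ _
    (aku_loc₂_isCoc (q := (w.1 : ℕ)) (K := K) w.2 hF f hf hl)
    (aku_loc₂_isCoc (q := (w.1 : ℕ)) (K := K) w.2 hF' f' hf' hl')

include hinv hK in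
theorem e2t_inv_pow {F : IntermediateField ℚ Qbar} (hF : FiniteDimensional ℚ F)
    (f : ↥K.fixingSubgroup × ↥K.fixingSubgroup → Qbarˣ) (hf : IsMulCocycle₂ f)
    (hl : ak_Const₂ K F f) (n : ℕ) (w : Nat.Primes × s55_GQ) :
    ak_invP K inv w (fun x => f x ^ n) = n • ak_invP K inv w f := by
  letI : Fact (w.1 : ℕ).Prime := ⟨w.1.2⟩
  show inv (w.1 : ℕ) _ (ak_loc₂ K (w.1 : ℕ) w.2 (fun x => f x ^ n)) = _
  rw [flkr_loc₂_pow]
  exact ec_inv_pow hinv (aku_H_isOpen (w.1 : ℕ) K hK w.2)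
    (aku_loc₂_isCoc (q := (w.1 : ℕ)) (K := K) w.2 hF f hf hl) n

end inv

/-! ### Division in `ℚ/ℤ` -/

section div

theorem e2t_exists_div (p : ℕ) (hp : p ≠ 0) (t : lcf_QZ) : ∃ s : lcf_QZ, p • s = t := by
  obtain ⟨r, rfl⟩ := QuotientAddGroup.mk_surjective t
  refine ⟨QuotientAddGroup.mk (r / (p : ℚ)), ?_⟩
  rw [← QuotientAddGroup.mk_nsmul]
  congr 1
  rw [nsmul_eq_mul]
  field_simp

/-- division by `p` of a family with sum zero. -/
theorem e2t_exists_div_family {ι : Type*} [DecidableEq ι] (T : Finset ι) (t : ι → lcf_QZ)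
    (p k : ℕ) (hp : p ≠ 0) (hk : ∀ w ∈ T, (p ^ k) • t w = 0) (hsum : ∑ w ∈ T, t w = 0) :
    ∃ s : ι → lcf_QZ, (∀ w ∈ T, p • s w + t w = 0) ∧ (∀ w ∈ T, (p ^ (k + 1)) • s w = 0) ∧
      ∑ w ∈ T, s w = 0 := by
  by_cases hT : T = ∅
  · subst hT
    exact ⟨fun _ => 0, by simp, by simp, by simp⟩
  · obtain ⟨w₀, hw₀⟩ := Finset.nonempty_iff_ne_empty.2 hT
    choose d hd using fun w => e2t_exists_div p hp (- t w)
    have hd1 : ∀ w ∈ T, (p ^ (k + 1)) • d w = 0 := by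
      intro w hw
      rw [pow_succ, mul_smul, hd w, smul_neg, hk w hw, neg_zero]
    refine ⟨fun w => if w = w₀ then - ∑ w' ∈ T.erase w₀, d w' else d w, ?_, ?_, ?_⟩
    · intro w hw
      show p • (if w = w₀ then - ∑ w' ∈ T.erase w₀, d w' else d w) + t w = 0
      by_cases h : w = w₀
      · rw [if_pos h, smul_neg, Finset.smul_sum]
        rw [Finset.sum_congr rfl (fun w' _ => hd w'), Finset.sum_neg_distrib, neg_neg]
        rw [← Finset.add_sum_erase T t hw₀] at hsum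
        rw [h, add_comm]
        exact hsum
      · rw [if_neg h, hd w]
        exact neg_add_cancel _
    · intro w hw
      show (p ^ (k + 1)) • (if w = w₀ then - ∑ w' ∈ T.erase w₀, d w' else d w) = 0
      by_cases h : w = w₀
      · rw [if_pos h, smul_neg, Finset.smul_sum, neg_eq_zero]
        exact Finset.sum_eq_zero (fun w' hw' => hd1 w' (Finset.mem_of_mem_erase hw'))
      · rw [if_neg h]
        exact hd1 w hw
    · show ∑ w ∈ T, (if w = w₀ then - ∑ w' ∈ T.erase w₀, d w' else d w) = 0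
      rw [← Finset.add_sum_erase T _ hw₀, if_pos rfl]
      have : ∑ w ∈ T.erase w₀, (if w = w₀ then - ∑ w' ∈ T.erase w₀, d w' else d w) =
          ∑ w ∈ T.erase w₀, d w := by
        apply Finset.sum_congr rfl
        intro w hw
        rw [if_neg (Finset.ne_of_mem_erase hw)]
      rw [this]
      exact neg_add_cancel _

end div

end

end Fermat.Agent.S55
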