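/-
S55 (fifth wave), GLOBAL side, [E-COH] implication [E2-SURJ] (helper23).  Prefix `e2s_`.

  theorem e2s_main : ak_ExiStatement → eco_Cap2Statement → eco_E2SurjStatement

Route: [AK-EXI] for `t` gives a cocycle `f` of a `p`-level `F` (an `S`-level, as `p ∈ S` and `K`
is unramified outside `S`) with invariants `t` on `T`, `0` outside `T`; [E-CAP2] at the level
`F`: `m₀` prime to `p` and `b₂` with `u₀ := f ^ m₀ / d b₂` root-of-unity valued, invariants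
`m₀ • t`; `m' m₀ ≡ 1 mod p ^ k` where `p ^ k` kills the `t w`; `u := u₀ ^ m'`.
-/
import Mathlib
import Fermat.Agent.S55.Global.EcohDefs
import Fermat.Agent.S55.Global.EcoE2Tools
import Fermat.Agent.S55.Global.EcoAbsCore
import Fermat.Agent.S55.Global.ECohCore

set_option autoImplicit false
set_option linter.style.haveILetI false

namespace Fermat.Agent.S55

open groupCohomology

noncomputable section

local notation "Qbar" => AlgebraicClosure ℚ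

/-- a common exponent. -/
theorem e2s_common_pow {ι : Type*} (T : Finset ι) (t : ι → lcf_QZ) (p : ℕ)
    (ht : ∀ w ∈ T, ∃ k : ℕ, (p ^ k) • t w = 0) : ∃ k : ℕ, ∀ w ∈ T, (p ^ k) • t w = 0 := by
  classical
  induction T using Finset.induction_on with
  | empty => exact ⟨0, by simp⟩
  | insert a T ha ih =>
    obtain ⟨k₁, hk₁⟩ := ih (fun w hw => ht w (Finset.mem_insert_of_mem hw))
    obtain ⟨k₂, hk₂⟩ := ht a (Finset.mem_insert_self a T)
    refine ⟨k₁ + k₂, fun w hw => ?_⟩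
    rcases Finset.mem_insert.1 hw with h | hw
    · rw [h, pow_add, mul_smul, hk₂, smul_zero]
    · rw [pow_add, mul_comm, mul_smul, hk₁ w hw, smul_zero]

/-- an inverse of `m₀` modulo `p ^ k`. -/
theorem e2s_exists_inv (p : ℕ) (hp : p.Prime) (m₀ : ℕ) (hm : ¬ p ∣ m₀) (k : ℕ) :
    ∃ m' j : ℕ, m' * m₀ = 1 + j * p ^ (k + 1) := by
  have hc : Nat.Coprime m₀ (p ^ (k + 1)) :=
    Nat.Coprime.pow_right (k + 1) ((Nat.Prime.coprime_iff_not_dvd hp).2 hm).symm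
  have h1 : 1 < p ^ (k + 1) := Nat.one_lt_pow (Nat.succ_ne_zero k) hp.one_lt
  obtain ⟨m, -, hm1⟩ := Nat.exists_mul_mod_eq_one_of_coprime hc h1
  refine ⟨m, m₀ * m / p ^ (k + 1), ?_⟩
  have h2 := Nat.div_add_mod (m₀ * m) (p ^ (k + 1))
  rw [hm1] at h2
  rw [mul_comm m m₀]
  generalize m₀ * m / p ^ (k + 1) = q at h2 ⊢
  rw [← h2, add_comm, mul_comm]

section inv

variable {inv : lcf_InvType} (hinv : lcf_IsInvSystem inv) (K : IntermediateField ℚ Qbar)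
  (hK : FiniteDimensional ℚ K)

include hinv hK in
/-- the invariants of a coboundary vanish. -/
theorem e2s_inv_d₁ {F : IntermediateField ℚ Qbar} (hF : ak_IsLevel K F)
    (b : ↥K.fixingSubgroup → Qbarˣ) (hb : ak_Lev₁ K F b) (w : Nat.Primes × s55_GQ) :
    ak_invP K inv w (ak_d₁ K b) = 0 := by
  letI : Fact (w.1 : ℕ).Prime := ⟨w.1.2⟩
  show inv (w.1 : ℕ) _ (ak_loc₂ K (w.1 : ℕ) w.2 (ak_d₁ K b)) = 0
  exact (hinv.eq_zero_iff (w.1 : ℕ) _ (aku_H_isOpen (w.1 : ℕ) K hK w.2) _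
    (aku_loc₂_isCoc (q := (w.1 : ℕ)) (K := K) w.2 hF.fin (ak_d₁ K b)
      ((eah_isCoc_iff K _).2 (eah_d₂_d₁ K b)) (eah_lev₂_d₁ hF hb).1)).2
    (aku_loc₂_isCob (q := (w.1 : ℕ)) (K := K) w.2 hF.fin b hb.1)

end inv

theorem e2s_lev₁_inv (K : IntermediateField ℚ Qbar) {F : IntermediateField ℚ Qbar}
    {b : ↥K.fixingSubgroup → Qbarˣ} (hb : ak_Lev₁ K F b) :
    ak_Lev₁ K F (fun g => (b g)⁻¹) := by
  refine ⟨fun g s hs => ?_, fun g => ?_⟩
  · show (b (g * s))⁻¹ = (b g)⁻¹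
    rw [hb.1 g s hs]
  · rw [Units.val_inv_eq_inv_val]
    exact F.inv_mem (hb.2 g)

/-- **[E2-SURJ]** -/
theorem e2s_main : ak_ExiStatement → eco_Cap2Statement → eco_E2SurjStatement := by
  classical
  intro hE hC inv hinv p S K hset T hT hTS t ht hsum
  have hK : FiniteDimensional ℚ K := hset.unr.1
  have hp := hset.prime
  obtain ⟨F, hL, hpl, hunr, f, hf, hlev, hfT, hfO⟩ :=
    hE inv hinv p hp hset.odd K hK hset.zeta T hT t ht hsum
  have hF : eco_SLevel p S K F := ⟨hL, hunr S (hset.mem ⟨p, hp⟩ rfl) hset.unr, hpl⟩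
  obtain ⟨m₀, hm₀, hpm₀, hcap⟩ := hC inv hinv p S K F hset hF
  have hOS : ∀ w : Nat.Primes × s55_GQ, w.1 ∉ S → ak_Outside K T w := by
    intro w hw w₀ hw₀ hsame
    exact hw (hsame.1 ▸ hTS w₀ hw₀)
  obtain ⟨F', b₂, hFF', hF', hb₂, hroot⟩ := hcap f hf hlev (fun w hw => hfO w (hOS w hw))
  obtain ⟨k, hk⟩ := e2s_common_pow T t p ht
  obtain ⟨m', j, hm'⟩ := e2s_exists_inv p hp m₀ hpm₀ k
  have hb₂' := e2s_lev₁_inv K hb₂
  have hd_coc : IsMulCocycle₂ (ak_d₁ K (fun g => (b₂ g)⁻¹)) :=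
    (eah_isCoc_iff K _).2 (eah_d₂_d₁ K _)
  have hd_lev : ak_Lev₂ K F' (ak_d₁ K (fun g => (b₂ g)⁻¹)) := eah_lev₂_d₁ hF'.lev hb₂'
  have hfm : IsMulCocycle₂ (fun x => f x ^ m₀) := e2t_coc_pow hf m₀
  have hfml : ak_Lev₂ K F (fun x => f x ^ m₀) := e2t_lev₂_pow K hlev m₀
  have hu₀ : IsMulCocycle₂ (fun x => f x ^ m₀ * ak_d₁ K (fun g => (b₂ g)⁻¹) x) :=
    e2t_coc_mul hfm hd_coc
  have hlev₀ : ak_Lev₂ K F' (fun x => f x ^ m₀ * ak_d₁ K (fun g => (b₂ g)⁻¹) x) :=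
    e2t_lev₂_mul K (e2t_lev₂_mono K hFF' hfml) hd_lev
  have hroot₀ : ∀ x, eco_IsRoot p (f x ^ m₀ * ak_d₁ K (fun g => (b₂ g)⁻¹) x) := by
    intro x
    rw [ec_d₁_inv, ← div_eq_mul_inv]
    exact hroot x
  have hinv₀ : ∀ w, ak_invP K inv w (fun x => (f x ^ m₀ * ak_d₁ K (fun g => (b₂ g)⁻¹) x) ^ m') =
      (m' * m₀) • ak_invP K inv w f := by
    intro w
    rw [e2t_inv_pow hinv K hK hF'.lev.fin _ hu₀ hlev₀.1 m' w,
      e2t_inv_mul hinv K hK hF.lev.fin hF'.lev.fin (fun x => f x ^ m₀)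
        (ak_d₁ K (fun g => (b₂ g)⁻¹)) hfm hd_coc hfml.1 hd_lev.1 w,
      e2t_inv_pow hinv K hK hF.lev.fin f hf hlev.1 m₀ w,
      e2s_inv_d₁ hinv K hK hF'.lev _ hb₂' w, add_zero, mul_smul]
  refine ⟨F', fun x => (f x ^ m₀ * ak_d₁ K (fun g => (b₂ g)⁻¹) x) ^ m', hF',
    e2t_coc_pow hu₀ m', e2t_lev₂_pow K hlev₀ m', fun x => ?_, fun w hw => ?_, fun w hw => ?_⟩
  · obtain ⟨a, ha⟩ := hroot₀ x
    exact ⟨a, by rw [← pow_mul, mul_comm m' (p ^ a), pow_mul, ha, one_pow]⟩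
  · rw [hinv₀ w, hfT w hw, hm', add_smul, one_smul, mul_smul, pow_succ', mul_smul, hk w hw,
      smul_zero, smul_zero, add_zero]
  · rw [hinv₀ w, hfO w hw, smul_zero]

end

end Fermat.Agent.S55
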