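/-
S55 (fifth wave), GLOBAL side, [E-COH] implication [E-DIV] (helper23).  Prefix `ediv_`.

  theorem ediv_main : ak_RecipStatement → eco_E2SurjStatement → eco_E2InjStatement →
      eco_EDivStatement

Route: `T` := representatives of the places of `K` above `S` (`erep_main`); the invariants of
`κ` vanish outside `S` (`aku_main`), have `p`-power order (`flkr_ppow`) and sum zero over `T`
([AK-RECIP]); `p • s_w + t_w = 0`, `Σ s_w = 0` (`e2t_exists_div_family`); [E2-SURJ] gives a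
root-of-unity valued cocycle `γ₁` with invariants `s`; `κ · γ₁ ^ p` has all invariants zero
(`akc_main` for the places which are not in `T`), so it is `d e` by [E2-INJ]; `γ := γ₁⁻¹`.
-/
import Mathlib
import Fermat.Agent.S55.Global.EcohDefs
import Fermat.Agent.S55.Global.EcoE2Tools
import Fermat.Agent.S55.Global.EcoE2Inj
import Fermat.Agent.S55.Global.EcoReps
import Fermat.Agent.S55.Global.EcoSup
import Fermat.Agent.S55.Global.AkConj
import Fermat.Agent.S55.Global.AkUnr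

set_option autoImplicit false
set_option linter.style.haveILetI false

namespace Fermat.Agent.S55

open groupCohomology

noncomputable section

local notation "Qbar" => AlgebraicClosure ℚ

/-- **[E-DIV]** -/
theorem ediv_main : ak_RecipStatement → eco_E2SurjStatement → eco_E2InjStatement →
    eco_EDivStatement := by
  classical
  intro hR hSurj hInj inv hinv p S K F hset hF κ hκ hlev hunit
  have hK : FiniteDimensional ℚ K := hset.unr.1
  have hp := hset.prime
  obtain ⟨T, hT, hTS, hTrep⟩ := erep_main K hK S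
  -- the invariants of `κ` vanish outside `S`
  have hout : ∀ w : Nat.Primes × s55_GQ, w.1 ∉ S → ak_invP K inv w κ = 0 := by
    intro w hw
    letI : Fact (w.1 : ℕ).Prime := ⟨w.1.2⟩
    exact aku_main inv hinv K F hK hF.lev (w.1 : ℕ) (ak_unramAt_of_outside hF.unr w.1 hw) κ hκ
      hlev (fun x => hunit x w.1 hw) w.2
  have hOut : ∀ w', ak_Outside K T w' → w'.1 ∉ S := by
    intro w' hw' hS
    obtain ⟨w, hwT, hsame⟩ := hTrep w' hS
    exact hw' w hwT hsame
  have hpp := e2i_pprim K F hF.lev p hF.pl κ hκ hlev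
  have hsum := hR inv hinv p hp hset.odd K F hK hF.lev κ hκ hlev hpp T hT
    (fun w' hw' => hout w' (hOut w' hw'))
  obtain ⟨k, hk⟩ := flkr_ppow hinv K hK F hF.lev κ hκ hlev p hpp
  obtain ⟨s, hs1, hs2, hs3⟩ := e2t_exists_div_family T (fun w => ak_invP K inv w κ) p k
    hp.ne_zero (fun w _ => hk w) hsum
  obtain ⟨F₁, γ₁, hF₁, hγ₁, hlev₁, hroot, hinvT, hinvO⟩ := hSurj inv hinv p S K hset T hT hTS s
    (fun w hw => ⟨k + 1, hs2 w hw⟩) hs3
  have hF₂ := esup_main p S K F F₁ hp hF hF₁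
  have hu' : IsMulCocycle₂ (fun x => κ x * γ₁ x ^ p) := e2t_coc_mul hκ (e2t_coc_pow hγ₁ p)
  have hlev' : ak_Lev₂ K (F ⊔ F₁) (fun x => κ x * γ₁ x ^ p) :=
    e2t_lev₂_mul K (e2t_lev₂_mono K le_sup_left hlev)
      (e2t_lev₂_pow K (e2t_lev₂_mono K le_sup_right hlev₁) p)
  have hunit' : ∀ x, ak_IsSUnit S (κ x * γ₁ x ^ p) := fun x =>
    e2t_sunit_mul S (hunit x) (e2t_sunit_pow S (e2t_root_sunit p hp S _ (hroot x)) p)
  have h1 : ∀ w, ak_invP K inv w (fun x => κ x * γ₁ x ^ p) =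
      ak_invP K inv w κ + p • ak_invP K inv w γ₁ := by
    intro w
    rw [e2t_inv_mul hinv K hK hF.lev.fin hF₁.lev.fin κ (fun x => γ₁ x ^ p) hκ
      (e2t_coc_pow hγ₁ p) hlev.1 (e2t_lev₂_pow K hlev₁ p).1 w,
      e2t_inv_pow hinv K hK hF₁.lev.fin γ₁ hγ₁ hlev₁.1 p w]
  have hT0 : ∀ w ∈ T, ak_invP K inv w (fun x => κ x * γ₁ x ^ p) = 0 := by
    intro w hw
    rw [h1 w, hinvT w hw, add_comm]
    exact hs1 w hw
  have hinv' : ∀ w, ak_invP K inv w (fun x => κ x * γ₁ x ^ p) = 0 := by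
    intro w
    by_cases hwS : w.1 ∈ S
    · obtain ⟨w₀, hw₀T, hsame⟩ := hTrep w hwS
      rw [← akc_main inv hinv K (F ⊔ F₁) hK hF₂.lev _ hu' hlev' w₀ w hsame]
      exact hT0 w₀ hw₀T
    · have hO : ak_Outside K T w := by
        intro w₀ hw₀ hsame
        exact hwS (hsame.1 ▸ hTS w₀ hw₀)
      rw [h1 w, hout w hwS, hinvO w hO, smul_zero, add_zero]
  obtain ⟨F', e, hFF', hF', he, heu, hde⟩ := hInj inv hinv p S K (F ⊔ F₁) hset hF₂ _ hu' hlev'
    hunit' hinv'
  refine ⟨F', fun x => (γ₁ x)⁻¹, e, le_sup_left.trans hFF', hF', e2t_coc_inv hγ₁,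
    e2t_lev₂_inv K (e2t_lev₂_mono K (le_sup_right.trans hFF') hlev₁),
    fun x => e2t_sunit_inv S (e2t_root_sunit p hp S _ (hroot x)), he, heu, fun x => ?_⟩
  rw [hde x]
  show κ x = (γ₁ x)⁻¹ ^ p * (κ x * γ₁ x ^ p)
  rw [inv_pow, mul_comm (κ x), ← mul_assoc, inv_mul_cancel, one_mul]

end

end Fermat.Agent.S55
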