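/-
S55 (wave 5), GLOBAL side part 3, leaves [E-LOCOB] / [E-OBINV]: the LOCAL core (helper5).
Prefix `elo_`.

Setting: `V' ≤ V` open subgroups of `Γ = Gal(Ω/ℚ_q)`, `V'` normal in `V` (helper2's `splc_Hyp`),
every inert element of `Γ` lies in `V'` (so `K_{V'}` is unramified over `ℚ_q`).

* `elo_inj`   : injectivity of the inflation `H²(V/V', K_{V'}ˣ) → Br(K_V)` for smooth cochains
                (relative form of `lh3_inj`);
* `elo_qval`  : an element of `Ωˣ` fixed by inertia has its norm in `q ^ ℤ`;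
* `elo_local` : if `G` is inflated from `V/V'`, `inv G = 0` and `d B = G ^ n`, then
                `‖B τ‖ ∈ q ^ (n ℤ)` for all `τ ∈ V`.
-/
import Fermat.Agent.S55.Local.SplCount
import Fermat.Agent.S55.Local.SplUrVal
import Fermat.Agent.S55.Local.H3OmegaInj
import Fermat.Agent.S55.Local.H3Mu
import Fermat.Agent.S55.Local.SplitAsm

set_option autoImplicit false

noncomputable section

namespace Fermat.Agent.S55

open groupCohomology

attribute [local instance] l3d_galAct

variable {q : ℕ} [Fact q.Prime]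

/-! ### injectivity of the inflation, relative form -/

/-- A finite normal level gives standing hypotheses for every `U` containing it. -/
theorem elo_hyp_fix (U : Subgroup (lcf_Gal q)) (E : IntermediateField ℚ_[q] (PadicAlgCl q))
    [Normal ℚ_[q] ↥E] (hE : FiniteDimensional ℚ_[q] ↥E) (hEU : E.fixingSubgroup ≤ U) :
    splc_Hyp U E.fixingSubgroup :=
  ⟨hEU, ⟨E, hE, le_rfl⟩, fun g _ s hs => by
    have h := lh3m_conj_mem E g⁻¹ s hs
    rwa [inv_inv] at h⟩

/-- **Injectivity of the inflation** (relative form): a cocycle of `Gal(K_{U'}/K_U)` whose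
inflation is a smooth coboundary is a coboundary. -/
theorem elo_inj {U U' : Subgroup (lcf_Gal q)} (H : splc_Hyp U U')
    (c : (↥(splc_F H.le) ≃ₐ[↥(splc_K U)] ↥(splc_F H.le)) ×
      (↥(splc_F H.le) ≃ₐ[↥(splc_K U)] ↥(splc_F H.le)) → Additive (↥(splc_F H.le))ˣ)
    (hc : IsCocycle₂ c)
    (hcob : lcf_IsCob U (fun p => Additive.toMul (fgI_inf₂ (splc_D H) c p))) :
    IsCoboundary₂ c := by
  obtain ⟨b, hbs, hb⟩ := hcob
  obtain ⟨E₀, hE₀, hE₀U'⟩ := H.open'
  obtain ⟨E, hN, hF, hle, hinv', hval'⟩ := lh3_level₁ U b hbs E₀ hE₀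
  have hEU' : E.fixingSubgroup ≤ U' :=
    (IntermediateField.fixingSubgroup_antitone hle).trans hE₀U'
  have H'' : splc_Hyp U E.fixingSubgroup := elo_hyp_fix U E hF (hEU'.trans H.le)
  have hfin : FiniteDimensional ↥(splc_K U) ↥(splc_F H''.le) := splc_finite H''
  have hker : (splc_D H'').π.ker ≤ (splc_D H).π.ker := by
    intro s hs
    rw [MonoidHom.mem_ker, splc_D_π] at hs ⊢
    exact (splc_pi_eq_one_iff H s).2 (hEU' ((splc_pi_eq_one_iff H'' s).1 hs))
  obtain ⟨c', hc'⟩ := lh3_descend₁ (splc_D H'') (fun g => Additive.ofMul (b g))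
    (fun g s hs => congrArg Additive.ofMul
      (hinv' g s ((splc_pi_eq_one_iff H'' s).1 hs)))
    (fun g => (splc_D H'').ι_range _ (fun h hh => by
      have hmem := (splc_pi_eq_one_iff H'' h).1 hh
      apply Additive.toMul.injective
      apply Units.ext
      exact (IntermediateField.mem_fixingSubgroup_iff _ _).1 hmem _ (hval' g)))
  have hcob' : IsCoboundary₂ (fgI_inf₂ (lh3_quot (splc_D H) (splc_D H'') hker) c) := by
    refine ⟨c', lh3_cob_of_inf (splc_D H'') _ c' fun g h => ?_⟩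
    rw [hc', lh3_inf₂_quot]
    exact congrArg Additive.ofMul (hb g h)
  exact fgI_inj_aux _ (lh3_H1Zero (MonoidHom.id _) Function.injective_id (fun _ _ => rfl) _)
    c hc hcob'

/-! ### the value group of the maximal unramified extension of `ℚ_q` -/

/-- An element of `Ωˣ` which is fixed by all inert elements has its norm in `q ^ ℤ`. -/
theorem elo_qval (x : (PadicAlgCl q)ˣ)
    (hx : ∀ s : lcf_Gal q, lcf_IsInert s → s (x : PadicAlgCl q) = x) :
    ∃ v : ℤ, ‖(x : PadicAlgCl q)‖ = (q : ℝ) ^ (-v) := by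
  obtain ⟨y, hy0, hyfix, hxy⟩ := unr_abs_urVal (⊤ : Subgroup (lcf_Gal q))
    ⟨⊥, inferInstance, le_top⟩ (x : PadicAlgCl q) x.ne_zero (fun s hs => hx _ hs)
  have hybot : y ∈ (⊥ : IntermediateField ℚ_[q] (PadicAlgCl q)) :=
    (InfiniteGalois.mem_bot_iff_fixed y).2 (fun g => hyfix ⟨g, Subgroup.mem_top g⟩)
  obtain ⟨y₀, rfl⟩ := IntermediateField.mem_bot.1 hybot
  have hy₀ : y₀ ≠ 0 := by
    rintro rfl
    exact hy0 (map_zero _)
  refine ⟨y₀.valuation, ?_⟩
  rw [hxy, PadicAlgCl.norm_extends, Padic.norm_eq_zpow_neg_valuation hy₀]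

/-! ### the local obstruction -/

theorem elo_smooth₁_map₂ {X Y Z : Type*} {U : Subgroup (lcf_Gal q)} {b : ↥U → X} {b' : ↥U → Y}
    (hb : lcf_Smooth₁ U b) (hb' : lcf_Smooth₁ U b') (F : X → Y → Z) :
    lcf_Smooth₁ U (fun g => F (b g) (b' g)) := by
  obtain ⟨E, hE, h⟩ := hb
  obtain ⟨E', hE', h'⟩ := hb'
  have : FiniteDimensional ℚ_[q] ↥E := hE
  have : FiniteDimensional ℚ_[q] ↥E' := hE'
  refine ⟨E ⊔ E', IntermediateField.finiteDimensional_sup E E', fun g s hs => ?_⟩
  show F (b (g * s)) (b' (g * s)) = F (b g) (b' g)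
  rw [h g s (IntermediateField.fixingSubgroup_antitone le_sup_left hs),
    h' g s (IntermediateField.fixingSubgroup_antitone le_sup_right hs)]

/-- the cocycle identity for `B / β ^ n` (commutative group algebra). -/
theorem elo_coc_alg {M : Type*} [CommGroup M] (a b c a' b' c' : M) (n : ℕ)
    (h : a / b * c = (a' / b' * c') ^ n) : b / b' ^ n = a / a' ^ n * (c / c' ^ n) := by
  have hb : b = a * c / (a' / b' * c') ^ n := by
    rw [← h]
    apply Additive.ofMul.injective
    simp only [ofMul_mul, ofMul_div]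
    abel
  rw [hb]
  apply Additive.ofMul.injective
  simp only [ofMul_mul, ofMul_div, ofMul_pow, smul_add, smul_sub]
  abel

/-- **The local obstruction**: if the cocycle `G` of `V` is inflated from the unramified level
`V/V'`, has invariant `0`, and `d B = G ^ n` with `B` smooth, then `‖B τ‖ ∈ q ^ (n ℤ)`. -/
theorem elo_local {inv : lcf_InvType} (hinv : lcf_IsInvSystem inv) {V V' : Subgroup (lcf_Gal q)}
    (H : splc_Hyp V V') (hin : ∀ s : lcf_Gal q, lcf_IsInert s → s ∈ V') (n : ℕ)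
    (G : ↥V × ↥V → (PadicAlgCl q)ˣ) (B : ↥V → (PadicAlgCl q)ˣ) (hG : IsMulCocycle₂ G)
    (hGi : spl_IsInfl V V' G) (hBs : lcf_Smooth₁ V B)
    (hd : ∀ x y : ↥V, x • B y / B (x * y) * B x = G (x, y) ^ n)
    (h0 : inv q V G = 0) (τ : ↥V) :
    ∃ m : ℤ, ‖((B τ : (PadicAlgCl q)ˣ) : PadicAlgCl q)‖ = (q : ℝ) ^ (-((n : ℤ) * m)) := by
  have hV : lcf_IsOpen V := H.openU
  have hGc : lcf_IsCoc V G := ⟨hG, spl_isInfl_smooth H.open' hGi⟩
  have hcob : lcf_IsCob V G := (hinv.eq_zero_iff q V hV G hGc).1 h0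
  obtain ⟨c, hc, hcG⟩ := splc_exists_of_infl H hG hGi
  have hcob2 : lcf_IsCob V (fun p => Additive.toMul (fgI_inf₂ (splc_D H) c p)) := by
    have e : (fun p => Additive.toMul (fgI_inf₂ (splc_D H) c p)) = G := by
      funext p
      obtain ⟨g, h⟩ := p
      exact (congrArg Additive.toMul (hcG g h)).symm
    rw [e]
    exact hcob
  obtain ⟨β', hβ'⟩ := elo_inj H c hc hcob2
  have hβG : ∀ x y : ↥V, x • Additive.toMul ((splc_D H).ι (β' (splc_pi H y))) /
      Additive.toMul ((splc_D H).ι (β' (splc_pi H (x * y)))) *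
      Additive.toMul ((splc_D H).ι (β' (splc_pi H x))) = G (x, y) := by
    intro x y
    have e := congrArg (fun a => Additive.toMul ((splc_D H).ι a))
      (hβ' (splc_pi H x) (splc_pi H y))
    simp only [map_add, map_sub] at e
    rw [show (splc_D H).ι (splc_pi H x • β' (splc_pi H y)) =
      x • (splc_D H).ι (β' (splc_pi H y)) from (splc_D H).ι_smul x _] at e
    have e3 : Additive.toMul ((splc_D H).ι (c (splc_pi H x, splc_pi H y))) = G (x, y) :=
      (congrArg Additive.toMul (hcG x y)).symm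
    rw [← e3, ← e, map_mul]
    rfl
  have hβfix : ∀ (g : ↥V) (s : lcf_Gal q), s ∈ V' →
      s ((Additive.toMul ((splc_D H).ι (β' (splc_pi H g))) : (PadicAlgCl q)ˣ) : PadicAlgCl q) =
        ((Additive.toMul ((splc_D H).ι (β' (splc_pi H g))) : (PadicAlgCl q)ˣ) :
          PadicAlgCl q) := by
    intro g s hs
    have h1 : splc_pi H ⟨s, H.le hs⟩ = 1 := (splc_pi_eq_one_iff H _).2 hs
    have e := (splc_D H).ι_smul ⟨s, H.le hs⟩ (β' (splc_pi H g))
    rw [splc_D_π, h1, one_smul] at e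
    exact (congrArg (fun a : Additive (PadicAlgCl q)ˣ =>
      ((Additive.toMul a : (PadicAlgCl q)ˣ) : PadicAlgCl q)) e).symm
  have hβs : lcf_Smooth₁ V (fun g => (Additive.toMul ((splc_D H).ι (β' (splc_pi H g))) :
      (PadicAlgCl q)ˣ)) := by
    obtain ⟨E, hE, hEV'⟩ := H.open'
    refine ⟨E, hE, fun g s hs => ?_⟩
    show Additive.toMul ((splc_D H).ι (β' (splc_pi H (g * s)))) = _
    rw [map_mul, (splc_pi_eq_one_iff H s).2 (hEV' hs), mul_one]
  obtain ⟨v, hv⟩ := elo_qval (Additive.toMul ((splc_D H).ι (β' (splc_pi H τ))))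
    (fun s hs => hβfix τ s (hin s hs))
  have hCs : lcf_Smooth₁ V (fun g => B g /
      (Additive.toMul ((splc_D H).ι (β' (splc_pi H g))) : (PadicAlgCl q)ˣ) ^ n) :=
    elo_smooth₁_map₂ hBs hβs (fun a b => a / b ^ n)
  have hC : IsMulCocycle₁ (fun g => B g /
      (Additive.toMul ((splc_D H).ι (β' (splc_pi H g))) : (PadicAlgCl q)ˣ) ^ n) := by
    intro x y
    have h1 := hd x y
    rw [← hβG x y] at h1
    have h2 := elo_coc_alg _ _ _ _ _ _ n h1
    show B (x * y) / _ = x • (B y / _) * (B x / _)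
    rw [smul_div', smul_pow']
    exact h2
  obtain ⟨z, hz⟩ := lh90_main q V hV _ hC hCs
  refine ⟨v, ?_⟩
  have h3 : B τ = τ • z / z *
      (Additive.toMul ((splc_D H).ι (β' (splc_pi H τ))) : (PadicAlgCl q)ˣ) ^ n := by
    rw [← hz τ, div_mul_cancel]
  have h4 : ‖((τ • z : (PadicAlgCl q)ˣ) : PadicAlgCl q)‖ = ‖(z : PadicAlgCl q)‖ :=
    unr_abs_norm_map (τ : lcf_Gal q) z
  have hz0 : ‖(z : PadicAlgCl q)‖ ≠ 0 := norm_ne_zero_iff.2 z.ne_zero
  rw [h3, Units.val_mul, norm_mul, Units.val_pow_eq_pow_val, norm_pow, hv,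
    Units.val_div_eq_div_val, norm_div, h4, div_self hz0, one_mul, ← zpow_natCast, ← zpow_mul]
  congr 1
  ring

end Fermat.Agent.S55
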