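/-
S55 (wave 5), GLOBAL side part 3, leaf [E-LOCOB] (helper5).  Prefix `elo_`.

`elo_main : eco_LocObStatement` : if the cocycle `g₂` of a level `F` unramified at `q` has
invariant `0` at the place `w = (q, g₀)` and `d b₁ = g₂ ^ n`, then `n ∣ ord_w (b₁ σ)` for every
`σ` in the decomposition group of `w`.  (Localisation along helper1's `aku_` dictionary and the
local core `elo_local`.)
-/
import Fermat.Agent.S55.Global.EcoLocObRel
import Fermat.Agent.S55.Global.AkUnr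
import Fermat.Agent.S55.Global.EcohDefs

set_option autoImplicit false

noncomputable section

namespace Fermat.Agent.S55

open groupCohomology

local notation "Qbar" => AlgebraicClosure ℚ

/-- The standing hypotheses at a place of a level. -/
theorem elo_hyp_place (q : ℕ) [Fact q.Prime] {K F : IntermediateField ℚ Qbar}
    (hlevel : ak_IsLevel K F) (g₀ : s55_GQ) : splc_Hyp (ak_H K q g₀) (ak_H F q g₀) :=
  ⟨(aku_normalIn g₀ hlevel).1, aku_H_isOpen q F hlevel.fin g₀,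
    fun g hg s hs => (aku_normalIn g₀ hlevel).2 g hg s hs⟩

/-- The localisation of `d b₁ = g₂ ^ n`. -/
theorem elo_loc_pow (q : ℕ) [Fact q.Prime] (K : IntermediateField ℚ Qbar) (g₀ : s55_GQ) (n : ℕ)
    (g₂ : ↥K.fixingSubgroup × ↥K.fixingSubgroup → Qbarˣ) (b₁ : ↥K.fixingSubgroup → Qbarˣ)
    (hd : ∀ x, ak_d₁ K b₁ x = g₂ x ^ n) (x y : ↥(ak_H K q g₀)) :
    x • ak_loc₁ K q g₀ b₁ y / ak_loc₁ K q g₀ b₁ (x * y) * ak_loc₁ K q g₀ b₁ x =
      ak_loc₂ K q g₀ g₂ (x, y) ^ n := by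
  rw [aku_loc₂_d₁]
  show ak_emb q g₀ (ak_d₁ K b₁ (ak_r K q g₀ x, ak_r K q g₀ y)) =
    ak_emb q g₀ (g₂ (ak_r K q g₀ x, ak_r K q g₀ y)) ^ n
  rw [hd, map_pow]

/-- **[E-LOCOB]** -/
theorem elo_main : eco_LocObStatement := by
  intro inv hinv K F hK hlevel w hunr n g₂ b₁ hg₂ hlev₂ hlev₁ hd h0 σ hσ
  obtain ⟨q, g₀⟩ := w
  have hq : Fact (q : ℕ).Prime := ⟨q.2⟩
  obtain ⟨τ, hτ⟩ := hσ
  obtain ⟨m, hm⟩ := elo_local hinv (elo_hyp_place (q : ℕ) hlevel g₀)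
    (fun s hs => aku_inert_mem (q : ℕ) F hunr g₀ s hs) n (ak_loc₂ K (q : ℕ) g₀ g₂)
    (ak_loc₁ K (q : ℕ) g₀ b₁) (aku_loc₂_isMulCocycle K g₀ g₂ hg₂) (aku_loc₂_infl g₀ g₂ hlev₂)
    (aku_loc₁_smooth g₀ hlevel.fin b₁ hlev₁.1) (elo_loc_pow (q : ℕ) K g₀ n g₂ b₁ hd) h0 τ
  refine ⟨m, ?_⟩
  rw [← hτ]
  exact hm

end Fermat.Agent.S55
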