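/-
S55 (wave 5), GLOBAL side part 3, leaf [E-OBINV]: the LOCAL core (helper5).  Prefix `eoi_`.

Setting as in `EcoLocObRel.lean`.  If `G` is a cocycle of `V` inflated from the unramified level
`V/V'`, `d B = G ^ n` (`n > 0`), `φ` is a Frobenius element of `V` and `‖B φ‖ = q ^ (-m)`, then
`inv G = m / n`.

Proof: `n • inv G = 0`, so `inv G = j / n`; for the normalised unramified cocycle `c₀ = q ^ δθ`
of order `n` ((I4): `inv c₀ = 1 / n`) one has `c₀ ^ n = d b₀`, `b₀ g = q ^ (θ g)`; the cocycle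
`G / c₀ ^ j` has invariant `0` and `d (B / b₀ ^ j) = (G / c₀ ^ j) ^ n`, so
`‖B φ‖ / ‖b₀ φ‖ ^ j ∈ q ^ (n ℤ)` by `elo_local`.
-/
import Fermat.Agent.S55.Global.EcoLocObRel
import Fermat.Agent.S55.Local.H3OmegaFund
import Fermat.Agent.S55.Local.UnrClassFin
import Fermat.Agent.S55.Local.UnrInjAux
import Fermat.Agent.S55.UnrAbs4

set_option autoImplicit false

noncomputable section

namespace Fermat.Agent.S55

open groupCohomology

variable {q : ℕ} [Fact q.Prime]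

/-! ### `q` as a uniformizer -/

/-- The prime `q` as an element of `Ωˣ`. -/
def eoi_qu (q : ℕ) [Fact q.Prime] : (PadicAlgCl q)ˣ :=
  Units.mk0 ((q : ℕ) : PadicAlgCl q) (by exact_mod_cast (Fact.out : q.Prime).ne_zero)

theorem eoi_qu_val : ((eoi_qu q : (PadicAlgCl q)ˣ) : PadicAlgCl q) = ((q : ℕ) : PadicAlgCl q) :=
  rfl

theorem eoi_qu_norm : ‖((eoi_qu q : (PadicAlgCl q)ˣ) : PadicAlgCl q)‖ = ((q : ℕ) : ℝ)⁻¹ := by
  have h1 : ((q : ℕ) : PadicAlgCl q) = algebraMap ℚ_[q] (PadicAlgCl q) ((q : ℕ) : ℚ_[q]) := by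
    rw [map_natCast]
  rw [eoi_qu_val, h1, PadicAlgCl.norm_extends, Padic.norm_p]

theorem eoi_qu_fix (g : lcf_Gal q) : g ((eoi_qu q : (PadicAlgCl q)ˣ) : PadicAlgCl q) =
    ((eoi_qu q : (PadicAlgCl q)ˣ) : PadicAlgCl q) := by
  rw [eoi_qu_val, map_natCast]

theorem eoi_qu_smul (V : Subgroup (lcf_Gal q)) (g : ↥V) : g • eoi_qu q = eoi_qu q :=
  Units.ext (eoi_qu_fix (g : lcf_Gal q))

theorem eoi_q_gt_one : (1 : ℝ) < ((q : ℕ) : ℝ) := by
  exact_mod_cast (Fact.out : q.Prime).one_lt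

/-- If all inert elements lie in `V`, then `q` is a uniformizer of the fixed field of `V`. -/
theorem eoi_qu_isUnif (V : Subgroup (lcf_Gal q))
    (hin : ∀ s : lcf_Gal q, lcf_IsInert s → s ∈ V) : lcf_IsUnif V (eoi_qu q) := by
  have hq1 := eoi_q_gt_one (q := q)
  refine ⟨fun g => eoi_qu_smul V g, ?_, fun x hx => ?_⟩
  · rw [eoi_qu_norm]
    exact inv_lt_one_of_one_lt₀ hq1
  · obtain ⟨v, hv⟩ := elo_qval x (fun s hs => by
      have := congrArg (fun u : (PadicAlgCl q)ˣ => (u : PadicAlgCl q)) (hx ⟨s, hin s hs⟩)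
      exact this)
    refine ⟨v, ?_⟩
    rw [hv, eoi_qu_norm, inv_zpow, zpow_neg]

/-! ### inflated cochains -/

theorem eoi_isInfl_mono {U U' U'' : Subgroup (lcf_Gal q)} (h : U'' ≤ U')
    {f : ↥U × ↥U → (PadicAlgCl q)ˣ} (hf : spl_IsInfl U U' f) : spl_IsInfl U U'' f :=
  ⟨fun g k s s' hs hs' => hf.1 g k s s' (h hs) (h hs'), fun g k s hs => hf.2 g k s (h hs)⟩

theorem eoi_isInfl_div {U U' : Subgroup (lcf_Gal q)} {f f' : ↥U × ↥U → (PadicAlgCl q)ˣ}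
    (hf : spl_IsInfl U U' f) (hf' : spl_IsInfl U U' f') : spl_IsInfl U U' (f / f') := by
  refine ⟨fun g k s s' hs hs' => ?_, fun g k s hs => ?_⟩
  · simp only [Pi.div_apply]
    rw [hf.1 g k s s' hs hs', hf'.1 g k s s' hs hs']
  · simp only [Pi.div_apply]
    rw [smul_div', hf.2 g k s hs, hf'.2 g k s hs]

theorem eoi_isOpen_inf {U U' : Subgroup (lcf_Gal q)} (hU : lcf_IsOpen U) (hU' : lcf_IsOpen U') :
    lcf_IsOpen (U ⊓ U') := by
  obtain ⟨E, hE, h⟩ := hU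
  obtain ⟨E', hE', h'⟩ := hU'
  have : FiniteDimensional ℚ_[q] ↥E := hE
  have : FiniteDimensional ℚ_[q] ↥E' := hE'
  exact ⟨E ⊔ E', IntermediateField.finiteDimensional_sup E E', fun s hs =>
    ⟨h (IntermediateField.fixingSubgroup_antitone le_sup_left hs),
      h' (IntermediateField.fixingSubgroup_antitone le_sup_right hs)⟩⟩

/-! ### the cochain `b₀` with `d b₀ = c₀ ^ n` -/

/-- `d (g ↦ a ^ (θ g)) = (a ^ δθ) ^ n` for `a` fixed by `U`. -/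
theorem eoi_d_pow {U : Subgroup (lcf_Gal q)} {n : ℕ} [NeZero n]
    (θ : ↥U →* Multiplicative (ZMod n)) {a : (PadicAlgCl q)ˣ} (ha : ∀ g : ↥U, g • a = a)
    (x y : ↥U) :
    x • a ^ sym_t θ y / a ^ sym_t θ (x * y) * a ^ sym_t θ x = lcf_unrCoc U n θ a (x, y) ^ n := by
  rw [sym_unrCoc_apply, sym_smul_pow ha, sym_t_mul, ← pow_mul, div_mul_eq_mul_div, ← pow_add,
    div_eq_iff_eq_mul, ← pow_add]
  congr 1
  have := Nat.div_add_mod (sym_t θ x + sym_t θ y) n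
  rw [mul_comm] at this
  omega

/-- the algebra of `d (B / b₀ ^ j) = (G / c₀ ^ j) ^ n`. -/
theorem eoi_div_alg {M : Type*} [CommGroup M] (a b c a' b' c' G C : M) (n j : ℕ)
    (h : a / b * c = G ^ n) (h' : a' / b' * c' = C ^ n) :
    (a / a' ^ j) / (b / b' ^ j) * (c / c' ^ j) = (G / C ^ j) ^ n := by
  have e : (a / a' ^ j) / (b / b' ^ j) * (c / c' ^ j) = (a / b * c) / (a' / b' * c') ^ j := by
    apply Additive.ofMul.injective
    simp only [ofMul_mul, ofMul_div, ofMul_pow, smul_add, smul_sub]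
    abel
  rw [e, h, h', div_pow, ← pow_mul, ← pow_mul, mul_comm n j]

/-! ### `ℚ/ℤ` -/

theorem eoi_qz_nat (n : ℕ) (hn : 0 < n) (t : lcf_QZ) (ht : n • t = 0) :
    ∃ j : ℕ, t = j • lcf_qz (1 / (n : ℚ)) := by
  obtain ⟨m, hm⟩ := lh3_qz_of_nsmul n hn.ne' t ht
  have hn' : (0 : ℤ) < (n : ℤ) := by exact_mod_cast hn
  refine ⟨(m % (n : ℤ)).toNat, ?_⟩
  have h1 : (((m % (n : ℤ)).toNat : ℕ) : ℤ) = m % (n : ℤ) :=
    Int.toNat_of_nonneg (Int.emod_nonneg m hn'.ne')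
  have h2 : m = (m % (n : ℤ)) + (m / (n : ℤ)) * (n : ℤ) := by
    have := Int.emod_add_mul_ediv m (n : ℤ)
    rw [mul_comm] at this
    exact this.symm
  rw [hm, ← natCast_zsmul, h1]
  conv_lhs => rw [h2]
  rw [add_smul, mul_smul, natCast_zsmul, lh3_qz_nsmul_self n hn.ne', smul_zero, add_zero]

/-- **The invariant from the obstruction** (local form). -/
theorem eoi_local {inv : lcf_InvType} (hinv : lcf_IsInvSystem inv) {V V' : Subgroup (lcf_Gal q)}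
    (H : splc_Hyp V V') (hin : ∀ s : lcf_Gal q, lcf_IsInert s → s ∈ V') (n : ℕ) (hn : 0 < n)
    (G : ↥V × ↥V → (PadicAlgCl q)ˣ) (B : ↥V → (PadicAlgCl q)ˣ) (hG : IsMulCocycle₂ G)
    (hGi : spl_IsInfl V V' G) (hBs : lcf_Smooth₁ V B)
    (hd : ∀ x y : ↥V, x • B y / B (x * y) * B x = G (x, y) ^ n)
    (φ : ↥V) (hφ : lcf_IsFrob V φ) (m : ℤ)
    (hm : ‖((B φ : (PadicAlgCl q)ˣ) : PadicAlgCl q)‖ = ((q : ℕ) : ℝ) ^ (-m)) :
    inv q V G = lcf_qz ((m : ℚ) / (n : ℚ)) := by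
  have hne : NeZero n := ⟨hn.ne'⟩
  have hV : lcf_IsOpen V := H.openU
  have hGc : lcf_IsCoc V G := ⟨hG, spl_isInfl_smooth H.open' hGi⟩
  have hinV : ∀ s : lcf_Gal q, lcf_IsInert s → s ∈ V := fun s hs => H.le (hin s hs)
  -- the unramified character of order `n`
  obtain ⟨θ, φ', hθs, hθin, hφ', hθφ'⟩ := unr_abs_unrChar q V hV n
  have hθφ : θ φ = Multiplicative.ofAdd 1 := by
    have h1 : lcf_IsInert ((φ'⁻¹ * φ : ↥V) : lcf_Gal q) :=
      uinj_inert (φ : lcf_Gal q) (φ' : lcf_Gal q) (lcf_resCard V) hφ hφ'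
    have h2 := hθin (φ'⁻¹ * φ) h1
    rw [map_mul, map_inv, inv_mul_eq_one] at h2
    rw [← h2, hθφ']
  have hfix : ∀ g : ↥V, g • eoi_qu q = eoi_qu q := fun g => eoi_qu_smul V g
  have hc₀ : lcf_IsCoc V (lcf_unrCoc V n θ (eoi_qu q)) := sym_isCoc_unrCoc hθs hfix
  have hinv₀ : inv q V (lcf_unrCoc V n θ (eoi_qu q)) = lcf_qz (1 / (n : ℚ)) :=
    hinv.unr q V hV n θ φ (eoi_qu q) hθs hθin hφ hθφ (eoi_qu_isUnif V hinV)
  -- `inv G = j / n`
  have hGn : lcf_IsCob V (G ^ n) := ⟨B, hBs, fun x y => hd x y⟩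
  have hnt : n • inv q V G = 0 := by
    rw [← lh3m_inv_pow hinv V hV hGc n]
    exact (hinv.eq_zero_iff q V hV _ (lh3m_isCoc_pow hGc n)).2 hGn
  obtain ⟨j, hj⟩ := eoi_qz_nat n hn _ hnt
  -- the cocycle `G / c₀ ^ j`
  have h0 : inv q V (G / lcf_unrCoc V n θ (eoi_qu q) ^ j) = 0 := by
    rw [lh3m_inv_div hinv V hV hGc (lh3m_isCoc_pow hc₀ j), lh3m_inv_pow hinv V hV hc₀ j, hinv₀,
      hj, sub_self]
  have H'' : splc_Hyp V (V' ⊓ sym_ker θ) :=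
    ⟨inf_le_left.trans H.le, eoi_isOpen_inf H.open' (sym_isOpen_ker θ hV hθs),
      fun g hg s hs => ⟨H.normal g hg s hs.1, (ucl_ker_normalIn θ).2 g hg s hs.2⟩⟩
  have hin'' : ∀ s : lcf_Gal q, lcf_IsInert s → s ∈ V' ⊓ sym_ker θ :=
    fun s hs => ⟨hin s hs, ⟨hinV s hs, hθin ⟨s, hinV s hs⟩ hs⟩⟩
  have hGi'' : spl_IsInfl V (V' ⊓ sym_ker θ) (G / lcf_unrCoc V n θ (eoi_qu q) ^ j) :=
    eoi_isInfl_div (eoi_isInfl_mono inf_le_left hGi)
      (spl_isInfl_pow (eoi_isInfl_mono inf_le_right (ucl_unrCoc_infl θ hfix)) j)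
  have hB's : lcf_Smooth₁ V (fun g => B g / (eoi_qu q ^ sym_t θ g) ^ j) :=
    elo_smooth₁_map₂ hBs hθs (fun a b => a / (eoi_qu q ^ (Multiplicative.toAdd b).val) ^ j)
  have hd' : ∀ x y : ↥V, x • (B y / (eoi_qu q ^ sym_t θ y) ^ j) /
      (B (x * y) / (eoi_qu q ^ sym_t θ (x * y)) ^ j) * (B x / (eoi_qu q ^ sym_t θ x) ^ j) =
      (G / lcf_unrCoc V n θ (eoi_qu q) ^ j) (x, y) ^ n := by
    intro x y
    rw [smul_div', smul_pow']
    exact eoi_div_alg _ _ _ _ _ _ _ _ n j (hd x y) (eoi_d_pow θ hfix x y)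
  obtain ⟨v, hv⟩ := elo_local hinv H'' hin'' n _ _ (lh3m_isCoc_div hGc (lh3m_isCoc_pow hc₀ j)).1
    hGi'' hB's hd' h0 φ
  -- norms
  have hq1 := eoi_q_gt_one (q := q)
  have hq0 : (0 : ℝ) < ((q : ℕ) : ℝ) := lt_trans zero_lt_one hq1
  have ht : sym_t θ φ = (1 : ZMod n).val := by
    unfold sym_t
    rw [hθφ, toAdd_ofAdd]
  have hnorm : ‖(((B φ / (eoi_qu q ^ sym_t θ φ) ^ j : (PadicAlgCl q)ˣ)) : PadicAlgCl q)‖ =
      ((q : ℕ) : ℝ) ^ (-(m - ((1 : ZMod n).val * j : ℕ))) := by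
    rw [Units.val_div_eq_div_val, norm_div, hm, ← pow_mul, Units.val_pow_eq_pow_val, norm_pow,
      eoi_qu_norm, ht, inv_pow, div_inv_eq_mul, ← zpow_natCast, ← zpow_add₀ hq0.ne']
    congr 1
    ring
  rw [hnorm] at hv
  have hexp : -(m - (((1 : ZMod n).val * j : ℕ) : ℤ)) = -((n : ℤ) * v) :=
    zpow_right_injective₀ hq0 hq1.ne' hv
  -- conclusion
  rw [hj, ← map_nsmul, ← sub_eq_zero, ← map_sub, lh3_qz_eq_zero_iff]
  have hnQ : (n : ℚ) ≠ 0 := by exact_mod_cast hn.ne'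
  rcases Nat.lt_or_ge 1 n with h1 | h1
  · have hF : Fact (1 < n) := ⟨h1⟩
    have hval : (1 : ZMod n).val = 1 := ZMod.val_one n
    rw [hval, one_mul] at hexp
    refine ⟨-v, ?_⟩
    have hm' : (m : ℚ) = (j : ℚ) + (n : ℚ) * (v : ℚ) := by
      have : m = (j : ℤ) + (n : ℤ) * v := by omega
      exact_mod_cast this
    rw [hm', nsmul_eq_mul]
    push_cast
    field_simp
    ring
  · have hn1 : n = 1 := le_antisymm h1 hn
    subst hn1
    refine ⟨(j : ℤ) - m, ?_⟩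
    rw [nsmul_eq_mul]
    push_cast
    ring

end Fermat.Agent.S55
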