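/-
S55 (wave 5), GLOBAL side part 3, leaf [E-OBINV] (helper5).  Prefix `eoi_`.

`eoi_main : eco_ObInvStatement` : if `d b₁ = g₂ ^ n` (`n > 0`) for a cocycle `g₂` of a level `F`
unramified at `q`, `σ` is a Frobenius at the place `w = (q, g₀)` and `ord_w (b₁ σ) = m`, then
`inv_w g₂ = m / n`.  (Localisation along helper1's `aku_` dictionary and the local core
`eoi_local`.)
-/
import Fermat.Agent.S55.Global.EcoObInvLoc
import Fermat.Agent.S55.Global.EcoLocOb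

set_option autoImplicit false

noncomputable section

namespace Fermat.Agent.S55

open groupCohomology

local notation "Qbar" => AlgebraicClosure ℚ

/-- **[E-OBINV]** -/
theorem eoi_main : eco_ObInvStatement := by
  intro inv hinv K F hK hlevel w hunr n hn g₂ b₁ hg₂ hlev₂ hlev₁ hd σ m hσ hm
  obtain ⟨q, g₀⟩ := w
  have hq : Fact (q : ℕ).Prime := ⟨q.2⟩
  obtain ⟨φ, hφ, hφσ⟩ := hσ
  have hm' : ‖((ak_loc₁ K (q : ℕ) g₀ b₁ φ : (PadicAlgCl (q : ℕ))ˣ) : PadicAlgCl (q : ℕ))‖ =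
      (((q : ℕ) : ℕ) : ℝ) ^ (-m) := by
    show ‖padicEmbedding (q : ℕ) (g₀ ((b₁ (ak_r K (q : ℕ) g₀ φ) : Qbarˣ) : Qbar))‖ = _
    rw [hφσ]
    exact hm
  exact eoi_local hinv (elo_hyp_place (q : ℕ) hlevel g₀)
    (fun s hs => aku_inert_mem (q : ℕ) F hunr g₀ s hs) n hn (ak_loc₂ K (q : ℕ) g₀ g₂)
    (ak_loc₁ K (q : ℕ) g₀ b₁) (aku_loc₂_isMulCocycle K g₀ g₂ hg₂) (aku_loc₂_infl g₀ g₂ hlev₂)
    (aku_loc₁_smooth g₀ hlevel.fin b₁ hlev₁.1) (elo_loc_pow (q : ℕ) K g₀ n g₂ b₁ hd) φ hφ m hm'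

end Fermat.Agent.S55
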