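/-
S55 (fifth wave), GLOBAL side, leaf [E-GEN] of helper26's `Global/EcohDefs.lean` (helper6).
Prefix `egen_`.

  egen_main : eco_GenStatement      (hypothesis-free)

TOOLKIT (shared with [E-SHAP]):
* `egen_hasOrd_*`  : the calculus of `ak_HasOrd` (one, mul, inv, div, uniqueness, `g * σ`,
                     `loc_q τ * g`);
* `egen_D n q g`   : the subgroup of `ℚ̄ˣ` of the elements with `n ∣ ord_(q,g)`;
* `egen_o n q g`   : the class of an element in `Additive (ℚ̄ˣ ⧸ egen_D n q g)` ("ord mod n");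
* `egen_dec`       : the decomposition group at `(q, g)` acts trivially modulo `egen_D n q g`;
* `egen_frob_pow`  : every element of the local group of `K` at `(q, g)` is a power of a given
                     Frobenius modulo the local group of an unramified level `F`;
* `egen_core`      : [E-GEN] at the place of the Frobenius; `egen_conj` : change of the pair.
-/
import Mathlib
import Fermat.Agent.S55.Global.EcohDefs
import Fermat.Agent.S55.Global.AkUnr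
import Fermat.Agent.S55.Global.AkConj
import Fermat.Agent.S55.Local.SplUnrUniq

set_option autoImplicit false
set_option maxHeartbeats 1000000
set_option synthInstance.maxHeartbeats 400000
set_option linter.style.haveILetI false
set_option linter.unusedVariables false
set_option linter.unusedSectionVars false

namespace Fermat.Agent.S55

open groupCohomology

noncomputable section

local notation "Qbar" => AlgebraicClosure ℚ

/-! ### The calculus of `ak_HasOrd` -/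

section Ord

variable (q : ℕ) [Fact q.Prime]

theorem egen_norm_aut (γ : lcf_Gal q) (x : PadicAlgCl q) : ‖γ x‖ = ‖x‖ := by
  rw [← PadicAlgCl.spectralNorm_eq, ← PadicAlgCl.spectralNorm_eq]
  exact (spectralNorm_eq_of_equiv γ x).symm

theorem egen_q_pos : (0 : ℝ) < (q : ℝ) := Nat.cast_pos.2 (Fact.out : q.Prime).pos

theorem egen_q_ne : (q : ℝ) ≠ 0 := (egen_q_pos q).ne'

theorem egen_one_lt_q : (1 : ℝ) < (q : ℝ) := by
  exact_mod_cast (Fact.out : q.Prime).one_lt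

variable {q}

theorem egen_hasOrd_one (g : s55_GQ) : ak_HasOrd q g 1 0 := by
  show ‖padicEmbedding q (g ((1 : Qbarˣ) : Qbar))‖ = (q : ℝ) ^ (-(0 : ℤ))
  rw [Units.val_one, map_one, map_one, norm_one, neg_zero, zpow_zero]

theorem egen_hasOrd_mul {g : s55_GQ} {x y : Qbarˣ} {a b : ℤ} (hx : ak_HasOrd q g x a)
    (hy : ak_HasOrd q g y b) : ak_HasOrd q g (x * y) (a + b) := by
  have hx' : ‖padicEmbedding q (g (x : Qbar))‖ = (q : ℝ) ^ (-a) := hx
  have hy' : ‖padicEmbedding q (g (y : Qbar))‖ = (q : ℝ) ^ (-b) := hy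
  show ‖padicEmbedding q (g ((x * y : Qbarˣ) : Qbar))‖ = (q : ℝ) ^ (-(a + b))
  rw [Units.val_mul, map_mul, map_mul, norm_mul, hx', hy', ← zpow_add₀ (egen_q_ne q)]
  congr 1
  ring

theorem egen_hasOrd_inv {g : s55_GQ} {x : Qbarˣ} {a : ℤ} (hx : ak_HasOrd q g x a) :
    ak_HasOrd q g x⁻¹ (-a) := by
  have hx' : ‖padicEmbedding q (g (x : Qbar))‖ = (q : ℝ) ^ (-a) := hx
  show ‖padicEmbedding q (g ((x⁻¹ : Qbarˣ) : Qbar))‖ = (q : ℝ) ^ (-(-a))
  rw [Units.val_inv_eq_inv_val, map_inv₀, map_inv₀, norm_inv, hx', ← zpow_neg]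

theorem egen_hasOrd_div {g : s55_GQ} {x y : Qbarˣ} {a b : ℤ} (hx : ak_HasOrd q g x a)
    (hy : ak_HasOrd q g y b) : ak_HasOrd q g (x / y) (a - b) := by
  rw [div_eq_mul_inv, sub_eq_add_neg]
  exact egen_hasOrd_mul hx (egen_hasOrd_inv hy)

theorem egen_hasOrd_unique {g : s55_GQ} {x : Qbarˣ} {a b : ℤ} (hx : ak_HasOrd q g x a)
    (hy : ak_HasOrd q g x b) : a = b := by
  have hx' : ‖padicEmbedding q (g (x : Qbar))‖ = (q : ℝ) ^ (-a) := hx
  have hy' : ‖padicEmbedding q (g (x : Qbar))‖ = (q : ℝ) ^ (-b) := hy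
  have h := zpow_right_injective₀ (egen_q_pos q) (egen_one_lt_q q).ne' (hx'.symm.trans hy')
  exact neg_injective h

/-- `ord_(q, g σ) x = ord_(q, g) (σ x)`. -/
theorem egen_hasOrd_smul (g σ : s55_GQ) (x : Qbarˣ) (a : ℤ) :
    ak_HasOrd q (g * σ) x a ↔ ak_HasOrd q g (σ • x) a := Iff.rfl

/-- `ord_(q, loc τ g) x = ord_(q, g) x`. -/
theorem egen_hasOrd_loc (τ : lcf_Gal q) (g : s55_GQ) (x : Qbarˣ) (a : ℤ) :
    ak_HasOrd q (localGaloisToGlobal q τ * g) x a ↔ ak_HasOrd q g x a := by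
  show ‖padicEmbedding q (localGaloisToGlobal q τ (g (x : Qbar)))‖ = _ ↔
    ‖padicEmbedding q (g (x : Qbar))‖ = _
  rw [padicEmbedding_localGaloisToGlobal, egen_norm_aut]

end Ord

/-! ### The subgroup `D` of the elements with `n ∣ ord` -/

section D

variable (n : ℕ) (q : ℕ) [Fact q.Prime] (g : s55_GQ)

/-- The elements `x` of `ℚ̄ˣ` with `n ∣ ord_(q,g) x`. -/
def egen_D : Subgroup Qbarˣ where
  carrier := {x | ∃ m : ℤ, ak_HasOrd q g x ((n : ℤ) * m)}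
  one_mem' := ⟨0, by rw [mul_zero]; exact egen_hasOrd_one g⟩
  mul_mem' := by
    rintro x y ⟨a, ha⟩ ⟨b, hb⟩
    exact ⟨a + b, by rw [mul_add]; exact egen_hasOrd_mul ha hb⟩
  inv_mem' := by
    rintro x ⟨a, ha⟩
    exact ⟨-a, by rw [mul_neg]; exact egen_hasOrd_inv ha⟩

theorem egen_mem_D (x : Qbarˣ) :
    x ∈ egen_D n q g ↔ ∃ m : ℤ, ak_HasOrd q g x ((n : ℤ) * m) := Iff.rfl

theorem egen_D_smul (σ : s55_GQ) (x : Qbarˣ) :
    x ∈ egen_D n q (g * σ) ↔ σ • x ∈ egen_D n q g := Iff.rfl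

theorem egen_D_loc (τ : lcf_Gal q) :
    egen_D n q (localGaloisToGlobal q τ * g) = egen_D n q g := by
  ext x
  simp only [egen_mem_D, egen_hasOrd_loc]

/-- An element `σ` with `g σ = loc τ g` acts trivially on `ord_(q,g)`. -/
theorem egen_hasOrd_dec (σ : s55_GQ) (τ : lcf_Gal q) (h : g * σ = localGaloisToGlobal q τ * g)
    (x : Qbarˣ) (a : ℤ) : ak_HasOrd q g (σ • x) a ↔ ak_HasOrd q g x a := by
  rw [← egen_hasOrd_smul, h, egen_hasOrd_loc]

theorem egen_dec_div (σ : s55_GQ) (τ : lcf_Gal q) (h : g * σ = localGaloisToGlobal q τ * g)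
    (x : Qbarˣ) : σ • x / x ∈ egen_D n q g := by
  refine ⟨0, ?_⟩
  have h1 : ‖padicEmbedding q (g ((σ • x : Qbarˣ) : Qbar))‖ =
      ‖padicEmbedding q (g (x : Qbar))‖ := by
    have h2 : g ((σ • x : Qbarˣ) : Qbar) = (g * σ) (x : Qbar) := rfl
    rw [h2, h, AlgEquiv.mul_apply, padicEmbedding_localGaloisToGlobal, egen_norm_aut]
  have h3 : ‖padicEmbedding q (g (x : Qbar))‖ ≠ 0 := by
    rw [norm_ne_zero_iff]
    intro h0
    have h4 : g (x : Qbar) = 0 := by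
      apply (padicEmbedding q).toRingHom.injective
      rw [map_zero]
      exact h0
    have h5 : (x : Qbar) = 0 := by
      have := congrArg g.symm h4
      rwa [AlgEquiv.symm_apply_apply, map_zero] at this
    exact x.ne_zero h5
  show ‖padicEmbedding q (g (((σ • x / x : Qbarˣ)) : Qbar))‖ = (q : ℝ) ^ (-((n : ℤ) * 0))
  rw [Units.val_div_eq_div_val, map_div₀, map_div₀, norm_div, h1, div_self h3, mul_zero,
    neg_zero, zpow_zero]

end D

/-! ### Powers of Frobenius -/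

section Frob

variable (q : ℕ) [Fact q.Prime] (g : s55_GQ)

theorem egen_fin_of_le {K F : IntermediateField ℚ Qbar} (h : K ≤ F)
    (hF : FiniteDimensional ℚ F) : FiniteDimensional ℚ K := by
  haveI := hF
  exact FiniteDimensional.of_injective (IntermediateField.inclusion h).toLinearMap
    (IntermediateField.inclusion_injective h)

/-- An element of the local Galois group which fixes the image of a primitive element of `F`
lies in the local group of `F`. -/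
theorem egen_mem_H_of_gen (F : IntermediateField ℚ Qbar) [FiniteDimensional ℚ F]
    (ρ : lcf_Gal q)
    (h : ρ (ak_iota q g ((Field.powerBasisOfFiniteOfSeparable ℚ ↥F).gen : Qbar)) =
      ak_iota q g ((Field.powerBasisOfFiniteOfSeparable ℚ ↥F).gen : Qbar)) :
    ρ ∈ ak_H F q g := by
  rw [ak_mem_H_iff]
  refine akc_conj_mem_fix q g F ρ (fun x => ?_)
  let f₁ : ↥F →ₐ[ℚ] PadicAlgCl q :=
    ((ρ : PadicAlgCl q →+* PadicAlgCl q).comp
      ((ak_iota q g : Qbar →+* PadicAlgCl q).comp (algebraMap ↥F Qbar))).toRatAlgHom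
  let f₂ : ↥F →ₐ[ℚ] PadicAlgCl q := (ak_iota q g).comp F.val
  have h12 : f₁ = f₂ := (Field.powerBasisOfFiniteOfSeparable ℚ ↥F).algHom_ext h
  exact DFunLike.congr_fun h12 x

/-- Every element of the local group of `K` at `(q, g)` is a power of a given Frobenius modulo
the local group of a level `F` which is unramified at `q`. -/
theorem egen_frob_pow (K F : IntermediateField ℚ Qbar) (hL : ak_IsLevel K F)
    (hF : ak_UnramAt q F) (φ : ↥(ak_H K q g)) (hφ : lcf_IsFrob (ak_H K q g) φ)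
    (τ : ↥(ak_H K q g)) :
    ∃ j : ℕ, ((((ak_r K q g φ) ^ j)⁻¹ * ak_r K q g τ : ↥K.fixingSubgroup) : s55_GQ) ∈
      F.fixingSubgroup := by
  haveI := hL.fin
  have hK : FiniteDimensional ℚ K := egen_fin_of_le hL.le hL.fin
  have hV : lcf_IsOpen (ak_H K q g) := aku_H_isOpen q K hK g
  set α : Qbar := ((Field.powerBasisOfFiniteOfSeparable ℚ ↥F).gen : Qbar) with hα
  have hx : ∀ s : ↥(ak_H K q g), lcf_IsInert (s : lcf_Gal q) →
      (s : lcf_Gal q) (ak_iota q g α) = ak_iota q g α := by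
    intro s hs
    have h1 := aku_inert_mem q F hF g (s : lcf_Gal q) hs
    rw [ak_mem_H_iff, IntermediateField.mem_fixingSubgroup_iff] at h1
    have h2 : (g⁻¹ * localGaloisToGlobal q (s : lcf_Gal q) * g) α = α :=
      h1 α (SetLike.coe_mem _)
    have h3 : localGaloisToGlobal q (s : lcf_Gal q) (g α) = g α := by
      have h4 := congrArg g h2
      have h5 : g ((g⁻¹ * localGaloisToGlobal q (s : lcf_Gal q) * g) α) =
          localGaloisToGlobal q (s : lcf_Gal q) (g α) :=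
        AlgEquiv.apply_symm_apply g _
      rw [← h5, h4]
    rw [ak_iota_apply, ← padicEmbedding_localGaloisToGlobal, h3]
  obtain ⟨j, hj⟩ := unr_abs_exists_frob_pow (ak_H K q g) hV φ hφ (ak_iota q g α) hx τ
  refine ⟨j, ?_⟩
  have h4 : (((ak_r K q g φ) ^ j)⁻¹ * ak_r K q g τ : ↥K.fixingSubgroup) =
      ak_r K q g ((φ ^ j)⁻¹ * τ) := by
    rw [map_mul, map_inv, map_pow]
  rw [h4, ak_r_coe, ← ak_mem_H_iff]
  apply egen_mem_H_of_gen
  rw [Subgroup.coe_mul, Subgroup.coe_inv, AlgEquiv.mul_apply, hj]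
  exact AlgEquiv.symm_apply_apply _ _

end Frob

/-! ### The class modulo `D` and the cocycle rule -/

section Core

theorem egen_comm_aux {G : Type*} [CommGroup G] (A B C : G) (h : A / B * C = 1) :
    B = A * C := by
  have h1 : A / B = C⁻¹ := eq_inv_of_mul_eq_one_left h
  rw [div_eq_iff_eq_mul] at h1
  rw [h1, mul_comm C⁻¹ B, inv_mul_cancel_right]

theorem egen_aux_one {G : Type*} [Group G] (X : G) (h : X = X * X) : X = 1 := by
  have h1 : X * 1 = X * X := by rw [mul_one]; exact h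
  exact (mul_left_cancel h1).symm

theorem egen_aux_cancel {G : Type*} [Group G] (X Y : G) (h : Y = X * Y) : X = 1 := by
  have h1 : 1 * Y = X * Y := by rw [one_mul]; exact h
  exact (mul_right_cancel h1).symm

variable (n : ℕ) (q : ℕ) [Fact q.Prime] (g : s55_GQ)

/-- The class of an element modulo `egen_D n q g`: "`ord_(q,g)` modulo `n`". -/
def egen_cl : Qbarˣ →* Qbarˣ ⧸ egen_D n q g := QuotientGroup.mk' (egen_D n q g)

theorem egen_cl_eq_one_iff (x : Qbarˣ) : egen_cl n q g x = 1 ↔ x ∈ egen_D n q g :=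
  QuotientGroup.eq_one_iff x

theorem egen_cl_dec (σ : s55_GQ) (τ : lcf_Gal q) (h : g * σ = localGaloisToGlobal q τ * g)
    (x : Qbarˣ) : egen_cl n q g (σ • x) = egen_cl n q g x := by
  have h1 := (egen_cl_eq_one_iff n q g _).2 (egen_dec_div n q g σ τ h x)
  rw [map_div, div_eq_one] at h1
  exact h1

variable (K F : IntermediateField ℚ Qbar) (b₁ : ↥K.fixingSubgroup → Qbarˣ)

theorem egen_cl_rule
    (hd : ∀ σ τ : ↥K.fixingSubgroup, σ • b₁ τ / b₁ (σ * τ) * b₁ σ ∈ egen_D n q g)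
    (σ τ : ↥K.fixingSubgroup) :
    egen_cl n q g (b₁ (σ * τ)) = egen_cl n q g (σ • b₁ τ) * egen_cl n q g (b₁ σ) := by
  have h1 := (egen_cl_eq_one_iff n q g _).2 (hd σ τ)
  rw [map_mul, map_div] at h1
  exact egen_comm_aux _ _ _ h1

theorem egen_cl_one
    (hd : ∀ σ τ : ↥K.fixingSubgroup, σ • b₁ τ / b₁ (σ * τ) * b₁ σ ∈ egen_D n q g) :
    egen_cl n q g (b₁ 1) = 1 := by
  have h := egen_cl_rule n q g K b₁ hd 1 1
  rw [mul_one, one_smul] at h
  exact egen_aux_one _ h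

theorem egen_cl_GF (hb : ak_Const₁ K F b₁)
    (hd : ∀ σ τ : ↥K.fixingSubgroup, σ • b₁ τ / b₁ (σ * τ) * b₁ σ ∈ egen_D n q g)
    (s : ↥K.fixingSubgroup) (hs : (s : s55_GQ) ∈ F.fixingSubgroup) :
    egen_cl n q g (b₁ s) = 1 := by
  have h := hb 1 s hs
  rw [one_mul] at h
  rw [h]
  exact egen_cl_one n q g K b₁ hd

theorem egen_cl_mul_dec
    (hd : ∀ σ τ : ↥K.fixingSubgroup, σ • b₁ τ / b₁ (σ * τ) * b₁ σ ∈ egen_D n q g)
    (d : ↥K.fixingSubgroup) (τ : lcf_Gal q)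
    (h : g * (d : s55_GQ) = localGaloisToGlobal q τ * g) (σ : ↥K.fixingSubgroup) :
    egen_cl n q g (b₁ (d * σ)) = egen_cl n q g (b₁ σ) * egen_cl n q g (b₁ d) := by
  rw [egen_cl_rule n q g K b₁ hd d σ]
  congr 1
  exact egen_cl_dec n q g (d : s55_GQ) τ h (b₁ σ)

theorem egen_cl_pow_dec
    (hd : ∀ σ τ : ↥K.fixingSubgroup, σ • b₁ τ / b₁ (σ * τ) * b₁ σ ∈ egen_D n q g)
    (d : ↥K.fixingSubgroup) (τ : lcf_Gal q)
    (h : g * (d : s55_GQ) = localGaloisToGlobal q τ * g)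
    (hd1 : egen_cl n q g (b₁ d) = 1) (j : ℕ) : egen_cl n q g (b₁ (d ^ j)) = 1 := by
  induction j with
  | zero => rw [pow_zero]; exact egen_cl_one n q g K b₁ hd
  | succ j ih =>
    rw [pow_succ', egen_cl_mul_dec n q g K b₁ hd d τ h, ih, hd1]
    exact one_mul (1 : Qbarˣ ⧸ egen_D n q g)

/-- [E-GEN] at the place of the Frobenius. -/
theorem egen_core (hL : ak_IsLevel K F) (hF : ak_UnramAt q F) (hb : ak_Const₁ K F b₁)
    (hd : ∀ σ τ : ↥K.fixingSubgroup, σ • b₁ τ / b₁ (σ * τ) * b₁ σ ∈ egen_D n q g)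
    (φ : ↥(ak_H K q g)) (hφ : lcf_IsFrob (ak_H K q g) φ)
    (hφ1 : egen_cl n q g (b₁ (ak_r K q g φ)) = 1) (τ : ↥(ak_H K q g)) :
    egen_cl n q g (b₁ (ak_r K q g τ)) = 1 := by
  obtain ⟨j, hj⟩ := egen_frob_pow q g K F hL hF φ hφ τ
  set s : ↥K.fixingSubgroup := ((ak_r K q g φ) ^ j)⁻¹ * ak_r K q g τ with hs
  have h1 : ak_r K q g τ = (ak_r K q g φ) ^ j * s := by rw [hs]; group
  rw [h1, hb _ s hj]
  refine egen_cl_pow_dec n q g K b₁ hd (ak_r K q g φ) (φ : lcf_Gal q) ?_ hφ1 j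
  rw [ak_r_coe]; group

/-- The change of the pair inside a place of `K`. -/
theorem egen_conj
    (hd : ∀ σ τ : ↥K.fixingSubgroup, σ • b₁ τ / b₁ (σ * τ) * b₁ σ ∈ egen_D n q g)
    (u₀ σ σ₁ : ↥K.fixingSubgroup) (h : u₀ * σ = σ₁ * u₀) (τ : lcf_Gal q)
    (hσ₁ : g * (σ₁ : s55_GQ) = localGaloisToGlobal q τ * g)
    (h1 : egen_cl n q g (b₁ σ₁) = 1) : egen_cl n q g (u₀ • b₁ σ) = 1 := by
  have e1 := egen_cl_rule n q g K b₁ hd u₀ σ
  have e2 := egen_cl_mul_dec n q g K b₁ hd σ₁ τ hσ₁ u₀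
  rw [h, e2, h1] at e1
  exact egen_aux_cancel _ _ ((mul_one _).symm.trans e1)

end Core

/-! ### The statement -/

/-- **[E-GEN]**. -/
theorem egen_main : eco_GenStatement := by
  intro S K F hL hF n b₁ hb hd w w₁ hw hsame φ hφ hφ1 σ hσ
  obtain ⟨q, g⟩ := w
  obtain ⟨q₁, g₁⟩ := w₁
  obtain ⟨hq, τ₀, u₀, hu₀, hg⟩ := hsame
  have hq' : q₁ = q := hq
  subst hq'
  letI : Fact (q₁ : ℕ).Prime := ⟨q₁.2⟩
  have hg' : g = localGaloisToGlobal (q₁ : ℕ) τ₀ * g₁ * u₀ := hg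
  obtain ⟨φ', hφ', hφr⟩ := hφ
  obtain ⟨τ', hτ'⟩ := hσ
  have hφ'' : lcf_IsFrob (ak_H K (q₁ : ℕ) g₁) φ' := hφ'
  have hφr' : ak_r K (q₁ : ℕ) g₁ φ' = φ := hφr
  have hτ'' : ak_r K (q₁ : ℕ) g (τ' : ↥(ak_H K (q₁ : ℕ) g)) = σ := hτ'
  have hd' : ∀ (g' : s55_GQ) (σ τ : ↥K.fixingSubgroup),
      σ • b₁ τ / b₁ (σ * τ) * b₁ σ ∈ egen_D n (q₁ : ℕ) g' :=
    fun g' σ τ => hd (σ, τ) (q₁, g') hw
  have hφ1' : egen_cl n (q₁ : ℕ) g₁ (b₁ (ak_r K (q₁ : ℕ) g₁ φ')) = 1 := by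
    rw [egen_cl_eq_one_iff, hφr']
    exact hφ1
  have hcore := egen_core n (q₁ : ℕ) g₁ K F b₁ hL (ak_unramAt_of_outside hF q₁ hw) hb.1
    (hd' g₁) φ' hφ'' hφ1'
  -- the conjugate of `σ`
  set U₀ : ↥K.fixingSubgroup := ⟨u₀, hu₀⟩ with hU₀
  set σ₁ : ↥K.fixingSubgroup := U₀ * σ * U₀⁻¹ with hσ₁
  obtain ⟨t', ht'⟩ : ∃ t' : lcf_Gal (q₁ : ℕ), t' = (τ' : lcf_Gal (q₁ : ℕ)) := ⟨_, rfl⟩
  set ρ : lcf_Gal (q₁ : ℕ) := τ₀⁻¹ * t' * τ₀ with hρ
  have hcoe : ((σ₁ : ↥K.fixingSubgroup) : s55_GQ) =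
      g₁⁻¹ * localGaloisToGlobal (q₁ : ℕ) ρ * g₁ := by
    rw [hσ₁, ← hτ'']
    show u₀ * ((ak_r K (q₁ : ℕ) g τ' : ↥K.fixingSubgroup) : s55_GQ) * u₀⁻¹ = _
    rw [ak_r_coe, hρ, map_mul, map_mul, map_inv, ← ht', hg']
    group
  have hρmem : ρ ∈ ak_H K (q₁ : ℕ) g₁ := by
    rw [ak_mem_H_iff, ← hcoe]
    exact σ₁.2
  have hr : ak_r K (q₁ : ℕ) g₁ ⟨ρ, hρmem⟩ = σ₁ := by
    apply Subtype.ext
    rw [ak_r_coe, hcoe]
  have h1 : egen_cl n (q₁ : ℕ) g₁ (b₁ σ₁) = 1 := by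
    rw [← hr]
    exact hcore ⟨ρ, hρmem⟩
  have h2 : U₀ * σ = σ₁ * U₀ := by
    rw [hσ₁]; group
  have h3 : g₁ * ((σ₁ : ↥K.fixingSubgroup) : s55_GQ) =
      localGaloisToGlobal (q₁ : ℕ) ρ * g₁ := by
    rw [hcoe]; group
  have h4 := egen_conj n (q₁ : ℕ) g₁ K b₁ (hd' g₁) U₀ σ σ₁ h2 ρ h3 h1
  rw [egen_cl_eq_one_iff] at h4
  have h5 : b₁ σ ∈ egen_D n (q₁ : ℕ) (g₁ * u₀) := (egen_D_smul n (q₁ : ℕ) g₁ u₀ (b₁ σ)).2 h4
  have h6 : b₁ σ ∈ egen_D n (q₁ : ℕ) g := by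
    rw [hg', mul_assoc, egen_D_loc]
    exact h5
  exact h6

end

end Fermat.Agent.S55
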