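/-
S55 (fifth wave), GLOBAL side, leaf [E-SHAP] of helper26's `Global/EcohDefs.lean` (helper6).
Prefix `eshp_`.

  eshp_main : eco_ShapStatement      (hypothesis-free)

ROUTE: for a prime `q ∉ S` the pairs `(q, g)` are grouped into the places of `K`
(`eshp_rel K q`); `eshp_rep K q g` is a representative of the class of `g` (by `Quotient.out`),
`g = loc τ * eshp_rep K q g * u` with `u = eshp_u K q g ∈ G_K`; the divisor is
`a (q, g) := ord_(q, rep g) (b₁ u) mod n` (`eshp_a`).  It does not depend on the choice of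
`(τ, u)` (`eshp_a_eq`: cocycle rule + the hypothesis on the decomposition group), it is a function
on the places of `F` (`eshp_a_same`) and `ord_(q,g) (b₁ σ) ≡ a (q, g σ) - a (q, g)` modulo `n`
(`eshp_a_rule`).  Finite support: `b₁` has finitely many values (`eshp_range_finite`), each of
them is a unit outside a finite set of primes (`efin_isUnitAt`).
-/
import Mathlib
import Fermat.Agent.S55.Global.EcoGen
import Fermat.Agent.S55.Global.EcoOrd
import Fermat.Agent.S55.Global.EcoFin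

set_option autoImplicit false
set_option maxHeartbeats 1000000
set_option synthInstance.maxHeartbeats 400000
set_option linter.style.haveILetI false
set_option linter.unusedVariables false
set_option linter.unusedSectionVars false

namespace Fermat.Agent.S55

open groupCohomology

noncomputable section

local notation "Qbar" => AlgebraicClosure ℚ

/-! ### The integer `ord` -/

section Ord

variable (q : ℕ) [Fact q.Prime]

/-- The integer `ord_(q,g) x` (`0` if it is not defined). -/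
def eshp_ord (g : s55_GQ) (x : Qbarˣ) : ℤ :=
  open Classical in if h : ∃ k : ℤ, ak_HasOrd q g x k then h.choose else 0

theorem eshp_ord_eq {g : s55_GQ} {x : Qbarˣ} {k : ℤ} (h : ak_HasOrd q g x k) :
    eshp_ord q g x = k := by
  have hex : ∃ k : ℤ, ak_HasOrd q g x k := ⟨k, h⟩
  rw [eshp_ord, dif_pos hex]
  exact egen_hasOrd_unique hex.choose_spec h

theorem eshp_ord_spec {g : s55_GQ} {x : Qbarˣ} (h : ∃ k : ℤ, ak_HasOrd q g x k) :
    ak_HasOrd q g x (eshp_ord q g x) := by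
  obtain ⟨k, hk⟩ := h
  rw [eshp_ord_eq q hk]
  exact hk

/-- Elements with the same class modulo `egen_D` have the same `ord` modulo `n`. -/
theorem eshp_dvd_of_cl (n : ℕ) (g : s55_GQ) {x y : Qbarˣ} {k k' : ℤ}
    (hx : ak_HasOrd q g x k) (hy : ak_HasOrd q g y k')
    (h : egen_cl n q g x = egen_cl n q g y) : (n : ℤ) ∣ k - k' := by
  have h1 : x / y ∈ egen_D n q g := by
    rw [← egen_cl_eq_one_iff, map_div, h]
    exact div_self' _
  obtain ⟨m, hm⟩ := h1
  exact ⟨m, egen_hasOrd_unique (egen_hasOrd_div hx hy) hm⟩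

end Ord

/-! ### Representatives of the places of `K` above `q` -/

section Rep

variable (K : IntermediateField ℚ Qbar) (q : ℕ) [Fact q.Prime]

/-- Two elements of `G_ℚ` define the same place of `K` above `q`. -/
def eshp_rel : Setoid s55_GQ where
  r g g' := ∃ (τ : lcf_Gal q) (u : ↥K.fixingSubgroup),
    g' = localGaloisToGlobal q τ * g * (u : s55_GQ)
  iseqv :=
    { refl := fun g => ⟨1, 1, by rw [map_one, one_mul, Subgroup.coe_one, mul_one]⟩
      symm := by
        rintro g g' ⟨τ, u, h⟩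
        refine ⟨τ⁻¹, u⁻¹, ?_⟩
        rw [h, map_inv, Subgroup.coe_inv]
        group
      trans := by
        rintro g g' g'' ⟨τ, u, h⟩ ⟨τ', u', h'⟩
        refine ⟨τ' * τ, u * u', ?_⟩
        rw [h', h, map_mul, Subgroup.coe_mul]
        group }

/-- The representative of the place of `(q, g)`. -/
def eshp_rep (g : s55_GQ) : s55_GQ := (Quotient.mk (eshp_rel K q) g).out

theorem eshp_rep_rel (g : s55_GQ) : (eshp_rel K q).r (eshp_rep K q g) g :=
  Quotient.exact (Quotient.out_eq (Quotient.mk (eshp_rel K q) g))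

theorem eshp_rep_eq {g g' : s55_GQ} (h : (eshp_rel K q).r g g') :
    eshp_rep K q g = eshp_rep K q g' := by
  have h1 : Quotient.mk (eshp_rel K q) g = Quotient.mk (eshp_rel K q) g' := Quotient.sound h
  unfold eshp_rep
  rw [h1]

/-- The local element of the chosen decomposition `g = loc τ * rep g * u`. -/
def eshp_tau (g : s55_GQ) : lcf_Gal q := (eshp_rep_rel K q g).choose

/-- The global element of the chosen decomposition `g = loc τ * rep g * u`. -/
def eshp_u (g : s55_GQ) : ↥K.fixingSubgroup := (eshp_rep_rel K q g).choose_spec.choose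

theorem eshp_rep_spec (g : s55_GQ) :
    g = localGaloisToGlobal q (eshp_tau K q g) * eshp_rep K q g * (eshp_u K q g : s55_GQ) :=
  (eshp_rep_rel K q g).choose_spec.choose_spec

end Rep

/-! ### The divisor above one prime -/

section Main

variable (n : ℕ) (K F : IntermediateField ℚ Qbar) (q : ℕ) [Fact q.Prime]
  (b₁ : ↥K.fixingSubgroup → Qbarˣ)

/-- The divisor `a` at the pair `(q, g)`. -/
def eshp_a (g : s55_GQ) : ℤ :=
  eshp_ord q (eshp_rep K q g) (b₁ (eshp_u K q g)) % (n : ℤ)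

/-- The hypotheses of [E-SHAP] above the prime `q`. -/
structure eshp_Hyp : Prop where
  ex : ∀ (g : s55_GQ) (σ : ↥K.fixingSubgroup), ∃ k : ℤ, ak_HasOrd q g (b₁ σ) k
  d : ∀ (g : s55_GQ) (σ τ : ↥K.fixingSubgroup),
    σ • b₁ τ / b₁ (σ * τ) * b₁ σ ∈ egen_D n q g
  dec : ∀ (g : s55_GQ) (d : ↥K.fixingSubgroup) (τ : lcf_Gal q),
    g * (d : s55_GQ) = localGaloisToGlobal q τ * g → b₁ d ∈ egen_D n q g

variable {n K F q b₁}

/-- `a (q, g)` does not depend on the choice of the decomposition `g = loc τ * rep g * u`. -/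
theorem eshp_a_eq (H : eshp_Hyp n K q b₁) (g : s55_GQ) (τ : lcf_Gal q)
    (u : ↥K.fixingSubgroup)
    (h : g = localGaloisToGlobal q τ * eshp_rep K q g * (u : s55_GQ)) :
    eshp_a n K q b₁ g = eshp_ord q (eshp_rep K q g) (b₁ u) % (n : ℤ) := by
  have h0 := eshp_rep_spec K q g
  set t := eshp_rep K q g with ht
  set τ₀ := eshp_tau K q g with hτ₀
  set u₀ := eshp_u K q g with hu₀
  set d : ↥K.fixingSubgroup := u * u₀⁻¹ with hd
  have e : localGaloisToGlobal q τ * t * (u : s55_GQ) =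
      localGaloisToGlobal q τ₀ * t * (u₀ : s55_GQ) := h.symm.trans h0
  have hdd : t * ((d : ↥K.fixingSubgroup) : s55_GQ) =
      localGaloisToGlobal q (τ⁻¹ * τ₀) * t := by
    have e1 : t * ((u : s55_GQ) * (u₀ : s55_GQ)⁻¹) =
        (localGaloisToGlobal q τ)⁻¹ * (localGaloisToGlobal q τ * t * (u : s55_GQ)) *
          (u₀ : s55_GQ)⁻¹ := by group
    rw [hd, Subgroup.coe_mul, Subgroup.coe_inv, e1, e, map_mul, map_inv]
    group
  have h1 : u = d * u₀ := by rw [hd]; group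
  have h2 := egen_cl_mul_dec n q t K b₁ (H.d t) d _ hdd u₀
  have h3 : egen_cl n q t (b₁ d) = 1 :=
    (egen_cl_eq_one_iff n q t _).2 (H.dec t d _ hdd)
  have h4 : egen_cl n q t (b₁ u) = egen_cl n q t (b₁ u₀) := by
    rw [h1, h2, h3]
    exact mul_one (egen_cl n q t (b₁ u₀))
  have h5 := eshp_dvd_of_cl q n t (eshp_ord_spec q (H.ex t u)) (eshp_ord_spec q (H.ex t u₀)) h4
  exact Int.modEq_iff_dvd.2 h5

/-- `a` is a function on the places of `F`. -/
theorem eshp_a_same (H : eshp_Hyp n K q b₁) (hL : ak_IsLevel K F) (hb : ak_Const₁ K F b₁)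
    (g g' : s55_GQ) (τ₁ : lcf_Gal q) (s : s55_GQ) (hs : s ∈ F.fixingSubgroup)
    (h : g' = localGaloisToGlobal q τ₁ * g * s) :
    eshp_a n K q b₁ g = eshp_a n K q b₁ g' := by
  have hsK : s ∈ K.fixingSubgroup := IntermediateField.fixingSubgroup_le hL.le hs
  have hrel : (eshp_rel K q).r g g' := ⟨τ₁, ⟨s, hsK⟩, h⟩
  have hrep := eshp_rep_eq K q hrel
  have h0 := eshp_rep_spec K q g
  have h1 : g' = localGaloisToGlobal q (τ₁ * eshp_tau K q g) * eshp_rep K q g' *
      ((eshp_u K q g * ⟨s, hsK⟩ : ↥K.fixingSubgroup) : s55_GQ) := by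
    rw [← hrep, Subgroup.coe_mul, map_mul]
    show g' = localGaloisToGlobal q τ₁ * localGaloisToGlobal q (eshp_tau K q g) *
      eshp_rep K q g * ((eshp_u K q g : s55_GQ) * s)
    have e1 : localGaloisToGlobal q τ₁ * localGaloisToGlobal q (eshp_tau K q g) *
        eshp_rep K q g * ((eshp_u K q g : s55_GQ) * s) =
        localGaloisToGlobal q τ₁ * (localGaloisToGlobal q (eshp_tau K q g) *
        eshp_rep K q g * (eshp_u K q g : s55_GQ)) * s := by group
    rw [e1, ← h0]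
    exact h
  rw [eshp_a_eq H g' _ _ h1, ← hrep, hb _ ⟨s, hsK⟩ hs]
  rfl

/-- `ord_(q,g) (b₁ σ) ≡ a (q, g σ) - a (q, g)` modulo `n`. -/
theorem eshp_a_rule (H : eshp_Hyp n K q b₁) (g : s55_GQ) (σ : ↥K.fixingSubgroup) :
    ∃ m : ℤ, ak_HasOrd q g (b₁ σ)
      (eshp_a n K q b₁ (g * (σ : s55_GQ)) - eshp_a n K q b₁ g + (n : ℤ) * m) := by
  have h0 := eshp_rep_spec K q g
  have hrel : (eshp_rel K q).r g (g * (σ : s55_GQ)) :=
    ⟨1, σ, by rw [map_one, one_mul]⟩
  have hrep := eshp_rep_eq K q hrel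
  have h1 : g * (σ : s55_GQ) = localGaloisToGlobal q (eshp_tau K q g) *
      eshp_rep K q (g * (σ : s55_GQ)) * ((eshp_u K q g * σ : ↥K.fixingSubgroup) : s55_GQ) := by
    rw [← hrep, Subgroup.coe_mul, ← mul_assoc, ← h0]
  have ha := eshp_a_eq H (g * (σ : s55_GQ)) _ _ h1
  rw [← hrep] at ha
  set t := eshp_rep K q g with ht
  set τ₀ := eshp_tau K q g with hτ₀
  set u₀ := eshp_u K q g with hu₀
  have hr := egen_cl_rule n q t K b₁ (H.d t) u₀ σ
  obtain ⟨k, hk⟩ := H.ex g σ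
  have hk' : ak_HasOrd q t (u₀ • b₁ σ) k := by
    have hk2 := hk
    rw [h0, mul_assoc, egen_hasOrd_loc, egen_hasOrd_smul] at hk2
    exact hk2
  have h5 := eshp_dvd_of_cl q n t (eshp_ord_spec q (H.ex t (u₀ * σ)))
    (egen_hasOrd_mul hk' (eshp_ord_spec q (H.ex t u₀))) (hr.trans (map_mul _ _ _).symm)
  obtain ⟨c, hc⟩ := h5
  have ha0 : eshp_a n K q b₁ g = eshp_ord q t (b₁ u₀) % (n : ℤ) := rfl
  refine ⟨eshp_ord q t (b₁ (u₀ * σ)) / (n : ℤ) - eshp_ord q t (b₁ u₀) / (n : ℤ) - c, ?_⟩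
  have e1 := Int.emod_def (eshp_ord q t (b₁ (u₀ * σ))) (n : ℤ)
  have e2 := Int.emod_def (eshp_ord q t (b₁ u₀)) (n : ℤ)
  have e3 : k = eshp_a n K q b₁ (g * (σ : s55_GQ)) - eshp_a n K q b₁ g + (n : ℤ) *
      (eshp_ord q t (b₁ (u₀ * σ)) / (n : ℤ) - eshp_ord q t (b₁ u₀) / (n : ℤ) - c) := by
    rw [ha, ha0, e1, e2]
    linear_combination -hc
  rw [← e3]
  exact hk

/-- A cochain of level `F` has finitely many values. -/
theorem eshp_range_finite (hL : ak_IsLevel K F) (hb : ak_Const₁ K F b₁) :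
    (Set.range b₁).Finite := by
  classical
  haveI := hL.fin
  let r : ↥K.fixingSubgroup → (↥F →ₐ[ℚ] Qbar) :=
    fun u => (((u : s55_GQ) : Qbar ≃ₐ[ℚ] Qbar) : Qbar →ₐ[ℚ] Qbar).comp F.val
  have hr : ∀ u v, r u = r v → b₁ u = b₁ v := by
    intro u v huv
    have hs : ((v⁻¹ * u : ↥K.fixingSubgroup) : s55_GQ) ∈ F.fixingSubgroup := by
      rw [IntermediateField.mem_fixingSubgroup_iff]
      intro x hx
      have h1 : (u : s55_GQ) x = (v : s55_GQ) x := DFunLike.congr_fun huv ⟨x, hx⟩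
      rw [Subgroup.coe_mul, Subgroup.coe_inv, AlgEquiv.mul_apply, h1]
      exact AlgEquiv.symm_apply_apply _ _
    have h2 := hb v (v⁻¹ * u) hs
    rw [mul_inv_cancel_left] at h2
    exact h2
  let bt : (↥F →ₐ[ℚ] Qbar) → Qbarˣ := fun f => if h : ∃ u, r u = f then b₁ h.choose else 1
  have hsub : Set.range b₁ ⊆ Set.range bt := by
    rintro _ ⟨u, rfl⟩
    refine ⟨r u, ?_⟩
    have hex : ∃ u', r u' = r u := ⟨u, rfl⟩
    show dite _ _ _ = _
    rw [dif_pos hex]
    exact hr _ _ hex.choose_spec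
  exact (Set.finite_range bt).subset hsub

end Main

/-! ### The statement -/

/-- **[E-SHAP]**. -/
theorem eshp_main : eco_ShapStatement := by
  classical
  intro S K F hL hF n hn b₁ hb hd hdec
  have hfin := eshp_range_finite hL hb.1
  set X' : Finset Nat.Primes := hfin.toFinset.biUnion efin_bad with hX'
  -- the hypotheses above each prime outside `S`
  have hH : ∀ q : Nat.Primes, q ∉ S →
      letI : Fact (q : ℕ).Prime := ⟨q.2⟩
      eshp_Hyp n K (q : ℕ) b₁ := by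
    intro q hq
    letI : Fact (q : ℕ).Prime := ⟨q.2⟩
    refine ⟨fun g σ => eord_main (q : ℕ) F hL.fin (ak_unramAt_of_outside hF q hq) (b₁ σ)
      (hb.2 σ) g, fun g σ τ => hd (σ, τ) (q, g) hq, fun g d τ h => ?_⟩
    have h1 : g⁻¹ * localGaloisToGlobal (q : ℕ) τ * g = (d : s55_GQ) := by
      rw [mul_assoc, ← h]
      group
    have hτ : τ ∈ ak_H K (q : ℕ) g := by
      rw [ak_mem_H_iff, h1]
      exact d.2
    have h2 : ak_r K (q : ℕ) g ⟨τ, hτ⟩ = d := by
      apply Subtype.ext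
      rw [ak_r_coe]
      exact h1
    exact hdec (q, g) hq d ⟨⟨τ, hτ⟩, h2⟩
  -- units outside `X'`
  have hunit : ∀ q : Nat.Primes, q ∉ X' → ∀ (g : s55_GQ) (σ : ↥K.fixingSubgroup),
      letI : Fact (q : ℕ).Prime := ⟨q.2⟩
      ak_HasOrd (q : ℕ) g (b₁ σ) 0 := by
    intro q hq g σ
    letI : Fact (q : ℕ).Prime := ⟨q.2⟩
    have h1 : q ∉ efin_bad (b₁ σ) := by
      intro h
      exact hq (Finset.mem_biUnion.2 ⟨b₁ σ, (Set.Finite.mem_toFinset hfin).2 ⟨σ, rfl⟩, h⟩)
    have h2 := efin_isUnitAt (b₁ σ) q h1 g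
    show ‖padicEmbedding (q : ℕ) (g ((b₁ σ : Qbarˣ) : Qbar))‖ = ((q : ℕ) : ℝ) ^ (-(0 : ℤ))
    rw [neg_zero, zpow_zero]
    exact h2
  refine ⟨fun w => if w.1 ∈ S then 0 else
    (letI : Fact (w.1 : ℕ).Prime := ⟨w.1.2⟩; eshp_a n K (w.1 : ℕ) b₁ w.2), ⟨?_, S ∪ X', ?_⟩, ?_⟩
  · -- a function on the places of `F`
    rintro ⟨q, g⟩ ⟨q', g'⟩ ⟨hq, τ₁, s, hs, hg⟩
    have hq' : q = q' := hq
    subst hq'
    letI : Fact (q : ℕ).Prime := ⟨q.2⟩
    by_cases hqS : q ∈ S
    · show (if q ∈ S then (0 : ℤ) else _) = (if q ∈ S then (0 : ℤ) else _)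
      rw [if_pos hqS, if_pos hqS]
    · show (if q ∈ S then (0 : ℤ) else eshp_a n K (q : ℕ) b₁ g) =
        (if q ∈ S then (0 : ℤ) else eshp_a n K (q : ℕ) b₁ g')
      rw [if_neg hqS, if_neg hqS]
      exact eshp_a_same (hH q hqS) hL hb.1 g g' τ₁ s hs hg
  · -- finite support
    rintro ⟨q, g⟩ hq
    have hq1 : q ∉ S := fun h => hq (Finset.mem_union_left _ h)
    have hq2 : q ∉ X' := fun h => hq (Finset.mem_union_right _ h)
    letI : Fact (q : ℕ).Prime := ⟨q.2⟩
    show (if q ∈ S then (0 : ℤ) else eshp_a n K (q : ℕ) b₁ g) = 0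
    rw [if_neg hq1]
    show eshp_ord (q : ℕ) (eshp_rep K (q : ℕ) g) (b₁ (eshp_u K (q : ℕ) g)) % (n : ℤ) = 0
    rw [eshp_ord_eq (q : ℕ) (hunit q hq2 _ _), Int.zero_emod]
  · -- the congruence
    rintro ⟨q, g⟩ hq σ
    have hq1 : q ∉ S := hq
    letI : Fact (q : ℕ).Prime := ⟨q.2⟩
    obtain ⟨m, hm⟩ := eshp_a_rule (hH q hq1) g σ
    refine ⟨m, ?_⟩
    show ak_HasOrd (q : ℕ) g (b₁ σ)
      ((if q ∈ S then (0 : ℤ) else eshp_a n K (q : ℕ) b₁ (g * (σ : s55_GQ))) -
        (if q ∈ S then (0 : ℤ) else eshp_a n K (q : ℕ) b₁ g) + (n : ℤ) * m)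
    rw [if_neg hq1, if_neg hq1]
    exact hm

end

end Fermat.Agent.S55
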