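/-
S55 (fifth wave), GLOBAL side, part 3, package [E-COH], leaf [E-TRANSFER] (helper24).
Prefix `etr_`.

`theorem etr_main : ec_TransferStatement` (pure group theory): for `N ≤ P ≤ G`, `N` normal of
finite index, `[G : P]` prime to `p`, a 3-cocycle of `G` in `F_p` (constant mod `N`) whose
restriction to `P` is a coboundary (of a cochain constant mod `N`) is a coboundary (of a cochain
constant mod `N`).

ROUTE.  `res` followed by `cor` is multiplication by `[G : P]`, in the form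
`F_p → F_p[G/P] → F_p` (constants, then the sum of the coefficients): the image `z • 𝟙` of `z`
in `F_p[G/P]` is a coboundary by Shapiro's lemma (`lcdb_shapiro₃`, i.e. `shin_main₃`), and the
sum of the coefficients of a primitive is a primitive of `[G : P] • z`.
-/
import Fermat.Agent.S55.Global.ECohTop
import Fermat.Agent.S55.Local.LcdBaseShap

set_option autoImplicit false

noncomputable section

namespace Fermat.Agent.S55

open groupCohomology

section trace

variable {k Γ X : Type} [CommRing k] [Group Γ] [MulAction Γ X] [Fintype X]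

/-- The element of `k[X]` all of whose coefficients are `1`. -/
def etr_one (k Γ X : Type) [CommRing k] [Group Γ] [MulAction Γ X] [Fintype X] :
    Rep.ofMulAction k Γ X :=
  (lcdb_coord (k := k) (Γ := Γ) (X := X)).surj (fun _ => (1 : k)) |>.choose

theorem etr_one_coeff (x : X) :
    (lcdb_coord (k := k) (Γ := Γ) (X := X)).π x (etr_one k Γ X) = (1 : k) :=
  ((lcdb_coord (k := k) (Γ := Γ) (X := X)).surj (fun _ => (1 : k))).choose_spec x

/-- The sum of the coefficients. -/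
def etr_tr (k Γ X : Type) [CommRing k] [Group Γ] [MulAction Γ X] [Fintype X] :
    Rep.ofMulAction k Γ X →ₗ[k] k :=
  ∑ x : X, ((lcdb_coord (k := k) (Γ := Γ) (X := X)).π x : Rep.ofMulAction k Γ X →ₗ[k] k)

theorem etr_tr_apply (m : Rep.ofMulAction k Γ X) :
    etr_tr k Γ X m = ∑ x : X, (lcdb_coord (k := k) (Γ := Γ) (X := X)).π x m := by
  unfold etr_tr
  rw [LinearMap.sum_apply]

theorem etr_tr_rho (g : Γ) (m : Rep.ofMulAction k Γ X) :
    etr_tr k Γ X ((Rep.ofMulAction k Γ X).ρ g m) = etr_tr k Γ X m := by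
  rw [etr_tr_apply, etr_tr_apply]
  rw [← Equiv.sum_comp (MulAction.toPerm g)
    (fun x => (lcdb_coord (k := k) (Γ := Γ) (X := X)).π x ((Rep.ofMulAction k Γ X).ρ g m))]
  refine Finset.sum_congr rfl fun x _ => ?_
  exact (lcdb_coord (k := k) (Γ := Γ) (X := X)).equiv g x m

theorem etr_one_rho (g : Γ) :
    (Rep.ofMulAction k Γ X).ρ g (etr_one k Γ X) = etr_one k Γ X := by
  rw [← sub_eq_zero]
  apply (lcdb_coord (k := k) (Γ := Γ) (X := X)).inj
  intro x
  rw [map_sub, sub_eq_zero, etr_one_coeff]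
  have h := (lcdb_coord (k := k) (Γ := Γ) (X := X)).equiv g (g⁻¹ • x) (etr_one k Γ X)
  rw [smul_inv_smul, etr_one_coeff] at h
  exact h

theorem etr_tr_smul_one (c : k) :
    etr_tr k Γ X (c • etr_one k Γ X) = c * (Fintype.card X : k) := by
  rw [map_smul, etr_tr_apply, smul_eq_mul]
  congr 1
  rw [Finset.sum_congr rfl fun x _ => etr_one_coeff (k := k) (Γ := Γ) x]
  simp

end trace

/-- **[E-TRANSFER]** -/
theorem etr_main : ec_TransferStatement := by
  intro p _ G _ P N hNn hNP hNidx hcop z hz hzc a₁ ha₁c ha₁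
  classical
  have hp : p.Prime := Fact.out
  have hPidx : P.index ≠ 0 := by
    intro h0
    rw [h0, Nat.coprime_zero_left] at hcop
    exact hp.one_lt.ne' hcop
  have hPfi : P.FiniteIndex := ⟨hPidx⟩
  have : Finite (G ⧸ P) := Subgroup.finite_quotient_of_finiteIndex
  let _ : Fintype (G ⧸ P) := Fintype.ofFinite _
  -- the image of `z` in the permutation module
  let zt : G × G × G → Rep.ofMulAction (ZMod p) G (G ⧸ P) :=
    fun x => z x • etr_one (ZMod p) G (G ⧸ P)
  have hzt : ∀ x, shp_d₃ (MonoidHom.id G) (Rep.ofMulAction (ZMod p) G (G ⧸ P)) zt x = 0 := by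
    rintro ⟨g, h, j, l⟩
    show (Rep.ofMulAction (ZMod p) G (G ⧸ P)).ρ g (z (h, j, l) • etr_one (ZMod p) G (G ⧸ P))
      - z (g * h, j, l) • etr_one (ZMod p) G (G ⧸ P)
      + z (g, h * j, l) • etr_one (ZMod p) G (G ⧸ P)
      - z (g, h, j * l) • etr_one (ZMod p) G (G ⧸ P)
      + z (g, h, j) • etr_one (ZMod p) G (G ⧸ P) = 0
    rw [map_smul, etr_one_rho g]
    rw [← sub_smul, ← add_smul, ← sub_smul, ← add_smul, hz g h j l, zero_smul]
  have hztc : shp_Const₃ (MonoidHom.id G) N zt := by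
    intro g g' g'' s s' s'' hs hs' hs''
    show z _ • _ = z _ • _
    rw [hzc g g' g'' s s' s'' hs hs' hs'']
  -- the primitive on `P`, extended by `0`
  let a₀ : G × G → ZMod p := fun x =>
    if h : x.1 ∈ P ∧ x.2 ∈ P then a₁ (⟨x.1, h.1⟩, ⟨x.2, h.2⟩) else 0
  have ha₀ : ∀ (v w : G) (hv : v ∈ P) (hw : w ∈ P), a₀ (v, w) = a₁ (⟨v, hv⟩, ⟨w, hw⟩) :=
    fun v w hv hw => dif_pos ⟨hv, hw⟩
  obtain ⟨at', hatc, hat⟩ := lcdb_shapiro₃ (k := ZMod p) P N hNP zt hzt hztc a₀
    (by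
      intro v w n n' hv hw hn hn'
      rw [ha₀ _ _ (P.mul_mem hv (hNP hn)) (P.mul_mem hw (hNP hn')), ha₀ _ _ hv hw]
      exact ha₁c ⟨v, hv⟩ ⟨w, hw⟩ ⟨n, hNP hn⟩ ⟨n', hNP hn'⟩ hn hn')
    (by
      intro u v w hu hv hw
      rw [ha₀ _ _ hv hw, ha₀ _ _ (P.mul_mem hu hv) hw, ha₀ _ _ hu (P.mul_mem hv hw),
        ha₀ _ _ hu hv]
      have h1 := ha₁ (⟨u, hu⟩, ⟨v, hv⟩, ⟨w, hw⟩)
      simp only [kl_d₂] at h1
      rw [← lcdb_coord_π]
      show (lcdb_coord (k := ZMod p) (Γ := G) (X := G ⧸ P)).π _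
        (z (u, v, w) • etr_one (ZMod p) G (G ⧸ P)) = _
      rw [map_smul, etr_one_coeff, smul_eq_mul, mul_one]
      exact h1.symm)
  -- the index is a unit of `F_p`
  have hcard : (Fintype.card (G ⧸ P) : ZMod p) ≠ 0 := by
    rw [← Nat.card_eq_fintype_card]
    show ((P.index : ℕ) : ZMod p) ≠ 0
    rw [Ne, ZMod.natCast_eq_zero_iff]
    intro hdvd
    have := Nat.Coprime.eq_one_of_dvd hcop.symm hdvd
    exact hp.one_lt.ne' this
  refine ⟨fun x => (Fintype.card (G ⧸ P) : ZMod p)⁻¹ * etr_tr (ZMod p) G (G ⧸ P) (at' x),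
    ?_, ?_⟩
  · intro g g' s s' hs hs'
    show _ * etr_tr (ZMod p) G (G ⧸ P) (at' _) = _ * etr_tr (ZMod p) G (G ⧸ P) (at' _)
    rw [hatc g g' s s' hs hs']
  · rintro ⟨g, h, j⟩
    have h1 : etr_tr (ZMod p) G (G ⧸ P)
          ((Rep.ofMulAction (ZMod p) G (G ⧸ P)).ρ g (at' (h, j)))
        - etr_tr (ZMod p) G (G ⧸ P) (at' (g * h, j))
        + etr_tr (ZMod p) G (G ⧸ P) (at' (g, h * j))
        - etr_tr (ZMod p) G (G ⧸ P) (at' (g, h)) =
        etr_tr (ZMod p) G (G ⧸ P) (zt (g, h, j)) := by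
      rw [← map_sub, ← map_add, ← map_sub]
      exact congrArg (etr_tr (ZMod p) G (G ⧸ P)) (hat (g, h, j))
    rw [etr_tr_rho] at h1
    have h2 : etr_tr (ZMod p) G (G ⧸ P) (zt (g, h, j)) =
        z (g, h, j) * (Fintype.card (G ⧸ P) : ZMod p) := etr_tr_smul_one _
    rw [h2] at h1
    simp only [kl_d₂]
    rw [← mul_sub, ← mul_add, ← mul_sub, h1, mul_comm (z (g, h, j)), ← mul_assoc,
      inv_mul_cancel₀ hcard, one_mul]

end Fermat.Agent.S55
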