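/-
S55 (fifth wave), GLOBAL side, part 3, [K-SHA]: the leaf [KSHA-PHI] = `ksha_PhiStatement` of
`Global/KShaDefs.lean` (pure cochain algebra).  Owner: helper27.  Prefix `ksha_`.

`Φ = ζ ^ ε / ((b ∪ ỹ) · (x ∪ δy))` is a `p`-primary multiplicative 2-cocycle of every level `F'`
containing `F` modulo which `ε` and `y` are constant.

Export: `ksha_phi_main : ksha_PhiStatement`.
-/
import Fermat.Agent.S55.Global.KShaBasic

set_option autoImplicit false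
set_option linter.style.haveILetI false
set_option maxHeartbeats 1000000
set_option synthInstance.maxHeartbeats 400000
open CategoryTheory Module groupCohomology ExtCitation

noncomputable section

namespace Fermat.Agent.S55

local notation "Qbar" => AlgebraicClosure ℚ

/-! ### Identities in the units of a field -/

section Aux

theorem ksha_aux_B' {L : Type*} [Field L] (B₁ B₀ A X gb : L) (hB₀ : B₀ ≠ 0)
    (hA : A ≠ 0) (hgb0 : gb ≠ 0) (hB₁ : B₁ ≠ 0) (n m k d p : ℕ)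
    (hmn : m + n = k + p * d) (hpow : B₀ ^ p = X) (hgb : gb / B₁ * B₀ = A) :
    B₁ ^ n * B₀ ^ m / (gb ^ n * B₀ ^ k) = (A ^ n)⁻¹ * X ^ d := by
  have e2 : B₀ ^ m * B₀ ^ n = B₀ ^ k * X ^ d := by
    rw [← hpow, ← pow_mul, ← pow_add, ← pow_add, hmn]
  have e3 : B₁ * A = gb * B₀ := by
    rw [← hgb]
    field_simp
  have e4 : B₁ ^ n * A ^ n = gb ^ n * B₀ ^ n := by
    rw [← mul_pow, e3, mul_pow]
  have hden : gb ^ n * B₀ ^ k ≠ 0 := mul_ne_zero (pow_ne_zero n hgb0) (pow_ne_zero k hB₀)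
  rw [div_eq_iff hden, inv_mul_eq_div, div_mul_eq_mul_div, eq_div_iff (pow_ne_zero n hA)]
  linear_combination (B₀ ^ m) * e4 + (gb ^ n) * e2

theorem ksha_aux_B {L : Type*} [Field L] (B₁ B₀ A X gb : Lˣ) (n m k d p : ℕ)
    (hmn : m + n = k + p * d) (hpow : B₀ ^ p = X) (hgb : gb / B₁ * B₀ = A) :
    B₁ ^ n * B₀ ^ m / (gb ^ n * B₀ ^ k) = (A ^ n)⁻¹ * X ^ d := by
  apply Units.ext
  have h1 := ksha_aux_B' (B₁ : L) B₀ A X gb B₀.ne_zero A.ne_zero gb.ne_zero B₁.ne_zero n m k d p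
    hmn (by rw [← hpow]; push_cast; rfl) (by rw [← hgb]; push_cast; rfl)
  push_cast
  exact h1

theorem ksha_aux_X {L : Type*} [CommGroup L] (x gx : L) (d₁ d₂ d₃ d₄ : ℕ)
    (h : d₁ + d₂ = d₃ + d₄) :
    x ^ d₁ * x ^ d₂ / (gx ^ d₃ * x ^ d₄) = ((gx / x) ^ d₃)⁻¹ := by
  rw [← pow_add, h, pow_add, div_pow, inv_div, mul_div_mul_right_eq_div]

theorem ksha_aux_P' {L : Type*} [Field L] (Z B X Y : L) (hX : X ≠ 0)
    (hY : Y ≠ 0) (p n m d a k : ℕ) (hZ : Z ^ p = 1)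
    (hB : B ^ p = Y / X) (h : a + m = k + p * d) :
    (Z ^ n / (B ^ m * X ^ d)) ^ p = (Y ^ m)⁻¹ / (X ^ k)⁻¹ * (X ^ a)⁻¹ := by
  have e1 : (Z ^ n) ^ p = 1 := by rw [← pow_mul, mul_comm, pow_mul, hZ, one_pow]
  have e2 : (B ^ m) ^ p = Y ^ m / X ^ m := by rw [← pow_mul, mul_comm, pow_mul, hB, div_pow]
  have e3 : X ^ a * X ^ m = X ^ k * (X ^ d) ^ p := by
    rw [← pow_mul, ← pow_add, ← pow_add, h, mul_comm d p]
  rw [div_pow, mul_pow, e1, e2]
  field_simp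
  linear_combination e3

theorem ksha_aux_P {L : Type*} [Field L] (Z B X Y : Lˣ) (p n m d a k : ℕ) (hZ : Z ^ p = 1)
    (hB : B ^ p = Y / X) (h : a + m = k + p * d) :
    (Z ^ n / (B ^ m * X ^ d)) ^ p = (Y ^ m)⁻¹ / (X ^ k)⁻¹ * (X ^ a)⁻¹ := by
  apply Units.ext
  have h1 := ksha_aux_P' (Z : L) B X Y X.ne_zero Y.ne_zero p n m d a k
    (by rw [← Units.val_pow_eq_pow_val, hZ]; rfl)
    (by rw [← Units.val_pow_eq_pow_val, hB]; push_cast; rfl) h
  push_cast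
  exact h1

end Aux

/-! ### The three parts of the coboundary of `Φ` -/

section Phi

variable {p : ℕ} [Fact p.Prime] {S : Finset Nat.Primes} {K : IntermediateField ℚ Qbar}
  {c : ↥K.fixingSubgroup × ↥K.fixingSubgroup → ZMod p} {F : IntermediateField ℚ Qbar}
  {b : ↥K.fixingSubgroup → Qbarˣ} {x : Qbarˣ}
  {y : ↥K.fixingSubgroup → ZMod p}
  {ε : ↥K.fixingSubgroup × ↥K.fixingSubgroup → ZMod p}

theorem ksha_phi_def (ε : ↥K.fixingSubgroup × ↥K.fixingSubgroup → ZMod p)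
    (y : ↥K.fixingSubgroup → ZMod p) (b : ↥K.fixingSubgroup → Qbarˣ) (x : Qbarˣ)
    (g h : ↥K.fixingSubgroup) :
    ksha_Phi K ε y b x (g, h)
      = ksha_zeta p ^ (ε (g, h)).val / (b g ^ (y h).val * x ^ ksha_bock y (g, h)) := rfl

/-- the `ζ ^ ε`-part. -/
theorem ksha_phi_E (hε : ∀ g h j : ↥K.fixingSubgroup, kl_d₂ ε (g, h, j) = c (g, h) * y j)
    (g h j : ↥K.fixingSubgroup) :
    ksha_zeta p ^ (ε (g * h, j)).val * ksha_zeta p ^ (ε (g, h)).val /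
        (ksha_zeta p ^ (ε (h, j)).val * ksha_zeta p ^ (ε (g, h * j)).val)
      = ((ksha_zeta p ^ (c (g, h)).val) ^ (y j).val)⁻¹ := by
  have hζ := ksha_zeta_pow p
  have h1 : ε (g * h, j) + ε (g, h) - (ε (h, j) + ε (g, h * j)) = - (c (g, h) * y j) := by
    rw [← hε g h j]
    show _ = - (ε (h, j) - ε (g * h, j) + ε (g, h * j) - ε (g, h))
    ring
  rw [← ksha_pow_val_add hζ, ← ksha_pow_val_add hζ, ← ksha_pow_val_sub hζ, h1,
    ksha_pow_val_neg hζ, ksha_pow_val_mul hζ]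

/-- the `b ∪ ỹ`-part. -/
theorem ksha_phi_B (hD : ksha_Datum K S F c b x) (hy : kl_IsHom y)
    (g h j : ↥K.fixingSubgroup) :
    b (g * h) ^ (y j).val * b g ^ (y h).val /
        ((g • b h) ^ (y j).val * b g ^ (y (h * j)).val)
      = ((ksha_zeta p ^ (c (g, h)).val) ^ (y j).val)⁻¹ * (g • x / x) ^ ksha_bock y (h, j) :=
  ksha_aux_B (b (g * h)) (b g) (ksha_zeta p ^ (c (g, h)).val) (g • x / x) (g • b h)
    (y j).val (y h).val (y (h * j)).val (ksha_bock y (h, j)) p (ksha_bock_spec hy h j)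
    (hD.pow g) (hD.db g h)

/-- the `x ∪ δy`-part. -/
theorem ksha_phi_X (hy : kl_IsHom y) (x : Qbarˣ) (g h j : ↥K.fixingSubgroup) :
    x ^ ksha_bock y (g * h, j) * x ^ ksha_bock y (g, h) /
        ((g • x) ^ ksha_bock y (h, j) * x ^ ksha_bock y (g, h * j))
      = ((g • x / x) ^ ksha_bock y (h, j))⁻¹ :=
  ksha_aux_X x (g • x) _ _ _ _ (ksha_bock_cocycle hy g h j)

/-- `Φ` is a multiplicative 2-cocycle. -/
theorem ksha_phi_isCocycle (hcyc : ∀ s ∈ K.fixingSubgroup, cycloChar p s = 1)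
    (hD : ksha_Datum K S F c b x) (hy : kl_IsHom y)
    (hε : ∀ g h j : ↥K.fixingSubgroup, kl_d₂ ε (g, h, j) = c (g, h) * y j) :
    IsMulCocycle₂ (ksha_Phi K ε y b x) := by
  intro g h j
  have hsm : g • ksha_Phi K ε y b x (h, j)
      = ksha_zeta p ^ (ε (h, j)).val / ((g • b h) ^ (y j).val * (g • x) ^ ksha_bock y (h, j)) := by
    rw [ksha_phi_def, smul_div', smul_mul', smul_pow', smul_pow', smul_pow',
      ksha_smul_zeta K hcyc]
  rw [hsm, ksha_phi_def, ksha_phi_def, ksha_phi_def]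
  exact ksha_comm_aux _ _ _ _ _ _ _ _ _ _ _ _ _ _ (ksha_phi_E hε g h j) (ksha_phi_B hD hy g h j)
    (ksha_phi_X hy x g h j)

/-- `Φ ^ p = d ((x ∪ ỹ)⁻¹)`. -/
theorem ksha_phi_pow (hD : ksha_Datum K S F c b x) (hy : kl_IsHom y)
    (g h : ↥K.fixingSubgroup) :
    ksha_Phi K ε y b x (g, h) ^ p
      = ak_d₁ K (fun u => (x ^ (y u).val)⁻¹) (g, h) := by
  have h1 := ksha_aux_P (ksha_zeta p) (b g) x (g • x) p (ε (g, h)).val (y h).val
    (ksha_bock y (g, h)) (y g).val (y (g * h)).val (ksha_zeta_pow p) (hD.pow g)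
    (ksha_bock_spec hy g h)
  rw [ksha_phi_def, h1]
  show _ = g • (x ^ (y h).val)⁻¹ / (x ^ (y (g * h)).val)⁻¹ * (x ^ (y g).val)⁻¹
  rw [smul_inv', smul_pow']

omit [Fact p.Prime] in
theorem ksha_bock_const {F' : IntermediateField ℚ Qbar} (hyc : ak_Const₁ K F' y)
    (g h s s' : ↥K.fixingSubgroup) (hs : (s : s55_GQ) ∈ F'.fixingSubgroup)
    (hs' : (s' : s55_GQ) ∈ F'.fixingSubgroup) :
    ksha_bock y (g * s, h * s') = ksha_bock y (g, h) := by
  show ((y (g * s)).val + (y (h * s')).val) / p = ((y g).val + (y h).val) / p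
  rw [hyc g s hs, hyc h s' hs']

/-- `Φ` has level `F'`. -/
theorem ksha_phi_lev (hcyc : ∀ s ∈ K.fixingSubgroup, cycloChar p s = 1)
    (hD : ksha_Datum K S F c b x) {F' : IntermediateField ℚ Qbar} (hFF' : F ≤ F')
    (hyc : ak_Const₁ K F' y) (hεc : ak_Const₂ K F' ε) :
    ak_Lev₂ K F' (ksha_Phi K ε y b x) := by
  refine ⟨?_, ?_⟩
  · intro g h s s' hs hs'
    have hsF : (s : s55_GQ) ∈ F.fixingSubgroup :=
      IntermediateField.fixingSubgroup_antitone hFF' hs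
    rw [ksha_phi_def, ksha_phi_def, hεc g h s s' hs hs', hD.lev.1 g s hsF, hyc h s' hs',
      ksha_bock_const hyc g h s s' hs hs']
  · rintro ⟨g, h⟩
    have hζ : ((ksha_zeta p : Qbarˣ) : Qbar) ∈ F' :=
      hFF' (hD.level.le (ksha_zeta_mem K hcyc))
    have hb : ((b g : Qbarˣ) : Qbar) ∈ F' := hFF' (hD.lev.2 g)
    have hx : ((x : Qbarˣ) : Qbar) ∈ F' := hFF' hD.mem
    rw [ksha_phi_def]
    push_cast
    exact div_mem (pow_mem hζ _) (mul_mem (pow_mem hb _) (pow_mem hx _))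

/-- `Φ` is `p`-primary. -/
theorem ksha_phi_pprim (hD : ksha_Datum K S F c b x) (hy : kl_IsHom y)
    {F' : IntermediateField ℚ Qbar} (hFF' : F ≤ F') (hF' : ak_IsLevel K F')
    (hyc : ak_Const₁ K F' y) :
    ak_PPrim K p (ksha_Phi K ε y b x) := by
  refine ⟨1, F', fun u => (x ^ (y u).val)⁻¹, hF', ⟨?_, ?_⟩, ?_⟩
  · intro g s hs
    show (x ^ (y (g * s)).val)⁻¹ = (x ^ (y g).val)⁻¹
    rw [hyc g s hs]
  · intro g
    have hx : ((x : Qbarˣ) : Qbar) ∈ F' := hFF' hD.mem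
    show (((x ^ (y g).val)⁻¹ : Qbarˣ) : Qbar) ∈ F'
    push_cast
    exact inv_mem (pow_mem hx _)
  · rintro ⟨g, h⟩
    rw [pow_one]
    exact ksha_phi_pow hD hy g h

end Phi

/-- **[KSHA-PHI]** -/
theorem ksha_phi_main : ksha_PhiStatement := by
  intro p _ S K hcyc c F b x hD y hy ε hε F' hFF' hF' hyc hεc
  exact ⟨ksha_phi_isCocycle hcyc hD hy hε, ksha_phi_lev hcyc hD hFF' hyc hεc,
    ksha_phi_pprim hD hy hFF' hF' hyc⟩

end Fermat.Agent.S55
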