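/-
S55 (fifth wave), GLOBAL side, part 3, [K-SHA]: the leaf [KSHA-FORMULA] = `ksha_FormulaStatement`
of `Global/KShaDefs.lean` (the pairing formula), from [AK-RECIP], [KSHA-LOC-U], [KSHA-PLACES]
(hypotheses) and [KSHA-PHI], [KSHA-LOC-S], [KSHA-PTORS] (on main).
Owner: helper27.  Prefix `ksha_`.

Export: `ksha_formula_of : ak_RecipStatement → ksha_LocUStatement → ksha_PlacesStatement →
  ksha_FormulaStatement`.
-/
import Fermat.Agent.S55.Global.KShaPhi
import Fermat.Agent.S55.Global.KShaLocS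
import Fermat.Agent.S55.Global.KShaPTors

set_option autoImplicit false
set_option linter.style.haveILetI false
set_option maxHeartbeats 1000000
set_option synthInstance.maxHeartbeats 400000
open CategoryTheory Module groupCohomology ExtCitation
open scoped Classical

noncomputable section

namespace Fermat.Agent.S55

local notation "Qbar" => AlgebraicClosure ℚ

section Level

variable {p : ℕ} {S : Finset Nat.Primes} {K : IntermediateField ℚ Qbar}

/-- a common level for a datum, a level-`S` character and a level-`S` 2-cochain. -/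
theorem ksha_exists_level {F : IntermediateField ℚ Qbar} (hF : ak_IsLevel K F)
    {y : ↥K.fixingSubgroup → ZMod p} (hy : kl_LevelS₁ S K y)
    {ε : ↥K.fixingSubgroup × ↥K.fixingSubgroup → ZMod p} (hε : kl_LevelS₂ S K ε) :
    ∃ F' : IntermediateField ℚ Qbar, F ≤ F' ∧ ak_IsLevel K F' ∧ ak_Const₁ K F' y ∧
      ak_Const₂ K F' ε := by
  obtain ⟨F₁, hF₁, h1⟩ := hy
  obtain ⟨F₂, hF₂, h2⟩ := hε
  haveI := hF.fin
  haveI := hF₁.1
  haveI := hF₂.1
  obtain ⟨F', hF'fin, hle, hnorm⟩ := kpt_exists_normal (F ⊔ F₁ ⊔ F₂) inferInstance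
  have hFF' : F ≤ F' := le_trans (le_trans le_sup_left le_sup_left) hle
  have hF₁F' : F₁ ≤ F' := le_trans (le_trans le_sup_right le_sup_left) hle
  have hF₂F' : F₂ ≤ F' := le_trans le_sup_right hle
  refine ⟨F', hFF', ⟨le_trans hF.le hFF', hF'fin, fun u _ s hs => ?_⟩, ?_, ?_⟩
  · have := hnorm.conj_mem s hs u⁻¹
    rwa [inv_inv] at this
  · intro g s hs
    exact h1 g s (IntermediateField.fixingSubgroup_antitone hF₁F' hs)
  · intro g g' s s' hs hs'
    exact h2 g g' s s' (IntermediateField.fixingSubgroup_antitone hF₂F' hs)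
      (IntermediateField.fixingSubgroup_antitone hF₂F' hs')

end Level

section Places

variable (S : Finset Nat.Primes) (K : IntermediateField ℚ Qbar) (R : ↥S → Finset s55_GQ)

/-- the places above `S`, as a finite set of pairs. -/
def ksha_TS : Finset (Nat.Primes × s55_GQ) :=
  S.attach.biUnion (fun q => (R q).image (fun g => ((q : Nat.Primes), g)))

variable {S R}

theorem ksha_mem_TS {w : Nat.Primes × s55_GQ} :
    w ∈ ksha_TS S R ↔ ∃ q : ↥S, (q : Nat.Primes) = w.1 ∧ w.2 ∈ R q := by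
  unfold ksha_TS
  rw [Finset.mem_biUnion]
  constructor
  · rintro ⟨q, -, hq⟩
    obtain ⟨g, hg, rfl⟩ := Finset.mem_image.1 hq
    exact ⟨q, rfl, hg⟩
  · rintro ⟨q, hq, hg⟩
    refine ⟨q, Finset.mem_attach _ _, Finset.mem_image.2 ⟨w.2, hg, ?_⟩⟩
    exact Prod.ext hq rfl

theorem ksha_TS_fst {w : Nat.Primes × s55_GQ} (hw : w ∈ ksha_TS S R) : w.1 ∈ S := by
  obtain ⟨q, hq, -⟩ := ksha_mem_TS.1 hw
  rw [← hq]
  exact q.2

/-- the sum over the places above `S`. -/
theorem ksha_sum_TS {A : Type*} [AddCommMonoid A] (f : Nat.Primes × s55_GQ → A) :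
    ∑ w ∈ ksha_TS S R, f w = ∑ q : ↥S, ∑ g ∈ R q, f ((q : Nat.Primes), g) := by
  unfold ksha_TS
  rw [Finset.sum_biUnion]
  · rw [← Finset.univ_eq_attach]
    refine Finset.sum_congr rfl (fun q _ => ?_)
    rw [Finset.sum_image]
    intro a _ b _ hab
    exact (Prod.ext_iff.1 hab).2
  · intro q _ q' _ hqq'
    rw [Function.onFun, Finset.disjoint_left]
    intro w hw hw'
    obtain ⟨g, -, rfl⟩ := Finset.mem_image.1 hw
    obtain ⟨g', -, h⟩ := Finset.mem_image.1 hw'
    exact hqq' (Subtype.ext (Prod.ext_iff.1 h).1.symm)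

variable {K}

/-- `T_S ∪ T'` is a set of places. -/
theorem ksha_isPlaceSet_union [K.fixingSubgroup.Normal] (hR : kl_IsReps S K R)
    {T : Finset (Nat.Primes × s55_GQ)} (hT : ak_IsPlaceSet K T) (hTS : ∀ w ∈ T, w.1 ∉ S) :
    ak_IsPlaceSet K (ksha_TS S R ∪ T) := by
  intro w hw w' hw' hsame
  rcases Finset.mem_union.1 hw with h | h
  · rcases Finset.mem_union.1 hw' with h' | h'
    · -- both above `S`: uniqueness of the representative
      obtain ⟨q, hq, hg⟩ := ksha_mem_TS.1 h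
      obtain ⟨q', hq', hg'⟩ := ksha_mem_TS.1 h'
      obtain ⟨h1, τ, u, hu, h2⟩ := hsame
      have hqq' : q = q' := Subtype.ext (by rw [hq, hq', h1])
      subst hqq'
      obtain ⟨g₀, -, huniq⟩ := hR q w'.2
      obtain ⟨w1, w2⟩ := w
      obtain ⟨w1', w2'⟩ := w'
      simp only at hq hq' hg hg' h1 h2 huniq
      subst hq
      have e1 : w2' = g₀ := huniq w2' ⟨hg', 1, 1, K.fixingSubgroup.one_mem, by
        rw [map_one, one_mul, mul_one]⟩
      have e2 : w2 = g₀ := huniq w2 ⟨hg, τ, u, hu, h2⟩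
      rw [Prod.mk.injEq]
      exact ⟨h1, e2.trans e1.symm⟩
    · exact absurd (hsame.1 ▸ ksha_TS_fst h) (hTS w' h')
  · rcases Finset.mem_union.1 hw' with h' | h'
    · exact absurd (hsame.1 ▸ ksha_TS_fst h') (hTS w h)
    · exact hT w h w' h' hsame

/-- a place outside `T_S ∪ T'` lies outside `S`. -/
theorem ksha_outside_fst [K.fixingSubgroup.Normal] (hR : kl_IsReps S K R)
    {T : Finset (Nat.Primes × s55_GQ)} {w' : Nat.Primes × s55_GQ}
    (ho : ak_Outside K (ksha_TS S R ∪ T) w') : w'.1 ∉ S := by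
  intro hmem
  obtain ⟨g₀, ⟨hg₀, τ, u, hu, h2⟩, -⟩ := hR ⟨w'.1, hmem⟩ w'.2
  refine ho (w'.1, g₀) (Finset.mem_union_left _ (ksha_mem_TS.2 ⟨⟨w'.1, hmem⟩, rfl, hg₀⟩)) ?_
  exact ⟨rfl, τ, u, hu, h2⟩

theorem ksha_outside_right {T₁ T₂ : Finset (Nat.Primes × s55_GQ)} {w' : Nat.Primes × s55_GQ}
    (ho : ak_Outside K (T₁ ∪ T₂) w') : ak_Outside K T₂ w' :=
  fun w hw => ho w (Finset.mem_union_right _ hw)

end Places

/-- **[KSHA-FORMULA]** from [AK-RECIP], [KSHA-LOC-U], [KSHA-PLACES]. -/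
theorem ksha_formula_of (hRec : ak_RecipStatement) (hLocU : ksha_LocUStatement)
    (hPl : ksha_PlacesStatement) : ksha_FormulaStatement := by
  intro inv p _ S K _ R ctx c F b x hD y hy ε hεl hε T hT hTS N hN hout
  have hpp : p.Prime := Fact.out
  -- the cocycle `Φ`
  obtain ⟨F', hFF', hF', hyc, hεc⟩ := ksha_exists_level hD.level hy.2.1 hεl
  obtain ⟨hcoc, hlev, hpprim⟩ :=
    ksha_phi_main p S K ctx.cyc c F b x hD y hy.1 ε hε F' hFF' hF' hyc hεc
  -- the places
  obtain ⟨T', hTT', hT', hT'S, hT'out⟩ := hPl S K ctx.unr.1 T hT hTS x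
  have hplace := ksha_isPlaceSet_union ctx.reps hT' hT'S
  -- the invariants outside `S`
  have hU : ∀ (w : Nat.Primes × s55_GQ), w.1 ∉ S → ∀ n : ℤ, ksha_Ord w x n →
      ak_invP K inv w (ksha_Phi K ε y b x) = - (n • ksha_art K inv y w) :=
    fun w hw n hn => hLocU inv p S K R ctx c F b x hD y hy.1 hy.2.1 ε hεl hε w hw n hn
  have hzero : ∀ w' : Nat.Primes × s55_GQ, ak_Outside K (ksha_TS S R ∪ T') w' →
      ak_invP K inv w' (ksha_Phi K ε y b x) = 0 := by
    intro w' ho
    have h1 := ksha_outside_fst ctx.reps ho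
    rw [hU w' h1 0 (hT'out w' h1 (ksha_outside_right ho)), zero_smul, neg_zero]
  have hsum := hRec inv ctx.inv p hpp ctx.odd K F' ctx.unr.1 hF' _ hcoc hlev hpprim
    (ksha_TS S R ∪ T') hplace hzero
  -- split the sum
  have hdisj : Disjoint (ksha_TS S R) T' := by
    rw [Finset.disjoint_left]
    intro w hw hw'
    exact hT'S w hw' (ksha_TS_fst hw)
  rw [Finset.sum_union hdisj, ksha_sum_TS] at hsum
  have hS : ∑ q : ↥S, ∑ g ∈ R q, ak_invP K inv ((q : Nat.Primes), g) (ksha_Phi K ε y b x)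
      = ksha_sumS K inv S R ε := by
    unfold ksha_sumS
    refine Finset.sum_congr rfl (fun q _ => Finset.sum_congr rfl (fun g hg => ?_))
    exact kls_main inv p K (q : Nat.Primes) g y (hy.2.2 q g hg) ε b x
  have hT'sum : ∑ w ∈ T', ak_invP K inv w (ksha_Phi K ε y b x)
      = - ∑ w ∈ T, N w • ksha_art K inv y w := by
    rw [← Finset.sum_sdiff hTT']
    have h1 : ∑ w ∈ T' \ T, ak_invP K inv w (ksha_Phi K ε y b x) = 0 := by
      refine Finset.sum_eq_zero (fun w hw => ?_)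
      obtain ⟨hw1, hw2⟩ := Finset.mem_sdiff.1 hw
      have ho : ak_Outside K T w := by
        intro t ht hsame
        have := hT' t (hTT' ht) w hw1 hsame
        exact hw2 (this ▸ ht)
      obtain ⟨m, hm⟩ := hout w (hT'S w hw1) ho
      rw [hU w (hT'S w hw1) _ hm, mul_comm, mul_smul, natCast_zsmul,
        kpt_main inv p S K R ctx y hy.1 hy.2.1 w (hT'S w hw1), smul_zero, neg_zero]
    rw [h1, zero_add, ← Finset.sum_neg_distrib]
    refine Finset.sum_congr rfl (fun w hw => ?_)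
    exact hU w (hTS w hw) _ (hN w hw)
  rw [hS, hT'sum] at hsum
  exact add_neg_eq_zero.1 hsum

end Fermat.Agent.S55
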