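/-
S55 (Poitou-Tate), GLOBAL side, leaf [KEX-REC] of the cut of [K-EX] (helper20).  Prefix `kxr_`.

    theorem kxr_of   : ksha_FormulaStatement → kex_RecKStatement
    theorem kxr_main : ak_RecipStatement → kex_RecKStatement

Reciprocity over `K` for `μ_p`: the local invariants above `S` of a level-`S` `F_p`-valued
2-cocycle `ε` of `U = G_K` sum to zero.  This is the special case `y = 0` of the pairing formula
[KSHA-FORMULA] (helper27): the trivial datum `(F, b, x) = (K, 1, 1)` of `c = 0`, `y = 0 ∈ Ш¹`,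
`d₂ ε = 0 = c ∪ y`, `T = ∅`, `N = 0`; then `Φ = ζ ^ ε` and the formula reads
`ksha_sumS K inv S R ε = ∑_{w ∈ ∅} .. = 0`.
-/
import Mathlib
import Fermat.Agent.S55.Global.KExDefs
import Fermat.Agent.S55.Global.KShaFormula
import Fermat.Agent.S55.Global.KShaLocU
import Fermat.Agent.S55.Global.KShaPhi
import Fermat.Agent.S55.Global.KShaAdapt
import Fermat.Agent.S55.Global.EcoFin
import Fermat.Agent.S55.Global.EcoReps

set_option autoImplicit false
set_option linter.style.haveILetI false
set_option maxHeartbeats 1000000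
set_option synthInstance.maxHeartbeats 400000

noncomputable section

namespace Fermat.Agent.S55

local notation "Qbar" => AlgebraicClosure ℚ

/-- The trivial datum `(K, 1, 1)` of the zero cocycle. -/
theorem kxr_datum {p : ℕ} [Fact p.Prime] (S : Finset Nat.Primes)
    (K : IntermediateField ℚ Qbar) (hKS : K.IsUnramifiedOutside S) :
    ksha_Datum K S K (fun _ => (0 : ZMod p)) (fun _ => (1 : Qbarˣ)) 1 := by
  have h1 : (((1 : Qbarˣ) : Qbarˣ) : Qbar) ∈ K := by
    rw [Units.val_one]
    exact K.one_mem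
  refine ⟨⟨le_rfl, hKS.1, ?_⟩, hKS, ⟨fun _ _ _ => rfl, fun _ => h1⟩, ?_, h1, ?_⟩
  · intro u hu s hs
    exact K.fixingSubgroup.mul_mem (K.fixingSubgroup.mul_mem (K.fixingSubgroup.inv_mem hu) hs) hu
  · intro g h
    show g • (1 : Qbarˣ) / 1 * 1 = ksha_zeta p ^ (0 : ZMod p).val
    rw [ZMod.val_zero, pow_zero, smul_one, div_one, mul_one]
  · intro g
    rw [one_pow, smul_one, div_one]

/-- **[KEX-REC]** from the pairing formula [KSHA-FORMULA]. -/
theorem kxr_of (hF : ksha_FormulaStatement) : kex_RecKStatement := by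
  intro inv p _ S K _ R ctx c hc hcl
  have hD := kxr_datum (p := p) S K ctx.unr
  have hy : kl_IsSha₁ S K R (fun _ : ↥K.fixingSubgroup => (0 : ZMod p)) :=
    ⟨fun _ _ => (add_zero (0 : ZMod p)).symm, ⟨K, ctx.unr, fun _ _ _ => rfl⟩,
      fun _ _ _ _ => rfl⟩
  have hd : ∀ g h j : ↥K.fixingSubgroup,
      kl_d₂ c (g, h, j) = (fun _ => (0 : ZMod p)) (g, h) * (fun _ => (0 : ZMod p)) j := by
    intro g h j
    show c (h, j) - c (g * h, j) + c (g, h * j) - c (g, h) = 0 * 0
    have h1 := hc g h j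
    rw [mul_zero]
    have h2 : c (h, j) + c (g, h * j) = c (g * h, j) + c (g, h) := h1.symm
    have h3 : c (h, j) - c (g * h, j) + c (g, h * j) - c (g, h) =
        (c (h, j) + c (g, h * j)) - (c (g * h, j) + c (g, h)) := by abel
    rw [h3, h2, sub_self]
  have h := hF inv p S K R ctx (fun _ => (0 : ZMod p)) K (fun _ => (1 : Qbarˣ)) 1 hD
    (fun _ => (0 : ZMod p)) hy c hcl hd ∅
    (fun w hw => absurd hw (Finset.notMem_empty w))
    (fun w hw => absurd hw (Finset.notMem_empty w))
    (fun _ => (0 : ℤ))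
    (fun w hw => absurd hw (Finset.notMem_empty w))
    (fun w' _ _ => ⟨0, by
      letI : Fact (w'.1 : ℕ).Prime := ⟨w'.1.2⟩
      show ‖padicEmbedding (w'.1 : ℕ) (w'.2 (((1 : Qbarˣ) : Qbarˣ) : Qbar))‖ =
        ‖(((w'.1 : ℕ) : ℕ) : PadicAlgCl (w'.1 : ℕ))‖ ^ ((p : ℤ) * 0)
      rw [mul_zero, zpow_zero, Units.val_one, map_one, map_one, norm_one]⟩)
  rw [h, Finset.sum_empty]

/-- **[KEX-REC]** from reciprocity in absolute form. -/
theorem kxr_main (hRec : ak_RecipStatement) : kex_RecKStatement :=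
  kxr_of (ksha_formula_of hRec (klu_main ksha_phi_main) (ksad_places efin_main erep_main))

end Fermat.Agent.S55
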