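/-
S55 (fifth wave), GLOBAL side, package [K-EX], leaf [KEX-VFIN] (helper23).  Prefix `kxvf_`.

  theorem kxvf_main : kex_VFinStatement

Route: model `K` by the number field `↥K`.  `Σ` := the primes of `𝓞 K` above `S`, `Σ'` := `Σ` ∪ the
(finitely many) primes in the supports of representatives of the ideal classes (`icl_rep`).  For
`x` with `p ∣ ord_v x` outside `Σ`: the fractional ideal `∏ v ^ (ord_v x / p)` is `(y) · J` with
`J` supported on `Σ'` (finiteness of the class group), so `x / y ^ p` is a `Σ'`-unit; the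
`Σ'`-units modulo `p`-th powers are finite (helper18's `ssu_E_fin_Q`).  Dictionary
`(q, g) ↔` primes: `gpl_exists_prime_over`, `gpl_exists_embedding`, `flk_emb`, `plc_norm_eq`,
`ecln_c_eq` + `eord_main`.
-/
import Mathlib
import Fermat.Agent.S55.Global.KExArtDefs
import Fermat.Agent.S55.Global.IdeleClass
import Fermat.Agent.S55.Global.SecSUnitNF
import Fermat.Agent.S55.Global.EcoCln
import Fermat.Agent.S55.Global.EcoOrd
import Fermat.Agent.S55.Global.PlacesSurj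
import Fermat.Agent.S55.Global.FinLevelKPlace

set_option autoImplicit false
set_option linter.style.haveILetI false

namespace Fermat.Agent.S55

open IsDedekindDomain NumberField FractionalIdeal nonZeroDivisors

noncomputable section

section nf

variable (K : Type) [Field K] [NumberField K]

/-- the order of an element vanishes at almost all primes. -/
theorem kxvf_ord_finite (x : Kˣ) :
    {v : HeightOneSpectrum (𝓞 K) | ssu_ord K v (Additive.ofMul x) ≠ 0}.Finite := by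
  have h := Filter.eventually_cofinite.mp
    (FractionalIdeal.finite_factors (spanSingleton (𝓞 K)⁰ (x : K)))
  refine h.subset ?_
  intro v hv
  show ¬ (count K v (spanSingleton (𝓞 K)⁰ (x : K)) = 0)
  rw [icl_count_span v (x : K) (Units.ne_zero x)]
  exact hv

/-- the primes in the supports of the class representatives. -/
def kxvf_bad : Set (HeightOneSpectrum (𝓞 K)) :=
  {v | ∃ c : ClassGroup (𝓞 K), count K v ((icl_rep c : (FractionalIdeal (𝓞 K)⁰ K)ˣ) :
    FractionalIdeal (𝓞 K)⁰ K) ≠ 0}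

theorem kxvf_bad_finite : (kxvf_bad K).Finite := by
  have hfin : (⋃ c : ClassGroup (𝓞 K),
      {v : HeightOneSpectrum (𝓞 K) | count K v ((icl_rep c :
        (FractionalIdeal (𝓞 K)⁰ K)ˣ) : FractionalIdeal (𝓞 K)⁰ K) ≠ 0}).Finite := by
    apply Set.finite_iUnion
    intro c
    exact Filter.eventually_cofinite.mp (FractionalIdeal.finite_factors _)
  refine hfin.subset ?_
  rintro v ⟨c, h⟩
  rw [Set.mem_iUnion]
  exact ⟨c, h⟩

/-- a `p`-th root of the divisor of `x` outside `Σ` and the bad primes. -/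
theorem kxvf_exists_y (Sg : Set (HeightOneSpectrum (𝓞 K))) (p : ℕ) (x : Kˣ)
    (hx : ∀ v, v ∉ Sg → (p : ℤ) ∣ ssu_ord K v (Additive.ofMul x)) :
    ∃ y : Kˣ, ∀ v, v ∉ Sg → v ∉ kxvf_bad K →
      ssu_ord K v (Additive.ofMul x) = (p : ℤ) * ssu_ord K v (Additive.ofMul y) := by
  set c : HeightOneSpectrum (𝓞 K) → ℤ := fun v => ssu_ord K v (Additive.ofMul x) / (p : ℤ)
    with hc
  have hsupp : ∀ᶠ v : HeightOneSpectrum (𝓞 K) in Filter.cofinite, c v = 0 := by
    rw [Filter.eventually_cofinite]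
    refine (kxvf_ord_finite K x).subset ?_
    intro v hv h0
    apply hv
    show ssu_ord K v (Additive.ofMul x) / (p : ℤ) = 0
    rw [h0, Int.zero_ediv]
  set I : FractionalIdeal (𝓞 K)⁰ K :=
    ∏ᶠ v : HeightOneSpectrum (𝓞 K), (v.asIdeal : FractionalIdeal (𝓞 K)⁰ K) ^ c v with hI
  have hI0 : I ≠ 0 := by
    apply finprod_ne_zero
    intro v
    apply zpow_ne_zero
    rw [ne_eq, FractionalIdeal.coeIdeal_eq_zero]
    exact v.ne_bot
  have hcount : ∀ v, count K v I = c v := fun v => count_finprod K v _ hsupp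
  obtain ⟨Iu, hIu⟩ : ∃ Iu : (FractionalIdeal (𝓞 K)⁰ K)ˣ,
      (Iu : FractionalIdeal (𝓞 K)⁰ K) = I := ⟨Units.mk0 _ hI0, rfl⟩
  set cl := ClassGroup.mk K Iu with hcl
  have h1 : ClassGroup.mk K (Iu * (icl_rep cl)⁻¹) = 1 := by
    rw [map_mul, map_inv, icl_rep_spec]
    exact mul_inv_cancel _
  rw [ClassGroup.mk_eq_one_iff] at h1
  obtain ⟨a, ha⟩ := (FractionalIdeal.isPrincipal_iff _).mp h1
  have ha0 : a ≠ 0 := by
    rintro rfl
    rw [spanSingleton_zero] at ha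
    exact (Units.ne_zero _) ha
  have hsp : spanSingleton (𝓞 K)⁰ a ≠ 0 := by
    rw [ne_eq, spanSingleton_eq_zero_iff]
    exact ha0
  have hIeq : I = spanSingleton (𝓞 K)⁰ a *
      ((icl_rep cl : (FractionalIdeal (𝓞 K)⁰ K)ˣ) : FractionalIdeal (𝓞 K)⁰ K) := by
    rw [← ha, ← Units.val_mul, inv_mul_cancel_right, hIu]
  refine ⟨Units.mk0 a ha0, fun v hv hvb => ?_⟩
  have h2 : c v = -(WithZero.log (v.valuation K a)) + count K v ((icl_rep cl :
      (FractionalIdeal (𝓞 K)⁰ K)ˣ) : FractionalIdeal (𝓞 K)⁰ K) := by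
    rw [← hcount v, ← icl_count_span v a ha0, hIeq, count_mul K v hsp (Units.ne_zero _)]
  have h3 : count K v ((icl_rep cl : (FractionalIdeal (𝓞 K)⁰ K)ˣ) :
      FractionalIdeal (𝓞 K)⁰ K) = 0 := by
    by_contra h
    exact hvb ⟨cl, h⟩
  rw [h3, add_zero] at h2
  have h4 : ssu_ord K v (Additive.ofMul (Units.mk0 a ha0)) = c v := by
    rw [h2]
    rfl
  rw [h4]
  exact (Int.mul_ediv_cancel' (hx v hv)).symm

/-- representatives of the `Σ`-units modulo `p`-th powers. -/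
theorem kxvf_exists_reps (T : Finset (HeightOneSpectrum (𝓞 K))) (p : ℕ) (hp : p ≠ 0) :
    ∃ Y : Finset Kˣ, ∀ e : Kˣ, (∀ v, v ∉ T → v.valuation K (e : K) = 1) →
      ∃ ε ∈ Y, ∃ z : Kˣ, e = ε * z ^ p := by
  classical
  set pr : ↥T → HeightOneSpectrum (𝓞 K) := Subtype.val with hpr
  have hinj : Function.Injective pr := Subtype.val_injective
  have hrange : ∀ v, v ∉ Set.range pr ↔ v ∉ T := by
    intro v
    rw [hpr, Subtype.range_val]
    rfl
  obtain ⟨hfin, -⟩ := ssu_E_fin_Q K hinj p hp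
  have hidx : (ssu_pm (Additive ↥(ssu_E K (Set.range pr))) p).range.index ≠ 0 := by
    rw [← ssu_idx_zero_pm]
    exact hfin.1
  haveI : (ssu_pm (Additive ↥(ssu_E K (Set.range pr))) p).range.FiniteIndex := ⟨hidx⟩
  haveI : Finite (Additive ↥(ssu_E K (Set.range pr)) ⧸
      (ssu_pm (Additive ↥(ssu_E K (Set.range pr))) p).range) := inferInstance
  letI : Fintype (Additive ↥(ssu_E K (Set.range pr)) ⧸
      (ssu_pm (Additive ↥(ssu_E K (Set.range pr))) p).range) := Fintype.ofFinite _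
  refine ⟨Finset.univ.image (fun c : Additive ↥(ssu_E K (Set.range pr)) ⧸
      (ssu_pm (Additive ↥(ssu_E K (Set.range pr))) p).range =>
        (((Quotient.out c).toMul : ↥(ssu_E K (Set.range pr))) : Kˣ)), fun e he => ?_⟩
  have heE : e ∈ ssu_E K (Set.range pr) := fun v hv => he v ((hrange v).1 hv)
  set a : Additive ↥(ssu_E K (Set.range pr)) := Additive.ofMul ⟨e, heE⟩ with ha
  set c : Additive ↥(ssu_E K (Set.range pr)) ⧸
      (ssu_pm (Additive ↥(ssu_E K (Set.range pr))) p).range := QuotientAddGroup.mk a with hc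
  have h1 : (QuotientAddGroup.mk (Quotient.out c) : Additive ↥(ssu_E K (Set.range pr)) ⧸
      (ssu_pm (Additive ↥(ssu_E K (Set.range pr))) p).range) = QuotientAddGroup.mk a :=
    Quotient.out_eq c
  rw [QuotientAddGroup.eq] at h1
  obtain ⟨b, hb⟩ := h1
  refine ⟨_, Finset.mem_image_of_mem _ (Finset.mem_univ c), ((b.toMul : ↥(ssu_E K (Set.range pr))) : Kˣ), ?_⟩
  have h2 : a = Quotient.out c + p • b := by
    have : p • b = -Quotient.out c + a := hb
    rw [this, add_neg_cancel_left]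
  have h3 := congrArg (fun t : Additive ↥(ssu_E K (Set.range pr)) =>
    ((t.toMul : ↥(ssu_E K (Set.range pr))) : Kˣ)) h2
  exact h3

/-- **[KEX-VFIN]** for a number field. -/
theorem kxvf_nf (Sg : Set (HeightOneSpectrum (𝓞 K))) (hSg : Sg.Finite) (p : ℕ) (hp : p ≠ 0) :
    ∃ X : Finset Kˣ, ∀ x : Kˣ, (∀ v, v ∉ Sg → (p : ℤ) ∣ ssu_ord K v (Additive.ofMul x)) →
      ∃ x₀ ∈ X, ∃ z : Kˣ, x = x₀ * z ^ p := by
  classical
  set T : Finset (HeightOneSpectrum (𝓞 K)) := (hSg.union (kxvf_bad_finite K)).toFinset with hT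
  obtain ⟨Y, hY⟩ := kxvf_exists_reps K T p hp
  refine ⟨Y, fun x hx => ?_⟩
  obtain ⟨y, hy⟩ := kxvf_exists_y K Sg p x hx
  have he : ∀ v, v ∉ T → v.valuation K ((x / y ^ p : Kˣ) : K) = 1 := by
    intro v hv
    have hv' : v ∉ Sg ∧ v ∉ kxvf_bad K := by
      rw [hT, Set.Finite.mem_toFinset, Set.mem_union, not_or] at hv
      exact hv
    rw [← ssu_ord_eq_zero_iff, ofMul_div, ofMul_pow, map_sub, map_nsmul, hy v hv'.1 hv'.2,
      nsmul_eq_mul]
    ring
  obtain ⟨ε, hε, z, hz⟩ := hY _ he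
  refine ⟨ε, hε, z * y, ?_⟩
  rw [mul_pow, ← mul_assoc, ← hz, div_mul_cancel]

end nf

local notation "Qbar" => AlgebraicClosure ℚ

/-- The primality instance of an element of `Nat.Primes`. -/
local instance kxvf_fact (q : Nat.Primes) : Fact (q : ℕ).Prime := ⟨q.2⟩

/-- **[KEX-VFIN]** -/
theorem kxvf_main : kex_VFinStatement := by
  classical
  intro p _ S K hK
  have hfin : FiniteDimensional ℚ ↥K := hK.1
  let _i : NumberField ↥K := { to_charZero := inferInstance, to_finiteDimensional := hfin }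
  have hp : p ≠ 0 := (Fact.out : p.Prime).ne_zero
  set Sg : Set (HeightOneSpectrum (𝓞 ↥K)) :=
    ⋃ q ∈ (S : Set Nat.Primes), {v | ((q : ℕ) : 𝓞 ↥K) ∈ v.asIdeal} with hSg
  have hSgfin : Sg.Finite :=
    Set.Finite.biUnion S.finite_toSet (fun q _ => ecln_finite_over K q)
  obtain ⟨X, hX⟩ := kxvf_nf ↥K Sg hSgfin p hp
  refine ⟨X.image (Units.map (K.val : ↥K →* Qbar)), fun x hxK hdiv => ?_⟩
  have hx0 : (⟨(x : Qbar), hxK⟩ : ↥K) ≠ 0 := fun h => Units.ne_zero x (congrArg Subtype.val h)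
  have hord : ∀ v, v ∉ Sg → (p : ℤ) ∣ ssu_ord ↥K v
      (Additive.ofMul (Units.mk0 (⟨(x : Qbar), hxK⟩ : ↥K) hx0)) := by
    intro v hv
    obtain ⟨q, hq⟩ := gpl_exists_prime_over ↥K v
    have hqS : q ∉ S := fun h => hv (Set.mem_biUnion (Finset.mem_coe.2 h) hq)
    obtain ⟨ι, hι⟩ := gpl_exists_embedding (q : ℕ) ↥K v hq
    obtain ⟨g, hg⟩ := flk_emb K.val (q : ℕ) ι
    have hιe : ι = ecln_iota K (q : ℕ) g := hg
    obtain ⟨m, hm⟩ := hdiv q hqS g
    have hm' : ‖padicEmbedding (q : ℕ) (g (x : Qbar))‖ =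
        ‖(((q : ℕ) : ℕ) : PadicAlgCl (q : ℕ))‖ ^ ((p : ℤ) * m) := hm
    have h1 := plc_norm_eq (q : ℕ) (ecln_iota K (q : ℕ) g) (⟨(x : Qbar), hxK⟩ : ↥K) hx0
    rw [ecln_c_eq K eord_main (q : ℕ) hfin (ak_unramAt_of_outside hK q hqS) g, ← hιe, hι,
      hιe, ecln_iota_apply] at h1
    rw [plc_norm_q] at hm'
    have hq1 : (1 : ℝ) < ((q : ℕ) : ℝ) := by exact_mod_cast q.2.one_lt
    have hb0 : (0 : ℝ) < ((q : ℕ) : ℝ)⁻¹ := inv_pos.2 (lt_trans zero_lt_one hq1)
    have hb1 : ((q : ℕ) : ℝ)⁻¹ ≠ 1 := (inv_lt_one_of_one_lt₀ hq1).ne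
    have h2 : -(WithZero.log (v.valuation ↥K (⟨(x : Qbar), hxK⟩ : ↥K))) = (p : ℤ) * m := by
      apply zpow_right_injective₀ hb0 hb1
      show ((q : ℕ) : ℝ)⁻¹ ^ _ = ((q : ℕ) : ℝ)⁻¹ ^ _
      rw [← h1, ← hm']
    exact ⟨m, h2⟩
  obtain ⟨x₀, hx₀, z, hz⟩ := hX _ hord
  refine ⟨Units.map (K.val : ↥K →* Qbar) x₀, Finset.mem_image_of_mem _ hx₀,
    Units.map (K.val : ↥K →* Qbar) z, (z : ↥K).2, ?_⟩
  have h3 := congrArg (Units.map (K.val : ↥K →* Qbar)) hz
  rw [map_mul, map_pow] at h3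
  rw [← h3]
  exact Units.ext rfl

end

end Fermat.Agent.S55
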