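/-
S55 (fifth wave), GLOBAL side, [K-EX] package, leaf [KEX-YFIN] (helper8).  Prefix `kxy_`.

There are only finitely many level-`S` characters `U = G_K → F_p` (`ζ_p ∈ K`):
  `kxy_of : kex_KumGenStatement → ksha_OrdStatement → kex_VFinStatement → kex_YFinStatement`
  `kxy_main : kex_VFinStatement → kex_YFinStatement`   ([KEX-KUMGEN], [KSHA-ORD] plugged).

PROOF.  `y` is the Kummer character of `α`, `α ^ p = x ∈ Kˣ`, `α` in a field unramified outside
`S`; `p ∣ ord_w x` outside `S` by [KSHA-ORD]; `x = x₀ z ^ p` with `x₀` in the finite set `X` of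
[KEX-VFIN]; `y` is the Kummer character of `α / z`, a `p`-th root of `x₀`, and the Kummer
character of a `p`-th root of `x₀` does not depend on the root.
-/
import Fermat.Agent.S55.Global.KExArtDefs
import Fermat.Agent.S55.Global.KShaBasic
import Fermat.Agent.S55.Global.KExKumGen
import Fermat.Agent.S55.Global.KShaAdaptFin

set_option autoImplicit false
set_option linter.style.haveILetI false
set_option maxHeartbeats 1000000
set_option synthInstance.maxHeartbeats 400000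

open CategoryTheory Module groupCohomology ExtCitation

noncomputable section

namespace Fermat.Agent.S55

local notation "Qbar" => AlgebraicClosure ℚ

/-- `p ∣ ord_w (α ^ p)` if `ord_w α ∈ ℤ`. -/
theorem kxy_pdiv_pow (p : ℕ) (w : Nat.Primes × s55_GQ) (α : Qbarˣ) (N : ℤ)
    (h : ksha_Ord w α N) : ksha_PDiv p w (α ^ p) := by
  refine ⟨N, ?_⟩
  letI : Fact (w.1 : ℕ).Prime := ⟨w.1.2⟩
  have h' : ‖padicEmbedding (w.1 : ℕ) (w.2 (α : Qbar))‖ =
      ‖(((w.1 : ℕ) : ℕ) : PadicAlgCl (w.1 : ℕ))‖ ^ N := h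
  show ‖padicEmbedding (w.1 : ℕ) (w.2 ((α ^ p : Qbarˣ) : Qbar))‖ =
    ‖(((w.1 : ℕ) : ℕ) : PadicAlgCl (w.1 : ℕ))‖ ^ ((p : ℤ) * N)
  rw [Units.val_pow_eq_pow_val, map_pow, map_pow, norm_pow, h', ← zpow_natCast, ← zpow_mul,
    mul_comm]

section

variable {p : ℕ} [Fact p.Prime] (K : IntermediateField ℚ Qbar)

/-- Elements of `Kˣ` are fixed by `U = G_K`. -/
theorem kxy_smul_of_mem (z : Qbarˣ) (hz : (z : Qbar) ∈ K) (σ : ↥K.fixingSubgroup) :
    σ • z = z := by
  apply Units.ext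
  exact (IntermediateField.mem_fixingSubgroup_iff K (σ : s55_GQ)).1 σ.2 _ hz

/-- The Kummer character of a `p`-th root of `x₀` does not depend on the root. -/
theorem kxy_unique (hcyc : ∀ s ∈ K.fixingSubgroup, cycloChar p s = 1)
    (y y' : ↥K.fixingSubgroup → ZMod p) (α α' : Qbarˣ) (hpow : α ^ p = α' ^ p)
    (hα : ∀ σ : ↥K.fixingSubgroup, σ • α = ksha_zeta p ^ (y σ).val * α)
    (hα' : ∀ σ : ↥K.fixingSubgroup, σ • α' = ksha_zeta p ^ (y' σ).val * α') : y = y' := by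
  funext σ
  have hu : (α / α') ^ p = 1 := by
    rw [div_pow, hpow, div_self']
  obtain ⟨a, ha⟩ := ksha_exists_log (ksha_zeta_prim p) (α / α') hu
  have hfix : σ • (α / α') = α / α' := by
    rw [← ha, ksha_smul_zeta_pow K hcyc]
  rw [smul_div', hα, hα', mul_div_mul_comm] at hfix
  have h1 : ksha_zeta p ^ (y σ).val / ksha_zeta p ^ (y' σ).val = 1 := by
    have h2 := mul_right_cancel (b := α / α') (a := ksha_zeta p ^ (y σ).val /
      ksha_zeta p ^ (y' σ).val) (c := 1) (by rw [one_mul]; exact hfix)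
    exact h2
  rw [div_eq_one] at h1
  exact ksha_pow_val_injective (ksha_zeta_prim p) h1

end

/-- **[KEX-YFIN]** from its inputs. -/
theorem kxy_of (hKum : kex_KumGenStatement) (hOrd : ksha_OrdStatement)
    (hV : kex_VFinStatement) : kex_YFinStatement := by
  intro p _ S K hK hunr hcyc
  obtain ⟨X, hX⟩ := hV p S K hunr
  classical
  let P : Qbarˣ → (↥K.fixingSubgroup → ZMod p) → Prop := fun x₀ y =>
    ∃ α : Qbarˣ, α ^ p = x₀ ∧ ∀ σ : ↥K.fixingSubgroup, σ • α = ksha_zeta p ^ (y σ).val * α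
  have huniq : ∀ (x₀ : Qbarˣ) (y y' : ↥K.fixingSubgroup → ZMod p), P x₀ y → P x₀ y' →
      y = y' := by
    rintro x₀ y y' ⟨α, hαp, hα⟩ ⟨α', hα'p, hα'⟩
    exact kxy_unique K hcyc y y' α α' (hαp.trans hα'p.symm) hα hα'
  let Φ : Qbarˣ → (↥K.fixingSubgroup → ZMod p) := fun x₀ =>
    if h : ∃ y, P x₀ y then h.choose else 0
  apply Set.Finite.subset ((Finset.finite_toSet X).image Φ)
  rintro y ⟨hy, hlev⟩
  obtain ⟨F, α, hF, hαF, hαK, hα⟩ := hKum p S K hunr hcyc y hy hlev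
  have hpd : ∀ q : Nat.Primes, q ∉ S → ∀ g : s55_GQ, ksha_PDiv p (q, g) (α ^ p) := by
    intro q hq g
    obtain ⟨N, hN⟩ := hOrd F hF.1 q (ak_unramAt_of_outside hF q hq) α hαF g
    exact kxy_pdiv_pow p (q, g) α N hN
  obtain ⟨x₀, hx₀, z, hzK, hxz⟩ := hX (α ^ p) hαK hpd
  have hP : P x₀ y := by
    refine ⟨α / z, ?_, fun σ => ?_⟩
    · rw [div_pow, hxz, mul_div_assoc, div_self', mul_one]
    · rw [smul_div', hα, kxy_smul_of_mem K z hzK, mul_div_assoc]
  have hex : ∃ y, P x₀ y := ⟨y, hP⟩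
  refine ⟨x₀, hx₀, ?_⟩
  show (if h : ∃ y, P x₀ y then h.choose else 0) = y
  rw [dif_pos hex]
  exact huniq x₀ _ _ hex.choose_spec hP

/-- **[KEX-YFIN]** with [KEX-KUMGEN] and [KSHA-ORD] plugged. -/
theorem kxy_main (hV : kex_VFinStatement) : kex_YFinStatement :=
  kxy_of kxk_main ksad_ord_fin hV

end Fermat.Agent.S55
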