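/-
S55 (fifth wave), GLOBAL side, part 3, [K-SHA]: the local Artin symbol at the places outside
`S`, in FROBENIUS FORM (for [KSHA-ARTSURJ]).  Owner: helper27.  Prefix `ksha_al_`.

* `ksha_al_frob` (local): `U` open, containing the inertia group, `φ` a Frobenius element of `U`,
  `t : U → F_p` an unramified smooth character  ⟹  `kex_artLoc inv q U t = kl_e (t φ)`
  (helper11's `tame_inv_unr_frob` with `a = ϖ = q`, helper5's `eoi_qu_isUnif`);
* `ksha_al_eq_zero` (local): such a `t` with `t φ = 0` is `0`;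
* `ksha_al_art` (dictionary): `ksha_art K inv y (q, g) = kex_artLoc inv q (ak_H K q g) (y ∘ r)`;
* `ksha_al_exists_frob`: for a place `w = (q, g)`, `q ∉ S`, there is `φ_w ∈ ak_H K q g` with
  `ksha_art K inv y w = kl_e (y (r_w φ_w))` for ALL level-`S` characters `y`, and
  `y ∘ r_w = 0` if `y (r_w φ_w) = 0`.
-/
import Fermat.Agent.S55.Global.KExArtDefs
import Fermat.Agent.S55.Global.KShaLocU
import Fermat.Agent.S55.Global.AkConj
import Fermat.Agent.S55.Global.EcoObInvLoc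
import Fermat.Agent.S55.Local.TameLoc

set_option autoImplicit false
set_option linter.style.haveILetI false
set_option linter.unusedVariables false
set_option linter.unusedSectionVars false
set_option maxHeartbeats 1000000
set_option synthInstance.maxHeartbeats 400000
open CategoryTheory Module groupCohomology ExtCitation

noncomputable section

namespace Fermat.Agent.S55

local notation "Qbar" => AlgebraicClosure ℚ

/-! ### Local part -/

section Local

variable {q : ℕ} [Fact q.Prime] {p : ℕ} [Fact p.Prime]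

theorem ksha_al_hom_one {H : Type*} [Monoid H] {t : H → ZMod p} (ht : kl_IsHom t) : t 1 = 0 := by
  have h := ht 1 1
  rw [one_mul] at h
  exact left_eq_add.mp h

/-- An additive character as a homomorphism to `Multiplicative (ZMod p)`. -/
def ksha_al_theta (U : Subgroup (lcf_Gal q)) (t : ↥U → ZMod p) (ht : kl_IsHom t) :
    ↥U →* Multiplicative (ZMod p) where
  toFun g := Multiplicative.ofAdd (t g)
  map_one' := by rw [ksha_al_hom_one ht]; rfl
  map_mul' g h := by rw [ht g h]; rfl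

theorem ksha_al_theta_apply (U : Subgroup (lcf_Gal q)) (t : ↥U → ZMod p) (ht : kl_IsHom t)
    (g : ↥U) : ksha_al_theta U t ht g = Multiplicative.ofAdd (t g) := rfl

theorem ksha_al_theta_smooth (U : Subgroup (lcf_Gal q)) (t : ↥U → ZMod p) (ht : kl_IsHom t)
    (hts : lcf_Smooth₁ U t) : lcf_Smooth₁ U (ksha_al_theta U t ht) := by
  obtain ⟨E, hE, h⟩ := hts
  exact ⟨E, hE, fun g s hs => congrArg Multiplicative.ofAdd (h g s hs)⟩

theorem ksha_al_theta_unr (U : Subgroup (lcf_Gal q)) (t : ↥U → ZMod p) (ht : kl_IsHom t)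
    (htu : kex_IsUnr U t) (s : ↥U) (hs : lcf_IsInert (s : lcf_Gal q)) :
    ksha_al_theta U t ht s = 1 := by
  rw [ksha_al_theta_apply, htu s hs]
  rfl

/-- **The local Artin symbol of an unramified character, Frobenius form.** -/
theorem ksha_al_frob {inv : lcf_InvType} (hinv : lcf_IsInvSystem inv)
    (U : Subgroup (lcf_Gal q)) (hU : lcf_IsOpen U)
    (hin : ∀ s : lcf_Gal q, lcf_IsInert s → s ∈ U) (φ : ↥U) (hφ : lcf_IsFrob U φ)
    (t : ↥U → ZMod p) (ht : kl_IsHom t) (hts : lcf_Smooth₁ U t) (htu : kex_IsUnr U t) :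
    kex_artLoc inv q U t = kl_e (t φ) := by
  haveI : NeZero p := ⟨(Fact.out : p.Prime).ne_zero⟩
  have h := tame_inv_unr_frob hinv hU (ksha_al_theta_smooth U t ht hts)
    (ksha_al_theta_unr U t ht htu) hφ (eoi_qu_isUnif U hin) (a := eoi_qu q)
    (fun g => eoi_qu_smul U g) 1 (by rw [zpow_one])
  have e : (fun x : ↥U × ↥U => kex_qLoc q ^ ksha_bock t x) =
      lcf_unrCoc U p (ksha_al_theta U t ht) (eoi_qu q) := by
    funext x
    rfl
  unfold kex_artLoc
  rw [e, h]
  unfold kl_e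
  congr 1
  rw [Int.cast_one, one_mul]
  rfl

/-- An unramified smooth character which vanishes at a Frobenius element is `0`. -/
theorem ksha_al_eq_zero (U : Subgroup (lcf_Gal q)) (hU : lcf_IsOpen U) (φ : ↥U)
    (hφ : lcf_IsFrob U φ) (t : ↥U → ZMod p) (ht : kl_IsHom t) (hts : lcf_Smooth₁ U t)
    (htu : kex_IsUnr U t) (h0 : t φ = 0) (τ : ↥U) : t τ = 0 := by
  have h1s : lcf_Smooth₁ U (1 : ↥U →* Multiplicative (ZMod p)) := by
    obtain ⟨E, hE, -⟩ := hU
    exact ⟨E, hE, fun g s hs => rfl⟩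
  have h := unr_abs_unrChar_unique U hU (ksha_al_theta U t ht) 1 φ
    (ksha_al_theta_smooth U t ht hts) h1s (ksha_al_theta_unr U t ht htu) (fun s hs => rfl) hφ
    (by rw [ksha_al_theta_apply, h0]; rfl)
  have h2 := congrArg (fun θ : ↥U →* Multiplicative (ZMod p) => Multiplicative.toAdd (θ τ)) h
  exact h2

end Local

/-! ### The dictionary -/

section Global

variable {p : ℕ} [Fact p.Prime] (K : IntermediateField ℚ Qbar)

/-- `ksha_art` is the local Artin symbol of the localised character. -/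
theorem ksha_al_art (inv : lcf_InvType) (y : ↥K.fixingSubgroup → ZMod p) (q : Nat.Primes)
    (g : s55_GQ) :
    letI : Fact (q : ℕ).Prime := ⟨q.2⟩
    ksha_art K inv y (q, g) =
      kex_artLoc inv (q : ℕ) (ak_H K (q : ℕ) g) (fun τ => y (ak_r K (q : ℕ) g τ)) := by
  letI : Fact (q : ℕ).Prime := ⟨q.2⟩
  show inv (q : ℕ) (ak_H K (q : ℕ) g) (ak_loc₂ K (q : ℕ) g (ksha_cupB K (ksha_qU q) y)) = _
  unfold kex_artLoc
  congr 1
  funext x
  show ak_emb (q : ℕ) g (ksha_qU q ^ ksha_bock y (ak_r K (q : ℕ) g x.1, ak_r K (q : ℕ) g x.2)) = _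
  rw [map_pow, kpt_emb_q]
  rfl

/-- At a place outside `S` the local Artin symbols of all level-`S` characters are computed by
one Frobenius element. -/
theorem ksha_al_exists_frob {inv : lcf_InvType} (hinv : lcf_IsInvSystem inv)
    (S : Finset Nat.Primes) (hK : K.IsUnramifiedOutside S) (q : Nat.Primes) (hq : q ∉ S)
    (g : s55_GQ) :
    letI : Fact (q : ℕ).Prime := ⟨q.2⟩
    ∃ φ : ↥(ak_H K (q : ℕ) g), ∀ y : ↥K.fixingSubgroup → ZMod p, kl_IsHom y →
      kl_LevelS₁ S K y →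
        ksha_art K inv y (q, g) = kl_e (y (ak_r K (q : ℕ) g φ)) ∧
        (y (ak_r K (q : ℕ) g φ) = 0 → ∀ τ : ↥(ak_H K (q : ℕ) g), y (ak_r K (q : ℕ) g τ) = 0) := by
  letI : Fact (q : ℕ).Prime := ⟨q.2⟩
  haveI : NeZero p := ⟨(Fact.out : p.Prime).ne_zero⟩
  have hU : lcf_IsOpen (ak_H K (q : ℕ) g) := aku_H_isOpen (q : ℕ) K hK.1 g
  have hin : ∀ s : lcf_Gal (q : ℕ), lcf_IsInert s → s ∈ ak_H K (q : ℕ) g :=
    fun s hs => aku_inert_mem (q : ℕ) K (ak_unramAt_of_outside hK q hq) g s hs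
  obtain ⟨-, φ, -, -, hφ, -⟩ := unr_abs_unrChar (q : ℕ) (ak_H K (q : ℕ) g) hU p
  refine ⟨φ, fun y hy hyl => ?_⟩
  obtain ⟨F, hF, hFy⟩ := hyl
  have ht : kl_IsHom (fun τ : ↥(ak_H K (q : ℕ) g) => y (ak_r K (q : ℕ) g τ)) := by
    intro a b
    show y (ak_r K (q : ℕ) g (a * b)) = _
    rw [map_mul, hy]
  have hts : lcf_Smooth₁ (ak_H K (q : ℕ) g)
      (fun τ : ↥(ak_H K (q : ℕ) g) => y (ak_r K (q : ℕ) g τ)) :=
    akc_loc₁_smooth K (q : ℕ) g F hF.1 y hFy
  have htu : kex_IsUnr (ak_H K (q : ℕ) g)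
      (fun τ : ↥(ak_H K (q : ℕ) g) => y (ak_r K (q : ℕ) g τ)) := by
    intro s hs
    have h1 : (s : lcf_Gal (q : ℕ)) ∈ ak_H F (q : ℕ) g :=
      aku_inert_mem (q : ℕ) F (ak_unramAt_of_outside hF q hq) g _ hs
    rw [ak_mem_H_iff] at h1
    have h2 := hFy 1 (ak_r K (q : ℕ) g s) (by rw [ak_r_coe]; exact h1)
    rw [one_mul] at h2
    show y (ak_r K (q : ℕ) g s) = 0
    rw [h2]
    exact ksha_al_hom_one hy
  refine ⟨?_, fun h0 τ => ?_⟩
  · rw [ksha_al_art]
    exact ksha_al_frob hinv _ hU hin φ hφ _ ht hts htu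
  · exact ksha_al_eq_zero _ hU φ hφ _ ht hts htu h0 τ

end Global

end Fermat.Agent.S55

namespace Fermat.Agent.S55

local notation "Qbar" => AlgebraicClosure ℚ

/-- The same with the value `u = r_w φ_w ∈ U`. -/
theorem ksha_al_exists_pt {p : ℕ} [Fact p.Prime] (K : IntermediateField ℚ Qbar)
    {inv : lcf_InvType} (hinv : lcf_IsInvSystem inv)
    (S : Finset Nat.Primes) (hK : K.IsUnramifiedOutside S) (q : Nat.Primes) (hq : q ∉ S)
    (g : s55_GQ) :
    ∃ u : ↥K.fixingSubgroup, ∀ y : ↥K.fixingSubgroup → ZMod p, kl_IsHom y →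
      kl_LevelS₁ S K y →
        ksha_art K inv y (q, g) = kl_e (y u) ∧
        (y u = 0 →
          letI : Fact (q : ℕ).Prime := ⟨q.2⟩
          ∀ τ : ↥(ak_H K (q : ℕ) g), y (ak_r K (q : ℕ) g τ) = 0) := by
  letI : Fact (q : ℕ).Prime := ⟨q.2⟩
  obtain ⟨φ, hφ⟩ := ksha_al_exists_frob (p := p) K hinv S hK q hq g
  exact ⟨ak_r K (q : ℕ) g φ, fun y hy hyl => hφ y hy hyl⟩

/-- The Artin symbol of a level-`S` character depends only on the place of `K`. -/
theorem ksha_al_conj {p : ℕ} [Fact p.Prime] (K : IntermediateField ℚ Qbar)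
    {inv : lcf_InvType} (hinv : lcf_IsInvSystem inv)
    (S : Finset Nat.Primes) (hK : K.IsUnramifiedOutside S)
    (y : ↥K.fixingSubgroup → ZMod p) (hy : kl_IsHom y) (hyl : kl_LevelS₁ S K y)
    (w w' : Nat.Primes × s55_GQ) (hsame : ak_SamePlace K w w') :
    ksha_art K inv y w = ksha_art K inv y w' := by
  obtain ⟨F₀, hF₀, hc⟩ := hyl
  obtain ⟨F, hF, hF₀F, hKF, -, -, hFn⟩ := klu_common_level hF₀ hK hK hK
  have hlev : ak_IsLevel K F := klu_isLevel hKF hF.1 hFn
  have hconst : ak_Const₁ K F y :=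
    fun g s hs => hc g s (IntermediateField.fixingSubgroup_antitone hF₀F hs)
  have h := akc_main inv hinv K F hK.1 hlev (ksha_cupB K (ksha_qU w.1) y)
    (klu_cupB_cocycle K w.1 y hy) (klu_cupB_lev K w.1 F y hconst) w w' hsame
  have e : ksha_qU w'.1 = ksha_qU w.1 := by rw [hsame.1]
  show ak_invP K inv w (ksha_cupB K (ksha_qU w.1) y) =
    ak_invP K inv w' (ksha_cupB K (ksha_qU w'.1) y)
  rw [e]
  exact h

end Fermat.Agent.S55
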