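/-
S55 (fifth wave), GLOBAL side, part 3, [K-SHA]: the leaf [KSHA-ARTSURJ] =
`ksha_ArtSurjStatement` of `Global/KShaDefs.lean`.  Owner: helper27.  Prefix `ksha_as_`.

Export: `ksha_as_of : kex_YFinStatement → ksha_ArtSurjStatement`
(`akp_main` = [AK-CYCP], `akc_main` = [AK-CONJ] and the Frobenius form of the local Artin symbol
are plugged in; the only hypothesis is the finiteness of the level-`S` characters).

PROOF.  `V = Ш¹` is a finite `F_p`-vector space.  For a place `w = (q, g)`, `q ∉ S`, the Artin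
symbol is `A_w (y) = kl_e (y (u_w))`, `u_w = r_w (Frob_w)` (`ksha_al_exists_pt`); it depends only
on the place (`ksha_al_conj`).  The evaluations `y ↦ y (u_w)` separate the points of `V`
([AK-CYCP] and `ksha_al_eq_zero`), so they span the dual of `V` (`kex_la_represent`); choosing
one representative in every class of places gives a set of places `T`.
-/
import Fermat.Agent.S55.Global.KShaArtLoc
import Fermat.Agent.S55.Global.KShaBasic
import Fermat.Agent.S55.Global.KShaAdapt
import Fermat.Agent.S55.Global.AkCycP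
import Fermat.Agent.S55.Global.KExLinAlg
import Fermat.Agent.S55.Local.PtInv

set_option autoImplicit false
set_option linter.style.haveILetI false
set_option linter.unusedVariables false
set_option linter.unusedSectionVars false
set_option maxHeartbeats 1000000
set_option synthInstance.maxHeartbeats 400000
open CategoryTheory Module groupCohomology ExtCitation

noncomputable section

namespace Fermat.Agent.S55

local notation "Qbar" => AlgebraicClosure ℚ

section E

variable {p : ℕ} [Fact p.Prime]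

theorem ksha_as_e_eq (a : ZMod p) : kl_e a = ptinv_e p a := (ptinv_e_apply p a).symm

theorem ksha_as_e_mul (c a : ZMod p) : kl_e (c * a) = c.val • kl_e a := by
  haveI : NeZero p := ⟨(Fact.out : p.Prime).ne_zero⟩
  rw [ksha_as_e_eq, ksha_as_e_eq, ← map_nsmul, nsmul_eq_mul, ZMod.natCast_zmod_val]

theorem ksha_as_e_zero : kl_e (0 : ZMod p) = 0 := by
  rw [ksha_as_e_eq, map_zero]

theorem ksha_as_e_eq_zero {a : ZMod p} (h : kl_e a = 0) : a = 0 := by
  rw [ksha_as_e_eq] at h
  exact (map_eq_zero_iff _ (ptinv_e_injective p)).1 h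

theorem ksha_as_e_sum {ι : Type*} (s : Finset ι) (f : ι → ZMod p) :
    kl_e (∑ i ∈ s, f i) = ∑ i ∈ s, kl_e (f i) := by
  rw [ksha_as_e_eq, map_sum]
  exact Finset.sum_congr rfl (fun i _ => (ksha_as_e_eq _).symm)

end E

/-- `Ш¹` as a subspace of the functions `U → F_p`. -/
def ksha_as_V (S : Finset Nat.Primes) (K : IntermediateField ℚ Qbar) [K.fixingSubgroup.Normal]
    (R : ↥S → Finset s55_GQ) (p : ℕ) [Fact p.Prime] :
    Submodule (ZMod p) (↥K.fixingSubgroup → ZMod p) where
  carrier := {y | kl_IsSha₁ S K R y}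
  zero_mem' := by
    refine ⟨fun g h => ?_, ⟨⊥, IntermediateField.isUnramifiedOutside_bot S, fun g s hs => rfl⟩,
      fun q g hg τ => rfl⟩
    simp
  add_mem' := by
    rintro y y' ⟨h1, ⟨F1, hF1, c1⟩, l1⟩ ⟨h2, ⟨F2, hF2, c2⟩, l2⟩
    refine ⟨fun g h => ?_, ⟨F1 ⊔ F2, hF1.sup hF2, fun g s hs => ?_⟩, fun q g hg τ => ?_⟩
    · simp only [Pi.add_apply, h1 g h, h2 g h]
      abel
    · simp only [Pi.add_apply]
      rw [c1 g s (IntermediateField.fixingSubgroup_antitone le_sup_left hs),
        c2 g s (IntermediateField.fixingSubgroup_antitone le_sup_right hs)]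
    · simp only [Pi.add_apply]
      rw [l1 q g hg τ, l2 q g hg τ, add_zero]
  smul_mem' := by
    rintro c y ⟨h1, ⟨F1, hF1, c1⟩, l1⟩
    refine ⟨fun g h => ?_, ⟨F1, hF1, fun g s hs => ?_⟩, fun q g hg τ => ?_⟩
    · simp only [Pi.smul_apply, h1 g h, smul_add]
    · simp only [Pi.smul_apply]
      rw [c1 g s hs]
    · simp only [Pi.smul_apply]
      rw [l1 q g hg τ, smul_zero]

theorem ksha_as_mem_V (S : Finset Nat.Primes) (K : IntermediateField ℚ Qbar)
    [K.fixingSubgroup.Normal] (R : ↥S → Finset s55_GQ) (p : ℕ) [Fact p.Prime]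
    (y : ↥K.fixingSubgroup → ZMod p) : y ∈ ksha_as_V S K R p ↔ kl_IsSha₁ S K R y := Iff.rfl

/-- The places outside `S`, as pairs. -/
abbrev ksha_as_P (S : Finset Nat.Primes) : Type := {w : Nat.Primes × s55_GQ // w.1 ∉ S}

/-- "the same place of `K`" as a setoid on the pairs outside `S`. -/
def ksha_as_setoid (S : Finset Nat.Primes) (K : IntermediateField ℚ Qbar) [NumberField ↥K] :
    Setoid (ksha_as_P S) where
  r a b := ak_SamePlace K a.1 b.1
  iseqv := ⟨fun a => ksad_same_refl K a.1, fun h => ksad_same_symm K h,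
    fun h h' => ksad_same_trans K h h'⟩

/-- **[KSHA-ARTSURJ]** from the finiteness of the level-`S` characters. -/
theorem ksha_as_of (hYF : kex_YFinStatement) : ksha_ArtSurjStatement := by
  intro inv p _ S K _ R ctx l hl
  classical
  have hp : p.Prime := Fact.out
  have hK := ctx.unr
  have hinv := ctx.inv
  haveI : NumberField ↥K := { to_charZero := inferInstance, to_finiteDimensional := hK.1 }
  -- finiteness of `V`
  haveI hfin : Finite ↥(ksha_as_V S K R p) := by
    have h := hYF p S K hK ctx.cyc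
    exact Set.finite_coe_iff.2 (h.subset (fun y hy => ⟨hy.1, hy.2.1⟩))
  haveI : FiniteDimensional (ZMod p) ↥(ksha_as_V S K R p) := inferInstance
  -- the Frobenius points
  choose u hu using fun (q : Nat.Primes) (hq : q ∉ S) (g : s55_GQ) =>
    ksha_al_exists_pt (p := p) K hinv S hK q hq g
  -- classes of places and representatives
  let st : Setoid (ksha_as_P S) := ksha_as_setoid S K
  let rep : Quotient st → ksha_as_P S := fun π => Quotient.out π
  let uQ : Quotient st → ↥K.fixingSubgroup := fun π => u (rep π).1.1 (rep π).2 (rep π).1.2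
  let ev : Quotient st → (↥(ksha_as_V S K R p) →ₗ[ZMod p] ZMod p) := fun π =>
    { toFun := fun y => y.1 (uQ π)
      map_add' := fun _ _ => rfl
      map_smul' := fun _ _ => rfl }
  let Φ : (Quotient st →₀ ZMod p) →ₗ[ZMod p] (↥(ksha_as_V S K R p) →ₗ[ZMod p] ZMod p) :=
    Finsupp.linearCombination (ZMod p) ev
  let Lam : ↥(ksha_as_V S K R p) →ₗ[ZMod p] ZMod p :=
    AddMonoidHom.toZModLinearMap p
      (AddMonoidHom.mk' (fun y : ↥(ksha_as_V S K R p) => l y.1) (fun y y' => hl y.1 y'.1))
  have hLam : ∀ t : ↥(ksha_as_V S K R p), Lam t = l t.1 := fun t => rfl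
  have hΦ : ∀ (c : Quotient st →₀ ZMod p) (t : ↥(ksha_as_V S K R p)),
      Φ.flip t c = ∑ π ∈ c.support, c π * t.1 (uQ π) := by
    intro c t
    show (Finsupp.linearCombination (ZMod p) ev c) t = _
    rw [Finsupp.linearCombination_apply, Finsupp.sum, LinearMap.sum_apply]
    exact Finset.sum_congr rfl (fun π _ => rfl)
  -- separation
  have hsep : ∀ t : ↥(ksha_as_V S K R p), (∀ c, Φ.flip t c = 0) → Lam t = 0 := by
    intro t ht
    have h0 : ∀ π, t.1 (uQ π) = 0 := by
      intro π
      have h := ht (Finsupp.single π 1)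
      rw [hΦ, Finsupp.support_single _ one_ne_zero, Finset.sum_singleton,
        Finsupp.single_eq_same, one_mul] at h
      exact h
    have ht0 : t = 0 := by
      by_contra hne
      have hex : ∃ g₀, t.1 g₀ ≠ 0 := by
        by_contra hall
        push Not at hall
        apply hne
        apply Subtype.ext
        funext g₀
        exact hall g₀
      obtain ⟨g₀, hg₀⟩ := hex
      have hts : kl_IsSha₁ S K R t.1 := t.2
      obtain ⟨F₀, hF₀, hc⟩ := hts.2.1
      obtain ⟨F, hF, hF₀F, hKF, -, -, hFn⟩ := klu_common_level hF₀ hK hK hK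
      have hlev : ak_IsLevel K F := klu_isLevel hKF hF.1 hFn
      have hconst : ak_Const₁ K F t.1 :=
        fun g s hs => hc g s (IntermediateField.fixingSubgroup_antitone hF₀F hs)
      obtain ⟨q, hq, g, τ, hτ⟩ := akp_main p hp ctx.odd K F hK.1 hlev
        (ksha_exists_zeta K ctx.cyc) t.1 hts.1 hconst ⟨g₀, hg₀⟩ S
      let w : ksha_as_P S := ⟨(q, g), hq⟩
      have hsame : ak_SamePlace K (rep (Quotient.mk st w)).1 w.1 := Quotient.mk_out (s := st) w
      have hA' : ksha_art K inv t.1 (rep (Quotient.mk st w)).1 = 0 := by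
        have h1 := (hu (rep (Quotient.mk st w)).1.1 (rep (Quotient.mk st w)).2
          (rep (Quotient.mk st w)).1.2 t.1 hts.1 hts.2.1).1
        have h2 : t.1 (u (rep (Quotient.mk st w)).1.1 (rep (Quotient.mk st w)).2
          (rep (Quotient.mk st w)).1.2) = 0 := h0 (Quotient.mk st w)
        rw [h2, ksha_as_e_zero] at h1
        exact h1
      have hA : ksha_art K inv t.1 (q, g) = 0 := by
        rw [← hA']
        exact (ksha_al_conj K hinv S hK t.1 hts.1 hts.2.1 _ _ hsame).symm
      have h3 := hu q hq g t.1 hts.1 hts.2.1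
      rw [h3.1] at hA
      exact hτ (h3.2 (ksha_as_e_eq_zero hA) τ)
    rw [ht0, map_zero]
  obtain ⟨c, hc⟩ := kex_la_represent Φ.flip Lam hsep
  -- the divisor
  have hinj : ∀ π ∈ c.support, ∀ π' ∈ c.support, (rep π).1 = (rep π').1 → π = π' := by
    intro π _ π' _ h
    exact Quotient.out_injective (Subtype.ext h)
  refine ⟨c.support.image (fun π => (rep π).1), ?_, ?_,
    fun w => if h : w.1 ∉ S then -(((c (Quotient.mk st ⟨w, h⟩)).val : ℕ) : ℤ) else 0, ?_⟩
  · intro w hw w' hw' hsame
    obtain ⟨π, hπ, rfl⟩ := Finset.mem_image.1 hw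
    obtain ⟨π', hπ', rfl⟩ := Finset.mem_image.1 hw'
    have : π = π' := (Quotient.out_equiv_out (s := st)).1 hsame
    rw [this]
  · intro w hw
    obtain ⟨π, hπ, rfl⟩ := Finset.mem_image.1 hw
    exact (rep π).2
  · intro y hy
    have h1 := hc ⟨y, hy⟩
    rw [hLam, hΦ] at h1
    rw [Finset.sum_image hinj]
    have h3 : ∀ π ∈ c.support,
        (if h : (rep π).1.1 ∉ S then -(((c (Quotient.mk st ⟨(rep π).1, h⟩)).val : ℕ) : ℤ) else 0) •
          ksha_art K inv y (rep π).1 = -(kl_e (c π * y (uQ π))) := by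
      intro π _
      have hN : (if h : (rep π).1.1 ∉ S then
          -(((c (Quotient.mk st ⟨(rep π).1, h⟩)).val : ℕ) : ℤ) else 0) =
            -(((c π).val : ℕ) : ℤ) := by
        rw [dif_pos (rep π).2]
        have e : Quotient.mk st ⟨(rep π).1, (rep π).2⟩ = π := Quotient.out_eq π
        rw [e]
      rw [hN]
      have h4 := (hu (rep π).1.1 (rep π).2 (rep π).1.2 y hy.1 hy.2.1).1
      have h5 : ksha_art K inv y (rep π).1 = kl_e (y (uQ π)) := h4
      rw [h5, ksha_as_e_mul, neg_smul, natCast_zsmul]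
    rw [Finset.sum_congr rfl h3, Finset.sum_neg_distrib, neg_neg, ← ksha_as_e_sum]
    exact congrArg kl_e h1

end Fermat.Agent.S55
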