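/-
S55 (fifth wave), GLOBAL side, part 3, [K-SHA]: the leaf [KSHA-EXI] (`ksha_ExiStatement`).
Owner: helper4.  Prefix `kxi_`.

`kxi_main : ksha_ClnStatement → ksha_KumFieldStatement → ksha_ExiStatement`.

ROUTE.  `h = p ^ j · m` the exponent of [KSHA-CLN], `m m' ≡ 1 mod p`; `k ∈ Kˣ` with
`ord_w k = h m' N_w` on `T`, `0` outside; `x ^ (p ^ j) = k`; [KSHA-KUMFIELD] (with `F = K`)
puts `x` and `μ_(p^(j+1))` into a level `F'` over `K`, unramified outside `S`;
`b(g) := ρ (g x / x)` with `ρ(ξ) ^ p = ξ`; `d b = ζ ^ c`.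
`c ∈ Ш²`: the cocycle relation and the level are read off from `d b`; the LOCAL primitives are
obtained directly (no invariants are needed): with `y ^ p = x` (`y ∈ ℚ̄ˣ`, NOT of level `S`)
`b(u) = ζ ^ a(u) · u y / y` for a unique `a : U → F_p`, `c = d₁ a` on ALL of `U`, `a` is constant
modulo `G_(F'(y))`, so `a ∘ r_w` is a smooth local primitive of `c ∘ r_w` at every place.
-/
import Fermat.Agent.S55.Global.KShaBasic
import Fermat.Agent.S55.Global.AkConj

set_option autoImplicit false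
set_option linter.style.haveILetI false
set_option maxHeartbeats 1000000
set_option synthInstance.maxHeartbeats 400000
open CategoryTheory Module groupCohomology ExtCitation

noncomputable section

namespace Fermat.Agent.S55

local notation "Qbar" => AlgebraicClosure ℚ

/-! ### Valuations -/

theorem kxi_ord_same (K : IntermediateField ℚ Qbar) (k : Qbarˣ) (hk : (k : Qbar) ∈ K)
    (w w' : Nat.Primes × s55_GQ) (h : ak_SamePlace K w w') (N : ℤ) (hN : ksha_Ord w k N) :
    ksha_Ord w' k N := by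
  obtain ⟨q, g⟩ := w
  obtain ⟨q', g'⟩ := w'
  obtain ⟨h1, τ, u, hu, h2⟩ := h
  have h1' : q = q' := h1
  subst h1'
  haveI : Fact (q : ℕ).Prime := ⟨q.2⟩
  have h2' : g' = localGaloisToGlobal (q : ℕ) τ * g * u := h2
  subst h2'
  have hN' : ‖padicEmbedding (q : ℕ) (g (k : Qbar))‖ = ‖(((q : ℕ) : ℕ) : PadicAlgCl (q : ℕ))‖ ^ N := hN
  show ‖padicEmbedding (q : ℕ) ((localGaloisToGlobal (q : ℕ) τ * g * u) (k : Qbar))‖
    = ‖(((q : ℕ) : ℕ) : PadicAlgCl (q : ℕ))‖ ^ N
  rw [← hN']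
  have huk : u (k : Qbar) = (k : Qbar) := by
    rw [IntermediateField.mem_fixingSubgroup_iff] at hu
    exact hu _ hk
  have e1 : (localGaloisToGlobal (q : ℕ) τ * g * u) (k : Qbar)
      = localGaloisToGlobal (q : ℕ) τ (g (k : Qbar)) := by
    rw [AlgEquiv.mul_apply, AlgEquiv.mul_apply, huk]
  rw [e1, padicEmbedding_localGaloisToGlobal]
  exact congrArg NNReal.toReal (nnnorm_padicAlgCl_algEquiv (q : ℕ) τ _)

theorem kxi_ord_root (w : Nat.Primes × s55_GQ) (x k : Qbarˣ) (n : ℕ) (hn : n ≠ 0)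
    (hx : x ^ n = k) (M : ℤ) (hk : ksha_Ord w k (((n : ℕ) : ℤ) * M)) : ksha_Ord w x M := by
  haveI : Fact (w.1 : ℕ).Prime := ⟨w.1.2⟩
  unfold ksha_Ord at hk ⊢
  have e1 : (k : Qbar) = (x : Qbar) ^ n := by
    rw [← hx]; simp
  rw [e1, map_pow, map_pow, norm_pow, mul_comm, zpow_mul, zpow_natCast] at hk
  have hnn : (0 : ℝ) ≤ ‖(((w.1 : ℕ) : ℕ) : PadicAlgCl (w.1 : ℕ))‖ ^ M :=
    zpow_nonneg (norm_nonneg _) _
  exact (pow_left_inj₀ (norm_nonneg _) hnn hn).1 hk

/-! ### The Kummer cochain -/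

section Kummer

variable {p : ℕ} [Fact p.Prime] (K : IntermediateField ℚ Qbar)

/-- an element of `F` is fixed by `G_F` (units version). -/
theorem kxi_smul_fix (F : IntermediateField ℚ Qbar) (x : Qbarˣ) (hx : (x : Qbar) ∈ F)
    (s : ↥K.fixingSubgroup) (hs : (s : s55_GQ) ∈ F.fixingSubgroup) : s • x = x := by
  apply Units.ext
  show (s : s55_GQ) (x : Qbar) = (x : Qbar)
  rw [IntermediateField.mem_fixingSubgroup_iff] at hs
  exact hs _ hx

theorem kxi_d₁_isCoc (b : ↥K.fixingSubgroup → Qbarˣ) : IsMulCocycle₂ (ak_d₁ K b) := by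
  intro g h j
  show ((g * h) • b j / b (g * h * j) * b (g * h)) * (g • b h / b (g * h) * b g)
    = g • (h • b j / b (h * j) * b h) * (g • b (h * j) / b (g * (h * j)) * b g)
  rw [smul_mul', smul_div', mul_smul, mul_assoc g h j]
  generalize g • h • b j = A
  generalize b (g * (h * j)) = B
  generalize b (g * h) = C
  generalize g • b h = D
  generalize g • b (h * j) = E
  generalize b g = G
  apply Additive.ofMul.injective
  simp only [ofMul_mul, ofMul_div]
  abel

/-- the cocycle relation of `c`, `d b = ζ ^ c`. -/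
theorem kxi_isCoc (hcyc : ∀ s ∈ K.fixingSubgroup, cycloChar p s = 1)
    (b : ↥K.fixingSubgroup → Qbarˣ)
    (c : ↥K.fixingSubgroup × ↥K.fixingSubgroup → ZMod p)
    (hdb : ∀ g h : ↥K.fixingSubgroup, ak_d₁ K b (g, h) = ksha_zeta p ^ (c (g, h)).val) :
    kl_IsCoc₂ c := by
  intro g h j
  have h1 := kxi_d₁_isCoc K b g h j
  rw [hdb, hdb, hdb, hdb, ksha_smul_zeta_pow K hcyc, ← ksha_pow_val_add (ksha_zeta_pow p),
    ← ksha_pow_val_add (ksha_zeta_pow p)] at h1
  exact ksha_pow_val_injective (ksha_zeta_prim p) h1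

/-- the level of `c`, `d b = ζ ^ c`. -/
theorem kxi_const (F : IntermediateField ℚ Qbar) (hF : ak_IsLevel K F)
    (b : ↥K.fixingSubgroup → Qbarˣ) (hb : ak_Lev₁ K F b)
    (c : ↥K.fixingSubgroup × ↥K.fixingSubgroup → ZMod p)
    (hdb : ∀ g h : ↥K.fixingSubgroup, ak_d₁ K b (g, h) = ksha_zeta p ^ (c (g, h)).val) :
    ak_Const₂ K F c := by
  intro g g' s s' hs hs'
  apply ksha_pow_val_injective (ksha_zeta_prim p)
  rw [← hdb, ← hdb]
  show (g * s) • b (g' * s') / b (g * s * (g' * s')) * b (g * s)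
    = g • b g' / b (g * g') * b g
  have e1 : b (g' * s') = b g' := hb.1 g' s' hs'
  have e2 : b (g * s) = b g := hb.1 g s hs
  have e3 : (g * s) • b g' = g • b g' := by
    rw [mul_smul, kxi_smul_fix K F (b g') (hb.2 g') s hs]
  have e4 : b (g * s * (g' * s')) = b (g * g') := by
    have e : g * s * (g' * s') = g * g' * (g'⁻¹ * s * g' * s') := by group
    rw [e]
    refine hb.1 _ _ ?_
    have h1 : (g' : s55_GQ)⁻¹ * (s : s55_GQ) * (g' : s55_GQ) ∈ F.fixingSubgroup :=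
      hF.normal _ g'.2 _ hs
    exact F.fixingSubgroup.mul_mem h1 hs'
  rw [e1, e2, e3, e4]

/-- the global primitive of `c` (of a level which is not `S` in general). -/
theorem kxi_prim (hcyc : ∀ s ∈ K.fixingSubgroup, cycloChar p s = 1)
    (F : IntermediateField ℚ Qbar) (hF : FiniteDimensional ℚ F)
    (b : ↥K.fixingSubgroup → Qbarˣ) (hb : ak_Const₁ K F b) (x : Qbarˣ)
    (hpow : ∀ g : ↥K.fixingSubgroup, b g ^ p = g • x / x)
    (c : ↥K.fixingSubgroup × ↥K.fixingSubgroup → ZMod p)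
    (hdb : ∀ g h : ↥K.fixingSubgroup, ak_d₁ K b (g, h) = ksha_zeta p ^ (c (g, h)).val) :
    ∃ (a : ↥K.fixingSubgroup → ZMod p) (F' : IntermediateField ℚ Qbar),
      FiniteDimensional ℚ F' ∧ ak_Const₁ K F' a ∧ ∀ u v : ↥K.fixingSubgroup,
        c (u, v) = kl_d₁ a (u, v) := by
  have hp : p.Prime := Fact.out
  -- a `p`-th root of `x`
  obtain ⟨y, hy⟩ : ∃ y : Qbarˣ, y ^ p = x := by
    obtain ⟨z, hz⟩ := IsAlgClosed.exists_pow_nat_eq (x : Qbar) hp.pos
    have hz0 : z ≠ 0 := by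
      rintro rfl
      rw [zero_pow hp.ne_zero] at hz
      exact x.ne_zero hz.symm
    exact ⟨Units.mk0 z hz0, Units.ext (by simpa using hz)⟩
  have hlog : ∀ u : ↥K.fixingSubgroup, ∃ a : ZMod p,
      ksha_zeta p ^ a.val = b u / (u • y / y) := by
    intro u
    apply ksha_exists_log (ksha_zeta_prim p)
    rw [div_pow, hpow, div_pow, ← smul_pow', hy, div_self']
  choose a ha using hlog
  have hb' : ∀ u : ↥K.fixingSubgroup, b u = ksha_zeta p ^ (a u).val * (u • y / y) := by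
    intro u
    rw [ha u, div_mul_cancel]
  refine ⟨a, IntermediateField.adjoin ℚ {(y : Qbar)} ⊔ F, ?_, ?_, ?_⟩
  · haveI : FiniteDimensional ℚ ↥(IntermediateField.adjoin ℚ {(y : Qbar)}) :=
      IntermediateField.adjoin.finiteDimensional
        ((AlgebraicClosure.isAlgebraic ℚ).isAlgebraic (y : Qbar)).isIntegral
    haveI := hF
    exact IntermediateField.finiteDimensional_sup _ _
  · intro g s hs
    apply ksha_pow_val_injective (ksha_zeta_prim p)
    rw [ha, ha]
    have hsF : (s : s55_GQ) ∈ F.fixingSubgroup :=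
      IntermediateField.fixingSubgroup_antitone le_sup_right hs
    have hsy : s • y = y := by
      refine kxi_smul_fix K _ y ?_ s
        (IntermediateField.fixingSubgroup_antitone le_sup_left hs)
      exact IntermediateField.subset_adjoin ℚ _ (Set.mem_singleton _)
    rw [hb g s hsF, mul_smul, hsy]
  · intro u v
    apply ksha_pow_val_injective (ksha_zeta_prim p)
    rw [← hdb]
    show u • b v / b (u * v) * b u = ksha_zeta p ^ (a v - a (u * v) + a u).val
    rw [ksha_pow_val_add (ksha_zeta_pow p), ksha_pow_val_sub (ksha_zeta_pow p),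
      hb' v, hb' (u * v), hb' u, smul_mul', ksha_smul_zeta_pow K hcyc, smul_div', mul_smul]
    generalize ksha_zeta p ^ (a v).val = A
    generalize ksha_zeta p ^ (a (u * v)).val = B
    generalize ksha_zeta p ^ (a u).val = C
    generalize u • v • y = Y1
    generalize u • y = Y2
    apply Additive.ofMul.injective
    simp only [ofMul_mul, ofMul_div]
    abel


/-- the local primitives of `c = d₁ a`. -/
theorem kxi_local [K.fixingSubgroup.Normal] (a : ↥K.fixingSubgroup → ZMod p)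
    (F' : IntermediateField ℚ Qbar) (hF' : FiniteDimensional ℚ F') (ha : ak_Const₁ K F' a)
    (c : ↥K.fixingSubgroup × ↥K.fixingSubgroup → ZMod p)
    (hc : ∀ u v : ↥K.fixingSubgroup, c (u, v) = kl_d₁ a (u, v))
    (q : Nat.Primes) (g : s55_GQ) :
    ∃ bl : ↥(kl_H K q) → ZMod p, lcf_Smooth₁ (kl_H K q) bl ∧
      ∀ τ τ' : ↥(kl_H K q), c (kl_r K q g τ, kl_r K q g τ') = kl_d₁ bl (τ, τ') := by
  refine ⟨fun τ => a (kl_r K q g τ), ?_, ?_⟩
  · refine ⟨akc_E (q : ℕ) g F', akc_E_finite (q : ℕ) g F' hF', fun τ s hs => ?_⟩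
    show a (kl_r K q g (τ * s)) = a (kl_r K q g τ)
    rw [map_mul]
    apply ha
    rw [kl_r_coe]
    exact akc_conj_mem_fix (q : ℕ) g F' _ (akc_fix_of_mem (q : ℕ) g F' _ hs)
  · intro τ τ'
    rw [hc]
    show a (kl_r K q g τ') - a (kl_r K q g τ * kl_r K q g τ') + a (kl_r K q g τ)
      = a (kl_r K q g τ') - a (kl_r K q g (τ * τ')) + a (kl_r K q g τ)
    rw [map_mul]

end Kummer

/-! ### The leaf -/

/-- **[KSHA-EXI]** from [KSHA-CLN] and [KSHA-KUMFIELD]. -/
theorem kxi_main (hCln : ksha_ClnStatement) (hKum : ksha_KumFieldStatement) :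
    ksha_ExiStatement := by
  intro inv p _ S K _ R hctx T hT hTS N
  have hp : p.Prime := Fact.out
  have hKfin : FiniteDimensional ℚ K := hctx.unr.1
  have hζ : ksha_zeta p ^ p = 1 := ksha_zeta_pow p
  -- the class number
  obtain ⟨h, hh, hcl⟩ := hCln S K hctx.unr
  obtain ⟨j, m, hm, hjm⟩ := Nat.exists_eq_pow_mul_and_not_dvd hh.ne' p hp.ne_one
  -- `m m' ≡ 1 mod p`
  obtain ⟨m', e, hmm'⟩ : ∃ m' e : ℤ, (m : ℤ) * m' = 1 + (p : ℤ) * e := by
    have hcop : IsCoprime (m : ℤ) (p : ℤ) := by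
      rw [Int.isCoprime_iff_gcd_eq_one, Int.gcd_natCast_natCast]
      exact (Nat.Coprime.symm ((Nat.Prime.coprime_iff_not_dvd hp).2 hm))
    obtain ⟨u, v, huv⟩ := hcop
    refine ⟨u, -v, ?_⟩
    linear_combination huv
  -- the element `k`
  obtain ⟨k, hkK, hkT, hkout⟩ := hcl T hT hTS (fun w => m' * N w)
  have hpj : p ^ j ≠ 0 := pow_ne_zero _ hp.ne_zero
  -- `ord_w k` is divisible by `p ^ j` everywhere outside `S`
  have hkT' : ∀ w ∈ T, ksha_Ord w k (((p ^ j : ℕ) : ℤ) * ((m : ℤ) * (m' * N w))) := by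
    intro w hw
    have h1 := hkT w hw
    have e1 : ((h : ℕ) : ℤ) * (m' * N w) = ((p ^ j : ℕ) : ℤ) * ((m : ℤ) * (m' * N w)) := by
      rw [hjm]; push_cast; ring
    rwa [e1] at h1
  have hkdiv : ∀ (q : Nat.Primes), q ∉ S → ∀ g : s55_GQ,
      ∃ m₀ : ℤ, ksha_Ord (q, g) k (((p ^ j : ℕ) : ℤ) * m₀) := by
    intro q hq g
    by_cases hout : ak_Outside K T (q, g)
    · refine ⟨0, ?_⟩
      rw [mul_zero]
      exact hkout (q, g) hq hout
    · unfold ak_Outside at hout
      simp only [not_forall, not_not] at hout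
      obtain ⟨w, hw, hsame⟩ := hout
      exact ⟨_, kxi_ord_same K k hkK w (q, g) hsame _ (hkT' w hw)⟩
  -- the root `x`
  obtain ⟨x, hx⟩ : ∃ x : Qbarˣ, x ^ (p ^ j) = k := by
    obtain ⟨z, hz⟩ := IsAlgClosed.exists_pow_nat_eq (k : Qbar) (Nat.pos_of_ne_zero hpj)
    have hz0 : z ≠ 0 := by
      rintro rfl
      rw [zero_pow hpj] at hz
      exact k.ne_zero hz.symm
    exact ⟨Units.mk0 z hz0, Units.ext (by simpa using hz)⟩
  -- the Kummer level
  have hKK : ak_IsLevel K K :=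
    ⟨le_rfl, hKfin, fun u hu s hs =>
      K.fixingSubgroup.mul_mem (K.fixingSubgroup.mul_mem (K.fixingSubgroup.inv_mem hu) hs) hu⟩
  obtain ⟨F, -, hlev, hunr, hxF, hroots⟩ := hKum p S hctx.odd hctx.mem K K hKK hctx.unr
    (ksha_exists_zeta K hctx.cyc) j k x hkK hx hkdiv
  -- the section `ρ` and the cochain `b`
  have hρ : ∀ ξ : Qbarˣ, ∃ z : Qbarˣ, z ^ p = ξ := by
    intro ξ
    obtain ⟨z, hz⟩ := IsAlgClosed.exists_pow_nat_eq (ξ : Qbar) hp.pos
    have hz0 : z ≠ 0 := by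
      rintro rfl
      rw [zero_pow hp.ne_zero] at hz
      exact ξ.ne_zero hz.symm
    exact ⟨Units.mk0 z hz0, Units.ext (by simpa using hz)⟩
  choose ρ hρ using hρ
  set b : ↥K.fixingSubgroup → Qbarˣ := fun g => ρ (g • x / x) with hbdef
  have hpow : ∀ g : ↥K.fixingSubgroup, b g ^ p = g • x / x := fun g => hρ _
  have hsk : ∀ g : ↥K.fixingSubgroup, g • k = k := fun g =>
    kxi_smul_fix K K k hkK g g.2
  have hbconst : ak_Const₁ K F b := by
    intro g s hs
    show ρ ((g * s) • x / x) = ρ (g • x / x)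
    rw [mul_smul, kxi_smul_fix K F x hxF s hs]
  have hbval : ∀ g : ↥K.fixingSubgroup, ((b g : Qbarˣ) : Qbar) ∈ F := by
    intro g
    apply hroots
    have h1 : b g ^ (p ^ (j + 1)) = 1 := by
      rw [pow_succ', pow_mul, hpow, div_pow, ← smul_pow', hx, hsk, div_self']
    have h2 := congrArg (fun u : Qbarˣ => (u : Qbar)) h1
    simpa using h2
  have hblev : ak_Lev₁ K F b := ⟨hbconst, hbval⟩
  -- the cocycle `c`
  have hdpow : ∀ z : ↥K.fixingSubgroup × ↥K.fixingSubgroup, ak_d₁ K b z ^ p = 1 := by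
    intro z
    show (z.1 • b z.2 / b (z.1 * z.2) * b z.1) ^ p = 1
    rw [mul_pow, div_pow, ← smul_pow', hpow, hpow, hpow, smul_div', mul_smul]
    generalize z.1 • z.2 • x = A
    generalize z.1 • x = B
    apply Additive.ofMul.injective
    simp only [ofMul_mul, ofMul_div, ofMul_one]
    abel
  have hlog : ∀ z : ↥K.fixingSubgroup × ↥K.fixingSubgroup, ∃ a : ZMod p,
      ksha_zeta p ^ a.val = ak_d₁ K b z := fun z =>
    ksha_exists_log (ksha_zeta_prim p) _ (hdpow z)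
  choose c hc using hlog
  have hdb : ∀ g h : ↥K.fixingSubgroup, ak_d₁ K b (g, h) = ksha_zeta p ^ (c (g, h)).val :=
    fun g h => (hc (g, h)).symm
  obtain ⟨a, F', hF', haconst, hca⟩ :=
    kxi_prim K hctx.cyc F hlev.fin b hbconst x hpow c hdb
  refine ⟨c, ⟨kxi_isCoc K hctx.cyc b c hdb, ⟨F, hunr, kxi_const K F hlev b hblev c hdb⟩,
    fun q g _ => kxi_local K a F' hF' haconst c hca (q : Nat.Primes) g⟩,
    F, b, x, ⟨hlev, hunr, hblev, hdb, hxF, hpow⟩, ?_, ?_⟩
  · intro w hw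
    refine ⟨e * N w, ?_⟩
    have h1 := kxi_ord_root w x k (p ^ j) hpj hx _ (hkT' w hw)
    have e1 : (m : ℤ) * (m' * N w) = N w + (p : ℤ) * (e * N w) := by
      linear_combination (N w) * hmm'
    rwa [e1] at h1
  · intro w' hw' hout
    refine ⟨0, ?_⟩
    rw [mul_zero]
    have h0 := hkout w' hw' hout
    have e0 : (0 : ℤ) = ((p ^ j : ℕ) : ℤ) * 0 := by rw [mul_zero]
    rw [e0] at h0
    exact kxi_ord_root w' x k (p ^ j) hpj hx 0 h0

end Fermat.Agent.S55
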