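/-
S55 (fifth wave), GLOBAL side (helper18): [KSHA-KUMFIELD], HYPOTHESIS-FREE
(`ksad_kumField` of `Global/KShaAdapt.lean` with [E-KUM] `ekum_main` plugged in).
-/
import Mathlib
import Fermat.Agent.S55.Global.KShaAdapt
import Fermat.Agent.S55.Global.EcoKum

set_option autoImplicit false

namespace Fermat.Agent.S55

/-- **[KSHA-KUMFIELD]**, hypothesis-free. -/
theorem ksad_kumField_fin : ksha_KumFieldStatement := ksad_kumField ekum_main

end Fermat.Agent.S55
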