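/-
S55 (fifth wave), GLOBAL side, part 3, [K-SHA]: the leaf [KSHA-EXI], HYPOTHESIS-FREE
(`kxi_main` of `Global/KShaExi.lean` with [KSHA-CLN] `ksad_cln_fin` and [KSHA-KUMFIELD]
`ksad_kumField_fin` plugged in).  Owner: helper4.  Prefix `kxi_`.
-/
import Fermat.Agent.S55.Global.KShaExi
import Fermat.Agent.S55.Global.KShaAdaptFin
import Fermat.Agent.S55.Global.KShaKumFieldFin

set_option autoImplicit false

namespace Fermat.Agent.S55

/-- **[KSHA-EXI]**, hypothesis-free. -/
theorem kxi_fin : ksha_ExiStatement := kxi_main ksad_cln_fin ksad_kumField_fin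

end Fermat.Agent.S55
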