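/-
S55 (fifth wave), GLOBAL side, [K-SHA] package, leaf [KSHA-HASSE] (helper8).  Prefix `khs_`.

Every `c ∈ Ш²` has a datum:
  `khs_of : ak_ConjStatement → ak_UnrStatement → ak_HasseStatement → ksha_H90Statement →
      ksha_HasseStatement`
  `khs_main : ak_HasseStatement → ksha_HasseStatement`   (AK-CONJ, AK-UNR, KSHA-H90 plugged).

PROOF.  `c` is constant modulo `G_{F₀}`; `F` a normal common level of `F₀` and `K`, unramified
outside `S`.  `f := ζ ^ c` is a multiplicative 2-cocycle of level `F` with `f ^ p = 1`.  Its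
local invariants vanish: outside `S` by [AK-UNR]; at `(q, g)`, `q ∈ S`, [AK-CONJ] reduces to a
representative `g₀ ∈ R q`, where the localisation is the coboundary of the smooth cochain
`ι(g₀ ζ) ^ b_w`, and (I2) applies.  [AK-HASSE] gives `b₀` of level `F` with `d b₀ = f`; `b₀ ^ p`
is a 1-cocycle of level `F`, and [KSHA-H90] gives `x`.
-/
import Fermat.Agent.S55.Global.KShaDefs
import Fermat.Agent.S55.Global.KShaBasic
import Fermat.Agent.S55.Global.KShaLocS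
import Fermat.Agent.S55.Global.KShaLocU
import Fermat.Agent.S55.Global.KShaH90
import Fermat.Agent.S55.Global.AkUnr
import Fermat.Agent.S55.Global.AkConj

set_option autoImplicit false
set_option maxHeartbeats 1000000
set_option synthInstance.maxHeartbeats 400000

open CategoryTheory Module groupCohomology ExtCitation

noncomputable section

namespace Fermat.Agent.S55

local notation "Qbar" => AlgebraicClosure ℚ

section

variable {p : ℕ} [Fact p.Prime] (K : IntermediateField ℚ Qbar)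

/-- `ζ ^ c` is a multiplicative 2-cocycle. -/
theorem khs_exp_cocycle (hcyc : ∀ s ∈ K.fixingSubgroup, cycloChar p s = 1)
    (c : ↥K.fixingSubgroup × ↥K.fixingSubgroup → ZMod p) (hc : kl_IsCoc₂ c) :
    IsMulCocycle₂ (fun z : ↥K.fixingSubgroup × ↥K.fixingSubgroup =>
      ksha_zeta p ^ (c z).val) := by
  intro g h j
  show ksha_zeta p ^ _ * ksha_zeta p ^ _ = g • (ksha_zeta p ^ _) * ksha_zeta p ^ _
  rw [ksha_smul_zeta_pow K hcyc, ← ksha_pow_val_add (ksha_zeta_pow p),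
    ← ksha_pow_val_add (ksha_zeta_pow p), hc g h j]

/-- `ζ ^ c` has level `F` if `c` is constant modulo `G_F` and `K ≤ F`. -/
theorem khs_exp_lev (hcyc : ∀ s ∈ K.fixingSubgroup, cycloChar p s = 1)
    (F : IntermediateField ℚ Qbar) (hKF : K ≤ F)
    (c : ↥K.fixingSubgroup × ↥K.fixingSubgroup → ZMod p) (hc : ak_Const₂ K F c) :
    ak_Lev₂ K F (fun z : ↥K.fixingSubgroup × ↥K.fixingSubgroup =>
      ksha_zeta p ^ (c z).val) := by
  refine ⟨fun g g' s s' hs hs' => ?_, fun z => ?_⟩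
  · show ksha_zeta p ^ _ = ksha_zeta p ^ _
    rw [hc g g' s s' hs hs']
  · show ((ksha_zeta p ^ (c z).val : Qbarˣ) : Qbar) ∈ F
    rw [Units.val_pow_eq_pow_val]
    exact pow_mem (hKF (ksha_zeta_mem K hcyc)) _

/-- `ζ ^ c` is `p`-primary. -/
theorem khs_exp_pprim (F : IntermediateField ℚ Qbar) (hlev : ak_IsLevel K F)
    (c : ↥K.fixingSubgroup × ↥K.fixingSubgroup → ZMod p) :
    ak_PPrim K p (fun z : ↥K.fixingSubgroup × ↥K.fixingSubgroup =>
      ksha_zeta p ^ (c z).val) := by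
  refine ⟨1, F, fun _ => 1, hlev, ⟨fun _ _ _ => rfl, fun _ => ?_⟩, fun z => ?_⟩
  · show ((1 : Qbarˣ) : Qbar) ∈ F
    rw [Units.val_one]
    exact one_mem _
  · show (ksha_zeta p ^ (c z).val) ^ (p ^ 1) = z.1 • (1 : Qbarˣ) / 1 * 1
    rw [pow_one, ← pow_mul, mul_comm, pow_mul, ksha_zeta_pow, one_pow, smul_one, div_one,
      mul_one]

/-- The values of `ζ ^ c` are units at every prime. -/
theorem khs_exp_unit (q : ℕ) [Fact q.Prime]
    (c : ↥K.fixingSubgroup × ↥K.fixingSubgroup → ZMod p)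
    (z : ↥K.fixingSubgroup × ↥K.fixingSubgroup) :
    ak_IsUnitAt q (ksha_zeta p ^ (c z).val) := by
  intro g
  have h := klu_norm_zeta (p := p) (q := q) g
  rw [ak_emb_coe] at h
  rw [Units.val_pow_eq_pow_val, map_pow, map_pow, norm_pow, h, one_pow]

end

section Local

variable {p : ℕ} [Fact p.Prime] (K : IntermediateField ℚ Qbar) [hK : K.fixingSubgroup.Normal]

/-- At a place `(q, g)` where `c ∘ r` is the coboundary of a smooth `F_p`-valued cochain, the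
localisation of `ζ ^ c` is a smooth coboundary. -/
theorem khs_loc_isCob (hcyc : ∀ s ∈ K.fixingSubgroup, cycloChar p s = 1)
    (q : Nat.Primes) (g : s55_GQ)
    (c : ↥K.fixingSubgroup × ↥K.fixingSubgroup → ZMod p)
    (b : ↥(kl_H K q) → ZMod p) (hb : lcf_Smooth₁ (kl_H K q) b)
    (hcb : ∀ τ τ' : ↥(kl_H K q), c (kl_r K q g τ, kl_r K q g τ') = kl_d₁ b (τ, τ')) :
    letI : Fact (q : ℕ).Prime := ⟨q.2⟩
    lcf_IsCob (ak_H K (q : ℕ) g) (ak_loc₂ K (q : ℕ) g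
      (fun z : ↥K.fixingSubgroup × ↥K.fixingSubgroup => ksha_zeta p ^ (c z).val)) := by
  letI : Fact (q : ℕ).Prime := ⟨q.2⟩
  have hH : ak_H K (q : ℕ) g = kl_H K q := kls_H_eq K q g
  let σ : ↥(ak_H K (q : ℕ) g) → ↥(kl_H K q) := fun τ => ⟨τ.1, hH ▸ τ.2⟩
  have hσmul : ∀ τ τ' : ↥(ak_H K (q : ℕ) g), σ (τ * τ') = σ τ * σ τ' := fun _ _ => rfl
  have hσr : ∀ τ : ↥(ak_H K (q : ℕ) g), kl_r K q g (σ τ) = ak_r K (q : ℕ) g τ := by
    intro τ
    apply Subtype.ext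
    rw [ak_r_coe, kl_r_coe]
  set ζ' : (PadicAlgCl (q : ℕ))ˣ := ak_emb (q : ℕ) g (ksha_zeta p) with hζ'
  have hζ'p : ζ' ^ p = 1 := by
    rw [hζ', ← map_pow, ksha_zeta_pow, map_one]
  have hfix : ∀ τ : ↥(ak_H K (q : ℕ) g), τ • ζ' = ζ' := by
    intro τ
    rw [hζ', aku_smul_emb, ksha_smul_zeta K hcyc]
  obtain ⟨E, hE, hEb⟩ := hb
  refine ⟨fun τ => ζ' ^ (b (σ τ)).val, ⟨E, hE, fun τ s hs => ?_⟩, fun τ τ' => ?_⟩
  · show ζ' ^ (b (σ (τ * s))).val = ζ' ^ (b (σ τ)).val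
    rw [hσmul, hEb (σ τ) (σ s) hs]
  · show τ • (ζ' ^ (b (σ τ')).val) / ζ' ^ (b (σ (τ * τ'))).val * ζ' ^ (b (σ τ)).val =
      ak_emb (q : ℕ) g (ksha_zeta p ^ (c (ak_r K (q : ℕ) g τ, ak_r K (q : ℕ) g τ')).val)
    rw [smul_pow', hfix, map_pow, ← hσr τ, ← hσr τ', hcb]
    show _ = ζ' ^ (b (σ τ') - b (σ τ * σ τ') + b (σ τ)).val
    rw [ksha_pow_val_add hζ'p, ksha_pow_val_sub hζ'p, hσmul]

end Local

/-- **[KSHA-HASSE]** from its inputs. -/
theorem khs_of (hConj : ak_ConjStatement) (hUnr : ak_UnrStatement)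
    (hHasse : ak_HasseStatement) (hH90 : ksha_H90Statement) : ksha_HasseStatement := by
  intro inv p _ S K hK R hctx c hc
  obtain ⟨hcoc, ⟨F₀, hF₀, hconst⟩, hloc⟩ := hc
  obtain ⟨F, hF, hF₀F, hKF, -, -, hn⟩ := klu_common_level hF₀ hctx.unr hF₀ hF₀
  have hlev : ak_IsLevel K F := klu_isLevel hKF hF.1 hn
  have hKfin : FiniteDimensional ℚ K := hctx.unr.1
  have hcF : ak_Const₂ K F c := fun g g' s s' hs hs' =>
    hconst g g' s s' (IntermediateField.fixingSubgroup_le hF₀F hs)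
      (IntermediateField.fixingSubgroup_le hF₀F hs')
  have hfcoc := khs_exp_cocycle K hctx.cyc c hcoc
  have hflev := khs_exp_lev K hctx.cyc F hKF c hcF
  have hfpp := khs_exp_pprim K F hlev c
  -- the local invariants vanish
  have hzero : ∀ w : Nat.Primes × s55_GQ, ak_invP K inv w
      (fun z : ↥K.fixingSubgroup × ↥K.fixingSubgroup => ksha_zeta p ^ (c z).val) = 0 := by
    rintro ⟨q, g⟩
    letI : Fact (q : ℕ).Prime := ⟨q.2⟩
    by_cases hq : q ∈ S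
    · obtain ⟨g₀, ⟨hg₀, τ, u, hu, hgu⟩, -⟩ := hctx.reps ⟨q, hq⟩ g
      have hsame : ak_SamePlace K (q, g₀) (q, g) := ⟨rfl, τ, u, hu, hgu⟩
      rw [← hConj inv hctx.inv K F hKfin hlev _ hfcoc hflev (q, g₀) (q, g) hsame]
      obtain ⟨b, hb, hcb⟩ := hloc ⟨q, hq⟩ g₀ hg₀
      show inv (q : ℕ) (ak_H K (q : ℕ) g₀) (ak_loc₂ K (q : ℕ) g₀ _) = 0
      exact (hctx.inv.eq_zero_iff (q : ℕ) _ (aku_H_isOpen (q : ℕ) K hKfin g₀) _
        (aku_loc₂_isCoc g₀ hF.1 _ hfcoc hflev.1)).2 (khs_loc_isCob K hctx.cyc q g₀ c b hb hcb)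
    · exact hUnr inv hctx.inv K F hKfin hlev (q : ℕ) (ak_unramAt_of_outside hF q hq) _ hfcoc
        hflev (fun z => khs_exp_unit K (q : ℕ) c z) g
  obtain ⟨b₀, hb₀, hdb⟩ := hHasse inv hctx.inv p (Fact.out : p.Prime) hctx.odd K F hKfin hlev
    (ksha_exists_zeta K hctx.cyc) _ hfcoc hflev hfpp hzero
  -- `b₀ ^ p` is a 1-cocycle of level `F`
  have hβcoc : IsMulCocycle₁ (fun g : ↥K.fixingSubgroup => b₀ g ^ p) := by
    intro g h
    have h1 : (g • b₀ h / b₀ (g * h) * b₀ g) ^ p = 1 := by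
      have h2 := hdb (g, h)
      have h3 : g • b₀ h / b₀ (g * h) * b₀ g = ksha_zeta p ^ (c (g, h)).val := h2
      rw [h3, ← pow_mul, mul_comm, pow_mul, ksha_zeta_pow, one_pow]
    show b₀ (g * h) ^ p = g • (b₀ h ^ p) * b₀ g ^ p
    rw [smul_pow', ← mul_pow]
    rw [mul_pow, div_pow] at h1
    rw [mul_pow]
    have h4 : (g • b₀ h) ^ p * b₀ g ^ p = b₀ (g * h) ^ p := by
      rw [div_mul_eq_mul_div, div_eq_one] at h1
      exact h1
    exact h4.symm
  have hβlev : ak_Lev₁ K F (fun g : ↥K.fixingSubgroup => b₀ g ^ p) := by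
    refine ⟨fun g s hs => ?_, fun g => ?_⟩
    · show b₀ (g * s) ^ p = b₀ g ^ p
      rw [hb₀.1 g s hs]
    · show ((b₀ g ^ p : Qbarˣ) : Qbar) ∈ F
      rw [Units.val_pow_eq_pow_val]
      exact pow_mem (hb₀.2 g) _
  obtain ⟨x, hx, hxb⟩ := hH90 K F hlev _ hβcoc hβlev
  exact ⟨F, b₀, x, ⟨hlev, hF, hb₀, fun g h => hdb (g, h), hx, hxb⟩⟩

/-- **[KSHA-HASSE]** with [AK-CONJ], [AK-UNR], [KSHA-H90] plugged. -/
theorem khs_main (hHasse : ak_HasseStatement) : ksha_HasseStatement :=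
  khs_of akc_main aku_main hHasse ksha_h90_main

end Fermat.Agent.S55
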