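/-
S55 (fifth wave), GLOBAL side, part 3: the ASSEMBLY of [K-SHA-INJ].
Owner: helper27.  Prefix `ksha_`.

  `ksha_inj_of : K-H3 → HASSE → FORMULA → KUM → ARTPERF → PLACES → ORD → SAME →
      kl_ShaInjStatement`.
-/
import Fermat.Agent.S55.Global.KShaDefs

set_option autoImplicit false
set_option linter.style.haveILetI false
set_option maxHeartbeats 1000000
set_option synthInstance.maxHeartbeats 400000
open CategoryTheory Module groupCohomology ExtCitation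

noncomputable section

namespace Fermat.Agent.S55

local notation "Qbar" => AlgebraicClosure ℚ

section Aux

variable {p : ℕ} {S : Finset Nat.Primes} {K : IntermediateField ℚ Qbar}

/-- The cup product `c ∪ y` of a 2-cocycle and a character is a 3-cocycle. -/
theorem ksha_cup_isCoc₃ {c : ↥K.fixingSubgroup × ↥K.fixingSubgroup → ZMod p}
    {y : ↥K.fixingSubgroup → ZMod p} (hc : kl_IsCoc₂ c) (hy : kl_IsHom y) :
    kl_IsCoc₃ (fun z : ↥K.fixingSubgroup × ↥K.fixingSubgroup × ↥K.fixingSubgroup =>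
      c (z.1, z.2.1) * y z.2.2) := by
  intro g h j l
  have h1 := hc g h j
  have h2 := hy j l
  show c (h, j) * y l - c (g * h, j) * y l + c (g, h * j) * y l - c (g, h) * y (j * l)
    + c (g, h) * y j = 0
  rw [h2]
  have h3 : c (g, h * j) = c (g * h, j) + c (g, h) - c (h, j) := by
    rw [h1]; ring
  rw [h3]
  ring

/-- The cup product `c ∪ y` of level-`S` cochains has level `S`. -/
theorem ksha_cup_levelS₃ {c : ↥K.fixingSubgroup × ↥K.fixingSubgroup → ZMod p}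
    {y : ↥K.fixingSubgroup → ZMod p} (hc : kl_LevelS₂ S K c) (hy : kl_LevelS₁ S K y) :
    kl_LevelS₃ S K (fun z : ↥K.fixingSubgroup × ↥K.fixingSubgroup × ↥K.fixingSubgroup =>
      c (z.1, z.2.1) * y z.2.2) := by
  obtain ⟨F₁, hF₁, h1⟩ := hc
  obtain ⟨F₂, hF₂, h2⟩ := hy
  refine ⟨F₁ ⊔ F₂, hF₁.sup hF₂, ?_⟩
  intro g g' g'' s s' s'' hs hs' hs''
  have e1 : ∀ t : ↥K.fixingSubgroup, (t : s55_GQ) ∈ (F₁ ⊔ F₂).fixingSubgroup →
      (t : s55_GQ) ∈ F₁.fixingSubgroup := fun t ht =>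
    IntermediateField.fixingSubgroup_antitone le_sup_left ht
  have e2 : ∀ t : ↥K.fixingSubgroup, (t : s55_GQ) ∈ (F₁ ⊔ F₂).fixingSubgroup →
      (t : s55_GQ) ∈ F₂.fixingSubgroup := fun t ht =>
    IntermediateField.fixingSubgroup_antitone le_sup_right ht
  show c (g * s, g' * s') * y (g'' * s'') = c (g, g') * y g''
  rw [h1 g g' s s' (e1 s hs) (e1 s' hs'), h2 g'' s'' (e2 s'' hs'')]

theorem ksha_norm_q_pos (q : Nat.Primes) :
    letI : Fact (q : ℕ).Prime := ⟨q.2⟩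
    0 < ‖(((q : ℕ) : ℕ) : PadicAlgCl (q : ℕ))‖ := by
  letI : Fact (q : ℕ).Prime := ⟨q.2⟩
  rw [norm_pos_iff]
  exact Nat.cast_ne_zero.2 q.2.ne_zero

/-- `ord_w (x / k) = ord_w x - ord_w k`. -/
theorem ksha_ord_div {w : Nat.Primes × s55_GQ} {x k : Qbarˣ} {N M : ℤ}
    (hx : ksha_Ord w x N) (hk : ksha_Ord w k M) : ksha_Ord w (x / k) (N - M) := by
  letI : Fact (w.1 : ℕ).Prime := ⟨w.1.2⟩
  have h0 : ‖(((w.1 : ℕ) : ℕ) : PadicAlgCl (w.1 : ℕ))‖ ≠ 0 := (ksha_norm_q_pos w.1).ne'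
  have hx' : ‖padicEmbedding (w.1 : ℕ) (w.2 (x : Qbar))‖
      = ‖(((w.1 : ℕ) : ℕ) : PadicAlgCl (w.1 : ℕ))‖ ^ N := hx
  have hk' : ‖padicEmbedding (w.1 : ℕ) (w.2 (k : Qbar))‖
      = ‖(((w.1 : ℕ) : ℕ) : PadicAlgCl (w.1 : ℕ))‖ ^ M := hk
  show ‖padicEmbedding (w.1 : ℕ) (w.2 ((x / k : Qbarˣ) : Qbar))‖
      = ‖(((w.1 : ℕ) : ℕ) : PadicAlgCl (w.1 : ℕ))‖ ^ (N - M)
  rw [Units.val_div_eq_div_val, map_div₀, map_div₀, norm_div, hx', hk', zpow_sub₀ h0]

end Aux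

/-- **[K-SHA-INJ]** from the leaves. -/
theorem ksha_inj_of (hH3 : kl_H3Statement) (hHasse : ksha_HasseStatement)
    (hForm : ksha_FormulaStatement) (hKum : ksha_KumStatement) (hArt : ksha_ArtPerfStatement)
    (hPl : ksha_PlacesStatement) (hOrd : ksha_OrdStatement) (hSame : ksha_SameStatement) :
    kl_ShaInjStatement := by
  intro inv hinv p _ hp S hpS K _ hK hcyc R hR c hc hpair
  have ctx : ksha_Ctx K inv p S R := ⟨hinv, hp, hpS, hK, hcyc, hR⟩
  obtain ⟨F, b, x, hD⟩ := hHasse inv p S K R ctx c hc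
  -- the non-unit places of `x`
  obtain ⟨T, -, hT, hTS, hTout⟩ := hPl S K hK.1 ∅
    (fun w hw => absurd hw (Finset.notMem_empty w)) (fun w hw => absurd hw (Finset.notMem_empty w)) x
  -- the orders of `x`
  have hN : ∀ w : Nat.Primes × s55_GQ, ∃ N : ℤ, w.1 ∉ S → ksha_Ord w x N := by
    intro w
    by_cases hw : w.1 ∈ S
    · exact ⟨0, fun h => absurd hw h⟩
    · obtain ⟨N, hN⟩ := hOrd F hD.unr.1 w.1 (ak_unramAt_of_outside hD.unr w.1 hw) x hD.mem w.2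
      exact ⟨N, fun _ => hN⟩
  choose N hN using hN
  -- orthogonality to `Ш¹`
  have horth : ∀ y : ↥K.fixingSubgroup → ZMod p, kl_IsSha₁ S K R y →
      ∑ w ∈ T, N w • ksha_art K inv y w = 0 := by
    intro y hy
    obtain ⟨ε, hεl, hε⟩ := hH3 hp S hpS K hK hcyc _ (ksha_cup_levelS₃ hc.2.1 hy.2.1)
      (ksha_cup_isCoc₃ hc.1 hy.1)
    have hε' : ∀ g h j : ↥K.fixingSubgroup, kl_d₂ ε (g, h, j) = c (g, h) * y j :=
      fun g h j => hε (g, h, j)
    have ht := hpair y (- ksha_sumS K inv S R ε) hy ⟨ε, hεl, hε', rfl⟩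
    have h1 := hForm inv p S K R ctx c F b x hD y hy ε hεl hε' T hT hTS N
      (fun w hw => hN w (hTS w hw))
      (fun w' hw' ho => ⟨0, by rw [mul_zero]; exact hTout w' hw' ho⟩)
    rw [← h1]
    exact neg_eq_zero.1 ht
  obtain ⟨k, hkK, hkT, hkout⟩ := hArt inv p S K R ctx T hT hTS N horth
  refine hKum inv p S K R ctx c F b x hD k hkK ?_
  intro q hq g
  by_cases ho : ak_Outside K T (q, g)
  · obtain ⟨m, hm⟩ := hkout (q, g) hq ho
    have h2 := ksha_ord_div (hTout (q, g) hq ho) hm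
    refine ⟨-m, ?_⟩
    have e : (0 : ℤ) - (p : ℤ) * m = (p : ℤ) * (-m) := by ring
    rw [← e]
    exact h2
  · unfold ak_Outside at ho
    push Not at ho
    obtain ⟨w, hw, hsame⟩ := ho
    obtain ⟨m, hm⟩ := hkT w hw
    have h2 := ksha_ord_div (hN w (hTS w hw)) hm
    have h3 : ksha_PDiv p w (x / k) := by
      refine ⟨-m, ?_⟩
      have e : N w - (N w + (p : ℤ) * m) = (p : ℤ) * (-m) := by ring
      rw [← e]
      exact h2
    exact hSame p S K c F b x hD k hkK w (q, g) (hTS w hw) hsame h3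

end Fermat.Agent.S55
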