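/-
S55 (fifth wave), GLOBAL side, part 3, [K-SHA]: the leaf [KSHA-KUM] = `ksha_KumStatement` of
`Global/KShaDefs.lean` (the Kummer criterion).  Owner: helper27.  Prefix `ksha_kum_`.

Export: `ksha_kum_of : ksha_KumFieldStatement → ksha_KumStatement`.

`β ^ p = x / k`; `β` lies in a level `F' ⊇ F` over `K`, unramified outside `S`
([KSHA-KUMFIELD], `j = 1`); `b(g) = ζ ^ a(g) · g β / β`, `a` constant modulo `G_{F'}`,
`ζ ^ (d₁ a) = d b = ζ ^ c`.
-/
import Fermat.Agent.S55.Global.KShaBasic

set_option autoImplicit false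
set_option linter.style.haveILetI false
set_option linter.unusedVariables false
set_option maxHeartbeats 1000000
set_option synthInstance.maxHeartbeats 400000
open CategoryTheory Module groupCohomology ExtCitation

noncomputable section

namespace Fermat.Agent.S55

local notation "Qbar" => AlgebraicClosure ℚ

/-- commutative group identity: the Kummer cochains `g β / β` cancel in the coboundary. -/
theorem ksha_kum_aux {M : Type*} [CommGroup M] (B₁ B₂ B₃ X Y Z : M) :
    (B₁ / (X / Y)) / (B₂ / (X / Z)) * (B₃ / (Y / Z)) = B₁ / B₂ * B₃ := by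
  apply Additive.ofMul.injective
  simp only [ofMul_div, ofMul_mul]
  abel

/-- commutative group identity for the `p`-th power. -/
theorem ksha_kum_aux2 {M : Type*} [CommGroup M] (gx x k : M) :
    (gx / x) / ((gx / k) / (x / k)) = 1 := by
  apply Additive.ofMul.injective
  simp only [ofMul_div, ofMul_one]
  abel

/-- **[KSHA-KUM]** from [KSHA-KUMFIELD]. -/
theorem ksha_kum_of : ksha_KumFieldStatement → ksha_KumStatement := by
  intro hKF inv p _ S K _ R ctx c F b x hD k hk hdiv
  have hp : p.Prime := Fact.out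
  have hζ := ksha_zeta_prim p
  have hζp := ksha_zeta_pow p
  -- the root `β`
  obtain ⟨z, hz⟩ := IsAlgClosed.exists_pow_nat_eq (((x / k : Qbarˣ) : Qbar)) hp.pos
  have hz0 : z ≠ 0 := by
    intro h0
    rw [h0, zero_pow hp.ne_zero] at hz
    exact (Units.ne_zero (x / k)) hz.symm
  set β : Qbarˣ := Units.mk0 z hz0 with hβdef
  have hβp : β ^ p = x / k := by
    apply Units.ext
    rw [Units.val_pow_eq_pow_val]
    exact hz
  -- the field `F'`
  have hxk : ((x / k : Qbarˣ) : Qbar) ∈ F := by
    rw [Units.val_div_eq_div_val]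
    exact F.div_mem hD.mem (hD.level.le hk)
  obtain ⟨F', hFF', hlev', hunr', hβF', -⟩ :=
    hKF p S ctx.odd ctx.mem K F hD.level hD.unr (ksha_exists_zeta K ctx.cyc) 1 (x / k) β hxk
      (by rw [pow_one]; exact hβp)
      (by
        intro q hq g
        obtain ⟨m, hm⟩ := hdiv q hq g
        refine ⟨m, ?_⟩
        rw [pow_one]
        exact hm)
  -- `k` is fixed by `U`
  have hgk : ∀ g : ↥K.fixingSubgroup, g • k = k := by
    intro g
    apply Units.ext
    exact (IntermediateField.mem_fixingSubgroup_iff K _).1 g.2 _ hk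
  -- the `p`-torsion elements `u g = b g / (g β / β)`
  have hu : ∀ g : ↥K.fixingSubgroup, (b g / (g • β / β)) ^ p = 1 := by
    intro g
    rw [div_pow, div_pow, ← smul_pow', hβp, hD.pow g, smul_div', hgk g]
    exact ksha_kum_aux2 _ _ _
  choose a ha using fun g => ksha_exists_log hζ (b g / (g • β / β)) (hu g)
  refine ⟨a, ⟨F', hunr', ?_⟩, ?_⟩
  · -- level
    intro g s hs
    apply ksha_pow_val_injective hζ
    rw [ha, ha]
    have hsF : (s : s55_GQ) ∈ F.fixingSubgroup :=
      IntermediateField.fixingSubgroup_antitone hFF' hs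
    rw [hD.lev.1 g s hsF]
    have hsβ : s • β = β := by
      apply Units.ext
      exact (IntermediateField.mem_fixingSubgroup_iff F' _).1 hs _ hβF'
    rw [mul_smul, hsβ]
  · -- coboundary
    rintro ⟨g, h⟩
    apply ksha_pow_val_injective hζ
    show ksha_zeta p ^ (a h - a (g * h) + a g).val = ksha_zeta p ^ (c (g, h)).val
    have h1 : ksha_zeta p ^ (a h).val = g • b h / ((g * h) • β / g • β) := by
      rw [← ksha_smul_zeta_pow K ctx.cyc g, ha, smul_div', smul_div', mul_smul]
    rw [ksha_pow_val_add hζp, ksha_pow_val_sub hζp, h1, ha, ha, ksha_kum_aux, ← hD.db g h]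
    rfl

end Fermat.Agent.S55
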