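/-
S55 (fifth wave), GLOBAL side, [K-SHA] leaf [KSHA-SAME] = `ksha_SameStatement` of
`Global/KShaDefs.lean`.  Owner: helper8.  Prefix `ksm_`.
Export: `ksm_main : ksha_OrdStatement → ksha_SameStatement`.

`w' = (q, loc_q τ * g * u)`: `‖ι_q (loc_q τ (g (u z)))‖ = ‖τ (ι_q (g (u z)))‖ = ‖ι_q (g (u z))‖`,
`u (x / k) = (x / k) · b(u) ^ p` and `ord_(q,g) (b u) ∈ ℤ` by [KSHA-ORD].
-/
import Mathlib
import Fermat.Agent.S55.Global.KShaDefs
import Fermat.Agent.S55.UnrAbs1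

set_option autoImplicit false
set_option maxHeartbeats 1000000
set_option synthInstance.maxHeartbeats 400000
set_option linter.unusedSectionVars false
set_option linter.unusedVariables false
set_option linter.style.haveILetI false

open CategoryTheory Module groupCohomology ExtCitation

noncomputable section

namespace Fermat.Agent.S55

local notation "Qbar" => AlgebraicClosure ℚ

/-- The norm at the place `(q, loc_q τ * g * u)` is the norm at `(q, g)` of `u z`. -/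
theorem ksm_norm_same (q : ℕ) [Fact q.Prime] (τ : lcf_Gal q) (g u : s55_GQ) (z : Qbar) :
    ‖padicEmbedding q ((localGaloisToGlobal q τ * g * u) z)‖ = ‖padicEmbedding q (g (u z))‖ := by
  have h1 : (localGaloisToGlobal q τ * g * u) z = localGaloisToGlobal q τ (g (u z)) := rfl
  rw [h1, padicEmbedding_localGaloisToGlobal]
  exact unr_abs_norm_map _ _

/-- **[KSHA-SAME]** -/
theorem ksm_main (hOrd : ksha_OrdStatement) : ksha_SameStatement := by
  intro p _ S K c F b x hD k hk w w' hw hsame hdiv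
  obtain ⟨q, g⟩ := w
  obtain ⟨q', g'⟩ := w'
  obtain ⟨hqq, τ, u, hu, hg'⟩ := hsame
  have hqq' : q = q' := hqq
  subst hqq'
  have hg'' : g' = localGaloisToGlobal (q : ℕ) τ * g * u := hg'
  subst hg''
  letI : Fact (q : ℕ).Prime := ⟨q.2⟩
  obtain ⟨m, hm⟩ := hdiv
  obtain ⟨M, hM⟩ := hOrd F hD.level.fin q (ak_unramAt_of_outside hD.unr q hw) (b ⟨u, hu⟩)
    (hD.lev.2 ⟨u, hu⟩) g
  refine ⟨m + M, ?_⟩
  have hν : ‖(((q : ℕ) : ℕ) : PadicAlgCl (q : ℕ))‖ ≠ 0 :=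
    norm_ne_zero_iff.2 (Nat.cast_ne_zero.2 q.2.ne_zero)
  have hm' : ‖padicEmbedding (q : ℕ) (g ((x / k : Qbarˣ) : Qbar))‖ =
      ‖(((q : ℕ) : ℕ) : PadicAlgCl (q : ℕ))‖ ^ ((p : ℤ) * m) := hm
  have hM' : ‖padicEmbedding (q : ℕ) (g ((b ⟨u, hu⟩ : Qbarˣ) : Qbar))‖ =
      ‖(((q : ℕ) : ℕ) : PadicAlgCl (q : ℕ))‖ ^ M := hM
  show ‖padicEmbedding (q : ℕ) ((localGaloisToGlobal (q : ℕ) τ * g * u) ((x / k : Qbarˣ) : Qbar))‖ =
    ‖(((q : ℕ) : ℕ) : PadicAlgCl (q : ℕ))‖ ^ ((p : ℤ) * (m + M))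
  rw [ksm_norm_same]
  -- `u (x / k) = (x / k) * b u ^ p`
  have hpow := hD.pow ⟨u, hu⟩
  have hux : u (x : Qbar) = (x : Qbar) * ((b ⟨u, hu⟩ : Qbarˣ) : Qbar) ^ p := by
    have h1 : ((⟨u, hu⟩ : ↥K.fixingSubgroup) • x : Qbarˣ) = x * b ⟨u, hu⟩ ^ p := by
      rw [hpow, mul_div_cancel]
    have h2 := congrArg (fun t : Qbarˣ => (t : Qbar)) h1
    simpa [Units.val_mul, Units.val_pow_eq_pow_val] using h2
  have huk : u (k : Qbar) = (k : Qbar) :=
    (IntermediateField.mem_fixingSubgroup_iff _ _).1 hu _ hk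
  have huz : u ((x / k : Qbarˣ) : Qbar) =
      ((x / k : Qbarˣ) : Qbar) * ((b ⟨u, hu⟩ : Qbarˣ) : Qbar) ^ p := by
    rw [Units.val_div_eq_div_val, map_div₀, hux, huk]
    ring
  rw [huz, map_mul, map_mul, map_pow, map_pow, norm_mul, norm_pow, hm', hM', mul_add,
    zpow_add₀ hν, zpow_mul, zpow_mul, zpow_natCast]
  congr 1
  rw [← zpow_natCast (_ ^ M) p, ← zpow_natCast _ p, ← zpow_mul, ← zpow_mul, mul_comm]

end Fermat.Agent.S55
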