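/-
S55 (fifth wave), GLOBAL side, part 3: the ASSEMBLY of [K-SHA-SURJ].
Owner: helper27.  Prefix `ksha_`.

  `ksha_surj_of : ARTSURJ → EXI → FORMULA → PTORS → kl_ShaSurjStatement`.
-/
import Fermat.Agent.S55.Global.KShaDefs

set_option autoImplicit false
set_option maxHeartbeats 1000000
set_option synthInstance.maxHeartbeats 400000
open CategoryTheory Module groupCohomology ExtCitation

noncomputable section

namespace Fermat.Agent.S55

local notation "Qbar" => AlgebraicClosure ℚ

/-- **[K-SHA-SURJ]** from the leaves. -/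
theorem ksha_surj_of (hAS : ksha_ArtSurjStatement) (hExi : ksha_ExiStatement)
    (hForm : ksha_FormulaStatement) (hPT : ksha_PTorsStatement) : kl_ShaSurjStatement := by
  intro inv hinv p _ hp S hpS K _ hK hcyc R hR l hl
  have ctx : ksha_Ctx K inv p S R := ⟨hinv, hp, hpS, hK, hcyc, hR⟩
  obtain ⟨T, hT, hTS, N, hN⟩ := hAS inv p S K R ctx l hl
  obtain ⟨c, hc, F, b, x, hD, hxT, hxout⟩ := hExi inv p S K R ctx T hT hTS N
  refine ⟨c, hc, ?_⟩
  rintro y t hy ⟨ε, hεl, hε, ht⟩
  choose! m hm using hxT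
  have h1 := hForm inv p S K R ctx c F b x hD y hy ε hεl hε T hT hTS
    (fun w => N w + (p : ℤ) * m w) hm hxout
  have h2 : ∑ w ∈ T, (N w + (p : ℤ) * m w) • ksha_art K inv y w
      = ∑ w ∈ T, N w • ksha_art K inv y w := by
    refine Finset.sum_congr rfl (fun w hw => ?_)
    have h3 : p • ksha_art K inv y w = 0 := hPT inv p S K R ctx y hy.1 hy.2.1 w (hTS w hw)
    have h4 : ((p : ℤ) * m w) • ksha_art K inv y w = 0 := by
      rw [mul_comm, mul_smul, natCast_zsmul, h3, smul_zero]
    rw [add_smul, h4, add_zero]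
  have h5 : t = - ksha_sumS K inv S R ε := ht
  rw [h5, h1, h2, hN y hy]

end Fermat.Agent.S55
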