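/-
S55 (fifth wave), GLOBAL side, package [R-CYC] = `gl_RecipCycStatement` (Global/RecDefs.lean):
THE CUT (sub-architect helper14).  Definitions and `Prop`s only; prefix `rcy_`.

SETTING.  `F` a number field, `ζ ∈ F` a primitive `q`-th root of unity, `G' ≤ Aut(F/ℚ)` acting
faithfully on `ζ` (so `G' ↪ (ℤ/q)ˣ` is cyclic), `K = F^{G'}` unramified at `q`, `H ≤ G'` a
`p`-group (`p` odd), `n = #H`, `m = (q - 1)/n`, `K₁ = F^H`, `c` a 2-cocycle of `H` in `Fˣ`.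

ROUTE (CF VII.10, the tame case; assembly = `Global/RecCycOf.lean`, helper14).
(0) `H` is cyclic with a generator `σ₀`, `σ₀ ζ = ζ ^ a₀`; `χ : H → ℤ/n`, `χ σ₀ = 1`.  By
    helper6's `fgD_cohomologous`, `c ~ carry_χ(x)` with `x = ∏_{i<n} c(σ₀^i, σ₀) ∈ K₁ˣ`, and by
    helper16's `gic_loc_isCob` + (I1),(I2):  for every embedding `ι : F → Ω_ℓ`
      `gl_invAtF ℓ F H ι inv c = inv ℓ U_ι (lcf_unrCoc U_ι n θ_ι (ι x))`,
    `U_ι = gl_locU ℓ F H ι`, `θ_ι = χ ∘ gl_locSigma`.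
(1) `ℓ ≠ q`: `θ_ι` is unramified and a Frobenius `φ` of `U_ι` has `σ_φ ζ = ζ ^ N_ι`,
    `N_ι = lcf_resCard U_ι` ([RC-FROB]); by [RC-UNR]
      `inv = j k / n`,  `‖ι x‖ = ‖ϖ‖ ^ j`,  `a₀ ^ k ≡ N_ι  mod q`.
(2) `ℓ = q`: by [RC-SHAPE] there is `Π` with `Π ^ (q-1) = -q`, `g Π ≡ k Π` if `g (ι ζ) = (ι ζ)^k`,
    `Π ^ n` is a uniformizer of `U_ι`, the residue field of `U_ι` is that of `ℚ_q · ι K`
    (unramified over `ℚ_q`), and `[U_{G'} : U_ι] = m`.  With `ζ_n` = the Teichmueller lift of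
    `a₀` ([RC-TEICH]) `θ_ι` is the Kummer character of `Π`: `g Π = ζ_n ^ θ_ι(g) Π`; by [RC-TAME]
      `inv = - t / n`,  `ι x = (Π^n) ^ j u`,  `a₀ ^ t ≡ u ^ ((N_ι - 1)/n)`.
(3) the product formula: `N_{K₁/ℚ} x = ∏_{v ∣ ℓ} N_{K₁,v/ℚ_ℓ} (ι_v x)` for every `ℓ` ([RC-GNORM]);
    `‖N_{K₁,v/ℚ_ℓ} (ι_v x)‖ = N_v ^ (-j_v)` ([RC-LNV]); at `ℓ = q` the unit part of the local
    norm is `≡ ± u_v ^ ((N_v - 1)/n)` ([RC-LNQ]); and `N = ± ∏_ℓ ℓ ^ (v_ℓ N)` in `ℚ`.  Hence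
    `a₀ ^ (2 ∑_v e_v) ≡ 1 mod q`, `e_v = j_v k_v` resp. `- t_v`, so `n ∣ ∑_v e_v` (`n` odd).
(4) finiteness of the support: helper1's `gsup_main` applied to the diagonal image of `c`.

LEAVES (closed Props below; every leaf is TRUE as stated - paper proofs in the docstrings):
  [RC-UNR]   `rcy_UnrStatement`        local, unramified symbol
  [RC-TAME]  `rcy_TameStatement`       local, tame symbol
  [RC-SHAPE] `rcy_ShapeStatement`      local shape of `F = K(ζ_q)` above `q`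
  [RC-FROB]  `rcy_FrobStatement`       Frobenius on `ζ_q` at `ℓ ≠ q`
  [RC-TEICH] `rcy_TeichStatement`      Teichmueller lifts in `Ω_q`
  [RC-GNORM] `rcy_GNormStatement`      global norm = product of the local norms
  [RC-LNV]   `rcy_LNormValStatement`   absolute value of a local norm
  [RC-LNQ]   `rcy_LNormTameStatement`  residue of a local norm, tamely ramified case
-/
import Mathlib
import Fermat.Agent.S55.Global.RecDefs

set_option autoImplicit false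

namespace Fermat.Agent.S55

open groupCohomology

noncomputable section

/-- The local norm `N_{K_U/ℚ_q} y` of an element `y` of the fixed field `K_U` of `U`, as an
element of `Ω_q` (junk value `1` if `y ∉ K_U`). -/
def rcy_locNorm {q : ℕ} [Fact q.Prime] (U : Subgroup (lcf_Gal q)) (y : PadicAlgCl q) :
    PadicAlgCl q :=
  open Classical in
  if h : y ∈ IntermediateField.fixedField U then
    algebraMap ℚ_[q] (PadicAlgCl q)
      (Algebra.norm ℚ_[q] (⟨y, h⟩ : ↥(IntermediateField.fixedField U)))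
  else 1

theorem rcy_locNorm_of_mem {q : ℕ} [Fact q.Prime] (U : Subgroup (lcf_Gal q)) (y : PadicAlgCl q)
    (h : y ∈ IntermediateField.fixedField U) :
    rcy_locNorm U y = algebraMap ℚ_[q] (PadicAlgCl q)
      (Algebra.norm ℚ_[q] (⟨y, h⟩ : ↥(IntermediateField.fixedField U))) := by
  unfold rcy_locNorm
  rw [dif_pos h]

/-! ### Local leaves -/

/-- **[RC-UNR]** the unramified symbol: for an unramified smooth character `θ : U → ℤ/n`, a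
Frobenius `φ` of `U`, a uniformizer `ϖ` and `a ∈ K_Uˣ` with `‖a‖ = ‖ϖ‖ ^ j`:
`inv (a ^ δθ) = j θ(φ) / n`.
PROOF.  `θ φ` does not depend on `φ` (two Frobenius elements differ by inertia).  Let `(θ₁, φ₁)`
be the unramified datum of modulus `n` (`unr_abs_unrChar`), `k = θ φ₁`; then `θ = θ₁ ^ k`
(`unr_abs_unrChar_unique`), `a ^ δ(θ₁^k) ~ (a ^ δθ₁) ^ k` (`sym_add`, induction), and
`a = ϖ ^ j u`, `u` a unit of `K_U`: `inv (ϖ ^ δθ₁) = 1/n` by (I4), `u ^ δθ₁ ~ 1` because units are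
norms from the unramified extension cut out by `θ₁` ([UNIT-NORM] + `sym_norm_mpr`), (I1), (I2). -/
def rcy_UnrStatement : Prop :=
  ∀ inv : lcf_InvType, lcf_IsInvSystem inv →
    ∀ (q : ℕ) [Fact q.Prime] (U : Subgroup (lcf_Gal q)), lcf_IsOpen U →
      ∀ (n : ℕ) [NeZero n] (θ : ↥U →* Multiplicative (ZMod n)) (φ : ↥U)
        (ϖ a : (PadicAlgCl q)ˣ) (j : ℤ),
        lcf_Smooth₁ U θ → (∀ s : ↥U, lcf_IsInert (s : lcf_Gal q) → θ s = 1) →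
        lcf_IsFrob U φ → lcf_IsUnif U ϖ → (∀ g : ↥U, g • a = a) →
        ‖(a : PadicAlgCl q)‖ = ‖(ϖ : PadicAlgCl q)‖ ^ j →
        inv q U (lcf_unrCoc U n θ a) =
          lcf_qz (((j * ((θ φ).toAdd.val : ℤ) : ℤ) : ℚ) / (n : ℚ))

/-- **[RC-TAME]** the tame symbol: `n` odd and prime to `q`, `ζ ∈ K_U` a primitive `n`-th root
of unity, `β ∈ Ωˣ` with `β ^ n` a UNIFORMIZER of `K_U`, `θ` the Kummer character of `β`
(`g β = ζ ^ θ(g) β`), `a ∈ K_Uˣ`, `a = (β^n) ^ j u` with `u` a unit, and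
`u ^ ((N - 1)/n) ≡ ζ ^ t` modulo the maximal ideal (`N = lcf_resCard U`; `n ∣ N - 1` because
`μ_n ⊆ K_U`).  Then `inv (a ^ δθ) = - t / n`.
PROOF.  `π := β ^ n = N_{K_U(β)/K_U} β` (`n` odd; the conjugates of `β` are `ζ^i β`), so
`π ^ δθ ~ 1` (`sym_norm_mpr`); `u ^ δθ_β ~ (π ^ δθ_υ)⁻¹` for `υ ^ n = u` (skew-symmetry of the
symbol, from `(x, -x) = 0` and bilinearity: helper11's `tame_skew`); `θ_υ` is unramified
(`n` prime to `q`, `u` a unit) with `ζ ^ θ_υ(φ) = φ υ / υ ≡ υ ^ (N-1) = u ^ ((N-1)/n) ≡ ζ ^ t`, so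
`θ_υ φ = t` and `inv (π ^ δθ_υ) = t / n` by [RC-UNR]. -/
def rcy_TameStatement : Prop :=
  ∀ inv : lcf_InvType, lcf_IsInvSystem inv →
    ∀ (q : ℕ) [Fact q.Prime] (U : Subgroup (lcf_Gal q)), lcf_IsOpen U →
      ∀ (n : ℕ) [NeZero n], Odd n → Nat.Coprime n q →
        ∀ (ζ β a : (PadicAlgCl q)ˣ) (θ : ↥U →* Multiplicative (ZMod n)) (j : ℤ) (t : ℕ),
          IsPrimitiveRoot ζ n → (∀ g : ↥U, g • ζ = ζ) →
          (∀ g : ↥U, g • β = ζ ^ (θ g).toAdd.val * β) →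
          lcf_IsUnif U (β ^ n) →
          (∀ g : ↥U, g • a = a) →
          ‖(a : PadicAlgCl q)‖ = ‖((β ^ n : (PadicAlgCl q)ˣ) : PadicAlgCl q)‖ ^ j →
          ‖(((a / (β ^ n) ^ j) ^ ((lcf_resCard U - 1) / n) : (PadicAlgCl q)ˣ) : PadicAlgCl q) -
              ((ζ ^ t : (PadicAlgCl q)ˣ) : PadicAlgCl q)‖ < 1 →
          inv q U (lcf_unrCoc U n θ a) = lcf_qz (-(t : ℚ) / (n : ℚ))

/-- **[RC-TEICH]** Teichmueller lifts: for `a` prime to `q` there is a `(q-1)`-th root of unity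
`ω ∈ Ω_q`, fixed by `Gal(Ω_q/ℚ_q)`, with `ω ≡ a`; and two `(q-1)`-th roots of unity which are
congruent modulo the maximal ideal are equal.
PROOF.  `X^(q-1) - 1 = ∏ (X - ω)` over the `q - 1` roots in `Ω_q`; `‖a^(q-1) - 1‖ < 1` (Fermat),
so one factor `‖a - ω‖ < 1`.  If `ω ≠ ω'` are `(q-1)`-th roots of unity then `ω'/ω = η ≠ 1`,
`∏_{η ≠ 1} (1 - η) = q - 1` is a unit, so `‖ω - ω'‖ = 1`.  `g ω` is a `(q-1)`-th root of unity
`≡ g a = a`, hence `g ω = ω`. -/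
def rcy_TeichStatement : Prop :=
  ∀ (q : ℕ) [Fact q.Prime],
    (∀ a : ℕ, ¬ q ∣ a → ∃ ω : (PadicAlgCl q)ˣ, ω ^ (q - 1) = 1 ∧
      ‖(ω : PadicAlgCl q) - (a : PadicAlgCl q)‖ < 1 ∧ ∀ g : lcf_Gal q, g • ω = ω) ∧
    ∀ ω ω' : (PadicAlgCl q)ˣ, ω ^ (q - 1) = 1 → ω' ^ (q - 1) = 1 →
      ‖(ω : PadicAlgCl q) - (ω' : PadicAlgCl q)‖ < 1 → ω = ω'

/-- **[RC-LNV]** absolute value of a local norm: `‖N_{K_U/ℚ_ℓ} a‖ = N_U ^ (- ord_U a)`.
PROOF.  `N a = ∏_τ τ a` over the `d = [K_U : ℚ_ℓ]` embeddings `τ : K_U → Ω`, all of the same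
absolute value (`plc_norm_aut`), so `‖N a‖ = ‖a‖ ^ d`; `d = e f` with `‖ℓ‖ = ‖ϖ‖ ^ e`,
`N_U = ℓ ^ f` (helper25's `lef_ef` for `ℚ_ℓ ⊆ K_U`); `‖a‖ ^ (e f) = ‖ℓ‖ ^ (j f) = N_U ^ (-j)`. -/
def rcy_LNormValStatement : Prop :=
  ∀ (ℓ : ℕ) [Fact ℓ.Prime] (U : Subgroup (lcf_Gal ℓ)), lcf_IsOpen U →
    ∀ (ϖ a : (PadicAlgCl ℓ)ˣ) (j : ℤ), lcf_IsUnif U ϖ → (∀ g : ↥U, g • a = a) →
      ‖(a : PadicAlgCl ℓ)‖ = ‖(ϖ : PadicAlgCl ℓ)‖ ^ j →
      ‖rcy_locNorm U (a : PadicAlgCl ℓ)‖ = ((lcf_resCard U : ℕ) : ℝ) ^ (-j)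

/-- **[RC-LNQ]** residue of a local norm in the tamely ramified case.  `U ≤ U_K` open,
`E = K_{U_K}` UNRAMIFIED over `ℚ_q` (value group `q^ℤ`), `K_U / E` TOTALLY ramified of degree
`m = [U_K : U]` (same residue field, and `π ∈ K_U` with `π ^ m = -q`), `m n = q - 1`,
`a = π ^ j u ∈ K_Uˣ`.  Then, with `N = lcf_resCard U`,
`(N_{K_U/ℚ_q} a / N ^ j) ^ 2 ≡ (u ^ ((N-1)/n)) ^ 2` modulo the maximal ideal.
PROOF.  `K_U = E(π)`, `X^m + q` is the minimal polynomial of `π` over `E` (degree `m`), so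
`N_{K_U/E} π = (-1)^m q` and `N_{K_U/ℚ_q} π = ((-1)^m q)^f = ± N`, `N = q^f`.  For a unit `u` of
`K_U` there is `u₀ ∈ E` with `u ≡ u₀` (equal residue fields); every `g ∈ U_K` fixes `u₀`, so
`N_{K_U/E} u = ∏_{g ∈ U_K/U} g u ≡ u^m`; the `f` embeddings of `E` are the powers of a Frobenius,
so `N_{E/ℚ_q} y ≡ y ^ (1 + q + ... + q^(f-1))` for units `y`; and
`m (N - 1)/(q - 1) = (N - 1)/n`. -/
def rcy_LNormTameStatement : Prop :=
  ∀ (q : ℕ) [Fact q.Prime] (U UK : Subgroup (lcf_Gal q)), lcf_IsOpen U → U ≤ UK →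
    (∀ x : (PadicAlgCl q)ˣ, (∀ g : ↥UK, g • x = x) →
      ∃ k : ℤ, ‖(x : PadicAlgCl q)‖ = ((q : ℕ) : ℝ) ^ k) →
    lcf_resCard U = lcf_resCard UK →
    ∀ (n : ℕ) (π a : (PadicAlgCl q)ˣ) (j : ℤ), U.relIndex UK * n = q - 1 →
      (∀ g : ↥U, g • π = π) →
      (π : PadicAlgCl q) ^ (U.relIndex UK) = -((q : ℕ) : PadicAlgCl q) →
      (∀ g : ↥U, g • a = a) →
      ‖(a : PadicAlgCl q)‖ = ‖(π : PadicAlgCl q)‖ ^ j →
      ‖(rcy_locNorm U (a : PadicAlgCl q) * (((lcf_resCard U : ℕ) : PadicAlgCl q) ^ j)⁻¹) ^ 2 -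
          (((a / π ^ j) ^ ((lcf_resCard U - 1) / n) : (PadicAlgCl q)ˣ) : PadicAlgCl q) ^ 2‖ < 1

/-! ### Global-to-local leaves -/

/-- **[RC-FROB]** `ℓ ≠ q`, `ζ ∈ F` a primitive `q`-th root of unity, `H ≤ Aut(F/ℚ)` arbitrary,
`ι : F → Ω_ℓ`, `U = gl_locU ℓ F H ι`:  an inert `s ∈ U` has `σ_s ζ = ζ`, and a Frobenius `φ` of
`U` has `σ_φ ζ = ζ ^ N`, `N = lcf_resCard U`.
PROOF.  `∏_{k=1}^{q-1} (1 - ζ'^k) = q` is a unit of `Ω_ℓ`, so distinct `q`-th roots of unity are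
incongruent modulo the maximal ideal; `s (ι ζ) = ι (σ_s ζ) ≡ ι ζ` and
`φ (ι ζ) = ι (σ_φ ζ) ≡ (ι ζ) ^ N` are `q`-th roots of unity. -/
def rcy_FrobStatement : Prop :=
  ∀ (F : Type) [Field F] [NumberField F] (q : ℕ) [Fact q.Prime] (ζ : F), IsPrimitiveRoot ζ q →
    ∀ (ℓ : ℕ) [Fact ℓ.Prime], ℓ ≠ q →
      ∀ (H : Subgroup (F ≃ₐ[ℚ] F)) (ι : F →ₐ[ℚ] PadicAlgCl ℓ),
        (∀ s : ↥(gl_locU ℓ F H ι), lcf_IsInert (s : lcf_Gal ℓ) →
          ((gl_locSigma ℓ F H ι s : ↥H) : F ≃ₐ[ℚ] F) ζ = ζ) ∧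
        (∀ φ : ↥(gl_locU ℓ F H ι), lcf_IsFrob (gl_locU ℓ F H ι) φ →
          ((gl_locSigma ℓ F H ι φ : ↥H) : F ≃ₐ[ℚ] F) ζ = ζ ^ lcf_resCard (gl_locU ℓ F H ι))

/-- **[RC-SHAPE]** the local shape of `F = K(ζ_q)` above `q` (`K = F^{G'}` unramified at `q`):
for every `ι : F → Ω_q` there is `Π ∈ Ω_qˣ` with `Π ^ (q-1) = -q`, on which `Gal(Ω_q/ℚ_q)` acts
through the Teichmueller character (`g Π ≡ k Π` modulo `Π · 𝔪` if `g (ι ζ) = (ι ζ) ^ k`); the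
fixed field `E` of `U_{G'} = gl_locU q F G' ι` has value group `q^ℤ`; and for every `H ≤ G'`,
`U_H = gl_locU q F H ι`:  `Π ^ #H` is a uniformizer of `U_H`, the residue fields of `U_H` and
`U_{G'}` have the same cardinality, and `[U_{G'} : U_H] · #H = q - 1`.
PROOF.  `λ = 1 - ι ζ`: `∏_{k=1}^{q-1} (1 - ζ'^k) = q` and `(1 - ζ'^k)/λ = 1 + ζ' + ... + ζ'^(k-1)
≡ k`, so `q ≡ (q-1)! λ^(q-1) ≡ - λ^(q-1)` (Wilson), `ε := λ^(q-1)/(-q) ≡ 1`; `X^(q-1) - ε` splits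
in `Ω_q` and has the value `1 - ε` of norm `< 1` at `1`, so there is a root `ρ ≡ 1`; `Π := λ/ρ`.
If `g (ι ζ) = (ι ζ)^k` then `g λ/λ ≡ k`, `g ρ ≡ 1` (`g` is an isometry), so `g Π/Π ≡ k`.
`E = ℚ_q(ι K)` (Galois correspondence, `gsup_fixedField_U0`-style) has value group `q^ℤ`
(`gsup_unram_adjoin`).  `U_F := gl_locU q F ⊥ ι ≤ U_H ≤ U_{G'}`, `[U_{G'} : U_F] ≤ #G' ≤ q - 1`
(`g ↦ σ_g` is injective modulo `U_F`, `G' ↪ (ℤ/q)ˣ`); `Π ∈ K_{U_F}` (take `k = 1`: `g Π/Π` is a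
`(q-1)`-th root of unity `≡ 1`, so `= 1`) and `‖Π‖^(q-1) = ‖q‖`, so by helper25's `lef_main'`
(`e f = [U_{G'} : U_F]`) `e = q - 1`, `f = 1`: `Π` is a uniformizer of `U_F`, `#G' = q - 1`.
`[U_H : U_F] ≤ #H`, `[U_{G'} : U_H] ≤ [G' : H]` and the product is `q - 1 = #G'`: equalities;
`lef_main'` for `U_F ≤ U_H` and `U_H ≤ U_{G'}`: all ramification indices are the degrees, all
residue degrees are `1`.  `Π ^ #H` is fixed by `U_H` (`k ^ #H ≡ 1 mod q` for `σ_g ∈ H`) and has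
the absolute value of a uniformizer of `U_H`. -/
def rcy_ShapeStatement : Prop :=
  ∀ (F : Type) [Field F] [NumberField F] (q : ℕ) [Fact q.Prime] (ζ : F), IsPrimitiveRoot ζ q →
    ∀ G' : Subgroup (F ≃ₐ[ℚ] F), (∀ σ ∈ G', σ ζ = ζ → σ = 1) →
      gl_UnramAt q ↥(IntermediateField.fixedField G') →
      ∀ ι : F →ₐ[ℚ] PadicAlgCl q, ∃ P : (PadicAlgCl q)ˣ,
        (P : PadicAlgCl q) ^ (q - 1) = -((q : ℕ) : PadicAlgCl q) ∧
        (∀ (g : lcf_Gal q) (k : ℕ), g (ι ζ) = (ι ζ) ^ k →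
          ‖g (P : PadicAlgCl q) - (k : PadicAlgCl q) * (P : PadicAlgCl q)‖ <
            ‖(P : PadicAlgCl q)‖) ∧
        (∀ x : (PadicAlgCl q)ˣ, (∀ g : ↥(gl_locU q F G' ι), g • x = x) →
          ∃ k : ℤ, ‖(x : PadicAlgCl q)‖ = ((q : ℕ) : ℝ) ^ k) ∧
        ∀ H : Subgroup (F ≃ₐ[ℚ] F), H ≤ G' →
          lcf_IsUnif (gl_locU q F H ι) (P ^ Nat.card ↥H) ∧
          lcf_resCard (gl_locU q F H ι) = lcf_resCard (gl_locU q F G' ι) ∧
          (gl_locU q F H ι).relIndex (gl_locU q F G' ι) * Nat.card ↥H = q - 1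

/-- **[RC-GNORM]** the global norm is the product of the local norms: for `x ∈ K₁ = F^H` and
every prime `ℓ`,  `N_{K₁/ℚ} x = ∏_{v ∣ ℓ} N_{K₁,v/ℚ_ℓ} (ι_v x)`, the product over the places `v`
of `K₁` above `ℓ` (`gl_PlaceK`), `ι_v = Quotient.out v`, `K₁,v = ` the fixed field of
`gl_locU ℓ F H ι_v`.
PROOF.  `N_{K₁/ℚ} x = ∏ ι₁ x` over the embeddings `ι₁ : K₁ → Ω_ℓ`
(`Algebra.norm_eq_prod_embeddings`).  Every `ι₁` is the restriction of an embedding of `F`, two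
embeddings of `F` have the same restriction iff they differ by an element of `H` (`F/K₁` is
Galois with group `H`); so the `Gal(Ω_ℓ/ℚ_ℓ)`-orbits of the `ι₁` are the places `v`.  The
stabilizer of `ι_v|K₁` is `U_v = gl_locU ℓ F H ι_v = Gal(Ω/ℚ_ℓ(ι_v K₁))`, so the orbit of
`ι_v|K₁` is `{τ ∘ ι_v|K₁ : τ : K₁,v → Ω}` and the product over the orbit is
`∏_τ τ (ι_v x) = N_{K₁,v/ℚ_ℓ} (ι_v x)`. -/
def rcy_GNormStatement : Prop :=
  ∀ (F : Type) [Field F] [NumberField F] (H : Subgroup (F ≃ₐ[ℚ] F)) (ℓ : ℕ) [Fact ℓ.Prime]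
    (x : ↥(IntermediateField.fixedField H)),
    algebraMap ℚ (PadicAlgCl ℓ) (Algebra.norm ℚ x) =
      ∏ᶠ v : gl_PlaceK ℓ F H,
        rcy_locNorm (gl_locU ℓ F H (Quotient.out v)) ((Quotient.out v) (x : F))

/-! ### The assembly -/

/-- **[R-CYC-OF]** the assembly (helper14, `Global/RecCycOf.lean`). -/
def rcy_OfStatement : Prop :=
  rcy_UnrStatement → rcy_TameStatement → rcy_TeichStatement → rcy_LNormValStatement →
    rcy_LNormTameStatement → rcy_FrobStatement → rcy_ShapeStatement → rcy_GNormStatement →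
    gl_RecipCycStatement

end

end Fermat.Agent.S55
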