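/-
S55 (fifth wave), GLOBAL side, leaf [RC-GNORM] = `rcy_GNormStatement` (Global/RecCycDefs.lean):
the global norm is the product of the local norms (helper2).  Prefix `rcg_`.

EXPORT:  `theorem rcg_main : rcy_GNormStatement`  (hypothesis-free).

ROUTE.  `K₁ = F^H`.  `N_{K₁/ℚ} x = ∏ ι₁ x` over the embeddings `ι₁ : K₁ → Ω_ℓ`
(`Algebra.norm_eq_prod_embeddings`).  For a place `v` with representative `ι_v`, the fixed
field of `U_v = gl_locU ℓ F H ι_v` is `M_v = ℚ_ℓ(ι_v K₁)` (`rcg_fixedField_eq`), and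
`N_{M_v/ℚ_ℓ} (ι_v x) = ∏ τ (ι_v x)` over the embeddings `τ : M_v → Ω_ℓ`.  The map
`(v, τ) ↦ τ ∘ ι_v|K₁` is a bijection onto the embeddings of `K₁` (`rcg_E_bijective`):
every `τ` extends to an automorphism of `Ω_ℓ`, every `ι₁` extends to `F`, and two embeddings of
`F` which agree on `K₁` differ by an element of `H` (`rcs_exists_sigma`).
-/
import Mathlib
import Fermat.Agent.S55.Global.RecCycDefs
import Fermat.Agent.S55.Global.Supp
import Fermat.Agent.S55.Global.RcShapeGal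
import Fermat.Agent.S55.Local.Unif

set_option autoImplicit false
set_option linter.style.haveILetI false

namespace Fermat.Agent.S55

noncomputable section

section rcg

variable {F : Type} [Field F] [NumberField F] (H : Subgroup (F ≃ₐ[ℚ] F))
  (ℓ : ℕ) [Fact ℓ.Prime] (ι : F →ₐ[ℚ] PadicAlgCl ℓ)

/-- `gl_locU ℓ F H ι = Gal(Ω_ℓ / ℚ_ℓ · ι(F^H))`. -/
theorem rcg_locU_eq : gl_locU ℓ F H ι =
    gsup_U0 ℓ ↥(IntermediateField.fixedField H) (rcs_iotaK ℓ H ι) := by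
  apply le_antisymm
  · rintro g ⟨σ, hσ, h⟩
    rw [gsup_mem_U0_iff]
    intro x
    have h1 := congrArg (fun f : F →ₐ[ℚ] PadicAlgCl ℓ => f (x : F)) h
    have h2 : g (ι (x : F)) = ι (σ (x : F)) := h1
    show g (ι (x : F)) = ι (x : F)
    rw [h2, (IntermediateField.mem_fixedField_iff H _).1 x.2 σ hσ]
  · exact rcs_U0_le ℓ H ι

/-- The fixed field of `gl_locU ℓ F H ι` is `ℚ_ℓ(ι(F^H))`. -/
theorem rcg_fixedField_eq : IntermediateField.fixedField (gl_locU ℓ F H ι) =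
    IntermediateField.adjoin ℚ_[ℓ] (Set.range (rcs_iotaK ℓ H ι)) := by
  rw [rcg_locU_eq, gsup_fixedField_U0]

theorem rcg_mem (x : ↥(IntermediateField.fixedField H)) :
    ι (x : F) ∈ IntermediateField.fixedField (gl_locU ℓ F H ι) := by
  rw [rcg_fixedField_eq]
  exact IntermediateField.subset_adjoin _ _ ⟨x, rfl⟩

theorem rcg_finite :
    FiniteDimensional ℚ_[ℓ] ↥(IntermediateField.fixedField (gl_locU ℓ F H ι)) :=
  lunif_finiteDimensional (gsup_locU_isOpen ℓ F H ι)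

/-- The embedding `F^H → M = ℚ_ℓ(ι(F^H))` induced by `ι`. -/
def rcg_j : ↥(IntermediateField.fixedField H) →+*
    ↥(IntermediateField.fixedField (gl_locU ℓ F H ι)) :=
  RingHom.codRestrict
    ((ι : F →+* PadicAlgCl ℓ).comp (algebraMap ↥(IntermediateField.fixedField H) F))
    (IntermediateField.fixedField (gl_locU ℓ F H ι)) (rcg_mem H ℓ ι)

/-- The embedding `τ ∘ ι|K₁` of `K₁ = F^H` attached to an embedding `τ` of `M`. -/
def rcg_e (τ : ↥(IntermediateField.fixedField (gl_locU ℓ F H ι)) →ₐ[ℚ_[ℓ]] PadicAlgCl ℓ) :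
    ↥(IntermediateField.fixedField H) →ₐ[ℚ] PadicAlgCl ℓ :=
  ((τ : ↥(IntermediateField.fixedField (gl_locU ℓ F H ι)) →+* PadicAlgCl ℓ).comp
    (rcg_j H ℓ ι)).toRatAlgHom

theorem rcg_e_apply
    (τ : ↥(IntermediateField.fixedField (gl_locU ℓ F H ι)) →ₐ[ℚ_[ℓ]] PadicAlgCl ℓ)
    (x : ↥(IntermediateField.fixedField H)) :
    rcg_e H ℓ ι τ x = τ ⟨ι (x : F), rcg_mem H ℓ ι x⟩ := rfl

/-- The local norm is the product over the embeddings. -/
theorem rcg_locNorm_eq (x : ↥(IntermediateField.fixedField H)) :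
    rcy_locNorm (gl_locU ℓ F H ι) (ι (x : F)) =
      ∏ᶠ τ : ↥(IntermediateField.fixedField (gl_locU ℓ F H ι)) →ₐ[ℚ_[ℓ]] PadicAlgCl ℓ,
        rcg_e H ℓ ι τ x := by
  classical
  haveI := rcg_finite H ℓ ι
  rw [rcy_locNorm_of_mem _ _ (rcg_mem H ℓ ι x),
    Algebra.norm_eq_prod_embeddings ℚ_[ℓ] (PadicAlgCl ℓ), finprod_eq_prod_of_fintype]
  rfl

omit [NumberField F] in
/-- Every embedding of an intermediate field extends to an automorphism of `Ω_ℓ`. -/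
theorem rcg_exists_ext (M : IntermediateField ℚ_[ℓ] (PadicAlgCl ℓ))
    (τ : ↥M →ₐ[ℚ_[ℓ]] PadicAlgCl ℓ) :
    ∃ g : lcf_Gal ℓ, ∀ y : ↥M, g (y : PadicAlgCl ℓ) = τ y := by
  obtain ⟨φ, hφ⟩ := IsAlgClosed.surjective_domRestrict_of_isAlgebraic (K := ℚ_[ℓ]) (L := ↥M)
    (M := PadicAlgCl ℓ) (E := PadicAlgCl ℓ) τ
  have hbij : Function.Bijective φ := Algebra.IsAlgebraic.algHom_bijective φ
  refine ⟨AlgEquiv.ofBijective φ hbij, fun y => ?_⟩
  have h1 := congrArg (fun f : ↥M →ₐ[ℚ_[ℓ]] PadicAlgCl ℓ => f y) hφ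
  exact h1

/-- The map `(v, τ) ↦ τ ∘ ι_v|K₁`. -/
def rcg_E : (Σ v : gl_PlaceK ℓ F H,
      (↥(IntermediateField.fixedField (gl_locU ℓ F H (Quotient.out v))) →ₐ[ℚ_[ℓ]]
        PadicAlgCl ℓ)) →
    (↥(IntermediateField.fixedField H) →ₐ[ℚ] PadicAlgCl ℓ) :=
  fun p => rcg_e H ℓ (Quotient.out p.1) p.2

theorem rcg_E_injective : Function.Injective (rcg_E H ℓ) := by
  rintro ⟨v, τ⟩ ⟨v', τ'⟩ h
  obtain ⟨g, hg⟩ := rcg_exists_ext ℓ _ τ
  obtain ⟨g', hg'⟩ := rcg_exists_ext ℓ _ τ'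
  have hx : ∀ x : ↥(IntermediateField.fixedField H),
      g ((Quotient.out v) (x : F)) = g' ((Quotient.out v') (x : F)) := by
    intro x
    have h1 := congrArg (fun f : ↥(IntermediateField.fixedField H) →ₐ[ℚ] PadicAlgCl ℓ => f x) h
    have h2 : τ ⟨(Quotient.out v) (x : F), rcg_mem H ℓ _ x⟩ =
        τ' ⟨(Quotient.out v') (x : F), rcg_mem H ℓ _ x⟩ := h1
    rw [← hg, ← hg'] at h2
    exact h2
  obtain ⟨ρ, hρ, hρ2⟩ := rcs_exists_sigma H (gl_twist ℓ F g (Quotient.out v))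
    (gl_twist ℓ F g' (Quotient.out v')) (fun x hx' => hx ⟨x, hx'⟩)
  have hvv : v' = v := by
    rw [← Quotient.out_eq v', ← Quotient.out_eq v]
    apply Quotient.sound
    refine ⟨ρ, hρ, g⁻¹ * g', ?_⟩
    ext y
    have h3 := congrArg (fun f : F →ₐ[ℚ] PadicAlgCl ℓ => f y) hρ2
    have h4 : g ((Quotient.out v) y) = g' ((Quotient.out v') (ρ y)) := h3
    show (Quotient.out v) y = g⁻¹ (g' ((Quotient.out v') (ρ y)))
    rw [← h4]
    exact (g.symm_apply_apply _).symm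
  subst hvv
  have hτ : τ = τ' := by
    have hmem : g⁻¹ * g' ∈ gl_locU ℓ F H (Quotient.out v') := by
      rw [rcg_locU_eq, gsup_mem_U0_iff]
      intro x
      show g⁻¹ (g' ((Quotient.out v') (x : F))) = (Quotient.out v') (x : F)
      rw [← hx x]
      exact g.symm_apply_apply _
    ext y
    rw [← hg, ← hg']
    have h5 := (IntermediateField.mem_fixedField_iff _ _).1 y.2 _ hmem
    have h6 : g⁻¹ (g' (y : PadicAlgCl ℓ)) = (y : PadicAlgCl ℓ) := h5
    have h7 : g (g⁻¹ (g' (y : PadicAlgCl ℓ))) = g' (y : PadicAlgCl ℓ) := g.apply_symm_apply _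
    rw [h6] at h7
    exact h7
  rw [hτ]

theorem rcg_E_surjective : Function.Surjective (rcg_E H ℓ) := by
  intro ι₁
  obtain ⟨ιF, hιF⟩ := IsAlgClosed.surjective_domRestrict_of_isAlgebraic (K := ℚ)
    (L := ↥(IntermediateField.fixedField H)) (M := PadicAlgCl ℓ) (E := F) ι₁
  have hιF' : ∀ x : ↥(IntermediateField.fixedField H), ιF (x : F) = ι₁ x := by
    intro x
    have h1 := congrArg
      (fun f : ↥(IntermediateField.fixedField H) →ₐ[ℚ] PadicAlgCl ℓ => f x) hιF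
    exact h1
  set v : gl_PlaceK ℓ F H := (Quotient.mk (gl_placeKSetoid ℓ F H) ιF) with hv
  obtain ⟨σ, hσ, τ, hτ⟩ : (gl_placeKSetoid ℓ F H).r (Quotient.out v) ιF := Quotient.mk_out ιF
  refine ⟨⟨v, ((τ : PadicAlgCl ℓ ≃ₐ[ℚ_[ℓ]] PadicAlgCl ℓ) : PadicAlgCl ℓ →ₐ[ℚ_[ℓ]]
    PadicAlgCl ℓ).comp (IntermediateField.fixedField (gl_locU ℓ F H (Quotient.out v))).val⟩, ?_⟩
  ext x
  show τ ((Quotient.out v) (x : F)) = ι₁ x
  rw [← hιF' x, hτ]
  show τ ((Quotient.out v) (x : F)) = τ ((Quotient.out v) (σ (x : F)))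
  rw [(IntermediateField.mem_fixedField_iff H _).1 x.2 σ hσ]

theorem rcg_E_bijective : Function.Bijective (rcg_E H ℓ) :=
  ⟨rcg_E_injective H ℓ, rcg_E_surjective H ℓ⟩

theorem rcg_finite_place : Finite (gl_PlaceK ℓ F H) := by
  unfold gl_PlaceK
  infer_instance

end rcg

/-- **[RC-GNORM]** the global norm is the product of the local norms. -/
theorem rcg_main : rcy_GNormStatement := by
  intro F _ _ H ℓ _ x
  classical
  haveI := rcg_finite_place H ℓ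
  letI : Fintype (gl_PlaceK ℓ F H) := Fintype.ofFinite _
  haveI hfd : ∀ v : gl_PlaceK ℓ F H, FiniteDimensional ℚ_[ℓ]
      ↥(IntermediateField.fixedField (gl_locU ℓ F H (Quotient.out v))) :=
    fun v => rcg_finite H ℓ _
  rw [Algebra.norm_eq_prod_embeddings ℚ (PadicAlgCl ℓ) x, finprod_eq_prod_of_fintype]
  have h1 : ∀ v : gl_PlaceK ℓ F H,
      rcy_locNorm (gl_locU ℓ F H (Quotient.out v)) ((Quotient.out v) (x : F)) =
        ∏ τ : ↥(IntermediateField.fixedField (gl_locU ℓ F H (Quotient.out v))) →ₐ[ℚ_[ℓ]]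
          PadicAlgCl ℓ, rcg_e H ℓ (Quotient.out v) τ x := by
    intro v
    rw [rcg_locNorm_eq, finprod_eq_prod_of_fintype]
  rw [Finset.prod_congr rfl (fun v _ => h1 v)]
  have h2 := Fintype.prod_sigma (fun p : (Σ v : gl_PlaceK ℓ F H,
      (↥(IntermediateField.fixedField (gl_locU ℓ F H (Quotient.out v))) →ₐ[ℚ_[ℓ]]
        PadicAlgCl ℓ)) => rcg_E H ℓ p x)
  have h3 := Fintype.prod_bijective (rcg_E H ℓ) (rcg_E_bijective H ℓ)
    (fun p => rcg_E H ℓ p x) (fun ι₁ => ι₁ x) (fun p => rfl)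
  exact h3.symm.trans h2

end

end Fermat.Agent.S55
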