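/-
S55 (fifth wave), GLOBAL side, leaf [RC-SHAPE] = `rcy_ShapeStatement` (Global/RecCycDefs.lean),
part 1: the local computations in `Ω_q` (helper2).  Prefix `rcs_`.

* `rcs_unique`: a root of unity of order prime to `q` which is `≡ 1` is `1`;
* `rcs_exists_root`: an element `≡ 1` has an `n`-th root `≡ 1`;
* `rcs_exists_P`: for a primitive `q`-th root of unity `w` there is `ρ ≡ 1` with
  `((1 - w) ρ) ^ (q - 1) = - q`  (Wilson);
* `rcs_cong`: `g w = w ^ k` implies `g Π ≡ k Π` modulo `Π 𝔪` for `Π = (1 - w) ρ`.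
-/
import Mathlib
import Fermat.Agent.S55.Global.CycExtLocal

set_option autoImplicit false

namespace Fermat.Agent.S55

open Polynomial

noncomputable section

section rcsloc

variable (q : ℕ) [Fact q.Prime]

theorem rcs_norm_natCast_le (n : ℕ) : ‖(n : PadicAlgCl q)‖ ≤ 1 := by
  have h := plc_norm_intCast_le_one q (n : ℤ)
  rwa [Int.cast_natCast] at h

theorem rcs_norm_natCast_eq_one (n : ℕ) (h : ¬ q ∣ n) : ‖(n : PadicAlgCl q)‖ = 1 := by
  have hq : q.Prime := Fact.out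
  have h1 : (n : PadicAlgCl q) = algebraMap ℚ_[q] (PadicAlgCl q) (n : ℚ_[q]) := by
    simp
  rw [h1, PadicAlgCl.norm_extends, Padic.norm_natCast_eq_one_iff]
  exact (Nat.Prime.coprime_iff_not_dvd hq).mpr h

theorem rcs_norm_q_lt : ‖((q : ℕ) : PadicAlgCl q)‖ < 1 := by
  have hq : q.Prime := Fact.out
  rw [plc_norm_q]
  have h2 : (1 : ℝ) < q := by exact_mod_cast hq.one_lt
  exact inv_lt_one_of_one_lt₀ h2

theorem rcs_norm_intCast_lt (m : ℤ) (h : (q : ℤ) ∣ m) : ‖(m : PadicAlgCl q)‖ < 1 := by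
  obtain ⟨c, rfl⟩ := h
  rw [Int.cast_mul, Int.cast_natCast, norm_mul]
  have h1 := rcs_norm_q_lt q
  have h2 := plc_norm_intCast_le_one q c
  calc ‖((q : ℕ) : PadicAlgCl q)‖ * ‖(c : PadicAlgCl q)‖
      ≤ ‖((q : ℕ) : PadicAlgCl q)‖ * 1 := mul_le_mul_of_nonneg_left h2 (norm_nonneg _)
    _ < 1 := by rw [mul_one]; exact h1

/-- `1 + x + ... + x^(k-1) ≡ k` modulo `1 - x`. -/
theorem rcs_geom_cong (x : PadicAlgCl q) (hx : ‖x‖ ≤ 1) (k : ℕ) :
    ‖∑ i ∈ Finset.range k, x ^ i - (k : PadicAlgCl q)‖ ≤ ‖1 - x‖ := by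
  have h1 : ∑ i ∈ Finset.range k, x ^ i - (k : PadicAlgCl q) =
      ∑ i ∈ Finset.range k, (x ^ i - 1) := by
    rw [Finset.sum_sub_distrib]
    simp
  rw [h1]
  apply IsUltrametricDist.norm_sum_le_of_forall_le_of_nonneg (norm_nonneg _)
  intro i _
  rw [norm_sub_rev]
  exact cyx_norm_one_sub_pow_le q x hx i

theorem rcs_norm_eq_one_of_sub_lt {x : PadicAlgCl q} (h : ‖x - 1‖ < 1) : ‖x‖ = 1 := by
  have h1 : ‖x - 1‖ < ‖(1 : PadicAlgCl q)‖ := by rwa [norm_one]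
  rw [plc_norm_eq_of_sub_lt q h1, norm_one]

/-- A root of unity of order prime to `q` which is congruent to `1` is `1`. -/
theorem rcs_unique {η : PadicAlgCl q} {n : ℕ} (hn : ¬ q ∣ n) (h1 : η ^ n = 1)
    (h2 : ‖η - 1‖ < 1) : η = 1 := by
  have hη : ‖η‖ = 1 := rcs_norm_eq_one_of_sub_lt q h2
  have h3 : (η - 1) * ∑ i ∈ Finset.range n, η ^ i = 0 := by
    rw [mul_geom_sum, h1, sub_self]
  have h4 : ‖∑ i ∈ Finset.range n, η ^ i - (n : PadicAlgCl q)‖ < ‖(n : PadicAlgCl q)‖ := by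
    rw [rcs_norm_natCast_eq_one q n hn]
    refine lt_of_le_of_lt (rcs_geom_cong q η hη.le n) ?_
    rwa [norm_sub_rev]
  have h5 : ‖∑ i ∈ Finset.range n, η ^ i‖ = 1 := by
    rw [plc_norm_eq_of_sub_lt q h4, rcs_norm_natCast_eq_one q n hn]
  have h6 : ∑ i ∈ Finset.range n, η ^ i ≠ 0 := by
    intro h0
    rw [h0, norm_zero] at h5
    exact zero_ne_one h5
  rcases mul_eq_zero.1 h3 with h | h
  · exact sub_eq_zero.1 h
  · exact absurd h h6

/-- Products of congruent elements of the unit ball are congruent. -/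
theorem rcs_prod_cong {ι : Type*} (s : Finset ι) (a b : ι → PadicAlgCl q) (δ : ℝ) (hδ : 0 ≤ δ)
    (ha : ∀ i ∈ s, ‖a i‖ ≤ 1) (hb : ∀ i ∈ s, ‖b i‖ ≤ 1) (hab : ∀ i ∈ s, ‖a i - b i‖ ≤ δ) :
    ‖∏ i ∈ s, a i - ∏ i ∈ s, b i‖ ≤ δ := by
  classical
  induction s using Finset.induction_on with
  | empty => simpa using hδ
  | insert j s hj ih =>
    rw [Finset.prod_insert hj, Finset.prod_insert hj]
    have ha' : ∀ i ∈ s, ‖a i‖ ≤ 1 := fun i hi => ha i (Finset.mem_insert_of_mem hi)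
    have hb' : ∀ i ∈ s, ‖b i‖ ≤ 1 := fun i hi => hb i (Finset.mem_insert_of_mem hi)
    have hab' : ∀ i ∈ s, ‖a i - b i‖ ≤ δ := fun i hi => hab i (Finset.mem_insert_of_mem hi)
    have ih' := ih ha' hb' hab'
    have hpa : ‖∏ i ∈ s, a i‖ ≤ 1 := by
      rw [norm_prod]
      exact Finset.prod_le_one (fun i _ => norm_nonneg _) ha'
    have e : a j * ∏ i ∈ s, a i - b j * ∏ i ∈ s, b i =
        (a j - b j) * ∏ i ∈ s, a i + b j * (∏ i ∈ s, a i - ∏ i ∈ s, b i) := by ring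
    rw [e]
    refine le_trans (IsUltrametricDist.norm_add_le_max _ _) (max_le ?_ ?_)
    · rw [norm_mul]
      calc ‖a j - b j‖ * ‖∏ i ∈ s, a i‖ ≤ δ * 1 :=
            mul_le_mul (hab j (Finset.mem_insert_self j s)) hpa (norm_nonneg _) hδ
        _ = δ := mul_one _
    · rw [norm_mul]
      calc ‖b j‖ * ‖∏ i ∈ s, a i - ∏ i ∈ s, b i‖ ≤ 1 * δ :=
            mul_le_mul (hb j (Finset.mem_insert_self j s)) ih' (norm_nonneg _) zero_le_one
        _ = δ := one_mul _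

/-- An element `≡ 1` has an `n`-th root `≡ 1`. -/
theorem rcs_exists_root {c : PadicAlgCl q} (hc : ‖c - 1‖ < 1) {n : ℕ} (hn : n ≠ 0) :
    ∃ ρ : PadicAlgCl q, ρ ^ n = c ∧ ‖ρ - 1‖ < 1 := by
  classical
  set f : (PadicAlgCl q)[X] := X ^ n - C c with hf
  have hmonic : f.Monic := monic_X_pow_sub_C c hn
  have hsplit : f.Splits := IsAlgClosed.splits f
  have h1 := hsplit.eval_eq_prod_roots 1
  rw [hmonic.leadingCoeff, one_mul] at h1
  have h2 : eval 1 f = 1 - c := by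
    rw [hf]
    simp
  rw [h2] at h1
  by_contra hno0
  have hno : ∀ r : PadicAlgCl q, r ^ n = c → 1 ≤ ‖r - 1‖ :=
    fun r hr => not_lt.1 (fun hlt => hno0 ⟨r, hr, hlt⟩)
  have h3 : ∀ r ∈ f.roots, 1 ≤ ‖(1 : PadicAlgCl q) - r‖ := by
    intro r hr
    have hr' : r ^ n = c := by
      have := (mem_roots hmonic.ne_zero).1 hr
      rw [hf] at this
      simpa [sub_eq_zero] using this
    have := hno r hr'
    rwa [norm_sub_rev] at this
  have h4 : 1 ≤ ‖(Multiset.map (fun x => (1 : PadicAlgCl q) - x) f.roots).prod‖ := by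
    generalize f.roots = m at h3
    induction m using Multiset.induction_on with
    | empty => simp
    | cons r m ih =>
      rw [Multiset.map_cons, Multiset.prod_cons, norm_mul]
      have hr := h3 r (Multiset.mem_cons_self r m)
      have hm := ih (fun x hx => h3 x (Multiset.mem_cons_of_mem hx))
      calc (1 : ℝ) = 1 * 1 := (one_mul 1).symm
        _ ≤ ‖1 - r‖ * ‖(Multiset.map (fun x => (1 : PadicAlgCl q) - x) m).prod‖ :=
            mul_le_mul hr hm zero_le_one (norm_nonneg _)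
  rw [← h1, norm_sub_rev] at h4
  exact absurd hc (not_lt.2 h4)

theorem rcs_norm_pi_lt {w : PadicAlgCl q} (hw : IsPrimitiveRoot w q) : ‖1 - w‖ < 1 := by
  have hq : q.Prime := Fact.out
  have h := cyx_norm_pi q hw
  by_contra hge
  rw [not_lt] at hge
  have h1 : (1 : ℝ) ≤ ‖1 - w‖ ^ (q - 1) := one_le_pow₀ hge
  rw [h] at h1
  have h2 : (1 : ℝ) < q := by exact_mod_cast hq.one_lt
  exact absurd h1 (not_le.2 (inv_lt_one_of_one_lt₀ h2))

/-- Wilson: `∏_{k < q-1} (1 + w + ... + w^k) ≡ -1`. -/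
theorem rcs_u_cong {w : PadicAlgCl q} (hw : IsPrimitiveRoot w q) :
    ‖∏ k ∈ Finset.range (q - 1), (∑ i ∈ Finset.range (k + 1), w ^ i) + 1‖ < 1 := by
  have hq : q.Prime := Fact.out
  have hw1 : ‖w‖ = 1 := cyx_norm_root q hq.ne_zero hw.pow_eq_one
  have h1 : ‖∏ k ∈ Finset.range (q - 1), (∑ i ∈ Finset.range (k + 1), w ^ i) -
      ∏ k ∈ Finset.range (q - 1), (((k + 1 : ℕ) : PadicAlgCl q))‖ ≤ ‖1 - w‖ := by
    apply rcs_prod_cong q _ _ _ _ (norm_nonneg _)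
    · intro k _
      apply IsUltrametricDist.norm_sum_le_of_forall_le_of_nonneg zero_le_one
      intro i _
      rw [norm_pow, hw1, one_pow]
    · intro k _
      exact rcs_norm_natCast_le q _
    · intro k _
      exact rcs_geom_cong q w hw1.le (k + 1)
  have h2 : ∏ k ∈ Finset.range (q - 1), (((k + 1 : ℕ) : PadicAlgCl q)) =
      (((q - 1).factorial : ℕ) : PadicAlgCl q) := by
    rw [← Nat.cast_prod, Finset.prod_range_add_one_eq_factorial]
  rw [h2] at h1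
  have h3 : ‖(((q - 1).factorial : ℕ) : PadicAlgCl q) + 1‖ < 1 := by
    have hW := ZMod.wilsons_lemma q
    have h4 : (q : ℤ) ∣ (((q - 1).factorial : ℕ) : ℤ) + 1 := by
      rw [← ZMod.intCast_zmod_eq_zero_iff_dvd]
      push_cast
      rw [hW]
      ring
    have := rcs_norm_intCast_lt q _ h4
    push_cast at this
    exact this
  have e : ∏ k ∈ Finset.range (q - 1), (∑ i ∈ Finset.range (k + 1), w ^ i) + 1 =
      (∏ k ∈ Finset.range (q - 1), (∑ i ∈ Finset.range (k + 1), w ^ i) -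
        (((q - 1).factorial : ℕ) : PadicAlgCl q)) +
      ((((q - 1).factorial : ℕ) : PadicAlgCl q) + 1) := by ring
  rw [e]
  exact lt_of_le_of_lt (IsUltrametricDist.norm_add_le_max _ _)
    (max_lt (lt_of_le_of_lt h1 (rcs_norm_pi_lt q hw)) h3)

/-- The element `Π = (1 - w) ρ`, `ρ ≡ 1`, with `Π ^ (q - 1) = - q`. -/
theorem rcs_exists_P {w : PadicAlgCl q} (hw : IsPrimitiveRoot w q) :
    ∃ ρ : PadicAlgCl q, ‖ρ - 1‖ < 1 ∧
      ((1 - w) * ρ) ^ (q - 1) = -((q : ℕ) : PadicAlgCl q) := by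
  have hq : q.Prime := Fact.out
  have hq1 : q - 1 + 1 = q := Nat.succ_pred_eq_of_pos hq.pos
  have hq2 : q - 1 ≠ 0 := by have := hq.two_le; omega
  set u : PadicAlgCl q :=
    ∏ k ∈ Finset.range (q - 1), (∑ i ∈ Finset.range (k + 1), w ^ i) with hu
  have hu1 : ‖-u - 1‖ < 1 := by
    have := rcs_u_cong q hw
    rw [← hu] at this
    have e : -u - 1 = -(u + 1) := by ring
    rw [e, norm_neg]
    exact this
  obtain ⟨ρ, hρ, hρ1⟩ := rcs_exists_root q hu1 hq2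
  refine ⟨ρ, hρ1, ?_⟩
  have hw' : IsPrimitiveRoot w (q - 1 + 1) := by rwa [hq1]
  have h := IsPrimitiveRoot.prod_one_sub_pow_eq_order hw'
  have h2 : ∏ k ∈ Finset.range (q - 1), (1 - w ^ (k + 1)) = (1 - w) ^ (q - 1) * u := by
    have e : (1 - w) ^ (q - 1) = ∏ _k ∈ Finset.range (q - 1), (1 - w) := by
      rw [Finset.prod_const, Finset.card_range]
    rw [hu, e, ← Finset.prod_mul_distrib]
    refine Finset.prod_congr rfl (fun k _ => ?_)
    exact (mul_neg_geom_sum w (k + 1)).symm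
  have h3 : (((q - 1 : ℕ) : PadicAlgCl q) + 1) = ((q : ℕ) : PadicAlgCl q) := by
    rw [← Nat.cast_one (R := PadicAlgCl q), ← Nat.cast_add, hq1]
  rw [mul_pow, hρ, ← h3, ← h, h2]
  ring

/-- The Galois action on `Π = (1 - w) ρ` modulo `Π 𝔪`. -/
theorem rcs_cong {w ρ : PadicAlgCl q} (hw : IsPrimitiveRoot w q) (hρ : ‖ρ - 1‖ < 1)
    (g : gl_GQq q) (k : ℕ) (hg : g w = w ^ k) :
    ‖g ((1 - w) * ρ) - (k : PadicAlgCl q) * ((1 - w) * ρ)‖ < ‖(1 - w) * ρ‖ := by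
  have hq : q.Prime := Fact.out
  have hw1 : ‖w‖ = 1 := cyx_norm_root q hq.ne_zero hw.pow_eq_one
  have hρn : ‖ρ‖ = 1 := rcs_norm_eq_one_of_sub_lt q hρ
  have hgρ : ‖g ρ - 1‖ < 1 := by
    have e : g ρ - 1 = g (ρ - 1) := by rw [map_sub, map_one]
    rw [e, plc_norm_aut]
    exact hρ
  have hgρn : ‖g ρ‖ = 1 := rcs_norm_eq_one_of_sub_lt q hgρ
  have hs : ‖∑ i ∈ Finset.range k, w ^ i - (k : PadicAlgCl q)‖ < 1 :=
    lt_of_le_of_lt (rcs_geom_cong q w hw1.le k) (rcs_norm_pi_lt q hw)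
  have e1 : g ((1 - w) * ρ) = (1 - w) * (∑ i ∈ Finset.range k, w ^ i) * g ρ := by
    rw [map_mul, map_sub, map_one, hg, mul_neg_geom_sum]
  have e2 : g ((1 - w) * ρ) - (k : PadicAlgCl q) * ((1 - w) * ρ) =
      (1 - w) * ((∑ i ∈ Finset.range k, w ^ i - (k : PadicAlgCl q)) * g ρ +
        (k : PadicAlgCl q) * (g ρ - ρ)) := by
    rw [e1]
    ring
  have h3 : ‖g ρ - ρ‖ < 1 := by
    have e : g ρ - ρ = (g ρ - 1) + (1 - ρ) := by ring
    rw [e]
    refine lt_of_le_of_lt (IsUltrametricDist.norm_add_le_max _ _) (max_lt hgρ ?_)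
    rwa [norm_sub_rev]
  have h4 : ‖(∑ i ∈ Finset.range k, w ^ i - (k : PadicAlgCl q)) * g ρ +
      (k : PadicAlgCl q) * (g ρ - ρ)‖ < 1 := by
    refine lt_of_le_of_lt (IsUltrametricDist.norm_add_le_max _ _) (max_lt ?_ ?_)
    · rw [norm_mul, hgρn, mul_one]
      exact hs
    · rw [norm_mul]
      calc ‖(k : PadicAlgCl q)‖ * ‖g ρ - ρ‖ ≤ 1 * ‖g ρ - ρ‖ :=
            mul_le_mul_of_nonneg_right (rcs_norm_natCast_le q k) (norm_nonneg _)
        _ < 1 := by rw [one_mul]; exact h3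
  rw [e2, norm_mul, norm_mul, hρn, mul_one]
  have hpos := cyx_norm_pi_pos q hw
  calc ‖1 - w‖ * ‖(∑ i ∈ Finset.range k, w ^ i - (k : PadicAlgCl q)) * g ρ +
      (k : PadicAlgCl q) * (g ρ - ρ)‖ < ‖1 - w‖ * 1 := mul_lt_mul_of_pos_left h4 hpos
    _ = ‖1 - w‖ := mul_one _

end rcsloc

end

end Fermat.Agent.S55
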