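/-
S55 (fifth wave), GLOBAL side, leaf [RC-SHAPE] = `rcy_ShapeStatement` (Global/RecCycDefs.lean),
part 3: the assembly (helper2).  Prefix `rcs_`.

EXPORT:  `theorem rcs_main : rcy_ShapeStatement`  (hypothesis-free).

ROUTE.  `Π = (1 - ι ζ) ρ` with `ρ ≡ 1`, `Π ^ (q - 1) = - q` (`rcs_exists_P`, Wilson);
`g Π ≡ k Π` (`rcs_cong`); the fixed field of `U_{G'}` is `ℚ_q(ι K)` with value group `q^ℤ`
(`rcs_value`), so `q` is a uniformizer of `U_{G'}`; `[U_{G'} : U_H] · #H = q - 1`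
(`rcs_relIndex`, transitivity of the local Galois group on the primitive roots of unity);
`Π ^ #H` is fixed by `U_H` (`rcs_pow_fixed`: `g Π / Π` is a `(q-1)`-th root of unity `≡ k`,
`k ^ #H ≡ 1 mod q`) and `‖Π ^ #H‖ ^ [U_{G'} : U_H] = ‖q‖`; the fundamental identity
`e f = [U_{G'} : U_H]` (`lef_main'`) then forces `e = [U_{G'} : U_H]`, `f = 1`
(`rcs_unif_of_EF`).
-/
import Mathlib
import Fermat.Agent.S55.Global.RcShapeLocal
import Fermat.Agent.S55.Global.RcShapeGal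
import Fermat.Agent.S55.Local.Unif

set_option autoImplicit false

namespace Fermat.Agent.S55

noncomputable section

section rcsasm

variable (q : ℕ) [Fact q.Prime]

theorem rcs_q_ne_zero : ((q : ℕ) : PadicAlgCl q) ≠ 0 := by
  intro h
  have h1 := plc_norm_q q
  rw [h, norm_zero] at h1
  have hq : q.Prime := Fact.out
  have h2 : (0 : ℝ) < (q : ℝ)⁻¹ := by
    have : (0 : ℝ) < q := by exact_mod_cast hq.pos
    positivity
  rw [← h1] at h2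
  exact lt_irrefl _ h2

/-- If the value group of the fixed field of `U` is `q^ℤ`, then `q` is a uniformizer. -/
theorem rcs_q_unif (U : Subgroup (lcf_Gal q))
    (hval : ∀ x : (PadicAlgCl q)ˣ, (∀ g : ↥U, g • x = x) →
      ∃ k : ℤ, ‖(x : PadicAlgCl q)‖ = ((q : ℕ) : ℝ) ^ k) :
    lcf_IsUnif U (Units.mk0 ((q : ℕ) : PadicAlgCl q) (rcs_q_ne_zero q)) := by
  refine ⟨fun g => ?_, ?_, fun x hx => ?_⟩
  · apply Units.ext
    show (g : lcf_Gal q) ((q : ℕ) : PadicAlgCl q) = ((q : ℕ) : PadicAlgCl q)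
    exact map_natCast _ q
  · exact rcs_norm_q_lt q
  · obtain ⟨k, hk⟩ := hval x hx
    refine ⟨-k, ?_⟩
    rw [hk]
    show ((q : ℕ) : ℝ) ^ k = ‖((q : ℕ) : PadicAlgCl q)‖ ^ (-k)
    rw [plc_norm_q, inv_zpow', neg_neg]

/-- The fundamental identity forces total ramification: if the value group of `U` is `q^ℤ`,
`U' ≤ U` is open and `Π'` is fixed by `U'` with `‖Π'‖ ^ [U : U'] = ‖q‖`, then `Π'` is a
uniformizer of `U'` and the residue fields have the same cardinality. -/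
theorem rcs_unif_of_EF (U U' : Subgroup (lcf_Gal q)) (hle : U' ≤ U) (hU' : lcf_IsOpen U')
    (hval : ∀ x : (PadicAlgCl q)ˣ, (∀ g : ↥U, g • x = x) →
      ∃ k : ℤ, ‖(x : PadicAlgCl q)‖ = ((q : ℕ) : ℝ) ^ k)
    (P' : (PadicAlgCl q)ˣ) (hfix : ∀ g : ↥U', g • P' = P')
    (hnorm : ‖(P' : PadicAlgCl q)‖ ^ (U'.relIndex U) = ‖((q : ℕ) : PadicAlgCl q)‖) :
    lcf_IsUnif U' P' ∧ lcf_resCard U' = lcf_resCard U := by
  obtain ⟨ϖ', hϖ'⟩ := lunif_main q U' hU'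
  obtain ⟨e, f, he, hf, hef⟩ := lef_main' q U U' hle hU' _ ϖ' (rcs_q_unif q U hval) hϖ'
  obtain ⟨j, hj⟩ := hϖ'.2.2 P' hfix
  have hϖpos : 0 < ‖(ϖ' : PadicAlgCl q)‖ := norm_pos_iff.2 ϖ'.ne_zero
  have hϖlt : ‖(ϖ' : PadicAlgCl q)‖ < 1 := hϖ'.2.1
  have he' : ‖((q : ℕ) : PadicAlgCl q)‖ = ‖(ϖ' : PadicAlgCl q)‖ ^ e := he
  set m := U'.relIndex U with hm
  have h1 : ‖(ϖ' : PadicAlgCl q)‖ ^ (j * (m : ℤ)) = ‖(ϖ' : PadicAlgCl q)‖ ^ ((e : ℕ) : ℤ) := by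
    rw [zpow_mul, ← hj, zpow_natCast, hnorm, he', zpow_natCast]
  have h2 : j * (m : ℤ) = (e : ℤ) := zpow_right_injective₀ hϖpos hϖlt.ne h1
  have hm0 : m ≠ 0 := by
    intro h0
    rw [h0, pow_zero] at hnorm
    have := rcs_norm_q_lt q
    rw [← hnorm] at this
    exact lt_irrefl _ this
  have he0 : e ≠ 0 := by
    intro h0
    rw [h0, zero_mul] at hef
    exact hm0 hef.symm
  have h3 : j * (f : ℤ) = 1 := by
    have h4 : (e : ℤ) * (f : ℤ) = (m : ℤ) := by exact_mod_cast hef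
    have h5 : (e : ℤ) * (j * (f : ℤ)) = (e : ℤ) * 1 := by
      calc (e : ℤ) * (j * (f : ℤ)) = j * ((e : ℤ) * (f : ℤ)) := by ring
        _ = j * (m : ℤ) := by rw [h4]
        _ = (e : ℤ) * 1 := by rw [h2, mul_one]
    exact mul_left_cancel₀ (by exact_mod_cast he0) h5
  have hf1 : f = 1 := by
    have h6 : (f : ℤ) ∣ 1 := Dvd.intro_left j h3
    have h7 : ((f : ℤ)).natAbs = 1 := Int.natAbs_dvd_natAbs.2 h6 |> Nat.dvd_one.1
    simpa using h7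
  have hj1 : j = 1 := by
    rw [hf1] at h3
    simpa using h3
  have hPϖ : ‖(P' : PadicAlgCl q)‖ = ‖(ϖ' : PadicAlgCl q)‖ := by
    rw [hj, hj1, zpow_one]
  refine ⟨⟨hfix, ?_, fun x hx => ?_⟩, ?_⟩
  · rw [hPϖ]
    exact hϖlt
  · obtain ⟨n, hn⟩ := hϖ'.2.2 x hx
    exact ⟨n, by rw [hn, hPϖ]⟩
  · rw [hf, hf1, pow_one]

end rcsasm

section rcspow

variable {F : Type} [Field F]

theorem rcs_sigma_pow [Algebra ℚ F] {ζ : F} (σ : F ≃ₐ[ℚ] F) (k : ℕ) (hk : σ ζ = ζ ^ k)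
    (n : ℕ) : (σ ^ n) ζ = ζ ^ (k ^ n) := by
  induction n with
  | zero => simp
  | succ n ih =>
    rw [pow_succ, AlgEquiv.mul_apply, hk, map_pow, ih, ← pow_mul, ← pow_succ]

theorem rcs_dvd_of_pow_eq (q : ℕ) [Fact q.Prime] {ζ : F} (hζ : IsPrimitiveRoot ζ q) (a : ℕ)
    (h : ζ ^ a = ζ) : (q : ℤ) ∣ (a : ℤ) - 1 := by
  have hq : q.Prime := Fact.out
  have hζ0 : ζ ≠ 0 := hζ.ne_zero hq.ne_zero
  rcases Nat.eq_zero_or_pos a with h0 | hpos
  · exfalso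
    rw [h0, pow_zero] at h
    have h1 : ζ ^ 1 = 1 := by rw [pow_one, ← h]
    have h2 := (hζ.pow_eq_one_iff_dvd 1).1 h1
    have := Nat.le_of_dvd Nat.one_pos h2
    have := hq.two_le
    omega
  · obtain ⟨b, rfl⟩ : ∃ b, a = b + 1 := ⟨a - 1, by omega⟩
    have h1 : ζ ^ b * ζ = 1 * ζ := by rw [← pow_succ, h, one_mul]
    have h2 : ζ ^ b = 1 := mul_right_cancel₀ hζ0 h1
    have h3 := (hζ.pow_eq_one_iff_dvd b).1 h2
    have e : ((b + 1 : ℕ) : ℤ) - 1 = (b : ℤ) := by push_cast; ring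
    rw [e]
    exact_mod_cast h3

end rcspow

section rcsfix

variable (q : ℕ) [Fact q.Prime] {F : Type} [Field F] [NumberField F]
  (ι : F →ₐ[ℚ] PadicAlgCl q) {ζ : F}

/-- `Π ^ #H` is fixed by `U_H`. -/
theorem rcs_pow_fixed (hζ : IsPrimitiveRoot ζ q) (H : Subgroup (F ≃ₐ[ℚ] F))
    (P : (PadicAlgCl q)ˣ)
    (hP : (P : PadicAlgCl q) ^ (q - 1) = -((q : ℕ) : PadicAlgCl q))
    (hcong : ∀ (g : lcf_Gal q) (k : ℕ), g (ι ζ) = (ι ζ) ^ k →
      ‖g (P : PadicAlgCl q) - (k : PadicAlgCl q) * (P : PadicAlgCl q)‖ <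
        ‖(P : PadicAlgCl q)‖)
    (g : ↥(gl_locU q F H ι)) : g • (P ^ Nat.card ↥H) = P ^ Nat.card ↥H := by
  have hq : q.Prime := Fact.out
  have : NeZero q := ⟨hq.ne_zero⟩
  set n := Nat.card ↥H with hn
  set σ : ↥H := gl_locSigma q F H ι g with hσ
  have hσq : ((σ : F ≃ₐ[ℚ] F) ζ) ^ q = 1 := by
    rw [← map_pow, hζ.pow_eq_one, map_one]
  obtain ⟨k, -, hk⟩ := hζ.eq_pow_of_pow_eq_one hσq
  have hgw : (g : lcf_Gal q) (ι ζ) = (ι ζ) ^ k := by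
    rw [gl_locSigma_apply, ← hσ, ← hk, map_pow]
  have h1 := hcong (g : lcf_Gal q) k hgw
  have hP0 : (P : PadicAlgCl q) ≠ 0 := P.ne_zero
  have hPpos : 0 < ‖(P : PadicAlgCl q)‖ := norm_pos_iff.2 hP0
  set η : PadicAlgCl q := (g : lcf_Gal q) (P : PadicAlgCl q) * (P : PadicAlgCl q)⁻¹ with hη
  have hgP : (g : lcf_Gal q) (P : PadicAlgCl q) = η * (P : PadicAlgCl q) := by
    rw [hη, mul_assoc, inv_mul_cancel₀ hP0, mul_one]
  have hηq : η ^ (q - 1) = 1 := by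
    rw [hη, mul_pow, ← map_pow, inv_pow, hP, map_neg, map_natCast]
    exact mul_inv_cancel₀ (neg_ne_zero.2 (rcs_q_ne_zero q))
  have hηk : ‖η - (k : PadicAlgCl q)‖ < 1 := by
    have e : η - (k : PadicAlgCl q) =
        ((g : lcf_Gal q) (P : PadicAlgCl q) - (k : PadicAlgCl q) * (P : PadicAlgCl q)) *
          (P : PadicAlgCl q)⁻¹ := by
      rw [hη, sub_mul, mul_assoc, mul_inv_cancel₀ hP0, mul_one]
    rw [e, norm_mul, norm_inv, ← div_eq_mul_inv, div_lt_one hPpos]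
    exact h1
  have hηn : ‖η‖ ≤ 1 := by
    have e : η = (η - (k : PadicAlgCl q)) + (k : PadicAlgCl q) := by ring
    rw [e]
    exact le_trans (IsUltrametricDist.norm_add_le_max _ _)
      (max_le hηk.le (rcs_norm_natCast_le q k))
  -- `k ^ n ≡ 1 mod q`
  have hσn : σ ^ n = 1 := pow_card_eq_one'
  have hσn' : ((σ : F ≃ₐ[ℚ] F) ^ n) ζ = ζ := by
    have h2 : ((σ ^ n : ↥H) : F ≃ₐ[ℚ] F) = 1 := by rw [hσn]; rfl
    rw [Subgroup.coe_pow] at h2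
    rw [h2]
    rfl
  have hkn : ζ ^ (k ^ n) = ζ := by
    rw [← rcs_sigma_pow (σ : F ≃ₐ[ℚ] F) k hk.symm n]
    exact hσn'
  have hdvd : (q : ℤ) ∣ ((k ^ n : ℕ) : ℤ) - 1 := rcs_dvd_of_pow_eq q hζ _ hkn
  have hkn1 : ‖(k : PadicAlgCl q) ^ n - 1‖ < 1 := by
    have := rcs_norm_intCast_lt q _ hdvd
    push_cast at this
    exact this
  have hηkn : ‖η ^ n - (k : PadicAlgCl q) ^ n‖ < 1 := by
    have h3 := rcs_prod_cong q (Finset.range n) (fun _ => η) (fun _ => (k : PadicAlgCl q))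
      ‖η - (k : PadicAlgCl q)‖ (norm_nonneg _) (fun _ _ => hηn)
      (fun _ _ => rcs_norm_natCast_le q k) (fun _ _ => le_rfl)
    rw [Finset.prod_const, Finset.prod_const, Finset.card_range] at h3
    exact lt_of_le_of_lt h3 hηk
  have hηn1 : ‖η ^ n - 1‖ < 1 := by
    have e : η ^ n - 1 = (η ^ n - (k : PadicAlgCl q) ^ n) + ((k : PadicAlgCl q) ^ n - 1) := by
      ring
    rw [e]
    exact lt_of_le_of_lt (IsUltrametricDist.norm_add_le_max _ _) (max_lt hηkn hkn1)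
  have hq1 : ¬ q ∣ q - 1 := by
    intro h
    have h2 := Nat.le_of_dvd (by have := hq.two_le; omega) h
    have := hq.two_le
    omega
  have hηone : η ^ n = 1 := by
    apply rcs_unique q hq1 _ hηn1
    rw [← pow_mul, mul_comm, pow_mul, hηq, one_pow]
  apply Units.ext
  show (g : lcf_Gal q) ((P ^ n : (PadicAlgCl q)ˣ) : PadicAlgCl q) =
    ((P ^ n : (PadicAlgCl q)ˣ) : PadicAlgCl q)
  rw [Units.val_pow_eq_pow_val, map_pow, hgP, mul_pow, hηone, one_mul]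

end rcsfix

/-- **[RC-SHAPE]** the local shape of `F = K(ζ_q)` above `q`. -/
theorem rcs_main : rcy_ShapeStatement := by
  intro F _ _ q _ ζ hζ G' hfaith hur ι
  have hw : IsPrimitiveRoot (ι ζ) q := hζ.map_of_injective ι.injective
  obtain ⟨ρ, hρ, hP⟩ := rcs_exists_P q hw
  have hP0 : (1 - ι ζ) * ρ ≠ 0 := by
    intro h0
    rw [h0, zero_pow (by have := (Fact.out : q.Prime).two_le; omega)] at hP
    exact rcs_q_ne_zero q (neg_eq_zero.1 hP.symm)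
  obtain ⟨P, hPval⟩ : ∃ P : (PadicAlgCl q)ˣ, (P : PadicAlgCl q) = (1 - ι ζ) * ρ :=
    ⟨Units.mk0 _ hP0, rfl⟩
  rw [← hPval] at hP
  have hcong : ∀ (g : lcf_Gal q) (k : ℕ), g (ι ζ) = (ι ζ) ^ k →
      ‖g (P : PadicAlgCl q) - (k : PadicAlgCl q) * (P : PadicAlgCl q)‖ <
        ‖(P : PadicAlgCl q)‖ := by
    intro g k hg
    rw [hPval]
    exact rcs_cong q hw hρ g k hg
  have hval : ∀ x : (PadicAlgCl q)ˣ, (∀ g : ↥(gl_locU q F G' ι), g • x = x) →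
      ∃ k : ℤ, ‖(x : PadicAlgCl q)‖ = ((q : ℕ) : ℝ) ^ k :=
    fun x hx => rcs_value q G' ι hur x hx
  refine ⟨P, hP, hcong, hval, ?_⟩
  intro H hH
  have hrel := rcs_relIndex q G' ι hζ hfaith hur hH
  have hfix := rcs_pow_fixed q ι hζ H P hP hcong
  have hnorm : ‖((P ^ Nat.card ↥H : (PadicAlgCl q)ˣ) : PadicAlgCl q)‖ ^
      ((gl_locU q F H ι).relIndex (gl_locU q F G' ι)) = ‖((q : ℕ) : PadicAlgCl q)‖ := by
    rw [Units.val_pow_eq_pow_val, norm_pow, ← pow_mul, mul_comm (Nat.card ↥H), hrel,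
      ← norm_pow, hP, norm_neg]
  obtain ⟨h1, h2⟩ := rcs_unif_of_EF q (gl_locU q F G' ι) (gl_locU q F H ι)
    (rcs_locU_le q G' ι hH) (gsup_locU_isOpen q F H ι) hval _ hfix hnorm
  exact ⟨h1, h2, hrel⟩

end

end Fermat.Agent.S55
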