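/-
S55, GLOBAL side, package [R-CYC] (helper14): the ASSEMBLY, part A.
Cyclic structure of `H ≤ G' ↪ (ℤ/q)ˣ`, the character `χ`, the localised character `θ_ι`, and
the reduction of the local invariants of a 2-cocycle to the symbols `(ι x) ^ δθ_ι`.
-/
import Mathlib
import Fermat.Agent.S55.Global.RecCycDefs
import Fermat.Agent.S55.Global.LocBasic
import Fermat.Agent.S55.FG.Cyc2

set_option autoImplicit false

namespace Fermat.Agent.S55

open groupCohomology

noncomputable section

section chi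

variable {F : Type} [Field F] [NumberField F] {H : Subgroup (F ≃ₐ[ℚ] F)} (L : fgD_Log ↥H)

theorem rca_neZero : NeZero L.n := ⟨L.n_pos.ne'⟩

/-- The character `χ : H → ℤ/n`, `χ (s ^ i) = i`. -/
def rca_chi : ↥H →* Multiplicative (ZMod L.n) where
  toFun h := Multiplicative.ofAdd ((L.ι h : ℕ) : ZMod L.n)
  map_one' := by
    rw [L.ι_one, Nat.cast_zero]
    rfl
  map_mul' g h := by
    rw [L.ι_mul, ZMod.natCast_mod, Nat.cast_add]
    rfl

theorem rca_chi_val (h : ↥H) : (Multiplicative.toAdd (rca_chi L h)).val = L.ι h := by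
  have := rca_neZero L
  show ((L.ι h : ℕ) : ZMod L.n).val = L.ι h
  exact ZMod.val_natCast_of_lt (L.ι_lt h)

variable (q : ℕ) [Fact q.Prime] (ι : F →ₐ[ℚ] PadicAlgCl q)

/-- `g ↦ σ_g` as a homomorphism. -/
def rca_sigma : ↥(gl_locU q F H ι) →* ↥H where
  toFun := gl_locSigma q F H ι
  map_one' := gic_locSigma_one q F H ι
  map_mul' := gic_locSigma_mul q F H ι

@[simp] theorem rca_sigma_apply (g : ↥(gl_locU q F H ι)) :
    rca_sigma q ι g = gl_locSigma q F H ι g := rfl

/-- The localised character `θ_ι = χ ∘ (g ↦ σ_g)`. -/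
def rca_theta : ↥(gl_locU q F H ι) →* Multiplicative (ZMod L.n) :=
  (rca_chi L).comp (rca_sigma q ι)

theorem rca_theta_val (g : ↥(gl_locU q F H ι)) :
    (Multiplicative.toAdd (rca_theta L q ι g)).val = L.ι (gl_locSigma q F H ι g) :=
  rca_chi_val L _

theorem rca_theta_smooth : lcf_Smooth₁ (gl_locU q F H ι) (rca_theta L q ι) := by
  obtain ⟨E, hE, hfix⟩ := gic_exists_level q F ι
  refine ⟨E, hE, fun g s hs => ?_⟩
  show rca_chi L (gl_locSigma q F H ι (g * s)) = rca_chi L (gl_locSigma q F H ι g)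
  rw [gic_locSigma_mul_fix q F H ι g s (hfix _ hs)]

/-- The localisation of the carry cochain of `x` is the symbol `(ι x) ^ δθ_ι`. -/
theorem rca_locF_carry (x : Fˣ) :
    gl_locF q F H ι (fgD_carry L (Additive.ofMul x)) =
      lcf_unrCoc (gl_locU q F H ι) L.n (rca_theta L q ι)
        (Units.map (ι : F →* PadicAlgCl q) x) := by
  funext p
  show Units.map (ι : F →* PadicAlgCl q)
      (Multiplicative.toAdd.symm (((L.ι (gl_locSigma q F H ι p.1) +
        L.ι (gl_locSigma q F H ι p.2)) / L.n) • Additive.ofMul x)) =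
    (Units.map (ι : F →* PadicAlgCl q) x) ^
      (((Multiplicative.toAdd (rca_theta L q ι p.1)).val +
        (Multiplicative.toAdd (rca_theta L q ι p.2)).val) / L.n)
  rw [rca_theta_val, rca_theta_val, ← map_pow]
  rfl

end chi

section inv

variable {F : Type} [Field F] [NumberField F] {H : Subgroup (F ≃ₐ[ℚ] F)} (L : fgD_Log ↥H)

/-- The element `x = ∏_{i<n} c (s ^ i, s)` of `Fˣ` attached to a 2-cochain. -/
def rca_x (c : ↥H × ↥H → Additive Fˣ) : Fˣ := Additive.toMul (fgD_tr L c)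

theorem rca_x_fixed (c : ↥H × ↥H → Additive Fˣ) (hc : IsCocycle₂ c) (σ : ↥H) :
    (σ : F ≃ₐ[ℚ] F) ((rca_x L c : Fˣ) : F) = ((rca_x L c : Fˣ) : F) := by
  have h := fgD_tr_inv L hc σ
  have h2 := congrArg (fun a : Additive Fˣ => ((Additive.toMul a : Fˣ) : F)) h
  exact h2

/-- **Reduction to symbols**: the local invariant at `ι` of a 2-cocycle `c` of the cyclic group
`H` is the invariant of the symbol `(ι x) ^ δθ_ι`. -/
theorem rca_inv_eq (inv : lcf_InvType) (hinv : lcf_IsInvSystem inv)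
    (c : ↥H × ↥H → Additive Fˣ) (hc : IsCocycle₂ c) (q : ℕ) [Fact q.Prime]
    (ι : F →ₐ[ℚ] PadicAlgCl q) :
    gl_invAtF q F H ι inv c =
      inv q (gl_locU q F H ι) (lcf_unrCoc (gl_locU q F H ι) L.n (rca_theta L q ι)
        (Units.map (ι : F →* PadicAlgCl q) (rca_x L c))) := by
  have hU := gic_locU_isOpen q F H ι
  have hcob := fgD_cohomologous L hc
  have hcar : IsCocycle₂ (fgD_carry L (fgD_tr L c)) :=
    fgD_carry_isCocycle L (fgD_tr_inv L hc)
  have hsplit : c = (fun p => c p - fgD_carry L (fgD_tr L c) p) + fgD_carry L (fgD_tr L c) := by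
    funext p
    show c p = c p - fgD_carry L (fgD_tr L c) p + fgD_carry L (fgD_tr L c) p
    abel
  have h1 := glb_locF_isCob (q := q) H ι _ hcob
  have h1c := glb_locF_isCoc (q := q) H ι _ (fgD_isCocycle₂_of_isCoboundary₂ hcob)
  have h2c := glb_locF_isCoc (q := q) H ι _ hcar
  have h3 : gl_locF q F H ι c =
      gl_locF q F H ι (fun p => c p - fgD_carry L (fgD_tr L c) p) *
        gl_locF q F H ι (fgD_carry L (fgD_tr L c)) := by
    conv_lhs => rw [hsplit]
    exact glb_locF_add H ι _ _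
  show inv q (gl_locU q F H ι) (gl_locF q F H ι c) = _
  rw [h3, hinv.add q _ hU _ _ h1c h2c, (hinv.eq_zero_iff q _ hU _ h1c).2 h1, zero_add]
  congr 1
  exact rca_locF_carry L q ι (rca_x L c)

end inv

end

end Fermat.Agent.S55
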