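/-
S55, GLOBAL side, package [R-CYC] (helper14): the ASSEMBLY, part B.
The group `H ≤ G' ↪ (ℤ/q)ˣ` is cyclic; the exponent `a₀` of the generator (`s ζ = ζ ^ a₀`).
-/
import Mathlib
import Fermat.Agent.S55.Global.RecCycOfA

set_option autoImplicit false

namespace Fermat.Agent.S55

open groupCohomology

noncomputable section

section cyc

variable {F : Type} [Field F] [NumberField F] {q : ℕ} [Fact q.Prime] {ζ : F}

/-- `ζ ^ M = ζ ^ N` iff `M ≡ N mod q`. -/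
theorem rca_pow_eq_iff (hζ : IsPrimitiveRoot ζ q) (M N : ℕ) :
    ζ ^ M = ζ ^ N ↔ (M : ZMod q) = (N : ZMod q) := by
  rw [ZMod.natCast_eq_natCast_iff]
  have ho : orderOf ζ = q := hζ.eq_orderOf.symm
  have hq : 0 < q := (Fact.out : q.Prime).pos
  have e1 : ∀ K : ℕ, ζ ^ K = ζ ^ (K % q) := by
    intro K
    conv_rhs => rw [← ho, pow_mod_orderOf]
  constructor
  · intro h
    rw [e1 M, e1 N] at h
    exact hζ.pow_inj (Nat.mod_lt _ hq) (Nat.mod_lt _ hq) h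
  · intro h
    rw [e1 M, e1 N]
    have h' : M % q = N % q := h
    rw [h']

/-- A subgroup of `Aut(F/ℚ)` acting faithfully on `ζ` is cyclic. -/
theorem rca_isCyclic (hζ : IsPrimitiveRoot ζ q) (H : Subgroup (F ≃ₐ[ℚ] F))
    (hH : ∀ σ ∈ H, σ ζ = ζ → σ = 1) : IsCyclic ↥H := by
  set ψ : ↥H →* (ZMod q)ˣ := (hζ.autToPow ℚ).comp H.subtype with hψ
  have hinj : Function.Injective ψ := by
    rw [injective_iff_map_eq_one]
    intro σ hσ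
    have h1 := hζ.autToPow_spec ℚ (σ : F ≃ₐ[ℚ] F)
    have h2 : hζ.autToPow ℚ (σ : F ≃ₐ[ℚ] F) = 1 := hσ
    rw [h2, Units.val_one, ZMod.val_one, pow_one] at h1
    exact Subtype.ext (hH _ σ.2 h1.symm)
  exact isCyclic_of_injective ψ hinj

/-- A logarithm of `H`. -/
theorem rca_exists_log (hζ : IsPrimitiveRoot ζ q) (H : Subgroup (F ≃ₐ[ℚ] F))
    (hH : ∀ σ ∈ H, σ ζ = ζ → σ = 1) : ∃ L : fgD_Log ↥H, L.n = Nat.card ↥H := by
  have := rca_isCyclic hζ H hH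
  obtain ⟨σ, hσ⟩ := IsCyclic.exists_generator (α := ↥H)
  exact ⟨fgD_Log.ofGen σ hσ, rfl⟩

variable {H : Subgroup (F ≃ₐ[ℚ] F)} (L : fgD_Log ↥H)

/-- The exponent of the generator: `s ζ = ζ ^ a₀`. -/
def rca_a (hζ : IsPrimitiveRoot ζ q) : ℕ :=
  ((hζ.autToPow ℚ ((L.s : ↥H) : F ≃ₐ[ℚ] F) : (ZMod q)ˣ) : ZMod q).val

theorem rca_s_zeta (hζ : IsPrimitiveRoot ζ q) :
    ((L.s : ↥H) : F ≃ₐ[ℚ] F) ζ = ζ ^ rca_a L hζ :=
  (hζ.autToPow_spec ℚ ((L.s : ↥H) : F ≃ₐ[ℚ] F)).symm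

theorem rca_pow_zeta (hζ : IsPrimitiveRoot ζ q) (k : ℕ) :
    (((L.s ^ k : ↥H) : ↥H) : F ≃ₐ[ℚ] F) ζ = ζ ^ (rca_a L hζ ^ k) := by
  induction k with
  | zero =>
    rw [pow_zero, pow_zero, pow_one]
    rfl
  | succ k ih =>
    have e : (((L.s ^ (k + 1) : ↥H) : ↥H) : F ≃ₐ[ℚ] F) ζ =
        (((L.s ^ k : ↥H) : ↥H) : F ≃ₐ[ℚ] F) (((L.s : ↥H) : F ≃ₐ[ℚ] F) ζ) := by
      rw [pow_succ]
      rfl
    rw [e, rca_s_zeta L hζ, map_pow, ih, ← pow_mul, pow_succ]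

theorem rca_sigma_zeta (hζ : IsPrimitiveRoot ζ q) (h : ↥H) :
    ((h : ↥H) : F ≃ₐ[ℚ] F) ζ = ζ ^ (rca_a L hζ ^ L.ι h) := by
  conv_lhs => rw [← L.pow_ι h]
  exact rca_pow_zeta L hζ _

/-- If `h ζ = ζ ^ N` then `a₀ ^ (log h) ≡ N mod q`. -/
theorem rca_a_pow_eq (hζ : IsPrimitiveRoot ζ q) (h : ↥H) (N : ℕ)
    (hN : ((h : ↥H) : F ≃ₐ[ℚ] F) ζ = ζ ^ N) :
    ((rca_a L hζ : ℕ) : ZMod q) ^ L.ι h = (N : ZMod q) := by
  rw [rca_sigma_zeta L hζ h] at hN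
  have := (rca_pow_eq_iff hζ _ _).1 hN
  rw [Nat.cast_pow] at this
  exact this

theorem rca_a_pow_n (hζ : IsPrimitiveRoot ζ q) : ((rca_a L hζ : ℕ) : ZMod q) ^ L.n = 1 := by
  have h1 := rca_pow_zeta L hζ L.n
  rw [L.pow_n] at h1
  have h2 : ζ ^ 1 = ζ ^ (rca_a L hζ ^ L.n) := by
    rw [pow_one]
    exact h1
  have := (rca_pow_eq_iff hζ _ _).1 h2
  rw [Nat.cast_pow, Nat.cast_one] at this
  exact this.symm

theorem rca_a_ne_zero (hζ : IsPrimitiveRoot ζ q) : ((rca_a L hζ : ℕ) : ZMod q) ≠ 0 := by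
  intro h0
  have h1 := rca_a_pow_n L hζ
  rw [h0, zero_pow L.n_pos.ne'] at h1
  exact zero_ne_one h1

theorem rca_not_dvd (hζ : IsPrimitiveRoot ζ q) : ¬ q ∣ rca_a L hζ := by
  intro h
  exact rca_a_ne_zero L hζ ((ZMod.natCast_eq_zero_iff _ _).2 h)

/-- `s ^ k = 1` only if `n ∣ k`. -/
theorem rca_dvd_of_pow_eq_one (k : ℕ) (hk : L.s ^ k = 1) : L.n ∣ k := by
  have h1 := L.ι_pow k
  rw [hk, L.ι_one] at h1
  exact Nat.dvd_of_mod_eq_zero h1.symm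

/-- The order of `a₀` modulo `q` is `n` (natural exponents). -/
theorem rca_a_order_nat (hζ : IsPrimitiveRoot ζ q) (hH : ∀ σ ∈ H, σ ζ = ζ → σ = 1) (k : ℕ)
    (hk : ((rca_a L hζ : ℕ) : ZMod q) ^ k = 1) : L.n ∣ k := by
  apply rca_dvd_of_pow_eq_one L
  have h1 := rca_pow_zeta L hζ k
  have h2 : ζ ^ (rca_a L hζ ^ k) = ζ ^ 1 := by
    rw [rca_pow_eq_iff hζ, Nat.cast_pow, hk, Nat.cast_one]
  rw [h2, pow_one] at h1
  exact Subtype.ext (hH _ (L.s ^ k).2 h1)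

/-- The order of `a₀` modulo `q` is `n` (integral exponents). -/
theorem rca_a_order (hζ : IsPrimitiveRoot ζ q) (hH : ∀ σ ∈ H, σ ζ = ζ → σ = 1) (k : ℤ)
    (hk : ((rca_a L hζ : ℕ) : ZMod q) ^ k = 1) : (L.n : ℤ) ∣ k := by
  rcases Int.natAbs_eq k with h | h
  · rw [h, zpow_natCast] at hk
    rw [h]
    exact Int.natCast_dvd_natCast.2 (rca_a_order_nat L hζ hH _ hk)
  · rw [h, zpow_neg, zpow_natCast, inv_eq_one] at hk
    rw [h, dvd_neg]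
    exact Int.natCast_dvd_natCast.2 (rca_a_order_nat L hζ hH _ hk)

end cyc

end

end Fermat.Agent.S55
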