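/-
S55, GLOBAL side, package [R-CYC] (helper14): the ASSEMBLY, part C.
The local summary at the primes `ℓ ≠ q` (unramified symbol + absolute value of the local norm).
-/
import Mathlib
import Fermat.Agent.S55.Global.RecCycOfB
import Fermat.Agent.S55.Global.Places
import Fermat.Agent.S55.Local.Unif
import Fermat.Agent.S55.Local.UnrInjAux
import Fermat.Agent.S55.UnrAbs4

set_option autoImplicit false

namespace Fermat.Agent.S55

open groupCohomology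

noncomputable section

section local_tools

variable {ℓ : ℕ} [Fact ℓ.Prime]

/-- The residue field of the fixed field of an open subgroup has `ℓ ^ f` elements. -/
theorem rca_resCard_pow (U : Subgroup (lcf_Gal ℓ)) (hU : lcf_IsOpen U) :
    ∃ f : ℕ, 0 < f ∧ lcf_resCard U = ℓ ^ f := by
  haveI := unr_abs_finite U hU
  have h : ‖((ℓ : ℕ) : ↥(IntermediateField.fixedField U))‖ < 1 := by
    have e : ‖((ℓ : ℕ) : ↥(IntermediateField.fixedField U))‖ = ‖((ℓ : ℕ) : PadicAlgCl ℓ)‖ := rfl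
    rw [e, plc_norm_q]
    have hq : (1 : ℝ) < ℓ := by exact_mod_cast (Fact.out : ℓ.Prime).one_lt
    exact inv_lt_one_of_one_lt₀ hq
  exact uinj_resCard_pow ↥(IntermediateField.fixedField U) (Fact.out : ℓ.Prime) h

end local_tools

section localA

variable {F : Type} [Field F] [NumberField F] {q : ℕ} [Fact q.Prime] {ζ : F}
  {H : Subgroup (F ≃ₐ[ℚ] F)} (L : fgD_Log ↥H)

/-- The image of an `H`-fixed element is fixed by `gl_locU`. -/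
theorem rca_map_fixed (ℓ : ℕ) [Fact ℓ.Prime] (ι : F →ₐ[ℚ] PadicAlgCl ℓ) (x : Fˣ)
    (hx : ∀ σ : ↥H, (σ : F ≃ₐ[ℚ] F) (x : F) = (x : F)) (g : ↥(gl_locU ℓ F H ι)) :
    g • Units.map (ι : F →* PadicAlgCl ℓ) x = Units.map (ι : F →* PadicAlgCl ℓ) x := by
  apply Units.ext
  show (g : lcf_Gal ℓ) (ι (x : F)) = ι (x : F)
  rw [gl_locSigma_apply, hx]

/-- **The local summary at `ℓ ≠ q`.** -/
theorem rca_localA (hUnr : rcy_UnrStatement) (hLNV : rcy_LNormValStatement)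
    (hFrob : rcy_FrobStatement) (inv : lcf_InvType) (hinv : lcf_IsInvSystem inv)
    (hζ : IsPrimitiveRoot ζ q) (hH : ∀ σ ∈ H, σ ζ = ζ → σ = 1) (x : Fˣ)
    (hx : ∀ σ : ↥H, (σ : F ≃ₐ[ℚ] F) (x : F) = (x : F))
    (ℓ : ℕ) [Fact ℓ.Prime] (hℓ : ℓ ≠ q) (ι : F →ₐ[ℚ] PadicAlgCl ℓ) :
    ∃ r e : ℤ,
      ‖rcy_locNorm (gl_locU ℓ F H ι) (ι (x : F))‖ = ((ℓ : ℕ) : ℝ) ^ (-r) ∧
      inv ℓ (gl_locU ℓ F H ι) (lcf_unrCoc (gl_locU ℓ F H ι) L.n (rca_theta L ℓ ι)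
        (Units.map (ι : F →* PadicAlgCl ℓ) x)) = lcf_qz ((e : ℚ) / (L.n : ℚ)) ∧
      ((rca_a L hζ : ℕ) : ZMod q) ^ e = ((ℓ : ℕ) : ZMod q) ^ r := by
  haveI := rca_neZero L
  set U := gl_locU ℓ F H ι with hUdef
  have hU : lcf_IsOpen U := gic_locU_isOpen ℓ F H ι
  obtain ⟨ϖ, hϖ⟩ := lunif_main ℓ U hU
  set a : (PadicAlgCl ℓ)ˣ := Units.map (ι : F →* PadicAlgCl ℓ) x with ha
  have hafix : ∀ g : ↥U, g • a = a := rca_map_fixed ℓ ι x hx
  obtain ⟨j, hj⟩ := hϖ.2.2 a hafix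
  obtain ⟨φ, hφ⟩ := unr_abs_exists_frob U hU
  obtain ⟨hF1, hF2⟩ := hFrob F q ζ hζ ℓ hℓ H ι
  have hinert : ∀ s : ↥U, lcf_IsInert (s : lcf_Gal ℓ) → rca_theta L ℓ ι s = 1 := by
    intro s hs
    have h1 := hF1 s hs
    have h2 : gl_locSigma ℓ F H ι s = 1 := Subtype.ext (hH _ (gl_locSigma ℓ F H ι s).2 h1)
    show rca_chi L (gl_locSigma ℓ F H ι s) = 1
    rw [h2, map_one]
  have hinv1 := hUnr inv hinv ℓ U hU L.n (rca_theta L ℓ ι) φ ϖ a j (rca_theta_smooth L ℓ ι)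
    hinert hφ hϖ hafix hj
  obtain ⟨f, _, hf⟩ := rca_resCard_pow U hU
  have hN := hLNV ℓ U hU ϖ a j hϖ hafix hj
  have hk := rca_a_pow_eq L hζ (gl_locSigma ℓ F H ι φ) (lcf_resCard U) (hF2 φ hφ)
  refine ⟨(f : ℤ) * j, j * ((Multiplicative.toAdd (rca_theta L ℓ ι φ)).val : ℤ), ?_, ?_, ?_⟩
  · have e1 : rcy_locNorm U (ι (x : F)) = rcy_locNorm U ((a : (PadicAlgCl ℓ)ˣ) : PadicAlgCl ℓ) :=
      rfl
    rw [e1, hN, hf, Nat.cast_pow, ← zpow_natCast, ← zpow_mul, mul_neg]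
  · rw [hinv1]
  · rw [rca_theta_val, mul_comm j, zpow_mul, zpow_natCast, hk, hf, Nat.cast_pow,
      ← zpow_natCast (((ℓ : ℕ) : ZMod q)), ← zpow_mul]

end localA

end

end Fermat.Agent.S55
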