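/-
S55, GLOBAL side, package [R-CYC] (helper14): the ASSEMBLY, part D.
Congruences modulo the maximal ideal of `Ω_q`; the Kummer character of `P` (`P ^ (q-1) = -q`)
through the Teichmueller lift of `a₀`.
-/
import Mathlib
import Fermat.Agent.S55.Global.RecCycOfC
import Fermat.Agent.S55.Global.PlacesSurj
import Fermat.Agent.S55.Global.CycExtLocal

set_option autoImplicit false
set_option linter.style.haveILetI false

namespace Fermat.Agent.S55

open groupCohomology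

noncomputable section

section cong

variable {q : ℕ} [Fact q.Prime]

theorem rca_cong_trans {x y z : PadicAlgCl q} (h1 : ‖x - y‖ < 1) (h2 : ‖y - z‖ < 1) :
    ‖x - z‖ < 1 := by
  have e : x - z = (x - y) + (y - z) := by ring
  rw [e]
  exact lt_of_le_of_lt (IsUltrametricDist.norm_add_le_max _ _) (max_lt h1 h2)

theorem rca_cong_symm {x y : PadicAlgCl q} (h : ‖x - y‖ < 1) : ‖y - x‖ < 1 := by
  rw [← norm_neg, neg_sub]
  exact h

theorem rca_cong_mul {x y x' y' : PadicAlgCl q} (hx : ‖x‖ ≤ 1) (hy' : ‖y'‖ ≤ 1)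
    (h1 : ‖x - x'‖ < 1) (h2 : ‖y - y'‖ < 1) : ‖x * y - x' * y'‖ < 1 := by
  have e : x * y - x' * y' = x * (y - y') + (x - x') * y' := by ring
  rw [e]
  refine lt_of_le_of_lt (IsUltrametricDist.norm_add_le_max _ _) (max_lt ?_ ?_)
  · rw [norm_mul]
    calc ‖x‖ * ‖y - y'‖ ≤ 1 * ‖y - y'‖ := mul_le_mul_of_nonneg_right hx (norm_nonneg _)
      _ = ‖y - y'‖ := one_mul _
      _ < 1 := h2
  · rw [norm_mul]
    calc ‖x - x'‖ * ‖y'‖ ≤ ‖x - x'‖ * 1 := mul_le_mul_of_nonneg_left hy' (norm_nonneg _)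
      _ = ‖x - x'‖ := mul_one _
      _ < 1 := h1

theorem rca_cong_pow {x y : PadicAlgCl q} (hx : ‖x‖ ≤ 1) (hy : ‖y‖ ≤ 1) (h : ‖x - y‖ < 1)
    (k : ℕ) : ‖x ^ k - y ^ k‖ < 1 := by
  induction k with
  | zero =>
    rw [pow_zero, pow_zero, sub_self, norm_zero]
    exact one_pos
  | succ k ih =>
    rw [pow_succ, pow_succ]
    have hxk : ‖x ^ k‖ ≤ 1 := by
      rw [norm_pow]
      exact pow_le_one₀ (norm_nonneg _) hx
    exact rca_cong_mul hxk hy ih h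

theorem rca_norm_natCast_le (a : ℕ) : ‖(a : PadicAlgCl q)‖ ≤ 1 := by
  have h := plc_norm_intCast_le_one q (a : ℤ)
  rwa [Int.cast_natCast] at h

theorem rca_natCast_cong_iff (a b : ℕ) :
    ‖(a : PadicAlgCl q) - (b : PadicAlgCl q)‖ < 1 ↔ (a : ZMod q) = (b : ZMod q) := by
  have e : (a : PadicAlgCl q) - (b : PadicAlgCl q) = (((a : ℤ) - (b : ℤ) : ℤ) : PadicAlgCl q) := by
    push_cast
    ring
  rw [e, gpl_norm_intCast_lt_one_iff]
  have h2 : (a : ZMod q) = (b : ZMod q) ↔ ((a : ℤ) : ZMod q) = ((b : ℤ) : ZMod q) := by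
    rw [Int.cast_natCast, Int.cast_natCast]
  rw [h2, ZMod.intCast_eq_intCast_iff_dvd_sub, ← dvd_neg, neg_sub]

end cong

section kummer

variable {F : Type} [Field F] [NumberField F] {q : ℕ} [Fact q.Prime] {ζ : F}
  {H : Subgroup (F ≃ₐ[ℚ] F)} (L : fgD_Log ↥H)

/-- The Teichmueller lift `ω` of `a₀` is a primitive `n`-th root of unity. -/
theorem rca_omega_prim (hζ : IsPrimitiveRoot ζ q) (hH : ∀ σ ∈ H, σ ζ = ζ → σ = 1)
    (hT2 : ∀ ω ω' : (PadicAlgCl q)ˣ, ω ^ (q - 1) = 1 → ω' ^ (q - 1) = 1 →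
      ‖(ω : PadicAlgCl q) - (ω' : PadicAlgCl q)‖ < 1 → ω = ω')
    (ω : (PadicAlgCl q)ˣ) (hω1 : ω ^ (q - 1) = 1)
    (hω2 : ‖(ω : PadicAlgCl q) - ((rca_a L hζ : ℕ) : PadicAlgCl q)‖ < 1) :
    IsPrimitiveRoot ω L.n := by
  have hq1 : q - 1 ≠ 0 := by
    have := (Fact.out : q.Prime).two_le
    omega
  have hωn : ‖(ω : PadicAlgCl q)‖ ≤ 1 := by
    have h1 : (ω : PadicAlgCl q) ^ (q - 1) = 1 := by
      rw [← Units.val_pow_eq_pow_val, hω1, Units.val_one]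
    exact (cyx_norm_root q hq1 h1).le
  have hcong : ∀ k : ℕ, ‖((ω ^ k : (PadicAlgCl q)ˣ) : PadicAlgCl q) -
      ((rca_a L hζ ^ k : ℕ) : PadicAlgCl q)‖ < 1 := by
    intro k
    rw [Units.val_pow_eq_pow_val, Nat.cast_pow]
    exact rca_cong_pow hωn (rca_norm_natCast_le _) hω2 k
  rw [IsPrimitiveRoot.iff_def]
  constructor
  · apply hT2 _ _ _ (one_pow _)
    · rw [Units.val_one]
      have h1 := hcong L.n
      have h2 : ‖((rca_a L hζ ^ L.n : ℕ) : PadicAlgCl q) - ((1 : ℕ) : PadicAlgCl q)‖ < 1 := by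
        rw [rca_natCast_cong_iff, Nat.cast_pow, Nat.cast_one]
        exact rca_a_pow_n L hζ
      rw [Nat.cast_one] at h2
      exact rca_cong_trans h1 h2
    · rw [← pow_mul, mul_comm, pow_mul, hω1, one_pow]
  · intro l hl
    apply rca_a_order_nat L hζ hH
    have h1 := hcong l
    rw [hl, Units.val_one] at h1
    have h2 : ‖((rca_a L hζ ^ l : ℕ) : PadicAlgCl q) - ((1 : ℕ) : PadicAlgCl q)‖ < 1 := by
      rw [Nat.cast_one]
      exact rca_cong_symm h1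
    rw [rca_natCast_cong_iff, Nat.cast_pow, Nat.cast_one] at h2
    exact h2

/-- `θ_ι` is the Kummer character of `P` with respect to `ω`. -/
theorem rca_kummer (hζ : IsPrimitiveRoot ζ q) (ι : F →ₐ[ℚ] PadicAlgCl q)
    (hT2 : ∀ ω ω' : (PadicAlgCl q)ˣ, ω ^ (q - 1) = 1 → ω' ^ (q - 1) = 1 →
      ‖(ω : PadicAlgCl q) - (ω' : PadicAlgCl q)‖ < 1 → ω = ω')
    (ω : (PadicAlgCl q)ˣ) (hω1 : ω ^ (q - 1) = 1)
    (hω2 : ‖(ω : PadicAlgCl q) - ((rca_a L hζ : ℕ) : PadicAlgCl q)‖ < 1)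
    (P : (PadicAlgCl q)ˣ) (hP1 : (P : PadicAlgCl q) ^ (q - 1) = -((q : ℕ) : PadicAlgCl q))
    (hP2 : ∀ (g : lcf_Gal q) (k : ℕ), g (ι ζ) = (ι ζ) ^ k →
      ‖g (P : PadicAlgCl q) - (k : PadicAlgCl q) * (P : PadicAlgCl q)‖ < ‖(P : PadicAlgCl q)‖)
    (g : ↥(gl_locU q F H ι)) :
    g • P = ω ^ (Multiplicative.toAdd (rca_theta L q ι g)).val * P := by
  have hq1 : q - 1 ≠ 0 := by
    have := (Fact.out : q.Prime).two_le
    omega
  have hωn : ‖(ω : PadicAlgCl q)‖ ≤ 1 := by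
    have h1 : (ω : PadicAlgCl q) ^ (q - 1) = 1 := by
      rw [← Units.val_pow_eq_pow_val, hω1, Units.val_one]
    exact (cyx_norm_root q hq1 h1).le
  rw [rca_theta_val]
  set σ := gl_locSigma q F H ι g with hσ
  set i := L.ι σ with hi
  have hgζ : (g : lcf_Gal q) (ι ζ) = (ι ζ) ^ (rca_a L hζ ^ i) := by
    rw [gl_locSigma_apply, rca_sigma_zeta L hζ, map_pow]
  have h1 := hP2 (g : lcf_Gal q) _ hgζ
  have hP0 : (P : PadicAlgCl q) ≠ 0 := P.ne_zero
  have hPn : 0 < ‖(P : PadicAlgCl q)‖ := norm_pos_iff.2 hP0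
  -- the quotient `w = g P / P`
  have hw1 : (g • P / P) ^ (q - 1) = 1 := by
    apply Units.ext
    rw [Units.val_pow_eq_pow_val, Units.val_div_eq_div_val, div_pow, Units.val_one]
    have e1 : ((g • P : (PadicAlgCl q)ˣ) : PadicAlgCl q) = (g : lcf_Gal q) (P : PadicAlgCl q) := rfl
    rw [e1, ← map_pow, hP1, map_neg, map_natCast]
    exact div_self (neg_ne_zero.2 (Nat.cast_ne_zero.2 (Fact.out : q.Prime).ne_zero))
  have hw2 : ‖((g • P / P : (PadicAlgCl q)ˣ) : PadicAlgCl q) -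
      ((rca_a L hζ ^ i : ℕ) : PadicAlgCl q)‖ < 1 := by
    have e1 : ((g • P / P : (PadicAlgCl q)ˣ) : PadicAlgCl q) -
        ((rca_a L hζ ^ i : ℕ) : PadicAlgCl q) =
        ((g : lcf_Gal q) (P : PadicAlgCl q) - ((rca_a L hζ ^ i : ℕ) : PadicAlgCl q) *
          (P : PadicAlgCl q)) / (P : PadicAlgCl q) := by
      rw [Units.val_div_eq_div_val]
      have e2 : ((g • P : (PadicAlgCl q)ˣ) : PadicAlgCl q) =
          (g : lcf_Gal q) (P : PadicAlgCl q) := rfl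
      rw [e2]
      field_simp
    rw [e1, norm_div, div_lt_one hPn]
    exact h1
  have hw3 : ‖((ω ^ i : (PadicAlgCl q)ˣ) : PadicAlgCl q) -
      ((rca_a L hζ ^ i : ℕ) : PadicAlgCl q)‖ < 1 := by
    rw [Units.val_pow_eq_pow_val, Nat.cast_pow]
    exact rca_cong_pow hωn (rca_norm_natCast_le _) hω2 i
  have hw : g • P / P = ω ^ i := by
    apply hT2 _ _ hw1
    · rw [← pow_mul, mul_comm, pow_mul, hω1, one_pow]
    · exact rca_cong_trans hw2 (rca_cong_symm hw3)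
  rw [← hw, div_mul_cancel]

end kummer

end

end Fermat.Agent.S55
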