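/-
S55, GLOBAL side, package [R-CYC] (helper14): the ASSEMBLY, part E.
The local summary at `q` (tame symbol + residue of the local norm).
-/
import Mathlib
import Fermat.Agent.S55.Global.RecCycOfD

set_option autoImplicit false
set_option linter.style.haveILetI false

namespace Fermat.Agent.S55

open groupCohomology

noncomputable section

section residue

variable {q : ℕ} [Fact q.Prime]

/-- Fermat's little theorem in the residue field of `K_U`. -/
theorem rca_pow_resCard_sub_one (U : Subgroup (lcf_Gal q)) (hU : lcf_IsOpen U)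
    (u : (PadicAlgCl q)ˣ) (hu : ‖(u : PadicAlgCl q)‖ = 1) (hufix : ∀ g : ↥U, g • u = u) :
    ‖(u : PadicAlgCl q) ^ (lcf_resCard U - 1) - 1‖ < 1 := by
  obtain ⟨φ, hφ⟩ := unr_abs_exists_frob U hU
  obtain ⟨f, hf, hN⟩ := rca_resCard_pow U hU
  have hN1 : 1 ≤ lcf_resCard U := by
    rw [hN]
    exact Nat.one_le_pow _ _ (Fact.out : q.Prime).pos
  have h1 := hφ (u : PadicAlgCl q) hu.le
  have h2 : (φ : lcf_Gal q) (u : PadicAlgCl q) = (u : PadicAlgCl q) :=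
    congrArg Units.val (hufix φ)
  rw [h2] at h1
  have e : (u : PadicAlgCl q) - (u : PadicAlgCl q) ^ lcf_resCard U =
      -((u : PadicAlgCl q) * ((u : PadicAlgCl q) ^ (lcf_resCard U - 1) - 1)) := by
    have e2 : lcf_resCard U = (lcf_resCard U - 1) + 1 := by omega
    conv_lhs => rw [e2, pow_succ]
    ring
  rw [e, norm_neg, norm_mul, hu, one_mul] at h1
  exact h1

/-- The residue of a unit `y` with `y ^ n ≡ 1` is a power of the primitive root `ω`. -/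
theorem rca_exists_pow_cong (n : ℕ) (hn : 0 < n) (ω : (PadicAlgCl q)ˣ)
    (hω : IsPrimitiveRoot ω n) (y : PadicAlgCl q) (hy : ‖y ^ n - 1‖ < 1) :
    ∃ t : ℕ, ‖y - ((ω ^ t : (PadicAlgCl q)ˣ) : PadicAlgCl q)‖ < 1 := by
  classical
  haveI : NeZero n := ⟨hn.ne'⟩
  have hω' : IsPrimitiveRoot (ω : PadicAlgCl q) n := IsPrimitiveRoot.coe_units_iff.2 hω
  have h1 := hω'.pow_sub_pow_eq_prod_sub_mul y 1 hn
  rw [one_pow] at h1
  rw [h1, norm_prod] at hy
  by_contra hcon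
  push Not at hcon
  have h2 : (1 : ℝ) ≤ ∏ ζ' ∈ Polynomial.nthRootsFinset n (1 : PadicAlgCl q), ‖y - ζ' * 1‖ := by
    apply Finset.one_le_prod
    intro ζ' hζ'
    rw [mul_one]
    have h3 : ζ' ^ n = 1 := (Polynomial.mem_nthRootsFinset hn 1).1 hζ'
    obtain ⟨i, _, hi⟩ := hω'.eq_pow_of_pow_eq_one h3
    have h4 := hcon i
    rw [Units.val_pow_eq_pow_val, hi] at h4
    exact h4
  exact absurd hy (not_lt.2 h2)

end residue

section localB

variable {F : Type} [Field F] [NumberField F] {q : ℕ} [Fact q.Prime] {ζ : F}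
  {H : Subgroup (F ≃ₐ[ℚ] F)} (L : fgD_Log ↥H)

/-- **The local summary at `q`.** -/
theorem rca_localB (hTame : rcy_TameStatement) (hTeich : rcy_TeichStatement)
    (hLNQ : rcy_LNormTameStatement) (hShape : rcy_ShapeStatement)
    (inv : lcf_InvType) (hinv : lcf_IsInvSystem inv)
    (hζ : IsPrimitiveRoot ζ q) (G' : Subgroup (F ≃ₐ[ℚ] F)) (hG' : ∀ σ ∈ G', σ ζ = ζ → σ = 1)
    (hur : gl_UnramAt q ↥(IntermediateField.fixedField G')) (hHG : H ≤ G')
    (hLn : L.n = Nat.card ↥H) (hodd : Odd L.n) (x : Fˣ)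
    (hx : ∀ σ : ↥H, (σ : F ≃ₐ[ℚ] F) (x : F) = (x : F)) (ι : F →ₐ[ℚ] PadicAlgCl q) :
    ∃ (r : ℤ) (t : ℕ),
      ‖(rcy_locNorm (gl_locU q F H ι) (ι (x : F)) * (((q : ℕ) : PadicAlgCl q) ^ r)⁻¹) ^ 2 -
          (((rca_a L hζ : ℕ) : PadicAlgCl q) ^ t) ^ 2‖ < 1 ∧
      inv q (gl_locU q F H ι) (lcf_unrCoc (gl_locU q F H ι) L.n (rca_theta L q ι)
        (Units.map (ι : F →* PadicAlgCl q) x)) = lcf_qz (-(t : ℚ) / (L.n : ℚ)) := by
  haveI := rca_neZero L
  have hH : ∀ σ ∈ H, σ ζ = ζ → σ = 1 := fun σ hσ => hG' σ (hHG hσ)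
  have hq1 : q - 1 ≠ 0 := by
    have := (Fact.out : q.Prime).two_le
    omega
  set U := gl_locU q F H ι with hUdef
  set UK := gl_locU q F G' ι with hUKdef
  have hU : lcf_IsOpen U := gic_locU_isOpen q F H ι
  have hle : U ≤ UK := by
    rintro g ⟨σ, hσ, h⟩
    exact ⟨σ, hHG hσ, h⟩
  -- the shape
  obtain ⟨P, hP1, hP2, hval, hPH⟩ := hShape F q ζ hζ G' hG' hur ι
  obtain ⟨hunif, hres, hidx⟩ := hPH H hHG
  rw [← hLn] at hunif hidx
  -- the Teichmueller lift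
  obtain ⟨hT1, hT2⟩ := hTeich q
  obtain ⟨ω, hω1, hω2, hω3⟩ := hT1 (rca_a L hζ) (rca_not_dvd L hζ)
  have hprim := rca_omega_prim L hζ hH hT2 ω hω1 hω2
  have hkum := rca_kummer L hζ ι hT2 ω hω1 hω2 P hP1 hP2
  have hωn : ‖(ω : PadicAlgCl q)‖ ≤ 1 := by
    have h1 : (ω : PadicAlgCl q) ^ (q - 1) = 1 := by
      rw [← Units.val_pow_eq_pow_val, hω1, Units.val_one]
    exact (cyx_norm_root q hq1 h1).le
  -- `n` is prime to `q`
  have hndvd : L.n ∣ q - 1 := Dvd.intro_left _ hidx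
  have hcop : Nat.Coprime L.n q := by
    have hq := (Fact.out : q.Prime)
    rw [Nat.coprime_comm, hq.coprime_iff_not_dvd]
    intro h
    have h2 : q ∣ q - 1 := dvd_trans h hndvd
    have h3 := Nat.le_of_dvd (by omega) h2
    have := hq.two_le
    omega
  -- the element
  set a : (PadicAlgCl q)ˣ := Units.map (ι : F →* PadicAlgCl q) x with ha
  have hafix : ∀ g : ↥U, g • a = a := rca_map_fixed q ι x hx
  obtain ⟨j, hj⟩ := hunif.2.2 a hafix
  set u : (PadicAlgCl q)ˣ := a / (P ^ L.n) ^ j with hu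
  have hu1 : ‖(u : PadicAlgCl q)‖ = 1 := by
    rw [hu, Units.val_div_eq_div_val, norm_div, Units.val_zpow_eq_zpow_val, norm_zpow, ← hj]
    exact div_self (norm_ne_zero_iff.2 a.ne_zero)
  have hPfix : ∀ g : ↥U, g • (P ^ L.n) = P ^ L.n := hunif.1
  have hufix : ∀ g : ↥U, g • u = u := by
    intro g
    rw [hu, smul_div', smul_zpow', hafix, hPfix]
  -- the residue field
  obtain ⟨f, hf, hN⟩ := rca_resCard_pow U hU
  have hN1 : q - 1 ∣ lcf_resCard U - 1 := by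
    rw [hN]
    have := Nat.sub_one_dvd_pow_sub_one q f
    exact this
  obtain ⟨M, hM⟩ : ∃ M, lcf_resCard U - 1 = L.n * M := dvd_trans hndvd hN1
  have hMdiv : (lcf_resCard U - 1) / L.n = M := by
    rw [hM, Nat.mul_div_cancel_left _ L.n_pos]
  have hy : ‖((u : PadicAlgCl q) ^ M) ^ L.n - 1‖ < 1 := by
    rw [← pow_mul, mul_comm, ← hM]
    exact rca_pow_resCard_sub_one U hU u hu1 hufix
  obtain ⟨t, ht⟩ := rca_exists_pow_cong L.n L.n_pos ω hprim _ hy
  refine ⟨(f : ℤ) * j, t, ?_, ?_⟩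
  · -- the local norm
    have hπm : ((P ^ L.n : (PadicAlgCl q)ˣ) : PadicAlgCl q) ^ (U.relIndex UK) =
        -((q : ℕ) : PadicAlgCl q) := by
      rw [Units.val_pow_eq_pow_val, ← pow_mul, mul_comm, hidx]
      exact hP1
    have h1 := hLNQ q U UK hU hle hval hres L.n (P ^ L.n) a j hidx hPfix hπm hafix hj
    rw [hMdiv] at h1
    have e1 : (((lcf_resCard U : ℕ) : PadicAlgCl q) ^ j) = ((q : ℕ) : PadicAlgCl q) ^ ((f : ℤ) * j) := by
      rw [hN, Nat.cast_pow, zpow_mul, zpow_natCast]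
    rw [e1] at h1
    have e2 : rcy_locNorm U (ι (x : F)) = rcy_locNorm U ((a : (PadicAlgCl q)ˣ) : PadicAlgCl q) :=
      rfl
    rw [e2]
    refine rca_cong_trans h1 ?_
    -- `(u ^ M) ^ 2 ≡ (ω ^ t) ^ 2 ≡ (a₀ ^ t) ^ 2`
    have huM : ‖(((a / (P ^ L.n) ^ j) ^ M : (PadicAlgCl q)ˣ) : PadicAlgCl q)‖ ≤ 1 := by
      rw [Units.val_pow_eq_pow_val, norm_pow]
      have : ‖(((a / (P ^ L.n) ^ j : (PadicAlgCl q)ˣ)) : PadicAlgCl q)‖ = 1 := hu1
      rw [this, one_pow]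
    have hωt : ‖((ω ^ t : (PadicAlgCl q)ˣ) : PadicAlgCl q)‖ ≤ 1 := by
      rw [Units.val_pow_eq_pow_val, norm_pow]
      exact pow_le_one₀ (norm_nonneg _) hωn
    have h3 : ‖(((a / (P ^ L.n) ^ j) ^ M : (PadicAlgCl q)ˣ) : PadicAlgCl q) -
        ((ω ^ t : (PadicAlgCl q)ˣ) : PadicAlgCl q)‖ < 1 := by
      rw [Units.val_pow_eq_pow_val]
      exact ht
    have h4 : ‖((ω ^ t : (PadicAlgCl q)ˣ) : PadicAlgCl q) -
        ((rca_a L hζ : ℕ) : PadicAlgCl q) ^ t‖ < 1 := by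
      rw [Units.val_pow_eq_pow_val]
      exact rca_cong_pow hωn (rca_norm_natCast_le _) hω2 t
    have hat : ‖((rca_a L hζ : ℕ) : PadicAlgCl q) ^ t‖ ≤ 1 := by
      rw [norm_pow]
      exact pow_le_one₀ (norm_nonneg _) (rca_norm_natCast_le _)
    exact rca_cong_pow huM hat (rca_cong_trans h3 h4) 2
  · -- the invariant
    have hk : ‖(((a / (P ^ L.n) ^ j) ^ ((lcf_resCard U - 1) / L.n) : (PadicAlgCl q)ˣ) :
        PadicAlgCl q) - ((ω ^ t : (PadicAlgCl q)ˣ) : PadicAlgCl q)‖ < 1 := by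
      rw [hMdiv, Units.val_pow_eq_pow_val]
      exact ht
    exact hTame inv hinv q U hU L.n hodd hcop ω P a (rca_theta L q ι) j t hprim
      (fun g => hω3 (g : lcf_Gal q)) hkum hunif hafix hj hk

end localB

end

end Fermat.Agent.S55
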