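/-
S55, GLOBAL side, package [R-CYC] (helper14): the ASSEMBLY, part F (the end).
The summaries prime by prime (sum over the places above `ℓ`, [RC-GNORM]), the product formula
of `ℚ` modulo `q`, and the bookkeeping of the finite sums:
  `rca_of : rcy_OfStatement`.
-/
import Mathlib
import Fermat.Agent.S55.Global.RecCycOfE

set_option autoImplicit false
set_option linter.style.haveILetI false
set_option linter.unusedSectionVars false

namespace Fermat.Agent.S55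

noncomputable section

section arith

variable {q : ℕ} [Fact q.Prime]

/-- The set of primes `≠ q` dividing the numerator or the denominator of `N`. -/
def rca_S (q : ℕ) (N : ℚ) : Finset ℕ :=
  (N.num.natAbs.primeFactors ∪ N.den.primeFactors).erase q

theorem rca_S_prime {N : ℚ} {ℓ : ℕ} (h : ℓ ∈ rca_S q N) : ℓ.Prime ∧ ℓ ≠ q := by
  unfold rca_S at h
  rw [Finset.mem_erase, Finset.mem_union] at h
  refine ⟨?_, h.1⟩
  rcases h.2 with h2 | h2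
  · exact Nat.prime_of_mem_primeFactors h2
  · exact Nat.prime_of_mem_primeFactors h2

theorem rca_padicValRat_eq (N : ℚ) (ℓ : ℕ) :
    padicValRat ℓ N = (padicValNat ℓ N.num.natAbs : ℤ) - (padicValNat ℓ N.den : ℤ) := rfl

theorem rca_padicValNat_of_notMem {N : ℚ} (hN : N ≠ 0) {ℓ : ℕ} (hℓ : ℓ.Prime) (hq : ℓ ≠ q)
    (h : ℓ ∉ rca_S q N) :
    padicValNat ℓ N.num.natAbs = 0 ∧ padicValNat ℓ N.den = 0 := by
  unfold rca_S at h
  rw [Finset.mem_erase, Finset.mem_union, not_and_or, not_or] at h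
  rcases h with h | h
  · exact absurd hq h
  · have ha : N.num.natAbs ≠ 0 := by
      rw [Int.natAbs_ne_zero]
      exact Rat.num_ne_zero.2 hN
    constructor
    · apply padicValNat.eq_zero_of_not_dvd
      intro hd
      exact h.1 (Nat.mem_primeFactors.2 ⟨hℓ, hd, ha⟩)
    · apply padicValNat.eq_zero_of_not_dvd
      intro hd
      exact h.2 (Nat.mem_primeFactors.2 ⟨hℓ, hd, N.den_ne_zero⟩)

/-- The `q`-free part of `m`, modulo `q`, as a product over a set of primes. -/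
theorem rca_ordCompl_cast (m : ℕ) (hm : m ≠ 0) (S : Finset ℕ)
    (hS : ∀ ℓ ∈ S, ℓ.Prime ∧ ℓ ≠ q) (hS' : m.primeFactors.erase q ⊆ S) :
    ((m / q ^ m.factorization q : ℕ) : ZMod q) =
      ∏ ℓ ∈ S, ((ℓ : ℕ) : ZMod q) ^ padicValNat ℓ m := by
  have h0 : m / q ^ m.factorization q ≠ 0 := (Nat.ordCompl_pos q hm).ne'
  have h1 := Nat.prod_factorization_pow_eq_self h0
  have h2 : (m / q ^ m.factorization q).factorization = m.factorization.erase q :=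
    Nat.factorization_ordCompl m q
  rw [h2] at h1
  have h3 : (m.factorization.erase q).prod (fun x1 x2 => x1 ^ x2) =
      ∏ ℓ ∈ m.primeFactors.erase q, ℓ ^ padicValNat ℓ m := by
    unfold Finsupp.prod
    rw [Finsupp.support_erase, Nat.support_factorization]
    apply Finset.prod_congr rfl
    intro ℓ hℓ
    rw [Finset.mem_erase] at hℓ
    rw [Finsupp.erase_ne hℓ.1, Nat.factorization_def m (Nat.prime_of_mem_primeFactors hℓ.2)]
  rw [h3] at h1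
  rw [← h1, Nat.cast_prod]
  rw [← Finset.prod_subset hS']
  · apply Finset.prod_congr rfl
    intro ℓ _
    rw [Nat.cast_pow]
  · intro ℓ hℓ hℓ'
    have hp := hS ℓ hℓ
    have hnd : ¬ ℓ ∣ m := by
      intro hd
      exact hℓ' (Finset.mem_erase.2 ⟨hp.2, Nat.mem_primeFactors.2 ⟨hp.1, hd, hm⟩⟩)
    rw [padicValNat.eq_zero_of_not_dvd hnd, pow_zero]

theorem rca_norm_natCast_eq_one (m : ℕ) (h : ¬ q ∣ m) : ‖(m : PadicAlgCl q)‖ = 1 := by
  have h1 := rca_norm_natCast_le (q := q) m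
  have h2 : ¬ ‖(m : PadicAlgCl q)‖ < 1 := by
    have h3 := gpl_norm_intCast_lt_one_iff (q := q) (m : ℤ)
    rw [Int.cast_natCast] at h3
    rw [h3, Int.natCast_dvd_natCast]
    exact h
  exact le_antisymm h1 (not_lt.1 h2)

theorem rca_zpow_sum {K : Type*} [Field K] (a : K) (ha : a ≠ 0) {ι : Type*} (s : Finset ι)
    (f : ι → ℤ) : a ^ (∑ i ∈ s, f i) = ∏ i ∈ s, a ^ f i := by
  classical
  induction s using Finset.induction_on with
  | empty => simp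
  | insert i s hi ih => rw [Finset.sum_insert hi, Finset.prod_insert hi, zpow_add₀ ha, ih]

/-- The rational number `N`, squared, in `Ω_q`. -/
theorem rca_sq_cast (N : ℚ) :
    (algebraMap ℚ (PadicAlgCl q) N) ^ 2 =
      ((N.num.natAbs : ℕ) : PadicAlgCl q) ^ 2 / ((N.den : ℕ) : PadicAlgCl q) ^ 2 := by
  have h1 : N ^ 2 = ((N.num.natAbs : ℕ) : ℚ) ^ 2 / ((N.den : ℕ) : ℚ) ^ 2 := by
    have h2 : ((N.num.natAbs : ℕ) : ℚ) = |(N.num : ℚ)| := by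
      rw [Nat.cast_natAbs, Int.cast_abs]
    rw [h2, sq_abs, ← div_pow, Rat.num_div_den]
  rw [← map_pow, h1, map_div₀, map_pow, map_pow, map_natCast, map_natCast]


/-- **The product formula of `ℚ`, modulo `q`.** -/
theorem rca_arith (a₀ : ℕ) (ha₀ : ¬ q ∣ a₀) (N : ℚ) (hN : N ≠ 0) (E : ℕ → ℤ)
    (hE : ∀ ℓ ∈ rca_S q N,
      ((a₀ : ℕ) : ZMod q) ^ E ℓ = ((ℓ : ℕ) : ZMod q) ^ padicValRat ℓ N)
    (R : ℤ) (T : ℕ)
    (hq : ‖(algebraMap ℚ (PadicAlgCl q) N * (((q : ℕ) : PadicAlgCl q) ^ R)⁻¹) ^ 2 -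
        (((a₀ : ℕ) : PadicAlgCl q) ^ T) ^ 2‖ < 1) :
    ((a₀ : ℕ) : ZMod q) ^ (2 * ((∑ ℓ ∈ rca_S q N, E ℓ) - (T : ℤ))) = 1 := by
  have hqp : q.Prime := Fact.out
  set a := N.num.natAbs with hadef
  set b := N.den with hbdef
  have ha : a ≠ 0 := by
    rw [hadef, Int.natAbs_ne_zero]
    exact Rat.num_ne_zero.2 hN
  have hb : b ≠ 0 := N.den_ne_zero
  set α := a.factorization q with hα
  set β := b.factorization q with hβ
  set a' := a / q ^ α with ha'def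
  set b' := b / q ^ β with hb'def
  have haa : q ^ α * a' = a := Nat.ordProj_mul_ordCompl_eq_self a q
  have hbb : q ^ β * b' = b := Nat.ordProj_mul_ordCompl_eq_self b q
  have hqa : ¬ q ∣ a' := Nat.not_dvd_ordCompl hqp ha
  have hqb : ¬ q ∣ b' := Nat.not_dvd_ordCompl hqp hb
  have hna : ‖((a' : ℕ) : PadicAlgCl q)‖ = 1 := rca_norm_natCast_eq_one a' hqa
  have hnb : ‖((b' : ℕ) : PadicAlgCl q)‖ = 1 := rca_norm_natCast_eq_one b' hqb
  have hn0 : ‖((a₀ : ℕ) : PadicAlgCl q)‖ = 1 := rca_norm_natCast_eq_one a₀ ha₀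
  have hq0 : ((q : ℕ) : PadicAlgCl q) ≠ 0 := Nat.cast_ne_zero.2 hqp.ne_zero
  have hb'0 : ((b' : ℕ) : PadicAlgCl q) ≠ 0 := by
    intro h
    rw [h, norm_zero] at hnb
    exact zero_ne_one hnb
  have hnq : ‖((q : ℕ) : PadicAlgCl q)‖ = (q : ℝ)⁻¹ := plc_norm_q q
  -- the shape of `X ^ 2`
  have hX : (algebraMap ℚ (PadicAlgCl q) N * (((q : ℕ) : PadicAlgCl q) ^ R)⁻¹) ^ 2 =
      (((a' : ℕ) : PadicAlgCl q) / ((b' : ℕ) : PadicAlgCl q)) ^ 2 *
        ((((q : ℕ) : PadicAlgCl q) ^ ((α : ℤ) - (β : ℤ) - R)) ^ 2) := by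
    rw [mul_pow, rca_sq_cast, ← hadef, ← hbdef, ← haa, ← hbb, zpow_sub₀ hq0, zpow_sub₀ hq0,
      zpow_natCast, zpow_natCast]
    push_cast
    have hR0 : ((q : ℕ) : PadicAlgCl q) ^ R ≠ 0 := zpow_ne_zero _ hq0
    have hβ0 : ((q : ℕ) : PadicAlgCl q) ^ β ≠ 0 := pow_ne_zero _ hq0
    field_simp
  -- the norm of `X ^ 2` is one
  have hY : ‖(((a₀ : ℕ) : PadicAlgCl q) ^ T) ^ 2‖ = 1 := by
    rw [norm_pow, norm_pow, hn0, one_pow, one_pow]
  have hXn : ‖(algebraMap ℚ (PadicAlgCl q) N * (((q : ℕ) : PadicAlgCl q) ^ R)⁻¹) ^ 2‖ = 1 := by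
    rw [← hY]
    apply plc_norm_eq_of_sub_lt
    rw [hY]
    exact hq
  have hk : (α : ℤ) - (β : ℤ) - R = 0 := by
    rw [hX, norm_mul, norm_pow, norm_div, hna, hnb, div_one, one_pow, one_mul, norm_pow,
      norm_zpow, hnq] at hXn
    have h1 : ((q : ℝ)⁻¹ ^ ((α : ℤ) - (β : ℤ) - R)) = 1 := by
      have h2 : (0 : ℝ) ≤ (q : ℝ)⁻¹ ^ ((α : ℤ) - (β : ℤ) - R) :=
        zpow_nonneg (inv_nonneg.2 (Nat.cast_nonneg q)) _
      exact (pow_eq_one_iff_of_nonneg h2 (by norm_num)).1 hXn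
    have hq1 : (q : ℝ)⁻¹ ≠ 1 := by
      have hq2 : (1 : ℝ) < q := by exact_mod_cast hqp.one_lt
      exact (inv_lt_one_of_one_lt₀ hq2).ne
    exact (zpow_eq_one_iff_right₀ (inv_nonneg.2 (Nat.cast_nonneg q)) hq1).1 h1
  rw [hX, hk, zpow_zero, one_pow, mul_one] at hq
  -- the congruence of natural numbers
  have hcong : ((a' ^ 2 : ℕ) : ZMod q) = (((a₀ ^ T) ^ 2 * b' ^ 2 : ℕ) : ZMod q) := by
    rw [← rca_natCast_cong_iff]
    have e : ((a' ^ 2 : ℕ) : PadicAlgCl q) - (((a₀ ^ T) ^ 2 * b' ^ 2 : ℕ) : PadicAlgCl q) =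
        ((((a' : ℕ) : PadicAlgCl q) / ((b' : ℕ) : PadicAlgCl q)) ^ 2 -
          (((a₀ : ℕ) : PadicAlgCl q) ^ T) ^ 2) * ((b' : ℕ) : PadicAlgCl q) ^ 2 := by
      push_cast
      field_simp
    rw [e, norm_mul, norm_pow, hnb, one_pow, mul_one]
    exact hq
  push_cast at hcong
  -- the products in `ZMod q`
  have hS : ∀ ℓ ∈ rca_S q N, ℓ.Prime ∧ ℓ ≠ q := fun ℓ hℓ => rca_S_prime hℓ
  have hSa : a.primeFactors.erase q ⊆ rca_S q N := by
    intro ℓ hℓ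
    rw [Finset.mem_erase] at hℓ
    unfold rca_S
    rw [Finset.mem_erase, Finset.mem_union]
    exact ⟨hℓ.1, Or.inl hℓ.2⟩
  have hSb : b.primeFactors.erase q ⊆ rca_S q N := by
    intro ℓ hℓ
    rw [Finset.mem_erase] at hℓ
    unfold rca_S
    rw [Finset.mem_erase, Finset.mem_union]
    exact ⟨hℓ.1, Or.inr hℓ.2⟩
  have hA := rca_ordCompl_cast (q := q) a ha (rca_S q N) hS hSa
  have hB := rca_ordCompl_cast (q := q) b hb (rca_S q N) hS hSb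
  have hz0 : ((a₀ : ℕ) : ZMod q) ≠ 0 := by
    intro h
    exact ha₀ ((ZMod.natCast_eq_zero_iff _ _).1 h)
  have hzb : ((b' : ℕ) : ZMod q) ≠ 0 := by
    intro h
    exact hqb ((ZMod.natCast_eq_zero_iff _ _).1 h)
  have hprod : ((a₀ : ℕ) : ZMod q) ^ (∑ ℓ ∈ rca_S q N, E ℓ) =
      ((a' : ℕ) : ZMod q) / ((b' : ℕ) : ZMod q) := by
    rw [rca_zpow_sum _ hz0, hA, hB, ← Finset.prod_div_distrib]
    apply Finset.prod_congr rfl
    intro ℓ hℓ
    have hℓ0 : ((ℓ : ℕ) : ZMod q) ≠ 0 := by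
      intro h
      have h1 := (ZMod.natCast_eq_zero_iff _ _).1 h
      exact (hS ℓ hℓ).2 (((Nat.prime_dvd_prime_iff_eq hqp (hS ℓ hℓ).1).1 h1).symm)
    rw [hE ℓ hℓ, rca_padicValRat_eq, zpow_sub₀ hℓ0, zpow_natCast, zpow_natCast]
  rw [mul_comm, zpow_mul, zpow_sub₀ hz0, hprod, zpow_natCast]
  have h2 : (((a' : ℕ) : ZMod q) / ((b' : ℕ) : ZMod q) / ((a₀ : ℕ) : ZMod q) ^ T) ^ (2 : ℤ) =
      ((a' : ℕ) : ZMod q) ^ 2 / ((((a₀ : ℕ) : ZMod q) ^ T) ^ 2 * ((b' : ℕ) : ZMod q) ^ 2) := by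
    rw [zpow_ofNat]
    field_simp
  rw [h2, hcong]
  exact div_self (mul_ne_zero (pow_ne_zero _ (pow_ne_zero _ hz0)) (pow_ne_zero _ hzb))


theorem rca_cong_prod {ι : Type*} (s : Finset ι) (f g : ι → PadicAlgCl q)
    (hf : ∀ i ∈ s, ‖f i‖ ≤ 1) (hg : ∀ i ∈ s, ‖g i‖ ≤ 1) (h : ∀ i ∈ s, ‖f i - g i‖ < 1) :
    ‖∏ i ∈ s, f i - ∏ i ∈ s, g i‖ < 1 := by
  classical
  induction s using Finset.induction_on with
  | empty =>
    rw [Finset.prod_empty, Finset.prod_empty, sub_self, norm_zero]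
    exact one_pos
  | insert i s hi ih =>
    rw [Finset.prod_insert hi, Finset.prod_insert hi]
    have hg' : ‖∏ j ∈ s, g j‖ ≤ 1 := by
      rw [norm_prod]
      exact Finset.prod_le_one (fun j _ => norm_nonneg _)
        (fun j hj => hg j (Finset.mem_insert_of_mem hj))
    exact rca_cong_mul (hf i (Finset.mem_insert_self i s)) hg'
      (h i (Finset.mem_insert_self i s))
      (ih (fun j hj => hf j (Finset.mem_insert_of_mem hj))
        (fun j hj => hg j (Finset.mem_insert_of_mem hj))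
        (fun j hj => h j (Finset.mem_insert_of_mem hj)))

theorem rca_norm_le_of_cong {x y : PadicAlgCl q} (hy : ‖y‖ ≤ 1) (h : ‖x - y‖ < 1) : ‖x‖ ≤ 1 := by
  have e : x = (x - y) + y := by ring
  rw [e]
  exact le_trans (IsUltrametricDist.norm_add_le_max _ _) (max_le h.le hy)

end arith


section perPrime

open groupCohomology

variable {F : Type} [Field F] [NumberField F] {q : ℕ} [Fact q.Prime] {ζ : F}
  {H : Subgroup (F ≃ₐ[ℚ] F)} (L : fgD_Log ↥H)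

theorem rca_finite_place (H : Subgroup (F ≃ₐ[ℚ] F)) (ℓ : ℕ) [Fact ℓ.Prime] :
    Finite (gl_PlaceK ℓ F H) := by
  unfold gl_PlaceK
  infer_instance

/-- The norm in `Ω_ℓ` of a rational number. -/
theorem rca_norm_rat (ℓ : ℕ) [Fact ℓ.Prime] (N : ℚ) (hN : N ≠ 0) :
    ‖algebraMap ℚ (PadicAlgCl ℓ) N‖ = ((ℓ : ℕ) : ℝ) ^ (-padicValRat ℓ N) := by
  have h1 : algebraMap ℚ (PadicAlgCl ℓ) N = algebraMap ℚ_[ℓ] (PadicAlgCl ℓ) (N : ℚ_[ℓ]) := by
    rw [eq_ratCast, map_ratCast]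
  rw [h1, PadicAlgCl.norm_extends, Padic.eq_padicNorm, padicNorm.eq_zpow_of_nonzero hN]
  push_cast
  rfl

/-- **The summary at a prime `ℓ ≠ q`.** -/
theorem rca_primeA (hUnr : rcy_UnrStatement) (hLNV : rcy_LNormValStatement)
    (hFrob : rcy_FrobStatement) (hGN : rcy_GNormStatement)
    (inv : lcf_InvType) (hinv : lcf_IsInvSystem inv)
    (hζ : IsPrimitiveRoot ζ q) (hH : ∀ σ ∈ H, σ ζ = ζ → σ = 1)
    (c : ↥H × ↥H → Additive Fˣ) (hc : IsCocycle₂ c)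
    (x₁ : ↥(IntermediateField.fixedField H)) (hx₁ : (x₁ : F) = ((rca_x L c : Fˣ) : F))
    (ℓ : ℕ) [hℓ : Fact ℓ.Prime] (hℓq : ℓ ≠ q) :
    ∃ E : ℤ, gl_sumPF inv F H c ⟨ℓ, hℓ.out⟩ = lcf_qz ((E : ℚ) / (L.n : ℚ)) ∧
      ((rca_a L hζ : ℕ) : ZMod q) ^ E =
        ((ℓ : ℕ) : ZMod q) ^ padicValRat ℓ (Algebra.norm ℚ x₁) := by
  classical
  haveI : Finite (gl_PlaceK ℓ F H) := rca_finite_place H ℓ
  letI : Fintype (gl_PlaceK ℓ F H) := Fintype.ofFinite _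
  have hx : ∀ σ : ↥H, (σ : F ≃ₐ[ℚ] F) ((rca_x L c : Fˣ) : F) = ((rca_x L c : Fˣ) : F) :=
    rca_x_fixed L c hc
  have hloc := fun v : gl_PlaceK ℓ F H =>
    rca_localA L hUnr hLNV hFrob inv hinv hζ hH (rca_x L c) hx ℓ hℓq (Quotient.out v)
  choose r e h1 h2 h3 using hloc
  have hℓp : ℓ.Prime := hℓ.out
  have hqp : q.Prime := Fact.out
  refine ⟨∑ v, e v, ?_, ?_⟩
  · have e1 : gl_sumPF inv F H c ⟨ℓ, hℓ.out⟩ =
        ∑ᶠ v : gl_PlaceK ℓ F H, gl_invAtF ℓ F H (Quotient.out v) inv c := rfl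
    rw [e1, finsum_eq_sum_of_fintype, Int.cast_sum, Finset.sum_div, map_sum]
    apply Finset.sum_congr rfl
    intro v _
    rw [rca_inv_eq L inv hinv c hc ℓ (Quotient.out v), h2 v]
  · have hx0 : x₁ ≠ 0 := by
      intro h0
      have h4 : (x₁ : F) = 0 := by rw [h0]; rfl
      rw [hx₁] at h4
      exact (rca_x L c).ne_zero h4
    have hN0 : Algebra.norm ℚ x₁ ≠ 0 := fun h => hx0 (Algebra.norm_eq_zero_iff.1 h)
    have hn := rca_norm_rat ℓ _ hN0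
    rw [hGN F H ℓ x₁, finprod_eq_prod_of_fintype, norm_prod] at hn
    have hℓ0 : ((ℓ : ℕ) : ℝ) ≠ 0 := Nat.cast_ne_zero.2 hℓp.ne_zero
    have h4 : ∏ v : gl_PlaceK ℓ F H,
        ‖rcy_locNorm (gl_locU ℓ F H (Quotient.out v)) ((Quotient.out v) (x₁ : F))‖ =
        ((ℓ : ℕ) : ℝ) ^ (-(∑ v, r v)) := by
      rw [← Finset.sum_neg_distrib, rca_zpow_sum _ hℓ0]
      apply Finset.prod_congr rfl
      intro v _
      rw [hx₁, h1 v]
    rw [h4] at hn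
    have hℓ1 : (0 : ℝ) < ((ℓ : ℕ) : ℝ) := Nat.cast_pos.2 hℓp.pos
    have hℓ2 : ((ℓ : ℕ) : ℝ) ≠ 1 := by
      have : (1 : ℝ) < ((ℓ : ℕ) : ℝ) := by exact_mod_cast hℓp.one_lt
      exact this.ne'
    have h5 : ∑ v, r v = padicValRat ℓ (Algebra.norm ℚ x₁) :=
      neg_injective (zpow_right_injective₀ hℓ1 hℓ2 hn)
    rw [← h5, rca_zpow_sum _ (rca_a_ne_zero L hζ)]
    have hℓz : ((ℓ : ℕ) : ZMod q) ≠ 0 := by
      intro h
      have h6 := (ZMod.natCast_eq_zero_iff _ _).1 h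
      exact hℓq ((Nat.prime_dvd_prime_iff_eq hqp hℓp).1 h6).symm
    rw [rca_zpow_sum _ hℓz]
    exact Finset.prod_congr rfl (fun v _ => h3 v)


/-- **The summary at the prime `q`.** -/
theorem rca_primeB (hTame : rcy_TameStatement) (hTeich : rcy_TeichStatement)
    (hLNQ : rcy_LNormTameStatement) (hShape : rcy_ShapeStatement) (hGN : rcy_GNormStatement)
    (inv : lcf_InvType) (hinv : lcf_IsInvSystem inv)
    (hζ : IsPrimitiveRoot ζ q) (G' : Subgroup (F ≃ₐ[ℚ] F)) (hG' : ∀ σ ∈ G', σ ζ = ζ → σ = 1)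
    (hur : gl_UnramAt q ↥(IntermediateField.fixedField G')) (hHG : H ≤ G')
    (hLn : L.n = Nat.card ↥H) (hodd : Odd L.n)
    (c : ↥H × ↥H → Additive Fˣ) (hc : IsCocycle₂ c)
    (x₁ : ↥(IntermediateField.fixedField H)) (hx₁ : (x₁ : F) = ((rca_x L c : Fˣ) : F)) :
    ∃ (R : ℤ) (T : ℕ),
      gl_sumPF inv F H c ⟨q, Fact.out⟩ = lcf_qz (-(T : ℚ) / (L.n : ℚ)) ∧
      ‖(algebraMap ℚ (PadicAlgCl q) (Algebra.norm ℚ x₁) *
          (((q : ℕ) : PadicAlgCl q) ^ R)⁻¹) ^ 2 -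
        (((rca_a L hζ : ℕ) : PadicAlgCl q) ^ T) ^ 2‖ < 1 := by
  classical
  haveI : Finite (gl_PlaceK q F H) := rca_finite_place H q
  letI : Fintype (gl_PlaceK q F H) := Fintype.ofFinite _
  have hx : ∀ σ : ↥H, (σ : F ≃ₐ[ℚ] F) ((rca_x L c : Fˣ) : F) = ((rca_x L c : Fˣ) : F) :=
    rca_x_fixed L c hc
  have hloc := fun v : gl_PlaceK q F H =>
    rca_localB L hTame hTeich hLNQ hShape inv hinv hζ G' hG' hur hHG hLn hodd (rca_x L c) hx
      (Quotient.out v)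
  choose r t h1 h2 using hloc
  have hqp : q.Prime := Fact.out
  have hq0 : ((q : ℕ) : PadicAlgCl q) ≠ 0 := Nat.cast_ne_zero.2 hqp.ne_zero
  refine ⟨∑ v, r v, ∑ v, t v, ?_, ?_⟩
  · have e1 : gl_sumPF inv F H c ⟨q, Fact.out⟩ =
        ∑ᶠ v : gl_PlaceK q F H, gl_invAtF q F H (Quotient.out v) inv c := rfl
    rw [e1, finsum_eq_sum_of_fintype, Nat.cast_sum, ← Finset.sum_neg_distrib, Finset.sum_div,
      map_sum]
    apply Finset.sum_congr rfl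
    intro v _
    rw [rca_inv_eq L inv hinv c hc q (Quotient.out v), h2 v]
  · have hY : ∀ v : gl_PlaceK q F H, ‖(((rca_a L hζ : ℕ) : PadicAlgCl q) ^ t v) ^ 2‖ ≤ 1 := by
      intro v
      rw [norm_pow, norm_pow]
      exact pow_le_one₀ (pow_nonneg (norm_nonneg _) _)
        (pow_le_one₀ (norm_nonneg _) (rca_norm_natCast_le _))
    have hX : ∀ v : gl_PlaceK q F H,
        ‖(rcy_locNorm (gl_locU q F H (Quotient.out v)) ((Quotient.out v) ((rca_x L c : Fˣ) : F)) *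
          (((q : ℕ) : PadicAlgCl q) ^ r v)⁻¹) ^ 2‖ ≤ 1 :=
      fun v => rca_norm_le_of_cong (hY v) (h1 v)
    have h3 := rca_cong_prod (q := q) Finset.univ _ _ (fun v _ => hX v) (fun v _ => hY v)
      (fun v _ => h1 v)
    have e2 : ∏ v : gl_PlaceK q F H,
        (rcy_locNorm (gl_locU q F H (Quotient.out v)) ((Quotient.out v) ((rca_x L c : Fˣ) : F)) *
          (((q : ℕ) : PadicAlgCl q) ^ r v)⁻¹) ^ 2 =
        (algebraMap ℚ (PadicAlgCl q) (Algebra.norm ℚ x₁) *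
          (((q : ℕ) : PadicAlgCl q) ^ (∑ v, r v))⁻¹) ^ 2 := by
      rw [Finset.prod_pow, Finset.prod_mul_distrib, Finset.prod_inv_distrib,
        ← rca_zpow_sum _ hq0, hGN F H q x₁, finprod_eq_prod_of_fintype, hx₁]
    have e3 : ∏ v : gl_PlaceK q F H, (((rca_a L hζ : ℕ) : PadicAlgCl q) ^ t v) ^ 2 =
        (((rca_a L hζ : ℕ) : PadicAlgCl q) ^ (∑ v, t v)) ^ 2 := by
      rw [Finset.prod_pow, Finset.prod_pow_eq_pow_sum]
    rw [e2, e3] at h3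
    exact h3

end perPrime


section final

open groupCohomology

theorem rca_qz_intCast (k : ℤ) : lcf_qz (k : ℚ) = 0 :=
  (QuotientAddGroup.eq_zero_iff _).2 (AddSubgroup.mem_zmultiples_iff.2 ⟨k, by simp⟩)

theorem rca_qz_of_dvd (n : ℕ) (hn : n ≠ 0) (m : ℤ) (h : (n : ℤ) ∣ m) :
    lcf_qz ((m : ℚ) / (n : ℚ)) = 0 := by
  obtain ⟨k, rfl⟩ := h
  have hn' : (n : ℚ) ≠ 0 := Nat.cast_ne_zero.2 hn
  have e : (((n : ℤ) * k : ℤ) : ℚ) / (n : ℚ) = (k : ℚ) := by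
    push_cast
    field_simp
  rw [e]
  exact rca_qz_intCast k

/-- **[R-CYC-OF]** the assembly. -/
theorem rca_of : rcy_OfStatement := by
  intro hUnr hTame hTeich hLNV hLNQ hFrob hShape hGN inv hinv F _ _ p hp hp2 q _ ζ hζ G' hG' hur H
    hHG hHp c hc
  classical
  have hqp : q.Prime := Fact.out
  have hH : ∀ σ ∈ H, σ ζ = ζ → σ = 1 := fun σ hσ h => hG' σ (hHG hσ) h
  obtain ⟨L, hLn⟩ := rca_exists_log hζ H hH
  have hodd : Odd L.n := by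
    haveI : Fact p.Prime := ⟨hp⟩
    obtain ⟨k, hk⟩ := IsPGroup.iff_card.1 hHp
    rw [hLn, hk]
    exact Odd.pow (hp.odd_of_ne_two hp2)
  have hn0 : L.n ≠ 0 := L.n_pos.ne'
  have hxm : ((rca_x L c : Fˣ) : F) ∈ IntermediateField.fixedField H :=
    (IntermediateField.mem_fixedField_iff H _).2
      (fun σ hσ => rca_x_fixed L c hc ⟨σ, hσ⟩)
  set x₁ : ↥(IntermediateField.fixedField H) := ⟨((rca_x L c : Fˣ) : F), hxm⟩ with hx₁def
  have hx₁ : (x₁ : F) = ((rca_x L c : Fˣ) : F) := rfl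
  have hx0 : x₁ ≠ 0 := by
    intro h0
    have h4 : (x₁ : F) = 0 := by rw [h0]; rfl
    rw [hx₁] at h4
    exact (rca_x L c).ne_zero h4
  have hN0 : Algebra.norm ℚ x₁ ≠ 0 := fun h => hx0 (Algebra.norm_eq_zero_iff.1 h)
  -- the primes `ℓ ≠ q`
  have hA : ∀ ℓ : ℕ, ∃ E : ℤ, ∀ hℓ : ℓ.Prime, ℓ ≠ q →
      gl_sumPF inv F H c ⟨ℓ, hℓ⟩ = lcf_qz ((E : ℚ) / (L.n : ℚ)) ∧
      ((rca_a L hζ : ℕ) : ZMod q) ^ E =
        ((ℓ : ℕ) : ZMod q) ^ padicValRat ℓ (Algebra.norm ℚ x₁) := by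
    intro ℓ
    by_cases hℓ : ℓ.Prime ∧ ℓ ≠ q
    · haveI : Fact ℓ.Prime := ⟨hℓ.1⟩
      obtain ⟨E, hE1, hE2⟩ := rca_primeA L hUnr hLNV hFrob hGN inv hinv hζ hH c hc x₁ hx₁ ℓ hℓ.2
      exact ⟨E, fun _ _ => ⟨hE1, hE2⟩⟩
    · exact ⟨0, fun h1 h2 => absurd ⟨h1, h2⟩ hℓ⟩
  choose E hE using hA
  -- the prime `q`
  obtain ⟨R, T, hB1, hB2⟩ := rca_primeB L hTame hTeich hLNQ hShape hGN inv hinv hζ G' hG' hur
    hHG hLn hodd c hc x₁ hx₁
  -- the product formula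
  have hdiv : (L.n : ℤ) ∣ (∑ ℓ ∈ rca_S q (Algebra.norm ℚ x₁), E ℓ) - (T : ℤ) := by
    have h1 := rca_arith (q := q) (rca_a L hζ) (rca_not_dvd L hζ) (Algebra.norm ℚ x₁) hN0 E
      (fun ℓ hℓ => (hE ℓ (rca_S_prime hℓ).1 (rca_S_prime hℓ).2).2) R T hB2
    have h2 := rca_a_order L hζ hH _ h1
    have hcop : IsCoprime (L.n : ℤ) 2 := by
      rw [Int.isCoprime_iff_gcd_eq_one]
      have h3 : Nat.Coprime L.n 2 := Nat.coprime_two_right.2 hodd
      exact_mod_cast h3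
    exact hcop.dvd_of_dvd_mul_left h2
  -- vanishing outside `S ∪ {q}`
  have hzero : ∀ Q : Nat.Primes, (Q : ℕ) ≠ q → (Q : ℕ) ∉ rca_S q (Algebra.norm ℚ x₁) →
      gl_sumPF inv F H c Q = 0 := by
    intro Q hQq hQS
    obtain ⟨h1, h2⟩ := hE Q Q.2 hQq
    have h3 := rca_padicValNat_of_notMem hN0 Q.2 hQq hQS
    rw [rca_padicValRat_eq, h3.1, h3.2, Nat.cast_zero, sub_zero, zpow_zero] at h2
    have h4 := rca_a_order L hζ hH _ h2
    have e : gl_sumPF inv F H c Q = gl_sumPF inv F H c ⟨(Q : ℕ), Q.2⟩ := rfl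
    rw [e, h1]
    exact rca_qz_of_dvd L.n hn0 _ h4
  set P : ℕ → Nat.Primes := fun ℓ => if h : ℓ.Prime then ⟨ℓ, h⟩ else ⟨2, Nat.prime_two⟩
    with hP
  have hPval : ∀ Q : Nat.Primes, P (Q : ℕ) = Q := by
    intro Q
    rw [hP]
    exact dif_pos Q.2
  have hPval' : ∀ ℓ : ℕ, ∀ h : ℓ.Prime, P ℓ = ⟨ℓ, h⟩ := fun ℓ h => hPval ⟨ℓ, h⟩
  set s0 : Finset Nat.Primes := (rca_S q (Algebra.norm ℚ x₁)).image P with hs0
  obtain ⟨Qq, hQq⟩ : ∃ Qq : Nat.Primes, (Qq : ℕ) = q := ⟨⟨q, hqp⟩, rfl⟩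
  have hq_notMem : Qq ∉ s0 := by
    intro h
    obtain ⟨ℓ, hℓ, hℓq⟩ := Finset.mem_image.1 h
    rw [hPval' ℓ (rca_S_prime hℓ).1] at hℓq
    have h1 : ℓ = (Qq : ℕ) := congrArg Subtype.val hℓq
    exact (rca_S_prime hℓ).2 (h1.trans hQq)
  have hsupp : Function.support (gl_sumPF inv F H c) ⊆
      ((insert Qq s0 : Finset Nat.Primes) : Set Nat.Primes) := by
    intro Q hQ
    by_contra hcon
    apply hQ
    apply hzero Q
    · intro h
      apply hcon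
      have hQQ : Q = Qq := Subtype.ext (h.trans hQq.symm)
      rw [hQQ]
      exact Finset.mem_coe.2 (Finset.mem_insert_self _ _)
    · intro h
      apply hcon
      exact Finset.mem_coe.2 (Finset.mem_insert_of_mem (Finset.mem_image.2 ⟨(Q : ℕ), h, hPval Q⟩))
  refine ⟨(Finset.finite_toSet _).subset hsupp, ?_⟩
  unfold gl_sumF
  rw [finsum_eq_sum_of_support_subset _ hsupp, Finset.sum_insert hq_notMem]
  have e1 : gl_sumPF inv F H c Qq = lcf_qz (-(T : ℚ) / (L.n : ℚ)) := by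
    have hQq' : Qq = ⟨q, hqp⟩ := Subtype.ext hQq
    rw [hQq']
    exact hB1
  have e2 : ∑ Q ∈ s0, gl_sumPF inv F H c Q =
      lcf_qz (((∑ ℓ ∈ rca_S q (Algebra.norm ℚ x₁), E ℓ : ℤ) : ℚ) / (L.n : ℚ)) := by
    have hinj : ∀ ℓ ∈ rca_S q (Algebra.norm ℚ x₁), ∀ ℓ' ∈ rca_S q (Algebra.norm ℚ x₁),
        P ℓ = P ℓ' → ℓ = ℓ' := by
      intro ℓ hℓ ℓ' hℓ' h
      rw [hPval' ℓ (rca_S_prime hℓ).1, hPval' ℓ' (rca_S_prime hℓ').1] at h
      exact congrArg Subtype.val h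
    rw [hs0, Finset.sum_image hinj, Int.cast_sum, Finset.sum_div, map_sum]
    apply Finset.sum_congr rfl
    intro ℓ hℓ
    rw [hPval' ℓ (rca_S_prime hℓ).1]
    exact (hE ℓ (rca_S_prime hℓ).1 (rca_S_prime hℓ).2).1
  rw [e1, e2, ← map_add, ← add_div]
  have e5 : -(T : ℚ) + ((∑ ℓ ∈ rca_S q (Algebra.norm ℚ x₁), E ℓ : ℤ) : ℚ) =
      (((∑ ℓ ∈ rca_S q (Algebra.norm ℚ x₁), E ℓ) - (T : ℤ) : ℤ) : ℚ) := by
    push_cast
    ring
  rw [e5]
  exact rca_qz_of_dvd L.n hn0 _ hdiv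

end final

end

end Fermat.Agent.S55
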