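/-
S55, GLOBAL side, package [R-CYC] (helper14): the leaves plugged into the assembly.
  `rca_fin_of : rcy_LNormTameStatement → gl_RecipCycStatement`
(every other leaf of `Global/RecCycDefs.lean` is on main, hypothesis-free:
[RC-UNR] `tame_unr_main`, [RC-TAME] `tame_tame_main`, [RC-TEICH] `tame_teich_main`,
[RC-LNV] `rcv_main` (helper11); [RC-SHAPE] `rcs_main`, [RC-GNORM] `rcg_main` (helper2);
[RC-FROB] `rcf_main` (helper14)).
-/
import Mathlib
import Fermat.Agent.S55.Global.RecCycOfF
import Fermat.Agent.S55.Global.RcFrob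
import Fermat.Agent.S55.Global.RcShape
import Fermat.Agent.S55.Global.RcGNorm
import Fermat.Agent.S55.Local.TameMain
import Fermat.Agent.S55.Local.RcLNormVal

set_option autoImplicit false

namespace Fermat.Agent.S55

/-- **[R-CYC]** modulo [RC-LNQ]. -/
theorem rca_fin_of (hLNQ : rcy_LNormTameStatement) : gl_RecipCycStatement :=
  rca_of tame_unr_main tame_tame_main tame_teich_main rcv_main hLNQ rcf_main rcs_main rcg_main

end Fermat.Agent.S55
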