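/-
S55, GLOBAL side, package [R-CYC] (sub-architect helper14): THE RESULT.
  `rca_fin : gl_RecipCycStatement`   (hypothesis-free)
Leaves: [RC-UNR] `tame_unr_main`, [RC-TAME] `tame_tame_main`, [RC-TEICH] `tame_teich_main`,
[RC-LNV] `rcv_main`, [RC-LNQ] `rcq_main` (helper11); [RC-SHAPE] `rcs_main`, [RC-GNORM] `rcg_main`
(helper2); [RC-FROB] `rcf_main` and the assembly `rca_of` (helper14).
-/
import Mathlib
import Fermat.Agent.S55.Global.RecCycFin
import Fermat.Agent.S55.Local.RcLNormTame

set_option autoImplicit false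

namespace Fermat.Agent.S55

/-- **[R-CYC]** reciprocity for the cyclic layers of `ℚ(ζ_q)`. -/
theorem rca_fin : gl_RecipCycStatement := rca_fin_of rcq_main

end Fermat.Agent.S55
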