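/-
S55 (fifth wave), GLOBAL side, assembly [RECIP-OF] (helper28, sub-architect): the LEAF
STATEMENTS of the assembly `... ⟹ gl_RecipStatement` (sum formula for `p`-groups).
Definitions and `Prop`s only.

ROUTE (CF VII.11.2 with the cyclotomic `ℤ_p`-tower replaced by `ℚ(ζ_q)`, board #663/#805/#869).
`c` a 2-cocycle of the `p`-group `H ≤ Aut(F/ℚ)` with values in `Fˣ`, `K = F^H`, `#H = p^k`.

(0) BASICS.  All invariants `inv_ι c` vanish for `ι` above a prime outside a finite set `B`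
    ([J-SUPP] in the strong form `gsup_locJ_isCob`, for `diag ∘ c`); `#H • inv_ι c = 0`
    (`fgS_card_smul_H2`, [LOC-BASIC], (I1), (I2)); cohomologous cocycles have the same
    invariants.
(B) REDUCTION TO `ζ_p ∈ F`.  [ZETA-EXT] gives a tower `(F, H) ← (F₁, G₁)` with `ζ_p ∈ F₁`;
    `P₁` a `p`-Sylow subgroup of `G₁`.  [INFL-SUM]: `Σ(F₁, G₁, infl c) = Σ(F, H, c)`;
    [RES-SUM]: `Σ(F₁, P₁, res infl c) = [G₁ : P₁] • Σ(F, H, c)`; the left side is `0` by (A),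
    and `#H • Σ(F, H, c) = 0`, `gcd ([G₁ : P₁], #H) = 1`.
(A) CASE `ζ_p ∈ F`.  Every open `U ≤ Gal(Ω_l/ℚ_l)` has `lcf_resCard U = l ^ a`, `a > 0`
    ([LOC-CYC] (1)); let `M` bound the exponents `a` of the `gl_locU l F H ι`, `l ∈ B`
    (finitely many `ι`).  [R-AUX] with `j = k + M`, `X ⊇ ram F ∪ B`: a prime `q ∉ X`,
    `p^(k+M) ∣ q - 1`, no `l ∈ B` is a `p`-th power mod `q`.  [CYC-EXT]: `E = F(ζ_q)`, tower
    `(F, H) ← (E, G)`, `C = ker π` faithful on `ζ`, `Hζ = {σ ∈ G | σ ζ = ζ} ≅ H`,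
    `G = C × Hζ`.  `c₁ := infl c`.
    * LOCAL DEGREES.  For `ι' : E → Ω_l`: `U := gl_locU l E G ι' = gl_locU l F H (ι' ∘ j)` and
      `U' := gl_locU l E Hζ ι' = {g ∈ U | g (ι' ζ) = ι' ζ}`.  [LOC-CYC] (2):
      `orderOf (l^a mod q) ∣ [U : U']`; [ORD-P]: `p^k ∣ orderOf (l^a mod q)` for `l ∈ B`.
      Hence by [RES-SUM] (local part = (I3)) `inv_ι' (res_Hζ c₁) = [U : U'] • inv_ι' c₁ = 0`
      for `l ∈ B`; for `l ∉ B` already `inv_ι' c₁ = inv_(ι' ∘ j) c = 0` ([INFL-SUM]).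
    * [HASSE] for `(E, Hζ)`: `res_Hζ c₁` is a coboundary.
    * [QUOT-TOWER] for `Hζ ◁ G`: a tower `(F', G') ← (E, G)` with `ker π' = Hζ`
      (`F' = E^Hζ = K(ζ_q)`); [TOWER-MID]: `c₁ ~ infl' c₂`, `c₂` a 2-cocycle of `G'` in `F'ˣ`.
      So `Σ(F, H, c) = Σ(E, G, c₁) = Σ(E, G, infl' c₂) = Σ(F', G', c₂)`.
    * `ζ = j' ζ'`, `G'` acts faithfully on `ζ'`, `F'^G'` is unramified at `q` (it embeds
      into `F`); `P'` a `p`-Sylow subgroup of `G'`.  [R-CYC]: `Σ(F', P', res c₂) = 0`;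
      [RES-SUM]: `[G' : P'] • Σ(F', G', c₂) = 0`; with `#H • Σ = 0`: `Σ = 0`.
-/
import Mathlib
import Fermat.Agent.S55.Global.TowerDefs

set_option autoImplicit false

namespace Fermat.Agent.S55

open groupCohomology

noncomputable section

/-- **[ZETA-EXT]** adjoining roots of unity: for a number field `F`, `H ≤ Aut(F/ℚ)` and `n ≥ 1`
there is a number field `E = F(ζ_n)` with a tower `(F, H) ← (E, G)`, `G = Gal(E/F^H)`,
containing a primitive `n`-th root of unity.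
(`E := CyclotomicField n F`, `G` := the automorphisms of `E` acting on `F` through `H`
[helper23's `cyx_G`], `π` := restriction; `π` is surjective because `E/ℚ`-automorphisms of `F`
extend to the splitting field `E` of `X^n - 1` over `F`; `fixed`: Galois theory of `E/F`.) -/
def rof_ZetaExtStatement : Prop :=
  ∀ (F : Type) [Field F] [NumberField F] (H : Subgroup (F ≃ₐ[ℚ] F)) (n : ℕ) [NeZero n],
    ∃ (E : Type) (_ : Field E) (_ : NumberField E) (G : Subgroup (E ≃ₐ[ℚ] E))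
      (_ : gl_Tower F E H G) (ζ : E), IsPrimitiveRoot ζ n

/-- **[QUOT-TOWER]** the tower of a normal subgroup: for `N ≤ G ≤ Aut(E/ℚ)`, `N` normalised by
`G`, there is a tower `(F, H) ← (E, G)` whose projection has kernel `N`.
(`F := ↥(IntermediateField.fixedField N)`, `j` the inclusion; every `σ ∈ G` maps `E^N` to itself
because `n (σ x) = σ ((σ⁻¹ n σ) x) = σ x`; `π σ := σ|_F`, `H := range π`; `π σ = 1` iff `σ` fixes
`E^N` iff `σ ∈ N` by Artin [`IntermediateField.fixingSubgroup_fixedField`]; `fixed` is the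
definition of `E^N`.) -/
def rof_QuotTowerStatement : Prop :=
  ∀ (E : Type) [Field E] [NumberField E] (G N : Subgroup (E ≃ₐ[ℚ] E)), N ≤ G →
    (∀ g ∈ G, ∀ n ∈ N, g * n * g⁻¹ ∈ N) →
    ∃ (F : Type) (_ : Field F) (_ : NumberField F) (H : Subgroup (F ≃ₐ[ℚ] F))
      (t : gl_Tower F E H G), ∀ σ : ↥G, t.π σ = 1 ↔ (σ : E ≃ₐ[ℚ] E) ∈ N

/-- **[TOWER-MID]** inflation-restriction in degree 2 along a tower (exactness in the middle):
a 2-cocycle of `G` with values in `Eˣ` whose restriction to a subgroup `N ⊇ ker π` is a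
coboundary is cohomologous to the inflation of a 2-cocycle of `H` with values in `Fˣ`.
(helper19's `fgI_mid` for the inflation datum `π`, `Units.map j`; `H¹(ker π, Eˣ) = 0` is
Hilbert 90 for `E / E^(ker π)`
[`groupCohomology.isMulCoboundary₁_of_isMulCocycle₁_of_aut_to_units`]; the restriction of a
coboundary of `N` to `ker π ≤ N` is a coboundary.) -/
def rof_TowerMidStatement : Prop :=
  ∀ (F E : Type) [Field F] [Field E] [NumberField F] [NumberField E]
    (H : Subgroup (F ≃ₐ[ℚ] F)) (G : Subgroup (E ≃ₐ[ℚ] E)) (t : gl_Tower F E H G)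
    (N : Subgroup (E ≃ₐ[ℚ] E)) (hN : N ≤ G),
    (∀ σ : ↥G, t.π σ = 1 → (σ : E ≃ₐ[ℚ] E) ∈ N) →
    ∀ c : ↥G × ↥G → Additive Eˣ, IsCocycle₂ c → IsCoboundary₂ (gl_res₂ hN c) →
      ∃ c' : ↥H × ↥H → Additive Fˣ, IsCocycle₂ c' ∧
        IsCoboundary₂ (fun x => c x - gl_inflF t c' x)

/-- **[LOC-CYC]** local degrees of cyclotomic extensions (absolute language): for an open
subgroup `U` of `Gal(Ω_l/ℚ_l)` (1) the residue field of the fixed field of `U` has `l ^ a`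
elements, `a > 0`; (2) for a prime `q ≠ l`, a primitive `q`-th root of unity `ζ ∈ Ω_l` and
`U' = {g ∈ U | g ζ = ζ}` the multiplicative order of `N = lcf_resCard U` modulo `q` divides
`[U : U']`.
((1) `uinj_resCard_pow`.  (2) `U'` is normal in `U` (kernel of the action on `⟨ζ⟩`); a Frobenius
element `φ ∈ U` [`unr_abs_exists_frob`] acts by `φ ζ = ζ ^ N` [`unr_abs_frob_root`], so
`φ ^ m ∈ U'` iff `ζ ^ (N ^ m) = ζ` iff `N ^ m = 1` in `ZMod q`; hence the order of `φ U'` in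
`U / U'` is `orderOf (N : ZMod q)`, and it divides `Nat.card (U / U') = U'.relIndex U`.) -/
def rof_LocCycStatement : Prop :=
  ∀ (l : ℕ) [Fact l.Prime] (U : Subgroup (lcf_Gal l)), lcf_IsOpen U →
    (∃ a : ℕ, 0 < a ∧ lcf_resCard U = l ^ a) ∧
    ∀ (U' : Subgroup (lcf_Gal l)) (q : ℕ), q.Prime → q ≠ l →
      ∀ ζ : PadicAlgCl l, IsPrimitiveRoot ζ q →
        (∀ g : lcf_Gal l, g ∈ U' ↔ g ∈ U ∧ g ζ = ζ) →
        orderOf ((lcf_resCard U : ℕ) : ZMod q) ∣ U'.relIndex U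

/-- **[ORD-P]** (elementary) if `p ^ (k + M)` divides `q - 1`, `l` is not a `p`-th power modulo
the prime `q`, and `0 < a ≤ M`, then `p ^ k` divides the multiplicative order of `l ^ a` modulo
`q`.
(`(ZMod q)ˣ` is cyclic of order `q - 1 = p ^ t m`, `t ≥ k + M`; `l ≠ 0`; `l` is not a `p`-th
power iff `l ^ ((q - 1) / p) ≠ 1` iff `p ^ t ∣ orderOf l`; `orderOf (l ^ a) =
orderOf l / gcd (orderOf l, a)` and `v_p (a) < a ≤ M`.) -/
def rof_OrdPStatement : Prop :=
  ∀ (p q l k M a : ℕ), p.Prime → q.Prime → p ^ (k + M) ∣ q - 1 →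
    (¬ ∃ x : ZMod q, x ^ p = (l : ZMod q)) → 0 < a → a ≤ M →
    p ^ k ∣ orderOf ((l : ZMod q) ^ a)

end

end Fermat.Agent.S55
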