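/-
S55 (wave 5), GLOBAL side, package [RECIP-OF], leaf [ORD-P] (elementary).

`ordp_main : rof_OrdPStatement`: if `p ^ (k + M) ∣ q - 1`, `l` is not a `p`-th power modulo the
prime `q` and `0 < a ≤ M`, then `p ^ k ∣ orderOf ((l : ZMod q) ^ a)`.
Owner: helper7.  Prefix `ordp_`.  Mathlib + the Prop only.
-/
import Fermat.Agent.S55.Global.RecipOfDefs

set_option autoImplicit false
set_option linter.style.haveILetI false

namespace Fermat.Agent.S55

section OrdP

/-- Valuation bookkeeping: `p ^ (k + M) ∣ a * e`, `p ^ M ∤ a` ⟹ `p ^ k ∣ e`. -/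
theorem ordp_pow_dvd_of_mul {p k M a e : ℕ} (hp : p.Prime) (ha : a ≠ 0)
    (h : p ^ (k + M) ∣ a * e) (hM : ¬ p ^ M ∣ a) : p ^ k ∣ e := by
  haveI : Fact p.Prime := ⟨hp⟩
  rcases eq_or_ne e 0 with rfl | he
  · exact dvd_zero _
  rw [padicValNat_dvd_iff_le (mul_ne_zero ha he), padicValNat.mul ha he] at h
  rw [padicValNat_dvd_iff_le ha] at hM
  rw [padicValNat_dvd_iff_le he]
  omega

/-- In a finite cyclic group of order `n = d * p * c`, an element killed by `d * c` is a `p`-th
power. -/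
theorem ordp_exists_pow {G : Type*} [Group G] [Finite G] [IsCyclic G] (y : G) (p m : ℕ)
    (hm : 0 < m) (hcard : Nat.card G = m * p) (hy : y ^ m = 1) : ∃ x : G, x ^ p = y := by
  obtain ⟨g, hg⟩ := IsCyclic.exists_generator (α := G)
  have hord : orderOf g = m * p := by
    rw [orderOf_eq_card_of_forall_mem_zpowers hg, hcard]
  have hfin : IsOfFinOrder g := isOfFinOrder_of_finite g
  obtain ⟨j, hj⟩ := (Submonoid.mem_powers_iff y g).1 (hfin.mem_powers_iff_mem_zpowers.2 (hg y))
  rw [← hj, ← pow_mul] at hy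
  have h1 : m * p ∣ j * m := by
    rw [← hord]
    exact orderOf_dvd_of_pow_eq_one hy
  have h2 : p ∣ j := by
    rw [mul_comm j m] at h1
    exact Nat.dvd_of_mul_dvd_mul_left hm h1
  obtain ⟨j', rfl⟩ := h2
  exact ⟨g ^ j', by rw [← pow_mul, mul_comm, hj]⟩

/-- **[ORD-P]** -/
theorem ordp_main : rof_OrdPStatement := by
  intro p q l k M a hp hq hdvd hnot ha haM
  haveI : Fact q.Prime := ⟨hq⟩
  have hy0 : (l : ZMod q) ≠ 0 := by
    intro h0
    exact hnot ⟨0, by rw [h0, zero_pow hp.ne_zero]⟩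
  -- the unit
  set y : (ZMod q)ˣ := Units.mk0 (l : ZMod q) hy0 with hy
  have hcard : Nat.card (ZMod q)ˣ = q - 1 := by
    rw [Nat.card_eq_fintype_card, ZMod.card_units]
  have hd : orderOf y ∣ q - 1 := by
    rw [← hcard]
    exact orderOf_dvd_natCard y
  obtain ⟨c, hc⟩ := hd
  have hq1 : 0 < q - 1 := Nat.sub_pos_of_lt hq.one_lt
  have hdpos : 0 < orderOf y := by
    rcases Nat.eq_zero_or_pos (orderOf y) with h | h
    · rw [h, zero_mul] at hc
      omega
    · exact h
  have hcpos : 0 < c := by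
    rcases Nat.eq_zero_or_pos c with h | h
    · rw [h, mul_zero] at hc
      omega
    · exact h
  -- `p` does not divide the cofactor
  have hpc : ¬ p ∣ c := by
    rintro ⟨c', rfl⟩
    have hc'pos : 0 < c' := by
      rcases Nat.eq_zero_or_pos c' with h | h
      · rw [h, mul_zero] at hcpos
        exact absurd hcpos (lt_irrefl _)
      · exact h
    obtain ⟨x, hx⟩ := ordp_exists_pow y p (orderOf y * c') (Nat.mul_pos hdpos hc'pos)
      (by rw [hcard, hc]; ring) (by rw [pow_mul, pow_orderOf_eq_one, one_pow])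
    apply hnot
    refine ⟨(x : ZMod q), ?_⟩
    have := congrArg (fun u : (ZMod q)ˣ => (u : ZMod q)) hx
    simpa [hy] using this
  have hpd : p ^ (k + M) ∣ orderOf y := by
    rw [hc] at hdvd
    exact Nat.Coprime.dvd_of_dvd_mul_right
      (Nat.Coprime.pow_left _ ((Nat.Prime.coprime_iff_not_dvd hp).2 hpc)) hdvd
  -- pass to the power
  have hya : ((l : ZMod q) ^ a) = ((y ^ a : (ZMod q)ˣ) : ZMod q) := by
    rw [Units.val_pow_eq_pow_val, hy, Units.val_mk0]
  rw [hya, orderOf_units]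
  have h1 : orderOf y ∣ a * orderOf (y ^ a) := by
    apply orderOf_dvd_of_pow_eq_one
    rw [pow_mul, pow_orderOf_eq_one]
  have hMa : ¬ p ^ M ∣ a := by
    intro h
    have h2 : p ^ M ≤ a := Nat.le_of_dvd ha h
    have h3 : M < p ^ M := Nat.lt_pow_self hp.one_lt
    omega
  exact ordp_pow_dvd_of_mul hp ha.ne' (hpd.trans h1) hMa

end OrdP

end Fermat.Agent.S55
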