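/-
S55 (fifth wave), GLOBAL side, assembly [RECIP-OF] (helper28), part (0): BASICS.

For a 2-cocycle `c` of `H ≤ Aut(F/ℚ)` with values in `Fˣ`:
* `rof_inv_cob`        : coboundaries have invariant `0` at every embedding;
* `rof_inv_add`        : additivity of the invariants;
* `rof_inv_eq`         : cohomologous cocycles have the same invariants;
* `rof_card_smul_inv`  : `#H • inv_ι c = 0`;
* `rof_exists_bad`     : there is a finite set `B` of primes such that `inv_ι c = 0` for every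
                         embedding `ι : F → Ω_q`, `q ∉ B` (strong form of [J-SUPP]);
* `rof_support_finite` : the support of `q ↦ ∑_{v ∣ q} inv_v c` is finite;
* `rof_sumF_eq`, `rof_sumF_smul`, `rof_card_smul_sumF`, `rof_eq_zero_of_coprime`.
-/
import Mathlib
import Fermat.Agent.S55.Global.RecipOfDefs
import Fermat.Agent.S55.Global.LocBasic
import Fermat.Agent.S55.Global.Supp
import Fermat.Agent.S55.Global.GalDescent
import Fermat.Agent.S55.Global.ResSum
import Fermat.Agent.S55.FG.Syl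
import Fermat.Agent.S55.FG.Cyc2
import Fermat.Agent.S55.Local.LocFund

set_option autoImplicit false
set_option linter.unusedSectionVars false
set_option linter.unusedVariables false
set_option linter.style.longLine false
set_option linter.style.haveILetI false

namespace Fermat.Agent.S55

open groupCohomology

noncomputable section

section basics

variable {inv : lcf_InvType} (hinv : lcf_IsInvSystem inv)
  {F : Type} [Field F] [NumberField F] (H : Subgroup (F ≃ₐ[ℚ] F))

include hinv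

/-- Coboundaries have invariant zero. -/
theorem rof_inv_cob (c : ↥H × ↥H → Additive Fˣ) (hc : IsCoboundary₂ c) (q : ℕ) [Fact q.Prime]
    (ι : F →ₐ[ℚ] PadicAlgCl q) : gl_invAtF q F H ι inv c = 0 :=
  (hinv.eq_zero_iff q _ (gic_locU_isOpen q F H ι) _
    (glb_locF_isCoc H ι c (fgD_isCocycle₂_of_isCoboundary₂ hc))).2 (glb_locF_isCob H ι c hc)

/-- Additivity of the invariants. -/
theorem rof_inv_add (c c' : ↥H × ↥H → Additive Fˣ) (hc : IsCocycle₂ c) (hc' : IsCocycle₂ c')
    (q : ℕ) [Fact q.Prime] (ι : F →ₐ[ℚ] PadicAlgCl q) :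
    gl_invAtF q F H ι inv (c + c') = gl_invAtF q F H ι inv c + gl_invAtF q F H ι inv c' := by
  unfold gl_invAtF
  rw [glb_locF_add H ι c c']
  exact hinv.add q _ (gic_locU_isOpen q F H ι) _ _ (glb_locF_isCoc H ι c hc)
    (glb_locF_isCoc H ι c' hc')

/-- Cohomologous cocycles have the same invariants. -/
theorem rof_inv_eq (c c' : ↥H × ↥H → Additive Fˣ) (hc : IsCocycle₂ c) (hc' : IsCocycle₂ c')
    (h : IsCoboundary₂ (fun x => c x - c' x)) (q : ℕ) [Fact q.Prime]
    (ι : F →ₐ[ℚ] PadicAlgCl q) : gl_invAtF q F H ι inv c = gl_invAtF q F H ι inv c' := by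
  have h1 : c = c' + (fun x => c x - c' x) := by
    funext x
    show c x = c' x + (c x - c' x)
    abel
  have h2 := rof_inv_add hinv H c' (fun x => c x - c' x) hc' (fgD_isCocycle₂_of_isCoboundary₂ h)
    q ι
  rw [← h1, rof_inv_cob hinv H _ h q ι, add_zero] at h2
  exact h2

/-- The invariant of a multiple. -/
theorem rof_inv_nsmul (c : ↥H × ↥H → Additive Fˣ) (hc : IsCocycle₂ c) (n : ℕ)
    (q : ℕ) [Fact q.Prime] (ι : F →ₐ[ℚ] PadicAlgCl q) :
    gl_invAtF q F H ι inv (fun x => n • c x) = n • gl_invAtF q F H ι inv c := by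
  unfold gl_invAtF
  have h1 : gl_locF q F H ι (fun x => n • c x) = (gl_locF q F H ι c) ^ n := by
    funext x
    show Units.map (ι : F →* PadicAlgCl q) ((c _).toMul ^ n) =
      (Units.map (ι : F →* PadicAlgCl q) (c _).toMul) ^ n
    rw [map_pow]
  rw [h1]
  exact lh3m_inv_pow hinv _ (gic_locU_isOpen q F H ι) (glb_locF_isCoc H ι c hc) n

/-- `#H` kills the local invariants. -/
theorem rof_card_smul_inv (c : ↥H × ↥H → Additive Fˣ) (hc : IsCocycle₂ c)
    (q : ℕ) [Fact q.Prime] (ι : F →ₐ[ℚ] PadicAlgCl q) :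
    Nat.card ↥H • gl_invAtF q F H ι inv c = 0 := by
  haveI : Finite ↥H := inferInstance
  rw [← rof_inv_nsmul hinv H c hc]
  exact rof_inv_cob hinv H _ (fgS_card_smul_H2 hc) q ι

end basics

section support

variable {inv : lcf_InvType} (hinv : lcf_IsInvSystem inv)
  {F : Type} [Field F] [NumberField F] (H : Subgroup (F ≃ₐ[ℚ] F))

/-- The diagonal image of an `Fˣ`-valued cochain. -/
def rof_diag (c : ↥H × ↥H → Additive Fˣ) : ↥H × ↥H → Additive (gl_J F) :=
  fun x => Additive.ofMul (gdiag_hom F (c x).toMul)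

theorem rof_diag_smul (σ : ↥H) (a : Additive Fˣ) :
    Additive.ofMul (gdiag_hom F (σ • a).toMul) = σ • Additive.ofMul (gdiag_hom F a.toMul) := by
  show Additive.ofMul (gdiag_hom F (Units.map (((σ : F ≃ₐ[ℚ] F)) : F →* F) a.toMul)) = _
  rw [← gdsc_smul_diag]
  rfl

theorem rof_diag_isCoc (c : ↥H × ↥H → Additive Fˣ) (hc : IsCocycle₂ c) :
    IsCocycle₂ (rof_diag H c) := by
  intro g h j
  have h1 := congrArg (fun a : Additive Fˣ => Additive.ofMul (gdiag_hom F a.toMul)) (hc g h j)
  simp only [toMul_add, map_mul, ofMul_mul] at h1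
  rw [rof_diag_smul] at h1
  exact h1

theorem rof_locJ_diag (c : ↥H × ↥H → Additive Fˣ) (q : ℕ) [Fact q.Prime]
    (ι : F →ₐ[ℚ] PadicAlgCl q) : gl_locJ q F H ι (rof_diag H c) = gl_locF q F H ι c :=
  glb_locJ_diag H ι c (rof_diag H c) (fun _ _ => rfl)

include hinv

/-- **Strong finite support**: outside a finite set of primes ALL local invariants vanish. -/
theorem rof_exists_bad (c : ↥H × ↥H → Additive Fˣ) (hc : IsCocycle₂ c) :
    ∃ B : Finset ℕ, (∀ l ∈ B, l.Prime) ∧ ∀ (q : ℕ) [Fact q.Prime] (ι : F →ₐ[ℚ] PadicAlgCl q),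
      q ∉ B → gl_invAtF q F H ι inv c = 0 := by
  classical
  haveI : Finite ↥H := inferInstance
  have hbad : (gl_ram F ∪ ⋃ p : ↥H × ↥H,
      {Q : Nat.Primes | (rof_diag H c p).toMul.1 Q ∉ gl_UP F Q}).Finite := by
    refine (ramf_main F).union (Set.finite_iUnion fun p => ?_)
    exact (rof_diag H c p).toMul.2
  refine ⟨hbad.toFinset.image (fun Q : Nat.Primes => (Q : ℕ)), ?_, ?_⟩
  · intro l hl
    obtain ⟨Q, _, rfl⟩ := Finset.mem_image.1 hl
    exact Q.2
  · intro q _ ι hq
    have hQ : (⟨q, Fact.out⟩ : Nat.Primes) ∉ (gl_ram F ∪ ⋃ p : ↥H × ↥H,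
        {Q : Nat.Primes | (rof_diag H c p).toMul.1 Q ∉ gl_UP F Q}) := by
      intro h
      exact hq (Finset.mem_image.2 ⟨⟨q, Fact.out⟩, hbad.mem_toFinset.2 h, rfl⟩)
    have hur' : gl_UnramAt q F := by
      by_contra h
      exact hQ (Or.inl h)
    have hunit : ∀ p : ↥H × ↥H, (rof_diag H c p).toMul.1 (⟨q, Fact.out⟩ : Nat.Primes) ∈
        gl_UP F (⟨q, Fact.out⟩ : Nat.Primes) := by
      intro p
      by_contra h
      exact hQ (Or.inr (Set.mem_iUnion.2 ⟨p, h⟩))
    show inv q (gl_locU q F H ι) (gl_locF q F H ι c) = 0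
    rw [← rof_locJ_diag H c q ι]
    rw [hinv.eq_zero_iff q _ (gsup_locU_isOpen q F H ι) _
      (gsup_locJ_isCoc q F H ι _ (rof_diag_isCoc H c hc))]
    exact gsup_locJ_isCob q F H ι hur' _ (rof_diag_isCoc H c hc) (fun σ τ => hunit (σ, τ))

/-- The sums over the places above `q` vanish for `q` outside the bad set. -/
theorem rof_sumPF_eq_zero (c : ↥H × ↥H → Additive Fˣ) (q : ℕ) [hq : Fact q.Prime]
    (h : ∀ ι : F →ₐ[ℚ] PadicAlgCl q, gl_invAtF q F H ι inv c = 0) :
    gl_sumPF inv F H c ⟨q, hq.out⟩ = 0 := by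
  unfold gl_sumPF
  apply finsum_eq_zero_of_forall_eq_zero
  intro v
  exact h _

/-- **[J-SUPP]** for `Fˣ`-valued cocycles. -/
theorem rof_support_finite (c : ↥H × ↥H → Additive Fˣ) (hc : IsCocycle₂ c) :
    (Function.support (gl_sumPF inv F H c)).Finite := by
  classical
  obtain ⟨B, -, hB⟩ := rof_exists_bad hinv H c hc
  have hfin : {Q : Nat.Primes | (Q : ℕ) ∈ B}.Finite := by
    refine Set.Finite.preimage ?_ B.finite_toSet
    intro a _ b _ hab
    exact Subtype.ext hab
  refine hfin.subset ?_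
  intro Q hQ
  by_contra hQB
  apply hQ
  haveI : Fact (Q : ℕ).Prime := ⟨Q.2⟩
  exact rof_sumPF_eq_zero hinv H c (Q : ℕ) (fun ι => hB (Q : ℕ) ι hQB)

end support

section sums

variable {inv : lcf_InvType} (hinv : lcf_IsInvSystem inv)
  {F : Type} [Field F] [NumberField F] (H : Subgroup (F ≃ₐ[ℚ] F))

/-- Equal invariants give equal sums over the places above each prime. -/
theorem rof_sumPF_congr (c c' : ↥H × ↥H → Additive Fˣ)
    (h : ∀ (q : ℕ) [Fact q.Prime] (ι : F →ₐ[ℚ] PadicAlgCl q),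
      gl_invAtF q F H ι inv c = gl_invAtF q F H ι inv c') (Q : Nat.Primes) :
    gl_sumPF inv F H c Q = gl_sumPF inv F H c' Q := by
  unfold gl_sumPF
  haveI : Fact (Q : ℕ).Prime := ⟨Q.2⟩
  exact finsum_congr (fun v => h (Q : ℕ) _)

/-- Sums of invariants: equality prime by prime gives equality of the total sums. -/
theorem rof_sumF_congr {F' : Type} [Field F'] [NumberField F'] (H' : Subgroup (F' ≃ₐ[ℚ] F'))
    (c : ↥H × ↥H → Additive Fˣ) (c' : ↥H' × ↥H' → Additive F'ˣ)
    (h : ∀ Q : Nat.Primes, gl_sumPF inv F H c Q = gl_sumPF inv F' H' c' Q) :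
    gl_sumF inv F H c = gl_sumF inv F' H' c' := by
  unfold gl_sumF
  exact finsum_congr h

/-- Sums of invariants: a relation `Σ' = n • Σ` prime by prime gives the same relation for the
total sums, if the support is finite. -/
theorem rof_sumF_smul {F' : Type} [Field F'] [NumberField F'] (H' : Subgroup (F' ≃ₐ[ℚ] F'))
    (c : ↥H × ↥H → Additive Fˣ) (c' : ↥H' × ↥H' → Additive F'ˣ) (n : ℕ)
    (hfin : (Function.support (gl_sumPF inv F H c)).Finite)
    (h : ∀ Q : Nat.Primes, gl_sumPF inv F' H' c' Q = n • gl_sumPF inv F H c Q) :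
    gl_sumF inv F' H' c' = n • gl_sumF inv F H c := by
  unfold gl_sumF
  rw [smul_finsum' n hfin]
  exact finsum_congr h

include hinv

/-- Cohomologous cocycles have the same sum of invariants. -/
theorem rof_sumF_eq (c c' : ↥H × ↥H → Additive Fˣ) (hc : IsCocycle₂ c) (hc' : IsCocycle₂ c')
    (h : IsCoboundary₂ (fun x => c x - c' x)) :
    (∀ Q : Nat.Primes, gl_sumPF inv F H c Q = gl_sumPF inv F H c' Q) ∧
      gl_sumF inv F H c = gl_sumF inv F H c' := by
  have h1 : ∀ Q : Nat.Primes, gl_sumPF inv F H c Q = gl_sumPF inv F H c' Q :=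
    rof_sumPF_congr H c c' (fun q _ ι => rof_inv_eq hinv H c c' hc hc' h q ι)
  exact ⟨h1, rof_sumF_congr H H c c' h1⟩

/-- `#H` kills the sums over the places above each prime. -/
theorem rof_card_smul_sumPF (c : ↥H × ↥H → Additive Fˣ) (hc : IsCocycle₂ c) (Q : Nat.Primes) :
    Nat.card ↥H • gl_sumPF inv F H c Q = 0 := by
  unfold gl_sumPF
  haveI : Fact (Q : ℕ).Prime := ⟨Q.2⟩
  haveI : Finite (gl_PlaceK (Q : ℕ) F H) := grs_finite_placeK (Q : ℕ) F H
  rw [smul_finsum' _ (Set.toFinite _)]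
  apply finsum_eq_zero_of_forall_eq_zero
  intro v
  exact rof_card_smul_inv hinv H c hc (Q : ℕ) _

/-- `#H` kills the sum of all invariants. -/
theorem rof_card_smul_sumF (c : ↥H × ↥H → Additive Fˣ) (hc : IsCocycle₂ c) :
    Nat.card ↥H • gl_sumF inv F H c = 0 := by
  unfold gl_sumF
  rw [smul_finsum' _ (rof_support_finite hinv H c hc)]
  apply finsum_eq_zero_of_forall_eq_zero
  intro Q
  exact rof_card_smul_sumPF hinv H c hc Q

end sums

/-- An element killed by two coprime integers is zero. -/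
theorem rof_eq_zero_of_coprime {A : Type*} [AddGroup A] (x : A) (a b : ℕ)
    (hab : Nat.Coprime a b) (ha : a • x = 0) (hb : b • x = 0) : x = 0 := by
  have h1 : addOrderOf x ∣ a := addOrderOf_dvd_of_nsmul_eq_zero ha
  have h2 : addOrderOf x ∣ b := addOrderOf_dvd_of_nsmul_eq_zero hb
  have h3 : addOrderOf x ∣ 1 := by
    have := Nat.dvd_gcd h1 h2
    rwa [hab.gcd_eq_one] at this
  exact AddMonoid.addOrderOf_eq_one_iff.1 (Nat.dvd_one.1 h3)

end

end Fermat.Agent.S55
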