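/-
S55 (fifth wave), GLOBAL side, assembly [RECIP-OF] (helper28), part (1): TOOLS.

* `rof_infl_isCoc`, `rof_res_isCoc` : inflation / restriction of 2-cocycles;
* `rof_locU_infl`                   : `gl_locU l E G ι' = gl_locU l F H (ι' ∘ j)` along a tower;
* `rof_stab G ζ`                    : the stabiliser of `ζ` in `G`, normalised by `G` if `ζ` is a
                                      primitive root of unity;
* `rof_exists_bound`                : a uniform bound for the residue exponents at the primes of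
                                      a finite set;
* `rof_sylow_red`                   : Sylow reduction of the sum formula;
* `rof_unram_fixed`                 : the fixed field of the bottom of a second tower is unramified.
-/
import Mathlib
import Fermat.Agent.S55.Global.RecipOfBasic
import Fermat.Agent.S55.Global.InflSum
import Fermat.Agent.S55.Global.ResSumMain
import Fermat.Agent.S55.Local.LocCyc

set_option autoImplicit false
set_option linter.unusedSectionVars false
set_option linter.unusedVariables false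
set_option linter.style.longLine false
set_option linter.style.haveILetI false

namespace Fermat.Agent.S55

open groupCohomology

noncomputable section

section cocycles

variable {F F' : Type} [Field F] [Field F'] [NumberField F] [NumberField F']
  {H : Subgroup (F ≃ₐ[ℚ] F)} {H' : Subgroup (F' ≃ₐ[ℚ] F')}

/-- Equivariance of `Units.map j` along a tower. -/
theorem rof_map_smul (t : gl_Tower F F' H H') (σ' : ↥H') (a : Additive Fˣ) :
    Additive.ofMul (Units.map (t.j : F →* F') (t.π σ' • a).toMul) =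
      σ' • Additive.ofMul (Units.map (t.j : F →* F') a.toMul) := by
  apply Additive.toMul.injective
  apply Units.ext
  exact t.compat σ' _

/-- The inflation of a 2-cocycle is a 2-cocycle. -/
theorem rof_infl_isCoc (t : gl_Tower F F' H H') (c : ↥H × ↥H → Additive Fˣ)
    (hc : IsCocycle₂ c) : IsCocycle₂ (gl_inflF t c) := by
  intro g h j
  have h1 := congrArg (fun a : Additive Fˣ => Additive.ofMul (Units.map (t.j : F →* F') a.toMul))
    (hc (t.π g) (t.π h) (t.π j))
  simp only [toMul_add, map_mul, ofMul_mul] at h1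
  rw [rof_map_smul] at h1
  show Additive.ofMul (Units.map (t.j : F →* F') (c (t.π (g * h), t.π j)).toMul) +
      Additive.ofMul (Units.map (t.j : F →* F') (c (t.π g, t.π h)).toMul) =
    g • Additive.ofMul (Units.map (t.j : F →* F') (c (t.π h, t.π j)).toMul) +
      Additive.ofMul (Units.map (t.j : F →* F') (c (t.π g, t.π (h * j))).toMul)
  rw [map_mul, map_mul]
  exact h1

/-- The inflation of a 2-coboundary is a 2-coboundary. -/
theorem rof_infl_isCob (t : gl_Tower F F' H H') (c : ↥H × ↥H → Additive Fˣ)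
    (hc : IsCoboundary₂ c) : IsCoboundary₂ (gl_inflF t c) := by
  obtain ⟨b, hb⟩ := hc
  refine ⟨fun g => Additive.ofMul (Units.map (t.j : F →* F') (b (t.π g)).toMul), fun g h => ?_⟩
  have h1 := congrArg (fun a : Additive Fˣ => Additive.ofMul (Units.map (t.j : F →* F') a.toMul))
    (hb (t.π g) (t.π h))
  simp only [toMul_add, toMul_sub, map_mul, map_div, ofMul_mul, ofMul_div] at h1
  rw [rof_map_smul] at h1
  show g • Additive.ofMul (Units.map (t.j : F →* F') (b (t.π h)).toMul) -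
      Additive.ofMul (Units.map (t.j : F →* F') (b (t.π (g * h))).toMul) +
      Additive.ofMul (Units.map (t.j : F →* F') (b (t.π g)).toMul) =
    Additive.ofMul (Units.map (t.j : F →* F') (c (t.π g, t.π h)).toMul)
  rw [map_mul]
  exact h1

/-- The restriction of a 2-cocycle is a 2-cocycle. -/
theorem rof_res_isCoc {H₁ : Subgroup (F ≃ₐ[ℚ] F)} (h : H₁ ≤ H) (c : ↥H × ↥H → Additive Fˣ)
    (hc : IsCocycle₂ c) : IsCocycle₂ (gl_res₂ h c) := by
  intro g g' g''
  exact hc (Subgroup.inclusion h g) (Subgroup.inclusion h g') (Subgroup.inclusion h g'')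

/-- The restriction of a 2-coboundary is a 2-coboundary. -/
theorem rof_res_isCob {H₁ : Subgroup (F ≃ₐ[ℚ] F)} (h : H₁ ≤ H) (c : ↥H × ↥H → Additive Fˣ)
    (hc : IsCoboundary₂ c) : IsCoboundary₂ (gl_res₂ h c) := by
  obtain ⟨b, hb⟩ := hc
  exact ⟨fun g => b (Subgroup.inclusion h g), fun g g' =>
    hb (Subgroup.inclusion h g) (Subgroup.inclusion h g')⟩

/-- Along a tower the local groups agree. -/
theorem rof_locU_infl (t : gl_Tower F F' H H') (l : ℕ) [Fact l.Prime]
    (ι' : F' →ₐ[ℚ] PadicAlgCl l) :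
    gl_locU l F' H' ι' = gl_locU l F H (ι'.comp t.j) := by
  ext g
  rw [gis_mem_iff t ι' g, inv_one, one_mul, mul_one]

end cocycles

section stab

variable {E : Type} [Field E] [Algebra ℚ E]

/-- The stabiliser of `ζ` in `G`. -/
def rof_stab (G : Subgroup (E ≃ₐ[ℚ] E)) (ζ : E) : Subgroup (E ≃ₐ[ℚ] E) where
  carrier := {σ | σ ∈ G ∧ σ ζ = ζ}
  one_mem' := ⟨G.one_mem, rfl⟩
  mul_mem' := by
    rintro a b ⟨ha, ha'⟩ ⟨hb, hb'⟩
    exact ⟨G.mul_mem ha hb, by rw [AlgEquiv.mul_apply, hb', ha']⟩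
  inv_mem' := by
    rintro a ⟨ha, ha'⟩
    refine ⟨G.inv_mem ha, ?_⟩
    have h1 : a⁻¹ (a ζ) = ζ := by
      rw [← AlgEquiv.mul_apply, inv_mul_cancel, AlgEquiv.one_apply]
    rwa [ha'] at h1

theorem rof_mem_stab (G : Subgroup (E ≃ₐ[ℚ] E)) (ζ : E) (σ : E ≃ₐ[ℚ] E) :
    σ ∈ rof_stab G ζ ↔ σ ∈ G ∧ σ ζ = ζ := Iff.rfl

theorem rof_stab_le (G : Subgroup (E ≃ₐ[ℚ] E)) (ζ : E) : rof_stab G ζ ≤ G := fun _ h => h.1

/-- The stabiliser of a primitive root of unity is normalised by every automorphism. -/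
theorem rof_stab_conj (G : Subgroup (E ≃ₐ[ℚ] E)) {ζ : E} {q : ℕ} (hq : q ≠ 0)
    (hζ : IsPrimitiveRoot ζ q) (g : E ≃ₐ[ℚ] E) (hg : g ∈ G) (n : E ≃ₐ[ℚ] E)
    (hn : n ∈ rof_stab G ζ) : g * n * g⁻¹ ∈ rof_stab G ζ := by
  haveI : NeZero q := ⟨hq⟩
  refine ⟨G.mul_mem (G.mul_mem hg hn.1) (G.inv_mem hg), ?_⟩
  have h1 : (g⁻¹ ζ) ^ q = 1 := by rw [← map_pow, hζ.pow_eq_one, map_one]
  obtain ⟨i, -, hi⟩ := hζ.eq_pow_of_pow_eq_one h1
  have h2 : (g * n * g⁻¹) ζ = g (n (g⁻¹ ζ)) := rfl
  rw [h2, ← hi, map_pow, hn.2, hi, ← AlgEquiv.mul_apply, mul_inv_cancel, AlgEquiv.one_apply]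

end stab

section bound

/-- A uniform bound for the residue exponents of the local groups at the primes of a finite
set. -/
theorem rof_exists_bound (F : Type) [Field F] [NumberField F] (H : Subgroup (F ≃ₐ[ℚ] F))
    (B : Finset ℕ) :
    ∃ M : ℕ, ∀ (l : ℕ) [Fact l.Prime] (ι : F →ₐ[ℚ] PadicAlgCl l), l ∈ B →
      ∃ a : ℕ, 0 < a ∧ a ≤ M ∧ lcf_resCard (gl_locU l F H ι) = l ^ a := by
  classical
  have h1 : ∀ l : ℕ, ∃ M : ℕ, ∀ (inst : Fact l.Prime) (ι : F →ₐ[ℚ] PadicAlgCl l),
      ∃ a : ℕ, 0 < a ∧ a ≤ M ∧ lcf_resCard (gl_locU l F H ι) = l ^ a := by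
    intro l
    by_cases hl : l.Prime
    · haveI : Fact l.Prime := ⟨hl⟩
      have h2 : ∀ ι : F →ₐ[ℚ] PadicAlgCl l, ∃ a : ℕ, 0 < a ∧
          lcf_resCard (gl_locU l F H ι) = l ^ a :=
        fun ι => lcyc_resCard _ (gic_locU_isOpen l F H ι)
      choose a ha using h2
      haveI : Finite (F →ₐ[ℚ] PadicAlgCl l) := inferInstance
      obtain ⟨M, hM⟩ := (Set.finite_range a).bddAbove
      exact ⟨M, fun _ ι => ⟨a ι, (ha ι).1, hM (Set.mem_range_self ι), (ha ι).2⟩⟩
    · exact ⟨0, fun inst => absurd inst.out hl⟩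
  choose m hm using h1
  refine ⟨B.sup m, fun l inst ι hl => ?_⟩
  obtain ⟨a, ha0, haM, ha⟩ := hm l inst ι
  exact ⟨a, ha0, haM.trans (Finset.le_sup hl), ha⟩

end bound

section sylow

variable {inv : lcf_InvType} (hinv : lcf_IsInvSystem inv)

include hinv

/-- **Sylow reduction**: if the sum of the invariants of `c` is killed by a power of `p` and the
sum formula holds for the restriction of `c` to every `p`-subgroup, it holds for `c`. -/
theorem rof_sylow_red (F : Type) [Field F] [NumberField F] (G : Subgroup (F ≃ₐ[ℚ] F))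
    (p : ℕ) (hp : p.Prime) (c : ↥G × ↥G → Additive Fˣ) (hc : IsCocycle₂ c) (k : ℕ)
    (hk : p ^ k • gl_sumF inv F G c = 0)
    (hP : ∀ (P : Subgroup (F ≃ₐ[ℚ] F)) (h : P ≤ G), IsPGroup p ↥P →
      gl_sumF inv F P (gl_res₂ h c) = 0) :
    gl_sumF inv F G c = 0 := by
  haveI : Fact p.Prime := ⟨hp⟩
  haveI : Finite ↥G := inferInstance
  obtain ⟨P₀⟩ : Nonempty (Sylow p ↥G) := inferInstance
  have hPG : (P₀ : Subgroup ↥G).map G.subtype ≤ G := Subgroup.map_subtype_le _
  have hPp : IsPGroup p ↥((P₀ : Subgroup ↥G).map G.subtype) := P₀.isPGroup'.map G.subtype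
  have h0 := hP _ hPG hPp
  have h1 := ((grs_main inv hinv F G _ hPG).1 c hc).2
  have h2 := rof_sumF_smul G ((P₀ : Subgroup ↥G).map G.subtype) c (gl_res₂ hPG c) _
    (rof_support_finite hinv G c hc) h1
  rw [h0] at h2
  have hidx : ((P₀ : Subgroup ↥G).map G.subtype).relIndex G = (P₀ : Subgroup ↥G).index := by
    unfold Subgroup.relIndex Subgroup.subgroupOf
    rw [Subgroup.comap_map_eq_self_of_injective G.subtype_injective]
  have hcop : Nat.Coprime (((P₀ : Subgroup ↥G).map G.subtype).relIndex G) (p ^ k) := by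
    rw [hidx]
    exact Nat.Coprime.pow_right k ((Nat.Prime.coprime_iff_not_dvd hp).2 P₀.not_dvd_index).symm
  exact rof_eq_zero_of_coprime _ _ _ hcop h2.symm hk

end sylow

section unram

variable {F E F' : Type} [Field F] [Field E] [Field F'] [NumberField F] [NumberField E]
  [NumberField F'] {H : Subgroup (F ≃ₐ[ℚ] F)} {G : Subgroup (E ≃ₐ[ℚ] E)}
  {G' : Subgroup (F' ≃ₐ[ℚ] F')}

/-- If `(F, H) ← (E, G)` and `(F', G') ← (E, G)` are towers with the same top and `F` is
unramified at `q`, then the fixed field of `G'` in `F'` is unramified at `q`. -/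
theorem rof_unram_fixed (t : gl_Tower F E H G) (t' : gl_Tower F' E G' G) (q : ℕ)
    [Fact q.Prime] (hur : gl_UnramAt q F) :
    gl_UnramAt q ↥(IntermediateField.fixedField G') := by
  intro ι₀ x hx
  obtain ⟨ι₁, h₁⟩ := gdsc_exists_extend F' q (IntermediateField.fixedField G') ι₀
  obtain ⟨ι₂, h₂⟩ := gis_exists_extension t' ι₁
  have hfix : ∀ s : ↥G, ((s : ↥G) : E ≃ₐ[ℚ] E) (t'.j (x : F')) = t'.j (x : F') := by
    intro s
    rw [← t'.compat s (x : F')]
    congr 1
    exact x.2 ⟨_, (t'.π s).2⟩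
  obtain ⟨y, hy⟩ := t.fixed (t'.j (x : F')) (fun s _ => hfix s)
  have hy0 : y ≠ 0 := by
    rintro rfl
    rw [map_zero] at hy
    have h3 : (x : F') = 0 := by
      apply (t'.j : F' →+* E).injective
      rw [map_zero]
      exact hy.symm
    exact hx (Subtype.ext h3)
  obtain ⟨n, hn⟩ := hur (ι₂.comp t.j) y hy0
  refine ⟨n, ?_⟩
  rw [← hn]
  congr 1
  have e1 : ι₀ x = ι₁ (x : F') := by
    rw [← h₁]
    rfl
  have e2 : ι₁ (x : F') = ι₂ (t'.j (x : F')) := by
    rw [← h₂]
    rfl
  rw [e1, e2, ← hy]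
  rfl

end unram

end

end Fermat.Agent.S55
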