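/-
S55 (fifth wave), GLOBAL side, assembly [RECIP-OF] (helper28), part (A):
the sum formula for a `p`-group `H ≤ Aut(F/ℚ)` when `F` contains a primitive `p`-th root of
unity, from [R-AUX], [R-CYC], [HASSE] and the leaves of `RecipOfDefs.lean`.
(Route: header of `RecipOfDefs.lean`.)
-/
import Mathlib
import Fermat.Agent.S55.Global.RecipOfTools
import Fermat.Agent.S55.Global.CycExt

set_option autoImplicit false
set_option linter.unusedSectionVars false
set_option linter.unusedVariables false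
set_option linter.style.longLine false
set_option linter.style.haveILetI false

namespace Fermat.Agent.S55

open groupCohomology

noncomputable section

/-- The local group of the stabiliser of `ζ`. -/
theorem rof_mem_locU_stab {E : Type} [Field E] [NumberField E] (G : Subgroup (E ≃ₐ[ℚ] E))
    (ζ : E) (l : ℕ) [Fact l.Prime] (ι' : E →ₐ[ℚ] PadicAlgCl l) (g : lcf_Gal l) :
    g ∈ gl_locU l E (rof_stab G ζ) ι' ↔ g ∈ gl_locU l E G ι' ∧ g (ι' ζ) = ι' ζ := by
  constructor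
  · rintro ⟨σ, hσ, hg⟩
    refine ⟨⟨σ, hσ.1, hg⟩, ?_⟩
    have h1 := congrArg (fun f : E →ₐ[ℚ] PadicAlgCl l => f ζ) hg
    have h2 : g (ι' ζ) = ι' (σ ζ) := h1
    rw [h2, hσ.2]
  · rintro ⟨⟨σ, hσ, hg⟩, hfix⟩
    refine ⟨σ, ⟨hσ, ?_⟩, hg⟩
    have h1 := congrArg (fun f : E →ₐ[ℚ] PadicAlgCl l => f ζ) hg
    have h2 : g (ι' ζ) = ι' (σ ζ) := h1
    rw [hfix] at h2
    exact (ι'.injective h2).symm

/-- **Case (A)** of [RECIP-OF]: `ζ_p ∈ F`. -/
theorem rof_caseA (hRAux : gl_RAuxStatement) (hRCyc : gl_RecipCycStatement)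
    (hHasse : gl_HasseStatement) (hQT : rof_QuotTowerStatement) (hTM : rof_TowerMidStatement)
    (hLC : rof_LocCycStatement) (hOP : rof_OrdPStatement)
    (inv : lcf_InvType) (hinv : lcf_IsInvSystem inv)
    (F : Type) [Field F] [NumberField F] (p : ℕ) (hp : p.Prime) (hp2 : p ≠ 2)
    (hζp : ∃ ζ : F, IsPrimitiveRoot ζ p) (H : Subgroup (F ≃ₐ[ℚ] F)) (hH : IsPGroup p ↥H)
    (c : ↥H × ↥H → Additive Fˣ) (hc : IsCocycle₂ c) : gl_sumF inv F H c = 0 := by
  classical
  haveI : Fact p.Prime := ⟨hp⟩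
  haveI : Finite ↥H := inferInstance
  obtain ⟨k, hk⟩ := IsPGroup.iff_card.1 hH
  -- the bad primes and the bound for the residue exponents
  obtain ⟨B, hBprime, hB⟩ := rof_exists_bad hinv H c hc
  obtain ⟨M, hM⟩ := rof_exists_bound F H B
  -- the auxiliary prime
  obtain ⟨q, hq, hqX, hqdvd, hqB⟩ := hRAux p hp hp2 (k + (M + 1)) (by omega) B
    (B ∪ (ramf_main F).toFinset.image (fun Q : Nat.Primes => (Q : ℕ))) hBprime
  haveI : Fact q.Prime := ⟨hq⟩
  have hqB' : q ∉ B := fun h => hqX (Finset.mem_union_left _ h)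
  have hur : gl_UnramAt q F := by
    by_contra h
    apply hqX
    refine Finset.mem_union_right _ (Finset.mem_image.2 ⟨⟨q, hq⟩, ?_, rfl⟩)
    rw [Set.Finite.mem_toFinset]
    exact h
  -- the cyclotomic tower
  obtain ⟨E, _, _, G, t, ζ, hζ, hfaith, hcard, hdec, hcomm, hram⟩ := cyx_main F H q hur
  have hle : rof_stab G ζ ≤ G := rof_stab_le G ζ
  have hnorm : ∀ g ∈ G, ∀ n ∈ rof_stab G ζ, g * n * g⁻¹ ∈ rof_stab G ζ :=
    fun g hg n hn => rof_stab_conj G hq.ne_zero hζ g hg n hn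
  have hHζp : IsPGroup p ↥(rof_stab G ζ) := by
    refine IsPGroup.of_injective hH (t.π.comp (Subgroup.inclusion hle)) ?_
    rw [injective_iff_map_eq_one]
    intro a ha
    have h1 : Subgroup.inclusion hle a = 1 := hfaith _ ha a.2.2
    exact Subgroup.inclusion_injective hle (by rw [h1, map_one])
  have hc₁ : IsCocycle₂ (gl_inflF t c) := rof_infl_isCoc t c hc
  have hc₁' : IsCocycle₂ (gl_res₂ hle (gl_inflF t c)) := rof_res_isCoc hle _ hc₁
  -- all invariants of the restriction to the stabiliser vanish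
  have hvan : ∀ (l : ℕ) [Fact l.Prime] (ι' : E →ₐ[ℚ] PadicAlgCl l),
      gl_invAtF l E (rof_stab G ζ) ι' inv (gl_res₂ hle (gl_inflF t c)) = 0 := by
    intro l _ ι'
    have e1 := ((grs_main inv hinv E G (rof_stab G ζ) hle).1 (gl_inflF t c) hc₁).1 l ι'
    have e2 := ((gis_main inv hinv F E H G t).1 c hc).1 l ι'
    rw [e1, e2]
    by_cases hl : l ∈ B
    · have hlq : q ≠ l := fun h => hqB' (h ▸ hl)
      obtain ⟨a, ha0, haM, ha⟩ := hM l (ι'.comp t.j) hl
      have hdiv := (hLC l (gl_locU l E G ι') (gic_locU_isOpen l E G ι')).2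
        (gl_locU l E (rof_stab G ζ) ι') q hq hlq (ι' ζ) (hζ.map_of_injective ι'.injective)
        (rof_mem_locU_stab G ζ l ι')
      have hres : lcf_resCard (gl_locU l E G ι') = l ^ a := by
        rw [rof_locU_infl t l ι']
        exact ha
      rw [hres, Nat.cast_pow] at hdiv
      have hpk := hOP p q l k (M + 1) a hp hq hqdvd (hqB l hl) ha0 (haM.trans (Nat.le_succ M))
      obtain ⟨r, hr⟩ := hpk.trans hdiv
      rw [hr, mul_comm, mul_smul, ← hk, rof_card_smul_inv hinv H c hc l (ι'.comp t.j), smul_zero]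
    · rw [hB l (ι'.comp t.j) hl, smul_zero]
  -- Hasse principle
  obtain ⟨ζp, hζp'⟩ := hζp
  have hcob₁ : IsCoboundary₂ (gl_res₂ hle (gl_inflF t c)) :=
    hHasse inv hinv E p hp hp2 ⟨t.j ζp, hζp'.map_of_injective t.j.injective⟩ (rof_stab G ζ) hHζp
      _ hc₁' hvan
  -- descent to the quotient tower
  obtain ⟨F', _, _, G', t', hker⟩ := hQT E G (rof_stab G ζ) hle hnorm
  obtain ⟨c₂, hc₂, hcoh⟩ := hTM F' E G' G t' (rof_stab G ζ) hle (fun σ h => (hker σ).1 h)
    (gl_inflF t c) hc₁ hcob₁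
  have hS1 : gl_sumF inv E G (gl_inflF t c) = gl_sumF inv F H c :=
    rof_sumF_congr G H _ c ((gis_main inv hinv F E H G t).1 c hc).2
  have hS2 : gl_sumF inv E G (gl_inflF t c) = gl_sumF inv E G (gl_inflF t' c₂) :=
    (rof_sumF_eq hinv G _ _ hc₁ (rof_infl_isCoc t' c₂ hc₂) hcoh).2
  have hS3 : gl_sumF inv E G (gl_inflF t' c₂) = gl_sumF inv F' G' c₂ :=
    rof_sumF_congr G G' _ c₂ ((gis_main inv hinv F' E G' G t').1 c₂ hc₂).2
  have hS : gl_sumF inv F' G' c₂ = gl_sumF inv F H c := by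
    rw [← hS3, ← hS2, hS1]
  rw [← hS]
  -- Sylow reduction and [R-CYC]
  refine rof_sylow_red hinv F' G' p hp c₂ hc₂ k ?_ ?_
  · rw [hS, ← hk]
    exact rof_card_smul_sumF hinv H c hc
  · intro P hPG hPp
    obtain ⟨ζ', hζ'0⟩ := t'.fixed ζ (fun σ hσ => ((hker σ).1 hσ).2)
    have hζ' : t'.j ζ' = ζ := hζ'0
    have hζ'q : IsPrimitiveRoot ζ' q := by
      refine IsPrimitiveRoot.of_map_of_injective (f := t'.j) ?_ t'.j.injective
      rw [hζ']
      exact hζ
    have hfaith' : ∀ σ ∈ G', σ ζ' = ζ' → σ = 1 := by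
      intro σ hσ hσζ
      obtain ⟨s, hs⟩ := t'.surj ⟨σ, hσ⟩
      have h1 := t'.compat s ζ'
      rw [hs] at h1
      have h2 : ((s : ↥G) : E ≃ₐ[ℚ] E) ζ = ζ := by
        rw [← hζ', ← h1]
        show t'.j (σ ζ') = t'.j ζ'
        rw [hσζ]
      have h3 : t'.π s = 1 := (hker s).2 ⟨s.2, h2⟩
      rw [hs] at h3
      exact congrArg Subtype.val h3
    have hunr' : gl_UnramAt q ↥(IntermediateField.fixedField G') := rof_unram_fixed t t' q hur
    exact (hRCyc inv hinv F' p hp hp2 q ζ' hζ'q G' hfaith' hunr' P hPG hPp (gl_res₂ hPG c₂)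
      (rof_res_isCoc hPG c₂ hc₂)).2

end

end Fermat.Agent.S55
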