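/-
S55 (fifth wave), GLOBAL side, package [ZETA-EXT] (helper23): the `q`-free part of [CYC-EXT].

For every number field `F`, every `H ≤ Aut(F/ℚ)` and every `n ≥ 1` the cyclotomic field
`E = F(ζ_n)` carries a tower `(F, H) ← (E, Gal(E/F^H))` in the sense of `Global/TowerDefs.lean`
(`zext_tower`, `zext_main`); the kernel of the restriction is abelian and acts faithfully on
`ζ_n` (`zext_main'`).  Every automorphism of `F` extends to `E` (`zext_lift`).
-/
import Mathlib
import Fermat.Agent.S55.Global.CycExt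

set_option autoImplicit false

namespace Fermat.Agent.S55

open Polynomial IntermediateField

noncomputable section

section generic

variable (n : ℕ) [NeZero n] (F E : Type) [Field F] [NumberField F] [Field E]
  [NumberField E] [Algebra F E] [IsCyclotomicExtension {n} F E]

include n in
/-- Every automorphism of `F` extends to the cyclotomic extension `E = F(ζ_n)`
(no irreducibility needed). -/
theorem zext_lift (σ : F ≃ₐ[ℚ] F) :
    ∃ s : E ≃ₐ[ℚ] E, ∀ x : F, s (algebraMap F E x) = algebraMap F E (σ x) := by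
  have hζ := IsCyclotomicExtension.zeta_spec n F E
  have hn : 0 < n := Nat.pos_of_ne_zero (NeZero.ne n)
  let pb : PowerBasis F E := IsPrimitiveRoot.powerBasis F hζ
  have hgen : pb.gen = IsCyclotomicExtension.zeta n F E := IsPrimitiveRoot.powerBasis_gen F hζ
  let i₂ : F →+* E := (algebraMap F E).comp ((σ : F ≃ₐ[ℚ] F) : F →+* F)
  have hdvd : minpoly F pb.gen ∣ cyclotomic n F := by
    apply minpoly.dvd
    rw [hgen, Polynomial.aeval_def, eval₂_eq_eval_map, map_cyclotomic]
    exact hζ.isRoot_cyclotomic hn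
  have hdvd' : (minpoly F pb.gen).map i₂ ∣ cyclotomic n E := by
    have := Polynomial.map_dvd i₂ hdvd
    rwa [map_cyclotomic] at this
  have hsplit : (cyclotomic n E).Splits := by
    have := IsCyclotomicExtension.splits_cyclotomic (n := n) (S := {n}) F E (Set.mem_singleton n)
    rwa [map_cyclotomic] at this
  have hsplit' : ((minpoly F pb.gen).map i₂).Splits :=
    Polynomial.Splits.of_dvd hsplit (cyclotomic_ne_zero n E) hdvd'
  have hint : IsIntegral F pb.gen := Algebra.IsIntegral.isIntegral _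
  have hdeg : ((minpoly F pb.gen).map i₂).degree ≠ 0 := by
    rw [Polynomial.degree_map]
    exact (minpoly.degree_pos hint).ne'
  obtain ⟨y, hy⟩ := hsplit'.exists_eval_eq_zero hdeg
  have hy0 : eval₂ i₂ y (minpoly F pb.gen) = 0 := by
    rw [eval₂_eq_eval_map]
    exact hy
  obtain ⟨φ, hφ1, -⟩ := cyx_lift_aux i₂ pb y hy0
  let φ' : E →ₐ[ℚ] E := φ.toRatAlgHom
  have hbij : Function.Bijective φ' := Algebra.IsAlgebraic.algHom_bijective φ'
  exact ⟨AlgEquiv.ofBijective φ' hbij, fun x => hφ1 x⟩

/-- The tower `(F, H) ← (F(ζ_n), Gal(F(ζ_n)/F^H))`. -/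
def zext_tower (H : Subgroup (F ≃ₐ[ℚ] F)) : gl_Tower F E H (cyx_G F E H) where
  j := IsScalarTower.toAlgHom ℚ F E
  π := cyx_pi F E H
  surj := by
    rintro ⟨σ, hσ⟩
    obtain ⟨s, hs⟩ := zext_lift n F E σ
    refine ⟨⟨s, σ, hσ, hs⟩, ?_⟩
    apply Subtype.ext
    exact cyx_pi_unique H _ σ hs
  compat := fun s x => (cyx_pi_spec H s x).symm
  fixed := by
    intro y hy
    have : IsGalois F E := IsCyclotomicExtension.isGalois {n} F E
    have h1 : y ∈ (⊥ : IntermediateField F E) := by
      rw [IsGalois.mem_bot_iff_fixed]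
      intro f
      exact hy (cyx_ofGal H f) (cyx_pi_ofGal H f)
    obtain ⟨x, hx⟩ := IntermediateField.mem_bot.mp h1
    exact ⟨x, hx⟩

theorem zext_tower_j (H : Subgroup (F ≃ₐ[ℚ] F)) (x : F) :
    (zext_tower n F E H).j x = algebraMap F E x := rfl

theorem zext_tower_pi (H : Subgroup (F ≃ₐ[ℚ] F)) :
    (zext_tower n F E H).π = cyx_pi F E H := rfl

end generic

/-- **[ZETA-EXT]** every number field has a cyclotomic extension `F(ζ_n)` with a tower. -/
theorem zext_main (F : Type) [Field F] [NumberField F] (H : Subgroup (F ≃ₐ[ℚ] F)) (n : ℕ)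
    [NeZero n] :
    ∃ (E : Type) (_ : Field E) (_ : NumberField E) (G : Subgroup (E ≃ₐ[ℚ] E))
      (_ : gl_Tower F E H G) (ζ : E), IsPrimitiveRoot ζ n :=
  ⟨CyclotomicField n F, inferInstance, inferInstance, cyx_G F (CyclotomicField n F) H,
    zext_tower n F (CyclotomicField n F) H, IsCyclotomicExtension.zeta n F (CyclotomicField n F),
    IsCyclotomicExtension.zeta_spec n F (CyclotomicField n F)⟩

/-- The same, with the extra information that `ker π` acts faithfully on `ζ`. -/
theorem zext_main' (F : Type) [Field F] [NumberField F] (H : Subgroup (F ≃ₐ[ℚ] F)) (n : ℕ)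
    [NeZero n] :
    ∃ (E : Type) (_ : Field E) (_ : NumberField E) (G : Subgroup (E ≃ₐ[ℚ] E))
      (t : gl_Tower F E H G) (ζ : E), IsPrimitiveRoot ζ n ∧
      (∀ σ : ↥G, t.π σ = 1 → ((σ : ↥G) : E ≃ₐ[ℚ] E) ζ = ζ → σ = 1) ∧
      (∀ σ₁ σ₂ : ↥G, t.π σ₁ = 1 → t.π σ₂ = 1 → σ₁ * σ₂ = σ₂ * σ₁) := by
  have hζ := IsCyclotomicExtension.zeta_spec n F (CyclotomicField n F)
  refine ⟨CyclotomicField n F, inferInstance, inferInstance, cyx_G F (CyclotomicField n F) H,
    zext_tower n F (CyclotomicField n F) H, IsCyclotomicExtension.zeta n F (CyclotomicField n F),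
    hζ, ?_, ?_⟩
  · intro s h1 h2
    apply Subtype.ext
    apply AlgEquiv.ext
    intro x
    have htop := IsCyclotomicExtension.adjoin_primitive_root_eq_top (A := F)
      (B := CyclotomicField n F) hζ
    have hx : x ∈ Algebra.adjoin F {IsCyclotomicExtension.zeta n F (CyclotomicField n F)} := by
      rw [htop]; exact Algebra.mem_top
    have h1' := (cyx_pi_eq_one_iff H s).mp h1
    induction hx using Algebra.adjoin_induction with
    | mem x hx =>
      rw [Set.mem_singleton_iff] at hx
      rw [hx]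
      exact h2
    | algebraMap r => exact h1' r
    | add x y _ _ hx hy => rw [map_add, hx, hy]; rfl
    | mul x y _ _ hx hy => rw [map_mul, hx, hy]; rfl
  · intro s₁ s₂ h1 h2
    have h1' := (cyx_pi_eq_one_iff H s₁).mp h1
    have h2' := (cyx_pi_eq_one_iff H s₂).mp h2
    have hy1 : ((s₁ : CyclotomicField n F ≃ₐ[ℚ] CyclotomicField n F)
        (IsCyclotomicExtension.zeta n F (CyclotomicField n F))) ^ n = 1 := by
      rw [← map_pow, hζ.pow_eq_one, map_one]
    have hy2 : ((s₂ : CyclotomicField n F ≃ₐ[ℚ] CyclotomicField n F)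
        (IsCyclotomicExtension.zeta n F (CyclotomicField n F))) ^ n = 1 := by
      rw [← map_pow, hζ.pow_eq_one, map_one]
    obtain ⟨b₁, -, hb₁⟩ := hζ.eq_pow_of_pow_eq_one hy1
    obtain ⟨b₂, -, hb₂⟩ := hζ.eq_pow_of_pow_eq_one hy2
    apply Subtype.ext
    apply AlgEquiv.ext
    intro x
    have htop := IsCyclotomicExtension.adjoin_primitive_root_eq_top (A := F)
      (B := CyclotomicField n F) hζ
    have hx : x ∈ Algebra.adjoin F {IsCyclotomicExtension.zeta n F (CyclotomicField n F)} := by
      rw [htop]; exact Algebra.mem_top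
    show (s₁ : CyclotomicField n F ≃ₐ[ℚ] CyclotomicField n F)
        ((s₂ : CyclotomicField n F ≃ₐ[ℚ] CyclotomicField n F) x) =
      (s₂ : CyclotomicField n F ≃ₐ[ℚ] CyclotomicField n F)
        ((s₁ : CyclotomicField n F ≃ₐ[ℚ] CyclotomicField n F) x)
    induction hx using Algebra.adjoin_induction with
    | mem x hx =>
      rw [Set.mem_singleton_iff] at hx
      rw [hx, ← hb₁, ← hb₂, map_pow, map_pow, ← hb₁, ← hb₂, ← pow_mul, ← pow_mul, mul_comm]
    | algebraMap r => rw [h2' r, h1' r, h2' r]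
    | add x y _ _ hx hy => rw [map_add, map_add, hx, hy, map_add, map_add]
    | mul x y _ _ hx hy => rw [map_mul, map_mul, hx, hy, map_mul, map_mul]

end

end Fermat.Agent.S55
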