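/-
S55 (fifth wave), GLOBAL side, assembly [RECIP-OF] (helper28): THE SUM FORMULA.

`rof_main : [R-AUX] → [R-CYC] → [HASSE] → [ZETA-EXT] → [QUOT-TOWER] → [TOWER-MID] → [LOC-CYC] →
  [ORD-P] → gl_RecipStatement`
(the landed leaves [LOC-BASIC] `glb_main`, [INV-CONJ] `gic_main`, [INFL-SUM] `gis_main`,
[RES-SUM] `grs_main`, [CYC-EXT] `cyx_main`, [RAM-FIN] `ramf_main`, [IDL-DIAG] `gdiag_hom` are
consumed directly), and `rof_main'` with the landed leaves [R-AUX] `raux_gl`, [ZETA-EXT]
`zext_main`, [LOC-CYC] `lcyc_main` plugged in.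

Part (B) of the route: reduction to the case `ζ_p ∈ F` (`rof_caseA`) by adjoining `ζ_p` and
restricting to a `p`-Sylow subgroup.
-/
import Mathlib
import Fermat.Agent.S55.Global.RecipOfA
import Fermat.Agent.S55.Global.ZetaExt
import Fermat.Agent.S55.Global.RAuxGl

set_option autoImplicit false
set_option linter.unusedSectionVars false
set_option linter.unusedVariables false
set_option linter.style.longLine false
set_option linter.style.haveILetI false

namespace Fermat.Agent.S55

open groupCohomology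

noncomputable section

/-- **[RECIP-OF]** the sum formula for `p`-groups from the leaves. -/
theorem rof_main (hRAux : gl_RAuxStatement) (hRCyc : gl_RecipCycStatement)
    (hHasse : gl_HasseStatement) (hZ : rof_ZetaExtStatement) (hQT : rof_QuotTowerStatement)
    (hTM : rof_TowerMidStatement) (hLC : rof_LocCycStatement) (hOP : rof_OrdPStatement) :
    gl_RecipStatement := by
  intro inv hinv F _ _ p hp hp2 H hH c hc
  refine ⟨rof_support_finite hinv H c hc, ?_⟩
  haveI : Fact p.Prime := ⟨hp⟩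
  haveI : NeZero p := ⟨hp.ne_zero⟩
  haveI : Finite ↥H := inferInstance
  obtain ⟨k, hk⟩ := IsPGroup.iff_card.1 hH
  obtain ⟨F₁, _, _, G₁, t, ζ, hζ⟩ := hZ F H p
  have hc₁ : IsCocycle₂ (gl_inflF t c) := rof_infl_isCoc t c hc
  have hS1 : gl_sumF inv F₁ G₁ (gl_inflF t c) = gl_sumF inv F H c :=
    rof_sumF_congr G₁ H _ c ((gis_main inv hinv F F₁ H G₁ t).1 c hc).2
  rw [← hS1]
  refine rof_sylow_red hinv F₁ G₁ p hp _ hc₁ k ?_ ?_
  · rw [hS1, ← hk]
    exact rof_card_smul_sumF hinv H c hc
  · intro P hPG hPp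
    exact rof_caseA hRAux hRCyc hHasse hQT hTM hLC hOP inv hinv F₁ p hp hp2 ⟨ζ, hζ⟩ P hPp _
      (rof_res_isCoc hPG _ hc₁)

/-- **[RECIP-OF]** with the landed leaves plugged in: the open inputs are [R-CYC], [HASSE],
[QUOT-TOWER], [TOWER-MID] and [ORD-P]. -/
theorem rof_main' (hRCyc : gl_RecipCycStatement) (hHasse : gl_HasseStatement)
    (hQT : rof_QuotTowerStatement) (hTM : rof_TowerMidStatement) (hOP : rof_OrdPStatement) :
    gl_RecipStatement :=
  rof_main raux_gl hRCyc hHasse zext_main hQT hTM lcyc_main hOP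

end

end Fermat.Agent.S55
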