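/-
# S55 / GLOBAL : [TOWER-MID]

`tmid_main : rof_TowerMidStatement` (the Prop of `Global/RecipOfDefs.lean`, verbatim):
inflation-restriction in degree 2 along a tower `(F, H) ← (E, G)`, exactness in the middle: a
2-cocycle of `G` with values in `Eˣ` whose restriction to a subgroup `N ⊇ ker π` is a coboundary
is cohomologous to the inflation of a 2-cocycle of `H` with values in `Fˣ`.

Proof: helper19's `fgI_mid` for the inflation datum `(π, Units.map j)`; `H¹(ker π, Eˣ) = 0` is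
Hilbert 90 for `E` over the fixed field of `ker π` (Mathlib).
-/
import Mathlib
import Fermat.Agent.S55.Global.RecipOfDefs
import Fermat.Agent.S55.Global.GalDescent
import Fermat.Agent.S55.FG.InfRes2Mid

set_option autoImplicit false
set_option linter.style.haveILetI false

namespace Fermat.Agent.S55

open groupCohomology

noncomputable section

/-! ### Hilbert 90 for a group of automorphisms of a number field -/

section h90

variable (E : Type) [Field E] [NumberField E] (M : Subgroup (E ≃ₐ[ℚ] E))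

/-- **Hilbert 90** for a subgroup `M` of `Aut(E/ℚ)`: every 1-cocycle of `M` with values in `Eˣ`
is a coboundary. -/
theorem tmid_h90 (f : ↥M → Eˣ)
    (hf : ∀ σ τ : ↥M, f (σ * τ) = Units.map ((σ : E ≃ₐ[ℚ] E) : E →* E) (f τ) * f σ) :
    ∃ β : Eˣ, ∀ σ : ↥M, Units.map ((σ : E ≃ₐ[ℚ] E) : E →* E) β / β = f σ := by
  let f' : (E ≃ₐ[↥(IntermediateField.fixedField M)] E) → Eˣ :=
    fun σ => f ⟨σ.restrictScalars ℚ, gdsc_restrict_mem E M σ⟩
  have hf' : groupCohomology.IsMulCocycle₁ f' := by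
    intro σ ρ
    have h := hf ⟨σ.restrictScalars ℚ, gdsc_restrict_mem E M σ⟩
      ⟨ρ.restrictScalars ℚ, gdsc_restrict_mem E M ρ⟩
    refine Eq.trans ?_ (Eq.trans h ?_)
    · rfl
    · congr 1
  obtain ⟨β, hβ⟩ := groupCohomology.isMulCoboundary₁_of_isMulCocycle₁_of_aut_to_units
    (K := ↥(IntermediateField.fixedField M)) (L := E) f' hf'
  refine ⟨β, fun σ => ?_⟩
  have h5 := hβ (gdsc_lift E M σ σ.2)
  have h6 : f' (gdsc_lift E M σ σ.2) = f σ := by
    show f ⟨(gdsc_lift E M σ σ.2).restrictScalars ℚ, _⟩ = f σ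
    congr 1
  rw [h6] at h5
  rw [← h5]
  congr 1

end h90

/-! ### The inflation datum of a tower -/

section tower

variable {F E : Type} [Field F] [Field E] [NumberField F] [NumberField E]
  {H : Subgroup (F ≃ₐ[ℚ] F)} {G : Subgroup (E ≃ₐ[ℚ] E)} (t : gl_Tower F E H G)

/-- The additive form of `Units.map j`. -/
def tmid_iota : Additive Fˣ →+ Additive Eˣ :=
  MonoidHom.toAdditive (Units.map (t.j : F →* E))

theorem tmid_iota_apply (b : Additive Fˣ) :
    tmid_iota t b = Additive.ofMul (Units.map (t.j : F →* E) b.toMul) := rfl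

/-- The inflation datum of a tower. -/
def tmid_data : fgI_InfData ↥G ↥H (Additive Eˣ) (Additive Fˣ) where
  π := t.π
  ι := tmid_iota t
  π_surj := t.surj
  ι_inj := by
    intro a b hab
    apply Additive.toMul.injective
    apply Units.ext
    apply (t.j : F →+* E).injective
    have := congrArg (fun u : Additive Eˣ => ((u.toMul : Eˣ) : E)) hab
    exact this
  ι_smul := by
    intro g b
    apply Additive.toMul.injective
    apply Units.ext
    exact t.compat g ((b.toMul : Fˣ) : F)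
  ι_range := by
    intro a ha
    obtain ⟨x, hx⟩ := t.fixed ((a.toMul : Eˣ) : E) (fun σ hσ =>
      congrArg (fun u : Additive Eˣ => ((u.toMul : Eˣ) : E)) (ha σ hσ))
    have hx0 : x ≠ 0 := by
      rintro rfl
      rw [map_zero] at hx
      exact (a.toMul : Eˣ).ne_zero hx.symm
    refine ⟨Additive.ofMul (Units.mk0 x hx0), ?_⟩
    apply Additive.toMul.injective
    apply Units.ext
    exact hx

theorem tmid_data_π : (tmid_data t).π = t.π := rfl

theorem tmid_inf₂ (c' : ↥H × ↥H → Additive Fˣ) : fgI_inf₂ (tmid_data t) c' = gl_inflF t c' := rfl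

/-- `H¹(ker π, Eˣ) = 0` (Hilbert 90). -/
theorem tmid_H1Zero : fg_H1Zero (tmid_data t).π.ker (Additive Eˣ) := by
  intro f hf
  let K : Subgroup ↥G := (tmid_data t).π.ker
  let e : ↥K ≃* ↥(K.map G.subtype) := K.equivMapOfInjective G.subtype G.subtype_injective
  have he : ∀ k : ↥K, ((e k : ↥(K.map G.subtype)) : E ≃ₐ[ℚ] E) = ((k : ↥G) : E ≃ₐ[ℚ] E) :=
    fun k => rfl
  have hes : ∀ m : ↥(K.map G.subtype),
      (((e.symm m : ↥K) : ↥G) : E ≃ₐ[ℚ] E) = (m : E ≃ₐ[ℚ] E) := by
    intro m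
    rw [← he, MulEquiv.apply_symm_apply]
  obtain ⟨β, hβ⟩ := tmid_h90 E (K.map G.subtype) (fun m => (f (e.symm m)).toMul) (by
    intro σ τ
    have h := hf (e.symm σ) (e.symm τ)
    rw [← map_mul] at h
    have h2 := congrArg Additive.toMul h
    refine Eq.trans h2 ?_
    rw [toMul_add]
    congr 1
    apply Units.ext
    show (((e.symm σ : ↥K) : ↥G) : E ≃ₐ[ℚ] E) _ = (σ : E ≃ₐ[ℚ] E) _
    rw [hes])
  refine ⟨Additive.ofMul β, fun k => ?_⟩
  have h := hβ (e k)
  simp only [MulEquiv.symm_apply_apply] at h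
  apply Additive.toMul.injective
  rw [← h]
  rfl

/-- The restriction to `ker π` of a cochain whose restriction to `N ⊇ ker π` is a coboundary
is a coboundary. -/
theorem tmid_res (N : Subgroup (E ≃ₐ[ℚ] E)) (hN : N ≤ G)
    (hker : ∀ σ : ↥G, t.π σ = 1 → (σ : E ≃ₐ[ℚ] E) ∈ N)
    (c : ↥G × ↥G → Additive Eˣ) (hc : IsCoboundary₂ (gl_res₂ hN c)) :
    IsCoboundary₂ (fg_res₂ (tmid_data t).π.ker c) := by
  obtain ⟨b, hb⟩ := hc
  have hmem : ∀ k : ↥(tmid_data t).π.ker, (((k : ↥G) : E ≃ₐ[ℚ] E)) ∈ N :=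
    fun k => hker k (MonoidHom.mem_ker.1 k.2)
  refine ⟨fun k => b ⟨((k : ↥G) : E ≃ₐ[ℚ] E), hmem k⟩, fun k k' => ?_⟩
  have h := hb ⟨((k : ↥G) : E ≃ₐ[ℚ] E), hmem k⟩ ⟨((k' : ↥G) : E ≃ₐ[ℚ] E), hmem k'⟩
  exact h

end tower

/-- **[TOWER-MID]** -/
theorem tmid_main : rof_TowerMidStatement := by
  intro F E _ _ _ _ H G t N hN hker c hc hres
  obtain ⟨c', hc', hcob⟩ := fgI_mid ↥G ↥H (Additive Eˣ) (Additive Fˣ) (tmid_data t)
    (tmid_H1Zero t) c hc (tmid_res t N hN hker c hres)
  exact ⟨c', hc', hcob⟩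

end

end Fermat.Agent.S55
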