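/-
S55 (fifth wave), GLOBAL side, assembly [RECIP-OF] (helper28): all leaves of
`RecipOfDefs.lean` plugged in.

`rof_fin  : gl_RecipCycStatement → gl_HasseStatement → gl_RecipStatement`
`rof_fin' : gl_RecipCycStatement → gl_H1Statement → gl_RecipStatement`
([ZETA-EXT] `zext_main` helper23, [LOC-CYC] `lcyc_main` + [ORD-P] `ordp_main` helper7,
[TOWER-MID] `tmid_main` helper1, [QUOT-TOWER] `qtw_main`, [R-AUX] `raux_gl`, [HASSE] `hss_main`
helper10.)
-/
import Mathlib
import Fermat.Agent.S55.Global.RecipOf
import Fermat.Agent.S55.Global.QuotTower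
import Fermat.Agent.S55.Global.TowerMid
import Fermat.Agent.S55.Global.OrdP
import Fermat.Agent.S55.Global.Hasse

set_option autoImplicit false

namespace Fermat.Agent.S55

/-- **[RECIP]** from [R-CYC] and [HASSE]. -/
theorem rof_fin (hRCyc : gl_RecipCycStatement) (hHasse : gl_HasseStatement) :
    gl_RecipStatement :=
  rof_main' hRCyc hHasse qtw_main tmid_main ordp_main

/-- **[RECIP]** from [R-CYC] and [H1]. -/
theorem rof_fin' (hRCyc : gl_RecipCycStatement) (hH1 : gl_H1Statement) :
    gl_RecipStatement :=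
  rof_fin hRCyc (hss_main hH1)

end Fermat.Agent.S55
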