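/-
S55 (fifth wave), GLOBAL side (helper26): [CYC-P] from [FIRST] and [SECOND].

`#Ĥ⁰ = p · #Ĥ⁻¹` (first inequality, both nonzero) and `#Ĥ⁰ ∣ p` (second inequality)
give `#Ĥ⁰ = p` and `#Ĥ⁻¹ = 1`.
-/
import Mathlib
import Fermat.Agent.S55.Global.Defs

set_option autoImplicit false

namespace Fermat.Agent.S55

/-- **[CYC-P]** from the two inequalities. -/
theorem gl_cycP_of (h1 : gl_FirstStatement) (h2 : gl_SecondStatement) : gl_CycPStatement := by
  intro F _ _ p hp hp2 hζ σ hσ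
  obtain ⟨hfin, heq⟩ := h1 F p hp hp2 σ hσ
  have hdvd := h2 F p hp hp2 hζ σ hσ
  rw [heq] at hdvd
  have hpos : 0 < p := hp.pos
  -- `p * m ∣ p` forces `m = 1`
  have hm : herb_idx (A := Additive (gl_C F)) (herb_nrm σ p) (herb_del σ) = 1 := by
    have h3 : p * herb_idx (A := Additive (gl_C F)) (herb_nrm σ p) (herb_del σ) ∣ p * 1 := by
      rwa [mul_one]
    have h4 := Nat.dvd_of_mul_dvd_mul_left hpos h3
    exact Nat.dvd_one.1 h4
  refine ⟨?_, hm⟩
  rw [heq, hm, mul_one]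

end Fermat.Agent.S55
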