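import Mathlib
import Fermat.Agent.S55.Global.Defs
import Fermat.Agent.S55.Global.H1H2Res
import Fermat.Agent.S55.FG.Defs2

/-!
# S55, global side, package [H1]/[H2-LE], part 3: the inflation datum

For `N ⊲ H ≤ Aut(F/ℚ)` with fixed field `M` of `N`, Galois descent for idele classes gives an
inflation datum `fgI_InfData H (res H) C_F C_M`.
-/

set_option autoImplicit false

namespace Fermat.Agent.S55

open groupCohomology

noncomputable section

section inf

variable {F : Type} [Field F] [NumberField F]
variable (H : Subgroup (F ≃ₐ[ℚ] F)) (N : Subgroup ↥H) [N.Normal]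

/-- Compatibility of `J_M → J_F` with the Galois actions. -/
theorem h12_resJ_smul (g : ↥H) (x : gl_J ↥(h12_M H N)) :
    gl_resJ F (h12_M H N) (h12_res H N g • x) =
      ((g : ↥H) : F ≃ₐ[ℚ] F) • gl_resJ F (h12_M H N) x := by
  apply Subtype.ext
  funext q
  apply Subtype.ext
  funext ι
  rfl

/-- Compatibility of `C_M → C_F` with the Galois actions. -/
theorem h12_resC_smul (g : ↥H) (c : gl_C ↥(h12_M H N)) :
    gl_resC F (h12_M H N) (h12_res H N g • c) =
      ((g : ↥H) : F ≃ₐ[ℚ] F) • gl_resC F (h12_M H N) c := by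
  induction c using QuotientGroup.induction_on with
  | H x =>
    rw [gl_smul_mk, gl_resC_mk, gl_resC_mk, gl_smul_mk, h12_resJ_smul]

/-- The inflation datum attached to `N ⊲ H ≤ Aut(F/ℚ)`. -/
def h12_D (hdesc : gl_DescentStatement) :
    fgI_InfData ↥H ↥(h12_res H N).range (Additive (gl_C F))
      (Additive (gl_C ↥(h12_M H N))) where
  π := (h12_res H N).rangeRestrict
  ι := MonoidHom.toAdditive (gl_resC F (h12_M H N))
  π_surj := (h12_res H N).rangeRestrict_surjective
  ι_inj := (hdesc F (N.map H.subtype)).1
  ι_smul g b := by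
    show Additive.ofMul (gl_resC F (h12_M H N) (h12_res H N g • b.toMul)) =
      Additive.ofMul (((g : ↥H) : F ≃ₐ[ℚ] F) • gl_resC F (h12_M H N) b.toMul)
    rw [h12_resC_smul]
  ι_range a ha := by
    have h := ((hdesc F (N.map H.subtype)).2 a.toMul).1 (by
      rintro _ ⟨n, hn, rfl⟩
      have h1 : (h12_res H N).rangeRestrict n = 1 := by
        apply Subtype.ext
        exact h12_res_eq_one_of_mem H N n hn
      exact congrArg Additive.toMul (ha n h1))
    obtain ⟨b, hb⟩ := h
    exact ⟨Additive.ofMul b, congrArg Additive.ofMul hb⟩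

theorem h12_D_π (hdesc : gl_DescentStatement) (g : ↥H) :
    (((h12_D H N hdesc).π g : ↥(h12_res H N).range) : ↥(h12_M H N) ≃ₐ[ℚ] ↥(h12_M H N)) =
      h12_res H N g := rfl

theorem h12_D_ker (hdesc : gl_DescentStatement) : (h12_D H N hdesc).π.ker = N := by
  have h : (h12_D H N hdesc).π.ker = (h12_res H N).ker := by
    ext g
    rw [MonoidHom.mem_ker, MonoidHom.mem_ker]
    constructor
    · intro h
      have := congrArg Subtype.val h
      exact this
    · intro h
      exact Subtype.ext h
  rw [h, h12_res_ker]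

end inf

end

end Fermat.Agent.S55
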