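import Mathlib
import Fermat.Agent.S55.Global.Defs
import Fermat.Agent.S55.Global.H1H2Alg
import Fermat.Agent.S55.Global.H1H2Res
import Fermat.Agent.S55.Global.H1H2Inf

/-!
# S55, global side, package [H1]/[H2-LE]: `H¹(H, C_F) = 0` and `#H²(H, C_F) ∣ #H` for
`p`-groups

From the cyclic case of prime degree ([CYC-P]) and Galois descent for idele classes ([DESCENT])
we deduce, by induction along a normal subgroup of index `p`, that for every `p`-subgroup `H` of
`Aut(F/ℚ)` (`p` odd, `μ_p ⊆ F`) one has `H¹(H, C_F) = 0` and `#H²(H, C_F) ∣ #H`.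

Main exports: `h12_H1`, `h12_H2Le`, `h12_main`.
-/

set_option autoImplicit false

namespace Fermat.Agent.S55

open groupCohomology

noncomputable section

/-! ### `p`-groups fix the `p`-th roots of unity -/

section zeta

variable {F : Type} [Field F] [CharZero F]

/-- An automorphism of `p`-power order fixes the `p`-th roots of unity. -/
theorem h12_fix_zeta {p : ℕ} (hp : p.Prime) {ζ : F} (hζ : IsPrimitiveRoot ζ p)
    (τ : F ≃ₐ[ℚ] F) (k : ℕ) (hτ : τ ^ (p ^ k) = 1) : τ ζ = ζ := by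
  haveI : NeZero p := ⟨hp.ne_zero⟩
  haveI : Fact p.Prime := ⟨hp⟩
  have h1 : hζ.autToPow ℚ τ ^ (p ^ k) = 1 := by rw [← map_pow, hτ, map_one]
  have h2 : hζ.autToPow ℚ τ ^ (p - 1) = 1 := ZMod.units_pow_card_sub_one_eq_one p _
  have hcop : Nat.Coprime (p ^ k) (p - 1) := by
    apply Nat.Coprime.pow_left
    rw [Nat.Prime.coprime_iff_not_dvd hp]
    intro hdvd
    have h3 := Nat.le_of_dvd (Nat.sub_pos_of_lt hp.one_lt) hdvd
    have := hp.one_lt
    omega
  have h3 : hζ.autToPow ℚ τ = 1 := by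
    have d1 := orderOf_dvd_of_pow_eq_one h1
    have d2 := orderOf_dvd_of_pow_eq_one h2
    have d3 := Nat.dvd_gcd d1 d2
    rw [Nat.Coprime] at hcop
    rw [hcop, Nat.dvd_one, orderOf_eq_one_iff] at d3
    exact d3
  have h4 := hζ.autToPow_spec ℚ τ
  rw [h3] at h4
  have h5 : ((1 : (ZMod p)ˣ) : ZMod p).val = 1 := by
    rw [Units.val_one]
    exact ZMod.val_one p
  rw [h5, pow_one] at h4
  exact h4.symm

end zeta

/-! ### The induction step -/

section step

variable {F : Type} [Field F] [NumberField F]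

/-- The inductive statement for a subgroup `H` of `Aut(F/ℚ)`. -/
def h12_P (H : Subgroup (F ≃ₐ[ℚ] F)) : Prop :=
  fg_H1Zero H (Additive (gl_C F)) ∧
    Nat.card (fg_H2 ↥H (Additive (gl_C F))) ∣ Nat.card ↥H

/-- The trivial group. -/
theorem h12_P_of_card_one (H : Subgroup (F ≃ₐ[ℚ] F)) (h : Nat.card ↥H = 1) : h12_P H := by
  haveI : Subsingleton ↥H := (Nat.card_eq_one_iff_unique.mp h).1
  refine ⟨fun f hf => h12_triv_H1 f hf, ?_⟩
  rw [h12_triv_card_H2]
  exact one_dvd _

/-- The cyclic quotient: `H¹ = 0` and `#H² ∣ p`. -/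
theorem h12_quot (hcyc : gl_CycPStatement) (p : ℕ) (hp : p.Prime) (hp2 : p ≠ 2)
    (ζ : F) (hζ : IsPrimitiveRoot ζ p) (H : Subgroup (F ≃ₐ[ℚ] F)) (hH : IsPGroup p ↥H)
    (N : Subgroup ↥H) [N.Normal] (hN : N.index = p) :
    (∀ f : ↥(h12_res H N).range → Additive (gl_C ↥(h12_M H N)),
        IsCocycle₁ f → IsCoboundary₁ f) ∧
      Nat.card (fg_H2 ↥(h12_res H N).range (Additive (gl_C ↥(h12_M H N)))) ∣ p := by
  haveI : Fact p.Prime := ⟨hp⟩
  -- the order of the quotient
  have hcard : Nat.card ↥(h12_res H N).range = p := by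
    rw [← Subgroup.index_ker, h12_res_ker, hN]
  haveI : Finite ↥(h12_res H N).range :=
    Nat.finite_of_card_ne_zero (by rw [hcard]; exact hp.ne_zero)
  -- a generator
  haveI : Nontrivial ↥(h12_res H N).range := by
    rw [← Finite.one_lt_card_iff_nontrivial, hcard]
    exact hp.one_lt
  obtain ⟨s, hs⟩ := exists_ne (1 : ↥(h12_res H N).range)
  have hgen : ∀ g : ↥(h12_res H N).range, g ∈ Subgroup.zpowers s := by
    intro g
    rw [zpowers_eq_top_of_prime_card hcard hs]
    exact Subgroup.mem_top g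
  -- the order of the generator as an automorphism of `M`
  have hord : orderOf (s : ↥(h12_M H N) ≃ₐ[ℚ] ↥(h12_M H N)) = p := by
    rw [Subgroup.orderOf_coe]
    apply orderOf_eq_prime _ hs
    rw [← hcard]
    exact pow_card_eq_one'
  -- the root of unity lies in `M`
  have hζM : ζ ∈ h12_M H N := by
    rw [h12_mem_M_iff]
    intro n _
    obtain ⟨k, hk⟩ := hH n
    refine h12_fix_zeta hp hζ _ k ?_
    have := congrArg (fun x : ↥H => (x : F ≃ₐ[ℚ] F)) hk
    simpa using this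
  have hζ' : IsPrimitiveRoot (⟨ζ, hζM⟩ : ↥(h12_M H N)) p :=
    IsPrimitiveRoot.of_map_of_injective (f := (h12_M H N).val) (by exact hζ)
      (h12_M H N).val.injective
  obtain ⟨c0, c1⟩ := hcyc ↥(h12_M H N) p hp hp2 ⟨_, hζ'⟩
    (s : ↥(h12_M H N) ≃ₐ[ℚ] ↥(h12_M H N)) hord
  -- translate to the action of the subgroup
  set L := fgD_Log.ofGen s hgen with hL
  have hLs : L.s = s := rfl
  have hLn : L.n = p := hcard
  have hdel : herb_del (A := Additive (gl_C ↥(h12_M H N))) L.s =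
      herb_del (A := Additive (gl_C ↥(h12_M H N))) (s : ↥(h12_M H N) ≃ₐ[ℚ] ↥(h12_M H N)) := by
    refine DFunLike.ext _ _ fun a => ?_
    rfl
  have hnrm : herb_nrm (A := Additive (gl_C ↥(h12_M H N))) L.s L.n =
      herb_nrm (A := Additive (gl_C ↥(h12_M H N))) (s : ↥(h12_M H N) ≃ₐ[ℚ] ↥(h12_M H N)) p := by
    refine DFunLike.ext _ _ fun a => ?_
    rw [herb_nrm_apply, herb_nrm_apply, hLn]
    rfl
  refine ⟨h12_cyc_H1 L (by rw [hdel, hnrm]; exact c1), ?_⟩
  have h2 := h12_cyc_H2_dvd (B := Additive (gl_C ↥(h12_M H N))) L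
  rw [hdel, hnrm, c0] at h2
  exact h2

/-- The induction step. -/
theorem h12_step (hcyc : gl_CycPStatement) (hdesc : gl_DescentStatement) (p : ℕ)
    (hp : p.Prime) (hp2 : p ≠ 2) (ζ : F) (hζ : IsPrimitiveRoot ζ p)
    (H : Subgroup (F ≃ₐ[ℚ] F)) (hH : IsPGroup p ↥H)
    (N : Subgroup ↥H) [N.Normal] (hN : N.index = p)
    (IH : h12_P (N.map H.subtype)) : h12_P H := by
  obtain ⟨hQ1, hQ2⟩ := h12_quot hcyc p hp hp2 ζ hζ H hH N hN
  set D := h12_D H N hdesc with hD
  have hker : D.π.ker = N := h12_D_ker H N hdesc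
  -- transport of the induction hypothesis to the kernel
  have hIH : fg_H1Zero N (Additive (gl_C F)) ∧
      Nat.card (fg_H2 ↥N (Additive (gl_C F))) ∣ Nat.card ↥N := by
    set e := Subgroup.equivMapOfInjective N H.subtype H.subtype_injective with he
    have hact : ∀ (g : ↥N) (a : Additive (gl_C F)), e g • a = g • a := fun g a => rfl
    have hact' : ∀ (g : ↥(N.map H.subtype)) (a : Additive (gl_C F)), e.symm g • a = g • a := by
      intro g a
      rw [← hact, e.apply_symm_apply]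
    refine ⟨fun f hf => h12_H1Zero_of_equiv e hact IH.1 f hf, ?_⟩
    refine (h12_card_H2_dvd_of_equiv e.symm hact').trans (IH.2.trans ?_)
    rw [Nat.card_congr e.toEquiv]
  have h1 : fg_H1Zero D.π.ker (Additive (gl_C F)) := by
    rw [hker]
    exact hIH.1
  have h2 : Nat.card (fg_H2 ↥D.π.ker (Additive (gl_C F))) ∣ Nat.card ↥N := by
    rw [hker]
    exact hIH.2
  refine ⟨fun f hf => h12_infres1 D h1 hQ1 f hf, ?_⟩
  have h3 := fgC_card_aux D h1
  refine h3.trans ?_
  have h4 : Nat.card ↥H = p * Nat.card ↥N := by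
    rw [← hN, mul_comm]
    exact (Subgroup.card_mul_index N).symm
  rw [h4]
  exact Nat.mul_dvd_mul hQ2 h2

/-- `H¹(H, C_F) = 0` and `#H²(H, C_F) ∣ #H` for all `p`-subgroups `H`. -/
theorem h12_all (hcyc : gl_CycPStatement) (hdesc : gl_DescentStatement) (p : ℕ)
    (hp : p.Prime) (hp2 : p ≠ 2) (ζ : F) (hζ : IsPrimitiveRoot ζ p) :
    ∀ (n : ℕ) (H : Subgroup (F ≃ₐ[ℚ] F)), Nat.card ↥H = p ^ n → h12_P H := by
  haveI : Fact p.Prime := ⟨hp⟩
  intro n
  induction n with
  | zero =>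
    intro H hH
    exact h12_P_of_card_one H (by rw [hH, pow_zero])
  | succ n ih =>
    intro H hH
    have hPG : IsPGroup p ↥H := IsPGroup.of_card hH
    obtain ⟨N, hNcard⟩ := Sylow.exists_subgroup_card_pow_prime (G := ↥H) p
      (n := n) (by rw [hH]; exact pow_dvd_pow p (Nat.le_succ n))
    have hidx : N.index = p := by
      have h1 := Subgroup.card_mul_index N
      rw [hNcard, hH, pow_succ] at h1
      exact Nat.eq_of_mul_eq_mul_left (pow_pos hp.pos n) h1
    haveI : N.Normal := by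
      apply Subgroup.normal_of_index_eq_minFac_card
      rw [hidx, hH, Nat.Prime.pow_minFac hp (Nat.succ_ne_zero n)]
    have hcardN' : Nat.card ↥(N.map H.subtype) = p ^ n := by
      rw [← hNcard]
      exact (Nat.card_congr
        (Subgroup.equivMapOfInjective N H.subtype H.subtype_injective).toEquiv).symm
    exact h12_step hcyc hdesc p hp hp2 ζ hζ H hPG N hidx (ih _ hcardN')

end step

/-! ### The exports -/

/-- **[H1]** -/
theorem h12_H1 (hcyc : gl_CycPStatement) (hdesc : gl_DescentStatement) : gl_H1Statement := by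
  intro F _ _ p hp hp2 hz H hH
  obtain ⟨ζ, hζ⟩ := hz
  haveI : Fact p.Prime := ⟨hp⟩
  obtain ⟨n, hn⟩ := IsPGroup.exists_card_eq hH
  exact (h12_all hcyc hdesc p hp hp2 ζ hζ n H hn).1

/-- **[H2-LE]** -/
theorem h12_H2Le (hcyc : gl_CycPStatement) (hdesc : gl_DescentStatement) :
    gl_H2LeStatement := by
  intro F _ _ p hp hp2 hz H hH
  obtain ⟨ζ, hζ⟩ := hz
  haveI : Fact p.Prime := ⟨hp⟩
  obtain ⟨n, hn⟩ := IsPGroup.exists_card_eq hH
  have hdvd := (h12_all hcyc hdesc p hp hp2 ζ hζ n H hn).2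
  exact h12_exists_reps (Nat.card ↥H) Nat.card_pos hdvd

/-- **[H1] + [H2-LE]** from [CYC-P] and [DESCENT]. -/
theorem h12_main (hcyc : gl_CycPStatement) (hdesc : gl_DescentStatement) :
    gl_H1Statement ∧ gl_H2LeStatement :=
  ⟨h12_H1 hcyc hdesc, h12_H2Le hcyc hdesc⟩

end

end Fermat.Agent.S55
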