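/-
S55 (fifth wave), GLOBAL side, package [SEC-LOCIDX] (helper24): the semi-local index of the
`p`-th powers.  Prefix `slx_`.

For a number field `K ∋ ζ_p` and a prime `q`:
* `slx_evEquiv`   : `gl_Jq q K ≃* ∏_{v ∣ q} jcoh_fix (Stab κ_v)` (evaluation at a representative
                    embedding `κ_v` of every place);
* `slx_sum_index` : `∑_{v ∣ q} [G_q : Stab κ_v] = [K : ℚ]`;
* `slx_main`      : `sec_LocIdxStatement`, from the local index `lpx_index_fix`.
-/
import Fermat.Agent.S55.Local.PowIdxPadic
import Fermat.Agent.S55.Global.JCohSemi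
import Fermat.Agent.S55.Global.SecondDefs

set_option autoImplicit false

namespace Fermat.Agent.S55

noncomputable section

section semilocal

variable (q : ℕ) [Fact q.Prime] (K : Type) [Field K] [NumberField K]

/-- The representative embedding of a place. -/
def slx_rep (v : gl_Place q K) : K →ₐ[ℚ] PadicAlgCl q :=
  Quotient.out (s := gl_placeSetoid q K) v

theorem slx_placeOf_rep (v : gl_Place q K) : gl_placeOf q K (slx_rep q K v) = v :=
  Quotient.out_eq (s := gl_placeSetoid q K) v

theorem slx_finite_place : Finite (gl_Place q K) :=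
  Finite.of_surjective (gl_placeOf q K) Quotient.mk_surjective

/-- The abstract semi-local setting for the trivial automorphism. -/
theorem slx_hyp :
    jcoh_Hyp (gl_twist q K) (jcoh_sh q K 1) 2 (gl_placeSetoid q K) (gl_placeMap q K 1) :=
  jcoh_hyp q K 1 2 Nat.prime_two (one_pow 2)

theorem slx_placeMap_one (w : gl_Place q K) : gl_placeMap q K 1 w = w := by
  induction w using Quotient.inductionOn with
  | _ ι => rfl

/-- Every embedding is a twist of the representative of its place. -/
theorem slx_exists_twist (ι : K →ₐ[ℚ] PadicAlgCl q) :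
    ∃ γ : gl_GQq q, ι = gl_twist q K γ (slx_rep q K (gl_placeOf q K ι)) :=
  Quotient.exact (s := gl_placeSetoid q K) (slx_placeOf_rep q K (gl_placeOf q K ι))

/-- Evaluation of the semi-local ideles at the representatives of the places. -/
def slx_ev : gl_Jq q K →* ∀ v : gl_Place q K, ↥(jcoh_fix (jcoh_stab q K (slx_rep q K v))) where
  toFun f v := ⟨f.1 (slx_rep q K v), (jcoh_isEqv q K f).isInv _⟩
  map_one' := rfl
  map_mul' _ _ := rfl

theorem slx_ev_injective : Function.Injective (slx_ev q K) := by
  intro f g hfg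
  apply Subtype.ext
  funext ι
  obtain ⟨γ, hγ⟩ := slx_exists_twist q K ι
  have h1 : f.1 (slx_rep q K (gl_placeOf q K ι)) = g.1 (slx_rep q K (gl_placeOf q K ι)) :=
    congrArg Subtype.val (congrFun hfg (gl_placeOf q K ι))
  rw [hγ, f.2 γ, g.2 γ, h1]

theorem slx_ev_surjective : Function.Surjective (slx_ev q K) := by
  intro b
  have H := slx_hyp q K
  let b' : gl_Place q K → (PadicAlgCl q)ˣ := fun v => (b v : (PadicAlgCl q)ˣ)
  have hb : ∀ w : gl_Place q K, gl_placeMap q K 1 w = w →
      jcoh_Hyp.IsInv (gl_twist q K) (Quotient.out (s := gl_placeSetoid q K) w) (b' w) :=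
    fun w _ => (b w).2
  refine ⟨jcoh_mk q K (jcoh_Hyp.ext (gl_twist q K) (gl_placeSetoid q K) (gl_placeMap q K 1) b')
    (H.ext_isEqv b' hb), ?_⟩
  funext v
  apply Subtype.ext
  show jcoh_Hyp.ext (gl_twist q K) (gl_placeSetoid q K) (gl_placeMap q K 1) b'
    (slx_rep q K v) = b' v
  have h1 := H.ext_apply b' v (slx_placeMap_one q K v) (hb v (slx_placeMap_one q K v)) 1
  rw [gl_twist_one, one_smul] at h1
  exact h1

/-- **The semi-local decomposition** `J_q ≃ ∏_{v ∣ q} K_vˣ`. -/
def slx_evEquiv :
    gl_Jq q K ≃* ∀ v : gl_Place q K, ↥(jcoh_fix (jcoh_stab q K (slx_rep q K v))) :=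
  MulEquiv.ofBijective (slx_ev q K) ⟨slx_ev_injective q K, slx_ev_surjective q K⟩

/-- The action of the local Galois group on the embeddings. -/
@[reducible] def slx_action : MulAction (lcf_Gal q) (K →ₐ[ℚ] PadicAlgCl q) where
  smul := gl_twist q K
  one_smul := gl_twist_one q K
  mul_smul := gl_twist_mul q K

/-- The number of embeddings in the place `v` is the index of the stabiliser. -/
theorem slx_card_fiber (v : gl_Place q K) :
    Nat.card {ι : K →ₐ[ℚ] PadicAlgCl q // gl_placeOf q K ι = v} =
      (jcoh_stab q K (slx_rep q K v)).index := by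
  let _ := slx_action q K
  have hstab : jcoh_stab q K (slx_rep q K v) =
      MulAction.stabilizer (lcf_Gal q) (slx_rep q K v) := by
    ext g
    exact Iff.rfl
  rw [hstab, MulAction.index_stabilizer, ← Nat.card_coe_set_eq]
  refine Nat.card_congr (Equiv.subtypeEquivRight fun ι => ?_)
  rw [MulAction.mem_orbit_iff]
  constructor
  · intro h
    have h1 : gl_placeOf q K (slx_rep q K v) = gl_placeOf q K ι := by
      rw [slx_placeOf_rep, h]
    obtain ⟨γ, hγ⟩ := Quotient.exact (s := gl_placeSetoid q K) h1
    exact ⟨γ, hγ.symm⟩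
  · rintro ⟨γ, rfl⟩
    have h1 : gl_placeOf q K (gl_twist q K γ (slx_rep q K v)) =
        gl_placeOf q K (slx_rep q K v) :=
      (Quotient.sound (s := gl_placeSetoid q K) ⟨γ, rfl⟩).symm
    exact h1.trans (slx_placeOf_rep q K v)

/-- **The degree formula** `∑_{v ∣ q} [K_v : ℚ_q] = [K : ℚ]` (in terms of the indices of the
stabilisers). -/
theorem slx_sum_index [Fintype (gl_Place q K)] :
    ∑ v : gl_Place q K, (jcoh_stab q K (slx_rep q K v)).index = Module.finrank ℚ K := by
  rw [← AlgHom.card ℚ K (PadicAlgCl q), ← Nat.card_eq_fintype_card,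
    Nat.card_congr (Equiv.sigmaFiberEquiv (gl_placeOf q K)).symm, Nat.card_sigma]
  exact Finset.sum_congr rfl fun v _ => (slx_card_fiber q K v).symm

end semilocal

/-- **[SEC-LOCIDX]**: the semi-local index of the `p`-th powers. -/
theorem slx_main : sec_LocIdxStatement := by
  intro K _ _ p hp _ hζ q _
  obtain ⟨ζ, hζ⟩ := hζ
  have := slx_finite_place q K
  let _ : Fintype (gl_Place q K) := Fintype.ofFinite _
  rw [lpx_index_pow_congr (slx_evEquiv q K) p, lpx_index_pow_pi p]
  have h1 : ∀ v : gl_Place q K,
      (powMonoidHom p : ↥(jcoh_fix (jcoh_stab q K (slx_rep q K v))) →* _).range.index =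
        p ^ (2 + if q = p then (jcoh_stab q K (slx_rep q K v)).index else 0) := fun v =>
    lpx_index_fix _ (jcoh_stab_isOpen q K _) p hp (slx_rep q K v ζ)
      (hζ.map_of_injective (slx_rep q K v).toRingHom.injective)
      (fun g hg => by
        have h2 : gl_twist q K g (slx_rep q K v) = slx_rep q K v := hg
        exact congrArg (fun f : K →ₐ[ℚ] PadicAlgCl q => f ζ) h2)
  rw [Finset.prod_congr rfl fun v _ => h1 v, Finset.prod_pow_eq_pow_sum, Finset.sum_add_distrib,
    Finset.sum_const, Finset.card_univ, smul_eq_mul, Nat.card_eq_fintype_card, mul_comm]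
  congr 2
  by_cases h : q = p
  · simp only [if_pos h]
    exact slx_sum_index q K
  · simp only [if_neg h]
    exact Finset.sum_const_zero

end

end Fermat.Agent.S55
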