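/-
S55 (fifth wave), GLOBAL side, package [SECOND] (helper17): the ASSEMBLY.

`sec_second_of` : the second inequality `gl_SecondStatement` from
  [IDL-CLASS], [RAM-FIN], [DESCENT]  (all on main: `icl_main`, `ramf_main`, `gdsc_main`)
and the five leaves of `Global/SecondDefs.lean`
  [SEC-LOCIDX], [SEC-SUNIT], [SEC-UNR], [SEC-AUX], [SEC-KEY].

With `K = F^σ`:  `C_F^σ = res C_K` (descent), `J_K = Kˣ J_{K,S}` for `S` large, the auxiliary
places `T`, `E = E(S,T) ⊆ N J_F` (`Global/SecondNorm.lean`), `[J_K : Kˣ E] = p`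
(`Global/SecondIndex.lean`); the surjection `J_K → C_F^σ / N C_F` kills `Kˣ E`.
-/
import Mathlib
import Fermat.Agent.S55.Global.SecondDefs
import Fermat.Agent.S55.Global.SecondNorm
import Fermat.Agent.S55.Global.SecondIndex

set_option autoImplicit false
set_option linter.style.haveILetI false

namespace Fermat.Agent.S55

open IntermediateField

attribute [local instance] sec_fact

noncomputable section

section prep

variable (F : Type) [Field F] [NumberField F] (σ : F ≃ₐ[ℚ] F)

/-- An automorphism of order `p` fixes the `p`-th roots of unity. -/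
theorem sec_fix_zeta {p : ℕ} (hp : p.Prime) {ζ : F} (hζ : IsPrimitiveRoot ζ p)
    (hσ : σ ^ p = 1) : σ ζ = ζ := by
  haveI : NeZero p := ⟨hp.ne_zero⟩
  haveI : Fact p.Prime := ⟨hp⟩
  have h1 : hζ.autToPow ℚ σ ^ p = 1 := by rw [← map_pow, hσ, map_one]
  have h2 : hζ.autToPow ℚ σ ^ (p - 1) = 1 := ZMod.units_pow_card_sub_one_eq_one p _
  have hcop : Nat.Coprime p (p - 1) := by
    rw [Nat.Prime.coprime_iff_not_dvd hp]
    intro hdvd
    have h3 := Nat.le_of_dvd (Nat.sub_pos_of_lt hp.one_lt) hdvd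
    have := hp.one_lt
    omega
  have h3 : hζ.autToPow ℚ σ = 1 := by
    have d1 := orderOf_dvd_of_pow_eq_one h1
    have d2 := orderOf_dvd_of_pow_eq_one h2
    have d3 := Nat.dvd_gcd d1 d2
    rw [Nat.Coprime] at hcop
    rw [hcop, Nat.dvd_one, orderOf_eq_one_iff] at d3
    exact d3
  have h4 := hζ.autToPow_spec ℚ σ
  rw [h3] at h4
  have h5 : ((1 : (ZMod p)ˣ) : ZMod p).val = 1 := by
    rw [Units.val_one]
    exact ZMod.val_one p
  rw [h5, pow_one] at h4
  exact h4.symm

/-- The fixed field of `σ` of order `p` contains the `p`-th roots of unity. -/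
theorem sec_zeta_fixed {p : ℕ} (hp : p.Prime) (hσ : orderOf σ = p)
    (hζ : ∃ ζ : F, IsPrimitiveRoot ζ p) :
    ∃ ζ : ↥(fixedField (Subgroup.zpowers σ)), IsPrimitiveRoot ζ p := by
  obtain ⟨ζ, hζ⟩ := hζ
  have hσp : σ ^ p = 1 := by rw [← hσ]; exact pow_orderOf_eq_one σ
  have h1 : σ ζ = ζ := sec_fix_zeta F σ hp hζ hσp
  have hmem : ζ ∈ fixedField (Subgroup.zpowers σ) := by
    rw [IntermediateField.mem_fixedField_iff]
    intro τ hτ
    obtain ⟨k, rfl⟩ := Subgroup.mem_zpowers_iff.1 hτ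
    have h2 : ∀ n : ℕ, (σ ^ n) ζ = ζ := by
      intro n
      induction n with
      | zero => rfl
      | succ n ih =>
        rw [pow_succ]
        show (σ ^ n) (σ ζ) = ζ
        rw [h1, ih]
    have h3 : ∀ n : ℕ, (σ ^ n)⁻¹ ζ = ζ := by
      intro n
      have := h2 n
      conv_lhs => rw [← this]
      exact (σ ^ n).symm_apply_apply ζ
    rcases Int.eq_nat_or_neg k with ⟨n, rfl | rfl⟩
    · rw [zpow_natCast]; exact h2 n
    · rw [zpow_neg, zpow_natCast]; exact h3 n
  refine ⟨⟨ζ, hmem⟩, ?_⟩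
  exact IsPrimitiveRoot.of_map_of_injective (f := (fixedField (Subgroup.zpowers σ)).val)
    (by exact hζ) (fixedField (Subgroup.zpowers σ)).val.injective

/-- A prime which ramifies in the fixed field ramifies in `F`. -/
theorem sec_ram_fixed : gl_ram ↥(fixedField (Subgroup.zpowers σ)) ⊆ gl_ram F := by
  intro q hq hF
  apply hq
  intro κ x hx
  obtain ⟨ι, hι⟩ := gdsc_exists_extend F (q : ℕ) (fixedField (Subgroup.zpowers σ)) κ
  have h1 : κ x = ι (x : F) := by
    rw [← hι]; rfl
  rw [h1]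
  exact hF ι (x : F) (fun h => hx (Subtype.ext h))

end prep

/-! ### The map `J_K → C_F` -/

section final

variable (F : Type) [Field F] [NumberField F] (σ : F ≃ₐ[ℚ] F)

/-- The map `J_K → C_F`, `K = F^σ`. -/
def sec_Phi : gl_J ↥(fixedField (Subgroup.zpowers σ)) →* gl_C F :=
  (QuotientGroup.mk' (gl_P F)).comp (gl_resJ F (fixedField (Subgroup.zpowers σ)))

theorem sec_Phi_apply (x : gl_J ↥(fixedField (Subgroup.zpowers σ))) :
    sec_Phi F σ x = QuotientGroup.mk (gl_resJ F (fixedField (Subgroup.zpowers σ)) x) := rfl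

/-- The image of `J_K` in `C_F` consists of the `σ`-invariant classes (from [DESCENT]). -/
theorem sec_mem_ker_del_iff (hDesc : gl_DescentStatement) (c : Additive (gl_C F)) :
    c ∈ (herb_del (A := Additive (gl_C F)) σ).ker ↔
      ∃ x : gl_J ↥(fixedField (Subgroup.zpowers σ)), Additive.ofMul (sec_Phi F σ x) = c := by
  rw [herb_mem_ker_del_iff]
  constructor
  · intro h
    have h1 : σ • (Additive.toMul c : gl_C F) = Additive.toMul c := by
      have := congrArg Additive.toMul h
      exact this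
    have h2 : ∀ τ ∈ Subgroup.zpowers σ, τ • (Additive.toMul c : gl_C F) = Additive.toMul c := by
      have hle : Subgroup.zpowers σ ≤ MulAction.stabilizer (F ≃ₐ[ℚ] F) (Additive.toMul c) := by
        rw [Subgroup.zpowers_le]
        exact h1
      intro τ hτ
      exact hle hτ
    obtain ⟨y, hy⟩ := ((hDesc F (Subgroup.zpowers σ)).2 (Additive.toMul c)).1 h2
    obtain ⟨x, rfl⟩ := QuotientGroup.mk_surjective y
    refine ⟨x, ?_⟩
    rw [sec_Phi_apply, ← gl_resC_mk, hy]
    rfl
  · rintro ⟨x, rfl⟩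
    show Additive.ofMul (σ • sec_Phi F σ x) = Additive.ofMul (sec_Phi F σ x)
    rw [sec_Phi_apply, gl_smul_mk,
      gdsc_smul_resJ F (Subgroup.zpowers σ) σ (Subgroup.mem_zpowers σ) x]

/-- The class of a norm of ideles is a norm of classes. -/
theorem sec_mk_norm (p : ℕ) (w : gl_J F) :
    Additive.ofMul (QuotientGroup.mk (sec_normJ F σ p w) : gl_C F) =
      (herb_nrm (A := Additive (gl_C F)) σ p)
        (Additive.ofMul (QuotientGroup.mk w : gl_C F)) := by
  rw [herb_nrm_apply, sec_normJ_def]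
  have h1 : (QuotientGroup.mk (∏ i ∈ Finset.range p, σ ^ i • w) : gl_C F) =
      ∏ i ∈ Finset.range p, (QuotientGroup.mk (σ ^ i • w) : gl_C F) :=
    map_prod (QuotientGroup.mk' (gl_P F)) _ _
  rw [h1, ofMul_prod]
  rfl

/-- The subgroup of the ideles of `K` whose class in `C_F` is a norm. -/
def sec_M (p : ℕ) : Subgroup (gl_J ↥(fixedField (Subgroup.zpowers σ))) where
  carrier := {x | Additive.ofMul (sec_Phi F σ x) ∈
    (herb_nrm (A := Additive (gl_C F)) σ p).range}
  one_mem' := by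
    show Additive.ofMul (sec_Phi F σ 1) ∈ (herb_nrm (A := Additive (gl_C F)) σ p).range
    rw [map_one]
    exact AddSubgroup.zero_mem _
  mul_mem' := by
    intro x y hx hy
    show Additive.ofMul (sec_Phi F σ (x * y)) ∈ (herb_nrm (A := Additive (gl_C F)) σ p).range
    rw [map_mul]
    exact AddSubgroup.add_mem _ hx hy
  inv_mem' := by
    intro x hx
    show Additive.ofMul (sec_Phi F σ x⁻¹) ∈ (herb_nrm (A := Additive (gl_C F)) σ p).range
    rw [map_inv]
    exact AddSubgroup.neg_mem _ hx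

theorem sec_mem_M_iff (p : ℕ) (x : gl_J ↥(fixedField (Subgroup.zpowers σ))) :
    x ∈ sec_M F σ p ↔ Additive.ofMul (sec_Phi F σ x) ∈
      (herb_nrm (A := Additive (gl_C F)) σ p).range := Iff.rfl

/-- The principal ideles of `K` have trivial class in `C_F`. -/
theorem sec_P_le_M (p : ℕ) : gl_P ↥(fixedField (Subgroup.zpowers σ)) ≤ sec_M F σ p := by
  intro x hx
  rw [sec_mem_M_iff, sec_Phi_apply]
  have h1 : (QuotientGroup.mk (gl_resJ F (fixedField (Subgroup.zpowers σ)) x) : gl_C F) = 1 :=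
    (QuotientGroup.eq_one_iff _).2 (gl_resJ_mem_P F _ x hx)
  rw [h1]
  exact AddSubgroup.zero_mem _

/-- The index `[C_F^σ : N C_F]` is the index of `sec_M` in `J_K` (from [DESCENT]). -/
theorem sec_herb_idx_eq (hDesc : gl_DescentStatement) (p : ℕ) :
    herb_idx (A := Additive (gl_C F)) (herb_del σ) (herb_nrm σ p) = (sec_M F σ p).index := by
  set Φ : Additive (gl_J ↥(fixedField (Subgroup.zpowers σ))) →+ Additive (gl_C F) :=
    MonoidHom.toAdditive (sec_Phi F σ) with hΦ
  have hrange : Φ.range =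
      (herb_del (A := Additive (gl_C F)) σ).ker := by
    ext c
    rw [sec_mem_ker_del_iff F σ hDesc c]
    constructor
    · rintro ⟨x, rfl⟩
      exact ⟨Additive.toMul x, rfl⟩
    · rintro ⟨x, rfl⟩
      exact ⟨Additive.ofMul x, rfl⟩
  have hcomap : (herb_nrm (A := Additive (gl_C F)) σ p).range.comap Φ =
      Subgroup.toAddSubgroup (sec_M F σ p) := by
    ext x
    rfl
  unfold herb_idx
  rw [← hrange, ← AddSubgroup.index_comap, hcomap, Subgroup.index_toAddSubgroup]

end final

/-! ### The second inequality -/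

/-- **[SECOND]** from its leaves: the second inequality in the Kummer case. -/
theorem sec_second_of (hClass : gl_ClassStatement) (hRam : gl_RamFiniteStatement)
    (hDesc : gl_DescentStatement) (hLoc : sec_LocIdxStatement) (hUnit : sec_SUnitStatement)
    (hUnr : sec_UnrNormStatement) (hAux : sec_AuxStatement) (hKey : sec_KeyStatement) :
    gl_SecondStatement := by
  intro F _ _ p hp hp2 hζ σ hσ
  classical
  obtain ⟨T₀, hT₀⟩ := hClass ↥(fixedField (Subgroup.zpowers σ))
  have hram : (gl_ram F).Finite := hRam F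
  set S : Finset Nat.Primes := T₀ ∪ hram.toFinset ∪ {⟨p, hp⟩} with hS
  have hS1 : gl_P ↥(fixedField (Subgroup.zpowers σ)) ⊔
      gl_JT ↥(fixedField (Subgroup.zpowers σ)) (S : Set Nat.Primes) = ⊤ :=
    hT₀ S (by
      intro q hq
      rw [hS]
      exact Finset.mem_union_left _ (Finset.mem_union_left _ hq))
  have hS2 : gl_ram F ⊆ (S : Set Nat.Primes) := by
    intro q hq
    rw [hS, Finset.mem_coe]
    exact Finset.mem_union_left _ (Finset.mem_union_right _ (hram.mem_toFinset.2 hq))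
  have hS3 : (⟨p, hp⟩ : Nat.Primes) ∈ S := by
    rw [hS]
    exact Finset.mem_union_right _ (Finset.mem_singleton_self _)
  have hζK := sec_zeta_fixed F σ hp hσ hζ
  obtain ⟨T, κ, hdisj, hcard, hsplit, honto⟩ := hAux F p hp hp2 hζ σ hσ S hS2 hS3 hS1
  have hkey := hKey ↥(fixedField (Subgroup.zpowers σ)) p hp hp2 hζK S T κ
    ((sec_ram_fixed F σ).trans hS2) hS3 hS1 hdisj honto
  have hidx := sec_index ↥(fixedField (Subgroup.zpowers σ)) S T κ p hLoc hUnit hp hp2 hζK hS3
    hS1 hdisj hcard hkey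
  have hE : sec_E ↥(fixedField (Subgroup.zpowers σ)) S T κ p ≤ sec_M F σ p := by
    intro x hx
    obtain ⟨w, hw⟩ := sec_norm_of F σ hUnr p hp hp2 hσ S T κ hS2 hsplit x hx
    rw [sec_mem_M_iff, sec_Phi_apply, ← hw, sec_mk_norm]
    exact ⟨_, rfl⟩
  have hle : gl_P ↥(fixedField (Subgroup.zpowers σ)) ⊔
      sec_E ↥(fixedField (Subgroup.zpowers σ)) S T κ p ≤ sec_M F σ p :=
    sup_le (sec_P_le_M F σ p) hE
  have hdvd := Subgroup.index_dvd_of_le hle
  rw [hidx] at hdvd
  rw [sec_herb_idx_eq F σ hDesc p]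
  exact hdvd

end

end Fermat.Agent.S55
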