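/-
S55 (fifth wave), GLOBAL side, package [SECOND] (helper17): the assembly with the inputs which
are on main plugged in ([IDL-CLASS] `icl_main`, [RAM-FIN] `ramf_main`, [DESCENT] `gdsc_main`).
The five leaves of `Global/SecondDefs.lean` remain hypotheses.
-/
import Mathlib
import Fermat.Agent.S55.Global.SecondOf
import Fermat.Agent.S55.Global.IdeleClass
import Fermat.Agent.S55.Global.RamFin

set_option autoImplicit false

namespace Fermat.Agent.S55

/-- **[SECOND]** from the five leaves of `Global/SecondDefs.lean`. -/
theorem sec_second_fin (hLoc : sec_LocIdxStatement) (hUnit : sec_SUnitStatement)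
    (hUnr : sec_UnrNormStatement) (hAux : sec_AuxStatement) (hKey : sec_KeyStatement) :
    gl_SecondStatement :=
  sec_second_of icl_main ramf_main gdsc_main hLoc hUnit hUnr hAux hKey

end Fermat.Agent.S55
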