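/-
S55, GLOBAL side, package [SECOND] (owner: helper17): the FINAL WIRING.
All five leaves of Global/SecondDefs.lean are on main, hypothesis-free:
`slx_main` (helper24), `ssu_main` (helper18), `secu_main` (helper21), `saux_main` (helper15),
`skey_fin` (helper4).  Hence the second inequality, [CYC-P], [H1], [H2-LE] and [HASSE] at finite
level hold without hypotheses.
-/
import Fermat.Agent.S55.Global.SecondFin
import Fermat.Agent.S55.Global.SecLocIdx
import Fermat.Agent.S55.Global.SecSUnit
import Fermat.Agent.S55.Global.SecUnr
import Fermat.Agent.S55.Global.SecAux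
import Fermat.Agent.S55.Global.SecKeyFin
import Fermat.Agent.S55.Global.CycP
import Fermat.Agent.S55.Global.UnitHerbFirst
import Fermat.Agent.S55.Global.H1H2
import Fermat.Agent.S55.Global.GalDescent
import Fermat.Agent.S55.Global.Hasse

set_option autoImplicit false

namespace Fermat.Agent.S55

/-- **[SECOND]** the second inequality, hypothesis-free. -/
theorem sec_main : gl_SecondStatement :=
  sec_second_fin slx_main ssu_main secu_main (saux_main ssu_main) skey_fin

/-- **[CYC-P]** (finite level), hypothesis-free. -/
theorem sec_cycP : gl_CycPStatement := gl_cycP_of uherb_first sec_main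

/-- **[H1]** (finite level), hypothesis-free. -/
theorem sec_H1 : gl_H1Statement := h12_H1 sec_cycP gdsc_main

/-- **[H2-LE]** (finite level), hypothesis-free. -/
theorem sec_H2Le : gl_H2LeStatement := h12_H2Le sec_cycP gdsc_main

/-- **[HASSE]** (finite level), hypothesis-free. -/
theorem sec_hasse : gl_HasseStatement := hss_main sec_H1

end Fermat.Agent.S55
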