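/-
S55 (fifth wave), GLOBAL side (helper26): THE WIRING OF THE GLOBAL K-TARGETS, kept current.

One theorem per target of `w55_kappa` (`Wire55.lean`); every leaf that is on main is plugged in
(directly, leaf by leaf), the remaining OPEN leaves are the hypotheses.

  [AK-RECIP]   `wg_AkRecip  : ak_RecipStatement`                       (CLOSED)
  [K-REC]      `wg_RecQ     : kl_RecQStatement`                        (CLOSED)
  [K-SHA-SURJ] `wg_ShaSurj  : kl_ShaSurjStatement`                     (CLOSED)
  [K-H2]       `wg_H2       : ak_ExiStatement → kl_H2Statement`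
  [K-H3]       `wg_H3       : ak_H3FStatement → ak_ExiStatement → kl_H3Statement`
  [K-EX]       `wg_Ex       : kex_ExLargeStatement → kl_ExStatement`
  [K-SHA-INJ]  `wg_ShaInj   : kl_H3Statement → ksha_ArtPerfStatement → kl_ShaInjStatement`

Auxiliary closed forms: `wg_recip : gl_RecipStatement`, `wg_akHasse : ak_HasseStatement`,
`wg_recK : kex_RecKStatement`, `wg_cap2`, `wg_e2inj`, `wg_kshaHasse`, `wg_formula`, `wg_kum`,
`wg_same`, `wg_yfin : kex_YFinStatement`, `wg_artSurj : ksha_ArtSurjStatement`.
-/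
import Fermat.Agent.S55.Global.SecondMain
import Fermat.Agent.S55.Global.RecCycMain
import Fermat.Agent.S55.Global.RecipFin
import Fermat.Agent.S55.Global.FinLevelKRecip
import Fermat.Agent.S55.Global.AkHasse
import Fermat.Agent.S55.Global.AkConj
import Fermat.Agent.S55.Global.KRec
import Fermat.Agent.S55.Global.ECohH2
import Fermat.Agent.S55.Global.ECohH3
import Fermat.Agent.S55.Global.ECohCap2
import Fermat.Agent.S55.Global.ECohE3
import Fermat.Agent.S55.Global.EcoAbsH2
import Fermat.Agent.S55.Global.EcoAbsH3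
import Fermat.Agent.S55.Global.EcoEDiv
import Fermat.Agent.S55.Global.EcoE2Inj
import Fermat.Agent.S55.Global.EcoE2Surj
import Fermat.Agent.S55.Global.EcoCap1Fin
import Fermat.Agent.S55.Global.EcoKum
import Fermat.Agent.S55.Global.EcoTransfer
import Fermat.Agent.S55.Global.EcoObInv
import Fermat.Agent.S55.Global.EcoLocOb
import Fermat.Agent.S55.Global.EcoSup
import Fermat.Agent.S55.Global.EcoFin
import Fermat.Agent.S55.Global.EcoReps
import Fermat.Agent.S55.Global.EcoOrd
import Fermat.Agent.S55.Global.EcoGen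
import Fermat.Agent.S55.Global.EcoShap
import Fermat.Agent.S55.Local.LocMup
import Fermat.Agent.S55.Global.KShaInj
import Fermat.Agent.S55.Global.KShaSurj
import Fermat.Agent.S55.Global.KShaFormula
import Fermat.Agent.S55.Global.KShaKum
import Fermat.Agent.S55.Global.KShaKumFieldFin
import Fermat.Agent.S55.Global.KShaAdaptFin
import Fermat.Agent.S55.Global.KShaHasse
import Fermat.Agent.S55.Global.KShaSame
import Fermat.Agent.S55.Global.KShaLocU
import Fermat.Agent.S55.Global.KShaPhi
import Fermat.Agent.S55.Global.KShaPTors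
import Fermat.Agent.S55.Global.KShaExiFin
import Fermat.Agent.S55.Global.KShaArtSurj
import Fermat.Agent.S55.Global.KExRec
import Fermat.Agent.S55.Global.KExYFin
import Fermat.Agent.S55.Global.KExVFin
import Fermat.Agent.S55.Global.KExMainFin

set_option autoImplicit false

namespace Fermat.Agent.S55

/-! ### Reciprocity and the Hasse principle -/

/-- **[RECIP]** the reciprocity law at finite level, hypothesis-free. -/
theorem wg_recip : gl_RecipStatement :=
  rof_fin' rca_fin sec_H1

/-- **[AK-RECIP]** the reciprocity law at the absolute level, hypothesis-free. -/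
theorem wg_AkRecip : ak_RecipStatement :=
  flkr_main wg_recip

/-- **[AK-HASSE]** the Hasse principle at the absolute level, hypothesis-free. -/
theorem wg_akHasse : ak_HasseStatement :=
  akh_main sec_hasse

/-- **[K-REC]** hypothesis-free. -/
theorem wg_RecQ : kl_RecQStatement :=
  krec_main wg_AkRecip

/-- **[KEX-REC]** hypothesis-free. -/
theorem wg_recK : kex_RecKStatement :=
  kxr_main wg_AkRecip

/-! ### [E-COH]: [K-H2], [K-H3] -/

/-- **[E-CAP2]** hypothesis-free. -/
theorem wg_cap2 : eco_Cap2Statement :=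
  ec_cap2_main eord_main elo_main eshp_main ecln_fin ekum_main

/-- **[E2-INJ]** hypothesis-free. -/
theorem wg_e2inj : eco_E2InjStatement :=
  e2i_main wg_akHasse (ecap1_of_kum ekum_main)

/-- **[E2-SURJ]** from [AK-EXI]. -/
theorem wg_e2surj (hExi : ak_ExiStatement) : eco_E2SurjStatement :=
  e2s_main hExi wg_cap2

/-- **[E-DIV]** from [AK-EXI]. -/
theorem wg_ediv (hExi : ak_ExiStatement) : eco_EDivStatement :=
  ediv_main wg_AkRecip (wg_e2surj hExi) wg_e2inj

/-- **[E3]** from [AK-H3F], [AK-EXI]. -/
theorem wg_e3 (hH3F : ak_H3FStatement) (hExi : ak_ExiStatement) : eco_E3Statement :=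
  ec_e3_main hH3F hExi eord_main efin_main erep_main esup_main eoi_main egen_main eshp_main
    ecln_fin ekum_main

/-- **[AK-H2]** from [AK-EXI]. -/
theorem wg_absH2 (hExi : ak_ExiStatement) : eco_AbsH2Statement :=
  eah_h2 (wg_e2surj hExi) wg_e2inj ekum_main akc_main

/-- **[AK-H3]** from [AK-H3F], [AK-EXI]. -/
theorem wg_absH3 (hH3F : ak_H3FStatement) (hExi : ak_ExiStatement) : eco_AbsH3Statement :=
  eah_h3 (wg_e3 hH3F hExi) (wg_ediv hExi) ekum_main

/-- **[K-H2]** from the open leaf [AK-EXI]. -/
theorem wg_H2 (hExi : ak_ExiStatement) : kl_H2Statement :=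
  ec_H2_of (wg_absH2 hExi) lmup_main

/-- **[K-H3]** from the open leaves [AK-H3F], [AK-EXI]. -/
theorem wg_H3 (hH3F : ak_H3FStatement) (hExi : ak_ExiStatement) : kl_H3Statement :=
  ec_H3_of (wg_absH3 hH3F hExi) etr_main

/-! ### [K-EX] -/

/-- **[K-EX]** from the open assembly [KEX-LARGE-OF]. -/
theorem wg_Ex (hL : kex_ExLargeStatement) : kl_ExStatement :=
  kxm_fin hL

/-! ### [K-SHA-INJ], [K-SHA-SURJ] -/

/-- **[KSHA-HASSE]** hypothesis-free. -/
theorem wg_kshaHasse : ksha_HasseStatement :=
  khs_main wg_akHasse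

/-- **[KSHA-FORMULA]** hypothesis-free. -/
theorem wg_formula : ksha_FormulaStatement :=
  ksha_formula_of wg_AkRecip (klu_main ksha_phi_main) ksad_places_fin

/-- **[KSHA-KUM]** hypothesis-free. -/
theorem wg_kum : ksha_KumStatement :=
  ksha_kum_of ksad_kumField_fin

/-- **[KSHA-SAME]** hypothesis-free. -/
theorem wg_same : ksha_SameStatement :=
  ksm_main ksad_ord_fin

/-- **[KEX-YFIN]** hypothesis-free. -/
theorem wg_yfin : kex_YFinStatement :=
  kxy_main kxvf_main

/-- **[KSHA-ARTSURJ]** hypothesis-free. -/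
theorem wg_artSurj : ksha_ArtSurjStatement :=
  ksha_as_of wg_yfin

/-- **[K-SHA-INJ]** from [K-H3] and the open leaf [KSHA-ARTPERF]. -/
theorem wg_ShaInj (hH3 : kl_H3Statement) (hArt : ksha_ArtPerfStatement) : kl_ShaInjStatement :=
  ksha_inj_of hH3 wg_kshaHasse wg_formula wg_kum hArt ksad_places_fin ksad_ord_fin wg_same

/-- **[K-SHA-SURJ]** hypothesis-free. -/
theorem wg_ShaSurj : kl_ShaSurjStatement :=
  ksha_surj_of wg_artSurj kxi_fin wg_formula kpt_main

end Fermat.Agent.S55
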