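/-
S55 (fifth wave), GLOBAL side, package [AK-CYCP] (helper17), part 1: ABSOLUTE HILBERT 90.
Prefix `akp_`.  Mathlib only.

`Ω/k` any field extension, `U` a subgroup of `Aut(Ω/k)`, `E ⊆ Ω` an intermediate field, finite
over `k`, `c : U → Ω` a multiplicative 1-cocycle (`c (h g) = c h * h (c g)`) which is constant
modulo `Gal(Ω/E)` and with `c 1 ≠ 0`:
    `akp_h90 : ∃ β ≠ 0, ∀ h ∈ U, h β = c h * β`.
(Poincaré series over the embeddings of `E`, as in helper5's local `lh90_main`; NO normality, NO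
Galois hypothesis, NO values-in-`E` hypothesis is needed.)

`akp_kummer`: for a character `y : U → ZMod p`, constant modulo `Gal(Ω/E)`, and `ζ ∈ Ω` with
`ζ ^ p = 1` fixed by `U`: `∃ β ≠ 0, ∀ h ∈ U, h β = ζ ^ (y h).val * β`  (the KUMMER GENERATOR).
-/
import Mathlib

set_option autoImplicit false

noncomputable section

namespace Fermat.Agent.S55

variable {k Ω : Type*} [Field k] [Field Ω] [Algebra k Ω]

/-- The restriction of an automorphism of `Ω` to an intermediate field, as an embedding. -/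
def akp_res (E : IntermediateField k Ω) (g : Ω ≃ₐ[k] Ω) : ↥E →ₐ[k] Ω :=
  (g : Ω →ₐ[k] Ω).comp E.val

@[simp] theorem akp_res_apply (E : IntermediateField k Ω) (g : Ω ≃ₐ[k] Ω) (x : ↥E) :
    akp_res E g x = g (x : Ω) := rfl

theorem akp_res_mul (E : IntermediateField k Ω) (h g : Ω ≃ₐ[k] Ω) :
    akp_res E (h * g) = (h : Ω →ₐ[k] Ω).comp (akp_res E g) := by
  ext x
  rfl

/-- Two automorphisms with the same restriction to `E` differ by an element of `Gal(Ω/E)`. -/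
theorem akp_mem_fixingSubgroup {E : IntermediateField k Ω} {g g' : Ω ≃ₐ[k] Ω}
    (h : akp_res E g = akp_res E g') : g⁻¹ * g' ∈ E.fixingSubgroup := by
  rw [IntermediateField.mem_fixingSubgroup_iff]
  intro x hx
  have h1 : g x = g' x := DFunLike.congr_fun h ⟨x, hx⟩
  show g⁻¹ (g' x) = x
  rw [← h1]
  exact g.symm_apply_apply x

/-- A cochain which is constant modulo `Gal(Ω/E)` depends only on the restriction to `E`. -/
theorem akp_eq_of_res_eq {X : Type*} {U : Subgroup (Ω ≃ₐ[k] Ω)} {E : IntermediateField k Ω}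
    {c : ↥U → X}
    (hsm : ∀ g s : ↥U, (s : Ω ≃ₐ[k] Ω) ∈ E.fixingSubgroup → c (g * s) = c g) {g g' : ↥U}
    (h : akp_res E (g : Ω ≃ₐ[k] Ω) = akp_res E (g' : Ω ≃ₐ[k] Ω)) : c g = c g' := by
  have h1 := hsm g (g⁻¹ * g') (akp_mem_fixingSubgroup h)
  rw [mul_inv_cancel_left] at h1
  exact h1.symm

/-- The weight of an embedding of `E`: `c g` if it is the restriction of `g ∈ U`, else `0`. -/
def akp_w (U : Subgroup (Ω ≃ₐ[k] Ω)) (E : IntermediateField k Ω) (c : ↥U → Ω)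
    (σ : ↥E →ₐ[k] Ω) : Ω :=
  open Classical in
  if h : ∃ g : ↥U, akp_res E (g : Ω ≃ₐ[k] Ω) = σ then c h.choose else 0

theorem akp_w_res {U : Subgroup (Ω ≃ₐ[k] Ω)} {E : IntermediateField k Ω} {c : ↥U → Ω}
    (hsm : ∀ g s : ↥U, (s : Ω ≃ₐ[k] Ω) ∈ E.fixingSubgroup → c (g * s) = c g) (g : ↥U) :
    akp_w U E c (akp_res E (g : Ω ≃ₐ[k] Ω)) = c g := by
  have hex : ∃ g' : ↥U, akp_res E (g' : Ω ≃ₐ[k] Ω) = akp_res E (g : Ω ≃ₐ[k] Ω) := ⟨g, rfl⟩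
  rw [akp_w, dif_pos hex]
  exact akp_eq_of_res_eq hsm hex.choose_spec

theorem akp_w_of_not {U : Subgroup (Ω ≃ₐ[k] Ω)} {E : IntermediateField k Ω} {c : ↥U → Ω}
    {σ : ↥E →ₐ[k] Ω} (h : ¬ ∃ g : ↥U, akp_res E (g : Ω ≃ₐ[k] Ω) = σ) : akp_w U E c σ = 0 := by
  rw [akp_w, dif_neg h]

/-- The transformation rule of the weights. -/
theorem akp_w_comp {U : Subgroup (Ω ≃ₐ[k] Ω)} {E : IntermediateField k Ω} {c : ↥U → Ω}
    (hc : ∀ h g : ↥U, c (h * g) = c h * (h : Ω ≃ₐ[k] Ω) (c g))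
    (hsm : ∀ g s : ↥U, (s : Ω ≃ₐ[k] Ω) ∈ E.fixingSubgroup → c (g * s) = c g) (h : ↥U)
    (σ : ↥E →ₐ[k] Ω) :
    akp_w U E c (((h : Ω ≃ₐ[k] Ω) : Ω →ₐ[k] Ω).comp σ) =
      c h * (h : Ω ≃ₐ[k] Ω) (akp_w U E c σ) := by
  by_cases hσ : ∃ g : ↥U, akp_res E (g : Ω ≃ₐ[k] Ω) = σ
  · obtain ⟨g, rfl⟩ := hσ
    have h1 : ((h : Ω ≃ₐ[k] Ω) : Ω →ₐ[k] Ω).comp (akp_res E (g : Ω ≃ₐ[k] Ω)) =
        akp_res E ((h * g : ↥U) : Ω ≃ₐ[k] Ω) := by
      rw [Subgroup.coe_mul, akp_res_mul]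
    rw [h1, akp_w_res hsm, akp_w_res hsm, hc h g]
  · have hσ' : ¬ ∃ g : ↥U, akp_res E (g : Ω ≃ₐ[k] Ω) =
        ((h : Ω ≃ₐ[k] Ω) : Ω →ₐ[k] Ω).comp σ := by
      rintro ⟨g, hg⟩
      apply hσ
      refine ⟨h⁻¹ * g, ?_⟩
      rw [Subgroup.coe_mul, akp_res_mul, hg]
      ext x
      show ((h⁻¹ : ↥U) : Ω ≃ₐ[k] Ω) ((h : Ω ≃ₐ[k] Ω) (σ x)) = σ x
      rw [Subgroup.coe_inv]
      exact (h : Ω ≃ₐ[k] Ω).symm_apply_apply (σ x)
    rw [akp_w_of_not hσ, akp_w_of_not hσ', map_zero, mul_zero]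

/-- Composition with an automorphism permutes the embeddings. -/
def akp_perm (E : IntermediateField k Ω) (h : Ω ≃ₐ[k] Ω) :
    (↥E →ₐ[k] Ω) ≃ (↥E →ₐ[k] Ω) where
  toFun σ := (h : Ω →ₐ[k] Ω).comp σ
  invFun σ := ((h⁻¹ : Ω ≃ₐ[k] Ω) : Ω →ₐ[k] Ω).comp σ
  left_inv σ := by
    ext x
    show (h⁻¹ : Ω ≃ₐ[k] Ω) (h (σ x)) = σ x
    exact h.symm_apply_apply (σ x)
  right_inv σ := by
    ext x
    show h ((h⁻¹ : Ω ≃ₐ[k] Ω) (σ x)) = σ x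
    exact h.apply_symm_apply (σ x)

/-- Dedekind: the weighted sum of the embeddings does not vanish identically. -/
theorem akp_exists_ne_zero {U : Subgroup (Ω ≃ₐ[k] Ω)} {E : IntermediateField k Ω}
    [FiniteDimensional k ↥E] {c : ↥U → Ω}
    (hsm : ∀ g s : ↥U, (s : Ω ≃ₐ[k] Ω) ∈ E.fixingSubgroup → c (g * s) = c g)
    (h1 : c 1 ≠ 0) :
    ∃ a : ↥E, ∑ σ : ↥E →ₐ[k] Ω, akp_w U E c σ * σ a ≠ 0 := by
  by_contra hcon
  simp only [not_exists, ne_eq, not_not] at hcon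
  have hli : LinearIndependent Ω (fun σ : ↥E →ₐ[k] Ω => (σ : ↥E → Ω)) :=
    LinearIndependent.comp (ι' := ↥E →ₐ[k] Ω)
      (linearIndependent_monoidHom ↥E Ω)
      (fun σ => ((σ : ↥E →+* Ω) : ↥E →* Ω))
      (fun x y h => by
        ext a
        exact DFunLike.congr_fun h a)
  have h0 := Fintype.linearIndependent_iff.1 hli (akp_w U E c) (by
    funext a
    simpa using hcon a) (akp_res E ((1 : ↥U) : Ω ≃ₐ[k] Ω))
  rw [akp_w_res hsm] at h0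
  exact h1 h0

/-- **Absolute Hilbert 90** (field-valued form). -/
theorem akp_h90 (U : Subgroup (Ω ≃ₐ[k] Ω)) (E : IntermediateField k Ω)
    [FiniteDimensional k ↥E] (c : ↥U → Ω)
    (hc : ∀ h g : ↥U, c (h * g) = c h * (h : Ω ≃ₐ[k] Ω) (c g))
    (hsm : ∀ g s : ↥U, (s : Ω ≃ₐ[k] Ω) ∈ E.fixingSubgroup → c (g * s) = c g)
    (h1 : c 1 ≠ 0) :
    ∃ β : Ω, β ≠ 0 ∧ ∀ h : ↥U, (h : Ω ≃ₐ[k] Ω) β = c h * β := by
  obtain ⟨a, ha⟩ := akp_exists_ne_zero (U := U) (E := E) (c := c) hsm h1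
  set b : Ω := ∑ σ : ↥E →ₐ[k] Ω, akp_w U E c σ * σ a with hb
  have key : ∀ h : ↥U, c h * (h : Ω ≃ₐ[k] Ω) b = b := by
    intro h
    rw [hb, map_sum, Finset.mul_sum]
    rw [← Equiv.sum_comp (akp_perm E (h : Ω ≃ₐ[k] Ω)) (fun σ => akp_w U E c σ * σ a)]
    refine Finset.sum_congr rfl fun σ _ => ?_
    show _ = akp_w U E c (((h : Ω ≃ₐ[k] Ω) : Ω →ₐ[k] Ω).comp σ) * (h : Ω ≃ₐ[k] Ω) (σ a)
    rw [akp_w_comp hc hsm, map_mul, mul_assoc]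
  refine ⟨b⁻¹, inv_ne_zero ha, fun h => ?_⟩
  rw [map_inv₀, inv_eq_iff_eq_inv, mul_inv, inv_inv, eq_comm, inv_mul_eq_iff_eq_mul₀ ?_]
  · exact (key h).symm
  · intro h0
    have h2 := key h
    rw [h0, zero_mul] at h2
    exact ha h2.symm

/-- **The Kummer generator** of a character `y : U → ZMod p` of finite level. -/
theorem akp_kummer (p : ℕ) [NeZero p] (U : Subgroup (Ω ≃ₐ[k] Ω)) (E : IntermediateField k Ω)
    [FiniteDimensional k ↥E] (ζ : Ω) (hζ : ζ ^ p = 1)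
    (hζU : ∀ h : ↥U, (h : Ω ≃ₐ[k] Ω) ζ = ζ)
    (y : ↥U → ZMod p) (hy : ∀ g h, y (g * h) = y g + y h)
    (hsm : ∀ g s : ↥U, (s : Ω ≃ₐ[k] Ω) ∈ E.fixingSubgroup → y (g * s) = y g) :
    ∃ β : Ω, β ≠ 0 ∧ ∀ h : ↥U, (h : Ω ≃ₐ[k] Ω) β = ζ ^ (y h).val * β := by
  have hy1 : y 1 = 0 := by
    have := hy 1 1
    rw [mul_one] at this
    exact left_eq_add.1 this
  refine akp_h90 U E (fun h => ζ ^ (y h).val) ?_ ?_ ?_
  · intro h g
    show ζ ^ (y (h * g)).val = ζ ^ (y h).val * (h : Ω ≃ₐ[k] Ω) (ζ ^ (y g).val)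
    rw [map_pow, hζU h, hy, ZMod.val_add, ← pow_add]
    exact (pow_eq_pow_mod _ hζ).symm
  · intro g s hs
    show ζ ^ (y (g * s)).val = ζ ^ (y g).val
    rw [hsm g s hs]
  · show ζ ^ (y 1).val ≠ 0
    rw [hy1, ZMod.val_zero, pow_zero]
    exact one_ne_zero

end Fermat.Agent.S55
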