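/-
S55 (fifth wave), GLOBAL side, package [AK-CYCP] (helper17), part 2: the LOCAL INPUT.
Prefix `akp_`.

* `akp_exists_g`     : every embedding `ℚ̄ → Ω_q` is `ι_q ∘ g` for some `g ∈ G_ℚ`
                       (`ι_q = padicEmbedding q`);
* `akp_approx_int`   : an element of a number field which is integral at the prime of the
                       embedding `ι₀` is congruent to an integer modulo that prime;
* `akp_not_pow`      : if `E ∈ 𝓞 F` is a unit at `P = plc_prime q ι₀` and not a `p`-th power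
                       modulo `P`, then `ι₀ E` is not a `p`-th power in `ℚ_q(ι₀ F)`
                       (`ι₀ F` is dense in `ℚ_q(ι₀ F)`, helper1's `gsup_dense`);
* `akp_exists_tau`   : an element of `Ω_q` outside `ℚ_q(ι₀ F)` is moved by some
                       `τ ∈ Gal(Ω_q/ℚ_q(ι₀ F))`.
-/
import Mathlib
import Fermat.Agent.S55.Global.AbsDefs
import Fermat.Agent.S55.Global.Places
import Fermat.Agent.S55.Global.PlacesSurj
import Fermat.Agent.S55.Global.Supp

set_option autoImplicit false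

noncomputable section

namespace Fermat.Agent.S55

open IsDedekindDomain NumberField

local notation "Qbar" => AlgebraicClosure ℚ

section Emb

variable (q : ℕ) [Fact q.Prime]

/-- The image of every embedding `ℚ̄ → Ω_q` is contained in the image of `ι_q`. -/
theorem akp_mem_range (ι : Qbar →ₐ[ℚ] PadicAlgCl q) (x : Qbar) :
    ι x ∈ (padicEmbedding q).range := by
  have : Algebra.IsAlgebraic ℚ Qbar := AlgebraicClosure.isAlgebraic ℚ
  have hx : IsIntegral ℚ x := Algebra.IsIntegral.isIntegral x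
  have hsplit : ((minpoly ℚ x).map (algebraMap ℚ Qbar)).Splits := IsAlgClosed.splits _
  have hne : (minpoly ℚ x).map (algebraMap ℚ (PadicAlgCl q)) ≠ 0 :=
    Polynomial.map_ne_zero (minpoly.ne_zero hx)
  have hroot : ι x ∈ ((minpoly ℚ x).map (algebraMap ℚ (PadicAlgCl q))).roots := by
    rw [Polynomial.mem_roots hne, Polynomial.IsRoot, Polynomial.eval_map,
      ← Polynomial.aeval_def, Polynomial.aeval_algHom_apply, minpoly.aeval, map_zero]
  have hmap : (minpoly ℚ x).map (algebraMap ℚ (PadicAlgCl q)) =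
      ((minpoly ℚ x).map (algebraMap ℚ Qbar)).map (padicEmbedding q).toRingHom := by
    rw [Polynomial.map_map]
    congr 1
    exact Subsingleton.elim _ _
  rw [hmap, hsplit.roots_map] at hroot
  obtain ⟨y, -, hy⟩ := Multiset.mem_map.1 hroot
  exact ⟨y, hy⟩

/-- Every embedding `ℚ̄ → Ω_q` is `ι_q ∘ g` for some `g ∈ G_ℚ`. -/
theorem akp_exists_g (ι : Qbar →ₐ[ℚ] PadicAlgCl q) :
    ∃ g : s55_GQ, ∀ x : Qbar, ι x = padicEmbedding q (g x) := by
  have hinj : Function.Injective (padicEmbedding q) := (padicEmbedding q).toRingHom.injective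
  let e : Qbar ≃ₐ[ℚ] (padicEmbedding q).range := AlgEquiv.ofInjective (padicEmbedding q) hinj
  let g₀ : Qbar →ₐ[ℚ] Qbar :=
    (e.symm : (padicEmbedding q).range →ₐ[ℚ] Qbar).comp
      (ι.codRestrict (padicEmbedding q).range (akp_mem_range q ι))
  have hg₀ : ∀ x : Qbar, padicEmbedding q (g₀ x) = ι x := by
    intro x
    have h1 : e (g₀ x) = ι.codRestrict (padicEmbedding q).range (akp_mem_range q ι) x :=
      e.apply_symm_apply _
    have h2 := congrArg Subtype.val h1
    exact h2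
  have : Algebra.IsAlgebraic ℚ Qbar := AlgebraicClosure.isAlgebraic ℚ
  have hbij : Function.Bijective g₀ := Algebra.IsAlgebraic.algHom_bijective g₀
  refine ⟨AlgEquiv.ofBijective g₀ hbij, fun x => ?_⟩
  exact (hg₀ x).symm

end Emb

section Loc

variable (q : ℕ) [Fact q.Prime] {F : Type} [Field F] [NumberField F]
  (ι : F →ₐ[ℚ] PadicAlgCl q)

/-- An element which is integral at the prime of `ι` has valuation `≤ 1`. -/
theorem akp_valuation_le_one (k : F) (hk : ‖ι k‖ ≤ 1) :
    (plc_prime q ι).valuation F k ≤ 1 := by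
  by_contra hcon
  rw [not_le] at hcon
  have hk0 : k ≠ 0 := by
    rintro rfl
    rw [map_zero] at hcon
    exact absurd hcon (by simp)
  have h1 : (plc_prime q ι).valuation F k⁻¹ < 1 := by
    rw [map_inv₀]
    exact inv_lt_one_of_one_lt₀ hcon
  have h2 := plc_norm_lt_one_of_valuation q ι k⁻¹ h1
  rw [map_inv₀, norm_inv] at h2
  have h3 : 0 < ‖ι k‖ := plc_norm_pos q ι k hk0
  have h4 : 1 < ‖ι k‖ := by
    rw [inv_lt_one₀ h3] at h2
    exact h2
  exact absurd hk (not_le.2 h4)

/-- An element which is integral at the prime of `ι` is congruent to an integer. -/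
theorem akp_approx_int (k : F) (hk : ‖ι k‖ ≤ 1) :
    ∃ c : 𝓞 F, ‖ι k - ι (c : F)‖ < 1 := by
  obtain ⟨c, hc⟩ := (plc_prime q ι).exists_valuation_sub_lt_of_integer
    (akp_valuation_le_one q ι k hk) 1
  refine ⟨c, ?_⟩
  have h1 : (plc_prime q ι).valuation F (algebraMap (𝓞 F) F c - k) < 1 := by
    simpa using hc
  have h2 := plc_norm_lt_one_of_valuation q ι _ h1
  rw [map_sub, norm_sub_rev] at h2
  exact h2

theorem akp_norm_pow_sub_pow {x y : PadicAlgCl q} (hx : ‖x‖ ≤ 1) (hy : ‖y‖ ≤ 1)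
    (hxy : ‖x - y‖ < 1) (n : ℕ) (hn : 0 < n) : ‖x ^ n - y ^ n‖ < 1 := by
  induction n with
  | zero => omega
  | succ n ih =>
    rcases Nat.eq_zero_or_pos n with h0 | h0
    · subst h0
      simpa using hxy
    · have e : x ^ (n + 1) - y ^ (n + 1) = x ^ n * (x - y) + (x ^ n - y ^ n) * y := by ring
      rw [e]
      refine lt_of_le_of_lt (IsUltrametricDist.norm_add_le_max _ _) (max_lt ?_ ?_)
      · rw [norm_mul, norm_pow]
        calc ‖x‖ ^ n * ‖x - y‖ ≤ 1 * ‖x - y‖ :=
              mul_le_mul_of_nonneg_right (pow_le_one₀ (norm_nonneg _) hx) (norm_nonneg _)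
          _ = ‖x - y‖ := one_mul _
          _ < 1 := hxy
      · rw [norm_mul]
        calc ‖x ^ n - y ^ n‖ * ‖y‖ ≤ ‖x ^ n - y ^ n‖ * 1 :=
              mul_le_mul_of_nonneg_left hy (norm_nonneg _)
          _ = ‖x ^ n - y ^ n‖ := mul_one _
          _ < 1 := ih h0

/-- If `E` is a unit at the prime `P` of `ι` and not a `p`-th power modulo `P`, then `ι E` is
not a `p`-th power in `ℚ_q(ι F)`. -/
theorem akp_not_pow (p : ℕ) (hp : 0 < p) (E : 𝓞 F) (hE : E ∉ (plc_prime q ι).asIdeal)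
    (hpow : ∀ x : 𝓞 F, x ^ p - E ∉ (plc_prime q ι).asIdeal) (x : PadicAlgCl q)
    (hx : x ∈ IntermediateField.adjoin ℚ_[q] (Set.range ι)) : x ^ p ≠ ι (E : F) := by
  intro hxp
  have hE1 : ‖ι (E : F)‖ = 1 := plc_norm_eq_one_of_notMem q ι E hE
  have hx1 : ‖x‖ = 1 := by
    have h1 : ‖x‖ ^ p = 1 := by rw [← norm_pow, hxp, hE1]
    exact (pow_eq_one_iff_of_nonneg (norm_nonneg _) hp.ne').1 h1
  obtain ⟨k, hk⟩ := gsup_dense ι x hx 1 one_pos
  have hk1 : ‖ι k‖ ≤ 1 := by
    have e : ι k = x - (x - ι k) := by ring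
    rw [e, sub_eq_add_neg]
    refine le_trans (IsUltrametricDist.norm_add_le_max _ _) (max_le hx1.le ?_)
    rw [norm_neg]
    exact hk.le
  obtain ⟨c, hc⟩ := akp_approx_int q ι k hk1
  have hxc : ‖x - ι (c : F)‖ < 1 := by
    have e : x - ι (c : F) = (x - ι k) + (ι k - ι (c : F)) := by ring
    rw [e]
    exact lt_of_le_of_lt (IsUltrametricDist.norm_add_le_max _ _) (max_lt hk hc)
  have h2 := akp_norm_pow_sub_pow q hx1.le (plc_norm_le_one q ι c) hxc p hp
  rw [hxp, norm_sub_rev] at h2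
  apply hpow c
  rw [plc_mem_prime]
  have e : ι (((c ^ p - E : 𝓞 F)) : F) = ι (c : F) ^ p - ι (E : F) := by
    rw [← map_pow, ← map_sub]
    rfl
  rw [e]
  exact h2

/-- An element of `Ω_q` outside `ℚ_q(ι F)` is moved by some `τ ∈ Gal(Ω_q/ℚ_q(ι F))`. -/
theorem akp_exists_tau (z : PadicAlgCl q)
    (hz : z ∉ IntermediateField.adjoin ℚ_[q] (Set.range ι)) :
    ∃ τ : lcf_Gal q, (∀ x : F, τ (ι x) = ι x) ∧ τ z ≠ z := by
  rw [← gsup_fixedField_U0 q F ι, IntermediateField.mem_fixedField_iff] at hz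
  by_contra hcon
  apply hz
  intro τ hτ
  by_contra hτz
  exact hcon ⟨τ, (gsup_mem_U0_iff q F ι τ).1 hτ, hτz⟩

end Loc

end Fermat.Agent.S55
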