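/-
S55 (fifth wave), GLOBAL side, package [AK-CYCP] (helper17), part 3: THE MAIN THEOREM
    `akp_main : ak_CycPStatement`                      (HYPOTHESIS-FREE).
Prefix `akp_`.

A nonzero character `y : G_K → ℤ/p` of finite level (`K ∋ ζ_p` a number field inside `ℚ̄`) is
nonzero on the decomposition group of a place of `K` above a prime outside any given finite set.

ROUTE (analytic, independent of [CYC-P] and of class field theory):
 (A) `akp_kummer` (Hilbert 90): `β ∈ ℚ̄ˣ` with `h β = ζ ^ (y h) β` for `h ∈ G_K`; after scaling by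
     an element of `Kˣ`, `β ^ p = E ∈ 𝓞 K`, and `E` is not a `p`-th power in `K` since `y ≠ 0`;
 (B) helper15's `anF_exists_prime_norm`: a prime `P` of `𝓞 K` of prime norm `q ∉ X` at which `E`
     is a unit and not a `p`-th power modulo `P`;
 (C) helper18's `gpl_exists_embedding`: `P = plc_prime q ι₀`, `ι₀ : K → Ω_q`; extend `ι₀` to
     `ι = ι_q ∘ g` on `ℚ̄` (`akp_exists_g`); `akp_not_pow`: `ι β ∉ ℚ_q(ι₀ K)`;
     `akp_exists_tau`: some `τ ∈ Gal(Ω_q/ℚ_q(ι₀ K))` moves `ι β`;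
 (D) `τ ∈ ak_H K q g` and `h = ak_r τ = g⁻¹ loc_q(τ) g` satisfies `ι (h x) = τ (ι x)`, so `h`
     moves `β`, i.e. `y h ≠ 0`.
-/
import Mathlib
import Fermat.Agent.S55.Global.AkCycPH90
import Fermat.Agent.S55.Global.AkCycPLoc
import Fermat.Agent.S55.Global.KummerPrimeFree

set_option autoImplicit false
set_option linter.style.haveILetI false

noncomputable section

namespace Fermat.Agent.S55

open IsDedekindDomain NumberField

local notation "Qbar" => AlgebraicClosure ℚ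

/-- (D) the dictionary: `h = g⁻¹ loc_q(τ) g` acts through `ι = ι_q ∘ g` as `τ`. -/
theorem akp_conj_apply (q : ℕ) [Fact q.Prime] (g : s55_GQ) (ι : Qbar →ₐ[ℚ] PadicAlgCl q)
    (hg : ∀ x : Qbar, ι x = padicEmbedding q (g x)) (τ : lcf_Gal q) (x : Qbar) :
    ι ((g⁻¹ * localGaloisToGlobal q τ * g) x) = τ (ι x) := by
  rw [hg, hg]
  have h1 : g ((g⁻¹ * localGaloisToGlobal q τ * g) x) = localGaloisToGlobal q τ (g x) :=
    g.apply_symm_apply _
  rw [h1]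
  exact padicEmbedding_localGaloisToGlobal q τ (g x)

/-- (C)+(D) packaged: given the Kummer generator `β` with `β ^ p = E` and the prime `P`. -/
theorem akp_local (p : ℕ) (hp : 0 < p) (K : IntermediateField ℚ Qbar) [NumberField ↥K]
    (E : 𝓞 ↥K) (β : Qbar) (hβp : β ^ p = (((E : 𝓞 ↥K) : ↥K) : Qbar))
    (q : ℕ) [Fact q.Prime] (P : HeightOneSpectrum (𝓞 ↥K))
    (hqP : ((q : ℕ) : 𝓞 ↥K) ∈ P.asIdeal) (hEP : E ∉ P.asIdeal)
    (hpow : ∀ x : 𝓞 ↥K, x ^ p - E ∉ P.asIdeal) :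
    ∃ (g : s55_GQ) (τ : lcf_Gal q), τ ∈ ak_H K q g ∧
      (g⁻¹ * localGaloisToGlobal q τ * g) β ≠ β := by
  have : Algebra.IsAlgebraic ℚ Qbar := AlgebraicClosure.isAlgebraic ℚ
  obtain ⟨ι₀, hι₀⟩ := gpl_exists_embedding q ↥K P hqP
  obtain ⟨ι, hι⟩ := IntermediateField.exists_algHom_of_splits (F := ℚ) (E := Qbar)
    (K := PadicAlgCl q) (L := K)
    (fun s => ⟨(Algebra.IsAlgebraic.isAlgebraic s).isIntegral, IsAlgClosed.splits _⟩) ι₀
  have hι' : ∀ x : ↥K, ι (x : Qbar) = ι₀ x := fun x => DFunLike.congr_fun hι x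
  obtain ⟨g, hg⟩ := akp_exists_g q ι
  have hnot : ι β ∉ IntermediateField.adjoin ℚ_[q] (Set.range ι₀) := by
    intro hmem
    refine akp_not_pow q ι₀ p hp E (by rw [hι₀]; exact hEP) (by rw [hι₀]; exact hpow)
      (ι β) hmem ?_
    rw [← map_pow, hβp]
    exact hι' _
  obtain ⟨τ, hτK, hτβ⟩ := akp_exists_tau q ι₀ (ι β) hnot
  have hinj : Function.Injective ι := ι.toRingHom.injective
  refine ⟨g, τ, ?_, ?_⟩
  · rw [ak_mem_H_iff, IntermediateField.mem_fixingSubgroup_iff]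
    intro x hx
    apply hinj
    rw [akp_conj_apply q g ι hg τ x, hι' ⟨x, hx⟩]
    exact hτK _
  · intro h
    apply hτβ
    rw [← akp_conj_apply q g ι hg τ β, h]

/-- **[AK-CYCP]**, hypothesis-free. -/
theorem akp_main : ak_CycPStatement := by
  intro p hp hp2 K F hK hlev hζ y hy hconst hne X
  obtain ⟨ζ, hζ, hζK⟩ := hζ
  haveI : NeZero p := ⟨hp.ne_zero⟩
  haveI : FiniteDimensional ℚ ↥F := hlev.fin
  haveI : FiniteDimensional ℚ ↥K := hK
  haveI : NumberField ↥K := { to_charZero := inferInstance, to_finiteDimensional := hK }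
  have hp3 : 3 ≤ p := by
    have := hp.two_le
    omega
  have hfix : ∀ (h : ↥K.fixingSubgroup) (x : Qbar), x ∈ K → (h : s55_GQ) x = x :=
    fun h x hx => (IntermediateField.mem_fixingSubgroup_iff K _).1 h.2 x hx
  -- (A) the Kummer generator
  obtain ⟨β₀, hβ₀0, hβ₀⟩ := akp_kummer p K.fixingSubgroup F ζ hζ.pow_eq_one
    (fun h => hfix h ζ hζK) y hy hconst
  have hβ₀p : β₀ ^ p ∈ K := by
    have halg : Algebra.IsAlgebraic ℚ Qbar := AlgebraicClosure.isAlgebraic ℚ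
    have hclos : IsAlgClosure ℚ Qbar := AlgebraicClosure.instIsAlgClosure ℚ
    have hgal : IsGalois ℚ Qbar := inferInstance
    rw [← InfiniteGalois.fixedField_fixingSubgroup K, IntermediateField.mem_fixedField_iff]
    intro h hh
    have h1 := hβ₀ ⟨h, hh⟩
    show h (β₀ ^ p) = β₀ ^ p
    rw [map_pow]
    have h2 : h β₀ = ζ ^ (y ⟨h, hh⟩).val * β₀ := h1
    rw [h2, mul_pow, ← pow_mul, mul_comm (y ⟨h, hh⟩).val p, pow_mul, hζ.pow_eq_one, one_pow,
      one_mul]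
  -- scaling to an integral `p`-th power
  obtain ⟨u, v, hv, huv⟩ := IsFractionRing.div_surjective (A := 𝓞 ↥K) (⟨β₀ ^ p, hβ₀p⟩ : ↥K)
  have hv0 : ((v : 𝓞 ↥K) : ↥K) ≠ 0 := by
    intro h0
    have : v = 0 := by
      apply RingOfIntegers.coe_injective
      simpa using h0
    exact (nonZeroDivisors.ne_zero hv) this
  have hvQ : (((v : 𝓞 ↥K) : ↥K) : Qbar) ≠ 0 := by
    intro h0
    exact hv0 (Subtype.ext h0)
  have hvK : (((v : 𝓞 ↥K) : ↥K) : Qbar) ∈ K := ((v : 𝓞 ↥K) : ↥K).2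
  set β : Qbar := (((v : 𝓞 ↥K) : ↥K) : Qbar) * β₀ with hβdef
  have hβ0 : β ≠ 0 := mul_ne_zero hvQ hβ₀0
  have hβ : ∀ h : ↥K.fixingSubgroup, (h : s55_GQ) β = ζ ^ (y h).val * β := by
    intro h
    rw [hβdef, map_mul, hfix h _ hvK, hβ₀ h]
    ring
  set E : 𝓞 ↥K := v ^ (p - 1) * u with hEdef
  have hEK : ((E : 𝓞 ↥K) : ↥K) = ((v : 𝓞 ↥K) : ↥K) ^ p * (⟨β₀ ^ p, hβ₀p⟩ : ↥K) := by
    have hp1 : p = (p - 1) + 1 := by omega
    have h1 : ((E : 𝓞 ↥K) : ↥K) = ((v : 𝓞 ↥K) : ↥K) ^ (p - 1) * ((u : 𝓞 ↥K) : ↥K) := by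
      rw [hEdef]
      simp
    rw [h1, ← huv]
    conv_rhs => rw [hp1, pow_succ]
    have e1 : algebraMap (𝓞 ↥K) ↥K v = ((v : 𝓞 ↥K) : ↥K) := rfl
    have e2 : algebraMap (𝓞 ↥K) ↥K u = ((u : 𝓞 ↥K) : ↥K) := rfl
    rw [e1, e2]
    field_simp
  have hβp : β ^ p = (((E : 𝓞 ↥K) : ↥K) : Qbar) := by
    rw [hEK, hβdef, mul_pow]
    rfl
  -- `y h = 0 ↔ h β = β`
  have hyβ : ∀ h : ↥K.fixingSubgroup, (h : s55_GQ) β = β → y h = 0 := by
    intro h hh
    have h1 := hβ h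
    rw [hh] at h1
    have h2 : ζ ^ (y h).val = 1 := by
      have h3 : ζ ^ (y h).val * β = 1 * β := by
        rw [one_mul]
        exact h1.symm
      exact mul_right_cancel₀ hβ0 h3
    have h3 : p ∣ (y h).val := (hζ.pow_eq_one_iff_dvd _).1 h2
    have h4 : (y h).val < p := ZMod.val_lt _
    have h5 : (y h).val = 0 := Nat.eq_zero_of_dvd_of_lt h3 h4
    exact (ZMod.val_eq_zero _).1 h5
  -- `E` is not a `p`-th power in `K`
  have hE : ¬ ∃ x : ↥K, x ^ p = ((E : 𝓞 ↥K) : ↥K) := by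
    rintro ⟨x, hx⟩
    have hxQ : (x : Qbar) ^ p = β ^ p := by
      rw [hβp, ← hx]
      rfl
    have hx0 : (x : Qbar) ≠ 0 := by
      intro h0
      rw [h0, zero_pow hp.ne_zero] at hxQ
      exact hβ0 (pow_eq_zero_iff hp.ne_zero |>.1 hxQ.symm)
    have hξ : (β / (x : Qbar)) ^ p = 1 := by
      rw [div_pow, hxQ]
      exact div_self (pow_ne_zero _ hβ0)
    obtain ⟨i, -, hi⟩ := hζ.eq_pow_of_pow_eq_one hξ
    have hβK : β ∈ K := by
      have e : β = ζ ^ i * (x : Qbar) := by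
        rw [hi]
        field_simp
      rw [e]
      exact K.mul_mem (pow_mem hζK i) x.2
    obtain ⟨g, hg⟩ := hne
    exact hg (hyβ g (hfix g β hβK))
  -- (B) the analytic prime
  obtain ⟨P, hPprime, hPX, -, hEP, hpow⟩ := anF_exists_prime_norm p hp hp3 ↥K ⟨ζ, hζK⟩
    (IsPrimitiveRoot.coe_submonoidClass_iff.1 hζ) E hE (X.image (fun q : Nat.Primes => (q : ℕ)))
  refine ⟨⟨Ideal.absNorm P.asIdeal, hPprime⟩, ?_, ?_⟩
  · intro hqX
    exact hPX (Finset.mem_image.2 ⟨_, hqX, rfl⟩)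
  · haveI : Fact (Ideal.absNorm P.asIdeal).Prime := ⟨hPprime⟩
    -- (C) + (D)
    obtain ⟨g, τ, hτH, hτβ⟩ := akp_local p hp.pos K E β hβp (Ideal.absNorm P.asIdeal) P
      (Ideal.absNorm_mem P.asIdeal) hEP hpow
    refine ⟨g, ⟨τ, hτH⟩, ?_⟩
    intro hy0
    apply hτβ
    have h1 := hβ (ak_r K (Ideal.absNorm P.asIdeal) g ⟨τ, hτH⟩)
    rw [hy0, ZMod.val_zero, pow_zero, one_mul] at h1
    rw [ak_r_coe] at h1
    exact h1

end Fermat.Agent.S55
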