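/-
S55 (fifth wave), GLOBAL side, absolute level, package [AK-EXI] = `ak_ExiStatement`
(sub-architect helper10): THE CUT.  Definitions and `Prop`s only; prefix `akx_`.

TARGET (Global/AbsDefs.lean): for `K ∋ ζ_p` finite over `ℚ`, `p` odd, a finite set `T` of
places of `K` and `t w ∈ ℚ/ℤ` of `p`-power order (`w ∈ T`) with `∑_T t w = 0` there is a cocycle
of a `p`-level `F` over `K`, unramified outside `S` whenever `K` is, with invariant `t w` at
`w ∈ T` and `0` at all other places.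

ROUTE (cyclic, no corestriction; helper23 #944 (4)).
(0) `p ^ k • t w = 0` for all `w ∈ T`; [P-TOWER] (helper1) gives `F = K(ζ_{p^m})`, a cyclic
    `p`-level over `K` whose local degrees `n_w = [ak_H K w : ak_H F w]` on `T` are divisible by
    `p ^ k`.  Model `(E, j)` of `F` (`flk_dict`), `H = flk_H K j hn = Gal(F/K) = ⟨σ₀⟩`,
    `N = #H`, `L : fgD_Log ↥H` the logarithm, `χ : H → ℤ/N`, `χ σ₀ = 1`.
(1) [X-LOCSURJ] (local): for `w = (q, g) ∈ T`, `ι_w = flk_iota j q g`, `U_w = gl_locU q E H ι_w`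
    (`= ak_H K q g`), `θ_w = χ ∘ gl_locSigma : U_w → ℤ/N` (kernel `ak_H F q g`, index `n_w`):
    there is `x_w ∈ Ω_qˣ`, fixed by `U_w`, with `inv_q U_w (x_w ^ δθ_w) = t w`.
(2) [X-SUPPLY] (semi-local, helper10): the idele `X = ∏_{w ∈ T} X_w`, `X_w` = the `H`-invariant
    idele with component `τ x_w` at `τ ∘ ι_w ∘ σ` (`σ ∈ H`) and `1` at all other embeddings and
    primes; the CARRY cocycle `c = fgD_carry L X` (`c (σ₀^a, σ₀^b) = X ^ ⌊(a + b)/N⌋`,
    `0 ≤ a, b < N`) is an idele-valued 2-cocycle of `H`; its localisation at `ι` is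
    `(X_q ι) ^ δθ_ι`, so its invariant is `t w` at `ι_w` and `0` outside `T` ((I2)), and
    `gl_sumJ c = ∑_T t w` ([INV-CONJ] `gic_main`).
(3) [X-PRINC] (diagram chase): `gl_sumJ c = 0` and [FUND] (compatibility clause, `H' = H`,
    `m = 0`) give `mkA ∘ c = d ȳ`; lifting `ȳ` to `y : H → J`, `c - d y = diag ∘ c₀` with a
    2-cocycle `c₀ : H × H → Eˣ` having the same local invariants as `c` ((I1), (I2), `glb_*`).
(4) `f := flk_infl₂ K j hn c₀` (`flk_dict`: `coc₂`, `lev₂`, `inv`).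

LEAVES (closed Props below; each is TRUE as stated - paper proofs in the docstrings):
  [X-LOCSURJ] `akx_LocSurjStatement`   local, hypothesis-free         export `akxl_main`
  [X-PRINC]   `akx_PrincStatement`     from `gl_FundStatement`        export `akxp_main`
  [X-SUPPLY]  `akx_SupplyStatement`    from [X-LOCSURJ]               export `akxs_main`
ASSEMBLY (helper10, `Global/AkExi.lean`):
  `akx_main : gl_FundStatement → ptw_Statement → ak_ExiStatement`.
-/
import Mathlib
import Fermat.Agent.S55.Global.AbsDefs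
import Fermat.Agent.S55.Global.FinLevelKDefs
import Fermat.Agent.S55.Global.PTowerDefs
import Fermat.Agent.S55.Local.SymNorm

set_option autoImplicit false

namespace Fermat.Agent.S55

open groupCohomology

noncomputable section

local notation "Qbar" => AlgebraicClosure ℚ

/-- **[X-LOCSURJ]** (local) every class killed by the degree is a cup class: for an open
subgroup `U`, a smooth character `θ : U → ℤ/N` (NOT necessarily surjective) with kernel `U'` of
index `n = [U : U']`, and `t ∈ ℚ/ℤ` with `n • t = 0` there is a `U`-fixed `x ∈ Ω_qˣ` with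
`inv_U (x ^ δθ) = t`, where `x ^ δθ = lcf_unrCoc U N θ x : (g, g') ↦ x ^ ⌊(θ g + θ g')/N⌋`.

PROOF.  `U'` is open and normal in `U`, `C = U/U'` is cyclic of order `n ∣ N` and `θ` identifies
it with the subgroup `d·ℤ/N` of `ℤ/N`, `d = N/n`.  Let `s ∈ U` with `θ s = d` and
`θ' : U → ℤ/n`, `θ g = d · θ' g`, so that `(θ g).val = d · (θ' g).val` and
`⌊((θ g).val + (θ g').val)/N⌋ = ⌊((θ' g).val + (θ' g').val)/n⌋` (`N = d n`).
`lfund_fin` (`Local/LocFundFin.lean`) gives a smooth 2-cocycle `f` of `U`, inflated from `U/U'`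
with `U'`-fixed values, of invariant `1/n`.  `f` descends to a 2-cocycle `f̄` of the cyclic group
`C` (generator the class of `s`, logarithm `(θ' ·).val`) with values in `A = (Ωˣ)^{U'}`;
by helper6's `fgD_cohomologous` (`FG/Cyc2.lean`) `f̄ - fgD_carry (tr f̄) = d b̄`,
`tr f̄ = ∏_{i<n} f (s^i, s) =: x₁ ∈ A^C = (Ωˣ)^U`; inflating `b̄` (a function on `C`, hence
smooth) gives `f = (x₁ ^ δθ) · d b` with `b` smooth, so `inv_U (x₁ ^ δθ) = 1/n` by (I1), (I2)
(`sym_isCoc_unrCoc`).  Finally `t = m/n` for some `m : ℕ` (`n • t = 0`), and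
`(x₁ ^ m) ^ δθ = (x₁ ^ δθ) ^ m` (`sym_unrCoc_pow`) has invariant `m/n` by (I1). -/
def akx_LocSurjStatement : Prop :=
  ∀ inv : lcf_InvType, lcf_IsInvSystem inv →
    ∀ (q : ℕ) [Fact q.Prime] (U : Subgroup (lcf_Gal q)), lcf_IsOpen U →
      ∀ (N : ℕ) [NeZero N] (θ : ↥U →* Multiplicative (ZMod N)), lcf_Smooth₁ U θ →
        ∀ t : lcf_QZ, ((sym_ker θ).relIndex U) • t = 0 →
          ∃ x : (PadicAlgCl q)ˣ, (∀ g : ↥U, g • x = x) ∧ inv q U (lcf_unrCoc U N θ x) = t

/-- **[X-PRINC]** (finite level, diagram chase) an idele-valued 2-cocycle of a `p`-group `H`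
(`p` odd, `μ_p ⊆ F`) whose local invariants sum to zero has the local invariants of a 2-cocycle
with values in `Fˣ`.

PROOF (from `gl_FundStatement`, compatibility clause with `H' = H`, `m = 0`:
`lcf_qz (0 / #H) = 0`, `0 • a = 0`).  `mkA ∘ c = d ȳ` for some `ȳ : H → C_F`; choose
`y : H → J_F` with `mkA ∘ y = ȳ` (`gl_mkA` is surjective and `H`-equivariant); then `c - d y` has
values in `ker mkA = gl_P F = diag (Fˣ)`, `c - d y = diag ∘ c₀`; `diag` is injective and
equivariant, so `c₀` is a 2-cocycle (pattern of `hss_abs_final`, `Global/HasseAbs.lean`; see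
`hss_main` for the six facts about `gdiag_hom` and `gl_mkA`).  Locally, for every `ι`:
`gl_locJ (diag ∘ c₀) = gl_locF c₀` (`glb_locJ_diag`), `gl_locJ c = gl_locJ (diag ∘ c₀) ·
gl_locJ (d y)` (`glb_locJ_add`), `gl_locJ (d y)` is a smooth coboundary (`glb_locJ_isCob`), so
`inv (gl_locF c₀) = inv (gl_locJ c)` by (I1), (I2) (`glb_locF_isCoc`, `glb_locJ_isCoc`,
`gic_locU_isOpen`). -/
def akx_PrincStatement : Prop :=
  ∀ inv : lcf_InvType, lcf_IsInvSystem inv →
    ∀ (F : Type) [Field F] [NumberField F] (p : ℕ), p.Prime → p ≠ 2 →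
      (∃ ζ : F, IsPrimitiveRoot ζ p) →
      ∀ H : Subgroup (F ≃ₐ[ℚ] F), IsPGroup p H →
        ∀ c : ↥H × ↥H → Additive (gl_J F), IsCocycle₂ c → gl_sumJ inv F H c = 0 →
          ∃ c₀ : ↥H × ↥H → Additive Fˣ, IsCocycle₂ c₀ ∧
            ∀ (q : ℕ) [Fact q.Prime] (ι : F →ₐ[ℚ] PadicAlgCl q),
              gl_invAtF q F H ι inv c₀ = gl_invAtJ q F H ι inv c

/-- **[X-SUPPLY]** (semi-local) idele-valued cocycles with prescribed local invariants at a
CYCLIC level: `K ⊆ ℚ̄`, `(E, j)` a model of a level `F = j(E)` over `K` with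
`H = flk_H K j hn = Gal(F/K)` cyclic, `T` a finite set of places of `K`, `t w` killed by the
local degree `n_w = [ak_H K w : ak_H F w]` (`w ∈ T`).  Then there is a 2-cocycle `c` of `H` with
values in the ideles of `E` with invariant `t w` at `w ∈ T` and `0` at the places outside `T`,
and `gl_sumJ c = ∑_T t w`.  (NO condition on the sum; NO `p`.)

PROOF.  Steps (1), (2) of the route in the header. -/
def akx_SupplyStatement : Prop :=
  ∀ inv : lcf_InvType, lcf_IsInvSystem inv →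
    ∀ (K : IntermediateField ℚ Qbar) (E : Type) [Field E] [NumberField E]
      (j : E →ₐ[ℚ] Qbar) (hn : flk_Stable K j), K ≤ j.fieldRange →
      (∃ σ₀ : ↥(flk_H K j hn), ∀ h : ↥(flk_H K j hn), h ∈ Subgroup.zpowers σ₀) →
      ∀ T : Finset (Nat.Primes × s55_GQ), ak_IsPlaceSet K T →
      ∀ t : Nat.Primes × s55_GQ → lcf_QZ,
        (∀ w ∈ T,
          letI : Fact (w.1 : ℕ).Prime := ⟨w.1.2⟩
          ((ak_H j.fieldRange (w.1 : ℕ) w.2).relIndex (ak_H K (w.1 : ℕ) w.2)) • t w = 0) →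
        ∃ c : ↥(flk_H K j hn) × ↥(flk_H K j hn) → Additive (gl_J E), IsCocycle₂ c ∧
          (∀ w ∈ T,
            letI : Fact (w.1 : ℕ).Prime := ⟨w.1.2⟩
            gl_invAtJ (w.1 : ℕ) E (flk_H K j hn) (flk_iota j (w.1 : ℕ) w.2) inv c = t w) ∧
          (∀ w' : Nat.Primes × s55_GQ, ak_Outside K T w' →
            letI : Fact (w'.1 : ℕ).Prime := ⟨w'.1.2⟩
            gl_invAtJ (w'.1 : ℕ) E (flk_H K j hn) (flk_iota j (w'.1 : ℕ) w'.2) inv c = 0) ∧
          gl_sumJ inv E (flk_H K j hn) c = ∑ w ∈ T, t w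

end

end Fermat.Agent.S55
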