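/-
S55 (fifth wave), GLOBAL side, absolute level, package [AK-EXI] (helper10): THE ASSEMBLY.

  `akx_core : akx_PrincStatement → akx_SupplyStatement → ptw_Statement → ak_ExiStatement`
  `akx_of   : akx_PrincStatement → akx_LocSurjStatement → ak_ExiStatement`
                (`akxs_main` [X-SUPPLY] and helper1's `ptw_main` [P-TOWER] plugged)

Route: see the header of `Global/AkExiDefs.lean`.
-/
import Mathlib
import Fermat.Agent.S55.Global.AkExiDefs
import Fermat.Agent.S55.Global.AkExiSupply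
import Fermat.Agent.S55.Global.FinLevelKDict
import Fermat.Agent.S55.Global.PTower

set_option autoImplicit false
set_option linter.style.haveILetI false

namespace Fermat.Agent.S55

open groupCohomology

noncomputable section

local notation "Qbar" => AlgebraicClosure ℚ

/-- A common exponent. -/
theorem akx_exists_exp (p : ℕ) (T : Finset (Nat.Primes × s55_GQ))
    (t : Nat.Primes × s55_GQ → lcf_QZ) (h : ∀ w ∈ T, ∃ k : ℕ, (p ^ k) • t w = 0) :
    ∃ k : ℕ, ∀ w ∈ T, (p ^ k) • t w = 0 := by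
  classical
  induction T using Finset.induction_on with
  | empty => exact ⟨0, fun w hw => absurd hw (Finset.notMem_empty w)⟩
  | insert a s ha ih =>
    obtain ⟨k₁, hk₁⟩ := h a (Finset.mem_insert_self a s)
    obtain ⟨k₂, hk₂⟩ := ih (fun w hw => h w (Finset.mem_insert_of_mem hw))
    refine ⟨k₁ + k₂, fun w hw => ?_⟩
    rcases Finset.mem_insert.1 hw with rfl | hw'
    · rw [pow_add, mul_comm, mul_smul, hk₁, smul_zero]
    · rw [pow_add, mul_smul, hk₂ w hw', smul_zero]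

/-- The model of a cyclic level is cyclic. -/
theorem akx_cyclic (K : IntermediateField ℚ Qbar) {E : Type} [Field E] [NumberField E]
    (j : E →ₐ[ℚ] Qbar) (hn : flk_Stable K j) (hcyc : ptw_IsCyc K j.fieldRange) :
    ∃ σ₀ : ↥(flk_H K j hn), ∀ h : ↥(flk_H K j hn), h ∈ Subgroup.zpowers σ₀ := by
  obtain ⟨σ, hσ, hgen⟩ := hcyc
  refine ⟨flk_resH K j hn ⟨σ, hσ⟩, fun h => ?_⟩
  obtain ⟨u, rfl⟩ := flk_resH_surjective K j hn h
  obtain ⟨i, hi⟩ := hgen u u.2
  have h1 : flk_resH K j hn (u⁻¹ * (⟨σ, hσ⟩ : ↥K.fixingSubgroup) ^ i) = 1 :=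
    (flk_resH_eq_one_iff hn _).2 hi
  rw [map_mul, map_inv, map_pow, inv_mul_eq_one] at h1
  rw [h1]
  exact Subgroup.pow_mem _ (Subgroup.mem_zpowers _) i

/-- A primitive root of unity of `K ≤ j(E)` comes from `E`. -/
theorem akx_zeta (K : IntermediateField ℚ Qbar) {E : Type} [Field E] [NumberField E]
    (j : E →ₐ[ℚ] Qbar) (hK : K ≤ j.fieldRange) (p : ℕ)
    (hζ : ∃ ζ : Qbar, IsPrimitiveRoot ζ p ∧ ζ ∈ K) : ∃ ζ' : E, IsPrimitiveRoot ζ' p := by
  obtain ⟨ζ, hζ, hζK⟩ := hζ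
  obtain ⟨x, hx⟩ := hK hζK
  have hx' : j x = ζ := hx
  refine ⟨x, ?_⟩
  rw [← hx'] at hζ
  exact hζ.of_map_of_injective j.toRingHom.injective

/-- **[AK-EXI]** from [X-PRINC], [X-SUPPLY] and [P-TOWER]. -/
theorem akx_core (hP : akx_PrincStatement) (hS : akx_SupplyStatement) (hT : ptw_Statement) :
    ak_ExiStatement := by
  intro inv hinv p hp hp2 K hKfin hζ T hTset t ht hsum
  obtain ⟨k, hk⟩ := akx_exists_exp p T t ht
  obtain ⟨m, ζ, -, hlev, hpl, hcyc, hunr, hdeg⟩ := hT p hp hp2 K hKfin hζ T k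
  generalize ptw_F K ζ = F at hlev hpl hcyc hunr hdeg
  obtain ⟨E, _, _, j, hj⟩ := flk_dict.model F hlev.fin
  subst hj
  have hn : flk_Stable K j := flk_dict.stable K _ hlev E j rfl
  have hKj : K ≤ j.fieldRange := hlev.le
  obtain ⟨c, hc, hcT, hcout, hcsum⟩ := hS inv hinv K E j hn hKj (akx_cyclic K j hn hcyc) T
    hTset t (fun w hw => by
      obtain ⟨d, hd⟩ := hdeg w hw
      rw [hd, mul_comm, mul_smul, hk w hw, smul_zero])
  have hpg : IsPGroup p ↥(flk_H K j hn) := by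
    obtain ⟨n, hn'⟩ := hpl
    exact IsPGroup.of_card ((flk_dict.card K E j hn).trans hn')
  obtain ⟨c₀, hc₀, hc₀inv⟩ := hP inv hinv E p hp hp2 (akx_zeta K j hKj p hζ) (flk_H K j hn)
    hpg c hc (by rw [hcsum, hsum])
  have hinvEq : ∀ w : Nat.Primes × s55_GQ,
      ak_invP K inv w (flk_infl₂ K j hn c₀) = akx_invJP inv K j hn w c := by
    intro w
    letI : Fact (w.1 : ℕ).Prime := ⟨w.1.2⟩
    exact (flk_dict.inv K E j hn hKj (w.1 : ℕ) w.2 inv c₀).symm.trans
      (hc₀inv (w.1 : ℕ) (flk_iota j (w.1 : ℕ) w.2))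
  refine ⟨j.fieldRange, hlev, hpl, hunr, flk_infl₂ K j hn c₀,
    (flk_dict.coc₂ K E j hn c₀).2 hc₀, flk_dict.lev₂ K E j hn c₀, ?_, ?_⟩
  · intro w hw
    rw [hinvEq w]
    exact hcT w hw
  · intro w' hw'
    rw [hinvEq w']
    exact hcout w' hw'

/-- **[AK-EXI]** from the two open leaves [X-PRINC] and [X-LOCSURJ]. -/
theorem akx_of (hP : akx_PrincStatement) (hL : akx_LocSurjStatement) : ak_ExiStatement :=
  akx_core hP (akxs_main hL) ptw_main

end

end Fermat.Agent.S55
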