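/-
S55 (fifth wave), GLOBAL side, package [AK-EXI] (helper10), part 2: THE CARRY COCYCLE OF AN
INVARIANT IDELE AND ITS LOCALISATIONS.

`F` a number field, `H ≤ Aut(F/ℚ)` cyclic with logarithm `L : fgD_Log ↥H` (`N = L.n = #H`),
`χ = akx_chi L : H → ℤ/N` the character with `χ (L.s) = 1`, `X` an `H`-invariant idele.  Then
`fgD_carry L X` is an idele-valued 2-cocycle of `H` and its localisation at an embedding
`ι : F → Ω_q` is the local cup cocycle `(X_q ι) ^ δθ_ι = lcf_unrCoc U N θ_ι (X_q ι)`,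
`θ_ι = χ ∘ gl_locSigma = akx_theta L ι`.
-/
import Mathlib
import Fermat.Agent.S55.Global.InvConjLoc
import Fermat.Agent.S55.FG.Cyc2
import Fermat.Agent.S55.Local.SymNorm

set_option autoImplicit false

namespace Fermat.Agent.S55

open groupCohomology

noncomputable section

/-! ### The character of a logarithm -/

section akx_chi

variable {G : Type*} [Group G] (L : fgD_Log G)

/-- The character `g ↦ log g mod n` of a cyclic group with logarithm. -/
def akx_chi : G →* Multiplicative (ZMod L.n) where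
  toFun g := Multiplicative.ofAdd ((L.ι g : ℕ) : ZMod L.n)
  map_one' := by
    rw [L.ι_one, Nat.cast_zero]
    rfl
  map_mul' g h := by
    rw [L.ι_mul, ZMod.natCast_mod, Nat.cast_add]
    rfl

theorem akx_chi_val (g : G) : (Multiplicative.toAdd (akx_chi L g)).val = L.ι g := by
  show ((L.ι g : ℕ) : ZMod L.n).val = L.ι g
  rw [ZMod.val_natCast, Nat.mod_eq_of_lt (L.ι_lt g)]

theorem akx_chi_injective : Function.Injective (akx_chi L) := by
  intro g h hgh
  have h1 : L.ι g = L.ι h := by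
    rw [← akx_chi_val L g, ← akx_chi_val L h, hgh]
  rw [← L.pow_ι g, ← L.pow_ι h, h1]

theorem akx_chi_eq_one_iff (g : G) : akx_chi L g = 1 ↔ g = 1 := by
  constructor
  · intro h
    exact akx_chi_injective L (h.trans (map_one _).symm)
  · rintro rfl
    exact map_one _

theorem akx_neZero : NeZero L.n := ⟨L.n_pos.ne'⟩

end akx_chi

/-! ### The local characters -/

section akx_theta

variable {q : ℕ} [Fact q.Prime] {F : Type} [Field F] [NumberField F]
  {H : Subgroup (F ≃ₐ[ℚ] F)} (L : fgD_Log ↥H) (ι : F →ₐ[ℚ] PadicAlgCl q)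

/-- `gl_locSigma` as a homomorphism. -/
def akx_sigmaHom (H : Subgroup (F ≃ₐ[ℚ] F)) (ι : F →ₐ[ℚ] PadicAlgCl q) :
    ↥(gl_locU q F H ι) →* ↥H where
  toFun := gl_locSigma q F H ι
  map_one' := gic_locSigma_one q F H ι
  map_mul' := gic_locSigma_mul q F H ι

@[simp] theorem akx_sigmaHom_apply (g : ↥(gl_locU q F H ι)) :
    akx_sigmaHom H ι g = gl_locSigma q F H ι g := rfl

/-- The local character `θ_ι = χ ∘ gl_locSigma`. -/
def akx_theta : ↥(gl_locU q F H ι) →* Multiplicative (ZMod L.n) :=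
  (akx_chi L).comp (akx_sigmaHom H ι)

theorem akx_theta_apply (g : ↥(gl_locU q F H ι)) :
    akx_theta L ι g = akx_chi L (gl_locSigma q F H ι g) := rfl

theorem akx_theta_val (g : ↥(gl_locU q F H ι)) :
    (Multiplicative.toAdd (akx_theta L ι g)).val = L.ι (gl_locSigma q F H ι g) :=
  akx_chi_val L _

theorem akx_theta_smooth : lcf_Smooth₁ (gl_locU q F H ι) (akx_theta L ι) := by
  obtain ⟨E, hE, hfix⟩ := gic_exists_level q F ι
  refine ⟨E, hE, fun g s hs => ?_⟩
  rw [akx_theta_apply, akx_theta_apply, gic_locSigma_mul_fix q F H ι g s (hfix _ hs)]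

/-- The kernel of `θ_ι` is the group of the `s` with `s ∘ ι = ι`. -/
theorem akx_mem_ker_iff (s : lcf_Gal q) :
    s ∈ sym_ker (akx_theta L ι) ↔ gl_twist q F s ι = ι := by
  constructor
  · rintro ⟨hs, h1⟩
    have h2 : gl_locSigma q F H ι ⟨s, hs⟩ = 1 := (akx_chi_eq_one_iff L _).1 h1
    have h3 := gl_locSigma_spec q F H ι ⟨s, hs⟩
    rw [h2] at h3
    exact h3
  · intro h
    refine ⟨gic_mem_locU_of_fix q F H ι s h, ?_⟩
    rw [akx_theta_apply, gic_locSigma_of_fix q F H ι _ h, map_one]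

/-- The kernel of `θ_ι` is `gl_locU` of the trivial group. -/
theorem akx_ker_eq : sym_ker (akx_theta L ι) = gl_locU q F ⊥ ι := by
  ext s
  rw [akx_mem_ker_iff]
  constructor
  · intro h
    exact gic_mem_locU_of_fix q F ⊥ ι s h
  · rintro ⟨σ, hσ, h⟩
    rw [Subgroup.mem_bot] at hσ
    rw [h, hσ]
    rfl

end akx_theta

/-! ### The carry cocycle -/

section akx_carry

variable {q : ℕ} [Fact q.Prime] {F : Type} [Field F] [NumberField F]
  {H : Subgroup (F ≃ₐ[ℚ] F)} (L : fgD_Log ↥H) (ι : F →ₐ[ℚ] PadicAlgCl q)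

/-- The carry cochain of an idele. -/
def akx_carry (X : gl_J F) : ↥H × ↥H → Additive (gl_J F) :=
  fun x => Additive.ofMul (X ^ ((L.ι x.1 + L.ι x.2) / L.n))

theorem akx_carry_apply (X : gl_J F) (σ τ : ↥H) :
    akx_carry L X (σ, τ) = Additive.ofMul (X ^ ((L.ι σ + L.ι τ) / L.n)) := rfl

theorem akx_carry_eq (X : gl_J F) : akx_carry L X = fgD_carry L (Additive.ofMul X) := rfl

/-- The carry cochain of an `H`-invariant idele is a 2-cocycle. -/
theorem akx_carry_isCocycle (X : gl_J F) (hX : ∀ σ : F ≃ₐ[ℚ] F, σ ∈ H → σ • X = X) :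
    IsCocycle₂ (akx_carry L X) := by
  rw [akx_carry_eq]
  apply fgD_carry_isCocycle
  intro g
  exact congrArg Additive.ofMul (hX (g : F ≃ₐ[ℚ] F) g.2)

/-- The localisation of the carry cochain is the local cup cochain. -/
theorem akx_locJ_carry (X : gl_J F) :
    gl_locJ q F H ι (akx_carry L X) =
      lcf_unrCoc (gl_locU q F H ι) L.n (akx_theta L ι) ((gic_evJ q F).ev ι X) := by
  funext x
  rw [sym_unrCoc_apply]
  show (gic_evJ q F).ev ι (X ^ ((L.ι (gl_locSigma q F H ι x.1) +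
    L.ι (gl_locSigma q F H ι x.2)) / L.n)) = _
  rw [map_pow]
  unfold sym_t
  rw [akx_theta_val, akx_theta_val]

/-- The value at `ι` of an `H`-invariant idele is fixed by `gl_locU`. -/
theorem akx_ev_fixed (X : gl_J F) (hX : ∀ σ : F ≃ₐ[ℚ] F, σ ∈ H → σ • X = X)
    (g : ↥(gl_locU q F H ι)) : g • (gic_evJ q F).ev ι X = (gic_evJ q F).ev ι X := by
  have h1 := gic_smul_ev (gic_evJ q F) H ι g X
  rw [hX _ (gl_locSigma q F H ι g).2] at h1
  exact h1

end akx_carry

end

end Fermat.Agent.S55
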