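/-
S55 (fifth wave), GLOBAL side, package [AK-EXI] (helper10), part 1: THE IDELE OF A PLACE.

`F` a number field, `H ≤ Aut(F/ℚ)`, `K = F^H`, `ι : F → Ω_q` an embedding and `x ∈ Ω_qˣ` fixed by
`gl_locU q F H ι = Gal(Ω_q / ℚ_q · ι K)`.  The idele `akx_X H ι x hx` of `F` has the component
`τ • x` at the embeddings `τ ∘ ι ∘ σ` (`σ ∈ H`) of the place of `K` defined by `ι`, and `1` at all
other embeddings and primes; it is `H`-invariant.  (For `H` the full decomposition group this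
is helper16's `gso_fun`.)
-/
import Mathlib
import Fermat.Agent.S55.Global.SuppOne

set_option autoImplicit false

namespace Fermat.Agent.S55

open groupCohomology

noncomputable section

section akx_semilocal

variable {q : ℕ} [Fact q.Prime] {F : Type} [Field F] [NumberField F]
  (H : Subgroup (F ≃ₐ[ℚ] F)) (ι : F →ₐ[ℚ] PadicAlgCl q)

/-- The function `τ ∘ ι ∘ σ ↦ τ • x` (`σ ∈ H`), `1` outside the place of `K = F^H`. -/
def akx_fun (x : (PadicAlgCl q)ˣ) : (F →ₐ[ℚ] PadicAlgCl q) → (PadicAlgCl q)ˣ := by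
  classical
  exact fun ι' => if h : (gl_placeKSetoid q F H).r ι ι' then
    (Classical.choose (Classical.choose_spec h).2 : gl_GQq q) • x else 1

theorem akx_fun_not (x : (PadicAlgCl q)ˣ) (ι' : F →ₐ[ℚ] PadicAlgCl q)
    (h : ¬ (gl_placeKSetoid q F H).r ι ι') : akx_fun H ι x ι' = 1 := by
  classical
  unfold akx_fun
  rw [dif_neg h]

theorem akx_comp_comp (ι' : F →ₐ[ℚ] PadicAlgCl q) (σ σ' : F ≃ₐ[ℚ] F) :
    (ι'.comp (σ : F →ₐ[ℚ] F)).comp (σ' : F →ₐ[ℚ] F) =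
      ι'.comp ((σ * σ' : F ≃ₐ[ℚ] F) : F →ₐ[ℚ] F) := rfl

theorem akx_comp_inv (ι' : F →ₐ[ℚ] PadicAlgCl q) (σ : F ≃ₐ[ℚ] F) :
    (ι'.comp (σ : F →ₐ[ℚ] F)).comp ((σ⁻¹ : F ≃ₐ[ℚ] F) : F →ₐ[ℚ] F) = ι' := by
  rw [akx_comp_comp, mul_inv_cancel]
  rfl

theorem akx_fun_eq (x : (PadicAlgCl q)ˣ) (hx : ∀ g : lcf_Gal q, g ∈ gl_locU q F H ι → g • x = x)
    (σ : F ≃ₐ[ℚ] F) (hσ : σ ∈ H) (τ : gl_GQq q) :
    akx_fun H ι x (gl_twist q F τ (ι.comp (σ : F →ₐ[ℚ] F))) = τ • x := by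
  classical
  have h : (gl_placeKSetoid q F H).r ι (gl_twist q F τ (ι.comp (σ : F →ₐ[ℚ] F))) :=
    ⟨σ, hσ, τ, rfl⟩
  have key : ∀ (σ' : F ≃ₐ[ℚ] F) (_ : σ' ∈ H) (τ' : gl_GQq q),
      gl_twist q F τ (ι.comp (σ : F →ₐ[ℚ] F)) = gl_twist q F τ' (ι.comp (σ' : F →ₐ[ℚ] F)) →
      τ' • x = τ • x := by
    intro σ' hσ' τ' h1
    have h2 : gl_twist q F (τ⁻¹ * τ') ι = ι.comp ((σ * σ'⁻¹ : F ≃ₐ[ℚ] F) : F →ₐ[ℚ] F) := by
      have h3 : gl_twist q F (τ⁻¹ * τ') (ι.comp (σ' : F →ₐ[ℚ] F)) = ι.comp (σ : F →ₐ[ℚ] F) := by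
        rw [gl_twist_mul, ← h1, ← gl_twist_mul, inv_mul_cancel, gl_twist_one]
      have h4 : (gl_twist q F (τ⁻¹ * τ') (ι.comp (σ' : F →ₐ[ℚ] F))).comp
          ((σ'⁻¹ : F ≃ₐ[ℚ] F) : F →ₐ[ℚ] F) =
          (ι.comp (σ : F →ₐ[ℚ] F)).comp ((σ'⁻¹ : F ≃ₐ[ℚ] F) : F →ₐ[ℚ] F) := by rw [h3]
      rw [gl_twist_comp, akx_comp_inv, akx_comp_comp] at h4
      exact h4
    have h5 : (τ⁻¹ * τ') • x = x :=
      hx _ ⟨σ * σ'⁻¹, H.mul_mem hσ (H.inv_mem hσ'), h2⟩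
    rw [mul_smul] at h5
    exact inv_smul_eq_iff.1 h5
  unfold akx_fun
  rw [dif_pos h]
  exact key _ (Classical.choose_spec h).1 _ (Classical.choose_spec (Classical.choose_spec h).2)

theorem akx_fun_self (x : (PadicAlgCl q)ˣ)
    (hx : ∀ g : lcf_Gal q, g ∈ gl_locU q F H ι → g • x = x) : akx_fun H ι x ι = x := by
  have h := akx_fun_eq H ι x hx 1 H.one_mem 1
  rw [one_smul, gl_twist_one] at h
  exact h

theorem akx_fun_mem (x : (PadicAlgCl q)ˣ)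
    (hx : ∀ g : lcf_Gal q, g ∈ gl_locU q F H ι → g • x = x) : akx_fun H ι x ∈ gl_Jq q F := by
  intro τ ι'
  by_cases h : (gl_placeKSetoid q F H).r ι ι'
  · obtain ⟨σ, hσ, τ', rfl⟩ := h
    rw [← gl_twist_mul, akx_fun_eq H ι x hx σ hσ, akx_fun_eq H ι x hx σ hσ, mul_smul]
    rfl
  · have h' : ¬ (gl_placeKSetoid q F H).r ι (gl_twist q F τ ι') := by
      rintro ⟨σ, hσ, τ', hτ'⟩
      apply h
      refine ⟨σ, hσ, τ⁻¹ * τ', ?_⟩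
      rw [gl_twist_mul, ← hτ', ← gl_twist_mul, inv_mul_cancel, gl_twist_one]
    rw [akx_fun_not H ι x _ h, akx_fun_not H ι x _ h', map_one]

theorem akx_fun_comp (x : (PadicAlgCl q)ˣ)
    (hx : ∀ g : lcf_Gal q, g ∈ gl_locU q F H ι → g • x = x) (σ : F ≃ₐ[ℚ] F) (hσ : σ ∈ H)
    (ι' : F →ₐ[ℚ] PadicAlgCl q) :
    akx_fun H ι x (ι'.comp (σ : F →ₐ[ℚ] F)) = akx_fun H ι x ι' := by
  by_cases h : (gl_placeKSetoid q F H).r ι ι'
  · obtain ⟨σ', hσ', τ', rfl⟩ := h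
    have e : (gl_twist q F τ' (ι.comp (σ' : F →ₐ[ℚ] F))).comp (σ : F →ₐ[ℚ] F) =
        gl_twist q F τ' (ι.comp ((σ' * σ : F ≃ₐ[ℚ] F) : F →ₐ[ℚ] F)) := rfl
    rw [e, akx_fun_eq H ι x hx _ (H.mul_mem hσ' hσ), akx_fun_eq H ι x hx σ' hσ']
  · have h' : ¬ (gl_placeKSetoid q F H).r ι (ι'.comp (σ : F →ₐ[ℚ] F)) := by
      rintro ⟨σ', hσ', τ', hτ'⟩
      apply h
      refine ⟨σ' * σ⁻¹, H.mul_mem hσ' (H.inv_mem hσ), τ', ?_⟩
      have h4 : (ι'.comp (σ : F →ₐ[ℚ] F)).comp ((σ⁻¹ : F ≃ₐ[ℚ] F) : F →ₐ[ℚ] F) =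
          (gl_twist q F τ' (ι.comp (σ' : F →ₐ[ℚ] F))).comp
            ((σ⁻¹ : F ≃ₐ[ℚ] F) : F →ₐ[ℚ] F) := by rw [hτ']
      rw [akx_comp_inv] at h4
      exact h4
    rw [akx_fun_not H ι x _ h, akx_fun_not H ι x _ h']

/-- The semi-local idele of the place of `K = F^H` defined by `ι`, with component `x` at `ι`. -/
def akx_Y (x : (PadicAlgCl q)ˣ) (hx : ∀ g : lcf_Gal q, g ∈ gl_locU q F H ι → g • x = x) :
    gl_JP F (⟨q, Fact.out⟩ : Nat.Primes) :=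
  ⟨akx_fun H ι x, akx_fun_mem H ι x hx⟩

/-- The idele of the place of `K = F^H` defined by `ι`, with component `x` at `ι`. -/
def akx_X (x : (PadicAlgCl q)ˣ) (hx : ∀ g : lcf_Gal q, g ∈ gl_locU q F H ι → g • x = x) :
    gl_J F :=
  gso_single F (⟨q, Fact.out⟩ : Nat.Primes) (akx_Y H ι x hx)

variable (x : (PadicAlgCl q)ˣ) (hx : ∀ g : lcf_Gal q, g ∈ gl_locU q F H ι → g • x = x)

theorem akx_X_smul (σ : F ≃ₐ[ℚ] F) (hσ : σ ∈ H) : σ • akx_X H ι x hx = akx_X H ι x hx := by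
  have h1 : σ • akx_Y H ι x hx = akx_Y H ι x hx := by
    apply Subtype.ext
    funext ι'
    exact akx_fun_comp H ι x hx σ hσ ι'
  exact (gso_single_smul F _ σ (akx_Y H ι x hx)).trans (congrArg _ h1)

theorem akx_X_ev (ι' : F →ₐ[ℚ] PadicAlgCl q) :
    (gic_evJ q F).ev ι' (akx_X H ι x hx) = akx_fun H ι x ι' := by
  have h1 : (akx_X H ι x hx).1 (⟨q, Fact.out⟩ : Nat.Primes) = akx_Y H ι x hx :=
    gso_single_same F _ _
  exact congrArg (fun f : gl_Jq q F => f.1 ι') h1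

theorem akx_X_ev_self : (gic_evJ q F).ev ι (akx_X H ι x hx) = x := by
  rw [akx_X_ev, akx_fun_self H ι x hx]

theorem akx_X_ev_not (ι' : F →ₐ[ℚ] PadicAlgCl q) (h : ¬ (gl_placeKSetoid q F H).r ι ι') :
    (gic_evJ q F).ev ι' (akx_X H ι x hx) = 1 := by
  rw [akx_X_ev, akx_fun_not H ι x ι' h]

theorem akx_X_ne (r : Nat.Primes) (h : r ≠ (⟨q, Fact.out⟩ : Nat.Primes)) :
    (akx_X H ι x hx).1 r = 1 :=
  gso_single_ne F _ r h _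

end akx_semilocal

end

end Fermat.Agent.S55
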