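/-
S55 (Poitou-Tate), GLOBAL side, absolute level, leaf [X-LOCSURJ] of [AK-EXI]; owner helper12.
Prefix `akxl_`.  PART 1: the cyclic computation on `U` itself (no quotient group).

For a character `θ : U → ℤ/n` with `θ σ = 1` and a 2-cocycle `f` of `U`, inflated from
`U / ker θ` with `ker θ`-fixed values:
* `akxl_tr σ n f = ∏_{i<n} f (σ ^ i, σ)` is fixed by `U` (`akxl_tr_fix`);
* `f / (akxl_tr σ n f) ^ δθ` is the coboundary of `akxl_b θ σ f`, a cochain which depends on
  `θ g` only (`akxl_cohomologous`, `akxl_b_congr`).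
-/
import Mathlib
import Fermat.Agent.S55.Local.SymNorm
import Fermat.Agent.S55.Local.H3Mu

set_option autoImplicit false
set_option maxHeartbeats 1000000
set_option synthInstance.maxHeartbeats 400000
set_option linter.style.haveILetI false
set_option linter.unusedSectionVars false

noncomputable section

namespace Fermat.Agent.S55

open groupCohomology

section Cyc

variable {q : ℕ} [Fact q.Prime] {U : Subgroup (lcf_Gal q)} {n : ℕ} [NeZero n]
  {θ : ↥U →* Multiplicative (ZMod n)} {σ : ↥U} {f : ↥U × ↥U → (PadicAlgCl q)ˣ}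

/-- Inflated 2-cochains depend on the values of `θ` only. -/
theorem akxl_congr
    (hinfl : ∀ g g' u u' : ↥U, θ u = 1 → θ u' = 1 → f (g * u, g' * u') = f (g, g'))
    {g g₀ h h₀ : ↥U} (hg : θ g = θ g₀) (hh : θ h = θ h₀) : f (g, h) = f (g₀, h₀) := by
  have e1 : θ (g₀⁻¹ * g) = 1 := by rw [map_mul, map_inv, hg, inv_mul_cancel]
  have e2 : θ (h₀⁻¹ * h) = 1 := by rw [map_mul, map_inv, hh, inv_mul_cancel]
  have := hinfl g₀ h₀ _ _ e1 e2
  rwa [mul_inv_cancel_left, mul_inv_cancel_left] at this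

/-- The element `∏_{i<n} f (σ ^ i, σ)` attached to a 2-cochain. -/
def akxl_tr (σ : ↥U) (n : ℕ) (f : ↥U × ↥U → (PadicAlgCl q)ˣ) : (PadicAlgCl q)ˣ :=
  ∏ i ∈ Finset.range n, f (σ ^ i, σ)

/-- The primitive of `f / (tr f) ^ δθ`. -/
def akxl_b (θ : ↥U →* Multiplicative (ZMod n)) (σ : ↥U) (f : ↥U × ↥U → (PadicAlgCl q)ˣ) :
    ↥U → (PadicAlgCl q)ˣ :=
  fun g => f (1, 1) / ∏ i ∈ Finset.range (sym_t θ g), f (σ ^ i, σ)

theorem akxl_b_congr (f : ↥U × ↥U → (PadicAlgCl q)ˣ) {g h : ↥U} (hgh : θ g = θ h) :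
    akxl_b θ σ f g = akxl_b θ σ f h := by
  unfold akxl_b
  rw [sym_t_congr θ hgh]

/-- Cyclic shift of a product over the powers of `σ`. -/
theorem akxl_prod_shift (hσ : θ σ = Multiplicative.ofAdd 1) (F : ↥U → (PadicAlgCl q)ˣ)
    (hF : ∀ g h : ↥U, θ g = θ h → F g = F h) :
    ∏ i ∈ Finset.range n, F (σ ^ (i + 1)) = ∏ i ∈ Finset.range n, F (σ ^ i) := by
  obtain ⟨m, hm⟩ : ∃ m, n = m + 1 :=
    ⟨n - 1, by have := Nat.pos_of_ne_zero (NeZero.ne n); omega⟩
  have h1 : F (σ ^ (m + 1)) = F (σ ^ 0) := by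
    apply hF
    rw [← hm, sym_theta_pow_n θ σ hσ, pow_zero, map_one]
  rw [hm, Finset.prod_range_succ, Finset.prod_range_succ' (fun i => F (σ ^ i)), h1]

/-- `tr f` is fixed by `σ`. -/
theorem akxl_sigma_smul_tr (hσ : θ σ = Multiplicative.ofAdd 1) (hf : IsMulCocycle₂ f)
    (hinfl : ∀ g g' u u' : ↥U, θ u = 1 → θ u' = 1 → f (g * u, g' * u') = f (g, g')) :
    σ • akxl_tr σ n f = akxl_tr σ n f := by
  have h : ∀ i ∈ Finset.range n, f (σ ^ (i + 1), σ) * f (σ, σ ^ i) =
      σ • f (σ ^ i, σ) * f (σ, σ ^ (i + 1)) := by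
    intro i _
    have := hf σ (σ ^ i) σ
    rwa [← pow_succ', ← pow_succ] at this
  have h2 := Finset.prod_congr rfl h
  rw [Finset.prod_mul_distrib, Finset.prod_mul_distrib,
    akxl_prod_shift hσ (fun g => f (g, σ)) (fun g h hgh => akxl_congr hinfl hgh rfl),
    akxl_prod_shift hσ (fun g => f (σ, g)) (fun g h hgh => akxl_congr hinfl rfl hgh),
    ← Finset.smul_prod'] at h2
  exact (mul_right_cancel h2).symm

/-- `tr f` is fixed by `ker θ`. -/
theorem akxl_ker_smul_tr
    (hfix : ∀ g g' u : ↥U, θ u = 1 → u • f (g, g') = f (g, g')) (u : ↥U) (hu : θ u = 1) :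
    u • akxl_tr σ n f = akxl_tr σ n f := by
  unfold akxl_tr
  rw [Finset.smul_prod']
  exact Finset.prod_congr rfl (fun i _ => hfix _ _ u hu)

/-- `tr f` is fixed by `U`. -/
theorem akxl_tr_fix (hσ : θ σ = Multiplicative.ofAdd 1) (hf : IsMulCocycle₂ f)
    (hinfl : ∀ g g' u u' : ↥U, θ u = 1 → θ u' = 1 → f (g * u, g' * u') = f (g, g'))
    (hfix : ∀ g g' u : ↥U, θ u = 1 → u • f (g, g') = f (g, g')) (g : ↥U) :
    g • akxl_tr σ n f = akxl_tr σ n f := by
  have hk : ∀ k : ℕ, σ ^ k • akxl_tr σ n f = akxl_tr σ n f := by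
    intro k
    induction k with
    | zero => rw [pow_zero, one_smul]
    | succ k ih => rw [pow_succ, mul_smul, akxl_sigma_smul_tr hσ hf hinfl, ih]
  rw [sym_smul_eq hσ (fun u hu => akxl_ker_smul_tr hfix u hu) g]
  exact hk _

/-- **Uniqueness lemma**: a 2-cocycle of `U`, inflated in the second variable, which is trivial
on `U × {σ}` is trivial. -/
theorem akxl_eq_one_of_sigma (hσ : θ σ = Multiplicative.ofAdd 1)
    {E : ↥U × ↥U → (PadicAlgCl q)ˣ} (hE : IsMulCocycle₂ E)
    (hcongr : ∀ g h h₀ : ↥U, θ h = θ h₀ → E (g, h) = E (g, h₀))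
    (hs : ∀ g, E (g, σ) = 1) (g h : ↥U) : E (g, h) = 1 := by
  have h11 : E (1, 1) = 1 := by
    have := hE 1 1 σ
    simp only [one_mul, one_smul] at this
    rw [hs 1] at this
    simpa using this
  have hk : ∀ (k : ℕ) (g : ↥U), E (g, σ ^ k) = 1 := by
    intro k
    induction k with
    | zero =>
      intro g
      have := hE g 1 1
      simp only [mul_one] at this
      rw [pow_zero]
      have h2 := mul_right_cancel this
      rw [h2, h11, smul_one]
    | succ k ih =>
      intro g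
      have := hE g (σ ^ k) σ
      rw [hs, ih g, hs, smul_one, one_mul, one_mul, ← pow_succ] at this
      exact this.symm
  rw [hcongr g h (σ ^ sym_t θ h) (sym_theta_eq θ σ hσ h)]
  exact hk _ g

/-- Values of a 2-cocycle at `(1, h)`. -/
theorem akxl_cocycle_one_left (hf : IsMulCocycle₂ f) (h : ↥U) : f (1, h) = f (1, 1) := by
  have := hf 1 1 h
  simp only [one_mul, one_smul] at this
  exact (mul_left_cancel this).symm

/-- **H² of a cyclic quotient**: a 2-cocycle `f` of `U`, inflated from `U / ker θ` with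
`ker θ`-fixed values, differs from `(tr f) ^ δθ` by the coboundary of `akxl_b θ σ f`. -/
theorem akxl_cohomologous (hσ : θ σ = Multiplicative.ofAdd 1) (hf : IsMulCocycle₂ f)
    (hinfl : ∀ g g' u u' : ↥U, θ u = 1 → θ u' = 1 → f (g * u, g' * u') = f (g, g'))
    (hfix : ∀ g g' u : ↥U, θ u = 1 → u • f (g, g') = f (g, g')) (g h : ↥U) :
    g • akxl_b θ σ f h / akxl_b θ σ f (g * h) * akxl_b θ σ f g =
      f (g, h) / lcf_unrCoc U n θ (akxl_tr σ n f) (g, h) := by
  have hn : 0 < n := Nat.pos_of_ne_zero (NeZero.ne n)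
  have ha : ∀ g : ↥U, g • akxl_tr σ n f = akxl_tr σ n f := akxl_tr_fix hσ hf hinfl hfix
  set a := akxl_tr σ n f with hadef
  set b := akxl_b θ σ f with hbdef
  have hb1 : b 1 = f (1, 1) := by
    simp only [hbdef, akxl_b]
    rw [sym_t_one, Finset.prod_range_zero, div_one]
  -- the difference cocycle
  have hE : IsMulCocycle₂ (f / lcf_unrCoc U n θ a / lh3m_d₁₂ U b) := by
    rw [lh3m_isCocycle_iff, lh3m_d₂₃_div, lh3m_d₂₃_div, (lh3m_isCocycle_iff U f).1 hf,
      (lh3m_isCocycle_iff U _).1 (sym_isMulCocycle₂_unrCoc ha), lh3m_d₂₃_d₁₂, div_one, div_one]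
  have hEapp : ∀ g h : ↥U, (f / lcf_unrCoc U n θ a / lh3m_d₁₂ U b) (g, h) =
      f (g, h) / a ^ ((sym_t θ g + sym_t θ h) / n) / (g • b h / b (g * h) * b g) := fun _ _ => rfl
  have hEc : ∀ g h h₀ : ↥U, θ h = θ h₀ → (f / lcf_unrCoc U n θ a / lh3m_d₁₂ U b) (g, h) =
      (f / lcf_unrCoc U n θ a / lh3m_d₁₂ U b) (g, h₀) := by
    intro g h h₀ hh
    have e1 : b h = b h₀ := akxl_b_congr f hh
    have e2 : b (g * h) = b (g * h₀) := akxl_b_congr f (by rw [map_mul, map_mul, hh])
    rw [hEapp, hEapp, akxl_congr hinfl (rfl : θ g = θ g) hh, sym_t_congr θ hh, e1, e2]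
  have hEs : ∀ g : ↥U, (f / lcf_unrCoc U n θ a / lh3m_d₁₂ U b) (g, σ) = 1 := by
    intro g
    rw [hEapp]
    rcases Nat.lt_or_ge 1 n with h1 | h1
    · have hσ1 : sym_t θ σ = 1 := by
        have := sym_t_pow θ σ hσ 1
        rwa [pow_one, Nat.mod_eq_of_lt h1] at this
      have hbσ : b σ = 1 := by
        simp only [hbdef, akxl_b]
        rw [hσ1, Finset.prod_range_one, pow_zero, akxl_cocycle_one_left hf σ, div_self']
      have hfg : f (σ ^ sym_t θ g, σ) = f (g, σ) :=
        akxl_congr hinfl (sym_theta_eq θ σ hσ g).symm rfl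
      have hlt := sym_t_lt θ g
      rw [hbσ, smul_one, hσ1]
      rcases Nat.lt_or_ge (sym_t θ g + 1) n with h2 | h2
      · have hgs : sym_t θ (g * σ) = sym_t θ g + 1 := by
          rw [sym_t_mul, hσ1, Nat.mod_eq_of_lt h2]
        have hbg : b (g * σ) = b g / f (g, σ) := by
          simp only [hbdef, akxl_b]
          rw [hgs, Finset.prod_range_succ, hfg, div_mul_eq_div_div]
        rw [Nat.div_eq_of_lt h2, pow_zero, div_one, hbg]
        rw [div_eq_one]
        rw [one_div, inv_div, div_mul_cancel]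
      · have h3 : sym_t θ g + 1 = n := by omega
        have hgs : sym_t θ (g * σ) = 0 := by
          rw [sym_t_mul, hσ1, h3, Nat.mod_self]
        have hbgs : b (g * σ) = f (1, 1) := by
          simp only [hbdef, akxl_b]
          rw [hgs, Finset.prod_range_zero, div_one]
        have hrange : Finset.range n = Finset.range (sym_t θ g + 1) := by rw [h3]
        have hprod : a = (∏ i ∈ Finset.range (sym_t θ g), f (σ ^ i, σ)) * f (g, σ) := by
          simp only [hadef, akxl_tr]
          rw [hrange, Finset.prod_range_succ, hfg]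
        have hbg : b g = f (1, 1) * f (g, σ) / a := by
          simp only [hbdef, akxl_b]
          rw [hprod, mul_div_mul_right_eq_div]
        rw [h3, Nat.div_self hn, pow_one, hbgs, hbg, div_eq_one]
        rw [one_div, div_eq_iff_eq_mul]
        rw [inv_mul_eq_div, mul_div_assoc, mul_div_cancel_left, div_mul_cancel]
    · have hn1 : n = 1 := by omega
      have hθ1 : ∀ x y : ↥U, θ x = θ y := by
        intro x y
        subst hn1
        exact Subsingleton.elim _ _
      have ht0 : ∀ x : ↥U, sym_t θ x = 0 := by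
        intro x
        have := sym_t_lt θ x
        omega
      have hbc : ∀ x : ↥U, b x = f (1, 1) := by
        intro x
        simp only [hbdef, akxl_b]
        rw [ht0, Finset.prod_range_zero, div_one]
      have hgf : g • f (1, 1) = f (1, 1) := by
        refine hfix 1 1 g ?_
        rw [hθ1 g 1, map_one]
      rw [ht0, ht0, add_zero, Nat.zero_div, pow_zero, div_one, hbc, hbc, hbc, hgf, div_self',
        one_mul, akxl_congr hinfl (hθ1 g 1) (hθ1 σ 1), div_self']
  have := akxl_eq_one_of_sigma hσ hE hEc hEs g h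
  rw [hEapp, div_eq_one] at this
  rw [sym_unrCoc_apply]
  exact this.symm

end Cyc

end Fermat.Agent.S55
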