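/-
S55 (Poitou-Tate), GLOBAL side, absolute level, leaf [X-LOCSURJ] of [AK-EXI]; owner helper12.
Prefix `akxl_`.  PART 2: reduction of a character `θ : U → ℤ/N` with kernel of index `n` to the
surjective character `θ' : U → ℤ/n`, `θ = (N / n) · θ'`:
`akxl_reduce`: `n ≠ 0`, and there are `θ'`, `σ` with `θ' σ = 1`, `ker θ' = ker θ`,
`⌊(θ g + θ h) / N⌋ = ⌊(θ' g + θ' h) / n⌋`, and `θ'` factors through `θ`.
-/
import Mathlib
import Fermat.Agent.S55.Local.SymNorm

set_option autoImplicit false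
set_option maxHeartbeats 1000000
set_option synthInstance.maxHeartbeats 400000
set_option linter.style.haveILetI false
set_option linter.unusedSectionVars false

noncomputable section

namespace Fermat.Agent.S55

open groupCohomology

section Arith

theorem akxl_arith_dvd {N n v : ℕ} (hn : 0 < n) (hnN : n ∣ N) (h : N ∣ n * v) : N / n ∣ v := by
  obtain ⟨d, rfl⟩ := hnN
  rw [Nat.mul_div_cancel_left d hn]
  exact (Nat.mul_dvd_mul_iff_left hn).1 h

theorem akxl_arith_mod {N n a b : ℕ} (hN : 0 < N) (hnN : n ∣ N) (ha : N / n ∣ a)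
    (hb : N / n ∣ b) : (a + b) % N / (N / n) = (a / (N / n) + b / (N / n)) % n := by
  obtain ⟨d, rfl⟩ := hnN
  have hn : 0 < n := Nat.pos_of_mul_pos_right hN
  have hd : 0 < d := Nat.pos_of_mul_pos_left hN
  rw [Nat.mul_div_cancel_left d hn] at ha hb ⊢
  obtain ⟨a', rfl⟩ := ha
  obtain ⟨b', rfl⟩ := hb
  rw [Nat.mul_div_cancel_left a' hd, Nat.mul_div_cancel_left b' hd, ← mul_add, mul_comm n d,
    Nat.mul_mod_mul_left, Nat.mul_div_cancel_left _ hd]

theorem akxl_arith_floor {N n a b : ℕ} (hN : 0 < N) (hnN : n ∣ N) (ha : N / n ∣ a)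
    (hb : N / n ∣ b) : (a + b) / N = (a / (N / n) + b / (N / n)) / n := by
  obtain ⟨d, rfl⟩ := hnN
  have hn : 0 < n := Nat.pos_of_mul_pos_right hN
  have hd : 0 < d := Nat.pos_of_mul_pos_left hN
  rw [Nat.mul_div_cancel_left d hn] at ha hb ⊢
  obtain ⟨a', rfl⟩ := ha
  obtain ⟨b', rfl⟩ := hb
  rw [Nat.mul_div_cancel_left a' hd, Nat.mul_div_cancel_left b' hd, ← mul_add, mul_comm n d,
    Nat.mul_div_mul_left _ _ hd]

theorem akxl_arith_lt {N n a : ℕ} (hN : 0 < N) (hnN : n ∣ N) (ha : a < N) : a / (N / n) < n := by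
  obtain ⟨d, rfl⟩ := hnN
  have hn : 0 < n := Nat.pos_of_mul_pos_right hN
  have hd : 0 < d := Nat.pos_of_mul_pos_left hN
  rw [Nat.mul_div_cancel_left d hn, Nat.div_lt_iff_lt_mul hd]
  exact ha

theorem akxl_arith_zero {N n a : ℕ} (hN : 0 < N) (hnN : n ∣ N) (ha : N / n ∣ a)
    (h : a / (N / n) = 0) : a = 0 := by
  obtain ⟨d, rfl⟩ := hnN
  have hn : 0 < n := Nat.pos_of_mul_pos_right hN
  have hd : 0 < d := Nat.pos_of_mul_pos_left hN
  rw [Nat.mul_div_cancel_left d hn] at ha h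
  obtain ⟨a', rfl⟩ := ha
  rw [Nat.mul_div_cancel_left a' hd] at h
  rw [h, mul_zero]

end Arith

section Red

variable {q : ℕ} [Fact q.Prime] {U : Subgroup (lcf_Gal q)} {N : ℕ} [NeZero N]
  (θ : ↥U →* Multiplicative (ZMod N))

theorem akxl_subgroupOf_ker {M : ℕ} (θ : ↥U →* Multiplicative (ZMod M)) :
    (sym_ker θ).subgroupOf U = θ.ker := by
  ext g
  rw [Subgroup.mem_subgroupOf, MonoidHom.mem_ker]
  constructor
  · rintro ⟨_, h⟩
    exact h
  · intro h
    exact ⟨g.2, h⟩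

theorem akxl_relIndex {M : ℕ} (θ : ↥U →* Multiplicative (ZMod M)) :
    (sym_ker θ).relIndex U = θ.ker.index := by
  rw [Subgroup.relIndex, akxl_subgroupOf_ker]

theorem akxl_index_dvd : θ.ker.index ∣ N := by
  rw [Subgroup.index_ker]
  have := Subgroup.card_subgroup_dvd_card θ.range
  rwa [Nat.card_eq_fintype_card (α := Multiplicative (ZMod N)), Fintype.card_multiplicative,
    ZMod.card] at this

theorem akxl_index_pos : 0 < θ.ker.index :=
  Nat.pos_of_dvd_of_pos (akxl_index_dvd θ) (Nat.pos_of_ne_zero (NeZero.ne N))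

theorem akxl_dvd_t (g : ↥U) : N / θ.ker.index ∣ sym_t θ g := by
  have hpow : θ g ^ θ.ker.index = 1 := by
    rw [← map_pow]
    exact (MonoidHom.mem_ker).1 (Subgroup.pow_index_mem θ.ker g)
  have h0 : ((θ.ker.index * sym_t θ g : ℕ) : ZMod N) = 0 := by
    have := congrArg Multiplicative.toAdd hpow
    rw [toAdd_pow, toAdd_one] at this
    rw [Nat.cast_mul]
    unfold sym_t
    rw [ZMod.natCast_zmod_val, ← nsmul_eq_mul]
    exact this
  rw [ZMod.natCast_eq_zero_iff] at h0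
  exact akxl_arith_dvd (akxl_index_pos θ) (akxl_index_dvd θ) h0

/-- The surjective character `θ' : U → ℤ/n`, `n = [U : ker θ]`, with `θ = (N / n) · θ'`. -/
def akxl_theta (n : ℕ) (hn : θ.ker.index = n) : ↥U →* Multiplicative (ZMod n) where
  toFun g := Multiplicative.ofAdd (((sym_t θ g / (N / n) : ℕ) : ZMod n))
  map_one' := by
    rw [sym_t_one, Nat.zero_div, Nat.cast_zero]
    rfl
  map_mul' g h := by
    subst hn
    rw [sym_t_mul, akxl_arith_mod (Nat.pos_of_ne_zero (NeZero.ne N)) (akxl_index_dvd θ)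
      (akxl_dvd_t θ g) (akxl_dvd_t θ h), ZMod.natCast_mod, Nat.cast_add]
    rfl

theorem akxl_t_theta (n : ℕ) (hn : θ.ker.index = n) (g : ↥U) :
    sym_t (akxl_theta θ n hn) g = sym_t θ g / (N / n) := by
  subst hn
  show ((((sym_t θ g / (N / θ.ker.index) : ℕ) : ZMod θ.ker.index))).val = _
  rw [ZMod.val_natCast, Nat.mod_eq_of_lt]
  exact akxl_arith_lt (Nat.pos_of_ne_zero (NeZero.ne N)) (akxl_index_dvd θ) (sym_t_lt θ g)

theorem akxl_theta_congr (n : ℕ) (hn : θ.ker.index = n) {g h : ↥U} (hgh : θ g = θ h) :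
    akxl_theta θ n hn g = akxl_theta θ n hn h := by
  show Multiplicative.ofAdd _ = Multiplicative.ofAdd _
  rw [sym_t_congr θ hgh]

theorem akxl_theta_eq_one_iff (n : ℕ) (hn : θ.ker.index = n) (g : ↥U) :
    akxl_theta θ n hn g = 1 ↔ θ g = 1 := by
  haveI : NeZero n := ⟨by rw [← hn]; exact (akxl_index_pos θ).ne'⟩
  rw [← sym_t_eq_zero_iff, ← sym_t_eq_zero_iff, akxl_t_theta]
  subst hn
  constructor
  · intro h
    exact akxl_arith_zero (Nat.pos_of_ne_zero (NeZero.ne N)) (akxl_index_dvd θ)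
      (akxl_dvd_t θ g) h
  · intro h
    rw [h, Nat.zero_div]

theorem akxl_theta_floor (n : ℕ) (hn : θ.ker.index = n) (g h : ↥U) :
    (sym_t θ g + sym_t θ h) / N =
      (sym_t (akxl_theta θ n hn) g + sym_t (akxl_theta θ n hn) h) / n := by
  rw [akxl_t_theta, akxl_t_theta]
  subst hn
  exact akxl_arith_floor (Nat.pos_of_ne_zero (NeZero.ne N)) (akxl_index_dvd θ)
    (akxl_dvd_t θ g) (akxl_dvd_t θ h)

theorem akxl_theta_surjective (n : ℕ) (hn : θ.ker.index = n) :
    Function.Surjective (akxl_theta θ n hn) := by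
  haveI : NeZero n := ⟨by rw [← hn]; exact (akxl_index_pos θ).ne'⟩
  have hker : (akxl_theta θ n hn).ker = θ.ker := by
    ext g
    rw [MonoidHom.mem_ker, MonoidHom.mem_ker]
    exact akxl_theta_eq_one_iff θ n hn g
  have hcard : Nat.card ↥(akxl_theta θ n hn).range = Nat.card (Multiplicative (ZMod n)) := by
    rw [← Subgroup.index_ker, hker, hn, Nat.card_eq_fintype_card (α := Multiplicative (ZMod n)),
      Fintype.card_multiplicative, ZMod.card]
  have htop := (Subgroup.card_eq_iff_eq_top _).1 hcard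
  exact MonoidHom.range_eq_top.1 htop

/-- **Reduction to a surjective character.** -/
theorem akxl_reduce (n : ℕ) (hn : (sym_ker θ).relIndex U = n) :
    n ≠ 0 ∧ ∃ (θ' : ↥U →* Multiplicative (ZMod n)) (σ : ↥U),
      θ' σ = Multiplicative.ofAdd 1 ∧ (∀ g : ↥U, θ' g = 1 ↔ θ g = 1) ∧
      (∀ g h : ↥U, θ g = θ h → θ' g = θ' h) ∧
      ∀ x : (PadicAlgCl q)ˣ, lcf_unrCoc U N θ x = lcf_unrCoc U n θ' x := by
  rw [akxl_relIndex] at hn
  have hn0 : n ≠ 0 := by rw [← hn]; exact (akxl_index_pos θ).ne'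
  obtain ⟨σ, hσ⟩ := akxl_theta_surjective θ n hn (Multiplicative.ofAdd 1)
  refine ⟨hn0, akxl_theta θ n hn, σ, hσ, akxl_theta_eq_one_iff θ n hn,
    fun g h hgh => akxl_theta_congr θ n hn hgh, fun x => ?_⟩
  funext p
  rw [sym_unrCoc_apply, sym_unrCoc_apply, akxl_theta_floor θ n hn]

end Red

end Fermat.Agent.S55
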