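/-
S55 (Poitou-Tate), GLOBAL side, absolute level, leaf [X-LOCSURJ] of [AK-EXI]; owner helper12.
Prefix `akxl_`.  PART 3: `akxl_main : akx_LocSurjStatement` (hypothesis-free).

PROOF (the docstring of `akx_LocSurjStatement`).  `θ = (N / n) · θ'` with `θ' : U → ℤ/n`
surjective (`akxl_reduce`); `lfund_fin` gives a smooth 2-cocycle `f` of `U`, inflated from
`U / ker θ` with `ker θ`-fixed values, of invariant `1 / n`; `f / (tr f) ^ δθ'` is the coboundary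
of a cochain which factors through `θ'` (`akxl_cohomologous`), so `inv ((tr f) ^ δθ') = 1 / n`
by (I1), (I2); finally `t = m / n` and `((tr f) ^ m) ^ δθ' = ((tr f) ^ δθ') ^ m`.
-/
import Mathlib
import Fermat.Agent.S55.Global.AkExiDefs
import Fermat.Agent.S55.Global.AkExiLocCyc
import Fermat.Agent.S55.Global.AkExiLocRed
import Fermat.Agent.S55.Local.LocFundFin
import Fermat.Agent.S55.Local.H3OmegaFund

set_option autoImplicit false
set_option maxHeartbeats 1000000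
set_option synthInstance.maxHeartbeats 400000
set_option linter.style.haveILetI false
set_option linter.unusedSectionVars false

noncomputable section

namespace Fermat.Agent.S55

open groupCohomology

/-- An element of `ℚ/ℤ` killed by `n` is a natural multiple of `1 / n`. -/
theorem akxl_qz (n : ℕ) (hn : n ≠ 0) (t : lcf_QZ) (ht : n • t = 0) :
    ∃ m : ℕ, t = m • lcf_qz (1 / (n : ℚ)) := by
  obtain ⟨m, hm⟩ := lh3_qz_of_nsmul n hn t ht
  refine ⟨(m % (n : ℤ)).toNat, ?_⟩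
  have hnz : (n : ℤ) ≠ 0 := by exact_mod_cast hn
  have h1 : ((m % (n : ℤ)).toNat : ℤ) = m % (n : ℤ) :=
    Int.toNat_of_nonneg (Int.emod_nonneg m hnz)
  have h2 : (n : ℤ) • lcf_qz (1 / (n : ℚ)) = 0 := by
    rw [natCast_zsmul]
    exact lfund_nsmul_qz n
  rw [hm, ← natCast_zsmul, h1]
  conv_lhs => rw [← Int.emod_add_mul_ediv m n]
  rw [add_zsmul, mul_comm, mul_zsmul, h2, smul_zero, add_zero]

/-- **[X-LOCSURJ]**, the version with the index as a variable. -/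
theorem akxl_aux {inv : lcf_InvType} (hinv : lcf_IsInvSystem inv) {q : ℕ} [Fact q.Prime]
    (U : Subgroup (lcf_Gal q)) (hU : lcf_IsOpen U) (N : ℕ) [NeZero N]
    (θ : ↥U →* Multiplicative (ZMod N)) (hθ : lcf_Smooth₁ U θ) (n : ℕ)
    (hn : (sym_ker θ).relIndex U = n) (t : lcf_QZ) (ht : n • t = 0) :
    ∃ x : (PadicAlgCl q)ˣ, (∀ g : ↥U, g • x = x) ∧ inv q U (lcf_unrCoc U N θ x) = t := by
  obtain ⟨hn0, θ', σ, hσ, hker, hcongr, hcoc⟩ := akxl_reduce θ n hn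
  haveI : NeZero n := ⟨hn0⟩
  have hθ' : lcf_Smooth₁ U θ' := by
    obtain ⟨E, hE, h⟩ := hθ
    exact ⟨E, hE, fun g s hs => hcongr _ _ (h g s hs)⟩
  have hU' : lcf_IsOpen (sym_ker θ) := sym_isOpen_ker θ hU hθ
  have hnorm : ∀ g ∈ U, ∀ u ∈ sym_ker θ, g * u * g⁻¹ ∈ sym_ker θ := by
    rintro g hg u ⟨hu, hu1⟩
    refine ⟨U.mul_mem (U.mul_mem hg hu) (U.inv_mem hg), ?_⟩
    have : (⟨g * u * g⁻¹, U.mul_mem (U.mul_mem hg hu) (U.inv_mem hg)⟩ : ↥U) =
        ⟨g, hg⟩ * ⟨u, hu⟩ * (⟨g, hg⟩ : ↥U)⁻¹ := rfl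
    rw [this, map_mul, map_mul, hu1, mul_one, map_inv, mul_inv_cancel]
  obtain ⟨f, hf, hinfl, hfix, hinvf⟩ :=
    lfund_fin inv hinv q U (sym_ker θ) hU hU' (sym_ker_le θ) hnorm
  rw [hn] at hinvf
  have hinfl' : ∀ g g' u u' : ↥U, θ' u = 1 → θ' u' = 1 → f (g * u, g' * u') = f (g, g') :=
    fun g g' u u' hu hu' => hinfl g g' u u' (sym_coe_mem_ker θ ((hker u).1 hu))
      (sym_coe_mem_ker θ ((hker u').1 hu'))
  have hfix' : ∀ g g' u : ↥U, θ' u = 1 → u • f (g, g') = f (g, g') :=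
    fun g g' u hu => hfix g g' (u : lcf_Gal q) (sym_coe_mem_ker θ ((hker u).1 hu))
  have ha : ∀ g : ↥U, g • akxl_tr σ n f = akxl_tr σ n f :=
    akxl_tr_fix hσ hf.1 hinfl' hfix'
  have hcocA : lcf_IsCoc U (lcf_unrCoc U n θ' (akxl_tr σ n f)) := sym_isCoc_unrCoc hθ' ha
  have hcob : lcf_IsCob U (f / lcf_unrCoc U n θ' (akxl_tr σ n f)) := by
    obtain ⟨E, hE, h⟩ := hθ'
    exact ⟨akxl_b θ' σ f, ⟨E, hE, fun g s hs => akxl_b_congr f (h g s hs)⟩,
      fun g h => akxl_cohomologous hσ hf.1 hinfl' hfix' g h⟩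
  have h1 : inv q U (lcf_unrCoc U n θ' (akxl_tr σ n f)) = lcf_qz (1 / (n : ℚ)) := by
    rw [← lfund_inv_eq hinv U hU hf hcocA hcob, hinvf]
  obtain ⟨m, hm⟩ := akxl_qz n hn0 t ht
  refine ⟨akxl_tr σ n f ^ m, fun g => sym_smul_pow ha g m, ?_⟩
  rw [hcoc, ← sym_unrCoc_pow, lh3m_inv_pow hinv U hU hcocA, h1, hm]

/-- **[X-LOCSURJ]** every class killed by the local degree is a cup class `x ∪ δθ`. -/
theorem akxl_main : akx_LocSurjStatement := by
  intro inv hinv q _ U hU N _ θ hθ t ht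
  exact akxl_aux hinv U hU N θ hθ _ rfl t ht

end Fermat.Agent.S55
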