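/-
S55 (fifth wave), GLOBAL side, package [AK-EXI] (sub-architect helper10), leaf [X-PRINC]
(helper23): the diagram chase.

`akxp_main : gl_FundStatement → akx_PrincStatement` (the Prop of `Global/AkExiDefs.lean`,
verbatim): an idele-valued 2-cocycle `c` of a `p`-group `H` (`p` odd, `μ_p ⊆ F`) whose local
invariants sum to zero has the local invariants of a 2-cocycle `c₀` with values in `Fˣ`.

PROOF.  The compatibility clause of [FUND] with `H' = H`, `m = 0` gives `mkA ∘ c = d ȳ` for a
1-cochain `ȳ : H → C_F`; lift `ȳ` to `y : H → J_F` (`gl_mkA` is surjective); then `c - d y` has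
values in `ker mkA = gl_P F = diag (Fˣ)`, `c - d y = diag ∘ c₀`; `diag` is injective and
equivariant, so `c₀` is a 2-cocycle.  Locally, for every `ι`:
`gl_locJ c = gl_locJ (diag ∘ c₀) · gl_locJ (d y)` (`glb_locJ_add`),
`gl_locJ (diag ∘ c₀) = gl_locF c₀` (`glb_locJ_diag`), `gl_locJ (d y)` is a smooth coboundary
(`glb_locJ_isCob`), so `inv (gl_locJ c) = inv (gl_locF c₀)` by (I1), (I2).
-/
import Mathlib
import Fermat.Agent.S55.Global.AkExiDefs
import Fermat.Agent.S55.Global.LocBasic
import Fermat.Agent.S55.Global.Diag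
import Fermat.Agent.S55.Global.GalDescent

set_option autoImplicit false

namespace Fermat.Agent.S55

open groupCohomology

noncomputable section

section akxp_abs

theorem akxp_sub_zero_zsmul {C : Type*} [AddCommGroup C] (w z : C) : w - (0 : ℤ) • z = w := by
  rw [zero_zsmul, sub_zero]

/-- A 2-coboundary is a 2-cocycle. -/
theorem akxp_isCoc_of_isCob {G A : Type*} [Group G] [AddCommGroup A] [DistribMulAction G A]
    {f : G × G → A} (hf : IsCoboundary₂ f) : IsCocycle₂ f := by
  obtain ⟨x, hx⟩ := hf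
  intro g h j
  rw [← hx, ← hx, ← hx, ← hx, smul_add, smul_sub, mul_smul, mul_assoc]
  abel

/-- The diagram chase, abstractly: `A → J → C` an "exact sequence" of `G`-modules; a
2-cocycle `c` of `G` in `J` whose image in `C` is a coboundary differs from a 2-cocycle with
values in `A` by a coboundary. -/
theorem akxp_abs {G A J C : Type*} [Group G] [AddCommGroup A] [AddCommGroup J]
    [AddCommGroup C] [DistribMulAction G A] [DistribMulAction G J] [DistribMulAction G C]
    (D : A →+ J) (π : J →+ C) (hD : Function.Injective D)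
    (hDs : ∀ (g : G) (a : A), D (g • a) = g • D a)
    (hπs : ∀ (g : G) (x : J), π (g • x) = g • π x)
    (hker : ∀ x : J, π x = 0 → ∃ a : A, D a = x)
    (hsurj : Function.Surjective π)
    (c : G × G → J) (hc : IsCocycle₂ c)
    (hcob : IsCoboundary₂ (fun x : G × G => π (c x))) :
    ∃ (c₀ : G × G → A) (e : G × G → J), IsCocycle₂ c₀ ∧ IsCoboundary₂ e ∧
      ∀ x : G × G, c x = D (c₀ x) + e x := by
  obtain ⟨ybar, hybar⟩ := hcob
  choose y hy using fun g : G => hsurj (ybar g)
  have hprin : ∀ x : G × G, ∃ f : A,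
      D f = c x - (x.1 • y x.2 - y (x.1 * x.2) + y x.1) := by
    intro x
    apply hker
    have h1 : x.1 • ybar x.2 - ybar (x.1 * x.2) + ybar x.1 = π (c x) := hybar x.1 x.2
    rw [map_sub, map_add, map_sub, hπs, hy, hy, hy, h1, sub_self]
  choose c₀ hc₀ using hprin
  refine ⟨c₀, fun x => x.1 • y x.2 - y (x.1 * x.2) + y x.1, ?_, ⟨y, fun g h => rfl⟩, ?_⟩
  · intro g h j
    apply hD
    have h1 := hc g h j
    rw [map_add, map_add, hDs, hc₀, hc₀, hc₀, hc₀]
    show c (g * h, j) - ((g * h) • y j - y (g * h * j) + y (g * h)) +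
        (c (g, h) - (g • y h - y (g * h) + y g)) =
      g • (c (h, j) - (h • y j - y (h * j) + y h)) +
        (c (g, h * j) - (g • y (h * j) - y (g * (h * j)) + y g))
    rw [smul_sub, smul_add, smul_sub, mul_smul, mul_assoc]
    linear_combination (norm := abel) h1
  · intro x
    show c x = D (c₀ x) + (x.1 • y x.2 - y (x.1 * x.2) + y x.1)
    rw [hc₀, sub_add_cancel]

end akxp_abs

set_option synthInstance.maxHeartbeats 400000 in
set_option maxHeartbeats 1000000 in
/-- **[X-PRINC]** the diagram chase, from [FUND]. -/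
theorem akxp_main (hFund : gl_FundStatement) : akx_PrincStatement := by
  intro inv hinv F _ _ p hp hp2 hζ H hH c hc hsum
  obtain ⟨a, -, hcompat⟩ := hFund inv hinv F p hp hp2 hζ H hH
  have h0 := hcompat H le_rfl c hc 0 (by rw [hsum]; simp)
  have hcob : IsCoboundary₂ (fun x : ↥H × ↥H => gl_mkA F (c x)) := by
    obtain ⟨ybar, hybar⟩ := h0
    refine ⟨ybar, fun g h => ?_⟩
    refine (hybar g h).trans ?_
    show gl_mkA F (c (g, h)) - (0 : ℤ) • a (Subgroup.inclusion (le_refl H) g,
      Subgroup.inclusion (le_refl H) h) = gl_mkA F (c (g, h))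
    exact akxp_sub_zero_zsmul (gl_mkA F (c (g, h))) _
  have hD : Function.Injective (MonoidHom.toAdditive (gdiag_hom F)) := by
    intro a b hab
    exact congrArg Additive.ofMul (gdsc_diag_injective F (congrArg Additive.toMul hab))
  have hDs : ∀ (g : ↥H) (a : Additive Fˣ),
      MonoidHom.toAdditive (gdiag_hom F) (g • a) = g • MonoidHom.toAdditive (gdiag_hom F) a := by
    intro g a
    exact congrArg Additive.ofMul (gdsc_smul_diag F (g : F ≃ₐ[ℚ] F) a.toMul).symm
  have hπs : ∀ (g : ↥H) (x : Additive (gl_J F)), gl_mkA F (g • x) = g • gl_mkA F x := by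
    intro g x
    rfl
  have hker : ∀ x : Additive (gl_J F), gl_mkA F x = 0 →
      ∃ a : Additive Fˣ, MonoidHom.toAdditive (gdiag_hom F) a = x := by
    intro x hx
    have h2 : x.toMul ∈ gl_P F :=
      (QuotientGroup.eq_one_iff _).mp (congrArg Additive.toMul hx)
    obtain ⟨a, ha⟩ := (gdiag_mem_P_iff F _).mp h2
    exact ⟨Additive.ofMul a, (congrArg Additive.ofMul ha).symm⟩
  have hsurj : Function.Surjective (gl_mkA F) := by
    intro xbar
    obtain ⟨x, hx⟩ := QuotientGroup.mk'_surjective (gl_P F) xbar.toMul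
    exact ⟨Additive.ofMul x, congrArg Additive.ofMul hx⟩
  obtain ⟨c₀, e, hc₀, he, hce⟩ := akxp_abs (G := ↥H) (A := Additive Fˣ)
    (J := Additive (gl_J F)) (C := Additive (gl_C F)) (MonoidHom.toAdditive (gdiag_hom F))
    (gl_mkA F) hD hDs hπs hker hsurj c hc hcob
  refine ⟨c₀, hc₀, fun q _ ι => ?_⟩
  have hsplit : c = (fun x => MonoidHom.toAdditive (gdiag_hom F) (c₀ x)) + e := by
    funext x
    exact hce x
  have hdiag : gl_locJ q F H ι (fun x => MonoidHom.toAdditive (gdiag_hom F) (c₀ x)) =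
      gl_locF q F H ι c₀ := by
    apply glb_locJ_diag H ι c₀
    intro x r
    rfl
  have hopen : lcf_IsOpen (gl_locU q F H ι) := gic_locU_isOpen q F H ι
  have hcoc₀ : lcf_IsCoc (gl_locU q F H ι) (gl_locF q F H ι c₀) := glb_locF_isCoc H ι c₀ hc₀
  have hcobe : lcf_IsCob (gl_locU q F H ι) (gl_locJ q F H ι e) := glb_locJ_isCob H ι e he
  have hcoce : lcf_IsCoc (gl_locU q F H ι) (gl_locJ q F H ι e) :=
    glb_locJ_isCoc H ι e (akxp_isCoc_of_isCob he)
  show inv q (gl_locU q F H ι) (gl_locF q F H ι c₀) =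
    inv q (gl_locU q F H ι) (gl_locJ q F H ι c)
  rw [hsplit, glb_locJ_add, hdiag, hinv.add q _ hopen _ _ hcoc₀ hcoce,
    (hinv.eq_zero_iff q _ hopen _ hcoce).mpr hcobe, add_zero]

end

end Fermat.Agent.S55
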