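/-
S55 (fifth wave), GLOBAL side, absolute level, package [AK-EXI] (helper10): THE EXPORT.

  `akx_main   : gl_FundStatement → ak_ExiStatement`
  `akx_supply : akx_SupplyStatement`                       (hypothesis-free)

All leaves plugged: [X-LOCSURJ] `akxl_main` (helper12), [X-PRINC] `akxp_main` (helper23),
[X-SUPPLY] `akxs_main`, [P-TOWER] `ptw_main` (helper1), the dictionary `flk_dict` (helper23).
-/
import Fermat.Agent.S55.Global.AkExi
import Fermat.Agent.S55.Global.AkExiLoc
import Fermat.Agent.S55.Global.AkExiPrinc

set_option autoImplicit false

namespace Fermat.Agent.S55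

/-- **[X-SUPPLY]**, hypothesis-free: idele-valued cocycles with prescribed local invariants at
a cyclic level. -/
theorem akx_supply : akx_SupplyStatement := akxs_main akxl_main

/-- **[AK-EXI]** classes with prescribed local invariants, from [FUND]. -/
theorem akx_main (hF : gl_FundStatement) : ak_ExiStatement :=
  akx_of (akxp_main hF) akxl_main

end Fermat.Agent.S55
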