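/-
S55 (fifth wave), GLOBAL side, package [AK-EXI] (helper10), part 3: THE SUM OF THE LOCAL
INVARIANTS OF AN IDELE-VALUED COCYCLE over a place set outside of which they vanish
(the idele-valued twin of helper23's `flk_sum`, `Global/FinLevelKPlace.lean`).
-/
import Mathlib
import Fermat.Agent.S55.Global.FinLevelKPlace

set_option autoImplicit false
set_option linter.style.haveILetI false

namespace Fermat.Agent.S55

open groupCohomology

noncomputable section

local notation "Qbar" => AlgebraicClosure ℚ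

section akx_sum

variable (inv : lcf_InvType)
  (K : IntermediateField ℚ Qbar) {E : Type} [Field E] [NumberField E]
  (j : E →ₐ[ℚ] Qbar) (hn : flk_Stable K j)

/-- The local invariant of an idele-valued cochain at the place `w = (q, g)`. -/
def akx_invJP (w : Nat.Primes × s55_GQ)
    (c : ↥(flk_H K j hn) × ↥(flk_H K j hn) → Additive (gl_J E)) : lcf_QZ :=
  letI : Fact (w.1 : ℕ).Prime := ⟨w.1.2⟩
  gl_invAtJ (w.1 : ℕ) E (flk_H K j hn) (flk_iota j (w.1 : ℕ) w.2) inv c

variable (hinv : lcf_IsInvSystem inv) (hK : K ≤ j.fieldRange)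
  (c : ↥(flk_H K j hn) × ↥(flk_H K j hn) → Additive (gl_J E)) (hc : IsCocycle₂ c)

include hinv hK hc in
/-- the sum over the places above one prime. -/
theorem akx_sum_q (q : ℕ) [Fact q.Prime] (G₀ : Finset s55_GQ)
    (hG : ∀ g ∈ G₀, ∀ g' ∈ G₀, (∃ (τ : lcf_Gal q) (u : s55_GQ), u ∈ K.fixingSubgroup ∧
      g' = localGaloisToGlobal q τ * g * u) → g = g')
    (hout : ∀ g', (∀ g ∈ G₀, ¬ ∃ (τ : lcf_Gal q) (u : s55_GQ), u ∈ K.fixingSubgroup ∧
      g' = localGaloisToGlobal q τ * g * u) →
        gl_invAtJ q E (flk_H K j hn) (flk_iota j q g') inv c = 0) :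
    ∑ᶠ v : gl_PlaceK q E (flk_H K j hn),
        gl_invAtJ q E (flk_H K j hn) (Quotient.out v) inv c =
      ∑ g ∈ G₀, gl_invAtJ q E (flk_H K j hn) (flk_iota j q g) inv c := by
  classical
  let ψ : s55_GQ → gl_PlaceK q E (flk_H K j hn) := fun g =>
    Quotient.mk (gl_placeKSetoid q E (flk_H K j hn)) (flk_iota j q g)
  have hterm : ∀ g, gl_invAtJ q E (flk_H K j hn) (Quotient.out (ψ g)) inv c =
      gl_invAtJ q E (flk_H K j hn) (flk_iota j q g) inv c := by
    intro g
    have hr : (gl_placeKSetoid q E (flk_H K j hn)).r (flk_iota j q g) (Quotient.out (ψ g)) := by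
      apply Quotient.exact (s := gl_placeKSetoid q E (flk_H K j hn))
      exact (Quotient.out_eq (ψ g)).symm
    exact (gic_main inv hinv E (flk_H K j hn) q (flk_iota j q g) (Quotient.out (ψ g)) hr).2 c hc
  have hsupp : Function.support (fun v : gl_PlaceK q E (flk_H K j hn) =>
      gl_invAtJ q E (flk_H K j hn) (Quotient.out v) inv c) ⊆ ↑(G₀.image ψ) := by
    intro v hv
    obtain ⟨g₀, hg₀⟩ := flk_emb j q (Quotient.out v)
    have hv' : ψ g₀ = v := by
      show Quotient.mk _ (flk_iota j q g₀) = v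
      rw [← hg₀]
      exact Quotient.out_eq v
    by_contra hnot
    apply hv
    show gl_invAtJ q E (flk_H K j hn) (Quotient.out v) inv c = 0
    rw [← hv', hterm g₀]
    apply hout
    intro g hg hsame
    apply hnot
    rw [Finset.mem_coe, Finset.mem_image]
    refine ⟨g, hg, ?_⟩
    rw [← hv']
    exact Quotient.sound ((flkp_place K j hn q g hK g₀).2 hsame)
  rw [finsum_eq_sum_of_support_subset _ hsupp, Finset.sum_image]
  · exact Finset.sum_congr rfl (fun g _ => hterm g)
  · intro g hg g' hg' h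
    exact hG g hg g' hg' ((flkp_place K j hn q g hK g').1 (Quotient.exact h))

include hinv hK hc in
/-- the sum over the places above `q : Nat.Primes`. -/
theorem akx_sumP (T : Finset (Nat.Primes × s55_GQ)) (hT : ak_IsPlaceSet K T)
    (hout : ∀ w', ak_Outside K T w' → akx_invJP inv K j hn w' c = 0)
    (q : Nat.Primes) :
    gl_sumPJ inv E (flk_H K j hn) c q =
      ∑ w ∈ T.filter (fun w => w.1 = q), akx_invJP inv K j hn w c := by
  classical
  letI : Fact (q : ℕ).Prime := ⟨q.2⟩
  have h1 := akx_sum_q inv K j hn hinv hK c hc (q : ℕ)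
    ((T.filter (fun w => w.1 = q)).image Prod.snd) ?_ ?_
  · unfold gl_sumPJ
    rw [h1, Finset.sum_image]
    · apply Finset.sum_congr rfl
      rintro ⟨q', g⟩ hw
      have e : q' = q := (Finset.mem_filter.1 hw).2
      subst e
      rfl
    · rintro ⟨q1, g1⟩ h1 ⟨q2, g2⟩ h2 h
      have e1 : q1 = q := (Finset.mem_filter.1 h1).2
      have e2 : q2 = q := (Finset.mem_filter.1 h2).2
      have e3 : g1 = g2 := h
      rw [e1, e2, e3]
  · intro g hg g' hg' hsame
    obtain ⟨w, hw, rfl⟩ := Finset.mem_image.1 hg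
    obtain ⟨w', hw', rfl⟩ := Finset.mem_image.1 hg'
    have hw1 := Finset.mem_filter.1 hw
    have hw1' := Finset.mem_filter.1 hw'
    have hs : ak_SamePlace K w w' := by
      obtain ⟨q1, g1⟩ := w
      obtain ⟨q2, g2⟩ := w'
      have e1 : q1 = q := hw1.2
      have e2 : q2 = q := hw1'.2
      subst e1
      subst e2
      exact ⟨rfl, hsame⟩
    rw [hT w hw1.1 w' hw1'.1 hs]
  · intro g' hg'
    have h2 := hout (q, g') ?_
    · exact h2
    · intro w hw hsame
      obtain ⟨q1, g1⟩ := w
      obtain ⟨e, τ, u, hu, h⟩ := hsame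
      have e' : q1 = q := e
      subst e'
      exact hg' g1 (Finset.mem_image.2 ⟨(q1, g1), Finset.mem_filter.2 ⟨hw, rfl⟩, rfl⟩)
        ⟨τ, u, hu, h⟩

include hinv hK hc in
/-- the sum of all local invariants of an idele-valued cocycle is the sum over a place set
outside of which the invariants vanish. -/
theorem akx_sum (T : Finset (Nat.Primes × s55_GQ)) (hT : ak_IsPlaceSet K T)
    (hout : ∀ w', ak_Outside K T w' → akx_invJP inv K j hn w' c = 0) :
    (Function.support (gl_sumPJ inv E (flk_H K j hn) c)).Finite ∧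
      gl_sumJ inv E (flk_H K j hn) c = ∑ w ∈ T, akx_invJP inv K j hn w c := by
  classical
  have hA := akx_sumP inv K j hn hinv hK c hc T hT hout
  have hsupp : Function.support (gl_sumPJ inv E (flk_H K j hn) c) ⊆ ↑(T.image Prod.fst) := by
    intro q hq
    by_contra hnot
    apply hq
    rw [hA q]
    apply Finset.sum_eq_zero
    intro w hw
    exfalso
    apply hnot
    rw [Finset.mem_coe, Finset.mem_image]
    exact ⟨w, (Finset.mem_filter.1 hw).1, (Finset.mem_filter.1 hw).2⟩
  refine ⟨(Finset.finite_toSet _).subset hsupp, ?_⟩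
  unfold gl_sumJ
  rw [finsum_eq_sum_of_support_subset _ hsupp]
  rw [Finset.sum_congr rfl (fun q _ => hA q)]
  exact Finset.sum_fiberwise_of_maps_to (fun w hw => Finset.mem_image_of_mem Prod.fst hw) _

end akx_sum

end

end Fermat.Agent.S55
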