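/-
S55 (fifth wave), GLOBAL side, package [AK-EXI] (helper10), part 4: [X-SUPPLY].

  `akxs_main : akx_LocSurjStatement → akx_SupplyStatement`

Idele-valued cocycles with prescribed local invariants at a CYCLIC level: the carry cocycle of
the product of the ideles `akx_X` of the places of `T`, with components from [X-LOCSURJ].
-/
import Mathlib
import Fermat.Agent.S55.Global.AkExiDefs
import Fermat.Agent.S55.Global.AkExiIdele
import Fermat.Agent.S55.Global.AkExiCarry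
import Fermat.Agent.S55.Global.AkExiSum
import Fermat.Agent.S55.Local.HilbL

set_option autoImplicit false
set_option linter.style.haveILetI false

namespace Fermat.Agent.S55

open groupCohomology

noncomputable section

local notation "Qbar" => AlgebraicClosure ℚ

section akxs_kernel

variable {E : Type} [Field E] [NumberField E] (j : E →ₐ[ℚ] Qbar)

theorem akxs_stable_self : flk_Stable j.fieldRange j := by
  intro u hu x
  exact ⟨x, ((IntermediateField.mem_fixingSubgroup_iff _ _).1 hu (j x) ⟨x, rfl⟩).symm⟩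

theorem akxs_H_self : flk_H j.fieldRange j (akxs_stable_self j) = ⊥ := by
  rw [eq_bot_iff]
  rintro σ ⟨u, rfl⟩
  rw [Subgroup.mem_bot]
  exact (flk_ker (akxs_stable_self j) u).2 u.2

/-- The local group of the level itself. -/
theorem akxs_locU_bot (q : ℕ) [Fact q.Prime] (g : s55_GQ) :
    gl_locU q E ⊥ (flk_iota j q g) = ak_H j.fieldRange q g := by
  have h := flk_locU j.fieldRange j (akxs_stable_self j) q g le_rfl
  rw [akxs_H_self] at h
  exact h

end akxs_kernel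

section akxs

variable (inv : lcf_InvType)
  (K : IntermediateField ℚ Qbar) {E : Type} [Field E] [NumberField E]
  (j : E →ₐ[ℚ] Qbar) (hn : flk_Stable K j)
  (L : fgD_Log ↥(flk_H K j hn))

/-- The component of the idele `X` at the place `w'` is `1`. -/
def akxs_evOne (w' : Nat.Primes × s55_GQ) (X : gl_J E) : Prop :=
  letI : Fact (w'.1 : ℕ).Prime := ⟨w'.1.2⟩
  (gic_evJ (w'.1 : ℕ) E).ev (flk_iota j (w'.1 : ℕ) w'.2) X = 1

/-- The invariant at `w` of the local cup cocycle of the component of `X`. -/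
def akxs_invX (w : Nat.Primes × s55_GQ) (X : gl_J E) : lcf_QZ :=
  letI : Fact (w.1 : ℕ).Prime := ⟨w.1.2⟩
  inv (w.1 : ℕ) (gl_locU (w.1 : ℕ) E (flk_H K j hn) (flk_iota j (w.1 : ℕ) w.2))
    (lcf_unrCoc (gl_locU (w.1 : ℕ) E (flk_H K j hn) (flk_iota j (w.1 : ℕ) w.2)) L.n
      (akx_theta L (flk_iota j (w.1 : ℕ) w.2))
      ((gic_evJ (w.1 : ℕ) E).ev (flk_iota j (w.1 : ℕ) w.2) X))

theorem akxs_invJP_carry (w : Nat.Primes × s55_GQ) (X : gl_J E) :
    akx_invJP inv K j hn w (akx_carry L X) = akxs_invX inv K j hn L w X := by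
  letI : Fact (w.1 : ℕ).Prime := ⟨w.1.2⟩
  show inv (w.1 : ℕ) _ (gl_locJ (w.1 : ℕ) E (flk_H K j hn) (flk_iota j (w.1 : ℕ) w.2)
    (akx_carry L X)) = _
  rw [akx_locJ_carry]
  rfl

theorem akxs_evOne_one (w' : Nat.Primes × s55_GQ) : akxs_evOne j w' (1 : gl_J E) := by
  letI : Fact (w'.1 : ℕ).Prime := ⟨w'.1.2⟩
  exact map_one _

theorem akxs_evOne_mul (w' : Nat.Primes × s55_GQ) (X Y : gl_J E) (hX : akxs_evOne j w' X)
    (hY : akxs_evOne j w' Y) : akxs_evOne j w' (X * Y) := by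
  letI : Fact (w'.1 : ℕ).Prime := ⟨w'.1.2⟩
  show (gic_evJ (w'.1 : ℕ) E).ev (flk_iota j (w'.1 : ℕ) w'.2) (X * Y) = 1
  rw [map_mul]
  have h1 : (gic_evJ (w'.1 : ℕ) E).ev (flk_iota j (w'.1 : ℕ) w'.2) X = 1 := hX
  have h2 : (gic_evJ (w'.1 : ℕ) E).ev (flk_iota j (w'.1 : ℕ) w'.2) Y = 1 := hY
  rw [h1, h2, one_mul]

theorem akxs_evOne_prod (w' : Nat.Primes × s55_GQ) (T : Finset (Nat.Primes × s55_GQ))
    (X : Nat.Primes × s55_GQ → gl_J E) (h : ∀ w ∈ T, akxs_evOne j w' (X w)) :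
    akxs_evOne j w' (∏ w ∈ T, X w) := by
  classical
  induction T using Finset.induction_on with
  | empty =>
    rw [Finset.prod_empty]
    exact akxs_evOne_one j w'
  | insert a s ha ih =>
    rw [Finset.prod_insert ha]
    exact akxs_evOne_mul j w' _ _ (h a (Finset.mem_insert_self a s))
      (ih (fun w hw => h w (Finset.mem_insert_of_mem hw)))

theorem akxs_invX_mul (w : Nat.Primes × s55_GQ) (X Y : gl_J E) (hY : akxs_evOne j w Y) :
    akxs_invX inv K j hn L w (X * Y) = akxs_invX inv K j hn L w X := by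
  letI : Fact (w.1 : ℕ).Prime := ⟨w.1.2⟩
  have h2 : (gic_evJ (w.1 : ℕ) E).ev (flk_iota j (w.1 : ℕ) w.2) Y = 1 := hY
  unfold akxs_invX
  rw [map_mul, h2, mul_one]

theorem akxs_invX_one (hinv : lcf_IsInvSystem inv) (w : Nat.Primes × s55_GQ) (X : gl_J E)
    (hX : akxs_evOne j w X) : akxs_invX inv K j hn L w X = 0 := by
  letI : Fact (w.1 : ℕ).Prime := ⟨w.1.2⟩
  haveI : NeZero L.n := akx_neZero L
  have h2 : (gic_evJ (w.1 : ℕ) E).ev (flk_iota j (w.1 : ℕ) w.2) X = 1 := hX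
  unfold akxs_invX
  rw [h2]
  have hcoc : lcf_IsCoc (gl_locU (w.1 : ℕ) E (flk_H K j hn) (flk_iota j (w.1 : ℕ) w.2))
      (lcf_unrCoc (gl_locU (w.1 : ℕ) E (flk_H K j hn) (flk_iota j (w.1 : ℕ) w.2)) L.n
        (akx_theta L (flk_iota j (w.1 : ℕ) w.2)) 1) :=
    sym_isCoc_unrCoc (akx_theta_smooth L _) (fun g => smul_one _)
  refine (hinv.eq_zero_iff (w.1 : ℕ) _ (gic_locU_isOpen (w.1 : ℕ) E _ _) _ hcoc).2 ?_
  rw [sym_unrCoc_one]
  exact hilb_isCob_one

/-- The idele of one place, with its local component from [X-LOCSURJ]. -/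
theorem akxs_exists (hLS : akx_LocSurjStatement) (hinv : lcf_IsInvSystem inv)
    (hK : K ≤ j.fieldRange) (w : Nat.Primes × s55_GQ) (t : lcf_QZ)
    (ht : letI : Fact (w.1 : ℕ).Prime := ⟨w.1.2⟩
      ((ak_H j.fieldRange (w.1 : ℕ) w.2).relIndex (ak_H K (w.1 : ℕ) w.2)) • t = 0) :
    ∃ X : gl_J E, (∀ σ : E ≃ₐ[ℚ] E, σ ∈ flk_H K j hn → σ • X = X) ∧
      akxs_invX inv K j hn L w X = t ∧
      ∀ w', ¬ ak_SamePlace K w w' → akxs_evOne j w' X := by
  obtain ⟨r, g⟩ := w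
  letI : Fact (r : ℕ).Prime := ⟨r.2⟩
  haveI : NeZero L.n := akx_neZero L
  have hidx : (sym_ker (akx_theta L (flk_iota j (r : ℕ) g))).relIndex
      (gl_locU (r : ℕ) E (flk_H K j hn) (flk_iota j (r : ℕ) g)) =
      (ak_H j.fieldRange (r : ℕ) g).relIndex (ak_H K (r : ℕ) g) := by
    rw [akx_ker_eq, akxs_locU_bot, flk_locU K j hn (r : ℕ) g hK]
  obtain ⟨x, hx, hxt⟩ := hLS inv hinv (r : ℕ) _
    (gic_locU_isOpen (r : ℕ) E (flk_H K j hn) (flk_iota j (r : ℕ) g)) L.n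
    (akx_theta L (flk_iota j (r : ℕ) g)) (akx_theta_smooth L _) t (by rw [hidx]; exact ht)
  have hx' : ∀ g' : lcf_Gal (r : ℕ),
      g' ∈ gl_locU (r : ℕ) E (flk_H K j hn) (flk_iota j (r : ℕ) g) → g' • x = x :=
    fun g' hg' => hx ⟨g', hg'⟩
  refine ⟨akx_X (flk_H K j hn) (flk_iota j (r : ℕ) g) x hx',
    akx_X_smul (flk_H K j hn) (flk_iota j (r : ℕ) g) x hx', ?_, ?_⟩
  · show inv (r : ℕ) _ (lcf_unrCoc _ L.n _
      ((gic_evJ (r : ℕ) E).ev (flk_iota j (r : ℕ) g)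
        (akx_X (flk_H K j hn) (flk_iota j (r : ℕ) g) x hx'))) = t
    rw [akx_X_ev_self]
    exact hxt
  · rintro ⟨r', g'⟩ hns
    by_cases hr : r' = r
    · subst hr
      show (gic_evJ (r' : ℕ) E).ev (flk_iota j (r' : ℕ) g')
        (akx_X (flk_H K j hn) (flk_iota j (r' : ℕ) g) x hx') = 1
      apply akx_X_ev_not
      intro hrel
      exact hns ((flk_place K j hn hK r' g g').1 hrel)
    · letI : Fact (r' : ℕ).Prime := ⟨r'.2⟩
      have h1 : (akx_X (flk_H K j hn) (flk_iota j (r : ℕ) g) x hx').1 r' = 1 :=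
        akx_X_ne (flk_H K j hn) (flk_iota j (r : ℕ) g) x hx' r' hr
      exact congrArg (fun f : gl_Jq (r' : ℕ) E => f.1 (flk_iota j (r' : ℕ) g')) h1

end akxs

/-- **[X-SUPPLY]** idele-valued cocycles with prescribed local invariants at a cyclic level. -/
theorem akxs_main (hLS : akx_LocSurjStatement) : akx_SupplyStatement := by
  intro inv hinv K E _ _ j hn hK hcyc T hT t ht
  classical
  obtain ⟨σ₀, hσ₀⟩ := hcyc
  let L : fgD_Log ↥(flk_H K j hn) := fgD_Log.ofGen σ₀ hσ₀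
  have hex : ∀ w ∈ T, ∃ X : gl_J E, (∀ σ : E ≃ₐ[ℚ] E, σ ∈ flk_H K j hn → σ • X = X) ∧
      akxs_invX inv K j hn L w X = t w ∧
      ∀ w', ¬ ak_SamePlace K w w' → akxs_evOne j w' X :=
    fun w hw => akxs_exists inv K j hn L hLS hinv hK w (t w) (ht w hw)
  choose! X hX1 hX2 hX3 using hex
  have hinvT : ∀ σ : E ≃ₐ[ℚ] E, σ ∈ flk_H K j hn → σ • (∏ w ∈ T, X w) = ∏ w ∈ T, X w := by
    intro σ hσ
    rw [Finset.smul_prod']
    exact Finset.prod_congr rfl (fun w hw => hX1 w hw σ hσ)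
  have hcoc := akx_carry_isCocycle L (∏ w ∈ T, X w) hinvT
  have hT_inv : ∀ w ∈ T, akx_invJP inv K j hn w (akx_carry L (∏ w ∈ T, X w)) = t w := by
    intro w hw
    rw [akxs_invJP_carry, ← Finset.mul_prod_erase T X hw, akxs_invX_mul, hX2 w hw]
    apply akxs_evOne_prod
    intro w' hw'
    have hne : w' ≠ w := Finset.ne_of_mem_erase hw'
    have hw'T : w' ∈ T := Finset.mem_of_mem_erase hw'
    exact hX3 w' hw'T w (fun hs => hne (hT w' hw'T w hw hs))
  have hout : ∀ w', ak_Outside K T w' →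
      akx_invJP inv K j hn w' (akx_carry L (∏ w ∈ T, X w)) = 0 := by
    intro w' hw'
    rw [akxs_invJP_carry]
    apply akxs_invX_one inv K j hn L hinv
    apply akxs_evOne_prod
    intro w hw
    exact hX3 w hw w' (hw' w hw)
  refine ⟨akx_carry L (∏ w ∈ T, X w), hcoc, hT_inv, hout, ?_⟩
  rw [(akx_sum inv K j hn hinv hK _ hcoc T hT hout).2]
  exact Finset.sum_congr rfl hT_inv

end

end Fermat.Agent.S55
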