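/-
S55 (fifth wave), GLOBAL side, part 3, package [E-COH], implication [AK-H3] (helper24).
Prefix `eah_`.

`theorem eah_h3 : eco_E3Statement → eco_EDivStatement → eco_KumStatement → eco_AbsH3Statement`.

ROUTE (docstring of `eco_AbsH3Statement`).  [E3]: `z = d β₀`, `β₀` root-of-unity valued;
`κ := β₀ ^ p` is an `S`-unit valued cocycle (`d κ = z ^ p = 1`), `κ = γ ^ p · d e` by [E-DIV],
`e = e₁ ^ p` by [E-KUM]; `β := β₀ / (γ · d e₁)` is `μ_p`-valued with coboundary `z`.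
-/
import Fermat.Agent.S55.Global.EcoAbsCore

set_option autoImplicit false

namespace Fermat.Agent.S55

open groupCohomology

noncomputable section

local notation "Qbar" => AlgebraicClosure ℚ

/-- **[AK-H3]** -/
theorem eah_h3 (hE3 : eco_E3Statement) (hDiv : eco_EDivStatement) (hKum : eco_KumStatement) :
    eco_AbsH3Statement := by
  intro inv hinv p S K F hset hF z hz hzl hzp
  have hp := hset.prime
  obtain ⟨F₁, β₀, hFF₁, hF₁, hβ₀l, hβ₀r, hβ₀d⟩ := hE3 inv hinv p S K F hset hF z hz hzl hzp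
  -- the cocycle `κ = β₀ ^ p`
  have hκc : IsMulCocycle₂ (fun x => β₀ x ^ p) := by
    rw [eah_isCoc_iff]
    intro x
    rw [eah_d₂_pow, hβ₀d, hzp]
  have hκu : ∀ x, ak_IsSUnit S (β₀ x ^ p) := by
    intro x
    obtain ⟨k, hk⟩ := hβ₀r x
    exact ec_isSUnit_of_isRoot hp ⟨k, by rw [← pow_mul, mul_comm, pow_mul, hk, one_pow]⟩
  obtain ⟨F₂, γ, e, hF₁F₂, hF₂, hγc, hγl, _, hel, heu, hκ⟩ :=
    hDiv inv hinv p S K F₁ hset hF₁ (fun x => β₀ x ^ p) hκc (eah_lev₂_pow hβ₀l p) hκu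
  obtain ⟨F₃, e₁, hF₂F₃, hF₃, he₁l, he₁⟩ := eah_exists_root hKum hset hF₂ e hel heu
  refine ⟨F₃, fun x => β₀ x / (γ x * ak_d₁ K e₁ x), hFF₁.trans (hF₁F₂.trans hF₂F₃), hF₃,
    ?_, ?_, ?_⟩
  · exact eah_lev₂_div (eah_lev₂_mono (hF₁F₂.trans hF₂F₃) hβ₀l)
      (eah_lev₂_mul (eah_lev₂_mono hF₂F₃ hγl) (eah_lev₂_d₁ hF₃.lev he₁l))
  · intro x
    have h1 : ak_d₁ K e₁ x ^ p = ak_d₁ K e x := by
      rw [← eah_d₁_pow]
      congr 1
      funext g
      exact he₁ g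
    rw [div_pow, mul_pow, h1, ← hκ x, div_self']
  · intro x
    have h1 := eah_d₂_div K β₀ (fun y => γ y * ak_d₁ K e₁ y) x
    have h2 := eah_d₂_mul K γ (ak_d₁ K e₁) x
    rw [h1, h2, (eah_isCoc_iff K γ).1 hγc x, eah_d₂_d₁, mul_one, div_one, hβ₀d]

end

end Fermat.Agent.S55
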