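/-
# S55 / Global / [E-COH] — the final wiring of [K-H2] and [K-H3]

    theorem ec_fin_H3 : ak_H3FStatement → ak_ExiStatement → gl_RecipStatement → gl_HasseStatement →
        eco_GenStatement → eco_ShapStatement → kl_H3Statement
    theorem ec_fin_H2 : ak_ExiStatement → gl_HasseStatement → eco_ShapStatement → kl_H2Statement

Every closed leaf of `Global/EcohDefs.lean` is plugged in (`eord_main`, `efin_main`, `erep_main`,
`esup_main`, `elo_main`, `eoi_main`, `ecln_fin`, `ekum_main`, `etr_main`, `lmup_main`,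
`ecap1_of_kum`, `ec_cap2_main`, `ec_e3_main`, `e2i_main`, `e2s_main`, `ediv_main`, `eah_h2`,
`eah_h3`, `akc_main`, `akh_main`, `flkr_main`); the hypotheses are exactly the packages which are
still open.
-/
import Fermat.Agent.S55.Global.ECohH2
import Fermat.Agent.S55.Global.ECohH3
import Fermat.Agent.S55.Global.ECohCap2
import Fermat.Agent.S55.Global.ECohE3
import Fermat.Agent.S55.Global.EcoAbsH2
import Fermat.Agent.S55.Global.EcoAbsH3
import Fermat.Agent.S55.Global.EcoEDiv
import Fermat.Agent.S55.Global.EcoE2Inj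
import Fermat.Agent.S55.Global.EcoE2Surj
import Fermat.Agent.S55.Global.EcoCap1Fin
import Fermat.Agent.S55.Global.EcoKum
import Fermat.Agent.S55.Global.KShaAdaptFin
import Fermat.Agent.S55.Global.EcoTransfer
import Fermat.Agent.S55.Global.EcoObInv
import Fermat.Agent.S55.Global.EcoLocOb
import Fermat.Agent.S55.Global.EcoSup
import Fermat.Agent.S55.Global.EcoFin
import Fermat.Agent.S55.Global.EcoReps
import Fermat.Agent.S55.Global.EcoOrd
import Fermat.Agent.S55.Global.AkConj
import Fermat.Agent.S55.Global.AkHasse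
import Fermat.Agent.S55.Global.FinLevelKRecip
import Fermat.Agent.S55.Local.LocMup

set_option autoImplicit false

namespace Fermat.Agent.S55

/-- **[CAP-1]**, hypothesis-free. -/
theorem ec_fin_cap1 : eco_Cap1Statement :=
  ecap1_of_kum ekum_main

/-- **[E-CAP2]** from [E-SHAP] alone. -/
theorem ec_fin_cap2 (hShap : eco_ShapStatement) : eco_Cap2Statement :=
  ec_cap2_main eord_main elo_main hShap ecln_fin ekum_main

/-- **[E3]** from [AK-H3F], [AK-EXI], [E-GEN], [E-SHAP]. -/
theorem ec_fin_e3 (hH3F : ak_H3FStatement) (hExi : ak_ExiStatement) (hGen : eco_GenStatement)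
    (hShap : eco_ShapStatement) : eco_E3Statement :=
  ec_e3_main hH3F hExi eord_main efin_main erep_main esup_main eoi_main hGen hShap ecln_fin
    ekum_main

/-- **[E2-INJ]** from [HASSE]. -/
theorem ec_fin_e2inj (hH : gl_HasseStatement) : eco_E2InjStatement :=
  e2i_main (akh_main hH) ec_fin_cap1

/-- **[E2-SURJ]** from [AK-EXI] and [E-SHAP]. -/
theorem ec_fin_e2surj (hExi : ak_ExiStatement) (hShap : eco_ShapStatement) :
    eco_E2SurjStatement :=
  e2s_main hExi (ec_fin_cap2 hShap)

/-- **[E-DIV]** from [RECIP], [HASSE], [AK-EXI], [E-SHAP]. -/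
theorem ec_fin_ediv (hExi : ak_ExiStatement) (hR : gl_RecipStatement) (hH : gl_HasseStatement)
    (hShap : eco_ShapStatement) : eco_EDivStatement :=
  ediv_main (flkr_main hR) (ec_fin_e2surj hExi hShap) (ec_fin_e2inj hH)

/-- **[AK-H3]** from the open packages. -/
theorem ec_fin_absH3 (hH3F : ak_H3FStatement) (hExi : ak_ExiStatement) (hR : gl_RecipStatement)
    (hH : gl_HasseStatement) (hGen : eco_GenStatement) (hShap : eco_ShapStatement) :
    eco_AbsH3Statement :=
  eah_h3 (ec_fin_e3 hH3F hExi hGen hShap) (ec_fin_ediv hExi hR hH hShap) ekum_main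

/-- **[AK-H2]** from the open packages. -/
theorem ec_fin_absH2 (hExi : ak_ExiStatement) (hH : gl_HasseStatement)
    (hShap : eco_ShapStatement) : eco_AbsH2Statement :=
  eah_h2 (ec_fin_e2surj hExi hShap) (ec_fin_e2inj hH) ekum_main akc_main

/-- **[K-H3]** from the open packages. -/
theorem ec_fin_H3 (hH3F : ak_H3FStatement) (hExi : ak_ExiStatement) (hR : gl_RecipStatement)
    (hH : gl_HasseStatement) (hGen : eco_GenStatement) (hShap : eco_ShapStatement) :
    kl_H3Statement :=
  ec_H3_of (ec_fin_absH3 hH3F hExi hR hH hGen hShap) etr_main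

/-- **[K-H2]** from the open packages. -/
theorem ec_fin_H2 (hExi : ak_ExiStatement) (hH : gl_HasseStatement)
    (hShap : eco_ShapStatement) : kl_H2Statement :=
  ec_H2_of (ec_fin_absH2 hExi hH hShap) lmup_main

end Fermat.Agent.S55
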