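/-
# S55 / Global / [E-COH] — closed form of [K-H2] and [K-H3]

All leaves of `Global/EcohDefs.lean` are closed on main (the last two: helper6's `egen_main`,
`eshp_main`).  The remaining hypotheses are the packages OUTSIDE [E-COH]:

    theorem ec_closed_H2 : ak_ExiStatement → gl_HasseStatement → kl_H2Statement
    theorem ec_closed_H3 : ak_H3FStatement → ak_ExiStatement → gl_RecipStatement →
        gl_HasseStatement → kl_H3Statement
-/
import Fermat.Agent.S55.Global.ECohFin
import Fermat.Agent.S55.Global.EcoGen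
import Fermat.Agent.S55.Global.EcoShap

set_option autoImplicit false

namespace Fermat.Agent.S55

/-- **[E-CAP2]**, hypothesis-free. -/
theorem ec_closed_cap2 : eco_Cap2Statement := ec_fin_cap2 eshp_main

/-- **[E2-SURJ]** from [AK-EXI]. -/
theorem ec_closed_e2surj (hExi : ak_ExiStatement) : eco_E2SurjStatement :=
  ec_fin_e2surj hExi eshp_main

/-- **[E3]** from [AK-H3F], [AK-EXI]. -/
theorem ec_closed_e3 (hH3F : ak_H3FStatement) (hExi : ak_ExiStatement) : eco_E3Statement :=
  ec_fin_e3 hH3F hExi egen_main eshp_main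

/-- **[AK-H2]** from [AK-EXI], [HASSE]. -/
theorem ec_closed_absH2 (hExi : ak_ExiStatement) (hH : gl_HasseStatement) :
    eco_AbsH2Statement :=
  ec_fin_absH2 hExi hH eshp_main

/-- **[AK-H3]** from [AK-H3F], [AK-EXI], [RECIP], [HASSE]. -/
theorem ec_closed_absH3 (hH3F : ak_H3FStatement) (hExi : ak_ExiStatement)
    (hR : gl_RecipStatement) (hH : gl_HasseStatement) : eco_AbsH3Statement :=
  ec_fin_absH3 hH3F hExi hR hH egen_main eshp_main

/-- **[K-H2]** from [AK-EXI], [HASSE]. -/
theorem ec_closed_H2 (hExi : ak_ExiStatement) (hH : gl_HasseStatement) : kl_H2Statement :=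
  ec_fin_H2 hExi hH eshp_main

/-- **[K-H3]** from [AK-H3F], [AK-EXI], [RECIP], [HASSE]. -/
theorem ec_closed_H3 (hH3F : ak_H3FStatement) (hExi : ak_ExiStatement)
    (hR : gl_RecipStatement) (hH : gl_HasseStatement) : kl_H3Statement :=
  ec_fin_H3 hH3F hExi hR hH egen_main eshp_main

end Fermat.Agent.S55
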