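/-
S55 (fifth wave), GLOBAL side, part 3, package [E-COH]: [CAP-1] CLOSED
(`ecap1_of_kum` with helper18's `ekum_main`).
Owner: helper7.  Prefix `ecap1_`.
-/
import Mathlib
import Fermat.Agent.S55.Global.EcoCap1Fin
import Fermat.Agent.S55.Global.EcoKum

set_option autoImplicit false

namespace Fermat.Agent.S55

/-- **[CAP-1]**, hypothesis-free. -/
theorem ecap1_fin : eco_Cap1Statement := ecap1_of_kum ekum_main

end Fermat.Agent.S55
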