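/-
S55 (fifth wave), GLOBAL side, package [AK-H3F] (helper17), leaf [H3-CORE], part 1:
the ABSTRACT algebra.  Prefix `h3fc_`.  Mathlib + FG/Defs3 only.

* `h3fc_card_smul`  : `#G` kills `H²(G, -)` (explicitly: `#G • f = d (g ↦ ∑_k f (g, k))`);
* `h3fc_infl_cob`   : inflation of a 2-coboundary along `π : G' → G`, `φ : C → C'`;
* `h3fc_abs`        : `A → J → C` an "exact sequence" of `G`-modules, `Z : G³ → A` with
                      `diag ∘ Z = d Y`, `Y : G² → J`; if `mk ∘ Y` is cohomologous to `mk ∘ c`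
                      for a `J`-valued 2-COCYCLE `c`, then `Z` is a coboundary;
* `h3fc_top₂`, `h3fc_top₃` : the clauses of `fg_TateHyp` at `K = ⊤`, for cochains on `G`.
-/
import Mathlib
import Fermat.Agent.S55.FG.Defs3

set_option autoImplicit false
set_option linter.unusedSectionVars false

namespace Fermat.Agent.S55

open groupCohomology

section card

variable {G C : Type*} [Group G] [Fintype G] [AddCommGroup C] [DistribMulAction G C]

/-- The order of a finite group kills `H²`. -/
theorem h3fc_card_smul (f : G × G → C) (hf : IsCocycle₂ f) :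
    IsCoboundary₂ (fun x => (Fintype.card G : ℤ) • f x) := by
  refine ⟨fun g => ∑ k : G, f (g, k), fun g h => ?_⟩
  have h1 : ∀ k : G, g • f (h, k) = f (g * h, k) + f (g, h) - f (g, h * k) := by
    intro k
    have := hf g h k
    rw [eq_sub_iff_add_eq]
    exact this.symm
  have h2 : ∑ k : G, f (g, h * k) = ∑ k : G, f (g, k) :=
    Equiv.sum_comp (Equiv.mulLeft h) (fun k => f (g, k))
  show g • ∑ k : G, f (h, k) - ∑ k : G, f (g * h, k) + ∑ k : G, f (g, k) =
    (Fintype.card G : ℤ) • f (g, h)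
  rw [Finset.smul_sum]
  simp only [h1]
  rw [Finset.sum_sub_distrib, Finset.sum_add_distrib, h2, Finset.sum_const, Finset.card_univ]
  rw [natCast_zsmul]
  abel

/-- The order of a finite group kills `H²` (`Nat.card` version). -/
theorem h3fc_natCard_smul {G C : Type*} [Group G] [Finite G] [AddCommGroup C]
    [DistribMulAction G C] (f : G × G → C) (hf : IsCocycle₂ f) :
    IsCoboundary₂ (fun x => (Nat.card G : ℤ) • f x) := by
  have : Fintype G := Fintype.ofFinite G
  rw [Nat.card_eq_fintype_card]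
  exact h3fc_card_smul f hf

end card

section cob

variable {G C : Type*} [Group G] [AddCommGroup C] [DistribMulAction G C]

/-- Coboundaries are closed under subtraction. -/
theorem h3fc_cob_sub (f f' : G × G → C) (hf : IsCoboundary₂ f) (hf' : IsCoboundary₂ f') :
    IsCoboundary₂ (fun x => f x - f' x) := by
  obtain ⟨b, hb⟩ := hf
  obtain ⟨b', hb'⟩ := hf'
  refine ⟨fun g => b g - b' g, fun g h => ?_⟩
  show g • (b h - b' h) - (b (g * h) - b' (g * h)) + (b g - b' g) = f (g, h) - f' (g, h)
  rw [← hb g h, ← hb' g h, smul_sub]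
  abel

/-- Coboundaries are closed under integer multiples. -/
theorem h3fc_cob_zsmul (m : ℤ) (f : G × G → C) (hf : IsCoboundary₂ f) :
    IsCoboundary₂ (fun x => m • f x) := by
  obtain ⟨b, hb⟩ := hf
  refine ⟨fun g => m • b g, fun g h => ?_⟩
  show g • (m • b h) - m • b (g * h) + m • b g = m • f (g, h)
  rw [← hb g h, smul_add, smul_sub, smul_comm g m (b h)]

end cob

section infl

variable {G G' C C' : Type*} [Group G] [Group G'] [AddCommGroup C] [AddCommGroup C']
  [DistribMulAction G C] [DistribMulAction G' C']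

/-- Inflation of a 2-coboundary. -/
theorem h3fc_infl_cob (π : G' →* G) (φ : C →+ C')
    (hφ : ∀ (g : G') (c : C), φ (π g • c) = g • φ c) (f : G × G → C) (hf : IsCoboundary₂ f) :
    IsCoboundary₂ (fun x : G' × G' => φ (f (π x.1, π x.2))) := by
  obtain ⟨b, hb⟩ := hf
  refine ⟨fun g => φ (b (π g)), fun g h => ?_⟩
  show g • φ (b (π h)) - φ (b (π (g * h))) + φ (b (π g)) = φ (f (π g, π h))
  rw [← hb (π g) (π h), map_add, map_sub, hφ, map_mul]

/-- Inflation of a "primitive" relation `D ∘ Z = d Y`. -/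
theorem h3fc_infl_prim {A A' : Type*} [AddCommGroup A] [AddCommGroup A'] (π : G' →* G)
    (φA : A →+ A') (φ : C →+ C') (D : A →+ C) (D' : A' →+ C')
    (hφ : ∀ (g : G') (c : C), φ (π g • c) = g • φ c) (hD : ∀ a : A, φ (D a) = D' (φA a))
    (Z : G × G × G → A) (Y : G × G → C)
    (hY : ∀ g h k : G, g • Y (h, k) - Y (g * h, k) + Y (g, h * k) - Y (g, h) = D (Z (g, h, k)))
    (g h k : G') :
    g • φ (Y (π h, π k)) - φ (Y (π (g * h), π k)) + φ (Y (π g, π (h * k))) - φ (Y (π g, π h)) =
      D' (φA (Z (π g, π h, π k))) := by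
  rw [← hD, ← hY (π g) (π h) (π k), map_sub, map_add, map_sub, hφ, map_mul, map_mul]

/-- Inflation of a 2-cocycle. -/
theorem h3fc_infl_coc (π : G' →* G) (φ : C →+ C')
    (hφ : ∀ (g : G') (c : C), φ (π g • c) = g • φ c) (f : G × G → C) (hf : IsCocycle₂ f) :
    IsCocycle₂ (fun x : G' × G' => φ (f (π x.1, π x.2))) := by
  intro g h k
  show φ (f (π (g * h), π k)) + φ (f (π g, π h)) =
    g • φ (f (π h, π k)) + φ (f (π g, π (h * k)))
  rw [← hφ, ← map_add, ← map_add, map_mul, map_mul, hf (π g) (π h) (π k)]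

end infl

section abs

variable {G A J C : Type*} [Group G] [AddCommGroup A] [AddCommGroup J] [AddCommGroup C]
  [DistribMulAction G A] [DistribMulAction G J] [DistribMulAction G C]

/-- The image in `C` of a `J`-valued cochain whose coboundary is principal is a cocycle. -/
theorem h3fc_mk_isCocycle (D : A →+ J) (mk : J →+ C)
    (hmks : ∀ (g : G) (x : J), mk (g • x) = g • mk x) (hmkD : ∀ a : A, mk (D a) = 0)
    (Z : G × G × G → A) (Y : G × G → J)
    (hY : ∀ g h k : G, g • Y (h, k) - Y (g * h, k) + Y (g, h * k) - Y (g, h) = D (Z (g, h, k))) :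
    IsCocycle₂ (fun x => mk (Y x)) := by
  intro g h k
  have h1 := congrArg mk (hY g h k)
  rw [hmkD, map_sub, map_add, map_sub, hmks] at h1
  show mk (Y (g * h, k)) + mk (Y (g, h)) = g • mk (Y (h, k)) + mk (Y (g, h * k))
  linear_combination (norm := abel) - h1

/-- **The abstract core.** -/
theorem h3fc_abs (D : A →+ J) (mk : J →+ C) (hD : Function.Injective D)
    (hDs : ∀ (g : G) (a : A), D (g • a) = g • D a)
    (hmks : ∀ (g : G) (x : J), mk (g • x) = g • mk x)
    (hker : ∀ x : J, mk x = 0 → ∃ a : A, D a = x) (hsurj : Function.Surjective mk)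
    (Z : G × G × G → A) (Y : G × G → J)
    (hY : ∀ g h k : G, g • Y (h, k) - Y (g * h, k) + Y (g, h * k) - Y (g, h) = D (Z (g, h, k)))
    (c : G × G → J) (hc : IsCocycle₂ c)
    (hK : IsCoboundary₂ (fun x => mk (Y x) - mk (c x))) :
    fg_IsCoboundary₃ Z := by
  obtain ⟨vbar, hvbar⟩ := hK
  choose v hv using fun g : G => hsurj (vbar g)
  have hprin : ∀ x : G × G, ∃ a : A,
      D a = Y x - c x - (x.1 • v x.2 - v (x.1 * x.2) + v x.1) := by
    intro x
    apply hker
    have h1 : x.1 • vbar x.2 - vbar (x.1 * x.2) + vbar x.1 = mk (Y x) - mk (c x) :=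
      hvbar x.1 x.2
    rw [map_sub, map_sub, map_add, map_sub, hmks, hv, hv, hv, h1, sub_self]
  choose f hf using hprin
  refine ⟨f, fun g h k => hD ?_⟩
  rw [map_sub, map_add, map_sub, hDs, hf, hf, hf, hf, ← hY g h k]
  have hc' : c (g * h, k) + c (g, h) = g • c (h, k) + c (g, h * k) := hc g h k
  simp only [smul_sub, smul_add, mul_smul, mul_assoc]
  linear_combination (norm := abel) hc'

end abs

section top

variable {G A : Type*} [Group G] [AddCommGroup A] [DistribMulAction G A]

/-- Clause 2 of `fg_TateHyp` at `K = ⊤`: every 2-cocycle of `G` is a multiple of `a` up to a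
coboundary. -/
theorem h3fc_top₂ {a : G × G → A} (hT : fg_TateHyp a) (f : G × G → A) (hf : IsCocycle₂ f) :
    ∃ m : ℤ, IsCoboundary₂ (fun x => f x - m • a x) := by
  obtain ⟨m, b, hb⟩ := (hT.2 ⊤).2.1 (fun x => f ((x.1 : G), (x.2 : G)))
    (fun g h k => hf (g : G) (h : G) (k : G))
  refine ⟨m, fun g => b ⟨g, Subgroup.mem_top g⟩, fun g h => ?_⟩
  exact hb ⟨g, Subgroup.mem_top g⟩ ⟨h, Subgroup.mem_top h⟩

/-- Clause 3 of `fg_TateHyp` at `K = ⊤`: the class of `a` has order divisible by `#G`. -/
theorem h3fc_top₃ {a : G × G → A} (hT : fg_TateHyp a) (m : ℤ)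
    (hm : IsCoboundary₂ (fun x => m • a x)) : (Nat.card G : ℤ) ∣ m := by
  have h1 : (Nat.card (⊤ : Subgroup G) : ℤ) ∣ m := by
    apply (hT.2 ⊤).2.2 m
    obtain ⟨b, hb⟩ := hm
    exact ⟨fun g => b (g : G), fun g h => hb (g : G) (h : G)⟩
  rwa [Subgroup.card_top] at h1

/-- If `n` kills the class of the 2-cocycle `f`, then `f ~ M • a` with `#G ∣ n * M`. -/
theorem h3fc_order {a : G × G → A} (hT : fg_TateHyp a) (n : ℤ) (f : G × G → A)
    (hf : IsCocycle₂ f) (hn : IsCoboundary₂ (fun x => n • f x)) :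
    ∃ M d : ℤ, IsCoboundary₂ (fun x => f x - M • a x) ∧ n * M = (Nat.card G : ℤ) * d := by
  obtain ⟨M, hM⟩ := h3fc_top₂ hT f hf
  have hnM : IsCoboundary₂ (fun x => (n * M) • a x) := by
    have h1 := h3fc_cob_sub _ _ hn (h3fc_cob_zsmul n _ hM)
    have heq : (fun x : G × G => (n * M) • a x) =
        fun x : G × G => n • f x - n • (f x - M • a x) := by
      funext x
      rw [smul_sub, sub_sub_cancel, mul_smul]
    rw [heq]
    exact h1
  obtain ⟨d, hd⟩ := h3fc_top₃ hT _ hnM
  exact ⟨M, d, hM, hd⟩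

/-- Two cochains cohomologous to the same multiple of `a` are cohomologous. -/
theorem h3fc_diff (a f c : G × G → A) (M : ℤ) (hM : IsCoboundary₂ (fun x => f x - M • a x))
    (hc : IsCoboundary₂ (fun x => c x - M • a x)) : IsCoboundary₂ (fun x => f x - c x) := by
  have h1 := h3fc_cob_sub _ _ hM hc
  have heq : (fun x : G × G => f x - c x) =
      fun x : G × G => (f x - M • a x) - (c x - M • a x) := by
    funext x
    abel
  rw [heq]
  exact h1

end top

end Fermat.Agent.S55
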