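/-
S55 (fifth wave), GLOBAL side, package [AK-H3F] (helper17), leaf [H3-CORE], part 2:

  `h3fc_main : gl_FundStatement → h3f_JH3Statement → h3f_SuppSumStatement → h3f_CoreStatement`.

Steps (2)-(5) of the header of Global/H3FDefs.lean.  The fundamental class is only needed at
the UPPER level `(F', H')`: the class of `mkA ∘ infl j` is `M • a'`, `#H` kills it (because `#H`
kills `H²(H, C_F)`), hence `#H' ∣ #H · M`, and `M / #H' = y / n_w` for a suitable integer `y`
since `#H ∣ n_w`; [SUPP-SUM] supplies an idele-valued 2-cocycle `c'` with sum of invariants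
`y / n_w`, whose class is `M • a'` by the compatibility clause of [FUND]; `h3fc_abs`.
Prefix `h3fc_`.
-/
import Mathlib
import Fermat.Agent.S55.Global.H3FDefs
import Fermat.Agent.S55.Global.H3FCoreAbs
import Fermat.Agent.S55.Global.Diag
import Fermat.Agent.S55.Global.GalDescent
import Fermat.Agent.S55.Global.ResSum

set_option autoImplicit false

namespace Fermat.Agent.S55

open groupCohomology

noncomputable section

section tower

variable {F F' : Type} [Field F] [Field F'] [NumberField F] [NumberField F']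
  {H : Subgroup (F ≃ₐ[ℚ] F)} {H' : Subgroup (F' ≃ₐ[ℚ] F')}

/-- `gl_mapJ` is equivariant along a tower. -/
theorem h3fc_mapJ_smul (t : gl_Tower F F' H H') (σ' : ↥H') (x : gl_J F) :
    gl_mapJ t.j (((t.π σ' : ↥H) : F ≃ₐ[ℚ] F) • x) =
      ((σ' : ↥H') : F' ≃ₐ[ℚ] F') • gl_mapJ t.j x := by
  apply Subtype.ext
  funext r
  have : Fact (r : ℕ).Prime := ⟨r.2⟩
  apply Subtype.ext
  funext ι
  show (x.1 r).1 ((ι.comp t.j).comp (((t.π σ' : ↥H) : F ≃ₐ[ℚ] F) : F →ₐ[ℚ] F)) =
    (x.1 r).1 ((ι.comp (((σ' : ↥H') : F' ≃ₐ[ℚ] F') : F' →ₐ[ℚ] F')).comp t.j)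
  have heq : (ι.comp t.j).comp (((t.π σ' : ↥H) : F ≃ₐ[ℚ] F) : F →ₐ[ℚ] F) =
      (ι.comp (((σ' : ↥H') : F' ≃ₐ[ℚ] F') : F' →ₐ[ℚ] F')).comp t.j := by
    apply AlgHom.ext
    intro y
    exact congrArg ι (t.compat σ' y)
  rw [heq]

/-- `gl_mapJ` and the diagonal embeddings. -/
theorem h3fc_mapJ_diag (j : F →ₐ[ℚ] F') (a : Fˣ) :
    gl_mapJ j (gdiag_hom F a) = gdiag_hom F' (Units.map (j : F →* F') a) := by
  apply Subtype.ext
  funext r
  exact gl_mapJP_diagP j r a

/-- `gl_mapC` is equivariant along a tower. -/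
theorem h3fc_mapC_smul (t : gl_Tower F F' H H') (σ' : ↥H') (c : gl_C F) :
    gl_mapC t.j (((t.π σ' : ↥H) : F ≃ₐ[ℚ] F) • c) =
      ((σ' : ↥H') : F' ≃ₐ[ℚ] F') • gl_mapC t.j c := by
  induction c using QuotientGroup.induction_on with
  | H x =>
    rw [gl_smul_mk, gl_mapC_mk, gl_mapC_mk, gl_smul_mk, h3fc_mapJ_smul]

end tower

section side

variable (F : Type) [Field F] [NumberField F] (H : Subgroup (F ≃ₐ[ℚ] F))

theorem h3fc_D_injective :
    Function.Injective (MonoidHom.toAdditive (gdiag_hom F) : Additive Fˣ →+ Additive (gl_J F)) := by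
  intro a b hab
  exact congrArg Additive.ofMul (gdsc_diag_injective F (congrArg Additive.toMul hab))

theorem h3fc_D_smul (g : ↥H) (a : Additive Fˣ) :
    (MonoidHom.toAdditive (gdiag_hom F) : Additive Fˣ →+ Additive (gl_J F)) (g • a) =
      g • (MonoidHom.toAdditive (gdiag_hom F) : Additive Fˣ →+ Additive (gl_J F)) a :=
  congrArg Additive.ofMul (gdsc_smul_diag F (g : F ≃ₐ[ℚ] F) a.toMul).symm

theorem h3fc_mk_smul (g : ↥H) (x : Additive (gl_J F)) :
    gl_mkA F (g • x) = g • gl_mkA F x := rfl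

theorem h3fc_mk_D (a : Additive Fˣ) :
    gl_mkA F ((MonoidHom.toAdditive (gdiag_hom F) : Additive Fˣ →+ Additive (gl_J F)) a) = 0 :=
  congrArg Additive.ofMul ((QuotientGroup.eq_one_iff _).mpr (gdiag_hom_mem_P F a.toMul))

theorem h3fc_mk_ker (x : Additive (gl_J F)) (hx : gl_mkA F x = 0) :
    ∃ a : Additive Fˣ,
      (MonoidHom.toAdditive (gdiag_hom F) : Additive Fˣ →+ Additive (gl_J F)) a = x := by
  have h2 : x.toMul ∈ gl_P F :=
    (QuotientGroup.eq_one_iff _).mp (congrArg Additive.toMul hx)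
  obtain ⟨a, ha⟩ := (gdiag_mem_P_iff F _).mp h2
  exact ⟨Additive.ofMul a, (congrArg Additive.ofMul ha).symm⟩

theorem h3fc_mk_surjective : Function.Surjective (gl_mkA F) := by
  intro xbar
  obtain ⟨x, hx⟩ := QuotientGroup.mk'_surjective (gl_P F) xbar.toMul
  exact ⟨Additive.ofMul x, congrArg Additive.ofMul hx⟩

end side

set_option synthInstance.maxHeartbeats 400000 in
set_option maxHeartbeats 1000000 in
/-- **[H3-CORE]** -/
theorem h3fc_main (hFund : gl_FundStatement) (hJ : h3f_JH3Statement)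
    (hS : h3f_SuppSumStatement) : h3f_CoreStatement := by
  intro inv hinv F F' _ _ _ _ p hp hp2 hζ H H' t hH' q _ ι' hdiv z hz
  -- (1) the idele-valued primitive of `diag ∘ z`
  obtain ⟨j, hj⟩ := hJ inv hinv F H z hz
  have hj' : ∀ g h k : ↥H, g • j (h, k) - j (g * h, k) + j (g, h * k) - j (g, h) =
      (MonoidHom.toAdditive (gdiag_hom F) : Additive Fˣ →+ Additive (gl_J F)) (z (g, h, k)) := by
    intro g h k
    apply Additive.toMul.injective
    apply Subtype.ext
    funext r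
    exact hj g h k r
  -- (2) the fundamental class at the upper level
  obtain ⟨ζ, hζ⟩ := hζ
  have hζ' : ∃ ζ' : F', IsPrimitiveRoot ζ' p :=
    ⟨t.j ζ, hζ.map_of_injective (t.j : F →+* F').injective⟩
  obtain ⟨a', hT', hcompat⟩ := hFund inv hinv F' p hp hp2 hζ' H' hH'
  -- (3) the inflated relation
  have hφJ : ∀ (g : ↥H') (x : Additive (gl_J F)),
      (MonoidHom.toAdditive (gl_mapJ t.j) : Additive (gl_J F) →+ Additive (gl_J F'))
        (t.π g • x) =
      g • (MonoidHom.toAdditive (gl_mapJ t.j) : Additive (gl_J F) →+ Additive (gl_J F')) x :=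
    fun g x => congrArg Additive.ofMul (h3fc_mapJ_smul t g x.toMul)
  have hφC : ∀ (g : ↥H') (x : Additive (gl_C F)),
      (MonoidHom.toAdditive (gl_mapC t.j) : Additive (gl_C F) →+ Additive (gl_C F'))
        (t.π g • x) =
      g • (MonoidHom.toAdditive (gl_mapC t.j) : Additive (gl_C F) →+ Additive (gl_C F')) x :=
    fun g x => congrArg Additive.ofMul (h3fc_mapC_smul t g x.toMul)
  have hDD : ∀ a : Additive Fˣ,
      (MonoidHom.toAdditive (gl_mapJ t.j) : Additive (gl_J F) →+ Additive (gl_J F'))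
        ((MonoidHom.toAdditive (gdiag_hom F) : Additive Fˣ →+ Additive (gl_J F)) a) =
      (MonoidHom.toAdditive (gdiag_hom F') : Additive F'ˣ →+ Additive (gl_J F'))
        ((MonoidHom.toAdditive (Units.map (t.j : F →* F')) : Additive Fˣ →+ Additive F'ˣ) a) :=
    fun a => congrArg Additive.ofMul (h3fc_mapJ_diag t.j a.toMul)
  have hY : ∀ g h k : ↥H', g • gl_inflJ t j (h, k) - gl_inflJ t j (g * h, k) +
      gl_inflJ t j (g, h * k) - gl_inflJ t j (g, h) =
      (MonoidHom.toAdditive (gdiag_hom F') : Additive F'ˣ →+ Additive (gl_J F'))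
        (h3f_infl₃ t z (g, h, k)) :=
    fun g h k => h3fc_infl_prim (G := ↥H) (G' := ↥H') (C := Additive (gl_J F))
      (C' := Additive (gl_J F')) (A := Additive Fˣ) (A' := Additive F'ˣ) t.π
      (MonoidHom.toAdditive (Units.map (t.j : F →* F')) : Additive Fˣ →+ Additive F'ˣ)
      (MonoidHom.toAdditive (gl_mapJ t.j) : Additive (gl_J F) →+ Additive (gl_J F'))
      (MonoidHom.toAdditive (gdiag_hom F) : Additive Fˣ →+ Additive (gl_J F))
      (MonoidHom.toAdditive (gdiag_hom F') : Additive F'ˣ →+ Additive (gl_J F'))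
      hφJ hDD z j hj' g h k
  -- (4) the classes in `C`
  have hcocj : IsCocycle₂ (fun x => gl_mkA F (j x)) :=
    h3fc_mk_isCocycle (G := ↥H) (A := Additive Fˣ) (J := Additive (gl_J F))
      (C := Additive (gl_C F))
      (MonoidHom.toAdditive (gdiag_hom F) : Additive Fˣ →+ Additive (gl_J F))
      (gl_mkA F) (h3fc_mk_smul F H) (h3fc_mk_D F) z j hj'
  have hcocY : IsCocycle₂ (fun x => gl_mkA F' (gl_inflJ t j x)) :=
    h3fc_mk_isCocycle (G := ↥H') (A := Additive F'ˣ) (J := Additive (gl_J F'))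
      (C := Additive (gl_C F'))
      (MonoidHom.toAdditive (gdiag_hom F') : Additive F'ˣ →+ Additive (gl_J F'))
      (gl_mkA F') (h3fc_mk_smul F' H') (h3fc_mk_D F') (h3f_infl₃ t z) (gl_inflJ t j) hY
  have hfinH : Finite ↥H := inferInstance
  have hfinH' : Finite ↥H' := inferInstance
  have hn := h3fc_natCard_smul (G := ↥H) (C := Additive (gl_C F)) _ hcocj
  have hn' := h3fc_infl_cob (G := ↥H) (G' := ↥H') (C := Additive (gl_C F))
    (C' := Additive (gl_C F')) t.π
    (MonoidHom.toAdditive (gl_mapC t.j) : Additive (gl_C F) →+ Additive (gl_C F')) hφC _ hn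
  have hn'' : IsCoboundary₂ (fun x : ↥H' × ↥H' =>
      (Nat.card ↥H : ℤ) • gl_mkA F' (gl_inflJ t j x)) := by
    have heq : (fun x : ↥H' × ↥H' => (Nat.card ↥H : ℤ) • gl_mkA F' (gl_inflJ t j x)) =
        fun x : ↥H' × ↥H' =>
          (MonoidHom.toAdditive (gl_mapC t.j) : Additive (gl_C F) →+ Additive (gl_C F'))
            ((Nat.card ↥H : ℤ) • gl_mkA F (j (t.π x.1, t.π x.2))) := by
      funext x
      exact (map_zsmul
        (MonoidHom.toAdditive (gl_mapC t.j) : Additive (gl_C F) →+ Additive (gl_C F'))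
        (Nat.card ↥H : ℤ) (gl_mkA F (j (t.π x.1, t.π x.2)))).symm
    rw [heq]
    exact hn'
  obtain ⟨M, d, hM, hd⟩ := h3fc_order (G := ↥H') (A := Additive (gl_C F')) hT'
    (Nat.card ↥H : ℤ) _ hcocY hn''
  -- (5) the arithmetic
  have hnw : (gl_locU q F' ⊥ ι').relIndex (gl_locU q F' H' ι') ≠ 0 := by
    rw [grs_relIndex_eq]
    exact Subgroup.index_ne_zero_of_finite
  obtain ⟨e, he⟩ := hdiv
  have he0 : e ≠ 0 := by
    rintro rfl
    exact hnw (by rw [he, mul_zero])
  have hn0 : (Nat.card ↥H : ℚ) ≠ 0 := by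
    exact_mod_cast (Nat.card_pos (α := ↥H)).ne'
  have hn0' : (Nat.card ↥H' : ℚ) ≠ 0 := by
    exact_mod_cast (Nat.card_pos (α := ↥H')).ne'
  have he0' : (e : ℚ) ≠ 0 := by exact_mod_cast he0
  have hdQ : (Nat.card ↥H : ℚ) * (M : ℚ) = (Nat.card ↥H' : ℚ) * (d : ℚ) := by
    exact_mod_cast hd
  have key : (((e : ℤ) * d : ℤ) : ℚ) /
      (((gl_locU q F' ⊥ ι').relIndex (gl_locU q F' H' ι') : ℕ) : ℚ) =
      (M : ℚ) / (Nat.card ↥H' : ℚ) := by
    rw [he]
    push_cast
    rw [div_eq_div_iff (mul_ne_zero hn0 he0') hn0']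
    linear_combination (-(e : ℚ)) * hdQ
  -- (6) the supply
  obtain ⟨c', hc', hsum⟩ := hS inv hinv F' H' q ι' ((e : ℤ) * d)
  rw [key] at hsum
  have hcp := hcompat H' le_rfl c' hc' M hsum
  have hcp' : IsCoboundary₂ (fun x : ↥H' × ↥H' => gl_mkA F' (c' x) - M • a' x) := hcp
  have hK : IsCoboundary₂ (fun x : ↥H' × ↥H' =>
      gl_mkA F' (gl_inflJ t j x) - gl_mkA F' (c' x)) :=
    h3fc_diff (G := ↥H') (A := Additive (gl_C F')) a' _ _ M hM hcp'
  exact h3fc_abs (G := ↥H') (A := Additive F'ˣ) (J := Additive (gl_J F'))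
    (C := Additive (gl_C F'))
    (MonoidHom.toAdditive (gdiag_hom F') : Additive F'ˣ →+ Additive (gl_J F'))
    (gl_mkA F') (h3fc_D_injective F') (h3fc_D_smul F' H') (h3fc_mk_smul F' H')
    (h3fc_mk_ker F') (h3fc_mk_surjective F') (h3f_infl₃ t z) (gl_inflJ t j) hY c' hc' hK

end

end Fermat.Agent.S55
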