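/-
S55 (fifth wave), GLOBAL side, package [AK-H3F] (owner helper17): CLOSED.

  `h3f_fin : ak_H3FStatement`                      (HYPOTHESIS-FREE)
  `h3f_fund : gl_FundStatement`                    (HYPOTHESIS-FREE; = helper19's `fof_main` with
                                                   [RECIP], [H1], [H2-LE] plugged)

Inputs: [FUND-OF] `fof_main` (helper19), [RECIP] `rof_fin'` (helper28) with [R-CYC] `rca_fin`
(helper14), [H1]/[H2-LE] `sec_H1`/`sec_H2Le` (Global/SecondMain.lean), [LOC-H3] `h3l_main`
(helper5), and `h3f_main` (Global/H3FMain.lean).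
-/
import Fermat.Agent.S55.Global.H3FMain
import Fermat.Agent.S55.Global.FundOf
import Fermat.Agent.S55.Global.RecipFin
import Fermat.Agent.S55.Global.RecCycMain
import Fermat.Agent.S55.Global.SecondMain
import Fermat.Agent.S55.Local.H3FLoc

set_option autoImplicit false

namespace Fermat.Agent.S55

/-- **[FUND]** the fundamental class at finite level, hypothesis-free. -/
theorem h3f_fund : gl_FundStatement :=
  fof_main (rof_fin' rca_fin sec_H1) sec_H1 sec_H2Le

/-- **[H3-CORE]**, hypothesis-free. -/
theorem h3f_core_fin : h3f_CoreStatement := h3f_core_of h3f_fund h3l_main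

/-- **[AK-H3F]** `H³(G_{K,S}(p), K_S(p)ˣ) = 0`, hypothesis-free. -/
theorem h3f_fin : ak_H3FStatement := h3f_main h3f_fund h3l_main

end Fermat.Agent.S55
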