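/-
S55 [J-H3], closed form.

    theorem h3fj_fin : h3f_JH3Statement

`h3fj_of` (Global/H3FJ.lean) with the two local inputs plugged: `h3l_main` (Local/H3FLoc.lean,
relative local Tate `H³ = 0`) and `h3u_main` (unit-valued version at unramified primes).
-/
import Mathlib
import Fermat.Agent.S55.Global.H3FJ
import Fermat.Agent.S55.Local.H3FLoc
import Fermat.Agent.S55.Local.H3FLocU

namespace Fermat.Agent.S55

theorem h3fj_fin : h3f_JH3Statement :=
  h3fj_of h3l_main (h3u_main h3l_main)

end Fermat.Agent.S55
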