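/-
S55 (Poitou-Tate), GLOBAL side, leaf [J-H3] of helper17's cut of [AK-H3F] (helper14), part 1:
the LOCAL step.  Prefix `h3fj_`.

`F` a number field, `H ≤ Aut(F/ℚ)`, `ι : F → Ω_q`, `U = gl_locU q F H ι`,
`U₀ = gsup_U0 q F ι = Gal(Ω_q / ℚ_q · ι F)` (the kernel of `σ_• = gl_locSigma : U → H`).
The localisation at `ι` of a 3-cocycle `z` of `H` with values in `Fˣ` is a 3-cocycle of `U` which
is inflated from `U / U₀`; a 2-cochain `f` of `U`, inflated from `U / U₀`, with `d f = z_ι`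
descends to a 2-cochain `β` of `H` with `h3f_Loc₃ (hss_sys q F H) z ι β`.
-/
import Mathlib
import Fermat.Agent.S55.Global.H3FDefs
import Fermat.Agent.S55.Global.HasseSemi
import Fermat.Agent.S55.Global.Supp

set_option autoImplicit false

namespace Fermat.Agent.S55

open groupCohomology

noncomputable section

/-- A rearrangement in a commutative group. -/
theorem h3fj_comm_aux {G : Type*} [CommGroup G] (a b c d e : G)
    (h : a / b * c / d * e = 1) : a * c * e = b * d := by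
  have h' : Additive.ofMul a - Additive.ofMul b + Additive.ofMul c - Additive.ofMul d +
      Additive.ofMul e = 0 := h
  have h2 : Additive.ofMul a + Additive.ofMul c + Additive.ofMul e =
      Additive.ofMul b + Additive.ofMul d := by
    rw [← sub_eq_zero, ← h']
    abel
  exact h2

section h3fj_local

variable {q : ℕ} [Fact q.Prime] {F : Type} [Field F] [NumberField F]
  {H : Subgroup (F ≃ₐ[ℚ] F)} (ι : F →ₐ[ℚ] PadicAlgCl q)

attribute [local instance] hss_actM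

/-- The localisation at `ι` of a 3-cochain of `H` with values in `Fˣ`. -/
def h3fj_loc₃ (z : ↥H × ↥H × ↥H → Additive Fˣ) :
    ↥(gl_locU q F H ι) × ↥(gl_locU q F H ι) × ↥(gl_locU q F H ι) → (PadicAlgCl q)ˣ :=
  fun x => hss_e ι
    (z (gl_locSigma q F H ι x.1, gl_locSigma q F H ι x.2.1, gl_locSigma q F H ι x.2.2))

theorem h3fj_loc₃_apply (z : ↥H × ↥H × ↥H → Additive Fˣ) (g h k : ↥(gl_locU q F H ι)) :
    h3fj_loc₃ ι z (g, h, k) =
      hss_e ι (z (gl_locSigma q F H ι g, gl_locSigma q F H ι h, gl_locSigma q F H ι k)) := rfl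

/-- The localisation of a 3-cocycle is a 3-cocycle. -/
theorem h3fj_loc₃_isCoc (z : ↥H × ↥H × ↥H → Additive Fˣ) (hz : fg_IsCocycle₃ z) :
    lcf_IsMulCocycle₃ (gl_locU q F H ι) (h3fj_loc₃ ι z) := by
  intro g h j l
  rw [h3fj_loc₃_apply, h3fj_loc₃_apply, h3fj_loc₃_apply, h3fj_loc₃_apply, h3fj_loc₃_apply,
    hss_sigma_mul, hss_sigma_mul, hss_sigma_mul, hss_e_smul]
  apply h3fj_comm_aux
  have h1 := congrArg (hss_e ι) (hz (gl_locSigma q F H ι g) (gl_locSigma q F H ι h)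
    (gl_locSigma q F H ι j) (gl_locSigma q F H ι l))
  rw [hss_e_add, hss_e_sub, hss_e_add, hss_e_sub, hss_e_zero] at h1
  exact h1

/-- The localisation of a 3-cochain is inflated from `U / U₀`. -/
theorem h3fj_loc₃_infl (z : ↥H × ↥H × ↥H → Additive Fˣ) :
    h3f_IsInfl₃ (gl_locU q F H ι) (gsup_U0 q F ι) (h3fj_loc₃ ι z) := by
  constructor
  · intro g h k s s' s'' hs hs' hs''
    rw [h3fj_loc₃_apply, h3fj_loc₃_apply, gsup_sigma_mul_mem q F H ι g s hs,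
      gsup_sigma_mul_mem q F H ι h s' hs', gsup_sigma_mul_mem q F H ι k s'' hs'']
  · intro g h k s hs
    rw [h3fj_loc₃_apply, hss_e_smul, gsup_sigma_of_mem q F H ι s hs, one_smul]

/-- Two elements of `U` with the same image in `H` differ by an element of `U₀`. -/
theorem h3fj_exists_of_sigma_eq (g g' : ↥(gl_locU q F H ι))
    (h : gl_locSigma q F H ι g = gl_locSigma q F H ι g') :
    ∃ s : ↥(gl_locU q F H ι), (s : lcf_Gal q) ∈ gsup_U0 q F ι ∧ g = g' * s := by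
  refine ⟨g'⁻¹ * g, ?_, by group⟩
  have h1 : gl_locSigma q F H ι (g'⁻¹ * g) = 1 := by
    have h2 : gl_locSigma q F H ι (g' * (g'⁻¹ * g)) = gl_locSigma q F H ι g' := by
      rw [mul_inv_cancel_left, h]
    rw [hss_sigma_mul] at h2
    exact mul_left_cancel (h2.trans (mul_one _).symm)
  rw [gsup_mem_U0_iff]
  intro x
  have h3 := gl_locSigma_apply q F H ι (g'⁻¹ * g) x
  rw [h1] at h3
  exact h3

/-- The descent of an inflated 2-cochain of `U` to `H`. -/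
def h3fj_beta (f : ↥(gl_locU q F H ι) × ↥(gl_locU q F H ι) → (PadicAlgCl q)ˣ)
    (y : ↥H × ↥H) : Additive (PadicAlgCl q)ˣ :=
  open Classical in
  if h : ∃ p : ↥(gl_locU q F H ι) × ↥(gl_locU q F H ι),
      gl_locSigma q F H ι p.1 = y.1 ∧ gl_locSigma q F H ι p.2 = y.2 then
    Additive.ofMul (f (Classical.choose h))
  else 0

theorem h3fj_beta_eq (f : ↥(gl_locU q F H ι) × ↥(gl_locU q F H ι) → (PadicAlgCl q)ˣ)
    (hf : spl_IsInfl (gl_locU q F H ι) (gsup_U0 q F ι) f) (g h : ↥(gl_locU q F H ι)) :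
    h3fj_beta ι f (gl_locSigma q F H ι g, gl_locSigma q F H ι h) = Additive.ofMul (f (g, h)) := by
  have hex : ∃ p : ↥(gl_locU q F H ι) × ↥(gl_locU q F H ι),
      gl_locSigma q F H ι p.1 = gl_locSigma q F H ι g ∧
        gl_locSigma q F H ι p.2 = gl_locSigma q F H ι h := ⟨(g, h), rfl, rfl⟩
  unfold h3fj_beta
  rw [dif_pos hex]
  obtain ⟨h1, h2⟩ := Classical.choose_spec hex
  obtain ⟨s, hs, hgs⟩ := h3fj_exists_of_sigma_eq ι g (Classical.choose hex).1 h1.symm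
  obtain ⟨s', hs', hhs⟩ := h3fj_exists_of_sigma_eq ι h (Classical.choose hex).2 h2.symm
  have h3 := hf.1 (Classical.choose hex).1 (Classical.choose hex).2 s s' hs hs'
  rw [← hgs, ← hhs] at h3
  rw [h3]

theorem h3fj_beta_norm (f : ↥(gl_locU q F H ι) × ↥(gl_locU q F H ι) → (PadicAlgCl q)ˣ)
    (hn : ∀ x, ‖((f x : (PadicAlgCl q)ˣ) : PadicAlgCl q)‖ = 1) (y : ↥H × ↥H) :
    ‖(((h3fj_beta ι f y).toMul : (PadicAlgCl q)ˣ) : PadicAlgCl q)‖ = 1 := by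
  unfold h3fj_beta
  split_ifs with h
  · exact hn _
  · show ‖(((1 : (PadicAlgCl q)ˣ)) : PadicAlgCl q)‖ = 1
    rw [Units.val_one, norm_one]

/-- **The local step**: a 2-cochain of `U`, inflated from `U / U₀`, whose coboundary is the
localisation of `z`, descends to `H`. -/
theorem h3fj_descent (z : ↥H × ↥H × ↥H → Additive Fˣ)
    (f : ↥(gl_locU q F H ι) × ↥(gl_locU q F H ι) → (PadicAlgCl q)ˣ)
    (hf : spl_IsInfl (gl_locU q F H ι) (gsup_U0 q F ι) f)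
    (hd : lcf_d₂₃ (gl_locU q F H ι) f = h3fj_loc₃ ι z) :
    h3f_Loc₃ (hss_sys q F H) z ι (h3fj_beta ι f) := by
  intro g h k σ τ ρ hg hh hk
  have hgU : g ∈ gl_locU q F H ι := ⟨σ, σ.2, hg⟩
  have hhU : h ∈ gl_locU q F H ι := ⟨τ, τ.2, hh⟩
  have hkU : k ∈ gl_locU q F H ι := ⟨ρ, ρ.2, hk⟩
  have e1 : gl_locSigma q F H ι ⟨g, hgU⟩ = σ := hss_sigma_eq _ _ hg
  have e2 : gl_locSigma q F H ι ⟨h, hhU⟩ = τ := hss_sigma_eq _ _ hh
  have e3 : gl_locSigma q F H ι ⟨k, hkU⟩ = ρ := hss_sigma_eq _ _ hk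
  have b1 := h3fj_beta_eq ι f hf ⟨h, hhU⟩ ⟨k, hkU⟩
  have b2 := h3fj_beta_eq ι f hf (⟨g, hgU⟩ * ⟨h, hhU⟩) ⟨k, hkU⟩
  have b3 := h3fj_beta_eq ι f hf ⟨g, hgU⟩ (⟨h, hhU⟩ * ⟨k, hkU⟩)
  have b4 := h3fj_beta_eq ι f hf ⟨g, hgU⟩ ⟨h, hhU⟩
  rw [hss_sigma_mul, e1, e2, e3] at b2
  rw [hss_sigma_mul, e1, e2, e3] at b3
  rw [e2, e3] at b1
  rw [e1, e2] at b4
  rw [b1, b2, b3, b4]
  have h1 := congrFun hd (⟨g, hgU⟩, ⟨h, hhU⟩, ⟨k, hkU⟩)
  rw [h3fj_loc₃_apply, e1, e2, e3] at h1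
  have h2 : (hss_sys q F H).e ι (z (σ, τ, ρ)) = Additive.ofMul (hss_e ι (z (σ, τ, ρ))) := rfl
  rw [h2, ← h1]
  have h3 : Additive.ofMul (lcf_d₂₃ (gl_locU q F H ι) f (⟨g, hgU⟩, ⟨h, hhU⟩, ⟨k, hkU⟩)) =
      g • Additive.ofMul (f (⟨h, hhU⟩, ⟨k, hkU⟩)) +
        Additive.ofMul (f (⟨g, hgU⟩, ⟨h, hhU⟩ * ⟨k, hkU⟩)) -
        (Additive.ofMul (f (⟨g, hgU⟩ * ⟨h, hhU⟩, ⟨k, hkU⟩)) +
          Additive.ofMul (f (⟨g, hgU⟩, ⟨h, hhU⟩))) := rfl
  rw [h3]
  abel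

end h3fj_local

end

end Fermat.Agent.S55
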