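/-
S55 (fifth wave), GLOBAL side, package [J-COH] part 6 (helper21): the local leaf [JL-H90]
(Hilbert 90 for a local cyclic layer), by the Lagrange resolvent and Dedekind's independence
of characters.
-/
import Fermat.Agent.S55.Global.JCohLayer

set_option autoImplicit false

namespace Fermat.Agent.S55

open Finset

noncomputable section

/-- **[JL-H90]** Hilbert 90 for a local cyclic layer. -/
theorem jcoh_locH90 : jcoh_LocH90Statement := by
  intro q _ p hp U τ h a ha hN
  classical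
  have hp0 : 0 < p := hp.pos
  -- partial products
  set c : ℕ → (PadicAlgCl q)ˣ := fun k => ∏ i ∈ range k, τ ^ i • a with hc
  have hc0 : c 0 = 1 := prod_range_zero _
  have hcp : c p = 1 := hN
  have hcfix : ∀ k, c k ∈ jcoh_fix U := fun k =>
    (jcoh_fix U).prod_mem fun i _ => h.pow_smul_mem_fix hp0 i ha
  have hcsucc : ∀ k, c (k + 1) = a * τ • c k := by
    intro k
    show ∏ i ∈ range (k + 1), τ ^ i • a = a * τ • ∏ i ∈ range k, τ ^ i • a
    rw [prod_range_succ', pow_zero, one_smul, mul_comm, smul_prod']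
    congr 1
    refine prod_congr rfl fun i _ => ?_
    rw [← mul_smul, ← pow_succ']
  -- the characters
  let χ : Fin p → (↥(jcoh_fix U) →* PadicAlgCl q) := fun k =>
    { toFun := fun x => ((τ ^ (k : ℕ) • (x : (PadicAlgCl q)ˣ) : (PadicAlgCl q)ˣ) : PadicAlgCl q)
      map_one' := by simp
      map_mul' := fun x y => by simp [smul_mul'] }
  have hχ : ∀ (k : Fin p) (x : ↥(jcoh_fix U)),
      χ k x = ((τ ^ (k : ℕ) • (x : (PadicAlgCl q)ˣ) : (PadicAlgCl q)ˣ) : PadicAlgCl q) :=
    fun _ _ => rfl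
  have hχinj : Function.Injective χ := by
    intro j k hjk
    apply Fin.ext
    apply h.pow_inj hp j.2 k.2
    intro x hx
    have := DFunLike.congr_fun hjk ⟨x, hx⟩
    exact Units.ext this
  have hli : LinearIndependent (PadicAlgCl q)
      (fun k : Fin p => (χ k : ↥(jcoh_fix U) → PadicAlgCl q)) :=
    (linearIndependent_monoidHom ↥(jcoh_fix U) (PadicAlgCl q)).comp χ hχinj
  have hex : ∃ x : ↥(jcoh_fix U), ∑ k : Fin p, (c k : PadicAlgCl q) * χ k x ≠ 0 := by
    by_contra hcon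
    push Not at hcon
    have h0 : ∑ k : Fin p, (c k : PadicAlgCl q) • (χ k : ↥(jcoh_fix U) → PadicAlgCl q) = 0 := by
      funext x
      simp only [Finset.sum_apply, Pi.smul_apply, smul_eq_mul, Pi.zero_apply]
      exact hcon x
    have := Fintype.linearIndependent_iff.1 hli (fun k => (c k : PadicAlgCl q)) h0 ⟨0, hp0⟩
    exact (c 0).ne_zero this
  obtain ⟨x, hx⟩ := hex
  set F : ℕ → PadicAlgCl q := fun k =>
    (c k : PadicAlgCl q) * ((τ ^ k • (x : (PadicAlgCl q)ˣ) : (PadicAlgCl q)ˣ) : PadicAlgCl q)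
    with hF
  set b₀ : PadicAlgCl q := ∑ k ∈ range p, F k with hb₀
  have hb₀ne : b₀ ≠ 0 := by
    rw [hb₀, ← Fin.sum_univ_eq_sum_range F p]
    exact hx
  have hFfix : ∀ k, ∀ g ∈ U, g (F k) = F k := by
    intro k g hg
    show g ((c k : PadicAlgCl q) *
      ((τ ^ k • (x : (PadicAlgCl q)ˣ) : (PadicAlgCl q)ˣ) : PadicAlgCl q)) = _
    rw [map_mul]
    have h1 := congrArg Units.val (hcfix k g hg)
    have h2 := congrArg Units.val (h.pow_smul_mem_fix hp0 k x.2 g hg)
    exact congrArg₂ (· * ·) h1 h2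
  have hbfix : Units.mk0 b₀ hb₀ne ∈ jcoh_fix U := by
    intro g hg
    apply Units.ext
    show g b₀ = b₀
    rw [hb₀, map_sum]
    exact sum_congr rfl fun k _ => hFfix k g hg
  have hstep : ∀ k, (a : PadicAlgCl q) * τ (F k) = F (k + 1) := by
    intro k
    show (a : PadicAlgCl q) * τ ((c k : PadicAlgCl q) *
      ((τ ^ k • (x : (PadicAlgCl q)ˣ) : (PadicAlgCl q)ˣ) : PadicAlgCl q)) =
      (c (k + 1) : PadicAlgCl q) *
        ((τ ^ (k + 1) • (x : (PadicAlgCl q)ˣ) : (PadicAlgCl q)ˣ) : PadicAlgCl q)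
    rw [map_mul, hcsucc k, Units.val_mul, pow_succ', mul_smul]
    show (a : PadicAlgCl q) * (τ (c k : PadicAlgCl q) *
      τ ((τ ^ k • (x : (PadicAlgCl q)ˣ) : (PadicAlgCl q)ˣ) : PadicAlgCl q)) =
      ((a : PadicAlgCl q) * τ (c k : PadicAlgCl q)) *
        τ ((τ ^ k • (x : (PadicAlgCl q)ˣ) : (PadicAlgCl q)ˣ) : PadicAlgCl q)
    ring
  have hFp : F p = F 0 := by
    show (c p : PadicAlgCl q) * _ = (c 0 : PadicAlgCl q) * _
    rw [hcp, hc0, h.pow_smul_eq x.2, pow_zero, one_smul]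
  have hab : (a : PadicAlgCl q) * τ b₀ = b₀ := by
    rw [hb₀, map_sum, mul_sum, sum_congr rfl fun k _ => hstep k]
    have h1 := sum_range_succ' F p
    have h2 := sum_range_succ F p
    rw [h1, hFp] at h2
    exact add_right_cancel h2
  refine ⟨(Units.mk0 b₀ hb₀ne)⁻¹, (jcoh_fix U).inv_mem hbfix, ?_⟩
  rw [smul_inv', inv_div_inv, eq_div_iff_mul_eq']
  apply Units.ext
  exact hab

end

end Fermat.Agent.S55
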