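import Mathlib
import Fermat.Agent.S55.UnrLayer

/-!
S55, GLOBAL side, package [J-COH], local leaf **[JL-IDX]**: the local norm index of a cyclic
layer of prime degree `p` is `p`.  (helper14's `lni_fin` through the layer dictionary.)
-/

set_option autoImplicit false

namespace Fermat.Agent.S55

open scoped BigOperators

/-- a subgroup of prime index `p` of a commutative group is the kernel of a surjective
character with values in `ℤ/p`. -/
theorem jcohI_exists_char {G : Type*} [CommGroup G] (N : Subgroup G) {p : ℕ} (hp : p.Prime)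
    (h : N.index = p) :
    ∃ ψ : G → ZMod p, (∀ x y, ψ (x * y) = ψ x + ψ y) ∧ Function.Surjective ψ ∧
      ∀ x, ψ x = 0 ↔ x ∈ N := by
  have hFact : Fact p.Prime := ⟨hp⟩
  have hcard : Nat.card (G ⧸ N) = p := h
  have hcyc : IsCyclic (G ⧸ N) := isCyclic_of_prime_card hcard
  refine ⟨fun x => ZMod.ringEquivCongr hcard
    (Multiplicative.toAdd ((zmodCyclicMulEquiv hcyc).symm (QuotientGroup.mk x))), ?_, ?_, ?_⟩
  · intro x y
    beta_reduce
    rw [QuotientGroup.mk_mul, map_mul, toAdd_mul, map_add]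
  · intro t
    obtain ⟨u, hu⟩ := QuotientGroup.mk_surjective
      (zmodCyclicMulEquiv hcyc (Multiplicative.ofAdd ((ZMod.ringEquivCongr hcard).symm t)))
    refine ⟨u, ?_⟩
    beta_reduce
    rw [hu, MulEquiv.symm_apply_apply, toAdd_ofAdd, RingEquiv.apply_symm_apply]
  · intro x
    beta_reduce
    rw [map_eq_zero_iff _ (ZMod.ringEquivCongr hcard).injective, ← QuotientGroup.eq_one_iff]
    constructor
    · intro hx
      have : (zmodCyclicMulEquiv hcyc).symm (QuotientGroup.mk x) = 1 := hx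
      exact (MulEquiv.map_eq_one_iff (zmodCyclicMulEquiv hcyc).symm).1 this
    · intro hx
      rw [hx, map_one]
      rfl

section Idx

variable {q : ℕ} [Fact q.Prime]

theorem jcohI_smul_val (g : lcf_Gal q) (b : (PadicAlgCl q)ˣ) :
    ((g • b : (PadicAlgCl q)ˣ) : PadicAlgCl q) = g (b : PadicAlgCl q) := rfl

theorem jcohI_prod_val (p : ℕ) (τ : lcf_Gal q) (b : (PadicAlgCl q)ˣ) :
    ((∏ k ∈ Finset.range p, τ ^ k • b : (PadicAlgCl q)ˣ) : PadicAlgCl q)
      = ∏ k ∈ Finset.range p, (τ ^ k) (b : PadicAlgCl q) := by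
  rw [Units.coe_prod]
  rfl

end Idx

/-- **[JL-IDX]** -/
theorem jcohI_main : jcoh_LocIdxStatement := by
  intro q _ p hp U τ h
  classical
  have H := unr_layer_hyp hp.pos h
  have hfinK := splc_finiteK H
  have hfin := splc_finite H
  have hgal := splc_isGalois H
  have hidx : ((Units.map (Algebra.norm ↥(splc_K (unr_layerV U τ)) :
      ↥(splc_F H.le) →* ↥(splc_K (unr_layerV U τ)))).range).index = p := by
    have e := lni_fin ↥(splc_K (unr_layerV U τ)) ↥(splc_F H.le) (unr_layer_isCyclic hp.pos h)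
    rw [e, ← IsGalois.card_aut_eq_finrank]
    exact unr_layer_card hp h
  obtain ⟨ψ, hψmul, hψsurj, hψzero⟩ := jcohI_exists_char _ hp hidx
  -- elements of `K`
  have hne : ∀ (a : (PadicAlgCl q)ˣ) (ha : (a : PadicAlgCl q) ∈ splc_K (unr_layerV U τ)),
      (⟨(a : PadicAlgCl q), ha⟩ : ↥(splc_K (unr_layerV U τ))) ≠ 0 := by
    intro a ha h0
    exact a.ne_zero (congrArg Subtype.val h0)
  let φ : (PadicAlgCl q)ˣ → ZMod p := fun a =>
    if ha : (a : PadicAlgCl q) ∈ splc_K (unr_layerV U τ) then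
      ψ (Units.mk0 ⟨(a : PadicAlgCl q), ha⟩ (hne a ha)) else 0
  have hφ : ∀ (a : (PadicAlgCl q)ˣ) (ha : (a : PadicAlgCl q) ∈ splc_K (unr_layerV U τ)),
      φ a = ψ (Units.mk0 ⟨(a : PadicAlgCl q), ha⟩ (hne a ha)) := by
    intro a ha
    show (if ha : (a : PadicAlgCl q) ∈ splc_K (unr_layerV U τ) then
      ψ (Units.mk0 ⟨(a : PadicAlgCl q), ha⟩ (hne a ha)) else 0) = _
    rw [dif_pos ha]
  refine ⟨φ, ?_, ?_, ?_⟩
  · intro a b haU hbU haτ hbτ
    have ha := (unr_layer_units_mem_K a).2 ⟨haU, haτ⟩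
    have hb := (unr_layer_units_mem_K b).2 ⟨hbU, hbτ⟩
    have hab : ((a * b : (PadicAlgCl q)ˣ) : PadicAlgCl q) ∈ splc_K (unr_layerV U τ) := by
      rw [Units.val_mul]
      exact mul_mem ha hb
    rw [hφ a ha, hφ b hb, hφ (a * b) hab, ← hψmul]
    congr 1
    apply Units.ext
    apply Subtype.ext
    rfl
  · intro t
    obtain ⟨u, hu⟩ := hψsurj t
    have hu0 : ((u : ↥(splc_K (unr_layerV U τ))) : PadicAlgCl q) ≠ 0 := by
      intro h0
      exact u.ne_zero (Subtype.ext h0)
    have hmem : ((Units.mk0 _ hu0 : (PadicAlgCl q)ˣ) : PadicAlgCl q)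
        ∈ splc_K (unr_layerV U τ) := (u : ↥(splc_K (unr_layerV U τ))).2
    have hK := (unr_layer_units_mem_K (Units.mk0 _ hu0)).1 hmem
    refine ⟨Units.mk0 _ hu0, hK.1, hK.2, ?_⟩
    rw [hφ _ hmem, ← hu]
    congr 1
    apply Units.ext
    apply Subtype.ext
    rfl
  · intro a haU haτ
    have ha := (unr_layer_units_mem_K a).2 ⟨haU, haτ⟩
    rw [hφ a ha, hψzero, MonoidHom.mem_range]
    constructor
    · rintro ⟨y, hy⟩
      have hy0 : ((y : ↥(splc_F H.le)) : PadicAlgCl q) ≠ 0 := by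
        intro h0
        exact y.ne_zero (Subtype.ext h0)
      refine ⟨Units.mk0 _ hy0, (unr_layer_units_mem_F hp.pos h _).1 (y : ↥(splc_F H.le)).2, ?_⟩
      apply Units.ext
      rw [jcohI_prod_val]
      have e1 := unr_layer_norm hp h (y : ↥(splc_F H.le))
      have e2 := congrArg (fun u : (↥(splc_K (unr_layerV U τ)))ˣ =>
        ((u : ↥(splc_K (unr_layerV U τ))) : PadicAlgCl q)) hy
      beta_reduce at e2
      exact e2.symm.trans e1
    · rintro ⟨b, hbU, hab⟩
      have hbF := (unr_layer_units_mem_F hp.pos h b).2 hbU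
      have hb0 : (⟨(b : PadicAlgCl q), hbF⟩ : ↥(splc_F H.le)) ≠ 0 := by
        intro h0
        exact b.ne_zero (congrArg Subtype.val h0)
      refine ⟨Units.mk0 _ hb0, ?_⟩
      apply Units.ext
      apply Subtype.ext
      have e1 := unr_layer_norm hp h (⟨(b : PadicAlgCl q), hbF⟩ : ↥(splc_F H.le))
      have e2 := congrArg (fun u : (PadicAlgCl q)ˣ => (u : PadicAlgCl q)) hab
      beta_reduce at e2
      rw [jcohI_prod_val] at e2
      show ((Algebra.norm ↥(splc_K (unr_layerV U τ))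
        (⟨(b : PadicAlgCl q), hbF⟩ : ↥(splc_F H.le)) : ↥(splc_K (unr_layerV U τ))) :
          PadicAlgCl q) = (a : PadicAlgCl q)
      rw [e1, e2]

end Fermat.Agent.S55
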