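/-
S55 (fifth wave), GLOBAL side, package [J-COH] part 4 (helper21): the global assembly
  `jcoh_of_local : [JL-H90] → [JL-IDX] → [JL-UNR] → gl_JTHerbStatement`.

The `T`-ideles are the families `(x_q)_q` with `x_q` a semi-local unit for `q ∉ T`; `σ` acts
componentwise.  `H¹ = 0` and `Ĥ⁰` are computed componentwise: at `q ∉ T` (unramified) the
witnesses are chosen among the units, at `q ∈ T` the semi-local norm residue maps `Φ_q`
identify `Ĥ⁰` with `∏_{q ∈ T} (ℤ/p)^{fixed places above q}`.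
-/
import Fermat.Agent.S55.Global.JCohSemi

set_option autoImplicit false

namespace Fermat.Agent.S55

open Finset

noncomputable section

section global

variable (F : Type) [Field F] [NumberField F]

/-- A family of semi-local components which are units outside `T` as a `T`-idele. -/
def jcoh_mkJT (T : Finset Nat.Primes) (g : (q : Nat.Primes) → gl_JP F q)
    (hg : ∀ q, q ∉ (T : Set Nat.Primes) → g q ∈ gl_UP F q) : ↥(gl_JT F (T : Set Nat.Primes)) :=
  ⟨⟨g, (T.finite_toSet).subset fun q hq => by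
      by_contra h
      exact hq (hg q h)⟩, hg⟩

@[simp] theorem jcoh_mkJT_apply (T : Finset Nat.Primes) (g : (q : Nat.Primes) → gl_JP F q)
    (hg : ∀ q, q ∉ (T : Set Nat.Primes) → g q ∈ gl_UP F q) (q : Nat.Primes) :
    (jcoh_mkJT F T g hg).1.1 q = g q := rfl

theorem jcoh_JT_ext (T : Finset Nat.Primes) {x y : ↥(gl_JT F (T : Set Nat.Primes))}
    (h : ∀ q, x.1.1 q = y.1.1 q) : x = y :=
  Subtype.ext (Subtype.ext (funext h))

theorem jcoh_smul_comp (T : Finset Nat.Primes) (σ : F ≃ₐ[ℚ] F)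
    (x : ↥(gl_JT F (T : Set Nat.Primes))) (q : Nat.Primes) :
    (σ • x).1.1 q = σ • x.1.1 q := rfl

theorem jcoh_prod_comp (T : Finset Nat.Primes) (σ : F ≃ₐ[ℚ] F) (p : ℕ)
    (x : ↥(gl_JT F (T : Set Nat.Primes))) (q : Nat.Primes) :
    (∏ k ∈ range p, σ ^ k • x).1.1 q = ∏ k ∈ range p, σ ^ k • x.1.1 q := by
  rw [Subgroup.val_finsetProd, Subgroup.val_finsetProd, Finset.prod_apply]
  rfl

theorem jcoh_nrm_ofMul (T : Finset Nat.Primes) (σ : F ≃ₐ[ℚ] F) (p : ℕ)
    (x : ↥(gl_JT F (T : Set Nat.Primes))) :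
    herb_nrm σ p (Additive.ofMul x) = Additive.ofMul (∏ k ∈ range p, σ ^ k • x) := by
  rw [herb_nrm_apply, ofMul_prod]
  rfl

theorem jcoh_del_ofMul (T : Finset Nat.Primes) (σ : F ≃ₐ[ℚ] F)
    (x : ↥(gl_JT F (T : Set Nat.Primes))) :
    herb_del σ (Additive.ofMul x) = Additive.ofMul (σ • x / x) := rfl

/-- The places above `q` which are fixed by `σ`. -/
abbrev jcoh_FixP (σ : F ≃ₐ[ℚ] F) (q : Nat.Primes) : Type :=
  letI : Fact (q : ℕ).Prime := ⟨q.2⟩
  {w : gl_Place (q : ℕ) F // gl_placeMap (q : ℕ) F σ w = w}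

instance jcoh_FixP_finite (σ : F ≃ₐ[ℚ] F) (q : Nat.Primes) : Finite (jcoh_FixP F σ q) := by
  have : Fact (q : ℕ).Prime := ⟨q.2⟩
  have : Finite (gl_Place (q : ℕ) F) :=
    inferInstanceAs (Finite (Quotient (gl_placeSetoid (q : ℕ) F)))
  exact Subtype.finite

theorem jcoh_fixCount_eq (σ : F ≃ₐ[ℚ] F) (q : Nat.Primes) :
    gl_fixCount F σ q = Nat.card (jcoh_FixP F σ q) := rfl

theorem jcoh_unram_of_not_mem (T : Finset Nat.Primes) (hT : gl_ram F ⊆ (T : Set Nat.Primes))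
    (q : Nat.Primes) (hq : q ∉ (T : Set Nat.Primes)) :
    (letI : Fact (q : ℕ).Prime := ⟨q.2⟩; gl_UnramAt (q : ℕ) F) := by
  by_contra h
  exact hq (hT h)

end global

section main

variable (F : Type) [Field F] [NumberField F] (σ : F ≃ₐ[ℚ] F) (p : ℕ) (hp : p.Prime)
  (hσ : orderOf σ = p) (T : Finset Nat.Primes) (hT : gl_ram F ⊆ (T : Set Nat.Primes))

include hp hσ hT

/-- **`H¹(⟨σ⟩, J_T) = 0`.** -/
theorem jcoh_h1 (hH : jcoh_LocH90Statement) :
    herb_idx (A := Additive ↥(gl_JT F (T : Set Nat.Primes))) (herb_nrm σ p) (herb_del σ) = 1 := by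
  classical
  unfold herb_idx
  rw [AddSubgroup.relIndex_eq_one]
  intro a ha
  obtain ⟨x, rfl⟩ : ∃ x : ↥(gl_JT F (T : Set Nat.Primes)), Additive.ofMul x = a := ⟨a.toMul, rfl⟩
  have hN : ∏ k ∈ range p, σ ^ k • x = 1 := by
    have h1 : herb_nrm σ p (Additive.ofMul x) = 0 := ha
    rw [jcoh_nrm_ofMul] at h1
    exact h1
  have hNq : ∀ q : Nat.Primes, ∏ k ∈ range p, σ ^ k • x.1.1 q = 1 := by
    intro q
    rw [← jcoh_prod_comp, hN]
    rfl
  have hex : ∀ q : Nat.Primes, ∃ g : gl_JP F q,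
      (q ∉ (T : Set Nat.Primes) → g ∈ gl_UP F q) ∧ x.1.1 q = σ • g / g := by
    intro q
    have : Fact (q : ℕ).Prime := ⟨q.2⟩
    by_cases hq : q ∈ (T : Set Nat.Primes)
    · obtain ⟨g, hg⟩ := jcoh_semi_del (q : ℕ) F σ p hp hσ hH (x.1.1 q) (hNq q)
      exact ⟨g, fun h => absurd hq h, hg⟩
    · obtain ⟨g, hgU, hg⟩ := jcoh_semi_del_unit (q : ℕ) F σ p hp hσ hH
        (jcoh_unram_of_not_mem F T hT q hq) (x.1.1 q) (x.2 q hq) (hNq q)
      exact ⟨g, fun _ => hgU, hg⟩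
  choose g hgU hg using hex
  refine ⟨Additive.ofMul (jcoh_mkJT F T g hgU), ?_⟩
  rw [jcoh_del_ofMul]
  congr 1
  apply jcoh_JT_ext
  intro q
  rw [hg q]
  rfl

/-- **`#Ĥ⁰(⟨σ⟩, J_T) = p ^ #{fixed places above T}`.** -/
theorem jcoh_h0 (hI : jcoh_LocIdxStatement) (hU : jcoh_LocUnrStatement) :
    herb_idx (A := Additive ↥(gl_JT F (T : Set Nat.Primes))) (herb_del σ) (herb_nrm σ p) =
      p ^ gl_fixTotal F σ T := by
  classical
  -- the semi-local norm residue maps
  have hex : ∀ q : Nat.Primes, ∃ Φ : gl_JP F q → (jcoh_FixP F σ q → ZMod p),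
      (∀ f g, σ • f = f → σ • g = g → Φ (f * g) = Φ f + Φ g) ∧
      (∀ t, ∃ f, σ • f = f ∧ Φ f = t) ∧
      (∀ f, σ • f = f → (Φ f = 0 ↔ ∃ g : gl_JP F q, f = ∏ k ∈ range p, σ ^ k • g)) := by
    intro q
    have : Fact (q : ℕ).Prime := ⟨q.2⟩
    exact jcoh_semi_phi (q : ℕ) F σ p hp hσ hI
  choose Φ hΦ1 hΦ2 hΦ3 using hex
  -- the components of a `σ`-invariant idele are `σ`-invariant
  have hfix : ∀ a : ↥(herb_del σ : Additive ↥(gl_JT F (T : Set Nat.Primes)) →+ _).ker,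
      ∀ q : Nat.Primes, σ • (Additive.toMul a.1).1.1 q = (Additive.toMul a.1).1.1 q := by
    intro a q
    have h := (herb_mem_ker_del_iff σ a.1).1 a.2
    have h' : σ • Additive.toMul a.1 = Additive.toMul a.1 := h
    rw [← jcoh_smul_comp, h']
  -- the global norm residue map
  let Ψ : ↥(herb_del σ : Additive ↥(gl_JT F (T : Set Nat.Primes)) →+ _).ker →+
      ((q : ↥T) → jcoh_FixP F σ q.1 → ZMod p) :=
    AddMonoidHom.mk' (fun a q => Φ q.1 ((Additive.toMul a.1).1.1 q.1)) (by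
      intro a b
      funext q
      exact hΦ1 q.1 _ _ (hfix a q.1) (hfix b q.1))
  have hΨ : ∀ a q, Ψ a q = Φ q.1 ((Additive.toMul a.1).1.1 q.1) := fun _ _ => rfl
  have hsurj : Function.Surjective Ψ := by
    intro t
    have hex2 : ∀ q : Nat.Primes, ∃ f : gl_JP F q, σ • f = f ∧
        (q ∉ (T : Set Nat.Primes) → f ∈ gl_UP F q) ∧ (∀ hq : q ∈ T, Φ q f = t ⟨q, hq⟩) := by
      intro q
      by_cases hq : q ∈ T
      · obtain ⟨f, hf, hft⟩ := hΦ2 q (t ⟨q, hq⟩)
        exact ⟨f, hf, fun h => absurd (Finset.mem_coe.2 hq) h, fun _ => hft⟩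
      · exact ⟨1, smul_one σ, fun _ => (gl_UP F q).one_mem, fun h => absurd h hq⟩
    choose f hf1 hf2 hf3 using hex2
    have hy : Additive.ofMul (jcoh_mkJT F T f hf2) ∈
        (herb_del σ : Additive ↥(gl_JT F (T : Set Nat.Primes)) →+ _).ker := by
      rw [herb_mem_ker_del_iff]
      show Additive.ofMul (σ • jcoh_mkJT F T f hf2) = Additive.ofMul (jcoh_mkJT F T f hf2)
      congr 1
      apply jcoh_JT_ext
      intro q
      exact hf1 q
    refine ⟨⟨Additive.ofMul (jcoh_mkJT F T f hf2), hy⟩, ?_⟩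
    funext q
    exact hf3 q.1 q.2
  have hker : Ψ.ker = (herb_nrm σ p : Additive ↥(gl_JT F (T : Set Nat.Primes)) →+ _).range.addSubgroupOf
      (herb_del σ : Additive ↥(gl_JT F (T : Set Nat.Primes)) →+ _).ker := by
    ext a
    rw [AddMonoidHom.mem_ker, AddSubgroup.mem_addSubgroupOf]
    constructor
    · intro h
      have hex3 : ∀ q : Nat.Primes, ∃ g : gl_JP F q,
          (q ∉ (T : Set Nat.Primes) → g ∈ gl_UP F q) ∧
            (Additive.toMul a.1).1.1 q = ∏ k ∈ range p, σ ^ k • g := by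
        intro q
        by_cases hq : q ∈ T
        · have h1 : Φ q ((Additive.toMul a.1).1.1 q) = 0 := congrFun h ⟨q, hq⟩
          obtain ⟨g, hg⟩ := (hΦ3 q _ (hfix a q)).1 h1
          exact ⟨g, fun h => absurd (Finset.mem_coe.2 hq) h, hg⟩
        · have : Fact (q : ℕ).Prime := ⟨q.2⟩
          have hq' : q ∉ (T : Set Nat.Primes) := fun h => hq (Finset.mem_coe.1 h)
          obtain ⟨g, hgU, hg⟩ := jcoh_semi_nrm_unit (q : ℕ) F σ p hp hσ hU
            (jcoh_unram_of_not_mem F T hT q hq') ((Additive.toMul a.1).1.1 q)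
            ((Additive.toMul a.1).2 q hq') (hfix a q)
          exact ⟨g, fun _ => hgU, hg⟩
      choose g hgU hg using hex3
      refine ⟨Additive.ofMul (jcoh_mkJT F T g hgU), ?_⟩
      rw [jcoh_nrm_ofMul]
      show Additive.ofMul _ = Additive.ofMul (Additive.toMul a.1)
      congr 1
      apply jcoh_JT_ext
      intro q
      rw [jcoh_prod_comp, hg q]
      rfl
    · rintro ⟨b, hb⟩
      funext q
      show Φ q.1 ((Additive.toMul a.1).1.1 q.1) = 0
      refine (hΦ3 q.1 _ (hfix a q.1)).2 ⟨(Additive.toMul b).1.1 q.1, ?_⟩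
      have e : Additive.toMul a.1 = ∏ k ∈ range p, σ ^ k • Additive.toMul b := by
        rw [← hb]
        exact congrArg Additive.toMul (jcoh_nrm_ofMul F T σ p (Additive.toMul b))
      rw [e, jcoh_prod_comp]
  -- count
  unfold herb_idx
  rw [AddSubgroup.relIndex, ← hker, AddSubgroup.index_ker,
    AddMonoidHom.range_eq_top.2 hsurj, AddSubgroup.card_top, Nat.card_pi]
  have hc : ∀ q : ↥T, Nat.card (jcoh_FixP F σ q.1 → ZMod p) = p ^ gl_fixCount F σ q.1 := by
    intro q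
    rw [Nat.card_fun, Nat.card_zmod, jcoh_fixCount_eq]
  rw [Finset.prod_congr rfl fun q _ => hc q, Finset.prod_pow_eq_pow_sum]
  congr 1
  exact Finset.sum_coe_sort T (fun q => gl_fixCount F σ q)

end main

/-- **[J-COH]** from the three local inputs. -/
theorem jcoh_of_local (hH : jcoh_LocH90Statement) (hI : jcoh_LocIdxStatement)
    (hU : jcoh_LocUnrStatement) : gl_JTHerbStatement := by
  intro F _ _ p hp _ σ hσ T hT
  exact ⟨jcoh_h0 F σ p hp hσ T hT hI hU, jcoh_h1 F σ p hp hσ T hT hH⟩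

end

end Fermat.Agent.S55
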