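/-
S55 (fifth wave), GLOBAL side, package [J-COH] part 8 (helper21): the local leaf [JL-UNR]
(units are norms of units in an unramified local cyclic layer), from helper29's
`unr_normed_norm_surj` applied to the cyclic group generated by `τ|_L` acting on
`L = fixedField U`, with the uniformizer `q`.
-/
import Fermat.Agent.S55.Global.JCohFin
import Fermat.Agent.S55.UnrNormed

set_option autoImplicit false

namespace Fermat.Agent.S55

open Finset

noncomputable section

/-- **[JL-UNR]** in an unramified local cyclic layer every unit of the base is the norm of a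
unit. -/
theorem jcoh_locUnr : jcoh_LocUnrStatement := by
  intro q _ p hp U τ h hval a ha hτa ha1
  classical
  have hp0 : 0 < p := hp.pos
  have hfin : FiniteDimensional ℚ_[q] ↥(IntermediateField.fixedField U) :=
    jcoh_fixed_finite U h.isOpen
  have hloc : lf_IsLocal ↥(IntermediateField.fixedField U) := lf_isLocal_intermediate _
  set τL := h.tauL hp0 with hτL
  let _ : Fintype ↥(Subgroup.zpowers τL) := Fintype.ofFinite _
  -- the uniformizer `q`
  set ϖ : ↥(IntermediateField.fixedField U) :=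
    algebraMap ℚ_[q] ↥(IntermediateField.fixedField U) (q : ℚ_[q]) with hϖ
  have hϖnorm : ‖ϖ‖ = ((q : ℝ))⁻¹ := by
    show ‖algebraMap ℚ_[q] (PadicAlgCl q) (q : ℚ_[q])‖ = _
    rw [PadicAlgCl.norm_extends, Padic.norm_p]
  have hq1 : (1 : ℝ) < q := by exact_mod_cast (Fact.out : q.Prime).one_lt
  have hq0 : (0 : ℝ) < q := by linarith
  have hϖlt : ‖ϖ‖ < 1 := by
    rw [hϖnorm]
    exact inv_lt_one_of_one_lt₀ hq1
  have hϖne : ϖ ≠ 0 := by
    intro h0
    rw [h0, norm_zero] at hϖnorm
    exact (inv_pos.2 hq0).ne hϖnorm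
  obtain ⟨S, hS⟩ := lf_IsLocal.finite_residue (K := ↥(IntermediateField.fixedField U))
  -- the element `a` of `L`
  set u : ↥(IntermediateField.fixedField U) :=
    ⟨(a : PadicAlgCl q), (jcoh_mem_fixedField_iff U a).2 ha⟩ with hu
  have hτu : τL u = u := Subtype.ext (congrArg Units.val hτa)
  obtain ⟨x, hx1, hxu⟩ := unr_normed_norm_surj (G := ↥(Subgroup.zpowers τL))
    (L := ↥(IntermediateField.fixedField U)) ϖ
    (fun g y => lf_norm_algEquiv (K := ℚ_[q]) (g : ↥(IntermediateField.fixedField U) ≃ₐ[ℚ_[q]]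
      ↥(IntermediateField.fixedField U)) y)
    (fun g => (g : ↥(IntermediateField.fixedField U) ≃ₐ[ℚ_[q]]
      ↥(IntermediateField.fixedField U)).commutes _)
    hϖlt hϖne
    (fun y hy => by
      have hy0 : (y : PadicAlgCl q) ≠ 0 := fun h0 => hy (Subtype.ext h0)
      obtain ⟨n, hn⟩ := hval (Units.mk0 (y : PadicAlgCl q) hy0)
        ((jcoh_mem_fixedField_iff U _).1 y.2)
      refine ⟨-n, ?_⟩
      rw [hϖnorm, inv_zpow', neg_neg]
      exact hn)
    S hS u
    (fun g => by
      have hle : Subgroup.zpowers τL ≤ MulAction.stabilizer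
          (↥(IntermediateField.fixedField U) ≃ₐ[ℚ_[q]] ↥(IntermediateField.fixedField U)) u := by
        rw [Subgroup.zpowers_le]
        exact hτu
      exact hle g.2)
    ha1
  have hx0 : (x : PadicAlgCl q) ≠ 0 := by
    intro h0
    have : ‖(x : PadicAlgCl q)‖ = 1 := hx1
    rw [h0, norm_zero] at this
    exact zero_ne_one this
  refine ⟨Units.mk0 (x : PadicAlgCl q) hx0, (jcoh_mem_fixedField_iff U _).1 x.2, hx1, ?_⟩
  apply Units.ext
  rw [Units.coe_prod]
  have e1 : ∏ g : ↥(Subgroup.zpowers τL), g • x = ∏ k ∈ range p, (τL ^ k) x :=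
    jcoh_prod_zpowers τL p hp0 (h.orderOf_tauL hp)
      (fun g : ↥(IntermediateField.fixedField U) ≃ₐ[ℚ_[q]] ↥(IntermediateField.fixedField U) =>
        g x)
  rw [e1] at hxu
  have e2 := congrArg (fun y : ↥(IntermediateField.fixedField U) => (y : PadicAlgCl q)) hxu
  rw [show ((u : ↥(IntermediateField.fixedField U)) : PadicAlgCl q) = (a : PadicAlgCl q) from rfl]
    at e2
  rw [← e2]
  have e3 : ((∏ k ∈ range p, (τL ^ k) x : ↥(IntermediateField.fixedField U)) : PadicAlgCl q) =
      ∏ k ∈ range p, (((τL ^ k) x : ↥(IntermediateField.fixedField U)) : PadicAlgCl q) :=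
    map_prod (IntermediateField.fixedField U).val _ _
  rw [e3]
  refine prod_congr rfl fun k _ => ?_
  rw [h.tauL_pow_apply hp0 k x]
  rfl

end

end Fermat.Agent.S55
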