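/-
S55 (fifth wave), GLOBAL side, package [J-COH] (helper21), FINAL: the Herbrand quotient of the
`T`-ideles, hypothesis-free:
  `jcoh_main : gl_JTHerbStatement`
= `jcoh_of_local` fed with the three local leaves [JL-H90] (`jcoh_locH90`), [JL-IDX]
(helper29's `jcohI_main`) and [JL-UNR] (`jcoh_locUnr`).
-/
import Fermat.Agent.S55.Global.JCohMain
import Fermat.Agent.S55.Global.JCohH90
import Fermat.Agent.S55.Global.JCohUnr
import Fermat.Agent.S55.Global.JCohIdx

set_option autoImplicit false

namespace Fermat.Agent.S55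

/-- **[J-COH]** `#Ĥ⁰(⟨σ⟩, J_T) = p ^ #{places above T fixed by σ}` and `H¹(⟨σ⟩, J_T) = 0`. -/
theorem jcoh_main : gl_JTHerbStatement :=
  jcoh_of_local jcoh_locH90 jcohI_main jcoh_locUnr

end Fermat.Agent.S55
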