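/-
S55 (fifth wave), GLOBAL side, [K-EX] package, assembly [KEX-ARTPERF-OF] (helper8), part 2:
GLOBAL TOOLS (the dictionary between the `K`-level vocabulary and the local leaves).
Prefix `kxa_`.

`K/ℚ` Galois (`U = G_K` normal), `q : Nat.Primes`, `g ∈ G_ℚ`, `V = kl_H K q`:
* `kxa_zeta p q g = ι_q (g ζ)`, a primitive `p`-th root of unity fixed by `V` (if `ζ ∈ K`);
* `kxa_kl_inv_eq` : `kl_inv K inv q g f = inv (kxa_zeta ^ f)`;
* `kxa_comp_hom`, `kxa_comp_smooth` : `y ∘ r_w` is a smooth character;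
* `kxa_H_isOpen`, `kxa_inert_mem`;
* `kxa_art_eq` : `ksha_art K inv y (q, g) = kex_artLoc inv q V (y ∘ r_w)`;
* `kxa_unr_all` : unramified at the representatives ⟹ unramified at all places above `q`;
* `kxa_Y S K` : the `F_p`-vector space of level-`S` characters of `U`.
-/
import Fermat.Agent.S55.Global.KExArtDefs
import Fermat.Agent.S55.Global.KShaBasic
import Fermat.Agent.S55.Global.KShaLocS
import Fermat.Agent.S55.Global.AkUnr
import Fermat.Agent.S55.Local.ConjUnr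
import Fermat.Agent.S55.Local.PtInv

set_option autoImplicit false
set_option linter.style.haveILetI false
set_option linter.unusedSectionVars false
set_option maxHeartbeats 1000000
set_option synthInstance.maxHeartbeats 400000

open CategoryTheory Module groupCohomology ExtCitation

noncomputable section

namespace Fermat.Agent.S55

local notation "Qbar" => AlgebraicClosure ℚ

section Zeta

variable (p : ℕ) [Fact p.Prime] (q : ℕ) [Fact q.Prime] (g : s55_GQ)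

/-- `ι_q (g ζ)`. -/
def kxa_zeta : (PadicAlgCl q)ˣ := ak_emb q g (ksha_zeta p)

theorem kxa_emb_injective : Function.Injective (ak_emb q g) := by
  intro x y h
  apply Units.ext
  have h1 := congrArg (fun u : (PadicAlgCl q)ˣ => (u : PadicAlgCl q)) h
  have h2 : padicEmbedding q (g (x : Qbar)) = padicEmbedding q (g (y : Qbar)) := h1
  exact g.injective ((padicEmbedding q).toRingHom.injective h2)

theorem kxa_zeta_prim : IsPrimitiveRoot (kxa_zeta p q g) p :=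
  (ksha_zeta_prim p).map_of_injective (kxa_emb_injective q g)

theorem kxa_zeta_eq :
    kxa_zeta p q g = ld_zetaLoc p q ^ ((cycloChar p g : (ZMod p)ˣ) : ZMod p).val :=
  kls_zeta_emb p q g

theorem kxa_zeta_pow (a : ZMod p) :
    kxa_zeta p q g ^ a.val =
      ld_zetaLoc p q ^ (((cycloChar p g : (ZMod p)ˣ) : ZMod p) * a).val := by
  rw [kxa_zeta_eq, ksha_pow_val_mul (ptinv_zetaLoc_pow p q)]

end Zeta

section Place

variable {p : ℕ} [Fact p.Prime] (K : IntermediateField ℚ Qbar) [hK : K.fixingSubgroup.Normal]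
  (q : Nat.Primes) (g : s55_GQ)

/-- `τ (ι_q (g x)) = ι_q (g (r_w τ x))`. -/
theorem kxa_smul_emb (τ : ↥(kl_H K q)) (x : Qbarˣ) :
    τ • ak_emb (q : ℕ) g x = ak_emb (q : ℕ) g (kl_r K q g τ • x) := by
  have hH : ak_H K (q : ℕ) g = kl_H K q := kls_H_eq K q g
  have hτ : (τ : lcf_Gal (q : ℕ)) ∈ ak_H K (q : ℕ) g := by
    rw [hH]
    exact τ.2
  have h := aku_smul_emb K g (⟨τ.1, hτ⟩ : ↥(ak_H K (q : ℕ) g)) x
  have e : ak_r K (q : ℕ) g (⟨τ.1, hτ⟩ : ↥(ak_H K (q : ℕ) g)) = kl_r K q g τ := by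
    apply Subtype.ext
    rw [ak_r_coe, kl_r_coe]
  rw [e] at h
  exact h

theorem kxa_zeta_fix (hcyc : ∀ s ∈ K.fixingSubgroup, cycloChar p s = 1) (τ : ↥(kl_H K q)) :
    τ • kxa_zeta p (q : ℕ) g = kxa_zeta p (q : ℕ) g := by
  rw [kxa_zeta, kxa_smul_emb, ksha_smul_zeta K hcyc]

/-- `kl_inv` in terms of `ι_q (g ζ)`. -/
theorem kxa_kl_inv_eq (inv : lcf_InvType) (f : ↥(kl_H K q) × ↥(kl_H K q) → ZMod p) :
    kl_inv K inv q g f =
      inv (q : ℕ) (kl_H K q) (fun x => kxa_zeta p (q : ℕ) g ^ (f x).val) := by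
  show inv (q : ℕ) (kl_H K q) _ = _
  congr 1
  funext x
  rw [kxa_zeta_pow]

theorem kxa_comp_hom {y : ↥K.fixingSubgroup → ZMod p} (hy : kl_IsHom y) :
    kl_IsHom (fun τ : ↥(kl_H K q) => y (kl_r K q g τ)) := fun a b => by
  show y (kl_r K q g (a * b)) = y (kl_r K q g a) + y (kl_r K q g b)
  rw [map_mul, hy]

theorem kxa_H_isOpen (hKfin : FiniteDimensional ℚ K) : lcf_IsOpen (kl_H K q) := by
  have h := aku_H_isOpen (q : ℕ) K hKfin 1
  rwa [kls_H_eq K q 1] at h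

theorem kxa_comp_smooth {X : Type*} (y : ↥K.fixingSubgroup → X)
    (F : IntermediateField ℚ Qbar) (hF : FiniteDimensional ℚ F) (hy : ak_Const₁ K F y) :
    lcf_Smooth₁ (kl_H K q) (fun τ : ↥(kl_H K q) => y (kl_r K q g τ)) := by
  obtain ⟨E, hE, hEF⟩ := aku_H_isOpen (q : ℕ) F hF g
  refine ⟨E, hE, fun a s hs => ?_⟩
  show y (kl_r K q g (a * s)) = y (kl_r K q g a)
  rw [map_mul]
  apply hy
  rw [kl_r_coe]
  exact (ak_mem_H_iff F (q : ℕ) g _).1 (hEF hs)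

theorem kxa_comp_smooth' {S : Finset Nat.Primes} {X : Type*} {y : ↥K.fixingSubgroup → X}
    (hy : kl_LevelS₁ S K y) :
    lcf_Smooth₁ (kl_H K q) (fun τ : ↥(kl_H K q) => y (kl_r K q g τ)) := by
  obtain ⟨F, hF, h⟩ := hy
  exact kxa_comp_smooth K q g y F hF.1 h

theorem kxa_inert_mem {S : Finset Nat.Primes} (hunr : K.IsUnramifiedOutside S) (hq : q ∉ S)
    (s : lcf_Gal (q : ℕ)) (hs : lcf_IsInert s) : s ∈ kl_H K q := by
  have h := aku_inert_mem (q : ℕ) K (ak_unramAt_of_outside hunr q hq) 1 s hs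
  rwa [kls_H_eq K q 1] at h

theorem kxa_emb_qU : ak_emb (q : ℕ) g (ksha_qU q) = kex_qLoc (q : ℕ) := by
  apply Units.ext
  show padicEmbedding (q : ℕ) (g (((q : ℕ) : Qbar))) = (((q : ℕ) : ℕ) : PadicAlgCl (q : ℕ))
  rw [map_natCast, map_natCast]

/-- The global Artin symbol at `(q, g)` is the local Artin symbol of `y ∘ r_w`. -/
theorem kxa_art_eq (inv : lcf_InvType) (y : ↥K.fixingSubgroup → ZMod p) :
    ksha_art K inv y (q, g) =
      kex_artLoc inv (q : ℕ) (kl_H K q) (fun τ : ↥(kl_H K q) => y (kl_r K q g τ)) := by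
  show inv (q : ℕ) (ak_H K (q : ℕ) g) (ak_loc₂ K (q : ℕ) g (ksha_cupB K (ksha_qU q) y)) =
    inv (q : ℕ) (kl_H K q) _
  refine ak_inv_congr inv (q : ℕ) (kls_H_eq K q g) _ _ fun τ τ' σ σ' hτ hτ' => ?_
  have e1 : ak_r K (q : ℕ) g τ = kl_r K q g σ := by
    apply Subtype.ext
    rw [ak_r_coe, kl_r_coe, hτ]
  have e2 : ak_r K (q : ℕ) g τ' = kl_r K q g σ' := by
    apply Subtype.ext
    rw [ak_r_coe, kl_r_coe, hτ']
  show ak_emb (q : ℕ) g (ksha_qU q ^ ksha_bock y (ak_r K (q : ℕ) g τ, ak_r K (q : ℕ) g τ')) =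
    kex_qLoc (q : ℕ) ^ ksha_bock (fun τ : ↥(kl_H K q) => y (kl_r K q g τ)) (σ, σ')
  rw [map_pow, kxa_emb_qU, e1, e2]
  rfl

/-- `kl_H K q` is normal in `Gal(Ω_q/ℚ_q)`. -/
theorem kxa_H_conj_mem (τ : lcf_Gal (q : ℕ)) (s : ↥(kl_H K q)) :
    τ⁻¹ * (s : lcf_Gal (q : ℕ)) * τ ∈ kl_H K q := by
  rw [kl_mem_H_iff, map_mul, map_mul, map_inv]
  have h := hK.conj_mem _ ((kl_mem_H_iff K q _).1 s.2) (localGaloisToGlobal (q : ℕ) τ)⁻¹
  rwa [inv_inv] at h

/-- The localisation at `(q, loc τ * g₀ * u)` of a character of `U` is the localisation at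
`(q, g₀)` composed with the conjugation by `τ`. -/
theorem kxa_comp_conj {y : ↥K.fixingSubgroup → ZMod p} (hy : kl_IsHom y) (g₀ : s55_GQ)
    (τ : lcf_Gal (q : ℕ)) (u : s55_GQ) (hu : u ∈ K.fixingSubgroup) (s : ↥(kl_H K q)) :
    y (kl_r K q (localGaloisToGlobal (q : ℕ) τ * g₀ * u) s) =
      y (kl_r K q g₀ ⟨τ⁻¹ * (s : lcf_Gal (q : ℕ)) * τ, kxa_H_conj_mem K q τ s⟩) := by
  have e : kl_r K q (localGaloisToGlobal (q : ℕ) τ * g₀ * u) s =
      (⟨u, hu⟩ : ↥K.fixingSubgroup)⁻¹ *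
        kl_r K q g₀ ⟨τ⁻¹ * (s : lcf_Gal (q : ℕ)) * τ, kxa_H_conj_mem K q τ s⟩ *
          (⟨u, hu⟩ : ↥K.fixingSubgroup) := by
    apply Subtype.ext
    rw [kl_r_coe]
    show _ = u⁻¹ * (g₀⁻¹ * localGaloisToGlobal (q : ℕ) (τ⁻¹ * (s : lcf_Gal (q : ℕ)) * τ) * g₀) * u
    rw [map_mul, map_mul, map_inv]
    group
  rw [e, hy, hy]
  have h1 : y (⟨u, hu⟩ : ↥K.fixingSubgroup)⁻¹ = - y ⟨u, hu⟩ := by
    have h := hy (⟨u, hu⟩ : ↥K.fixingSubgroup)⁻¹ ⟨u, hu⟩
    rw [inv_mul_cancel] at h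
    have h0 : y 1 = 0 := by
      have h' := hy 1 1
      rw [mul_one] at h'
      exact left_eq_add.1 h'
    rw [h0] at h
    exact eq_neg_of_add_eq_zero_left h.symm
  rw [h1]
  ring

/-- Unramified at the representative ⟹ unramified at every pair of the same place. -/
theorem kxa_unr_conj {y : ↥K.fixingSubgroup → ZMod p} (hy : kl_IsHom y) (g₀ : s55_GQ)
    (h₀ : kex_IsUnr (kl_H K q) (fun τ : ↥(kl_H K q) => y (kl_r K q g₀ τ)))
    (τ : lcf_Gal (q : ℕ)) (u : s55_GQ) (hu : u ∈ K.fixingSubgroup) :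
    kex_IsUnr (kl_H K q) (fun s : ↥(kl_H K q) =>
      y (kl_r K q (localGaloisToGlobal (q : ℕ) τ * g₀ * u) s)) := by
  intro s hs
  show y (kl_r K q (localGaloisToGlobal (q : ℕ) τ * g₀ * u) s) = 0
  rw [kxa_comp_conj K q hy g₀ τ u hu s]
  exact h₀ ⟨τ⁻¹ * (s : lcf_Gal (q : ℕ)) * τ, kxa_H_conj_mem K q τ s⟩
    (lconj_isInert τ (s : lcf_Gal (q : ℕ)) hs)

end Place

/-! ### The space of level-`S` characters -/

section Y

variable {p : ℕ} [Fact p.Prime] (S : Finset Nat.Primes) (K : IntermediateField ℚ Qbar)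

theorem kxa_levelS_add {y y' : ↥K.fixingSubgroup → ZMod p} (hy : kl_LevelS₁ S K y)
    (hy' : kl_LevelS₁ S K y') : kl_LevelS₁ S K (y + y') := by
  obtain ⟨F, hF, h⟩ := hy
  obtain ⟨F', hF', h'⟩ := hy'
  refine ⟨F ⊔ F', hF.sup hF', fun g s hs => ?_⟩
  show y (g * s) + y' (g * s) = y g + y' g
  rw [h g s (IntermediateField.fixingSubgroup_antitone le_sup_left hs),
    h' g s (IntermediateField.fixingSubgroup_antitone le_sup_right hs)]

/-- The `F_p`-vector space of level-`S` characters of `U = G_K`. -/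
def kxa_Y : Submodule (ZMod p) (↥K.fixingSubgroup → ZMod p) where
  carrier := {y | kl_IsHom y ∧ kl_LevelS₁ S K y}
  zero_mem' := ⟨fun _ _ => (add_zero (0 : ZMod p)).symm,
    ⊥, IntermediateField.isUnramifiedOutside_bot S, fun _ _ _ => rfl⟩
  add_mem' := by
    rintro y y' ⟨hy, hyl⟩ ⟨hy', hyl'⟩
    refine ⟨fun g h => ?_, kxa_levelS_add S K hyl hyl'⟩
    show y (g * h) + y' (g * h) = y g + y' g + (y h + y' h)
    rw [hy g h, hy' g h]
    ring
  smul_mem' := by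
    rintro c y ⟨hy, F, hF, h⟩
    refine ⟨fun g h' => ?_, F, hF, fun g s hs => ?_⟩
    · show c • y (g * h') = c • y g + c • y h'
      rw [hy g h', smul_add]
    · show c • y (g * s) = c • y g
      rw [h g s hs]

theorem kxa_mem_Y (y : ↥K.fixingSubgroup → ZMod p) :
    y ∈ kxa_Y (p := p) S K ↔ kl_IsHom y ∧ kl_LevelS₁ S K y := Iff.rfl

end Y

end Fermat.Agent.S55
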