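/-
S55 (fifth wave), GLOBAL side, [K-EX] package, assembly [KEX-ARTPERF-OF] (helper8), part 1:
LOCAL TOOLS.  Prefix `kxa_`.

* `kxa_hom t ht` : the monoid homomorphism `U →* Multiplicative (ZMod p)` of a character `t`;
  `kex_artLoc inv q U t = inv (lcf_unrCoc U p (kxa_hom t ht) q)` by `rfl`;
* the local Artin symbol `A (t) = kex_artLoc inv q U t` is additive in `t` (`kxa_art_add`, from
  helper11's `tame_inv_mul_right`), `A (0) = 0`, `A (c t) = c.val • A (t)`, `p • A (t) = 0`;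
* the local pairing `kxa_b inv q U ζ θ η = inv (ζ ^ (θ ∪ η))` is `p`-torsion, `b (0, η) = 0`;
* `kxa_torsion` : `p • a = 0`, `m • a = 0`, `a ≠ 0` ⟹ `p ∣ m` (in any additive group).
-/
import Fermat.Agent.S55.Global.KExArtDefs
import Fermat.Agent.S55.Global.KExPair
import Fermat.Agent.S55.Local.Tame
import Fermat.Agent.S55.Local.H3Mu

set_option autoImplicit false
set_option linter.style.haveILetI false
set_option linter.unusedSectionVars false
set_option maxHeartbeats 1000000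
set_option synthInstance.maxHeartbeats 400000

open CategoryTheory Module groupCohomology ExtCitation

noncomputable section

namespace Fermat.Agent.S55

local notation "Qbar" => AlgebraicClosure ℚ

/-! ### Torsion -/

/-- In an additive group: `p • a = 0`, `m • a = 0`, `a ≠ 0` ⟹ `p ∣ m` (`p` prime). -/
theorem kxa_torsion {A : Type*} [AddCommGroup A] {p : ℕ} (hp : p.Prime) {a : A}
    (hpa : p • a = 0) (ha : a ≠ 0) (m : ℤ) (hm : m • a = 0) : (p : ℤ) ∣ m := by
  by_contra hnd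
  have hcop : IsCoprime (p : ℤ) m := by
    rw [Int.isCoprime_iff_gcd_eq_one]
    have h1 := (Nat.Prime.coprime_iff_not_dvd hp).2 (fun h : p ∣ m.natAbs => hnd
      (Int.natCast_dvd.2 h))
    exact h1
  obtain ⟨u, v, huv⟩ := hcop
  apply ha
  have h1 : (u * (p : ℤ) + v * m) • a = a := by rw [huv, one_zsmul]
  rw [add_zsmul, mul_zsmul, mul_zsmul, hm, smul_zero, natCast_zsmul, hpa, smul_zero,
    add_zero] at h1
  exact h1.symm

section Art

variable {q : ℕ} [Fact q.Prime] {p : ℕ} [Fact p.Prime] {inv : lcf_InvType}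
  {U : Subgroup (lcf_Gal q)}

theorem kxa_isHom_one {t : ↥U → ZMod p} (ht : kl_IsHom t) : t 1 = 0 := by
  have h := ht 1 1
  rw [mul_one] at h
  exact left_eq_add.1 h

theorem kxa_isHom_inv {t : ↥U → ZMod p} (ht : kl_IsHom t) (g : ↥U) : t g⁻¹ = - t g := by
  have h := ht g⁻¹ g
  rw [inv_mul_cancel, kxa_isHom_one ht] at h
  exact eq_neg_of_add_eq_zero_left h.symm

theorem kxa_isHom_conj {t : ↥U → ZMod p} (ht : kl_IsHom t) (u g : ↥U) :
    t (u⁻¹ * g * u) = t g := by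
  rw [ht, ht, kxa_isHom_inv ht]
  ring

theorem kxa_isHom_zero : kl_IsHom (0 : ↥U → ZMod p) := fun _ _ => (add_zero 0).symm

theorem kxa_isHom_add {t t' : ↥U → ZMod p} (ht : kl_IsHom t) (ht' : kl_IsHom t') :
    kl_IsHom (t + t') := fun g h => by
  show t (g * h) + t' (g * h) = t g + t' g + (t h + t' h)
  rw [ht g h, ht' g h]
  ring

theorem kxa_isHom_smul (c : ZMod p) {t : ↥U → ZMod p} (ht : kl_IsHom t) :
    kl_IsHom (fun g => c * t g) := fun g h => by
  show c * t (g * h) = c * t g + c * t h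
  rw [ht g h]
  ring

theorem kxa_smooth_zero : lcf_Smooth₁ U (0 : ↥U → ZMod p) :=
  ⟨⊥, inferInstance, fun _ _ _ => rfl⟩

theorem kxa_smooth_add {t t' : ↥U → ZMod p} (ht : lcf_Smooth₁ U t) (ht' : lcf_Smooth₁ U t') :
    lcf_Smooth₁ U (t + t') := by
  obtain ⟨E, hE, h, h'⟩ := sym_common_level ht ht'
  exact ⟨E, hE, fun g s hs => by
    show t (g * s) + t' (g * s) = t g + t' g
    rw [h g s hs, h' g s hs]⟩

theorem kxa_smooth_smul (c : ZMod p) {t : ↥U → ZMod p} (ht : lcf_Smooth₁ U t) :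
    lcf_Smooth₁ U (fun g => c * t g) := by
  obtain ⟨E, hE, h⟩ := ht
  exact ⟨E, hE, fun g s hs => by
    show c * t (g * s) = c * t g
    rw [h g s hs]⟩

theorem kxa_unr_smul (c : ZMod p) {t : ↥U → ZMod p} (ht : kex_IsUnr U t) :
    kex_IsUnr U (fun g => c * t g) := fun s hs => by
  show c * t s = 0
  rw [ht s hs, mul_zero]

/-- The monoid homomorphism of a character. -/
def kxa_hom (t : ↥U → ZMod p) (ht : kl_IsHom t) : ↥U →* Multiplicative (ZMod p) where
  toFun g := Multiplicative.ofAdd (t g)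
  map_one' := by
    rw [kxa_isHom_one ht]
    rfl
  map_mul' g h := by
    rw [ht g h]
    rfl

theorem kxa_hom_smooth {t : ↥U → ZMod p} (ht : kl_IsHom t) (hts : lcf_Smooth₁ U t) :
    lcf_Smooth₁ U (kxa_hom t ht) := by
  obtain ⟨E, hE, h⟩ := hts
  exact ⟨E, hE, fun g s hs => by
    show Multiplicative.ofAdd (t (g * s)) = Multiplicative.ofAdd (t g)
    rw [h g s hs]⟩

theorem kxa_artLoc_eq (t : ↥U → ZMod p) (ht : kl_IsHom t) :
    kex_artLoc inv q U t = inv q U (lcf_unrCoc U p (kxa_hom t ht) (kex_qLoc q)) := rfl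

theorem kxa_qLoc_fix (g : ↥U) : g • kex_qLoc q = kex_qLoc q := by
  apply Units.ext
  show (g : lcf_Gal q) (((q : ℕ) : PadicAlgCl q)) = ((q : ℕ) : PadicAlgCl q)
  exact map_natCast _ _

/-- `A (0) = 0`. -/
theorem kxa_art_zero (hinv : lcf_IsInvSystem inv) (hU : lcf_IsOpen U) :
    kex_artLoc inv q U (0 : ↥U → ZMod p) = 0 := by
  have h : (fun x : ↥U × ↥U => kex_qLoc q ^ ksha_bock (0 : ↥U → ZMod p) x) = 1 := by
    funext x
    show kex_qLoc q ^ (((0 : ZMod p).val + (0 : ZMod p).val) / p) = 1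
    rw [ZMod.val_zero, add_zero, Nat.zero_div, pow_zero]
  show inv q U _ = 0
  rw [h]
  exact lh3m_inv_one hinv U hU

/-- `A` is additive. -/
theorem kxa_art_add (hinv : lcf_IsInvSystem inv) (hU : lcf_IsOpen U) {t t' : ↥U → ZMod p}
    (ht : kl_IsHom t) (hts : lcf_Smooth₁ U t) (ht' : kl_IsHom t') (hts' : lcf_Smooth₁ U t') :
    kex_artLoc inv q U (t + t') = kex_artLoc inv q U t + kex_artLoc inv q U t' := by
  haveI : NeZero p := ⟨(Fact.out : p.Prime).ne_zero⟩
  rw [kxa_artLoc_eq (t + t') (kxa_isHom_add ht ht'), kxa_artLoc_eq t ht, kxa_artLoc_eq t' ht']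
  have h : kxa_hom (t + t') (kxa_isHom_add ht ht') = kxa_hom t ht * kxa_hom t' ht' := rfl
  rw [h]
  exact tame_inv_mul_right hinv hU (kxa_hom_smooth ht hts) (kxa_hom_smooth ht' hts')
    (fun g => kxa_qLoc_fix g)

/-- `A (n t) = n • A (t)`. -/
theorem kxa_art_nsmul (hinv : lcf_IsInvSystem inv) (hU : lcf_IsOpen U) {t : ↥U → ZMod p}
    (ht : kl_IsHom t) (hts : lcf_Smooth₁ U t) (n : ℕ) :
    kex_artLoc inv q U (fun g => (n : ZMod p) * t g) = n • kex_artLoc inv q U t := by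
  induction n with
  | zero =>
    have h : (fun g : ↥U => ((0 : ℕ) : ZMod p) * t g) = 0 := by
      funext g
      show ((0 : ℕ) : ZMod p) * t g = 0
      rw [Nat.cast_zero, zero_mul]
    rw [h, zero_smul]
    exact kxa_art_zero hinv hU
  | succ n ih =>
    have h : (fun g : ↥U => ((n + 1 : ℕ) : ZMod p) * t g) =
        (fun g : ↥U => (n : ZMod p) * t g) + t := by
      funext g
      show ((n + 1 : ℕ) : ZMod p) * t g = (n : ZMod p) * t g + t g
      push_cast
      ring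
    rw [h, kxa_art_add hinv hU (kxa_isHom_smul _ ht) (kxa_smooth_smul _ hts) ht hts, ih,
      succ_nsmul]

/-- `A (c t) = c.val • A (t)`. -/
theorem kxa_art_smul (hinv : lcf_IsInvSystem inv) (hU : lcf_IsOpen U) {t : ↥U → ZMod p}
    (ht : kl_IsHom t) (hts : lcf_Smooth₁ U t) (c : ZMod p) :
    kex_artLoc inv q U (fun g => c * t g) = c.val • kex_artLoc inv q U t := by
  haveI : NeZero p := ⟨(Fact.out : p.Prime).ne_zero⟩
  have h := kxa_art_nsmul hinv hU ht hts c.val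
  rw [ZMod.natCast_zmod_val] at h
  exact h

/-- `p • A (t) = 0`. -/
theorem kxa_art_ptors (hinv : lcf_IsInvSystem inv) (hU : lcf_IsOpen U) {t : ↥U → ZMod p}
    (ht : kl_IsHom t) (hts : lcf_Smooth₁ U t) : p • kex_artLoc inv q U t = 0 := by
  rw [← kxa_art_nsmul hinv hU ht hts p]
  have h : (fun g : ↥U => ((p : ℕ) : ZMod p) * t g) = 0 := by
    funext g
    show ((p : ℕ) : ZMod p) * t g = 0
    rw [ZMod.natCast_self, zero_mul]
  rw [h]
  exact kxa_art_zero hinv hU

end Art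

/-! ### The local pairing -/

section Pair

variable {q : ℕ} [Fact q.Prime] {p : ℕ} [Fact p.Prime]

/-- The local pairing `b (θ, η) = inv (ζ ^ (θ ∪ η))`. -/
def kxa_b (inv : lcf_InvType) (q : ℕ) [Fact q.Prime] (U : Subgroup (lcf_Gal q))
    (ζ : (PadicAlgCl q)ˣ) {p : ℕ} (θ η : ↥U → ZMod p) : lcf_QZ :=
  inv q U (fun x => ζ ^ (θ x.1 * η x.2).val)

variable {inv : lcf_InvType} {U : Subgroup (lcf_Gal q)} {ζ : (PadicAlgCl q)ˣ}

theorem kxa_b_zero_left (hinv : lcf_IsInvSystem inv) (hU : lcf_IsOpen U) (η : ↥U → ZMod p) :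
    kxa_b inv q U ζ (0 : ↥U → ZMod p) η = 0 := by
  have h : (fun x : ↥U × ↥U => ζ ^ ((0 : ↥U → ZMod p) x.1 * η x.2).val) = 1 := by
    funext x
    show ζ ^ ((0 : ZMod p) * η x.2).val = 1
    rw [zero_mul, ZMod.val_zero, pow_zero]
  show inv q U _ = 0
  rw [h]
  exact lh3m_inv_one hinv U hU

theorem kxa_b_ptors (hinv : lcf_IsInvSystem inv) (hU : lcf_IsOpen U)
    (hζ : IsPrimitiveRoot ζ p) (hζU : ∀ g : ↥U, g • ζ = ζ) {θ η : ↥U → ZMod p}
    (hθ : kl_IsHom θ) (hθs : lcf_Smooth₁ U θ) (hη : kl_IsHom η) (hηs : lcf_Smooth₁ U η) :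
    p • kxa_b inv q U ζ θ η = 0 := by
  have hc := kxp_isCoc U hζ hζU θ η hθ hθs hη hηs
  show p • inv q U _ = 0
  rw [← lh3m_inv_pow hinv U hU hc p]
  have h : (fun x : ↥U × ↥U => ζ ^ (θ x.1 * η x.2).val) ^ p = 1 := by
    funext x
    show (ζ ^ (θ x.1 * η x.2).val) ^ p = 1
    rw [pow_right_comm, hζ.pow_eq_one, one_pow]
  rw [h]
  exact lh3m_inv_one hinv U hU

end Pair

end Fermat.Agent.S55
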