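/-
S55 (fifth wave), GLOBAL side, [K-EX] package, assembly [KEX-ARTPERF-OF] (helper8), part 3:
THE TERMS `b_w (θ, η) = kl_inv K inv q g (θ ∪ η)` of the pairing.  Prefix `kxa_`.

* `kxa_term_add_left/right`, `kxa_term_ptors`, `kxa_term_zero` (from [KEX-PAIR], (I1), (I2));
* `kxa_term_tame` : for an unramified smooth character `t` of `kl_H K q` and a global
  character `η` with Kummer generator `α`, `ord_w (α ^ p) = n`:
  `b_w (t, η ∘ r_w) = n • A_w (t)`   (from [KEX-TAME]);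
* `kxa_pdiv_pow`, `kxa_ord_same`.
-/
import Fermat.Agent.S55.Global.KExArtPerfLoc
import Fermat.Agent.S55.Global.KExArtPerfGl
import Fermat.Agent.S55.Global.KShaSame

set_option autoImplicit false
set_option linter.style.haveILetI false
set_option linter.unusedSectionVars false
set_option maxHeartbeats 1000000
set_option synthInstance.maxHeartbeats 400000

open CategoryTheory Module groupCohomology ExtCitation

noncomputable section

namespace Fermat.Agent.S55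

local notation "Qbar" => AlgebraicClosure ℚ

section Term

variable {p : ℕ} [Fact p.Prime] {inv : lcf_InvType} (K : IntermediateField ℚ Qbar)
  [hK : K.fixingSubgroup.Normal] (q : Nat.Primes) (g : s55_GQ)

theorem kxa_term_add_left (hPair : kex_PairStatement) (hinv : lcf_IsInvSystem inv)
    (hp2 : p ≠ 2) (hKfin : FiniteDimensional ℚ K)
    (hcyc : ∀ s ∈ K.fixingSubgroup, cycloChar p s = 1)
    {θ θ' η : ↥(kl_H K q) → ZMod p} (hθ : kl_IsHom θ) (hθs : lcf_Smooth₁ (kl_H K q) θ)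
    (hθ' : kl_IsHom θ') (hθs' : lcf_Smooth₁ (kl_H K q) θ')
    (hη : kl_IsHom η) (hηs : lcf_Smooth₁ (kl_H K q) η) :
    kl_inv K inv q g (fun x => (θ x.1 + θ' x.1) * η x.2) =
      kl_inv K inv q g (fun x => θ x.1 * η x.2) + kl_inv K inv q g (fun x => θ' x.1 * η x.2) := by
  rw [kxa_kl_inv_eq, kxa_kl_inv_eq, kxa_kl_inv_eq]
  exact (hPair inv hinv (q : ℕ) p hp2 (kl_H K q) (kxa_H_isOpen K q hKfin)
    (kxa_zeta p (q : ℕ) g) (kxa_zeta_prim p (q : ℕ) g)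
    (kxa_zeta_fix K q g hcyc)).1 θ θ' η hθ hθs hθ' hθs' hη hηs

theorem kxa_term_add_right (hPair : kex_PairStatement) (hinv : lcf_IsInvSystem inv)
    (hp2 : p ≠ 2) (hKfin : FiniteDimensional ℚ K)
    (hcyc : ∀ s ∈ K.fixingSubgroup, cycloChar p s = 1)
    {θ η η' : ↥(kl_H K q) → ZMod p} (hθ : kl_IsHom θ) (hθs : lcf_Smooth₁ (kl_H K q) θ)
    (hη : kl_IsHom η) (hηs : lcf_Smooth₁ (kl_H K q) η)
    (hη' : kl_IsHom η') (hηs' : lcf_Smooth₁ (kl_H K q) η') :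
    kl_inv K inv q g (fun x => θ x.1 * (η x.2 + η' x.2)) =
      kl_inv K inv q g (fun x => θ x.1 * η x.2) + kl_inv K inv q g (fun x => θ x.1 * η' x.2) := by
  rw [kxa_kl_inv_eq, kxa_kl_inv_eq, kxa_kl_inv_eq]
  exact (hPair inv hinv (q : ℕ) p hp2 (kl_H K q) (kxa_H_isOpen K q hKfin)
    (kxa_zeta p (q : ℕ) g) (kxa_zeta_prim p (q : ℕ) g)
    (kxa_zeta_fix K q g hcyc)).2.1 θ η η' hθ hθs hη hηs hη' hηs'

theorem kxa_term_ptors (hinv : lcf_IsInvSystem inv) (hKfin : FiniteDimensional ℚ K)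
    (hcyc : ∀ s ∈ K.fixingSubgroup, cycloChar p s = 1)
    {θ η : ↥(kl_H K q) → ZMod p} (hθ : kl_IsHom θ) (hθs : lcf_Smooth₁ (kl_H K q) θ)
    (hη : kl_IsHom η) (hηs : lcf_Smooth₁ (kl_H K q) η) :
    p • kl_inv K inv q g (fun x => θ x.1 * η x.2) = 0 := by
  rw [kxa_kl_inv_eq]
  exact kxa_b_ptors hinv (kxa_H_isOpen K q hKfin) (kxa_zeta_prim p (q : ℕ) g)
    (kxa_zeta_fix K q g hcyc) hθ hθs hη hηs

theorem kxa_term_zero (hinv : lcf_IsInvSystem inv) (hKfin : FiniteDimensional ℚ K)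
    (η : ↥(kl_H K q) → ZMod p) :
    kl_inv K inv q g (fun x => (0 : ZMod p) * η x.2) = 0 := by
  rw [kxa_kl_inv_eq]
  exact kxa_b_zero_left (ζ := kxa_zeta p (q : ℕ) g) hinv (kxa_H_isOpen K q hKfin) η

/-- **The tame formula at the place `(q, g)`.** -/
theorem kxa_term_tame (hTame : kex_TameStatement) (hinv : lcf_IsInvSystem inv)
    (hp2 : p ≠ 2) (hKfin : FiniteDimensional ℚ K)
    (hcyc : ∀ s ∈ K.fixingSubgroup, cycloChar p s = 1)
    {t : ↥(kl_H K q) → ZMod p} (ht : kl_IsHom t) (hts : lcf_Smooth₁ (kl_H K q) t)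
    (htu : kex_IsUnr (kl_H K q) t)
    (η : ↥K.fixingSubgroup → ZMod p) (α : Qbarˣ)
    (hα : ∀ σ : ↥K.fixingSubgroup, σ • α = ksha_zeta p ^ (η σ).val * α)
    (n : ℤ) (hn : ksha_Ord (q, g) (α ^ p) n) :
    kl_inv K inv q g (fun x => t x.1 * η (kl_r K q g x.2)) =
      n • kex_artLoc inv (q : ℕ) (kl_H K q) t := by
  rw [kxa_kl_inv_eq]
  refine hTame inv hinv (q : ℕ) p hp2 (kl_H K q) (kxa_H_isOpen K q hKfin)
    (kxa_zeta p (q : ℕ) g) (kxa_zeta_prim p (q : ℕ) g) (kxa_zeta_fix K q g hcyc) t ht hts htu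
    (fun τ => η (kl_r K q g τ)) (ak_emb (q : ℕ) g α) (fun τ => ?_) n ?_
  · rw [kxa_smul_emb, hα, map_mul, map_pow]
    rfl
  · rw [← map_pow]
    exact hn

end Term

/-! ### Valuations -/

/-- `p ∣ ord_w (α ^ p)` if `ord_w α ∈ ℤ`. -/
theorem kxa_pdiv_pow (p : ℕ) (w : Nat.Primes × s55_GQ) (α : Qbarˣ) (N : ℤ)
    (h : ksha_Ord w α N) : ksha_PDiv p w (α ^ p) := by
  refine ⟨N, ?_⟩
  letI : Fact (w.1 : ℕ).Prime := ⟨w.1.2⟩
  have h' : ‖padicEmbedding (w.1 : ℕ) (w.2 (α : Qbar))‖ =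
      ‖(((w.1 : ℕ) : ℕ) : PadicAlgCl (w.1 : ℕ))‖ ^ N := h
  show ‖padicEmbedding (w.1 : ℕ) (w.2 ((α ^ p : Qbarˣ) : Qbar))‖ =
    ‖(((w.1 : ℕ) : ℕ) : PadicAlgCl (w.1 : ℕ))‖ ^ ((p : ℤ) * N)
  rw [Units.val_pow_eq_pow_val, map_pow, map_pow, norm_pow, h', ← zpow_natCast, ← zpow_mul,
    mul_comm]

/-- `ord_w k` depends only on the place of `K`, for `k ∈ Kˣ`. -/
theorem kxa_ord_same (K : IntermediateField ℚ Qbar) (q : Nat.Primes) (g₀ : s55_GQ)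
    (τ : lcf_Gal (q : ℕ)) (u : s55_GQ) (hu : u ∈ K.fixingSubgroup) (k : Qbarˣ)
    (hk : (k : Qbar) ∈ K) (n : ℤ) (h : ksha_Ord (q, g₀) k n) :
    ksha_Ord (q, localGaloisToGlobal (q : ℕ) τ * g₀ * u) k n := by
  have h' : ‖padicEmbedding (q : ℕ) (g₀ (k : Qbar))‖ =
      ‖(((q : ℕ) : ℕ) : PadicAlgCl (q : ℕ))‖ ^ n := h
  show ‖padicEmbedding (q : ℕ) ((localGaloisToGlobal (q : ℕ) τ * g₀ * u) (k : Qbar))‖ =
    ‖(((q : ℕ) : ℕ) : PadicAlgCl (q : ℕ))‖ ^ n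
  rw [ksm_norm_same, (IntermediateField.mem_fixingSubgroup_iff K u).1 hu _ hk]
  exact h'

end Fermat.Agent.S55
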