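/-
S55 (fifth wave), GLOBAL side, [K-EX] package, assembly [KEX-ARTPERF-OF] (helper8), part 4:
THE ASSEMBLY.  Prefix `kxa_`.

  `kxa_main : kl_ExStatement → kex_LevelStatement → kex_PairStatement → kex_TameStatement →
      kex_ArtNzStatement → kex_KumGenStatement → ksha_OrdStatement → kex_RepsExtStatement →
      ksha_ArtPerfStatement`

ROUTE (header of `Global/KExArtDefs.lean`).  `S'' = S ∪ primes (T)`, `R''` representatives for
`S''` extending `R` and containing `T`; `t⁰_q` an unramified character of `kl_H K q` with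
`A (t⁰_q) ≠ 0` (`q ∉ S`), `t⁰_q = 0` (`q ∈ S`); `V = F_p ^ W`, `W` the places above `S''` in `R''`;
`μ (c, η) = ∑_w b_w (c_w t⁰, η ∘ r_w)`, `Λ (c) = ∑_{w ∈ T} N_w • A_w (c_w t⁰)`.
If `μ (c, ·) = 0`, [K-EX] for `S''` gives `θ₀ ∈ Ш¹_S` with `θ₀ ∘ r_w = c_w t⁰`, so `Λ (c) = 0`.
Hence `Λ = μ (·, η)`, `η` the Kummer character of `α`, `k = α ^ p`, and [KEX-TAME] gives
`ord_w k ≡ N'_w mod p` at all `w ∈ W` above `S'' \ S`.
-/
import Fermat.Agent.S55.Global.KExArtPerfTerm
import Fermat.Agent.S55.Global.KExLinAlg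

set_option autoImplicit false
set_option linter.style.haveILetI false
set_option linter.unusedSectionVars false
set_option maxHeartbeats 4000000
set_option synthInstance.maxHeartbeats 400000

open CategoryTheory Module groupCohomology ExtCitation

noncomputable section

namespace Fermat.Agent.S55

local notation "Qbar" => AlgebraicClosure ℚ

/-- Extension by zero of a function on a finite set. -/
def kxa_ext {X : Type*} [DecidableEq X] {p : ℕ} (W : Finset X) (c : ↥W → ZMod p) : X → ZMod p :=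
  fun w => if h : w ∈ W then c ⟨w, h⟩ else 0

theorem kxa_ext_add {X : Type*} [DecidableEq X] {p : ℕ} (W : Finset X) (c c' : ↥W → ZMod p)
    (w : X) : kxa_ext W (c + c') w = kxa_ext W c w + kxa_ext W c' w := by
  unfold kxa_ext
  split_ifs
  · rfl
  · rw [add_zero]

theorem kxa_ext_single {X : Type*} [DecidableEq X] {p : ℕ} (W : Finset X) (w₀ : X)
    (h₀ : w₀ ∈ W) (w : X) :
    kxa_ext (p := p) W (fun w' : ↥W => if (w' : X) = w₀ then 1 else 0) w =
      if w = w₀ then 1 else 0 := by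
  unfold kxa_ext
  by_cases hw : w ∈ W
  · rw [dif_pos hw]
  · rw [dif_neg hw]
    have : w ≠ w₀ := fun h => hw (h ▸ h₀)
    rw [if_neg this]

/-- **[KEX-ARTPERF-OF]** -/
theorem kxa_main (hEx : kl_ExStatement) (hLevel : kex_LevelStatement)
    (hPair : kex_PairStatement) (hTame : kex_TameStatement) (hNz : kex_ArtNzStatement)
    (hKum : kex_KumGenStatement) (hOrd : ksha_OrdStatement) (hReps : kex_RepsExtStatement) :
    ksha_ArtPerfStatement := by
  intro inv p _ S K hK R hctx T hT hTS N hN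
  classical
  have hinv := hctx.inv
  have hp2 := hctx.odd
  have hcyc := hctx.cyc
  have hKfin : FiniteDimensional ℚ K := hctx.unr.1
  haveI : NeZero p := ⟨(Fact.out : p.Prime).ne_zero⟩
  -- the enlarged set of primes and its representatives
  set S'' : Finset Nat.Primes := S ∪ T.image Prod.fst with hS''
  have hSS'' : S ⊆ S'' := Finset.subset_union_left
  have hT'' : ∀ w ∈ T, w.1 ∈ S'' ∧ w.1 ∉ S := fun w hw =>
    ⟨Finset.mem_union_right _ (Finset.mem_image_of_mem _ hw), hTS w hw⟩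
  obtain ⟨R'', hR'', hRR, hTR⟩ := hReps S S'' hSS'' K hKfin R hctx.reps T hT hT''
  have hunr'' : K.IsUnramifiedOutside S'' := hctx.unr.mono hSS''
  have hpS'' : pPrime p ∈ S'' := hSS'' hctx.mem
  have hopen : ∀ q : Nat.Primes, lcf_IsOpen (kl_H K q) := fun q => kxa_H_isOpen K q hKfin
  -- the local characters `t⁰`
  have hT0ex : ∀ q : Nat.Primes, ∃ t : ↥(kl_H K q) → ZMod p, kl_IsHom t ∧
      lcf_Smooth₁ (kl_H K q) t ∧ kex_IsUnr (kl_H K q) t ∧ (q ∈ S → t = 0) ∧
      (q ∉ S → kex_artLoc inv (q : ℕ) (kl_H K q) t ≠ 0) := by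
    intro q
    by_cases hq : q ∈ S
    · exact ⟨0, kxa_isHom_zero, kxa_smooth_zero, fun _ _ => rfl, fun _ => rfl,
        fun h => absurd hq h⟩
    · obtain ⟨t, h1, h2, h3, h4⟩ := hNz inv hinv (q : ℕ) p (kl_H K q) (hopen q)
        (fun s hs => kxa_inert_mem K q hctx.unr hq s hs)
      exact ⟨t, h1, h2, h3, fun h => absurd h hq, fun _ => h4⟩
  choose T0 hT0hom hT0sm hT0unr hT0S hT0nz using hT0ex
  -- the index set
  set W : Finset (Nat.Primes × s55_GQ) :=
    S''.attach.biUnion (fun q => (R'' q).image (fun g => ((q : Nat.Primes), g))) with hW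
  have hmemW : ∀ (q : ↥S'') (g : s55_GQ), g ∈ R'' q → ((q : Nat.Primes), g) ∈ W := by
    intro q g hg
    rw [hW, Finset.mem_biUnion]
    exact ⟨q, Finset.mem_attach _ _, Finset.mem_image_of_mem _ hg⟩
  -- the local characters of a coefficient vector
  have hθhom : ∀ (a : ZMod p) (q : Nat.Primes), kl_IsHom (fun τ : ↥(kl_H K q) => a * T0 q τ) :=
    fun a q => kxa_isHom_smul a (hT0hom q)
  have hθsm : ∀ (a : ZMod p) (q : Nat.Primes),
      lcf_Smooth₁ (kl_H K q) (fun τ : ↥(kl_H K q) => a * T0 q τ) :=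
    fun a q => kxa_smooth_smul a (hT0sm q)
  have hηhom : ∀ (η : ↥(kxa_Y (p := p) S'' K)) (q : Nat.Primes) (g : s55_GQ),
      kl_IsHom (fun τ : ↥(kl_H K q) => (η : ↥K.fixingSubgroup → ZMod p) (kl_r K q g τ)) :=
    fun η q g => kxa_comp_hom K q g η.2.1
  have hηsm : ∀ (η : ↥(kxa_Y (p := p) S'' K)) (q : Nat.Primes) (g : s55_GQ),
      lcf_Smooth₁ (kl_H K q)
        (fun τ : ↥(kl_H K q) => (η : ↥K.fixingSubgroup → ZMod p) (kl_r K q g τ)) :=
    fun η q g => kxa_comp_smooth' K q g η.2.2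
  -- the pairing and the functional
  let μ : (↥W → ZMod p) → ↥(kxa_Y (p := p) S'' K) → lcf_QZ := fun c η =>
    ∑ q : ↥S'', ∑ g ∈ R'' q, kl_inv K inv (q : Nat.Primes) g
      (fun x => (kxa_ext W c ((q : Nat.Primes), g) * T0 (q : Nat.Primes) x.1) *
        (η : ↥K.fixingSubgroup → ZMod p) (kl_r K (q : Nat.Primes) g x.2))
  let Lam : (↥W → ZMod p) → lcf_QZ := fun c =>
    ∑ w ∈ T, N w • kex_artLoc inv (w.1 : ℕ) (kl_H K w.1)
      (fun τ : ↥(kl_H K w.1) => kxa_ext W c w * T0 w.1 τ)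
  have hl : ∀ (c c' : ↥W → ZMod p) (η : ↥(kxa_Y (p := p) S'' K)),
      μ (c + c') η = μ c η + μ c' η := by
    intro c c' η
    show ∑ q : ↥S'', ∑ g ∈ R'' q, _ =
      ∑ q : ↥S'', ∑ g ∈ R'' q, _ + ∑ q : ↥S'', ∑ g ∈ R'' q, _
    rw [← Finset.sum_add_distrib]
    refine Finset.sum_congr rfl fun q _ => ?_
    rw [← Finset.sum_add_distrib]
    refine Finset.sum_congr rfl fun g _ => ?_
    rw [← kxa_term_add_left K (q : Nat.Primes) g hPair hinv hp2 hKfin hcyc
      (hθhom (kxa_ext W c ((q : Nat.Primes), g)) q) (hθsm _ q)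
      (hθhom (kxa_ext W c' ((q : Nat.Primes), g)) q) (hθsm _ q) (hηhom η q g) (hηsm η q g)]
    congr 1
    funext x
    rw [kxa_ext_add, add_mul]
  have hr : ∀ (c : ↥W → ZMod p) (η η' : ↥(kxa_Y (p := p) S'' K)),
      μ c (η + η') = μ c η + μ c η' := by
    intro c η η'
    show ∑ q : ↥S'', ∑ g ∈ R'' q, _ =
      ∑ q : ↥S'', ∑ g ∈ R'' q, _ + ∑ q : ↥S'', ∑ g ∈ R'' q, _
    rw [← Finset.sum_add_distrib]
    refine Finset.sum_congr rfl fun q _ => ?_
    rw [← Finset.sum_add_distrib]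
    refine Finset.sum_congr rfl fun g _ => ?_
    rw [← kxa_term_add_right K (q : Nat.Primes) g hPair hinv hp2 hKfin hcyc
      (hθhom (kxa_ext W c ((q : Nat.Primes), g)) q) (hθsm _ q)
      (hηhom η q g) (hηsm η q g) (hηhom η' q g) (hηsm η' q g)]
    rfl
  have hv : ∀ (c : ↥W → ZMod p) (η : ↥(kxa_Y (p := p) S'' K)),
      ∃ a, ptinv_e p a = μ c η := by
    intro c η
    apply ptinv_e_range
    show p • ∑ q : ↥S'', ∑ g ∈ R'' q, _ = 0
    rw [Finset.smul_sum]
    refine Finset.sum_eq_zero fun q _ => ?_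
    rw [Finset.smul_sum]
    refine Finset.sum_eq_zero fun g _ => ?_
    exact kxa_term_ptors K (q : Nat.Primes) g hinv hKfin hcyc
      (hθhom (kxa_ext W c ((q : Nat.Primes), g)) q) (hθsm _ q) (hηhom η q g) (hηsm η q g)
  have ha : ∀ c c' : ↥W → ZMod p, Lam (c + c') = Lam c + Lam c' := by
    intro c c'
    show ∑ w ∈ T, _ = ∑ w ∈ T, _ + ∑ w ∈ T, _
    rw [← Finset.sum_add_distrib]
    refine Finset.sum_congr rfl fun w _ => ?_
    rw [← smul_add, ← kxa_art_add hinv (hopen w.1) (hθhom (kxa_ext W c w) w.1) (hθsm _ w.1)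
      (hθhom (kxa_ext W c' w) w.1) (hθsm _ w.1)]
    congr 2
    funext τ
    show kxa_ext W (c + c') w * T0 w.1 τ = kxa_ext W c w * T0 w.1 τ + kxa_ext W c' w * T0 w.1 τ
    rw [kxa_ext_add, add_mul]
  have hvl : ∀ c : ↥W → ZMod p, ∃ a, ptinv_e p a = Lam c := by
    intro c
    apply ptinv_e_range
    show p • ∑ w ∈ T, _ = 0
    rw [Finset.smul_sum]
    refine Finset.sum_eq_zero fun w _ => ?_
    rw [smul_comm, kxa_art_ptors hinv (hopen w.1) (hθhom (kxa_ext W c w) w.1) (hθsm _ w.1),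
      smul_zero]
  -- Step 1: the left kernel of `μ` is killed by `Λ`
  have h1 : ∀ c : ↥W → ZMod p, (∀ η, μ c η = 0) → Lam c = 0 := by
    intro c hc
    obtain ⟨θ₀, hθ₀, hθ₀l, hθ₀loc⟩ := hEx inv hinv (p := p) hp2 S'' hpS'' K hunr'' hcyc R'' hR''
      (fun q g τ => kxa_ext W c ((q : Nat.Primes), g) * T0 (q : Nat.Primes) τ)
      (fun q g _ => ⟨hθhom _ q, hθsm _ q⟩)
      (fun y hy hyl => hc ⟨y, hy, hyl⟩)
    have hθ₀S : kl_LevelS₁ S K θ₀ := by
      refine hLevel p hp2 S S'' hSS'' hctx.mem K hctx.unr hcyc θ₀ hθ₀ hθ₀l ?_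
      intro q hq'' hqS g
      obtain ⟨g₀, ⟨hg₀, τ, u, hu, hgu⟩, -⟩ := hR'' ⟨q, hq''⟩ g
      rw [hgu]
      refine kxa_unr_conj K q hθ₀ g₀ ?_ τ u hu
      intro s hs
      show θ₀ (kl_r K q g₀ s) = 0
      rw [hθ₀loc ⟨q, hq''⟩ g₀ hg₀ s]
      show kxa_ext W c (q, g₀) * T0 q s = 0
      rw [hT0unr q s hs, mul_zero]
    have hsha : kl_IsSha₁ S K R θ₀ := by
      refine ⟨hθ₀, hθ₀S, fun q g hg τ => ?_⟩
      have hg'' : g ∈ R'' ⟨(q : Nat.Primes), hSS'' q.2⟩ := by
        rw [hRR ⟨(q : Nat.Primes), hSS'' q.2⟩ q.2]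
        exact hg
      rw [hθ₀loc ⟨(q : Nat.Primes), hSS'' q.2⟩ g hg'' τ]
      show kxa_ext W c ((q : Nat.Primes), g) * T0 (q : Nat.Primes) τ = 0
      rw [hT0S (q : Nat.Primes) q.2]
      exact mul_zero _
    have h := hN θ₀ hsha
    show ∑ w ∈ T, _ = 0
    rw [← h]
    refine Finset.sum_congr rfl fun w hw => ?_
    obtain ⟨q, g⟩ := w
    rw [kxa_art_eq]
    congr 2
    funext τ
    exact (hθ₀loc ⟨q, (hT'' (q, g) hw).1⟩ g (hTR (q, g) hw (hT'' (q, g) hw).1) τ).symm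
  -- Step 2: linear algebra
  obtain ⟨η, hη⟩ := kex_la_represent_raw (ptinv_e p) (ptinv_e_injective p) μ hl hr hv Lam ha hvl h1
  -- Step 3: the Kummer generator
  obtain ⟨F, α, hF, hαF, hαK, hα⟩ := hKum p S'' K hunr'' hcyc η η.2.1 η.2.2
  have hkey : ∀ (q : Nat.Primes) (hq'' : q ∈ S'') (_ : q ∉ S) (g₀ : s55_GQ)
      (_ : g₀ ∈ R'' ⟨q, hq''⟩) (n : ℤ), ksha_Ord (q, g₀) (α ^ p) n →
      ∃ m : ℤ, n = (if (q, g₀) ∈ T then N (q, g₀) else 0) + (p : ℤ) * m := by
    intro q hq'' hqS g₀ hg₀ n hn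
    have hw₀ : (q, g₀) ∈ W := hmemW ⟨q, hq''⟩ g₀ hg₀
    set c : ↥W → ZMod p := fun w' => if (w' : Nat.Primes × s55_GQ) = (q, g₀) then 1 else 0
      with hc
    have hext : ∀ w, kxa_ext W c w = if w = (q, g₀) then 1 else 0 :=
      fun w => kxa_ext_single W (q, g₀) hw₀ w
    -- the value of `μ`
    have hμ : μ c η = n • kex_artLoc inv (q : ℕ) (kl_H K q) (T0 q) := by
      show ∑ q' : ↥S'', ∑ g ∈ R'' q', _ = _
      rw [Finset.sum_eq_single (⟨q, hq''⟩ : ↥S''), Finset.sum_eq_single g₀]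
      · rw [← kxa_term_tame K q g₀ hTame hinv hp2 hKfin hcyc (hT0hom q) (hT0sm q) (hT0unr q)
          η α hα n hn]
        congr 1
        funext x
        show kxa_ext W c (q, g₀) * T0 q x.1 * _ = _
        rw [hext, if_pos rfl, one_mul]
      · intro g _ hg
        have h0 : kxa_ext W c (q, g) = 0 := by
          rw [hext, if_neg]
          intro h
          exact hg (congrArg Prod.snd h)
        show kl_inv K inv q g (fun x => kxa_ext W c (q, g) * T0 q x.1 * _) = 0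
        rw [h0]
        have := kxa_term_zero K q g hinv hKfin
          (fun τ : ↥(kl_H K q) => (η : ↥K.fixingSubgroup → ZMod p) (kl_r K q g τ)) (inv := inv)
        convert this using 3
        rw [zero_mul, zero_mul]
      · intro h
        exact absurd hg₀ h
      · intro q' _ hq'
        refine Finset.sum_eq_zero fun g _ => ?_
        have h0 : kxa_ext W c ((q' : Nat.Primes), g) = 0 := by
          rw [hext, if_neg]
          intro h
          exact hq' (Subtype.ext (congrArg Prod.fst h))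
        show kl_inv K inv (q' : Nat.Primes) g
          (fun x => kxa_ext W c ((q' : Nat.Primes), g) * T0 (q' : Nat.Primes) x.1 * _) = 0
        rw [h0]
        have := kxa_term_zero K (q' : Nat.Primes) g hinv hKfin
          (fun τ : ↥(kl_H K (q' : Nat.Primes)) =>
            (η : ↥K.fixingSubgroup → ZMod p) (kl_r K (q' : Nat.Primes) g τ)) (inv := inv)
        convert this using 3
        rw [zero_mul, zero_mul]
      · intro h
        exact absurd (Finset.mem_univ _) h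
    -- the value of `Λ`
    have hΛ : Lam c = (if (q, g₀) ∈ T then N (q, g₀) else 0) •
        kex_artLoc inv (q : ℕ) (kl_H K q) (T0 q) := by
      show ∑ w ∈ T, _ = _
      have hterm : ∀ w ∈ T, w ≠ (q, g₀) → N w • kex_artLoc inv (w.1 : ℕ) (kl_H K w.1)
          (fun τ : ↥(kl_H K w.1) => kxa_ext W c w * T0 w.1 τ) = 0 := by
        intro w _ hw
        have h0 : (fun τ : ↥(kl_H K w.1) => kxa_ext W c w * T0 w.1 τ) = 0 := by
          funext τ
          show kxa_ext W c w * T0 w.1 τ = 0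
          rw [hext, if_neg hw, zero_mul]
        rw [h0, kxa_art_zero hinv (hopen w.1), smul_zero]
      by_cases hwT : (q, g₀) ∈ T
      · rw [if_pos hwT, Finset.sum_eq_single (q, g₀) (fun w hw hne => hterm w hw hne)
          (fun h => absurd hwT h)]
        congr 2
        funext τ
        show kxa_ext W c (q, g₀) * T0 q τ = T0 q τ
        rw [hext, if_pos rfl, one_mul]
      · rw [if_neg hwT, zero_smul]
        exact Finset.sum_eq_zero fun w hw => hterm w hw (fun h => hwT (h ▸ hw))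
    have heq := hη c
    rw [hμ, hΛ] at heq
    have hzero : (n - (if (q, g₀) ∈ T then N (q, g₀) else 0)) •
        kex_artLoc inv (q : ℕ) (kl_H K q) (T0 q) = 0 := by
      rw [sub_zsmul, heq]
      abel
    obtain ⟨m, hm⟩ := kxa_torsion (Fact.out : p.Prime)
      (kxa_art_ptors hinv (hopen q) (hT0hom q) (hT0sm q)) (hT0nz q hqS) _ hzero
    exact ⟨m, by rw [← hm]; ring⟩
  -- the conclusion
  refine ⟨α ^ p, hαK, fun w hw => ?_, fun w' hw'S hout => ?_⟩
  · obtain ⟨q, g₀⟩ := w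
    have hq'' := (hT'' (q, g₀) hw).1
    have hqS := (hT'' (q, g₀) hw).2
    obtain ⟨n, hn⟩ := hOrd K hKfin q (ak_unramAt_of_outside hctx.unr q hqS) (α ^ p) hαK g₀
    obtain ⟨m, hm⟩ := hkey q hq'' hqS g₀ (hTR (q, g₀) hw hq'') n hn
    rw [if_pos hw] at hm
    exact ⟨m, hm ▸ hn⟩
  · obtain ⟨q, g'⟩ := w'
    have hqS : q ∉ S := hw'S
    by_cases hq'' : q ∈ S''
    · obtain ⟨g₀, ⟨hg₀, τ, u, hu, hgu⟩, -⟩ := hR'' ⟨q, hq''⟩ g'
      have hnotT : (q, g₀) ∉ T := fun h => hout (q, g₀) h ⟨rfl, τ, u, hu, hgu⟩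
      obtain ⟨n, hn⟩ := hOrd K hKfin q (ak_unramAt_of_outside hctx.unr q hqS) (α ^ p) hαK g₀
      obtain ⟨m, hm⟩ := hkey q hq'' hqS g₀ hg₀ n hn
      rw [if_neg hnotT, zero_add] at hm
      refine ⟨m, ?_⟩
      have h2 : g' = localGaloisToGlobal (q : ℕ) τ * g₀ * u := hgu
      rw [h2]
      exact kxa_ord_same K q g₀ τ u hu (α ^ p) hαK _ (hm ▸ hn)
    · obtain ⟨N₀, hN₀⟩ := hOrd F hF.1 q (ak_unramAt_of_outside hF q hq'') α hαF g'
      exact kxa_pdiv_pow p (q, g') α N₀ hN₀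

end Fermat.Agent.S55
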