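/-
S55 (fifth wave), GLOBAL side, package [K-EX] (helper25): THE CLOSED FORMS.
Prefix `kex_`.

  `kex_large_fin : kex_ExLargeStatement`      (HYPOTHESIS-FREE)
  `kex_ex_fin    : kl_ExStatement`            (HYPOTHESIS-FREE; = [K-EX])
  `kex_artPerf_fin : ksha_ArtPerfStatement`   (HYPOTHESIS-FREE; = [KSHA-ARTPERF])

All leaves are plugged in: [KEX-PAIR] `kxp_main`, [KEX-REC] `kxr_main` with [AK-RECIP]
`flkr_main (rof_fin' rca_fin sec_H1)`, [KEX-LOCCOUNT] `kxlc_main`, [KEX-DEG] `kxd_main`,
[KEX-GLOBCOUNT] `kxg_main kxu_main ekum_main`, and the assemblies [KEX-LARGE-OF]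
`kex_large_of`, [KEX-MAIN-OF] `kxm_fin`, [KEX-ARTPERF-OF] `kxa_fin`.
-/
import Fermat.Agent.S55.Global.KExLarge
import Fermat.Agent.S55.Global.KExPair
import Fermat.Agent.S55.Global.KExRec
import Fermat.Agent.S55.Global.KExDeg
import Fermat.Agent.S55.Global.KExGlobCount
import Fermat.Agent.S55.Global.KExUnits
import Fermat.Agent.S55.Global.EcoKum
import Fermat.Agent.S55.Local.KExLocCount
import Fermat.Agent.S55.Global.SecondMain
import Fermat.Agent.S55.Global.RecCycMain
import Fermat.Agent.S55.Global.RecipFin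
import Fermat.Agent.S55.Global.FinLevelKRecip
import Fermat.Agent.S55.Global.KExMainFin
import Fermat.Agent.S55.Global.KExArtPerfFin

set_option autoImplicit false

namespace Fermat.Agent.S55

/-- **[AK-RECIP]**, closed (the same term as `wg_AkRecip`). -/
theorem kex_akRecip_fin : ak_RecipStatement :=
  flkr_main (rof_fin' rca_fin sec_H1)

/-- **[KEX-GLOBCOUNT]**, closed. -/
theorem kex_globCount_fin : kex_GlobCountStatement :=
  kxg_main kxu_main ekum_main

/-- **[K-EX] for large `S`**, hypothesis-free. -/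
theorem kex_large_fin : kex_ExLargeStatement :=
  kex_large_of kxp_main (kxr_main kex_akRecip_fin) kxlc_main kxd_main kex_globCount_fin

/-- **[K-EX]**, hypothesis-free. -/
theorem kex_ex_fin : kl_ExStatement :=
  kxm_fin kex_large_fin

/-- **[KSHA-ARTPERF]**, hypothesis-free. -/
theorem kex_artPerf_fin : ksha_ArtPerfStatement :=
  kxa_fin kex_large_fin

end Fermat.Agent.S55
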