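/-
S55 (fifth wave), GLOBAL side, package [RECIP-OF], leaf [QUOT-TOWER] (helper28):
the tower of a normal subgroup.  `qtw_main : rof_QuotTowerStatement`.

For `N ≤ G ≤ Aut(E/ℚ)`, `N` normalised by `G`: `F := ↥(fixedField N)`, `j` the inclusion,
`qtw_restr σ` the restriction of `σ ∈ G` to `F`, `H` the range of the restriction homomorphism,
`π` the restriction; `ker π = N` by Artin's theorem.
-/
import Mathlib
import Fermat.Agent.S55.Global.RecipOfDefs

set_option autoImplicit false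
set_option linter.unusedSectionVars false
set_option linter.unusedVariables false
set_option linter.style.longLine false
set_option linter.style.haveILetI false

namespace Fermat.Agent.S55

open groupCohomology IntermediateField

noncomputable section

section restr

variable {E : Type} [Field E] [NumberField E] (N : Subgroup (E ≃ₐ[ℚ] E))

/-- An automorphism normalising `N` maps the fixed field of `N` to itself. -/
theorem qtw_map_mem (γ : E ≃ₐ[ℚ] E) (h : ∀ g : E ≃ₐ[ℚ] E, g ∈ N → γ⁻¹ * g * γ ∈ N)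
    (x : E) (hx : x ∈ fixedField N) : γ x ∈ fixedField N := by
  rw [IntermediateField.mem_fixedField_iff]
  intro g hg
  have hx' := (IntermediateField.mem_fixedField_iff N _).1 hx _ (h g hg)
  have e : (γ⁻¹ * g * γ) x = γ⁻¹ (g (γ x)) := rfl
  rw [e] at hx'
  have := congrArg γ hx'
  rwa [show γ (γ⁻¹ (g (γ x))) = g (γ x) from γ.apply_symm_apply _] at this

/-- The restriction to `fixedField N` of an automorphism normalising `N`. -/
def qtw_restr (γ : E ≃ₐ[ℚ] E) (h1 : ∀ g : E ≃ₐ[ℚ] E, g ∈ N → γ * g * γ⁻¹ ∈ N)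
    (h2 : ∀ g : E ≃ₐ[ℚ] E, g ∈ N → γ⁻¹ * g * γ ∈ N) :
    ↥(fixedField N) ≃ₐ[ℚ] ↥(fixedField N) where
  toFun x := ⟨γ x, qtw_map_mem N γ h2 x x.2⟩
  invFun x := ⟨γ⁻¹ x, qtw_map_mem N γ⁻¹ (by
    intro g hg
    have := h1 g hg
    rwa [inv_inv]) x x.2⟩
  left_inv x := Subtype.ext (γ.symm_apply_apply _)
  right_inv x := Subtype.ext (γ.apply_symm_apply _)
  map_mul' x y := Subtype.ext (map_mul γ _ _)
  map_add' x y := Subtype.ext (map_add γ _ _)
  commutes' r := Subtype.ext (γ.commutes r)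

@[simp] theorem qtw_restr_apply (γ : E ≃ₐ[ℚ] E)
    (h1 : ∀ g : E ≃ₐ[ℚ] E, g ∈ N → γ * g * γ⁻¹ ∈ N)
    (h2 : ∀ g : E ≃ₐ[ℚ] E, g ∈ N → γ⁻¹ * g * γ ∈ N) (x : ↥(fixedField N)) :
    ((qtw_restr N γ h1 h2 x : ↥(fixedField N)) : E) = γ x := rfl

variable (G : Subgroup (E ≃ₐ[ℚ] E)) (hnorm : ∀ g ∈ G, ∀ n ∈ N, g * n * g⁻¹ ∈ N)

theorem qtw_norm' (hnorm : ∀ g ∈ G, ∀ n ∈ N, g * n * g⁻¹ ∈ N) (g : E ≃ₐ[ℚ] E) (hg : g ∈ G)
    (n : E ≃ₐ[ℚ] E) (hn : n ∈ N) : g⁻¹ * n * g ∈ N := by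
  have := hnorm g⁻¹ (G.inv_mem hg) n hn
  rwa [inv_inv] at this

/-- The restriction homomorphism `G → Aut(E^N/ℚ)`. -/
def qtw_rho (hnorm : ∀ g ∈ G, ∀ n ∈ N, g * n * g⁻¹ ∈ N) :
    ↥G →* (↥(fixedField N) ≃ₐ[ℚ] ↥(fixedField N)) where
  toFun σ := qtw_restr N (σ : E ≃ₐ[ℚ] E) (fun g hg => hnorm _ σ.2 g hg)
    (fun g hg => qtw_norm' N G hnorm _ σ.2 g hg)
  map_one' := by
    ext x
    rfl
  map_mul' σ τ := by
    ext x
    rfl

@[simp] theorem qtw_rho_apply (hnorm : ∀ g ∈ G, ∀ n ∈ N, g * n * g⁻¹ ∈ N) (σ : ↥G)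
    (x : ↥(fixedField N)) :
    ((qtw_rho N G hnorm σ x : ↥(fixedField N)) : E) = (σ : E ≃ₐ[ℚ] E) (x : E) := rfl

/-- The kernel of the restriction homomorphism is `N`. -/
theorem qtw_rho_eq_one_iff (hN : N ≤ G) (hnorm : ∀ g ∈ G, ∀ n ∈ N, g * n * g⁻¹ ∈ N) (σ : ↥G) :
    qtw_rho N G hnorm σ = 1 ↔ (σ : E ≃ₐ[ℚ] E) ∈ N := by
  constructor
  · intro h
    have h1 : (σ : E ≃ₐ[ℚ] E) ∈ (fixedField N).fixingSubgroup := by
      rw [IntermediateField.mem_fixingSubgroup_iff]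
      intro x hx
      have := congrArg (fun ρ : ↥(fixedField N) ≃ₐ[ℚ] ↥(fixedField N) =>
        ((ρ ⟨x, hx⟩ : ↥(fixedField N)) : E)) h
      exact this
    rwa [IntermediateField.fixingSubgroup_fixedField] at h1
  · intro h
    ext x
    exact (IntermediateField.mem_fixedField_iff N _).1 x.2 _ h

/-- The quotient tower. -/
def qtw_tower (hN : N ≤ G) (hnorm : ∀ g ∈ G, ∀ n ∈ N, g * n * g⁻¹ ∈ N) :
    gl_Tower ↥(fixedField N) E (qtw_rho N G hnorm).range G where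
  j := (fixedField N).val
  π := (qtw_rho N G hnorm).rangeRestrict
  surj := (qtw_rho N G hnorm).rangeRestrict_surjective
  compat := fun σ x => rfl
  fixed := by
    intro y hy
    have hy' : y ∈ fixedField N := by
      rw [IntermediateField.mem_fixedField_iff]
      intro n hn
      refine hy ⟨n, hN hn⟩ ?_
      apply Subtype.ext
      exact (qtw_rho_eq_one_iff N G hN hnorm ⟨n, hN hn⟩).2 hn
    exact ⟨⟨y, hy'⟩, rfl⟩

end restr

/-- **[QUOT-TOWER]** -/
theorem qtw_main : rof_QuotTowerStatement := by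
  intro E _ _ G N hN hnorm
  refine ⟨↥(fixedField N), inferInstance, inferInstance, (qtw_rho N G hnorm).range,
    qtw_tower N G hN hnorm, fun σ => ?_⟩
  rw [← qtw_rho_eq_one_iff N G hN hnorm σ]
  constructor
  · intro h
    exact congrArg Subtype.val h
  · intro h
    exact Subtype.ext h

end

end Fermat.Agent.S55
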