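/-
S55, GLOBAL side, package [R-CYC], leaf [RC-FROB] (helper14): inertia and Frobenius on a
primitive `q`-th root of unity at the primes `ℓ ≠ q`.
-/
import Mathlib
import Fermat.Agent.S55.Global.RecCycDefs
import Fermat.Agent.S55.Local.TameCyc
import Fermat.Agent.S55.UnrAbs5

set_option autoImplicit false

namespace Fermat.Agent.S55

/-- **[RC-FROB]** -/
theorem rcf_main : rcy_FrobStatement := by
  intro F _ _ q _ ζ hζ ℓ _ hℓ H ι
  have hℓp : ℓ.Prime := Fact.out
  have hqp : q.Prime := Fact.out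
  have hnd : ¬ ℓ ∣ q := by
    intro h
    exact hℓ ((Nat.prime_dvd_prime_iff_eq hℓp hqp).1 h)
  have hM : ‖((q : ℕ) : PadicAlgCl ℓ)‖ = 1 := tame_norm_natCast_of_not_dvd q hnd
  have hζq : (ι ζ) ^ q = 1 := by rw [← map_pow, hζ.pow_eq_one, map_one]
  have hinj : Function.Injective ι := ι.toRingHom.injective
  refine ⟨fun s hs => ?_, fun φ hφ => ?_⟩
  · have h := unr_abs_inert_root (s : lcf_Gal ℓ) hs q hM (ι ζ) hζq
    rw [gl_locSigma_apply] at h
    exact hinj h
  · have h := unr_abs_frob_root (gl_locU ℓ F H ι) φ hφ q hM (ι ζ) hζq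
    rw [gl_locSigma_apply, ← map_pow] at h
    exact hinj h

end Fermat.Agent.S55
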