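/-
S55 (fifth wave), GLOBAL side, leaf [RC-SHAPE] = `rcy_ShapeStatement` (Global/RecCycDefs.lean),
part 2: the Galois theory (helper2).  Prefix `rcs_`.

`F` a number field, `G' ≤ Aut(F/ℚ)`, `K = F^{G'}`, `ι : F → Ω_q`.
* `rcs_exists_sigma`: two embeddings of `F` which agree on `K` differ by an element of `G'`;
* `rcs_mem_locU`: `g ∈ Gal(Ω_q/ℚ_q)` fixing `ι K` pointwise lies in `gl_locU q F G' ι`;
* `rcs_value`: if `K` is unramified at `q`, the fixed field of `gl_locU q F G' ι` has value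
  group `q^ℤ`;
* `rcs_exists_rho`: if `K` is unramified at `q` and `ζ ∈ F` is a primitive `q`-th root of unity,
  `gl_locU q F G' ι` acts transitively on the primitive `q`-th roots of unity of `F`;
* `rcs_card`: if moreover `G'` acts faithfully on `ζ`, `#G' = q - 1`;
* `rcs_sigma_surjective`, `rcs_relIndex`: `[U_{G'} : U_H] · #H = q - 1` for `H ≤ G'`.
-/
import Mathlib
import Fermat.Agent.S55.Global.RecCycDefs
import Fermat.Agent.S55.Global.Supp
import Fermat.Agent.S55.Global.CycExtLocal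
import Fermat.Agent.S55.Local.EFAbs

set_option autoImplicit false

namespace Fermat.Agent.S55

open Polynomial

noncomputable section

section rcsgal

variable {F : Type} [Field F] [NumberField F]

/-- Two embeddings of `F` which agree on the fixed field of `G'` differ by an element of
`G'`. -/
theorem rcs_exists_sigma {Ω : Type} [Field Ω] [Algebra ℚ Ω] (G' : Subgroup (F ≃ₐ[ℚ] F))
    (φ₁ φ₂ : F →ₐ[ℚ] Ω) (h : ∀ x ∈ IntermediateField.fixedField G', φ₁ x = φ₂ x) :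
    ∃ ρ ∈ G', φ₁ = φ₂.comp ((ρ : F ≃ₐ[ℚ] F) : F →ₐ[ℚ] F) := by
  classical
  obtain ⟨θ, hθ⟩ := Field.exists_primitive_element ℚ F
  have hadj : Algebra.adjoin ℚ ({θ} : Set F) = ⊤ := by
    have h2 := IntermediateField.adjoin_toSubalgebra (F := ℚ) (E := F) ({θ} : Set F)
    rw [← h2, hθ]
    rfl
  let _ : Fintype ↥G' := Fintype.ofFinite _
  set P : F[X] := ∏ ρ : ↥G', (X - C (((ρ : ↥G') : F ≃ₐ[ℚ] F) θ)) with hP
  have hcoef : ∀ n : ℕ, P.coeff n ∈ IntermediateField.fixedField G' := by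
    intro n
    rw [IntermediateField.mem_fixedField_iff]
    intro σ' hσ'
    have hmap : P.map ((σ' : F ≃ₐ[ℚ] F) : F →+* F) = P := by
      rw [hP, Polynomial.map_prod]
      refine Fintype.prod_equiv (Equiv.mulLeft (⟨σ', hσ'⟩ : ↥G')) _ _ ?_
      intro ρ
      rw [Polynomial.map_sub, Polynomial.map_X, Polynomial.map_C]
      rfl
    have h1 := congrArg (fun p : F[X] => p.coeff n) hmap
    simp only [Polynomial.coeff_map] at h1
    exact h1
  have hφ : P.map (φ₁ : F →+* Ω) = P.map (φ₂ : F →+* Ω) := by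
    ext n
    rw [Polynomial.coeff_map, Polynomial.coeff_map]
    exact h _ (hcoef n)
  have h0 : Polynomial.eval (φ₁ θ) (P.map (φ₁ : F →+* Ω)) = 0 := by
    have h1 : Polynomial.eval θ P = 0 := by
      rw [hP, Polynomial.eval_prod]
      refine Finset.prod_eq_zero (Finset.mem_univ (1 : ↥G')) ?_
      simp
    have h2 := Polynomial.eval_map_apply (p := P) (φ₁ : F →+* Ω) θ
    rw [h1, map_zero] at h2
    exact h2
  rw [hφ, hP, Polynomial.map_prod, Polynomial.eval_prod] at h0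
  obtain ⟨ρ, -, hρ⟩ := Finset.prod_eq_zero_iff.1 h0
  rw [Polynomial.map_sub, Polynomial.map_X, Polynomial.map_C, Polynomial.eval_sub,
    Polynomial.eval_X, Polynomial.eval_C, sub_eq_zero] at hρ
  refine ⟨(ρ : F ≃ₐ[ℚ] F), ρ.2, ?_⟩
  refine AlgHom.ext_of_adjoin_eq_top hadj ?_
  intro x hx
  rw [Set.mem_singleton_iff] at hx
  subst hx
  exact hρ

variable (q : ℕ) [Fact q.Prime] (G' : Subgroup (F ≃ₐ[ℚ] F)) (ι : F →ₐ[ℚ] PadicAlgCl q)

/-- The restriction of `ι` to the fixed field of `G'`. -/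
def rcs_iotaK : ↥(IntermediateField.fixedField G') →ₐ[ℚ] PadicAlgCl q :=
  ι.comp (IntermediateField.fixedField G').val

theorem rcs_iotaK_apply (x : ↥(IntermediateField.fixedField G')) :
    rcs_iotaK q G' ι x = ι (x : F) := rfl

/-- `g` fixing `ι K` pointwise lies in `gl_locU q F G' ι`. -/
theorem rcs_mem_locU (g : lcf_Gal q)
    (hg : ∀ x : ↥(IntermediateField.fixedField G'), g (ι (x : F)) = ι (x : F)) :
    g ∈ gl_locU q F G' ι := by
  obtain ⟨ρ, hρ, h⟩ := rcs_exists_sigma G' (gl_twist q F g ι) ι (fun x hx => hg ⟨x, hx⟩)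
  exact ⟨ρ, hρ, h⟩

theorem rcs_U0_le : gsup_U0 q ↥(IntermediateField.fixedField G') (rcs_iotaK q G' ι) ≤
    gl_locU q F G' ι := by
  intro g hg
  apply rcs_mem_locU
  intro x
  exact (gsup_mem_U0_iff q _ (rcs_iotaK q G' ι) g).1 hg x

/-- The value group of the fixed field of `gl_locU q F G' ι` is `q^ℤ` if `K = F^{G'}` is
unramified at `q`. -/
theorem rcs_value (hur : gl_UnramAt q ↥(IntermediateField.fixedField G'))
    (x : (PadicAlgCl q)ˣ) (hx : ∀ g : ↥(gl_locU q F G' ι), g • x = x) :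
    ∃ k : ℤ, ‖(x : PadicAlgCl q)‖ = ((q : ℕ) : ℝ) ^ k := by
  have h1 : (x : PadicAlgCl q) ∈ IntermediateField.fixedField
      (gsup_U0 q ↥(IntermediateField.fixedField G') (rcs_iotaK q G' ι)) := by
    rw [IntermediateField.mem_fixedField_iff]
    intro f hf
    have h2 := hx ⟨f, rcs_U0_le q G' ι hf⟩
    exact congrArg (fun u : (PadicAlgCl q)ˣ => (u : PadicAlgCl q)) h2
  rw [gsup_fixedField_U0] at h1
  exact gsup_unram_adjoin hur (rcs_iotaK q G' ι) (x : PadicAlgCl q) h1 x.ne_zero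

variable {ζ : F}

/-- Transitivity on the primitive `q`-th roots of unity. -/
theorem rcs_exists_rho (hζ : IsPrimitiveRoot ζ q)
    (hur : gl_UnramAt q ↥(IntermediateField.fixedField G'))
    (y : F) (hy : IsPrimitiveRoot y q) :
    ∃ τ : lcf_Gal q, ∃ ρ ∈ G', gl_twist q F τ ι = ι.comp ((ρ : F ≃ₐ[ℚ] F) : F →ₐ[ℚ] F) ∧
      ρ ζ = y := by
  obtain ⟨τ, hτ, hτζ⟩ := cyx_exists_tau q hur (rcs_iotaK q G' ι)
    (hζ.map_of_injective ι.injective) (hy.map_of_injective ι.injective)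
  obtain ⟨ρ, hρ, h⟩ := rcs_mem_locU q G' ι τ hτ
  refine ⟨τ, ρ, hρ, h, ?_⟩
  have h1 := congrArg (fun f : F →ₐ[ℚ] PadicAlgCl q => f ζ) h
  have h2 : τ (ι ζ) = ι (ρ ζ) := h1
  have h3 : τ (ι ζ) = ι y := hτζ
  exact ι.injective (h2.symm.trans h3)

theorem rcs_faithful (hfaith : ∀ σ ∈ G', σ ζ = ζ → σ = 1) {σ σ' : F ≃ₐ[ℚ] F} (hσ : σ ∈ G')
    (hσ' : σ' ∈ G') (h : σ ζ = σ' ζ) : σ = σ' := by
  have h1 : σ'⁻¹ * σ = 1 := by
    apply hfaith _ (G'.mul_mem (G'.inv_mem hσ') hσ)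
    show σ'⁻¹ (σ ζ) = ζ
    rw [h]
    exact σ'.symm_apply_apply ζ
  have h2 : σ = σ' * (σ'⁻¹ * σ) := by group
  rw [h2, h1, mul_one]

/-- `gl_locSigma` is onto `G'`. -/
theorem rcs_sigma_surjective (hζ : IsPrimitiveRoot ζ q)
    (hfaith : ∀ σ ∈ G', σ ζ = ζ → σ = 1)
    (hur : gl_UnramAt q ↥(IntermediateField.fixedField G')) :
    Function.Surjective (gl_locSigma q F G' ι) := by
  intro σ
  obtain ⟨τ, ρ, hρ, h, hρζ⟩ := rcs_exists_rho q G' ι hζ hur ((σ : F ≃ₐ[ℚ] F) ζ)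
    (hζ.map_of_injective (σ : F ≃ₐ[ℚ] F).injective)
  have hρσ : ρ = (σ : F ≃ₐ[ℚ] F) := rcs_faithful G' hfaith hρ σ.2 hρζ
  refine ⟨⟨τ, ρ, hρ, h⟩, ?_⟩
  apply gsup_sigma_unique
  intro x
  have h1 := congrArg (fun f : F →ₐ[ℚ] PadicAlgCl q => f x) h
  have h2 : τ (ι x) = ι (ρ x) := h1
  show τ (ι x) = _
  rw [h2, hρσ]

include ι in
/-- `#G' = q - 1`. -/
theorem rcs_card (hζ : IsPrimitiveRoot ζ q)
    (hfaith : ∀ σ ∈ G', σ ζ = ζ → σ = 1)
    (hur : gl_UnramAt q ↥(IntermediateField.fixedField G')) :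
    Nat.card ↥G' = q - 1 := by
  classical
  have hq : q.Prime := Fact.out
  have hqpos : 0 < q := hq.pos
  let f : ↥G' → ↥(primitiveRoots q F) := fun σ =>
    ⟨(σ : F ≃ₐ[ℚ] F) ζ, (mem_primitiveRoots hqpos).2
      (hζ.map_of_injective (σ : F ≃ₐ[ℚ] F).injective)⟩
  have hf : Function.Bijective f := by
    constructor
    · intro σ σ' h
      have h1 : (σ : F ≃ₐ[ℚ] F) ζ = (σ' : F ≃ₐ[ℚ] F) ζ := congrArg Subtype.val h
      exact Subtype.ext (rcs_faithful G' hfaith σ.2 σ'.2 h1)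
    · rintro ⟨y, hy⟩
      have hy' : IsPrimitiveRoot y q := (mem_primitiveRoots hqpos).1 hy
      obtain ⟨τ, ρ, hρ, -, hρζ⟩ := rcs_exists_rho q G' ι hζ hur y hy'
      exact ⟨⟨ρ, hρ⟩, Subtype.ext hρζ⟩
  rw [Nat.card_eq_of_bijective f hf, Nat.card_eq_fintype_card, Fintype.card_coe,
    hζ.card_primitiveRoots, Nat.totient_prime hq]

/-- `gl_locSigma` as a homomorphism. -/
def rcs_phi : ↥(gl_locU q F G' ι) →* ↥G' :=
  MonoidHom.mk' (gl_locSigma q F G' ι) (gsup_sigma_mul q F G' ι)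

theorem rcs_phi_apply (g : ↥(gl_locU q F G' ι)) : rcs_phi q G' ι g = gl_locSigma q F G' ι g :=
  rfl

theorem rcs_locU_le {H : Subgroup (F ≃ₐ[ℚ] F)} (hH : H ≤ G') :
    gl_locU q F H ι ≤ gl_locU q F G' ι := by
  rintro g ⟨σ, hσ, h⟩
  exact ⟨σ, hH hσ, h⟩

theorem rcs_subgroupOf_eq {H : Subgroup (F ≃ₐ[ℚ] F)} (hH : H ≤ G') :
    (gl_locU q F H ι).subgroupOf (gl_locU q F G' ι) =
      (H.subgroupOf G').comap (rcs_phi q G' ι) := by
  ext g
  rw [Subgroup.mem_subgroupOf, Subgroup.mem_comap, Subgroup.mem_subgroupOf]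
  constructor
  · rintro ⟨σ, hσ, h⟩
    have h1 : gl_locSigma q F G' ι g = ⟨σ, hH hσ⟩ := by
      apply gsup_sigma_unique
      intro x
      exact congrArg (fun f : F →ₐ[ℚ] PadicAlgCl q => f x) h
    rw [rcs_phi_apply, h1]
    exact hσ
  · intro h
    exact ⟨_, h, gl_locSigma_spec q F G' ι g⟩

/-- `[U_{G'} : U_H] · #H = q - 1`. -/
theorem rcs_relIndex (hζ : IsPrimitiveRoot ζ q)
    (hfaith : ∀ σ ∈ G', σ ζ = ζ → σ = 1)
    (hur : gl_UnramAt q ↥(IntermediateField.fixedField G'))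
    {H : Subgroup (F ≃ₐ[ℚ] F)} (hH : H ≤ G') :
    (gl_locU q F H ι).relIndex (gl_locU q F G' ι) * Nat.card ↥H = q - 1 := by
  have h1 : (gl_locU q F H ι).relIndex (gl_locU q F G' ι) = (H.subgroupOf G').index := by
    unfold Subgroup.relIndex
    rw [rcs_subgroupOf_eq q G' ι hH]
    exact Subgroup.index_comap_of_surjective _ (rcs_sigma_surjective q G' ι hζ hfaith hur)
  have h2 : Nat.card ↥(H.subgroupOf G') = Nat.card ↥H :=
    Nat.card_congr (Subgroup.subgroupOfEquivOfLe hH).toEquiv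
  rw [h1, ← h2, Subgroup.index_mul_card, rcs_card q G' ι hζ hfaith hur]

end rcsgal

end

end Fermat.Agent.S55
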