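import Mathlib
import Fermat.Agent.S55.Global.Defs
import Fermat.Agent.S55.Global.SecondDefs

/-!
# S55, global side, package [SEC-AUX], part 1: places of degree one

An embedding `κ : K → Ω_q` is *rational* if its image lies in `ℚ_q`.  For such a place

* every semi-local idele has a value in `ℚ_q` at `κ`, and every element of `ℚ_qˣ` is such a
  value (`saux_value_isRat`, `saux_exists_idele`);
* `sec_PowAt` at `κ` means "a `p`-th power in `ℚ_q`" (`saux_powAt_iff`);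
* for `q ≠ p` the units of `ℤ_q` modulo `p`-th powers form a cyclic group of order dividing `p`
  (`saux_loc_gen`, by Hensel's lemma);
* if `ι : F → Ω_q` is rational, then the place of `K = F^σ` below `ι` splits in `F`
  (`saux_split`).
-/

set_option autoImplicit false

namespace Fermat.Agent.S55

open IntermediateField Polynomial

noncomputable section

/-! ### Cyclic groups -/

/-- In a cyclic group, modulo `p`-th powers every element is a power of any element which is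
not a `p`-th power. -/
theorem saux_cyc_gen {G : Type*} [CommGroup G] [IsCyclic G] (p : ℕ) (hp : p.Prime) (x u : G)
    (hx : ¬ ∃ c : G, c ^ p = x) : ∃ (j : ℕ) (c : G), u = x ^ j * c ^ p := by
  obtain ⟨g, hg⟩ := IsCyclic.exists_generator (α := G)
  obtain ⟨a, ha⟩ := Subgroup.mem_zpowers_iff.mp (hg x)
  obtain ⟨b, hb⟩ := Subgroup.mem_zpowers_iff.mp (hg u)
  have hpa : ¬ (p : ℤ) ∣ a := by
    rintro ⟨a', ha'⟩
    apply hx
    refine ⟨g ^ a', ?_⟩
    rw [← ha, ha', ← zpow_natCast, ← zpow_mul, mul_comm]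
  have hcop : IsCoprime a (p : ℤ) := by
    have h1 : IsCoprime (p : ℤ) a :=
      (Nat.prime_iff_prime_int.mp hp).coprime_iff_not_dvd.mpr hpa
    exact h1.symm
  obtain ⟨s, t, hst⟩ := hcop
  -- `s * a + t * p = 1`
  set e : ℤ := s * b with he
  have hj0 : 0 ≤ e % (p : ℤ) := Int.emod_nonneg _ (by exact_mod_cast hp.ne_zero)
  refine ⟨(e % (p : ℤ)).toNat, x ^ (e / (p : ℤ)) * g ^ (t * b), ?_⟩
  have h1 : (x ^ (e % (p : ℤ)).toNat : G) = x ^ (e % (p : ℤ)) := by
    rw [← zpow_natCast, Int.toNat_of_nonneg hj0]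
  rw [h1, mul_pow, ← zpow_natCast (x ^ (e / (p : ℤ))), ← zpow_mul, ← zpow_natCast (g ^ (t * b)),
    ← zpow_mul, ← mul_assoc, ← zpow_add]
  have h2 : e % (p : ℤ) + e / (p : ℤ) * (p : ℤ) = e := by
    rw [mul_comm]
    exact Int.emod_add_mul_ediv e p
  rw [h2, ← ha, ← zpow_mul, ← zpow_add, ← hb]
  congr 1
  rw [he]
  linear_combination (-b) * hst

/-! ### `p`-th powers in `ℤ_q` -/

section padic

variable (q : ℕ) [Fact q.Prime]

theorem saux_norm_eq_one_of_toZMod_ne_zero (u : ℤ_[q]) (hu : PadicInt.toZMod u ≠ 0) :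
    ‖u‖ = 1 := by
  by_contra h
  have h1 : ‖u‖ < 1 := lt_of_le_of_ne u.norm_le_one h
  have h2 : u ∈ IsLocalRing.maximalIdeal ℤ_[q] := by
    rw [IsLocalRing.mem_maximalIdeal]
    exact PadicInt.mem_nonunits.mpr h1
  rw [← PadicInt.ker_toZMod, RingHom.mem_ker] at h2
  exact hu h2

theorem saux_toZMod_ne_zero_of_norm_eq_one (u : ℤ_[q]) (hu : ‖u‖ = 1) :
    PadicInt.toZMod u ≠ 0 := by
  intro h
  have h2 : u ∈ IsLocalRing.maximalIdeal ℤ_[q] := by
    rw [← PadicInt.ker_toZMod, RingHom.mem_ker]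
    exact h
  rw [IsLocalRing.mem_maximalIdeal] at h2
  have := PadicInt.mem_nonunits.mp h2
  rw [hu] at this
  exact lt_irrefl _ this

theorem saux_norm_lt_one_of_toZMod_eq_zero (u : ℤ_[q]) (hu : PadicInt.toZMod u = 0) :
    ‖u‖ < 1 := by
  have h2 : u ∈ IsLocalRing.maximalIdeal ℤ_[q] := by
    rw [← PadicInt.ker_toZMod, RingHom.mem_ker]
    exact hu
  rw [IsLocalRing.mem_maximalIdeal] at h2
  exact PadicInt.mem_nonunits.mp h2

/-- **Hensel**: a unit of `ℤ_q` whose residue is a `p`-th power is a `p`-th power (`q ≠ p`). -/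
theorem saux_hensel_pow (p : ℕ) (hp : p.Prime) (hqp : q ≠ p) (u : ℤ_[q]) (c : ZMod q)
    (hc0 : c ≠ 0) (hc : c ^ p = PadicInt.toZMod u) : ∃ w : ℤ_[q], w ^ p = u := by
  have hq : q.Prime := Fact.out
  set c' : ℤ_[q] := (c.val : ℤ_[q]) with hc'
  have hc'z : PadicInt.toZMod c' = c := by
    rw [hc', map_natCast, ZMod.natCast_zmod_val]
  have hc'n : ‖c'‖ = 1 := saux_norm_eq_one_of_toZMod_ne_zero q c' (by rw [hc'z]; exact hc0)
  have hpn : ‖(p : ℤ_[q])‖ = 1 := by
    by_contra h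
    have h1 : ‖(p : ℤ_[q])‖ < 1 := lt_of_le_of_ne (PadicInt.norm_le_one _) h
    rw [PadicInt.norm_natCast_lt_one_iff] at h1
    exact hqp ((Nat.prime_dvd_prime_iff_eq hq hp).mp h1)
  set F : ℤ_[q][X] := X ^ p - C u with hF
  have hFa : aeval c' F = c' ^ p - u := by
    simp [hF]
  have hF'a : aeval c' (derivative F) = (p : ℤ_[q]) * c' ^ (p - 1) := by
    simp [hF, derivative_X_pow]
  have h1 : ‖aeval c' F‖ < 1 := by
    rw [hFa]
    apply saux_norm_lt_one_of_toZMod_eq_zero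
    rw [map_sub, map_pow, hc'z, hc, sub_self]
  have h2 : ‖aeval c' (derivative F)‖ = 1 := by
    rw [hF'a, norm_mul, norm_pow, hpn, hc'n, one_pow, mul_one]
  obtain ⟨z, hz, -⟩ := hensels_lemma (F := F) (a := c') (by rw [h2, one_pow]; exact h1)
  refine ⟨z, ?_⟩
  have h3 : aeval z F = z ^ p - u := by simp [hF]
  rw [h3, sub_eq_zero] at hz
  exact hz

/-- For `q ≠ p`: modulo `p`-th powers, every unit of `ℤ_q` is a power of any unit which is not
a `p`-th power. -/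
theorem saux_loc_gen (p : ℕ) (hp : p.Prime) (hqp : q ≠ p) (u x₀ : ℚ_[q]) (hu : ‖u‖ = 1)
    (hx₀ : ‖x₀‖ = 1) (hx : ¬ ∃ w : ℚ_[q], w ^ p = x₀) :
    ∃ (j : ℕ) (w : ℚ_[q]), u = x₀ ^ j * w ^ p := by
  set u' : ℤ_[q] := ⟨u, hu.le⟩ with hu'
  set x' : ℤ_[q] := ⟨x₀, hx₀.le⟩ with hx'
  have hu0 : PadicInt.toZMod u' ≠ 0 := saux_toZMod_ne_zero_of_norm_eq_one q u' hu
  have hx0 : PadicInt.toZMod x' ≠ 0 := saux_toZMod_ne_zero_of_norm_eq_one q x' hx₀
  -- the residue of `x₀` is not a `p`-th power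
  have hxres : ¬ ∃ c : (ZMod q)ˣ, c ^ p = Units.mk0 _ hx0 := by
    rintro ⟨c, hc⟩
    have hc1 : (c : ZMod q) ^ p = PadicInt.toZMod x' := by
      have := congrArg (fun y : (ZMod q)ˣ => (y : ZMod q)) hc
      simpa using this
    obtain ⟨w, hw⟩ := saux_hensel_pow q p hp hqp x' (c : ZMod q) c.ne_zero hc1
    apply hx
    refine ⟨(w : ℚ_[q]), ?_⟩
    have := congrArg (fun y : ℤ_[q] => (y : ℚ_[q])) hw
    simpa using this
  obtain ⟨j, c, hjc⟩ := saux_cyc_gen p hp (Units.mk0 _ hx0) (Units.mk0 _ hu0) hxres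
  have hjc' : PadicInt.toZMod u' = PadicInt.toZMod x' ^ j * (c : ZMod q) ^ p := by
    have := congrArg (fun y : (ZMod q)ˣ => (y : ZMod q)) hjc
    simpa using this
  -- the quotient `u / x₀ ^ j`
  have hx₀0 : x₀ ≠ 0 := by
    intro h
    rw [h, norm_zero] at hx₀
    exact zero_ne_one hx₀
  have hvn : ‖u / x₀ ^ j‖ = 1 := by
    rw [norm_div, norm_pow, hu, hx₀, one_pow, div_one]
  set v' : ℤ_[q] := ⟨u / x₀ ^ j, hvn.le⟩ with hv'
  have hmul : v' * x' ^ j = u' := by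
    apply Subtype.ext
    show (u / x₀ ^ j) * ((x' ^ j : ℤ_[q]) : ℚ_[q]) = u
    rw [PadicInt.coe_pow]
    show (u / x₀ ^ j) * x₀ ^ j = u
    field_simp
  have hvres : (c : ZMod q) ^ p = PadicInt.toZMod v' := by
    have h1 : PadicInt.toZMod v' * PadicInt.toZMod x' ^ j = PadicInt.toZMod u' := by
      rw [← map_pow, ← map_mul, hmul]
    rw [hjc'] at h1
    have h2 : PadicInt.toZMod x' ^ j ≠ 0 := pow_ne_zero _ hx0
    have h3 : PadicInt.toZMod v' * PadicInt.toZMod x' ^ j =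
        (c : ZMod q) ^ p * PadicInt.toZMod x' ^ j := by rw [h1]; ring
    exact (mul_right_cancel₀ h2 h3).symm
  obtain ⟨w, hw⟩ := saux_hensel_pow q p hp hqp v' (c : ZMod q) c.ne_zero hvres
  refine ⟨j, (w : ℚ_[q]), ?_⟩
  have h4 : (w : ℚ_[q]) ^ p = u / x₀ ^ j := by
    have := congrArg (fun y : ℤ_[q] => (y : ℚ_[q])) hw
    simpa using this
  rw [h4]
  field_simp

end padic

/-! ### Rational elements of `Ω_q` -/

section rat

variable (q : ℕ) [Fact q.Prime]

/-- `z ∈ Ω_q` lies in `ℚ_q`. -/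
def saux_IsRat (z : PadicAlgCl q) : Prop :=
  z ∈ Set.range (algebraMap ℚ_[q] (PadicAlgCl q))

theorem saux_isRat_iff (z : PadicAlgCl q) : saux_IsRat q z ↔ ∀ τ : gl_GQq q, τ z = z :=
  InfiniteGalois.mem_range_algebraMap_iff_fixed z

theorem saux_isRat_algebraMap (u : ℚ_[q]) : saux_IsRat q (algebraMap ℚ_[q] (PadicAlgCl q) u) :=
  ⟨u, rfl⟩

variable {K : Type} [Field K] [Algebra ℚ K] (κ : K →ₐ[ℚ] PadicAlgCl q)

/-- A rational embedding is fixed by the local Galois group. -/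
theorem saux_twist_eq (hκ : ∀ y : K, saux_IsRat q (κ y)) (τ : gl_GQq q) :
    gl_twist q K τ κ = κ := by
  ext y
  rw [gl_twist_apply]
  exact (saux_isRat_iff q _).mp (hκ y) τ

/-- The value of a semi-local idele at a rational place lies in `ℚ_q`. -/
theorem saux_value_isRat (hκ : ∀ y : K, saux_IsRat q (κ y)) (f : gl_Jq q K) :
    saux_IsRat q ((f.1 κ : (PadicAlgCl q)ˣ) : PadicAlgCl q) := by
  rw [saux_isRat_iff]
  intro τ
  have h := (gl_mem_Jq_iff q K f.1).mp f.2 τ κ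
  rw [saux_twist_eq q κ hκ τ] at h
  exact h.symm

/-- Every rational unit is the value at `κ` of a semi-local idele. -/
theorem saux_exists_idele (z : (PadicAlgCl q)ˣ) (hz : saux_IsRat q (z : PadicAlgCl q)) :
    ∃ g : gl_Jq q K, g.1 κ = z := by
  classical
  refine ⟨⟨fun κ' => if sec_Conj q K κ κ' then z else 1, ?_⟩, ?_⟩
  · intro τ κ'
    have hconj : sec_Conj q K κ (gl_twist q K τ κ') ↔ sec_Conj q K κ κ' := by
      constructor
      · rintro ⟨τ', hτ'⟩
        refine ⟨τ⁻¹ * τ', ?_⟩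
        rw [gl_twist_mul, ← hτ', ← gl_twist_mul, inv_mul_cancel, gl_twist_one]
      · rintro ⟨τ', hτ'⟩
        refine ⟨τ * τ', ?_⟩
        rw [gl_twist_mul, ← hτ']
    beta_reduce
    by_cases h : sec_Conj q K κ κ'
    · rw [if_pos (hconj.mpr h), if_pos h]
      apply Units.ext
      exact ((saux_isRat_iff q _).mp hz τ).symm
    · rw [if_neg (fun h' => h (hconj.mp h')), if_neg h, map_one]
  · have h : sec_Conj q K κ κ := ⟨1, (gl_twist_one q K κ).symm⟩
    show (if sec_Conj q K κ κ then z else 1) = z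
    rw [if_pos h]

/-- At a rational place, `sec_PowAt` means "a `p`-th power in `ℚ_q`". -/
theorem saux_powAt_iff (hκ : ∀ y : K, saux_IsRat q (κ y)) (p : ℕ) (hp : p ≠ 0)
    (f : gl_Jq q K) :
    sec_PowAt q K p κ f ↔
      ∃ w : ℚ_[q], algebraMap ℚ_[q] (PadicAlgCl q) w ^ p =
        ((f.1 κ : (PadicAlgCl q)ˣ) : PadicAlgCl q) := by
  constructor
  · rintro ⟨g, hg⟩
    obtain ⟨w, hw⟩ := saux_value_isRat q κ hκ g
    refine ⟨w, ?_⟩
    rw [hw, ← hg]
    simp
  · rintro ⟨w, hw⟩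
    have hw0 : algebraMap ℚ_[q] (PadicAlgCl q) w ≠ 0 := by
      intro h
      rw [h, zero_pow hp] at hw
      exact (f.1 κ).ne_zero hw.symm
    obtain ⟨g, hg⟩ := saux_exists_idele q κ (Units.mk0 _ hw0) (saux_isRat_algebraMap q w)
    refine ⟨g, ?_⟩
    rw [hg]
    apply Units.ext
    rw [Units.val_pow_eq_pow_val, Units.val_mk0]
    exact hw

end rat

end

end Fermat.Agent.S55
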