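import Mathlib
import Fermat.Agent.S55.Global.Defs
import Fermat.Agent.S55.Global.SecondDefs
import Fermat.Agent.S55.Global.SecAuxLocal
import Fermat.Agent.S55.Global.RAuxKummer

/-!
# S55, global side, package [SEC-AUX], part 4: index bounds

* `saux_idx`: a subgroup `W` generated modulo `V` by one element `a` with `a ^ p ∈ V` satisfies
  `[W : V ∩ W] ≤ p`;
* `saux_Nq_relIndex`: the elements of `U ≤ Kˣ` which are `p`-th powers at a place of degree
  one (above `q ≠ p`, where `U` consists of units) have index at most `p` in `U`;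
* `saux_Wt_relIndex` (Kummer theory): for `[F : K] = p`, `ζ_p ∈ K`, the group `U ^ p` has index
  at most `p` in `U ∩ Fˣᵖ`.
-/

set_option autoImplicit false

namespace Fermat.Agent.S55

open IntermediateField Polynomial

noncomputable section

/-! ### An abstract index bound -/

/-- If `W` is generated by `a` modulo `V` and `a ^ p ∈ V`, then `[W : V ∩ W] ≤ p`. -/
theorem saux_idx {G : Type*} [CommGroup G] (V W : Subgroup G) (a : G) (p : ℕ) (hp : 0 < p)
    (ha : a ^ p ∈ V) (haW : a ∈ W) (h : ∀ b ∈ W, ∃ k : ℕ, ∃ v ∈ V, b = a ^ k * v) :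
    V.relIndex W ≠ 0 ∧ V.relIndex W ≤ p := by
  haveI : NeZero p := ⟨hp.ne'⟩
  set f : Fin p → W ⧸ V.subgroupOf W := fun j => QuotientGroup.mk ((⟨a, haW⟩ : W) ^ (j : ℕ))
    with hf
  have hsurj : Function.Surjective f := by
    intro y
    obtain ⟨b, rfl⟩ := QuotientGroup.mk_surjective y
    obtain ⟨k, v, hv, hb⟩ := h b b.2
    refine ⟨⟨k % p, Nat.mod_lt _ hp⟩, ?_⟩
    rw [hf]
    beta_reduce
    rw [QuotientGroup.eq, Subgroup.mem_subgroupOf]
    have h1 : a ^ k = a ^ (k % p) * (a ^ p) ^ (k / p) := by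
      rw [← pow_mul, ← pow_add, Nat.mod_add_div]
    have h2 : (((⟨a, haW⟩ : W) ^ (k % p))⁻¹ * b : W) = ((a ^ (k % p))⁻¹ * (b : G) : G) := by
      simp
    rw [h2, hb, h1]
    have h3 : (a ^ (k % p))⁻¹ * (a ^ (k % p) * (a ^ p) ^ (k / p) * v) = (a ^ p) ^ (k / p) * v := by
      group
    rw [h3]
    exact V.mul_mem (V.pow_mem ha _) hv
  have hfin : Finite (W ⧸ V.subgroupOf W) := Finite.of_surjective f hsurj
  have hcard : Nat.card (W ⧸ V.subgroupOf W) ≤ p := by
    have := Nat.card_le_card_of_surjective f hsurj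
    simpa using this
  have hrel : V.relIndex W = Nat.card (W ⧸ V.subgroupOf W) := rfl
  rw [hrel]
  exact ⟨Nat.card_pos.ne', hcard⟩

/-- Monotonicity of the relative index in the big group. -/
theorem saux_relIndex_le {G : Type*} [Group G] (V N W : Subgroup G) (hVN : V ≤ N) (hNW : N ≤ W)
    (hW : V.relIndex W ≠ 0) : V.relIndex N ≤ V.relIndex W := by
  have h := Subgroup.relIndex_mul_relIndex V N W hVN hNW
  apply Nat.le_of_dvd (Nat.pos_of_ne_zero hW)
  exact Dvd.intro _ h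

/-! ### The local index at a place of degree one -/

section loc

variable (q : ℕ) [Fact q.Prime] {K : Type} [Field K] [Algebra ℚ K] (κ₀ : K →ₐ[ℚ] ℚ_[q])
  (p : ℕ) (U : Subgroup Kˣ)

/-- The elements of `U` which are `p`-th powers in `ℚ_q` under the embedding `κ₀`. -/
def saux_Nq : Subgroup Kˣ where
  carrier := {b | b ∈ U ∧ ∃ w : ℚ_[q], w ^ p = κ₀ (b : K)}
  one_mem' := ⟨U.one_mem, 1, by simp⟩
  mul_mem' := by
    rintro a b ⟨ha, w, hw⟩ ⟨hb, w', hw'⟩
    refine ⟨U.mul_mem ha hb, w * w', ?_⟩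
    rw [mul_pow, hw, hw', Units.val_mul, map_mul]
  inv_mem' := by
    rintro a ⟨ha, w, hw⟩
    refine ⟨U.inv_mem ha, w⁻¹, ?_⟩
    rw [inv_pow, hw, Units.val_inv_eq_inv_val, map_inv₀]

theorem saux_mem_Nq (b : Kˣ) :
    b ∈ saux_Nq q κ₀ p U ↔ b ∈ U ∧ ∃ w : ℚ_[q], w ^ p = κ₀ (b : K) := Iff.rfl

theorem saux_Nq_le : saux_Nq q κ₀ p U ≤ U := fun _ hb => hb.1

theorem saux_pow_mem_Nq (c : Kˣ) (hc : c ∈ U) : c ^ p ∈ saux_Nq q κ₀ p U :=
  ⟨U.pow_mem hc _, κ₀ (c : K), by rw [Units.val_pow_eq_pow_val, map_pow]⟩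

/-- The local index: `[U : N_q] ≤ p` for `q ≠ p`, if `U` consists of units at `κ₀`. -/
theorem saux_Nq_relIndex (hp : p.Prime) (hqp : q ≠ p) (hU : ∀ b ∈ U, ‖κ₀ (b : K)‖ = 1) :
    (saux_Nq q κ₀ p U).relIndex U ≠ 0 ∧ (saux_Nq q κ₀ p U).relIndex U ≤ p := by
  by_cases hex : ∃ x₀ ∈ U, ¬ ∃ w : ℚ_[q], w ^ p = κ₀ ((x₀ : Kˣ) : K)
  · obtain ⟨x₀, hx₀U, hx₀⟩ := hex
    refine saux_idx _ _ x₀ p hp.pos (saux_pow_mem_Nq q κ₀ p U x₀ hx₀U) hx₀U ?_
    intro b hb
    obtain ⟨j, w, hjw⟩ := saux_loc_gen q p hp hqp (κ₀ (b : K)) (κ₀ (x₀ : K)) (hU b hb)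
      (hU x₀ hx₀U) hx₀
    refine ⟨j, b / x₀ ^ j, ⟨U.div_mem hb (U.pow_mem hx₀U _), w, ?_⟩,
      by rw [mul_comm, div_mul_cancel]⟩
    have hx0 : κ₀ (x₀ : K) ≠ 0 := by
      rw [Ne, map_eq_zero]
      exact x₀.ne_zero
    rw [Units.val_div_eq_div_val, map_div₀, Units.val_pow_eq_pow_val, map_pow, hjw]
    field_simp
  · have hle : U ≤ saux_Nq q κ₀ p U := by
      intro b hb
      refine ⟨hb, ?_⟩
      by_contra hw
      exact hex ⟨b, hb, hw⟩
    rw [Subgroup.relIndex_eq_one.mpr hle]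
    exact ⟨one_ne_zero, hp.one_le⟩

end loc

/-! ### The Kummer index -/

section kummer

variable {K F : Type} [Field K] [Field F] [Algebra K F] (p : ℕ) (U : Subgroup Kˣ)

/-- The elements of `U` which become `p`-th powers in `F`. -/
def saux_Wt : Subgroup Kˣ where
  carrier := {b | b ∈ U ∧ ∃ y : F, y ^ p = algebraMap K F (b : K)}
  one_mem' := ⟨U.one_mem, 1, by simp⟩
  mul_mem' := by
    rintro a b ⟨ha, w, hw⟩ ⟨hb, w', hw'⟩
    refine ⟨U.mul_mem ha hb, w * w', ?_⟩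
    rw [mul_pow, hw, hw', Units.val_mul, map_mul]
  inv_mem' := by
    rintro a ⟨ha, w, hw⟩
    refine ⟨U.inv_mem ha, w⁻¹, ?_⟩
    rw [inv_pow, hw, Units.val_inv_eq_inv_val, map_inv₀]

theorem saux_mem_Wt (b : Kˣ) :
    b ∈ saux_Wt (F := F) p U ↔ b ∈ U ∧ ∃ y : F, y ^ p = algebraMap K F (b : K) := Iff.rfl

theorem saux_Wt_le : saux_Wt (F := F) p U ≤ U := fun _ hb => hb.1

theorem saux_pow_le_Wt : U.map (powMonoidHom p) ≤ saux_Wt (F := F) p U := by
  rintro _ ⟨c, hc, rfl⟩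
  refine ⟨U.pow_mem hc _, algebraMap K F (c : K), ?_⟩
  rw [powMonoidHom_apply, Units.val_pow_eq_pow_val, map_pow]

/-- **Kummer**: if `[F : K] = p` and `ζ_p ∈ K`, the elements of a `p`-saturated subgroup
`U ≤ Kˣ` which become `p`-th powers in `F` form a subgroup in which `U ^ p` has index at most
`p`. -/
theorem saux_Wt_relIndex (hp : p.Prime) (hdeg : Module.finrank K F = p) (ζ : K)
    (hζ : IsPrimitiveRoot ζ p) (hsat : ∀ c : Kˣ, c ^ p ∈ U → c ∈ U) :
    (U.map (powMonoidHom p)).relIndex (saux_Wt (F := F) p U) ≠ 0 ∧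
      (U.map (powMonoidHom p)).relIndex (saux_Wt (F := F) p U) ≤ p := by
  by_cases hex : ∃ a ∈ saux_Wt (F := F) p U, a ∉ U.map (powMonoidHom p)
  · obtain ⟨a, ⟨haU, α, hα⟩, haV⟩ := hex
    have hαK : α ∉ Set.range (algebraMap K F) := by
      rintro ⟨c, rfl⟩
      rw [← map_pow] at hα
      have hca : c ^ p = (a : K) := (algebraMap K F).injective hα
      have hc0 : c ≠ 0 := by
        rintro rfl
        rw [zero_pow hp.ne_zero] at hca
        exact a.ne_zero hca.symm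
      have hca' : (Units.mk0 c hc0) ^ p = a := by
        apply Units.ext
        rw [Units.val_pow_eq_pow_val, Units.val_mk0, hca]
      apply haV
      exact ⟨Units.mk0 c hc0, hsat _ (by rw [hca']; exact haU), hca'⟩
    haveI : FiniteDimensional K F := Module.finite_of_finrank_pos (by rw [hdeg]; exact hp.pos)
    haveI : IsSimpleOrder (IntermediateField K F) :=
      IntermediateField.isSimpleOrder_of_finrank_prime K F (by rw [hdeg]; exact hp)
    have htop : K⟮α⟯ = ⊤ := by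
      rcases eq_bot_or_eq_top K⟮α⟯ with h | h
      · exfalso
        rw [IntermediateField.adjoin_simple_eq_bot_iff, IntermediateField.mem_bot] at h
        exact hαK h
      · exact h
    have hainv : a⁻¹ ∈ saux_Wt (F := F) p U := (saux_Wt (F := F) p U).inv_mem ⟨haU, α, hα⟩
    refine saux_idx _ _ a⁻¹ p hp.pos ⟨a⁻¹, U.inv_mem haU, rfl⟩ hainv ?_
    rintro b ⟨hbU, y, hy⟩
    obtain ⟨k, c, hkc⟩ := raux_kummer_step hp hζ hα htop hy
    have hc0 : c ≠ 0 := by
      rintro rfl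
      rw [zero_pow hp.ne_zero] at hkc
      exact (mul_ne_zero b.ne_zero (pow_ne_zero _ a.ne_zero)) hkc
    have hc' : (Units.mk0 c hc0) ^ p = b * a ^ k := by
      apply Units.ext
      rw [Units.val_pow_eq_pow_val, Units.val_mk0, ← hkc]
      simp
    have hcU : Units.mk0 c hc0 ∈ U :=
      hsat _ (by rw [hc']; exact U.mul_mem hbU (U.pow_mem haU _))
    refine ⟨k, b * a ^ k, ⟨Units.mk0 c hc0, hcU, hc'⟩, ?_⟩
    rw [inv_pow, mul_comm b, inv_mul_cancel_left]
  · have hle : saux_Wt (F := F) p U ≤ U.map (powMonoidHom p) := by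
      intro b hb
      by_contra hw
      exact hex ⟨b, hb, hw⟩
    rw [Subgroup.relIndex_eq_one.mpr hle]
    exact ⟨one_ne_zero, hp.one_le⟩

end kummer

end

end Fermat.Agent.S55
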