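import Mathlib
import Fermat.Agent.S55.Global.Defs
import Fermat.Agent.S55.Global.SecondDefs
import Fermat.Agent.S55.Global.SecAuxLocal
import Fermat.Agent.S55.Global.SecAuxIndex

/-!
# S55, global side, package [SEC-AUX], part 5: preparations for the induction

* basic facts on the `S`-units `sec_units K S ∅ κ` (they do not depend on `κ`, they are
  `p`-saturated) and on `sec_PowAt`;
* the fixed field `K` of an automorphism `σ` of order `p` contains `ζ_p` and `[F : K] = p`;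
* `saux_exists_x` (counting) and `saux_onto_step` (the local step at a place of degree one).
-/

set_option autoImplicit false

namespace Fermat.Agent.S55

open IntermediateField Polynomial

noncomputable section

attribute [local instance] sec_fact

/-! ### Basic facts on `S`-units and `sec_PowAt` -/

section basics

variable (K : Type) [Field K] [Algebra ℚ K]

theorem saux_mem_UP (q : Nat.Primes) (f : gl_JP K q) :
    f ∈ gl_UP K q ↔ ∀ ι : K →ₐ[ℚ] PadicAlgCl (q : ℕ),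
      ‖((f.1 ι : (PadicAlgCl (q : ℕ))ˣ) : PadicAlgCl (q : ℕ))‖ = 1 := Iff.rfl

theorem saux_diagP_apply (q : Nat.Primes) (b : Kˣ) (ι : K →ₐ[ℚ] PadicAlgCl (q : ℕ)) :
    (((gl_diagP K q b).1 ι : (PadicAlgCl (q : ℕ))ˣ) : PadicAlgCl (q : ℕ)) = ι (b : K) := rfl

theorem saux_mem_units (S : Finset Nat.Primes)
    (κ : ∀ q : Nat.Primes, K →ₐ[ℚ] PadicAlgCl (q : ℕ)) (b : Kˣ) :
    b ∈ sec_units K S ∅ κ ↔
      ∀ q : Nat.Primes, q ∉ S → ∀ ι : K →ₐ[ℚ] PadicAlgCl (q : ℕ), ‖ι (b : K)‖ = 1 := by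
  constructor
  · intro h q hq ι
    have h1 := (h q hq).1 (Finset.notMem_empty q)
    exact h1 ι
  · intro h q hq
    refine ⟨fun _ => ?_, fun hq' => absurd hq' (Finset.notMem_empty q)⟩
    exact fun ι => h q hq ι

theorem saux_units_eq (S : Finset Nat.Primes)
    (κ κ' : ∀ q : Nat.Primes, K →ₐ[ℚ] PadicAlgCl (q : ℕ)) :
    sec_units K S ∅ κ = sec_units K S ∅ κ' := by
  ext b
  rw [saux_mem_units, saux_mem_units]

/-- The `S`-units are `p`-saturated. -/
theorem saux_units_sat (S : Finset Nat.Primes)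
    (κ : ∀ q : Nat.Primes, K →ₐ[ℚ] PadicAlgCl (q : ℕ)) (p : ℕ) (hp : p ≠ 0) (c : Kˣ)
    (hc : c ^ p ∈ sec_units K S ∅ κ) : c ∈ sec_units K S ∅ κ := by
  rw [saux_mem_units] at hc ⊢
  intro q hq ι
  have h1 := hc q hq ι
  rw [Units.val_pow_eq_pow_val, map_pow, norm_pow] at h1
  exact (pow_eq_one_iff_of_nonneg (norm_nonneg _) hp).mp h1

variable {K}

theorem saux_powAt_div_pow (q : ℕ) [Fact q.Prime] (p : ℕ) (κ : K →ₐ[ℚ] PadicAlgCl q)
    (f g : gl_Jq q K) (j : ℕ) (hf : sec_PowAt q K p κ f) (hg : sec_PowAt q K p κ g) :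
    sec_PowAt q K p κ (f / g ^ j) := by
  obtain ⟨g₁, h₁⟩ := hf
  obtain ⟨g₂, h₂⟩ := hg
  refine ⟨g₁ / g₂ ^ j, ?_⟩
  have e1 : (f / g ^ j).1 κ = f.1 κ / (g.1 κ) ^ j := rfl
  have e2 : (g₁ / g₂ ^ j).1 κ = g₁.1 κ / (g₂.1 κ) ^ j := rfl
  rw [e1, e2, div_pow, h₁, ← pow_mul, mul_comm, pow_mul, h₂]

end basics


/-! ### The fixed field of `σ` -/

section fixed

variable {F : Type} [Field F] [NumberField F] (σ : F ≃ₐ[ℚ] F)

theorem saux_mem_fixed (x : F) (hx : σ x = x) : x ∈ fixedField (Subgroup.zpowers σ) := by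
  rw [IntermediateField.mem_fixedField_iff]
  intro f hf
  have h1 : σ ∈ MulAction.stabilizer (F ≃ₐ[ℚ] F) x := by
    rw [MulAction.mem_stabilizer_iff]
    exact hx
  have h2 := (Subgroup.zpowers_le.mpr h1) hf
  rw [MulAction.mem_stabilizer_iff] at h2
  exact h2

theorem saux_finrank_fixed (p : ℕ) (hσ : orderOf σ = p) :
    Module.finrank ↥(fixedField (Subgroup.zpowers σ)) F = p := by
  rw [IntermediateField.finrank_fixedField_eq_card, Nat.card_zpowers, hσ]

/-- An automorphism of order `p` fixes the `p`-th roots of unity. -/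
theorem saux_fix_zeta {p : ℕ} (hp : p.Prime) {ζ : F} (hζ : IsPrimitiveRoot ζ p)
    (hτ : σ ^ p = 1) : σ ζ = ζ := by
  haveI : NeZero p := ⟨hp.ne_zero⟩
  haveI : Fact p.Prime := ⟨hp⟩
  have h1 : hζ.autToPow ℚ σ ^ p = 1 := by rw [← map_pow, hτ, map_one]
  have h2 : hζ.autToPow ℚ σ ^ (p - 1) = 1 := ZMod.units_pow_card_sub_one_eq_one p _
  have hcop : Nat.Coprime p (p - 1) := by
    rw [Nat.Prime.coprime_iff_not_dvd hp]
    intro hdvd
    have h3 := Nat.le_of_dvd (Nat.sub_pos_of_lt hp.one_lt) hdvd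
    have := hp.one_lt
    omega
  have h3 : hζ.autToPow ℚ σ = 1 := by
    have d1 := orderOf_dvd_of_pow_eq_one h1
    have d2 := orderOf_dvd_of_pow_eq_one h2
    have d3 := Nat.dvd_gcd d1 d2
    rw [Nat.Coprime] at hcop
    rw [hcop, Nat.dvd_one, orderOf_eq_one_iff] at d3
    exact d3
  have h4 := hζ.autToPow_spec ℚ σ
  rw [h3] at h4
  have h5 : ((1 : (ZMod p)ˣ) : ZMod p).val = 1 := by
    rw [Units.val_one]
    exact ZMod.val_one p
  rw [h5, pow_one] at h4
  exact h4.symm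

theorem saux_exists_zeta (p : ℕ) (hp : p.Prime) (hσ : orderOf σ = p)
    (h : ∃ ζ : F, IsPrimitiveRoot ζ p) :
    ∃ ζ : ↥(fixedField (Subgroup.zpowers σ)), IsPrimitiveRoot ζ p := by
  obtain ⟨ζ, hζ⟩ := h
  have hσp : σ ^ p = 1 := by rw [← hσ]; exact pow_orderOf_eq_one σ
  refine ⟨⟨ζ, saux_mem_fixed σ ζ (saux_fix_zeta σ hp hζ hσp)⟩, ?_⟩
  exact IsPrimitiveRoot.of_map_of_injective
    (f := (algebraMap ↥(fixedField (Subgroup.zpowers σ)) F)) hζ
    (algebraMap ↥(fixedField (Subgroup.zpowers σ)) F).injective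

/-- There is at least one place above every prime. -/
theorem saux_card_place_pos (K : Type) [Field K] [NumberField K] (q : ℕ) [Fact q.Prime] :
    0 < Nat.card (gl_Place q K) := by
  haveI : Finite (K →ₐ[ℚ] PadicAlgCl q) := inferInstance
  haveI : Finite (gl_Place q K) := Quotient.finite _
  haveI : Nonempty (gl_Place q K) := ⟨gl_placeOf q K IsAlgClosed.lift⟩
  exact Nat.card_pos

end fixed


/-! ### The two halves of the induction step -/

/-- Counting: as long as `[U : N] ≤ p ^ k` with `k + 2 ≤ n`, `[U : U ^ p] = p ^ n`, the group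
`N` contains an element which is not a `p`-th power in `F`. -/
theorem saux_exists_x {K F : Type} [Field K] [Field F] [Algebra K F] (p : ℕ) (hp : p.Prime)
    (hdeg : Module.finrank K F = p) (ζ : K) (hζ : IsPrimitiveRoot ζ p) (U N : Subgroup Kˣ)
    (hsat : ∀ c : Kˣ, c ^ p ∈ U → c ∈ U) (n k : ℕ)
    (hidx : (U.map (powMonoidHom p)).relIndex U = p ^ n) (hk : k + 2 ≤ n) (hNU : N ≤ U)
    (hVN : U.map (powMonoidHom p) ≤ N) (hN : N.relIndex U ≤ p ^ k) :
    ∃ x ∈ N, ¬ ∃ y : F, y ^ p = algebraMap K F ((x : Kˣ) : K) := by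
  by_contra hcon
  have hNW : N ≤ saux_Wt (F := F) p U := fun b hb =>
    ⟨hNU hb, by by_contra h; exact hcon ⟨b, hb, h⟩⟩
  obtain ⟨hW0, hWp⟩ := saux_Wt_relIndex (F := F) p U hp hdeg ζ hζ hsat
  have h1 : (U.map (powMonoidHom p)).relIndex N ≤ p :=
    le_trans (saux_relIndex_le _ N _ hVN hNW hW0) hWp
  have h2 := Subgroup.relIndex_mul_relIndex (U.map (powMonoidHom p)) N U hVN hNU
  rw [hidx] at h2
  have h3 : p ^ n ≤ p * p ^ k := by
    rw [← h2]
    exact Nat.mul_le_mul h1 hN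
  have h4 : p * p ^ k < p ^ n := by
    rw [← pow_succ']
    exact Nat.pow_lt_pow_right hp.one_lt (by omega)
  omega

/-- The local step: at a place of degree one above `q ≠ p`, every unit value is, modulo `p`-th
powers, a power of any global element which is a local unit but not a local `p`-th power. -/
theorem saux_onto_step {K : Type} [Field K] [Algebra ℚ K] (q : ℕ) [Fact q.Prime] (p : ℕ)
    (hp : p.Prime) (hqp : q ≠ p) (κ₀ : K →ₐ[ℚ] ℚ_[q]) (κ : K →ₐ[ℚ] PadicAlgCl q)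
    (hκ : ∀ y : K, κ y = algebraMap ℚ_[q] (PadicAlgCl q) (κ₀ y)) (x : Kˣ)
    (hx1 : ‖κ₀ (x : K)‖ = 1) (hx : ¬ ∃ w : ℚ_[q], w ^ p = κ₀ (x : K)) (f : gl_Jq q K)
    (hf : ‖((f.1 κ : (PadicAlgCl q)ˣ) : PadicAlgCl q)‖ = 1) :
    ∃ j : ℕ, sec_PowAt q K p κ (f / (gl_diagq q K x) ^ j) := by
  have hrat : ∀ y : K, saux_IsRat q (κ y) := fun y => ⟨κ₀ y, (hκ y).symm⟩
  obtain ⟨u, hu⟩ := saux_value_isRat q κ hrat f
  have hu1 : ‖u‖ = 1 := by
    rw [← PadicAlgCl.norm_extends q u]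
    rw [← hu] at hf
    exact hf
  obtain ⟨j, w, hjw⟩ := saux_loc_gen q p hp hqp u (κ₀ (x : K)) hu1 hx1 hx
  refine ⟨j, ?_⟩
  rw [saux_powAt_iff q κ hrat p hp.ne_zero]
  refine ⟨w, ?_⟩
  have e1 : ((f / (gl_diagq q K x) ^ j).1 κ : (PadicAlgCl q)ˣ) =
      f.1 κ / ((gl_diagq q K x).1 κ) ^ j := rfl
  have hx0 : κ₀ (x : K) ≠ 0 := by
    rw [Ne, map_eq_zero]
    exact x.ne_zero
  have h0 : algebraMap ℚ_[q] (PadicAlgCl q) (κ₀ (x : K)) ≠ 0 := by
    rw [Ne, map_eq_zero]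
    exact hx0
  rw [e1, Units.val_div_eq_div_val, Units.val_pow_eq_pow_val, gl_diagq_apply, ← hu, hκ, hjw,
    map_mul, map_pow, map_pow, mul_div_cancel_left₀ _ (pow_ne_zero _ h0)]


end

end Fermat.Agent.S55
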