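import Mathlib
import Fermat.Agent.S55.Global.Defs
import Fermat.Agent.S55.Global.SecondDefs
import Fermat.Agent.S55.Global.SecAuxLocal
import Fermat.Agent.S55.Global.KummerPrimeFree
import Fermat.Agent.S55.Global.RAuxDescent

/-!
# S55, global side, package [SEC-AUX], part 3: existence of places of degree one

If `x ∈ F` is not a `p`-th power in the number field `F ∋ ζ_p`, then there are a prime `q`
outside any given finite set and an embedding `F → ℚ_q` under which `x` is still not a `p`-th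
power (`saux_place`).  The prime comes from the analytic block (`anF_exists_prime_norm`), the
embedding from Hensel's lemma applied to the minimal polynomial of an integral primitive
element.
-/

set_option autoImplicit false

namespace Fermat.Agent.S55

open IntermediateField Polynomial NumberField

noncomputable section

attribute [local instance] sec_fact

/-- Ring homomorphisms commute with the evaluation of integral polynomials. -/
theorem saux_hom_aeval {A B : Type*} [CommRing A] [CommRing B] (g : A →+* B) (G : ℤ[X]) (z : A) :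
    g (aeval z G) = aeval (g z) G := by
  rw [aeval_def, aeval_def, hom_eval₂]
  congr 1
  exact RingHom.ext_int _ _

theorem saux_toZMod_eq_zero_of_norm_lt_one (q : ℕ) [Fact q.Prime] (u : ℤ_[q]) (hu : ‖u‖ < 1) :
    PadicInt.toZMod u = 0 := by
  by_contra h
  have := saux_norm_eq_one_of_toZMod_ne_zero q u h
  rw [this] at hu
  exact lt_irrefl _ hu

/-- The residue map of a prime of degree one. -/
theorem saux_phi {F : Type} [Field F] [NumberField F] (q : ℕ) (P : Ideal (𝓞 F))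
    (hP : Ideal.absNorm P = q) (hq : q.Prime) :
    ∃ φ : 𝓞 F →+* ZMod q, Function.Surjective φ ∧ ∀ x : 𝓞 F, φ x = 0 ↔ x ∈ P := by
  subst hP
  exact rauxD_exists_phi P hq

/-- **Hensel**: a residue map `φ : 𝓞 F → 𝔽_q` at which the derivative of the minimal polynomial
of an integral primitive element does not vanish lifts to an embedding `F → ℚ_q`. -/
theorem saux_place_core (q : ℕ) [Fact q.Prime] (F : Type) [Field F] [NumberField F] (θ : 𝓞 F)
    (hθ : Algebra.adjoin ℚ {(θ : F)} = ⊤) (φ : 𝓞 F →+* ZMod q)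
    (hder : φ (aeval θ (derivative (minpoly ℤ θ))) ≠ 0) :
    ∃ ι₀ : F →ₐ[ℚ] ℚ_[q], ∀ G : ℤ[X], ∃ u : ℤ_[q],
      ι₀ (aeval (θ : F) G) = (u : ℚ_[q]) ∧ PadicInt.toZMod u = φ (aeval θ G) := by
  set f : ℤ[X] := minpoly ℤ θ with hf
  set a : ℤ_[q] := ((φ θ).val : ℤ_[q]) with ha
  have haz : PadicInt.toZMod a = φ θ := by
    rw [ha, map_natCast, ZMod.natCast_zmod_val]
  have hres : ∀ (G : ℤ[X]) (z : ℤ_[q]), PadicInt.toZMod z = φ θ →
      PadicInt.toZMod (aeval z G) = φ (aeval θ G) := by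
    intro G z hz
    rw [saux_hom_aeval, saux_hom_aeval, hz]
  have h1 : ‖aeval a f‖ < 1 := by
    apply saux_norm_lt_one_of_toZMod_eq_zero
    rw [hres f a haz, hf, minpoly.aeval, map_zero]
  have h2 : ‖aeval a (derivative f)‖ = 1 := by
    apply saux_norm_eq_one_of_toZMod_ne_zero
    rw [hres _ a haz]
    exact hder
  obtain ⟨α, hα, hαa, -⟩ := hensels_lemma (F := f) (a := a) (by rw [h2, one_pow]; exact h1)
  rw [h2] at hαa
  have hαz : PadicInt.toZMod α = φ θ := by
    have := saux_toZMod_eq_zero_of_norm_lt_one q _ hαa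
    rw [map_sub, sub_eq_zero] at this
    rw [this, haz]
  have hint : IsIntegral ℤ (θ : F) := θ.2
  have hintQ : IsIntegral ℚ (θ : F) := hint.tower_top
  set pb : PowerBasis ℚ F := PowerBasis.ofAdjoinEqTop hintQ hθ with hpb
  have hgen : pb.gen = (θ : F) := PowerBasis.ofAdjoinEqTop_gen hintQ hθ
  have hmin : minpoly ℚ pb.gen = f.map (algebraMap ℤ ℚ) := by
    rw [hgen, minpoly.isIntegrallyClosed_eq_field_fractions' ℚ hint, hf]
    congr 1
    exact minpoly.algebraMap_eq (RingOfIntegers.coe_injective) θ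
  have hroot : aeval (α : ℚ_[q]) (minpoly ℚ pb.gen) = 0 := by
    rw [hmin, aeval_map_algebraMap]
    have := saux_hom_aeval (PadicInt.Coe.ringHom (p := q)) f α
    simp only [PadicInt.Coe.ringHom_apply] at this
    rw [← this, hα]
    rfl
  refine ⟨pb.lift (α : ℚ_[q]) hroot, fun G => ⟨aeval α G, ?_, hres G α hαz⟩⟩
  have h3 := saux_hom_aeval ((pb.lift (α : ℚ_[q]) hroot : F →ₐ[ℚ] ℚ_[q]) : F →+* ℚ_[q]) G (θ : F)
  have h4 : (pb.lift (α : ℚ_[q]) hroot) (θ : F) = (α : ℚ_[q]) := by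
    rw [← hgen, PowerBasis.lift_gen]
  have h5 := saux_hom_aeval (PadicInt.Coe.ringHom (p := q)) G α
  simp only [PadicInt.Coe.ringHom_apply] at h5
  rw [h5]
  simp only [AlgHom.coe_toRingHom] at h3
  rw [h3, h4]


/-- A number field has an integral primitive element. -/
theorem saux_exists_theta (F : Type) [Field F] [NumberField F] :
    ∃ θ : 𝓞 F, Algebra.adjoin ℚ {(θ : F)} = ⊤ := by
  obtain ⟨θ₀, hθ₀⟩ := Field.exists_primitive_element ℚ F
  have h0 : Algebra.adjoin ℚ {θ₀} = ⊤ :=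
    Algebra.adjoin_eq_top_of_primitive_element (Algebra.IsAlgebraic.isAlgebraic θ₀) hθ₀
  obtain ⟨d, hd0, hdint⟩ := exists_integral_multiples ℤ ℚ ({θ₀} : Finset F)
  have hint : IsIntegral ℤ (d • θ₀) := hdint θ₀ (Finset.mem_singleton_self _)
  refine ⟨⟨d • θ₀, hint⟩, ?_⟩
  show Algebra.adjoin ℚ {d • θ₀} = ⊤
  rw [eq_top_iff, ← h0]
  apply Algebra.adjoin_le
  intro y hy
  rw [Set.mem_singleton_iff] at hy
  subst hy
  have hdQ : (d : ℚ) ≠ 0 := by exact_mod_cast hd0
  have h1 : (d : ℚ)⁻¹ • (d • y) = y := by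
    rw [← Int.cast_smul_eq_zsmul ℚ d y, smul_smul, inv_mul_cancel₀ hdQ, one_smul]
  have h2 : (d : ℚ)⁻¹ • (d • y) ∈ Algebra.adjoin ℚ {d • y} :=
    (Algebra.adjoin ℚ {d • y}).smul_mem (Algebra.subset_adjoin (Set.mem_singleton _))
      ((d : ℚ)⁻¹)
  rw [h1] at h2
  exact h2

/-- The derivative of the minimal polynomial does not vanish at an integral element. -/
theorem saux_deriv_ne_zero (F : Type) [Field F] [NumberField F] (θ : 𝓞 F) :
    aeval θ (derivative (minpoly ℤ θ)) ≠ 0 := by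
  have hint : IsIntegral ℤ (θ : F) := θ.2
  have hintQ : IsIntegral ℚ (θ : F) := hint.tower_top
  have hsep : (minpoly ℚ (θ : F)).Separable := (minpoly.irreducible hintQ).separable
  have hδF : aeval (θ : F) (derivative (minpoly ℚ (θ : F))) ≠ 0 :=
    hsep.aeval_derivative_ne_zero (minpoly.aeval _ _)
  have hmin : minpoly ℚ (θ : F) = (minpoly ℤ θ).map (algebraMap ℤ ℚ) := by
    rw [minpoly.isIntegrallyClosed_eq_field_fractions' ℚ hint]
    congr 1
    exact minpoly.algebraMap_eq (RingOfIntegers.coe_injective) θ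
  intro h
  apply hδF
  rw [hmin, derivative_map, aeval_map_algebraMap]
  have := saux_hom_aeval (algebraMap (𝓞 F) F) (derivative (minpoly ℤ θ)) θ
  rw [h, map_zero] at this
  exact this.symm

/-- Every element of `F` is, up to a nonzero integer factor, an integral polynomial in `θ`. -/
theorem saux_exists_poly (F : Type) [Field F] [NumberField F] (θ : 𝓞 F)
    (hθ : Algebra.adjoin ℚ {(θ : F)} = ⊤) (x : F) :
    ∃ (D : ℤ) (G : ℤ[X]), D ≠ 0 ∧ ((aeval θ G : 𝓞 F) : F) = (D : F) * x := by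
  have hx : x ∈ (aeval (R := ℚ) (θ : F)).range := by
    rw [← Algebra.adjoin_singleton_eq_range_aeval, hθ]
    exact Algebra.mem_top
  obtain ⟨h, rfl⟩ := hx
  obtain ⟨D, hD, hG⟩ := IsLocalization.integerNormalization_spec (nonZeroDivisors ℤ) h
  refine ⟨D, IsLocalization.integerNormalization (nonZeroDivisors ℤ) h,
    nonZeroDivisors.ne_zero hD, ?_⟩
  have h1 := saux_hom_aeval (algebraMap (𝓞 F) F)
    (IsLocalization.integerNormalization (nonZeroDivisors ℤ) h) θ
  have h2 : aeval (θ : F) ((IsLocalization.integerNormalization (nonZeroDivisors ℤ) h).map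
      (algebraMap ℤ ℚ)) = aeval (θ : F) (D • h) := by rw [hG]
  rw [aeval_map_algebraMap] at h2
  show algebraMap (𝓞 F) F _ = _
  rw [h1]
  show aeval (θ : F) _ = _
  rw [h2, map_zsmul, zsmul_eq_mul]
  rfl


/-- **Places of degree one**: if `x ∈ F` is not a `p`-th power (`ζ_p ∈ F`), there are a prime
`q` outside any given finite set and an embedding `F → ℚ_q` under which `x` is not a `p`-th
power. -/
theorem saux_place (p : ℕ) (hp : p.Prime) (hp3 : 3 ≤ p) (F : Type) [Field F] [NumberField F]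
    (ζ : F) (hζ : IsPrimitiveRoot ζ p) (x : F) (hx : ¬ ∃ y : F, y ^ p = x) (X : Finset ℕ) :
    ∃ q : Nat.Primes, (q : ℕ) ∉ X ∧ (q : ℕ) ≠ p ∧
      ∃ ι₀ : F →ₐ[ℚ] ℚ_[(q : ℕ)], ¬ ∃ w : ℚ_[(q : ℕ)], w ^ p = ι₀ x := by
  obtain ⟨θ, hθ⟩ := saux_exists_theta F
  have hδ := saux_deriv_ne_zero F θ
  set δ : 𝓞 F := aeval θ (derivative (minpoly ℤ θ)) with hδdef
  set n₀ : ℕ := Ideal.absNorm (Ideal.span {δ}) with hn₀
  have hn₀0 : n₀ ≠ 0 := by
    rw [hn₀, Ne, Ideal.absNorm_eq_zero_iff, Ideal.span_singleton_eq_bot]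
    exact hδ
  obtain ⟨D, G₁, hD, hG₁⟩ := saux_exists_poly F θ hθ x
  have hDF : (D : F) ≠ 0 := by exact_mod_cast hD
  have hp1 : p - 1 + 1 = p := Nat.sub_add_cancel hp.one_le
  set G : ℤ[X] := C (D ^ (p - 1)) * G₁ with hG
  set E : 𝓞 F := aeval θ G with hE
  have hEF : (E : F) = (D : F) ^ p * x := by
    have h1 : E = (D : 𝓞 F) ^ (p - 1) * aeval θ G₁ := by
      rw [hE, hG, map_mul, aeval_C]
      simp
    rw [h1]
    show algebraMap (𝓞 F) F _ = _
    rw [map_mul, map_pow]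
    show algebraMap (𝓞 F) F (D : 𝓞 F) ^ (p - 1) * ((aeval θ G₁ : 𝓞 F) : F) = _
    rw [hG₁, ← mul_assoc, map_intCast, ← pow_succ, hp1]
  have hEpow : ¬ ∃ y : F, y ^ p = (E : F) := by
    rintro ⟨y, hy⟩
    apply hx
    refine ⟨y / (D : F), ?_⟩
    rw [div_pow, hy, hEF, mul_div_cancel_left₀ _ (pow_ne_zero _ hDF)]
  obtain ⟨P, hPq, hPS, hPp, hEP, hpow⟩ :=
    anF_exists_prime_norm p hp hp3 F ζ hζ E hEpow (X ∪ n₀.primeFactors)
  obtain ⟨q, hq⟩ : ∃ q : Nat.Primes, (q : ℕ) = Ideal.absNorm P.asIdeal := ⟨⟨_, hPq⟩, rfl⟩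
  rw [← hq] at hPS hPp
  obtain ⟨φ, hφs, hφk⟩ := saux_phi (q : ℕ) P.asIdeal hq.symm q.2
  have hder : φ δ ≠ 0 := by
    rw [Ne, hφk]
    intro hmem
    apply hPS
    rw [Finset.mem_union]
    right
    rw [Nat.mem_primeFactors]
    refine ⟨q.2, ?_, hn₀0⟩
    rw [hq]
    apply Ideal.absNorm_dvd_absNorm_of_le
    rw [Ideal.span_singleton_le_iff_mem]
    exact hmem
  obtain ⟨ι₀, hι₀⟩ := saux_place_core (q : ℕ) F θ hθ φ hder
  refine ⟨q, fun h => hPS (Finset.mem_union_left _ h), hPp, ι₀, ?_⟩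
  rintro ⟨w, hw⟩
  obtain ⟨u, hu1, hu2⟩ := hι₀ G
  have hEu : ι₀ (E : F) = (u : ℚ_[(q : ℕ)]) := by
    rw [← hu1, hE]
    congr 1
    exact saux_hom_aeval (algebraMap (𝓞 F) F) G θ
  have hφE : φ E ≠ 0 := by
    rw [Ne, hφk]
    exact hEP
  have hunorm : ‖u‖ = 1 := saux_norm_eq_one_of_toZMod_ne_zero (q : ℕ) u (by rw [hu2]; exact hφE)
  set v : ℚ_[(q : ℕ)] := (D : ℚ_[(q : ℕ)]) * w with hv
  have hvp : v ^ p = (u : ℚ_[(q : ℕ)]) := by
    rw [hv, mul_pow, hw, ← hEu, hEF, map_mul, map_pow]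
    congr 2
    simp
  have hvnorm : ‖v‖ = 1 := by
    have h1 : ‖v‖ ^ p = 1 := by
      rw [← norm_pow, hvp]
      exact hunorm
    exact (pow_eq_one_iff_of_nonneg (norm_nonneg _) hp.ne_zero).mp h1
  set v' : ℤ_[(q : ℕ)] := ⟨v, hvnorm.le⟩ with hv'
  have hv'p : v' ^ p = u := by
    apply Subtype.ext
    rw [PadicInt.coe_pow]
    exact hvp
  obtain ⟨y, hy⟩ := hφs (PadicInt.toZMod v')
  apply hpow y
  rw [← hφk, map_sub, map_pow, hy, ← map_pow, hv'p, hu2, hE, sub_self]


end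

end Fermat.Agent.S55
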