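import Mathlib
import Fermat.Agent.S55.Global.Defs
import Fermat.Agent.S55.Global.SecondDefs
import Fermat.Agent.S55.Global.SecAuxLocal

/-!
# S55, global side, package [SEC-AUX], part 2: rational places split

If `ι : F → Ω_q` has image in `ℚ_q`, then so has every embedding of `F` which agrees with `ι` on
`K = F^σ`, and the place of `K` below `ι` splits in `F` (`saux_split`).
-/

set_option autoImplicit false

namespace Fermat.Agent.S55

open IntermediateField Polynomial

noncomputable section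

section split

variable (q : ℕ) [Fact q.Prime] {F : Type} [Field F] [NumberField F] (σ : F ≃ₐ[ℚ] F)

/-- The polynomial `∏_{j < p} (X - σ^j y)`. -/
def saux_orbPoly (p : ℕ) (y : F) : F[X] := ∏ j ∈ Finset.range p, (X - C ((σ ^ j) y))

theorem saux_orbPoly_map (p : ℕ) (hσ : σ ^ p = 1) (y : F) :
    (saux_orbPoly σ p y).map (σ : F →+* F) = saux_orbPoly σ p y := by
  unfold saux_orbPoly
  rw [Polynomial.map_prod]
  have h1 : ∀ j ∈ Finset.range p, (X - C ((σ ^ j) y)).map (σ : F →+* F) =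
      X - C ((σ ^ (j + 1)) y) := by
    intro j _
    rw [Polynomial.map_sub, Polynomial.map_X, Polynomial.map_C, pow_succ']
    rfl
  rw [Finset.prod_congr rfl h1]
  rcases Nat.eq_zero_or_pos p with h0 | hpos
  · subst h0
    simp
  obtain ⟨m, rfl⟩ : ∃ m, p = m + 1 := ⟨p - 1, by omega⟩
  rw [Finset.prod_range_succ, Finset.prod_range_succ' (fun j => X - C ((σ ^ j) y)), hσ,
    pow_zero]

theorem saux_orbPoly_coeff_mem (p : ℕ) (hσ : σ ^ p = 1) (y : F) (i : ℕ) :
    (saux_orbPoly σ p y).coeff i ∈ fixedField (Subgroup.zpowers σ) := by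
  rw [IntermediateField.mem_fixedField_iff]
  have h1 : σ ((saux_orbPoly σ p y).coeff i) = (saux_orbPoly σ p y).coeff i := by
    have := congrArg (fun P : F[X] => P.coeff i) (saux_orbPoly_map σ p hσ y)
    simpa [Polynomial.coeff_map] using this
  have h2 : Subgroup.zpowers σ ≤
      MulAction.stabilizer (F ≃ₐ[ℚ] F) ((saux_orbPoly σ p y).coeff i) := by
    rw [Subgroup.zpowers_le]
    exact h1
  intro g hg
  exact h2 hg

theorem saux_orbPoly_root (p : ℕ) (hp : 0 < p) (y : F) : (saux_orbPoly σ p y).eval y = 0 := by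
  unfold saux_orbPoly
  rw [Polynomial.eval_prod]
  apply Finset.prod_eq_zero (Finset.mem_range.mpr hp)
  simp

/-- Two embeddings of `F` which agree on `K = F^σ` agree up to a power of `σ`. -/
theorem saux_ext_eq (p : ℕ) (hp : 0 < p) (hσ : σ ^ p = 1) (ι ι' : F →ₐ[ℚ] PadicAlgCl q)
    (h : ι'.comp (fixedField (Subgroup.zpowers σ)).val =
      ι.comp (fixedField (Subgroup.zpowers σ)).val) (y : F) :
    ∃ j : ℕ, ι' y = ι ((σ ^ j) y) := by
  have hmap : (saux_orbPoly σ p y).map (ι' : F →+* PadicAlgCl q) =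
      (saux_orbPoly σ p y).map (ι : F →+* PadicAlgCl q) := by
    ext i
    rw [Polynomial.coeff_map, Polynomial.coeff_map]
    have hc := saux_orbPoly_coeff_mem σ p hσ y i
    have := congrArg (fun φ : ↥(fixedField (Subgroup.zpowers σ)) →ₐ[ℚ] PadicAlgCl q =>
      φ ⟨_, hc⟩) h
    exact this
  have hroot : ((saux_orbPoly σ p y).map (ι' : F →+* PadicAlgCl q)).eval (ι' y) = 0 := by
    have h1 := Polynomial.eval₂_hom (ι' : F →+* PadicAlgCl q) y (p := saux_orbPoly σ p y)
    rw [Polynomial.eval_map]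
    rw [saux_orbPoly_root σ p hp y, map_zero] at h1
    exact h1
  rw [hmap] at hroot
  unfold saux_orbPoly at hroot
  rw [Polynomial.map_prod, Polynomial.eval_prod, Finset.prod_eq_zero_iff] at hroot
  obtain ⟨j, -, hj⟩ := hroot
  refine ⟨j, ?_⟩
  rw [Polynomial.map_sub, Polynomial.map_X, Polynomial.map_C, Polynomial.eval_sub,
    Polynomial.eval_X, Polynomial.eval_C, sub_eq_zero] at hj
  exact hj

/-- If `ι` is rational, so is every embedding which agrees with `ι` on `K = F^σ`. -/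
theorem saux_ext_isRat (p : ℕ) (hp : 0 < p) (hσ : σ ^ p = 1) (ι ι' : F →ₐ[ℚ] PadicAlgCl q)
    (hι : ∀ y : F, saux_IsRat q (ι y))
    (h : ι'.comp (fixedField (Subgroup.zpowers σ)).val =
      ι.comp (fixedField (Subgroup.zpowers σ)).val) (y : F) : saux_IsRat q (ι' y) := by
  obtain ⟨j, hj⟩ := saux_ext_eq q σ p hp hσ ι ι' h y
  rw [hj]
  exact hι _

/-- **Rational places split.** -/
theorem saux_split (p : ℕ) (hp : 0 < p) (hσ : σ ^ p = 1) (hσ1 : σ ≠ 1)
    (ι : F →ₐ[ℚ] PadicAlgCl q) (hι : ∀ y : F, saux_IsRat q (ι y)) :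
    sec_SplitAt q F σ (ι.comp (fixedField (Subgroup.zpowers σ)).val) := by
  intro ι' hι' hdec
  obtain ⟨τ, hτ⟩ := hdec
  have hrat : ∀ y : F, saux_IsRat q (ι' y) := saux_ext_isRat q σ p hp hσ ι ι' hι hι'
  rw [saux_twist_eq q ι' hrat τ] at hτ
  apply hσ1
  ext y
  have h1 := congrArg (fun φ : F →ₐ[ℚ] PadicAlgCl q => φ y) hτ
  exact ι'.injective h1

end split

end

end Fermat.Agent.S55
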