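import Mathlib
import Fermat.Agent.S55.Global.Defs
import Fermat.Agent.S55.Global.SecondDefs
import Fermat.Agent.S55.Global.SecAuxLocal
import Fermat.Agent.S55.Global.SecAuxSplit
import Fermat.Agent.S55.Global.SecAuxPlace
import Fermat.Agent.S55.Global.SecAuxIndex
import Fermat.Agent.S55.Global.SecAuxBasic

/-!
# S55, global side, package [SEC-AUX]: the auxiliary places

`saux_main : sec_SUnitStatement → sec_AuxStatement`.

The places of `T` are constructed one at a time.  After `k` steps we have `T` with `#T = k`,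
places of degree one of `F` (so they split in `F`), such that the `S`-units `U` map onto
`∏_{v ∈ T} U_v / U_vᵖ`, and a subgroup `U ^ p ≤ N ≤ U` of index at most `p ^ k` whose elements
are `p`-th powers at the places of `T`.  As `[U : U ^ p] = p ^ n` ([SEC-SUNIT]) and
`[U ∩ Fˣᵖ : U ^ p] ≤ p` (Kummer), for `k + 2 ≤ n` the group `N` contains an element `x` which
is not a `p`-th power in `F`; `saux_place` gives a place of degree one, above a new prime
`q ≠ p`, at which `x` is not a `p`-th power, and `U_q / U_qᵖ` is generated by `x`.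
-/

set_option autoImplicit false

namespace Fermat.Agent.S55

open IntermediateField Polynomial

noncomputable section

attribute [local instance] sec_fact

section main

variable {F : Type} [Field F] [NumberField F] (σ : F ≃ₐ[ℚ] F)

/-- The state of the induction after `k` steps. -/
def saux_State (p : ℕ) (S : Finset Nat.Primes)
    (U : Subgroup (↥(fixedField (Subgroup.zpowers σ)))ˣ) (k : ℕ) : Prop :=
  ∃ (T : Finset Nat.Primes)
    (κ : ∀ q : Nat.Primes, ↥(fixedField (Subgroup.zpowers σ)) →ₐ[ℚ] PadicAlgCl (q : ℕ))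
    (N : Subgroup (↥(fixedField (Subgroup.zpowers σ)))ˣ),
    T.card = k ∧ Disjoint S T ∧
    (∀ q ∈ T, ∃ ι : F →ₐ[ℚ] PadicAlgCl (q : ℕ), (∀ y : F, saux_IsRat (q : ℕ) (ι y)) ∧
      ι.comp (fixedField (Subgroup.zpowers σ)).val = κ q) ∧
    sec_Onto ↥(fixedField (Subgroup.zpowers σ)) p S T κ ∧
    N ≤ U ∧ U.map (powMonoidHom p) ≤ N ∧ N.relIndex U ≤ p ^ k ∧
    ∀ b ∈ N, ∀ q ∈ T, sec_PowAt (q : ℕ) ↥(fixedField (Subgroup.zpowers σ)) p (κ q)
      (gl_diagP ↥(fixedField (Subgroup.zpowers σ)) q b)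

theorem saux_base (p : ℕ) (S : Finset Nat.Primes)
    (κ₁ : ∀ q : Nat.Primes, ↥(fixedField (Subgroup.zpowers σ)) →ₐ[ℚ] PadicAlgCl (q : ℕ)) :
    saux_State σ p S (sec_units ↥(fixedField (Subgroup.zpowers σ)) S ∅ κ₁) 0 := by
  refine ⟨∅, κ₁, sec_units ↥(fixedField (Subgroup.zpowers σ)) S ∅ κ₁, rfl,
    Finset.disjoint_empty_right S, fun q hq => absurd hq (Finset.notMem_empty q), ?_, le_refl _,
    ?_, ?_, fun b _ q hq => absurd hq (Finset.notMem_empty q)⟩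
  · intro x _
    exact ⟨1, Subgroup.one_mem _, fun q hq => absurd hq (Finset.notMem_empty q)⟩
  · rintro _ ⟨c, hc, rfl⟩
    exact Subgroup.pow_mem _ hc _
  · rw [Subgroup.relIndex_self, pow_zero]

theorem saux_step (p : ℕ) (hp : p.Prime) (hp3 : 3 ≤ p) (ζ : F) (hζ : IsPrimitiveRoot ζ p)
    (hσ : orderOf σ = p) (S : Finset Nat.Primes)
    (κ₁ : ∀ q : Nat.Primes, ↥(fixedField (Subgroup.zpowers σ)) →ₐ[ℚ] PadicAlgCl (q : ℕ))
    (n : ℕ)
    (hidx : ((sec_units ↥(fixedField (Subgroup.zpowers σ)) S ∅ κ₁).map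
      (powMonoidHom p)).relIndex (sec_units ↥(fixedField (Subgroup.zpowers σ)) S ∅ κ₁) = p ^ n)
    (k : ℕ) (hk : k + 2 ≤ n)
    (h : saux_State σ p S (sec_units ↥(fixedField (Subgroup.zpowers σ)) S ∅ κ₁) k) :
    saux_State σ p S (sec_units ↥(fixedField (Subgroup.zpowers σ)) S ∅ κ₁) (k + 1) := by
  classical
  obtain ⟨T, κ, N, hcard, hdisj, hrat, honto, hNU, hVN, hNidx, hNpow⟩ := h
  obtain ⟨ζ', hζ'⟩ := saux_exists_zeta σ p hp hσ ⟨ζ, hζ⟩
  have hdeg := saux_finrank_fixed σ p hσ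
  have hsat : ∀ c : (↥(fixedField (Subgroup.zpowers σ)))ˣ,
      c ^ p ∈ sec_units ↥(fixedField (Subgroup.zpowers σ)) S ∅ κ₁ →
      c ∈ sec_units ↥(fixedField (Subgroup.zpowers σ)) S ∅ κ₁ :=
    fun c hc => saux_units_sat _ S κ₁ p hp.ne_zero c hc
  -- an element of `N` which is not a `p`-th power in `F`
  obtain ⟨xs, hxsN, hxs⟩ := saux_exists_x (F := F) p hp hdeg ζ' hζ' _ N hsat n k hidx hk hNU hVN
    hNidx
  have hxsU := hNU hxsN
  -- a place of degree one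
  obtain ⟨q', hq'X, hq'p, ι₀, hι₀⟩ := saux_place p hp hp3 F ζ hζ
    (algebraMap ↥(fixedField (Subgroup.zpowers σ)) F (xs : ↥(fixedField (Subgroup.zpowers σ))))
    hxs ((S ∪ T).image (fun q : Nat.Primes => (q : ℕ)))
  have hq'S : q' ∉ S := fun h =>
    hq'X (Finset.mem_image.mpr ⟨q', Finset.mem_union_left _ h, rfl⟩)
  have hq'T : q' ∉ T := fun h =>
    hq'X (Finset.mem_image.mpr ⟨q', Finset.mem_union_right _ h, rfl⟩)
  set ι' : F →ₐ[ℚ] PadicAlgCl (q' : ℕ) :=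
    ((algebraMap ℚ_[(q' : ℕ)] (PadicAlgCl (q' : ℕ))).comp (ι₀ : F →+* ℚ_[(q' : ℕ)])).toRatAlgHom
    with hι'
  have hι'app : ∀ y : F, ι' y = algebraMap ℚ_[(q' : ℕ)] (PadicAlgCl (q' : ℕ)) (ι₀ y) :=
    fun y => rfl
  set κ₀ : ↥(fixedField (Subgroup.zpowers σ)) →ₐ[ℚ] ℚ_[(q' : ℕ)] :=
    ι₀.comp (fixedField (Subgroup.zpowers σ)).val with hκ₀
  set κq : ↥(fixedField (Subgroup.zpowers σ)) →ₐ[ℚ] PadicAlgCl (q' : ℕ) :=
    ι'.comp (fixedField (Subgroup.zpowers σ)).val with hκq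
  have hκqapp : ∀ y : ↥(fixedField (Subgroup.zpowers σ)),
      κq y = algebraMap ℚ_[(q' : ℕ)] (PadicAlgCl (q' : ℕ)) (κ₀ y) := fun y => rfl
  have hκqrat : ∀ y : ↥(fixedField (Subgroup.zpowers σ)), saux_IsRat (q' : ℕ) (κq y) :=
    fun y => ⟨κ₀ y, (hκqapp y).symm⟩
  -- the elements of `U` are units at the new place
  have hUunit : ∀ b ∈ sec_units ↥(fixedField (Subgroup.zpowers σ)) S ∅ κ₁,
      ‖κ₀ ((b : (↥(fixedField (Subgroup.zpowers σ)))ˣ) : ↥(fixedField (Subgroup.zpowers σ)))‖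
        = 1 := by
    intro b hb
    rw [← PadicAlgCl.norm_extends (q' : ℕ), ← hκqapp]
    exact (saux_mem_units _ S κ₁ b).mp hb q' hq'S κq
  have hxs' : ¬ ∃ w : ℚ_[(q' : ℕ)], w ^ p =
      κ₀ ((xs : (↥(fixedField (Subgroup.zpowers σ)))ˣ) : ↥(fixedField (Subgroup.zpowers σ))) :=
    hι₀
  -- the new data
  obtain ⟨κ', hκ'1, hκ'2⟩ : ∃ κ' : ∀ q : Nat.Primes,
      ↥(fixedField (Subgroup.zpowers σ)) →ₐ[ℚ] PadicAlgCl (q : ℕ),
      κ' q' = κq ∧ ∀ q : Nat.Primes, q ≠ q' → κ' q = κ q :=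
    ⟨Function.update κ q' κq, Function.update_self _ _ _,
      fun q hq => Function.update_of_ne hq _ _⟩
  have hneT : ∀ q ∈ T, q ≠ q' := fun q hq h => hq'T (h ▸ hq)
  obtain ⟨hNq0, hNqp⟩ := saux_Nq_relIndex (q' : ℕ) κ₀ p
    (sec_units ↥(fixedField (Subgroup.zpowers σ)) S ∅ κ₁) hp hq'p hUunit
  refine ⟨insert q' T, κ', N ⊓ saux_Nq (q' : ℕ) κ₀ p
    (sec_units ↥(fixedField (Subgroup.zpowers σ)) S ∅ κ₁), ?_, ?_, ?_, ?_, ?_, ?_, ?_, ?_⟩
  · rw [Finset.card_insert_of_notMem hq'T, hcard]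
  · rw [Finset.disjoint_insert_right]
    exact ⟨hq'S, hdisj⟩
  · intro q hq
    rcases Finset.mem_insert.mp hq with rfl | hqT
    · exact ⟨ι', fun y => ⟨ι₀ y, (hι'app y).symm⟩, hκ'1.symm⟩
    · obtain ⟨ι, hι1, hι2⟩ := hrat q hqT
      exact ⟨ι, hι1, by rw [hκ'2 q (hneT q hqT)]; exact hι2⟩
  · -- `sec_Onto`
    intro x hx
    obtain ⟨b₀, hb₀U, hb₀⟩ := honto x hx
    rw [saux_units_eq _ S κ κ₁] at hb₀U
    have hfunit : ‖(((x q' / gl_diagP ↥(fixedField (Subgroup.zpowers σ)) q' b₀).1 κq :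
        (PadicAlgCl (q' : ℕ))ˣ) : PadicAlgCl (q' : ℕ))‖ = 1 := by
      have h1 : ‖(((x q').1 κq : (PadicAlgCl (q' : ℕ))ˣ) : PadicAlgCl (q' : ℕ))‖ = 1 :=
        (saux_mem_UP _ q' (x q')).mp (hx q' hq'S) κq
      have h2 : ‖κq ((b₀ : (↥(fixedField (Subgroup.zpowers σ)))ˣ) :
          ↥(fixedField (Subgroup.zpowers σ)))‖ = 1 :=
        (saux_mem_units _ S κ₁ b₀).mp hb₀U q' hq'S κq
      have e1 : ((x q' / gl_diagP ↥(fixedField (Subgroup.zpowers σ)) q' b₀).1 κq :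
          (PadicAlgCl (q' : ℕ))ˣ) =
          (x q').1 κq / (gl_diagP ↥(fixedField (Subgroup.zpowers σ)) q' b₀).1 κq := rfl
      rw [e1, Units.val_div_eq_div_val, norm_div, h1, saux_diagP_apply, h2, div_one]
    obtain ⟨j, hj⟩ := saux_onto_step (q' : ℕ) p hp hq'p κ₀ κq hκqapp xs (hUunit xs hxsU) hxs'
      (x q' / gl_diagP ↥(fixedField (Subgroup.zpowers σ)) q' b₀) hfunit
    refine ⟨b₀ * xs ^ j, ?_, ?_⟩
    · rw [saux_units_eq _ S κ' κ₁]
      exact Subgroup.mul_mem _ hb₀U (Subgroup.pow_mem _ hxsU _)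
    · intro q hq
      have hdiv : x q / gl_diagP ↥(fixedField (Subgroup.zpowers σ)) q (b₀ * xs ^ j) =
          (x q / gl_diagP ↥(fixedField (Subgroup.zpowers σ)) q b₀) /
            (gl_diagP ↥(fixedField (Subgroup.zpowers σ)) q xs) ^ j := by
        rw [map_mul, map_pow, div_mul_eq_div_div]
      rw [hdiv]
      rcases Finset.mem_insert.mp hq with rfl | hqT
      · rw [hκ'1]
        exact hj
      · rw [hκ'2 q (hneT q hqT)]
        exact saux_powAt_div_pow (q : ℕ) p (κ q) _ _ j (hb₀ q hqT) (hNpow xs hxsN q hqT)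
  · exact le_trans inf_le_left hNU
  · intro b hb
    refine ⟨hVN hb, ?_⟩
    obtain ⟨c, hc, rfl⟩ := hb
    exact saux_pow_mem_Nq (q' : ℕ) κ₀ p _ c hc
  · calc (N ⊓ saux_Nq (q' : ℕ) κ₀ p
          (sec_units ↥(fixedField (Subgroup.zpowers σ)) S ∅ κ₁)).relIndex
          (sec_units ↥(fixedField (Subgroup.zpowers σ)) S ∅ κ₁)
        ≤ N.relIndex (sec_units ↥(fixedField (Subgroup.zpowers σ)) S ∅ κ₁) *
          (saux_Nq (q' : ℕ) κ₀ p
            (sec_units ↥(fixedField (Subgroup.zpowers σ)) S ∅ κ₁)).relIndex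
            (sec_units ↥(fixedField (Subgroup.zpowers σ)) S ∅ κ₁) :=
          Subgroup.relIndex_inf_le
      _ ≤ p ^ k * p := Nat.mul_le_mul hNidx hNqp
      _ = p ^ (k + 1) := (pow_succ p k).symm
  · intro b hb q hq
    rcases Finset.mem_insert.mp hq with rfl | hqT
    · rw [hκ'1, saux_powAt_iff (q : ℕ) κq hκqrat p hp.ne_zero]
      obtain ⟨w, hw⟩ := hb.2.2
      refine ⟨w, ?_⟩
      rw [saux_diagP_apply, hκqapp, ← hw, map_pow]
    · rw [hκ'2 q (hneT q hqT)]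
      exact hNpow b hb.1 q hqT

theorem saux_induct (p : ℕ) (hp : p.Prime) (hp3 : 3 ≤ p) (ζ : F) (hζ : IsPrimitiveRoot ζ p)
    (hσ : orderOf σ = p) (S : Finset Nat.Primes)
    (κ₁ : ∀ q : Nat.Primes, ↥(fixedField (Subgroup.zpowers σ)) →ₐ[ℚ] PadicAlgCl (q : ℕ))
    (n : ℕ)
    (hidx : ((sec_units ↥(fixedField (Subgroup.zpowers σ)) S ∅ κ₁).map
      (powMonoidHom p)).relIndex (sec_units ↥(fixedField (Subgroup.zpowers σ)) S ∅ κ₁) = p ^ n)
    (k : ℕ) (hk : k + 1 ≤ n) :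
    saux_State σ p S (sec_units ↥(fixedField (Subgroup.zpowers σ)) S ∅ κ₁) k := by
  induction k with
  | zero => exact saux_base σ p S κ₁
  | succ k ih =>
    exact saux_step σ p hp hp3 ζ hζ hσ S κ₁ n hidx k (by omega) (ih (by omega))

end main

/-- **[SEC-AUX]** the auxiliary places exist. -/
theorem saux_main : sec_SUnitStatement → sec_AuxStatement := by
  intro hSU F _ _ p hp hp2 hζex σ hσ S hS hpS hcl
  obtain ⟨ζ, hζ⟩ := hζex
  have hp3 : 3 ≤ p := by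
    have := hp.two_le
    omega
  have hσp : σ ^ p = 1 := by
    rw [← hσ]
    exact pow_orderOf_eq_one σ
  have hσ1 : σ ≠ 1 := by
    rintro rfl
    rw [orderOf_one] at hσ
    exact hp.one_lt.ne hσ
  have hne : ∀ q : Nat.Primes,
      Nonempty (↥(fixedField (Subgroup.zpowers σ)) →ₐ[ℚ] PadicAlgCl (q : ℕ)) :=
    fun q => ⟨IsAlgClosed.lift⟩
  obtain ⟨κ₁⟩ : Nonempty (∀ q : Nat.Primes,
      ↥(fixedField (Subgroup.zpowers σ)) →ₐ[ℚ] PadicAlgCl (q : ℕ)) :=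
    ⟨fun q => (hne q).some⟩
  have hidx := hSU ↥(fixedField (Subgroup.zpowers σ)) p hp hp2
    (saux_exists_zeta σ p hp hσ ⟨ζ, hζ⟩) S ∅ κ₁ (Finset.disjoint_empty_right S)
  rw [Finset.card_empty, add_zero] at hidx
  have hn : 1 ≤ sec_n ↥(fixedField (Subgroup.zpowers σ)) S := by
    obtain ⟨P, hP⟩ : ∃ P : Nat.Primes, P = ⟨p, hp⟩ := ⟨_, rfl⟩
    rw [← hP] at hpS
    have h1 : Nat.card (gl_Place (P : ℕ)
        ↥(fixedField (Subgroup.zpowers σ))) ≤
        ∑ q ∈ S, Nat.card (gl_Place (q : ℕ) ↥(fixedField (Subgroup.zpowers σ))) :=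
      Finset.single_le_sum
        (f := fun q : Nat.Primes => Nat.card (gl_Place (q : ℕ)
          ↥(fixedField (Subgroup.zpowers σ))))
        (fun _ _ => Nat.zero_le _) hpS
    have h2 := saux_card_place_pos ↥(fixedField (Subgroup.zpowers σ)) (P : ℕ)
    have h3 : sec_n ↥(fixedField (Subgroup.zpowers σ)) S =
        ∑ q ∈ S, Nat.card (gl_Place (q : ℕ) ↥(fixedField (Subgroup.zpowers σ))) +
          Module.finrank ℚ ↥(fixedField (Subgroup.zpowers σ)) / 2 := rfl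
    omega
  obtain ⟨T, κ, N, hcard, hdisj, hrat, honto, -⟩ := saux_induct σ p hp hp3 ζ hζ hσ S κ₁ _ hidx
    (sec_n ↥(fixedField (Subgroup.zpowers σ)) S - 1) (by omega)
  refine ⟨T, κ, hdisj, by omega, ?_, honto⟩
  intro q hq
  obtain ⟨ι, hι, hκ⟩ := hrat q hq
  rw [← hκ]
  exact saux_split (q : ℕ) σ p hp.pos hσp hσ1 ι hι

end

end Fermat.Agent.S55
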