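/-
S55 (fifth wave), GLOBAL side, package [SEC-SUNIT] (helper18), part 1: ALGEBRA.

The Herbrand calculus of helper26 (`Global/HerbBasic.lean`) for the pair `f = 0`, `g = n`
(multiplication by `n`) on an additive commutative group `A`:
`herb_idx 0 n = [A : nA]`, `herb_idx n 0 = #A[n]`, `ssu_Q A n = [A : nA] / #A[n]`.
Multiplicativity in short exact sequences, finite groups, isomorphisms, `ℤ^ι`.
Mathlib + `HerbBasic` only.
-/
import Mathlib
import Fermat.Agent.S55.Global.HerbBasic

set_option autoImplicit false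

namespace Fermat.Agent.S55

noncomputable section

section alg

variable (A : Type*) [AddCommGroup A] (n : ℕ)

/-- Multiplication by `n` on an additive commutative group. -/
def ssu_pm : A →+ A := nsmulAddMonoidHom n

@[simp] theorem ssu_pm_apply (a : A) : ssu_pm A n a = n • a := rfl

/-- The quotient `[A : nA] / #A[n]`. -/
def ssu_Q : ℚ := herb_q (0 : A →+ A) (ssu_pm A n)

/-- Both `[A : nA]` and `#A[n]` are finite. -/
def ssu_Fin : Prop := herb_Fin (0 : A →+ A) (ssu_pm A n)

theorem ssu_idx_zero_pm : herb_idx (0 : A →+ A) (ssu_pm A n) = (ssu_pm A n).range.index := by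
  unfold herb_idx
  have h1 : (0 : A →+ A).ker = ⊤ := by
    ext x; simp
  rw [h1, AddSubgroup.relIndex_top_right]

theorem ssu_idx_pm_zero : herb_idx (ssu_pm A n) (0 : A →+ A) = Nat.card (ssu_pm A n).ker := by
  unfold herb_idx
  have h1 : (0 : A →+ A).range = ⊥ := by
    ext x
    simp only [AddMonoidHom.mem_range, AddMonoidHom.zero_apply, exists_const,
      AddSubgroup.mem_bot]
    exact eq_comm
  rw [h1, AddSubgroup.relIndex_bot_left]

/-- `[A : nA] = ssu_Q A n * #A[n]`. -/
theorem ssu_index_eq (h : ssu_Fin A n) :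
    ((ssu_pm A n).range.index : ℚ) = ssu_Q A n * (Nat.card (ssu_pm A n).ker : ℚ) := by
  unfold ssu_Q herb_q
  rw [ssu_idx_zero_pm, ssu_idx_pm_zero]
  have h2 : (Nat.card (ssu_pm A n).ker : ℚ) ≠ 0 := by
    have := h.2
    rw [ssu_idx_pm_zero] at this
    exact Nat.cast_ne_zero.2 this
  field_simp

variable {A}

theorem ssu_Q_congr {B : Type*} [AddCommGroup B] (e : A ≃+ B) : ssu_Q A n = ssu_Q B n :=
  herb_q_congr e _ _ _ _ (fun a => by simp) (fun a => by simp [ssu_pm])

theorem ssu_Fin_congr {B : Type*} [AddCommGroup B] (e : A ≃+ B) : ssu_Fin A n ↔ ssu_Fin B n :=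
  herb_fin_congr e _ _ _ _ (fun a => by simp) (fun a => by simp [ssu_pm])

variable (A)

theorem ssu_Fin_of_finite [Finite A] : ssu_Fin A n := herb_fin_of_finite _ _

theorem ssu_Q_of_finite [Finite A] : ssu_Q A n = 1 :=
  herb_q_finite _ _ (fun a => by simp) (fun a => by simp)

variable {A}

section exact

variable {A' A'' : Type*} [AddCommGroup A'] [AddCommGroup A'']
  (i : A' →+ A) (π : A →+ A'') (hi : Function.Injective i) (hπ : Function.Surjective π)
  (hex : π.ker = i.range)

include hi hπ hex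

theorem ssu_Fin_mid (h' : ssu_Fin A' n) (h'' : ssu_Fin A'' n) : ssu_Fin A n :=
  herb_fin_mid i π hi hπ hex _ _ _ _ _ _ (fun a => by simp) (fun a => by simp [ssu_pm])
    (fun a => by simp) (fun a => by simp [ssu_pm]) (fun a => by simp) (fun a => by simp) h' h''

theorem ssu_Q_mul (h' : ssu_Fin A' n) (h'' : ssu_Fin A'' n) :
    ssu_Q A n = ssu_Q A' n * ssu_Q A'' n :=
  herb_q_mul i π hi hπ hex _ _ _ _ _ _ (fun a => by simp) (fun a => by simp [ssu_pm])
    (fun a => by simp) (fun a => by simp [ssu_pm]) (fun a => by simp) (fun a => by simp) h' h''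

theorem ssu_Fin_sub (h : ssu_Fin A n) (h'' : ssu_Fin A'' n) : ssu_Fin A' n :=
  herb_fin_sub i π hi hπ hex _ _ _ _ _ _ (fun a => by simp) (fun a => by simp [ssu_pm])
    (fun a => by simp) (fun a => by simp [ssu_pm]) (fun a => by simp) (fun a => by simp) h h''

end exact

/-- `ℤ^ι`: `[ℤ^ι : n ℤ^ι] = n ^ #ι`. -/
theorem ssu_index_pi (ι : Type*) [Fintype ι] :
    (ssu_pm (ι → ℤ) n).range.index = n ^ Fintype.card ι := by
  let f : (ι → ℤ) →+ (ι → ZMod n) := (Int.castAddHom (ZMod n)).compLeft ι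
  have hf : Function.Surjective f := by
    intro y
    refine ⟨fun i => ((ZMod.intCast_surjective (y i)).choose), ?_⟩
    funext i
    exact (ZMod.intCast_surjective (y i)).choose_spec
  have hker : f.ker = (ssu_pm (ι → ℤ) n).range := by
    ext x
    rw [AddMonoidHom.mem_ker, AddMonoidHom.mem_range]
    constructor
    · intro hx
      have h1 : ∀ i, (n : ℤ) ∣ x i := by
        intro i
        have := congrFun hx i
        exact (ZMod.intCast_zmod_eq_zero_iff_dvd (x i) n).1 this
      refine ⟨fun i => (h1 i).choose, ?_⟩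
      funext i
      show n • (h1 i).choose = x i
      rw [nsmul_eq_mul]
      exact (h1 i).choose_spec.symm
    · rintro ⟨y, rfl⟩
      funext i
      show ((n • y i : ℤ) : ZMod n) = 0
      simp
  rw [← hker, AddSubgroup.index_ker, AddMonoidHom.range_eq_top.2 hf]
  rw [Nat.card_congr (AddSubgroup.topEquiv (G := ι → ZMod n)).toEquiv, Nat.card_fun,
    Nat.card_zmod, Nat.card_eq_fintype_card]

theorem ssu_ker_pi (ι : Type*) (hn : n ≠ 0) : (ssu_pm (ι → ℤ) n).ker = ⊥ := by
  rw [eq_bot_iff]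
  intro x hx
  rw [AddSubgroup.mem_bot]
  funext i
  have h1 : n • x i = 0 := congrFun hx i
  rw [nsmul_eq_mul] at h1
  rcases mul_eq_zero.1 h1 with h | h
  · exact absurd (by exact_mod_cast h) hn
  · exact h

theorem ssu_Fin_pi (ι : Type*) [Fintype ι] (hn : n ≠ 0) : ssu_Fin (ι → ℤ) n := by
  constructor
  · rw [ssu_idx_zero_pm, ssu_index_pi]
    exact pow_ne_zero _ hn
  · rw [ssu_idx_pm_zero, ssu_ker_pi n ι hn]
    simp

theorem ssu_Q_pi (ι : Type*) [Fintype ι] (hn : n ≠ 0) :
    ssu_Q (ι → ℤ) n = (n : ℚ) ^ Fintype.card ι := by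
  unfold ssu_Q herb_q
  rw [ssu_idx_zero_pm, ssu_idx_pm_zero, ssu_index_pi, ssu_ker_pi n ι hn]
  simp

end alg

/-! ### The multiplicative bridge -/

section mult

variable {G : Type*} [CommGroup G] (E : Subgroup G) (n : ℕ)

/-- `[E : Eⁿ]` in additive notation. -/
theorem ssu_relIndex_eq :
    (E.map (powMonoidHom n : G →* G)).relIndex E = (ssu_pm (Additive ↥E) n).range.index := by
  have h1 : (E.map (powMonoidHom n : G →* G)).subgroupOf E =
      (powMonoidHom n : ↥E →* ↥E).range := by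
    ext x
    rw [Subgroup.mem_subgroupOf, Subgroup.mem_map, MonoidHom.mem_range]
    constructor
    · rintro ⟨y, hy, hyx⟩
      exact ⟨⟨y, hy⟩, Subtype.ext hyx⟩
    · rintro ⟨y, hy⟩
      exact ⟨y, y.2, congrArg Subtype.val hy⟩
  rw [Subgroup.relIndex, h1, ← Subgroup.index_toAddSubgroup]
  congr 1

/-- `#E[n]` in additive notation. -/
theorem ssu_card_ker_eq :
    Nat.card (ssu_pm (Additive ↥E) n).ker = Nat.card {x : G // x ∈ E ∧ x ^ n = 1} := by
  refine Nat.card_congr
    { toFun := fun x => ⟨((x.1.toMul : ↥E) : G), (x.1.toMul : ↥E).2, ?_⟩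
      invFun := fun x => ⟨Additive.ofMul ⟨x.1, x.2.1⟩, ?_⟩
      left_inv := fun x => rfl
      right_inv := fun x => rfl }
  · have h := x.2
    rw [AddMonoidHom.mem_ker] at h
    have h2 : (x.1.toMul : ↥E) ^ n = 1 := h
    exact congrArg Subtype.val h2
  · rw [AddMonoidHom.mem_ker]
    show Additive.ofMul ((⟨x.1, x.2.1⟩ : ↥E) ^ n) = 0
    have : (⟨x.1, x.2.1⟩ : ↥E) ^ n = 1 := Subtype.ext x.2.2
    rw [this]
    rfl

end mult

end

end Fermat.Agent.S55

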