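/-
S55 (Poitou-Tate), GLOBAL side, package [SUPP-GEN] (helper16): `gso_main` without the
surjectivity hypothesis.  Every smooth 2-cocycle `f` of `gl_locU q F H ι` which is inflated from
the decomposition group of `ι` is the localisation at `ι` of an idele-valued 2-cocycle of `H`
supported at the place of `K = F^H` defined by `ι`.
Prefix `gsg_`.  Export: `gsg_main : h3f_SuppGenStatement`.

Construction (Shapiro's quasi-inverse on cochains).  `D ≤ H` the image of `gl_locSigma`,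
`rep` representatives of the right cosets `D \ H` with `rep 1 = 1`, `γ σ ∈ gl_locU` a lift of
`δ σ := σ * (rep σ)⁻¹ ∈ D` (so `δ (d σ) = d δ σ`, `δ 1 = 1`).  For `ρ₁, ρ₂, σ ∈ H`
  `cval (ρ₁, ρ₂) σ := γ σ • f ((γ σ)⁻¹ γ (σ ρ₁), (γ (σ ρ₁))⁻¹ γ (σ ρ₁ ρ₂))`;
the cocycle identity for `cval` is the cocycle identity of `f` (no hypothesis on `f` needed),
`cval (ρ₁, ρ₂) (σ_g σ) = g • cval (ρ₁, ρ₂) σ` because `f` is inflated, and the semi-local idele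
`y (ρ₁, ρ₂)` is `τ ∘ ι ∘ σ ↦ τ • cval (ρ₁, ρ₂) σ`, `1` outside the class of `ι`.
-/
import Mathlib
import Fermat.Agent.S55.Global.SuppOne
import Fermat.Agent.S55.Global.H3FDefs

set_option autoImplicit false

namespace Fermat.Agent.S55

open groupCohomology

noncomputable section

/-! ### Representatives -/

section reps

variable {q : ℕ} [Fact q.Prime] {F : Type} [Field F] [NumberField F]
  (H : Subgroup (F ≃ₐ[ℚ] F)) (ι : F →ₐ[ℚ] PadicAlgCl q)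

/-- `gl_locSigma` as a homomorphism. -/
def gsg_sigma : ↥(gl_locU q F H ι) →* ↥H where
  toFun := gl_locSigma q F H ι
  map_one' := gic_locSigma_one q F H ι
  map_mul' := gic_locSigma_mul q F H ι

theorem gsg_sigma_apply (g : ↥(gl_locU q F H ι)) :
    gsg_sigma H ι g = gl_locSigma q F H ι g := rfl

theorem gsg_locSigma_inv (g : ↥(gl_locU q F H ι)) :
    gl_locSigma q F H ι g⁻¹ = (gl_locSigma q F H ι g)⁻¹ :=
  map_inv (gsg_sigma H ι) g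

/-- A normalised `D`-equivariant section: lifts `γ σ` of `δ σ ∈ D` with `δ (d σ) = d δ σ` and
`δ 1 = 1`. -/
theorem gsg_exists_gamma :
    ∃ γ : ↥H → ↥(gl_locU q F H ι),
      gl_locSigma q F H ι (γ 1) = 1 ∧
      ∀ (g : ↥(gl_locU q F H ι)) (σ : ↥H),
        gl_locSigma q F H ι (γ (gl_locSigma q F H ι g * σ)) =
          gl_locSigma q F H ι g * gl_locSigma q F H ι (γ σ) := by
  classical
  set D : Subgroup ↥H := (gsg_sigma H ι).range with hD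
  set rel : Setoid ↥H := QuotientGroup.rightRel D with hrel
  let rep : ↥H → ↥H := fun σ =>
    if Quotient.mk rel σ = Quotient.mk rel 1 then 1 else Quotient.out (Quotient.mk rel σ)
  have hrep_one : rep 1 = 1 := if_pos rfl
  have hrep_mem : ∀ σ : ↥H, σ * (rep σ)⁻¹ ∈ D := by
    intro σ
    by_cases h : Quotient.mk rel σ = Quotient.mk rel 1
    · have h1 : rep σ = 1 := if_pos h
      rw [h1, inv_one, mul_one]
      have h2 : rel σ 1 := Quotient.exact h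
      rw [hrel, QuotientGroup.rightRel_apply, one_mul] at h2
      have h3 := D.inv_mem h2
      rwa [inv_inv] at h3
    · have h1 : rep σ = Quotient.out (Quotient.mk rel σ) := if_neg h
      rw [h1]
      have h2 : rel (Quotient.out (Quotient.mk rel σ)) σ := Quotient.mk_out σ
      rw [hrel, QuotientGroup.rightRel_apply] at h2
      exact h2
  have hrep_congr : ∀ (d : ↥H), d ∈ D → ∀ σ : ↥H, rep (d * σ) = rep σ := by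
    intro d hd σ
    have h1 : Quotient.mk rel (d * σ) = Quotient.mk rel σ := by
      apply Quotient.sound
      show rel (d * σ) σ
      rw [hrel, QuotientGroup.rightRel_apply]
      have h2 : σ * (d * σ)⁻¹ = d⁻¹ := by group
      rw [h2]
      exact D.inv_mem hd
    show (if Quotient.mk rel (d * σ) = Quotient.mk rel 1 then 1
      else Quotient.out (Quotient.mk rel (d * σ))) =
      (if Quotient.mk rel σ = Quotient.mk rel 1 then 1 else Quotient.out (Quotient.mk rel σ))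
    rw [h1]
  have hex : ∀ σ : ↥H, ∃ g : ↥(gl_locU q F H ι), gl_locSigma q F H ι g = σ * (rep σ)⁻¹ := by
    intro σ
    obtain ⟨g, hg⟩ := hrep_mem σ
    exact ⟨g, hg⟩
  choose γ hγ using hex
  refine ⟨γ, ?_, fun g σ => ?_⟩
  · rw [hγ 1, hrep_one, inv_one, mul_one]
  · have h := hrep_congr (gl_locSigma q F H ι g) ⟨g, rfl⟩ σ
    rw [hγ, hγ, h, mul_assoc]

end reps

/-! ### The coinduced cocycle -/

section cval

variable {q : ℕ} [Fact q.Prime] {F : Type} [Field F] [NumberField F]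
  (H : Subgroup (F ≃ₐ[ℚ] F)) (ι : F →ₐ[ℚ] PadicAlgCl q)
  (γ : ↥H → ↥(gl_locU q F H ι))
  (f : ↥(gl_locU q F H ι) × ↥(gl_locU q F H ι) → (PadicAlgCl q)ˣ)

/-- The values of the coinduced cocycle. -/
def gsg_cval (ρ₁ ρ₂ σ : ↥H) : (PadicAlgCl q)ˣ :=
  γ σ • f ((γ σ)⁻¹ * γ (σ * ρ₁), (γ (σ * ρ₁))⁻¹ * γ (σ * ρ₁ * ρ₂))

theorem gsg_cval_cocycle (hf : IsMulCocycle₂ f) (ρ₁ ρ₂ ρ₃ σ : ↥H) :
    gsg_cval H ι γ f (ρ₁ * ρ₂) ρ₃ σ * gsg_cval H ι γ f ρ₁ ρ₂ σ =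
      gsg_cval H ι γ f ρ₂ ρ₃ (σ * ρ₁) * gsg_cval H ι γ f ρ₁ (ρ₂ * ρ₃) σ := by
  unfold gsg_cval
  have e1 : σ * (ρ₁ * ρ₂) = σ * ρ₁ * ρ₂ := (mul_assoc _ _ _).symm
  have e2 : σ * ρ₁ * (ρ₂ * ρ₃) = σ * ρ₁ * ρ₂ * ρ₃ := (mul_assoc _ _ _).symm
  rw [e1, e2]
  generalize γ σ = a
  generalize γ (σ * ρ₁) = b
  generalize γ (σ * ρ₁ * ρ₂) = c
  generalize γ (σ * ρ₁ * ρ₂ * ρ₃) = e
  have h := hf (a⁻¹ * b) (b⁻¹ * c) (c⁻¹ * e)
  have h1 : a⁻¹ * b * (b⁻¹ * c) = a⁻¹ * c := by group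
  have h2 : b⁻¹ * c * (c⁻¹ * e) = b⁻¹ * e := by group
  rw [h1, h2] at h
  have h3 := congrArg (fun v : (PadicAlgCl q)ˣ => a • v) h
  simp only [smul_mul'] at h3
  rw [← mul_smul, mul_inv_cancel_left] at h3
  exact h3

variable (hinf : ∀ g g' u u' : ↥(gl_locU q F H ι), gl_locSigma q F H ι u = 1 →
    gl_locSigma q F H ι u' = 1 → f (g * u, g' * u') = f (g, g'))
  (hfix : ∀ (g g' u : ↥(gl_locU q F H ι)), gl_locSigma q F H ι u = 1 →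
    (u : lcf_Gal q) • f (g, g') = f (g, g'))

include hinf in
theorem gsg_f_congr (g₁ g₁' g₂ g₂' : ↥(gl_locU q F H ι))
    (h₁ : gl_locSigma q F H ι g₁ = gl_locSigma q F H ι g₁')
    (h₂ : gl_locSigma q F H ι g₂ = gl_locSigma q F H ι g₂') :
    f (g₁, g₂) = f (g₁', g₂') := by
  have h := hinf g₁ g₂ (g₁⁻¹ * g₁') (g₂⁻¹ * g₂') (gso_locSigma_inv_mul H ι _ _ h₁)
    (gso_locSigma_inv_mul H ι _ _ h₂)
  rw [mul_inv_cancel_left, mul_inv_cancel_left] at h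
  exact h.symm

include hfix in
theorem gsg_smul_congr (a a' g g' : ↥(gl_locU q F H ι))
    (h : gl_locSigma q F H ι a = gl_locSigma q F H ι a') :
    a • f (g, g') = a' • f (g, g') := by
  have h1 : (a⁻¹ * a') • f (g, g') = f (g, g') :=
    hfix g g' (a⁻¹ * a') (gso_locSigma_inv_mul H ι _ _ h)
  have h2 : a' = a * (a⁻¹ * a') := (mul_inv_cancel_left _ _).symm
  conv_rhs => rw [h2, mul_smul, h1]

include hinf hfix in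
theorem gsg_cval_equiv
    (hγ : ∀ (g : ↥(gl_locU q F H ι)) (σ : ↥H),
      gl_locSigma q F H ι (γ (gl_locSigma q F H ι g * σ)) =
        gl_locSigma q F H ι g * gl_locSigma q F H ι (γ σ))
    (g : ↥(gl_locU q F H ι)) (ρ₁ ρ₂ σ : ↥H) :
    gsg_cval H ι γ f ρ₁ ρ₂ (gl_locSigma q F H ι g * σ) =
      g • gsg_cval H ι γ f ρ₁ ρ₂ σ := by
  unfold gsg_cval
  have e1 : gl_locSigma q F H ι g * σ * ρ₁ = gl_locSigma q F H ι g * (σ * ρ₁) := mul_assoc _ _ _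
  have e2 : gl_locSigma q F H ι g * (σ * ρ₁) * ρ₂ = gl_locSigma q F H ι g * (σ * ρ₁ * ρ₂) :=
    mul_assoc _ _ _
  rw [e1, e2]
  have ha := hγ g σ
  have hb := hγ g (σ * ρ₁)
  have hc := hγ g (σ * ρ₁ * ρ₂)
  have hf1 : f ((γ (gl_locSigma q F H ι g * σ))⁻¹ * γ (gl_locSigma q F H ι g * (σ * ρ₁)),
      (γ (gl_locSigma q F H ι g * (σ * ρ₁)))⁻¹ * γ (gl_locSigma q F H ι g * (σ * ρ₁ * ρ₂))) =
      f ((γ σ)⁻¹ * γ (σ * ρ₁), (γ (σ * ρ₁))⁻¹ * γ (σ * ρ₁ * ρ₂)) := by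
    apply gsg_f_congr H ι f hinf
    · rw [gic_locSigma_mul, gic_locSigma_mul, gsg_locSigma_inv, gsg_locSigma_inv, ha, hb]
      group
    · rw [gic_locSigma_mul, gic_locSigma_mul, gsg_locSigma_inv, gsg_locSigma_inv, hb, hc]
      group
  rw [hf1, ← mul_smul]
  apply gsg_smul_congr H ι f hfix
  rw [ha, gic_locSigma_mul]

end cval

/-! ### The semi-local idele -/

section semilocal

variable {q : ℕ} [Fact q.Prime] {F : Type} [Field F] [NumberField F]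
  (H : Subgroup (F ≃ₐ[ℚ] F)) (ι : F →ₐ[ℚ] PadicAlgCl q)

/-- The function `τ ∘ ι ∘ σ ↦ τ • φ σ`, `1` outside the class of `ι`. -/
def gsg_fun (φ : ↥H → (PadicAlgCl q)ˣ) : (F →ₐ[ℚ] PadicAlgCl q) → (PadicAlgCl q)ˣ := by
  classical
  exact fun ι' =>
    if h : ∃ (σ : ↥H) (τ : gl_GQq q),
        ι' = gl_twist q F τ (ι.comp (((σ : ↥H) : F ≃ₐ[ℚ] F) : F →ₐ[ℚ] F)) then
      Classical.choose (Classical.choose_spec h) • φ (Classical.choose h)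
    else 1

theorem gsg_fun_not (φ : ↥H → (PadicAlgCl q)ˣ) (ι' : F →ₐ[ℚ] PadicAlgCl q)
    (h : ¬ ∃ (σ : ↥H) (τ : gl_GQq q),
      ι' = gl_twist q F τ (ι.comp (((σ : ↥H) : F ≃ₐ[ℚ] F) : F →ₐ[ℚ] F))) :
    gsg_fun H ι φ ι' = 1 := by
  classical
  unfold gsg_fun
  rw [dif_neg h]

/-- The relation between two presentations of the same embedding. -/
theorem gsg_pres (σ σ' : ↥H) (τ τ' : gl_GQq q)
    (h : gl_twist q F τ (ι.comp (((σ : ↥H) : F ≃ₐ[ℚ] F) : F →ₐ[ℚ] F)) =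
      gl_twist q F τ' (ι.comp (((σ' : ↥H) : F ≃ₐ[ℚ] F) : F →ₐ[ℚ] F))) :
    ∃ g : ↥(gl_locU q F H ι), (g : lcf_Gal q) = τ'⁻¹ * τ ∧
      gl_locSigma q F H ι g * σ = σ' := by
  have h1 : gl_twist q F (τ'⁻¹ * τ) (ι.comp (((σ : ↥H) : F ≃ₐ[ℚ] F) : F →ₐ[ℚ] F)) =
      ι.comp (((σ' : ↥H) : F ≃ₐ[ℚ] F) : F →ₐ[ℚ] F) := by
    rw [gl_twist_mul, h, ← gl_twist_mul, inv_mul_cancel, gl_twist_one]
  have h2 : gl_twist q F (τ'⁻¹ * τ) ι =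
      ι.comp ((((σ' * σ⁻¹ : ↥H) : ↥H) : F ≃ₐ[ℚ] F) : F →ₐ[ℚ] F) := by
    ext x
    have h3 := congrArg (fun e : F →ₐ[ℚ] PadicAlgCl q =>
      e ((((σ⁻¹ : ↥H) : ↥H) : F ≃ₐ[ℚ] F) x)) h1
    have h4 : ((σ : ↥H) : F ≃ₐ[ℚ] F) ((((σ⁻¹ : ↥H) : ↥H) : F ≃ₐ[ℚ] F) x) = x :=
      ((σ : ↥H) : F ≃ₐ[ℚ] F).apply_symm_apply x
    have h5 : gl_twist q F (τ'⁻¹ * τ) (ι.comp (((σ : ↥H) : F ≃ₐ[ℚ] F) : F →ₐ[ℚ] F))
        ((((σ⁻¹ : ↥H) : ↥H) : F ≃ₐ[ℚ] F) x) = gl_twist q F (τ'⁻¹ * τ) ι x := by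
      show (τ'⁻¹ * τ) (ι (((σ : ↥H) : F ≃ₐ[ℚ] F) ((((σ⁻¹ : ↥H) : ↥H) : F ≃ₐ[ℚ] F) x))) = _
      rw [h4]
      rfl
    exact h5.symm.trans h3
  have hmem : τ'⁻¹ * τ ∈ gl_locU q F H ι := ⟨_, (σ' * σ⁻¹).2, h2⟩
  refine ⟨⟨τ'⁻¹ * τ, hmem⟩, rfl, ?_⟩
  have h6 : gl_locSigma q F H ι ⟨τ'⁻¹ * τ, hmem⟩ = σ' * σ⁻¹ :=
    Subtype.ext (gic_locSigma_eq q F H ι ⟨τ'⁻¹ * τ, hmem⟩ _ h2)
  rw [h6, inv_mul_cancel_right]

theorem gsg_fun_class (φ : ↥H → (PadicAlgCl q)ˣ)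
    (hφ : ∀ (g : ↥(gl_locU q F H ι)) (σ : ↥H), φ (gl_locSigma q F H ι g * σ) = g • φ σ)
    (σ : ↥H) (τ : gl_GQq q) :
    gsg_fun H ι φ (gl_twist q F τ (ι.comp (((σ : ↥H) : F ≃ₐ[ℚ] F) : F →ₐ[ℚ] F))) =
      τ • φ σ := by
  classical
  have h : ∃ (σ' : ↥H) (τ' : gl_GQq q),
      gl_twist q F τ (ι.comp (((σ : ↥H) : F ≃ₐ[ℚ] F) : F →ₐ[ℚ] F)) =
        gl_twist q F τ' (ι.comp (((σ' : ↥H) : F ≃ₐ[ℚ] F) : F →ₐ[ℚ] F)) := ⟨σ, τ, rfl⟩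
  have key : ∀ (σ' : ↥H) (τ' : gl_GQq q),
      gl_twist q F τ (ι.comp (((σ : ↥H) : F ≃ₐ[ℚ] F) : F →ₐ[ℚ] F)) =
        gl_twist q F τ' (ι.comp (((σ' : ↥H) : F ≃ₐ[ℚ] F) : F →ₐ[ℚ] F)) →
      τ' • φ σ' = τ • φ σ := by
    intro σ' τ' h1
    obtain ⟨g, hg, hgσ⟩ := gsg_pres H ι σ σ' τ τ' h1
    rw [← hgσ, hφ g σ]
    show τ' • ((g : lcf_Gal q) • φ σ) = τ • φ σ
    rw [hg, ← mul_smul, mul_inv_cancel_left]
  unfold gsg_fun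
  rw [dif_pos h]
  exact key _ _ (Classical.choose_spec (Classical.choose_spec h))

theorem gsg_fun_mem (φ : ↥H → (PadicAlgCl q)ˣ)
    (hφ : ∀ (g : ↥(gl_locU q F H ι)) (σ : ↥H), φ (gl_locSigma q F H ι g * σ) = g • φ σ) :
    gsg_fun H ι φ ∈ gl_Jq q F := by
  intro τ ι'
  by_cases h : ∃ (σ : ↥H) (τ' : gl_GQq q),
      ι' = gl_twist q F τ' (ι.comp (((σ : ↥H) : F ≃ₐ[ℚ] F) : F →ₐ[ℚ] F))
  · obtain ⟨σ, τ', rfl⟩ := h
    rw [← gl_twist_mul, gsg_fun_class H ι φ hφ, gsg_fun_class H ι φ hφ, mul_smul]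
    rfl
  · have h' : ¬ ∃ (σ : ↥H) (τ' : gl_GQq q),
        gl_twist q F τ ι' = gl_twist q F τ' (ι.comp (((σ : ↥H) : F ≃ₐ[ℚ] F) : F →ₐ[ℚ] F)) := by
      rintro ⟨σ, τ', hτ'⟩
      apply h
      refine ⟨σ, τ⁻¹ * τ', ?_⟩
      rw [gl_twist_mul, ← hτ', ← gl_twist_mul, inv_mul_cancel, gl_twist_one]
    rw [gsg_fun_not H ι φ _ h, gsg_fun_not H ι φ _ h', map_one]

theorem gsg_comp_class (σ ρ : ↥H) (τ : gl_GQq q) :
    (gl_twist q F τ (ι.comp (((σ : ↥H) : F ≃ₐ[ℚ] F) : F →ₐ[ℚ] F))).comp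
        (((ρ : ↥H) : F ≃ₐ[ℚ] F) : F →ₐ[ℚ] F) =
      gl_twist q F τ (ι.comp ((((σ * ρ : ↥H) : ↥H) : F ≃ₐ[ℚ] F) : F →ₐ[ℚ] F)) := by
  ext x
  rfl

theorem gsg_comp_not (ρ : ↥H) (ι' : F →ₐ[ℚ] PadicAlgCl q)
    (h : ¬ ∃ (σ : ↥H) (τ : gl_GQq q),
      ι' = gl_twist q F τ (ι.comp (((σ : ↥H) : F ≃ₐ[ℚ] F) : F →ₐ[ℚ] F))) :
    ¬ ∃ (σ : ↥H) (τ : gl_GQq q),
      ι'.comp (((ρ : ↥H) : F ≃ₐ[ℚ] F) : F →ₐ[ℚ] F) =
        gl_twist q F τ (ι.comp (((σ : ↥H) : F ≃ₐ[ℚ] F) : F →ₐ[ℚ] F)) := by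
  rintro ⟨σ, τ, hτ⟩
  apply h
  refine ⟨σ * ρ⁻¹, τ, ?_⟩
  rw [← gsg_comp_class H ι σ ρ⁻¹ τ, ← hτ]
  ext x
  show ι' x = ι' (((ρ : ↥H) : F ≃ₐ[ℚ] F) ((((ρ⁻¹ : ↥H) : ↥H) : F ≃ₐ[ℚ] F) x))
  congr 1
  exact ((((ρ : ↥H) : F ≃ₐ[ℚ] F)).apply_symm_apply x).symm

end semilocal

/-! ### The construction -/

section main

variable {q : ℕ} [Fact q.Prime] {F : Type} [Field F] [NumberField F]
  (H : Subgroup (F ≃ₐ[ℚ] F)) (ι : F →ₐ[ℚ] PadicAlgCl q)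
  (γ : ↥H → ↥(gl_locU q F H ι))
  (hγ : ∀ (g : ↥(gl_locU q F H ι)) (σ : ↥H),
      gl_locSigma q F H ι (γ (gl_locSigma q F H ι g * σ)) =
        gl_locSigma q F H ι g * gl_locSigma q F H ι (γ σ))
  (f : ↥(gl_locU q F H ι) × ↥(gl_locU q F H ι) → (PadicAlgCl q)ˣ)
  (hinf : ∀ g g' u u' : ↥(gl_locU q F H ι), gl_locSigma q F H ι u = 1 →
    gl_locSigma q F H ι u' = 1 → f (g * u, g' * u') = f (g, g'))
  (hfix : ∀ (g g' u : ↥(gl_locU q F H ι)), gl_locSigma q F H ι u = 1 →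
    (u : lcf_Gal q) • f (g, g') = f (g, g'))

/-- The semi-local idele `y (ρ₁, ρ₂)`. -/
def gsg_Y (ρ₁ ρ₂ : ↥H) : gl_JP F (⟨q, Fact.out⟩ : Nat.Primes) :=
  ⟨gsg_fun H ι (gsg_cval H ι γ f ρ₁ ρ₂),
    gsg_fun_mem H ι _ (fun g σ => gsg_cval_equiv H ι γ f hinf hfix hγ g ρ₁ ρ₂ σ)⟩

theorem gsg_Y_class (ρ₁ ρ₂ σ : ↥H) (τ : gl_GQq q) :
    (gsg_Y H ι γ hγ f hinf hfix ρ₁ ρ₂).1
        (gl_twist q F τ (ι.comp (((σ : ↥H) : F ≃ₐ[ℚ] F) : F →ₐ[ℚ] F))) =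
      τ • gsg_cval H ι γ f ρ₁ ρ₂ σ :=
  gsg_fun_class H ι _ (fun g σ => gsg_cval_equiv H ι γ f hinf hfix hγ g ρ₁ ρ₂ σ) σ τ

theorem gsg_Y_not (ρ₁ ρ₂ : ↥H) (ι' : F →ₐ[ℚ] PadicAlgCl q)
    (h : ¬ ∃ (σ : ↥H) (τ : gl_GQq q),
      ι' = gl_twist q F τ (ι.comp (((σ : ↥H) : F ≃ₐ[ℚ] F) : F →ₐ[ℚ] F))) :
    (gsg_Y H ι γ hγ f hinf hfix ρ₁ ρ₂).1 ι' = 1 :=
  gsg_fun_not H ι _ ι' h

theorem gsg_Y_cocycle (hf : IsMulCocycle₂ f) (ρ₁ ρ₂ ρ₃ : ↥H) :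
    gsg_Y H ι γ hγ f hinf hfix (ρ₁ * ρ₂) ρ₃ * gsg_Y H ι γ hγ f hinf hfix ρ₁ ρ₂ =
      ((ρ₁ : ↥H) : F ≃ₐ[ℚ] F) • gsg_Y H ι γ hγ f hinf hfix ρ₂ ρ₃ *
        gsg_Y H ι γ hγ f hinf hfix ρ₁ (ρ₂ * ρ₃) := by
  apply Subtype.ext
  funext ι'
  show (gsg_Y H ι γ hγ f hinf hfix (ρ₁ * ρ₂) ρ₃).1 ι' *
      (gsg_Y H ι γ hγ f hinf hfix ρ₁ ρ₂).1 ι' =
    (gsg_Y H ι γ hγ f hinf hfix ρ₂ ρ₃).1 (ι'.comp (((ρ₁ : ↥H) : F ≃ₐ[ℚ] F) : F →ₐ[ℚ] F)) *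
      (gsg_Y H ι γ hγ f hinf hfix ρ₁ (ρ₂ * ρ₃)).1 ι'
  by_cases h : ∃ (σ : ↥H) (τ : gl_GQq q),
      ι' = gl_twist q F τ (ι.comp (((σ : ↥H) : F ≃ₐ[ℚ] F) : F →ₐ[ℚ] F))
  · obtain ⟨σ, τ, rfl⟩ := h
    rw [gsg_comp_class H ι σ ρ₁ τ, gsg_Y_class, gsg_Y_class, gsg_Y_class, gsg_Y_class,
      ← smul_mul', ← smul_mul', gsg_cval_cocycle H ι γ f hf]
  · rw [gsg_Y_not H ι γ hγ f hinf hfix _ _ ι' h, gsg_Y_not H ι γ hγ f hinf hfix _ _ ι' h,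
      gsg_Y_not H ι γ hγ f hinf hfix _ _ ι' h,
      gsg_Y_not H ι γ hγ f hinf hfix _ _ _ (gsg_comp_not H ι ρ₁ ι' h)]

include hγ hinf hfix in
theorem gsg_cval_one (hγ1 : gl_locSigma q F H ι (γ 1) = 1) (g g' : ↥(gl_locU q F H ι)) :
    gsg_cval H ι γ f (gl_locSigma q F H ι g) (gl_locSigma q F H ι g') 1 = f (g, g') := by
  unfold gsg_cval
  have h1 : gl_locSigma q F H ι (γ (1 * gl_locSigma q F H ι g)) = gl_locSigma q F H ι g := by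
    have := hγ g 1
    rw [hγ1, mul_one] at this
    rw [one_mul]
    exact this
  have h2 : gl_locSigma q F H ι (γ (1 * gl_locSigma q F H ι g * gl_locSigma q F H ι g')) =
      gl_locSigma q F H ι g * gl_locSigma q F H ι g' := by
    have := hγ (g * g') 1
    rw [hγ1, mul_one, gic_locSigma_mul] at this
    rw [one_mul]
    exact this
  have h3 : f ((γ 1)⁻¹ * γ (1 * gl_locSigma q F H ι g),
      (γ (1 * gl_locSigma q F H ι g))⁻¹ *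
        γ (1 * gl_locSigma q F H ι g * gl_locSigma q F H ι g')) = f (g, g') := by
    apply gsg_f_congr H ι f hinf
    · rw [gic_locSigma_mul, gsg_locSigma_inv, hγ1, h1, inv_one, one_mul]
    · rw [gic_locSigma_mul, gsg_locSigma_inv, h1, h2, inv_mul_cancel_left]
  rw [h3]
  exact hfix g g' (γ 1) hγ1

end main

/-- **[SUPP-GEN]** -/
theorem gsg_main : h3f_SuppGenStatement := by
  intro F _ _ H q _ ι f hf hinf hfix
  obtain ⟨γ, hγ1, hγ⟩ := gsg_exists_gamma H ι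
  refine ⟨fun x => Additive.ofMul
    (gso_single F (⟨q, Fact.out⟩ : Nat.Primes) (gsg_Y H ι γ hγ f hinf hfix x.1 x.2)),
    ?_, ?_, ?_, ?_⟩
  · intro g h j
    have e := gsg_Y_cocycle H ι γ hγ f hinf hfix hf.1 g h j
    have e1 := gso_single_smul F (⟨q, Fact.out⟩ : Nat.Primes) ((g : ↥H) : F ≃ₐ[ℚ] F)
      (gsg_Y H ι γ hγ f hinf hfix h j)
    have e2 : gso_single F (⟨q, Fact.out⟩ : Nat.Primes) (gsg_Y H ι γ hγ f hinf hfix (g * h) j) *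
        gso_single F (⟨q, Fact.out⟩ : Nat.Primes) (gsg_Y H ι γ hγ f hinf hfix g h) =
      ((g : ↥H) : F ≃ₐ[ℚ] F) • gso_single F (⟨q, Fact.out⟩ : Nat.Primes)
          (gsg_Y H ι γ hγ f hinf hfix h j) *
        gso_single F (⟨q, Fact.out⟩ : Nat.Primes) (gsg_Y H ι γ hγ f hinf hfix g (h * j)) := by
      refine (map_mul (gso_single F (⟨q, Fact.out⟩ : Nat.Primes)) _ _).symm.trans ?_
      refine (congrArg (gso_single F (⟨q, Fact.out⟩ : Nat.Primes)) e).trans ?_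
      refine (map_mul (gso_single F (⟨q, Fact.out⟩ : Nat.Primes)) _ _).trans ?_
      exact congrArg (fun z => z * gso_single F (⟨q, Fact.out⟩ : Nat.Primes)
        (gsg_Y H ι γ hγ f hinf hfix g (h * j))) e1.symm
    exact congrArg Additive.ofMul e2
  · funext ⟨g, g'⟩
    have h0 := gso_single_same F (⟨q, Fact.out⟩ : Nat.Primes)
      (gsg_Y H ι γ hγ f hinf hfix (gl_locSigma q F H ι g) (gl_locSigma q F H ι g'))
    have h1 := gsg_Y_class H ι γ hγ f hinf hfix (gl_locSigma q F H ι g)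
      (gl_locSigma q F H ι g') 1 1
    have h2 : gl_twist q F (1 : gl_GQq q)
        (ι.comp ((((1 : ↥H) : ↥H) : F ≃ₐ[ℚ] F) : F →ₐ[ℚ] F)) = ι := by
      ext x
      rfl
    rw [h2, one_smul, gsg_cval_one H ι γ hγ f hinf hfix hγ1] at h1
    have h3 := congrArg (fun y : gl_JP F (⟨q, Fact.out⟩ : Nat.Primes) => y.1 ι) h0
    exact h3.trans h1
  · intro x r hr
    apply gso_single_ne
    intro h
    apply hr
    rw [h]
  · intro x ι' hι'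
    have h0 := gso_single_same F (⟨q, Fact.out⟩ : Nat.Primes)
      (gsg_Y H ι γ hγ f hinf hfix x.1 x.2)
    have h1 := gsg_Y_not H ι γ hγ f hinf hfix x.1 x.2 ι' (by
      rintro ⟨σ, τ, hτ⟩
      exact hι' ⟨σ.1, σ.2, τ, hτ⟩)
    have h3 := congrArg (fun y : gl_JP F (⟨q, Fact.out⟩ : Nat.Primes) => y.1 ι') h0
    exact h3.trans h1

end

end Fermat.Agent.S55
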